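import Mathlib
import Fermat.Agent.S18.H16_FKGen
import Fermat.Agent.S18.H99_F1Basics
import Fermat.Agent.S28.H96_Transfer
import Fermat.Agent.S28.H64_Triples

/-!
S34 / L0, cut (R+D) of helper99's plan (helper16): the modular RELATIONS between the functions
`j(q^d)` and the relative DEGREE `[F_N : F_M] = q + 1` for `N = q * M`, `q` prime, `q ∤ M`.

* `modPoly_root_shift` : `Φ_e(j(q^d), j(q^(d e))) = 0` over every commutative ring
  (`Φ_e = D.Φ`, `D : ModularPolynomialData e`), as an identity of Laurent series.
  Special cases: (R1) `d = M, e = q`; (R2) `d = 1, e = q`; (R3) `d = q, e = M`.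
* `relFK_*` : the same relations inside the function field `↥(modularFunctionFieldFullC K N)`.
-/

set_option autoImplicit false
set_option linter.unusedSectionVars false
set_option linter.style.haveILetI false
set_option synthInstance.maxHeartbeats 400000

noncomputable section

namespace Fermat.Agent.S34.H16

open ModularCurve HahnSeries Polynomial IntermediateField Fermat.Agent.S28

/-! ### 1. Relations, Laurent series level -/

/-- `Φ_e(j(q^d), j(q^(d e))) = 0` over every commutative ring. -/
theorem modPoly_root_shift (e : ℕ) [NeZero e] (D : ModularPolynomialData e) (d : ℕ) [NeZero d]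
    (R : Type*) [CommRing R] :
    D.Φ.eval₂ (evalJ (qExpand R d (jqModC R))) (qExpand R (d * e) (jqModC R)) = 0 := by
  have h := congrArg (qExpand R d) (S18.H16.modPoly_root e D R)
  rw [S28.H96.qExpand_eval₂_evalJ, map_zero, qExpand_qExpand] at h
  exact h

/-- variant with the level of the second function given by an equation `n = d * e`. -/
theorem modPoly_root_shift' (e : ℕ) [NeZero e] (D : ModularPolynomialData e) (d : ℕ) [NeZero d]
    (n : ℕ) [NeZero n] (hn : n = d * e) (R : Type*) [CommRing R] :
    D.Φ.eval₂ (evalJ (qExpand R d (jqModC R))) (qExpand R n (jqModC R)) = 0 := by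
  rw [qExpand_congr hn]
  exact modPoly_root_shift e D d R


/-! ### 2. Relations inside the function field `FK = ↥(modularFunctionFieldFullC K N)` -/

section Field

variable (K : Type*) [Field K] (N : ℕ) [NeZero N]

/-- Evaluation `ℤ[X] → FK`, `X ↦ x` (the `evalJ` of the function field). -/
def evalF (x : modularFunctionFieldFullC K N) : ℤ[X] →+* modularFunctionFieldFullC K N :=
  (Polynomial.aeval (R := ℤ) x).toRingHom

@[simp] theorem evalF_X (x : modularFunctionFieldFullC K N) : evalF K N x Polynomial.X = x := by
  simp [evalF]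

/-- The coercion `FK → K((q))` intertwines `evalF x` and `evalJ ↑x`. -/
theorem coe_evalF (x : modularFunctionFieldFullC K N) (c : ℤ[X]) :
    ((evalF K N x c : modularFunctionFieldFullC K N) : LaurentSeries K) =
      evalJ (x : LaurentSeries K) c := by
  have h : (algebraMap (modularFunctionFieldFullC K N) (LaurentSeries K)).comp (evalF K N x) =
      evalJ (x : LaurentSeries K) := by
    apply Polynomial.ringHom_ext
    · intro n
      simp [evalF, evalJ]
    · simp [evalF, evalJ]
  exact congrArg (fun f : ℤ[X] →+* LaurentSeries K => f c) h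

theorem coe_eval₂_evalF (Φ : Polynomial ℤ[X]) (x y : modularFunctionFieldFullC K N) :
    ((Φ.eval₂ (evalF K N x) y : modularFunctionFieldFullC K N) : LaurentSeries K) =
      Φ.eval₂ (evalJ (x : LaurentSeries K)) (y : LaurentSeries K) := by
  have h : (algebraMap (modularFunctionFieldFullC K N) (LaurentSeries K)).comp (evalF K N x) =
      evalJ (x : LaurentSeries K) := by
    apply RingHom.ext
    intro c
    exact coe_evalF K N x c
  have := Polynomial.hom_eval₂ Φ (evalF K N x)
    (algebraMap (modularFunctionFieldFullC K N) (LaurentSeries K)) y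
  rw [h] at this
  exact this

/-- **Relation in the function field**: `Φ_e(j_d, j_(d e)) = 0` whenever `d * e ∣ N`. -/
theorem relFK (e : ℕ) [NeZero e] (D : ModularPolynomialData e) (d : ℕ) [NeZero d]
    (n : ℕ) [NeZero n] (hn : n = d * e) (hd : d ∣ N) (hnN : n ∣ N) :
    D.Φ.eval₂ (evalF K N (S18.H99.jdK K N d hd)) (S18.H99.jdK K N n hnN) = 0 := by
  apply Subtype.ext
  rw [coe_eval₂_evalF, S18.H99.coe_jdK, S18.H99.coe_jdK]
  exact modPoly_root_shift' e D d n hn K

end Field


/-! ### 3. The relative degree `[F_N : F_M]` -/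

section Degree

variable (K : Type) [Field K] (M N : ℕ) [NeZero M] [NeZero N]

/-- The inclusion `F_M ⊆ F_N` (`M ∣ N`) as an algebra structure (to be used as a LOCAL instance:
`letI := H16.degAlgebra K M N h`). Definitionally
`(IntermediateField.inclusion (full_degeneracyC_le K h)).toRingHom.toAlgebra`. -/
abbrev degAlgebra (h : M ∣ N) :
    Algebra (modularFunctionFieldFullC K M) (modularFunctionFieldFullC K N) :=
  (IntermediateField.inclusion (full_degeneracyC_le K h)).toRingHom.toAlgebra

/-- `K(j)` inside `K((q))`. -/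
def kJ : IntermediateField K (LaurentSeries K) := IntermediateField.adjoin K {jqModC K}

theorem kJ_le_fullC : kJ K ≤ modularFunctionFieldFullC K N := by
  rw [kJ, IntermediateField.adjoin_le_iff]
  rintro x rfl
  exact jqModC_mem_full K N

/-- `[F_N : K(j)] = ψ(N)` as a relative rank inside `K((q))`. -/
theorem relfinrank_kJ_fullC (hNK : ((N : ℕ) : K) ≠ 0) :
    IntermediateField.relfinrank (kJ K) (modularFunctionFieldFullC K N) = dedekindPsi N := by
  have h1 := IntermediateField.relfinrank_map_map (K⟮S18.H16.jK K N⟯)
    (⊤ : IntermediateField K (modularFunctionFieldFullC K N))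
    (modularFunctionFieldFullC K N).val
  rw [IntermediateField.relfinrank_top_right, S18.H16.finrank_fullC_gen N K hNK] at h1
  have h2 : (K⟮S18.H16.jK K N⟯).map (modularFunctionFieldFullC K N).val = kJ K := by
    rw [IntermediateField.adjoin_map, Set.image_singleton, kJ]
    rfl
  have h3 : (⊤ : IntermediateField K (modularFunctionFieldFullC K N)).map
      (modularFunctionFieldFullC K N).val = modularFunctionFieldFullC K N := by
    rw [← AlgHom.fieldRange_eq_map, IntermediateField.fieldRange_val]
  rw [h2, h3] at h1
  exact h1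

/-- `[F_N : F_M] * ψ(M) = ψ(N)` as relative ranks. -/
theorem relfinrank_fullC_mul (h : M ∣ N) (hNK : ((N : ℕ) : K) ≠ 0) :
    dedekindPsi M * IntermediateField.relfinrank (modularFunctionFieldFullC K M)
      (modularFunctionFieldFullC K N) = dedekindPsi N := by
  have hMK : ((M : ℕ) : K) ≠ 0 := by
    intro h0
    obtain ⟨c, rfl⟩ := h
    apply hNK
    rw [Nat.cast_mul, h0, zero_mul]
  rw [← relfinrank_kJ_fullC K M hMK, ← relfinrank_kJ_fullC K N hNK]
  exact IntermediateField.relfinrank_mul_relfinrank (kJ_le_fullC K M) (full_degeneracyC_le K h)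

/-- `relfinrank F_M F_N = q + 1` for `N = q * M`, `q` prime, `q ∤ M`. -/
theorem relfinrank_fullC_prime (q : ℕ) (hq : q.Prime) (hqM : ¬ q ∣ M) (hN : N = q * M)
    (hNK : ((N : ℕ) : K) ≠ 0) :
    IntermediateField.relfinrank (modularFunctionFieldFullC K M)
      (modularFunctionFieldFullC K N) = q + 1 := by
  have h := relfinrank_fullC_mul K M N (hN ▸ Dvd.intro_left q rfl) hNK
  have hψ : dedekindPsi N = dedekindPsi M * (q + 1) := by
    rw [hN, S28.H64.dedekindPsi_prime_mul hq (Nat.pos_of_ne_zero (NeZero.ne M)), if_neg hqM]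
  rw [hψ] at h
  exact Nat.eq_of_mul_eq_mul_left (S18.H16.dedekindPsi_pos' M) h

/-- **(D)** `[F_N : F_M] = q + 1` for `N = q * M`, `q` prime, `q ∤ M`, for the inclusion algebra. -/
theorem finrank_fullC_prime (h : M ∣ N) (q : ℕ) (hq : q.Prime) (hqM : ¬ q ∣ M) (hN : N = q * M)
    (hNK : ((N : ℕ) : K) ≠ 0) :
    letI := degAlgebra K M N h
    Module.finrank (modularFunctionFieldFullC K M) (modularFunctionFieldFullC K N) = q + 1 := by
  letI := degAlgebra K M N h
  rw [← relfinrank_fullC_prime K M N q hq hqM hN hNK,
    IntermediateField.relfinrank_eq_finrank_of_le (full_degeneracyC_le K h)]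
  symm
  let e : (IntermediateField.extendScalars (full_degeneracyC_le K h)) ≃ₗ[modularFunctionFieldFullC K M]
      modularFunctionFieldFullC K N :=
    { toFun := fun x => ⟨x.1, x.2⟩
      invFun := fun x => ⟨x.1, x.2⟩
      map_add' := fun _ _ => rfl
      map_smul' := fun _ _ => rfl
      left_inv := fun _ => rfl
      right_inv := fun _ => rfl }
  exact e.finrank_eq

theorem finiteDimensional_fullC_prime (h : M ∣ N) (q : ℕ) (hq : q.Prime) (hqM : ¬ q ∣ M)
    (hN : N = q * M) (hNK : ((N : ℕ) : K) ≠ 0) :
    letI := degAlgebra K M N h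
    FiniteDimensional (modularFunctionFieldFullC K M) (modularFunctionFieldFullC K N) := by
  letI := degAlgebra K M N h
  apply Module.finite_of_finrank_pos
  rw [finrank_fullC_prime K M N h q hq hqM hN hNK]
  exact Nat.succ_pos q

/-! ### 4. `F_N = F_M(j_N)` and the minimal polynomial of `j_N` over `F_M` -/

theorem degAlgebra_algebraMap_eq (h : M ∣ N) (x : modularFunctionFieldFullC K M) :
    letI := degAlgebra K M N h
    algebraMap (modularFunctionFieldFullC K M) (modularFunctionFieldFullC K N) x =
      IntermediateField.inclusion (full_degeneracyC_le K h) x := by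
  letI := degAlgebra K M N h
  rw [RingHom.algebraMap_toAlgebra]
  rfl

theorem degAlgebra_algebraMap_coe (h : M ∣ N) (x : modularFunctionFieldFullC K M) :
    letI := degAlgebra K M N h
    ((algebraMap (modularFunctionFieldFullC K M) (modularFunctionFieldFullC K N) x :
      modularFunctionFieldFullC K N) : LaurentSeries K) = (x : LaurentSeries K) := by
  letI := degAlgebra K M N h
  rw [degAlgebra_algebraMap_eq]
  exact IntermediateField.coe_inclusion _ _


theorem degAlgebra_algebraMap_jdK (h : M ∣ N) (d : ℕ) [NeZero d] (hd : d ∣ M) :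
    letI := degAlgebra K M N h
    algebraMap (modularFunctionFieldFullC K M) (modularFunctionFieldFullC K N)
      (S18.H99.jdK K M d hd) = S18.H99.jdK K N d (hd.trans h) := by
  letI := degAlgebra K M N h
  apply Subtype.ext
  rw [degAlgebra_algebraMap_coe, S18.H99.coe_jdK, S18.H99.coe_jdK]

theorem degAlgebra_algebraMap_jK (h : M ∣ N) :
    letI := degAlgebra K M N h
    algebraMap (modularFunctionFieldFullC K M) (modularFunctionFieldFullC K N)
      (S18.H16.jK K M) = S18.H16.jK K N := by
  letI := degAlgebra K M N h
  apply Subtype.ext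
  rw [degAlgebra_algebraMap_coe, S18.H16.coe_jK, S18.H16.coe_jK]

theorem degAlgebra_algebraMap_jNK (h : M ∣ N) :
    letI := degAlgebra K M N h
    algebraMap (modularFunctionFieldFullC K M) (modularFunctionFieldFullC K N)
      (S18.H16.jNK K M) = S18.H99.jdK K N M h := by
  letI := degAlgebra K M N h
  apply Subtype.ext
  rw [degAlgebra_algebraMap_coe, S18.H16.coe_jNK, S18.H99.coe_jdK]

/-- The tower `K → F_M → F_N`. -/
theorem degAlgebra_isScalarTower (h : M ∣ N) :
    letI := degAlgebra K M N h
    IsScalarTower K (modularFunctionFieldFullC K M) (modularFunctionFieldFullC K N) := by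
  letI := degAlgebra K M N h
  refine IsScalarTower.of_algebraMap_eq (fun c => ?_)
  rw [degAlgebra_algebraMap_eq]
  exact ((IntermediateField.inclusion (full_degeneracyC_le K h)).commutes c).symm

/-- `algebraMap F_M F_N ∘ evalF x = evalF (algebraMap x)`. -/
theorem degAlgebra_algebraMap_evalF (h : M ∣ N) (x : modularFunctionFieldFullC K M) (c : ℤ[X]) :
    letI := degAlgebra K M N h
    algebraMap (modularFunctionFieldFullC K M) (modularFunctionFieldFullC K N) (evalF K M x c) =
      evalF K N (algebraMap (modularFunctionFieldFullC K M) (modularFunctionFieldFullC K N) x) c := by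
  letI := degAlgebra K M N h
  apply Subtype.ext
  rw [degAlgebra_algebraMap_coe, coe_evalF, coe_evalF, degAlgebra_algebraMap_coe]


/-- `F_M(j_N) = F_N` (intermediate field form). -/
theorem adjoin_jNK_over_eq_top (h : M ∣ N) (hNK : ((N : ℕ) : K) ≠ 0) :
    letI := degAlgebra K M N h
    IntermediateField.adjoin (modularFunctionFieldFullC K M) {S18.H16.jNK K N} = ⊤ := by
  letI := degAlgebra K M N h
  haveI := degAlgebra_isScalarTower K M N h
  rw [eq_top_iff]
  have hj : S18.H16.jK K N ∈ IntermediateField.adjoin (modularFunctionFieldFullC K M)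
        {S18.H16.jNK K N} := by
    have h0 := IntermediateField.algebraMap_mem (IntermediateField.adjoin
      (modularFunctionFieldFullC K M) {S18.H16.jNK K N}) (S18.H16.jK K M)
    have h1 := degAlgebra_algebraMap_jK K M N h
    exact h1 ▸ h0
  have h1 : (⊤ : IntermediateField K (modularFunctionFieldFullC K N)) ≤
      (IntermediateField.adjoin (modularFunctionFieldFullC K M)
        {S18.H16.jNK K N}).restrictScalars K := by
    rw [← S18.H16.adjoin_pair_eq_top_gen N K hNK, IntermediateField.adjoin_le_iff]
    rintro x (rfl | rfl)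
    · exact hj
    · exact IntermediateField.subset_adjoin (modularFunctionFieldFullC K M) {S18.H16.jNK K N}
        (Set.mem_singleton _)
  intro x _
  exact h1 (IntermediateField.mem_top)


theorem dedekindPsi_prime_eq {q : ℕ} (hq : q.Prime) : dedekindPsi q = q + 1 := by
  have := S28.H64.dedekindPsi_prime_mul hq (M := 1) Nat.one_pos
  rw [mul_one, dedekindPsi_one, one_mul, if_neg (Nat.Prime.not_dvd_one hq)] at this
  exact this

/-- `Φ_q(j_M, Y) ∈ F_M[Y]`: the candidate minimal polynomial of `j_N` over `F_M`. -/
def relPoly (q : ℕ) [NeZero q] (D : ModularPolynomialData q) :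
    Polynomial (modularFunctionFieldFullC K M) :=
  D.Φ.map (evalF K M (S18.H16.jNK K M))

theorem relPoly_monic (q : ℕ) [NeZero q] (D : ModularPolynomialData q) :
    (relPoly K M q D).Monic := D.monic.map _

theorem relPoly_natDegree (q : ℕ) [NeZero q] (hq : q.Prime) (D : ModularPolynomialData q) :
    (relPoly K M q D).natDegree = q + 1 := by
  rw [relPoly, D.monic.natDegree_map, D.natDegree_eq, dedekindPsi_prime_eq hq]

/-- `Φ_q(j_M, j_N) = 0` in `F_N`, in `aeval` form over `F_M`. -/
theorem aeval_jNK_relPoly (h : M ∣ N) (q : ℕ) [NeZero q] (hN : N = q * M)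
    (D : ModularPolynomialData q) :
    letI := degAlgebra K M N h
    Polynomial.aeval (S18.H16.jNK K N) (relPoly K M q D) = 0 := by
  letI := degAlgebra K M N h
  rw [relPoly, Polynomial.aeval_def, Polynomial.eval₂_map]
  have hcomp : (algebraMap (modularFunctionFieldFullC K M) (modularFunctionFieldFullC K N)).comp
      (evalF K M (S18.H16.jNK K M)) = evalF K N (S18.H99.jdK K N M h) := by
    apply RingHom.ext
    intro c
    rw [RingHom.comp_apply, degAlgebra_algebraMap_evalF, degAlgebra_algebraMap_jNK]
  rw [hcomp]
  exact relFK K N q D M N (hN.trans (mul_comm q M)) h dvd_rfl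


theorem isIntegral_jNK_over (h : M ∣ N) (q : ℕ) [NeZero q] (hN : N = q * M)
    (D : ModularPolynomialData q) :
    letI := degAlgebra K M N h
    IsIntegral (modularFunctionFieldFullC K M) (S18.H16.jNK K N) := by
  letI := degAlgebra K M N h
  exact ⟨relPoly K M q D, relPoly_monic K M q D, aeval_jNK_relPoly K M N h q hN D⟩

/-- **The minimal polynomial of `j_N` over `F_M` is `Φ_q(j_M, Y)`** (`N = q * M`, `q ∤ M`). -/
theorem minpoly_jNK_over (h : M ∣ N) (q : ℕ) [NeZero q] (hq : q.Prime) (hqM : ¬ q ∣ M)
    (hN : N = q * M) (hNK : ((N : ℕ) : K) ≠ 0) (D : ModularPolynomialData q) :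
    letI := degAlgebra K M N h
    minpoly (modularFunctionFieldFullC K M) (S18.H16.jNK K N) = relPoly K M q D := by
  letI := degAlgebra K M N h
  have hint := isIntegral_jNK_over K M N h q hN D
  have hdeg : (minpoly (modularFunctionFieldFullC K M) (S18.H16.jNK K N)).natDegree = q + 1 := by
    rw [← IntermediateField.adjoin.finrank hint, adjoin_jNK_over_eq_top K M N h hNK,
      IntermediateField.finrank_top', finrank_fullC_prime K M N h q hq hqM hN hNK]
  have hdvd := minpoly.dvd (modularFunctionFieldFullC K M) (S18.H16.jNK K N)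
    (aeval_jNK_relPoly K M N h q hN D)
  exact (Polynomial.eq_of_monic_of_dvd_of_natDegree_le (minpoly.monic hint)
    (relPoly_monic K M q D) hdvd (by rw [hdeg, relPoly_natDegree K M q hq D])).symm

/-- `F_M[j_N] = F_N` (subalgebra form). -/
theorem algebra_adjoin_jNK_over_eq_top (h : M ∣ N) (q : ℕ) [NeZero q] (hN : N = q * M)
    (hNK : ((N : ℕ) : K) ≠ 0) :
    letI := degAlgebra K M N h
    Algebra.adjoin (modularFunctionFieldFullC K M) {S18.H16.jNK K N} = ⊤ := by
  letI := degAlgebra K M N h
  obtain ⟨D, -⟩ := S28.H16.hasModPoly q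
  have hint := isIntegral_jNK_over K M N h q hN D
  rw [← IntermediateField.adjoin_simple_toSubalgebra_of_isAlgebraic hint.isAlgebraic,
    adjoin_jNK_over_eq_top K M N h hNK, IntermediateField.top_toSubalgebra]

/-- The `hmin` of a Kummer–Dedekind set-up: a polynomial over `F_M` killing `j_N` is a multiple of
`Φ_q(j_M, Y)`. -/
theorem relPoly_dvd_of_aeval_eq_zero (h : M ∣ N) (q : ℕ) [NeZero q] (hq : q.Prime)
    (hqM : ¬ q ∣ M) (hN : N = q * M) (hNK : ((N : ℕ) : K) ≠ 0) (D : ModularPolynomialData q)
    (p : Polynomial (modularFunctionFieldFullC K M)) :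
    letI := degAlgebra K M N h
    Polynomial.aeval (S18.H16.jNK K N) p = 0 → relPoly K M q D ∣ p := by
  letI := degAlgebra K M N h
  intro hp
  rw [← minpoly_jNK_over K M N h q hq hqM hN hNK D]
  exact minpoly.dvd _ _ hp

end Degree

end Fermat.Agent.S34.H16
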