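import Mathlib
import Fermat.Agent.S34.H16_RelDeg
import Fermat.Agent.S16.H36_DeltaUnit

/-!
S34 / L0 (helper16): the modular relations in the SWAPPED orientation (inner ↦ `j(q^(d e))`,
outer ↦ `j(q^d)`): `Φ_e(j(q^(d e)), j(q^d)) = 0`, over every commutative ring and inside the
function field. (Requested by helper55 for the `J = j * j_q` charts.)
-/

set_option autoImplicit false
set_option linter.unusedSectionVars false
set_option linter.style.haveILetI false
set_option synthInstance.maxHeartbeats 400000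

noncomputable section

namespace Fermat.Agent.S34.H16

open ModularCurve HahnSeries Polynomial IntermediateField Fermat.Agent.S28

/-- `Φ_e(j(q^(d e)), j(q^d)) = 0` over every commutative ring (swapped orientation). -/
theorem modPoly_root_shift_swap (e : ℕ) [NeZero e] (D : ModularPolynomialData e)
    (hD : ∀ (k : Type) [Field k] (ζ : kˣ), IsPrimitiveRoot ζ e → RootsAt k e ζ D.Φ)
    (d : ℕ) [NeZero d] (R : Type*) [CommRing R] :
    D.Φ.eval₂ (evalJ (qExpand R (d * e) (jqModC R))) (qExpand R d (jqModC R)) = 0 := by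
  have h := congrArg (qExpand R d) (S16.H36.modPoly_root_swap e D hD R)
  rw [S28.H96.qExpand_eval₂_evalJ, map_zero, qExpand_qExpand] at h
  exact h

theorem modPoly_root_shift_swap' (e : ℕ) [NeZero e] (D : ModularPolynomialData e)
    (hD : ∀ (k : Type) [Field k] (ζ : kˣ), IsPrimitiveRoot ζ e → RootsAt k e ζ D.Φ)
    (d : ℕ) [NeZero d] (n : ℕ) [NeZero n] (hn : n = d * e) (R : Type*) [CommRing R] :
    D.Φ.eval₂ (evalJ (qExpand R n (jqModC R))) (qExpand R d (jqModC R)) = 0 := by
  rw [qExpand_congr hn]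
  exact modPoly_root_shift_swap e D hD d R

/-- **Swapped relation in the function field**: `Φ_e(j_(d e), j_d) = 0` whenever `d * e ∣ N`. -/
theorem relFK_swap (K : Type*) [Field K] (N : ℕ) [NeZero N] (e : ℕ) [NeZero e]
    (D : ModularPolynomialData e)
    (hD : ∀ (k : Type) [Field k] (ζ : kˣ), IsPrimitiveRoot ζ e → RootsAt k e ζ D.Φ)
    (d : ℕ) [NeZero d] (n : ℕ) [NeZero n] (hn : n = d * e) (hd : d ∣ N) (hnN : n ∣ N) :
    D.Φ.eval₂ (evalF K N (S18.H99.jdK K N n hnN)) (S18.H99.jdK K N d hd) = 0 := by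
  apply Subtype.ext
  rw [coe_eval₂_evalF, S18.H99.coe_jdK, S18.H99.coe_jdK]
  exact modPoly_root_shift_swap' e D hD d n hn K

/-- `aeval`-shaped forms (inner `(aeval x).toRingHom`), for consumers such as
`CA.H55.isIntegral_adjoin_mul`: direct orientation. -/
theorem relFK_aeval (K : Type*) [Field K] (N : ℕ) [NeZero N] (e : ℕ) [NeZero e]
    (D : ModularPolynomialData e) (d : ℕ) [NeZero d] (n : ℕ) [NeZero n] (hn : n = d * e)
    (hd : d ∣ N) (hnN : n ∣ N) :
    D.Φ.eval₂ ((Polynomial.aeval (R := ℤ) (S18.H99.jdK K N d hd)).toRingHom)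
      (S18.H99.jdK K N n hnN) = 0 :=
  relFK K N e D d n hn hd hnN

theorem relFK_swap_aeval (K : Type*) [Field K] (N : ℕ) [NeZero N] (e : ℕ) [NeZero e]
    (D : ModularPolynomialData e)
    (hD : ∀ (k : Type) [Field k] (ζ : kˣ), IsPrimitiveRoot ζ e → RootsAt k e ζ D.Φ)
    (d : ℕ) [NeZero d] (n : ℕ) [NeZero n] (hn : n = d * e) (hd : d ∣ N) (hnN : n ∣ N) :
    D.Φ.eval₂ ((Polynomial.aeval (R := ℤ) (S18.H99.jdK K N n hnN)).toRingHom)
      (S18.H99.jdK K N d hd) = 0 :=
  relFK_swap K N e D hD d n hn hd hnN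

end Fermat.Agent.S34.H16
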