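import Fermat.Agent.S18.H99_F1Basics

/-!
# S34 (L0): the level-raising substitution `V_q : F(M) → F(N)`, `f(t) ↦ f(t^q)`  (helper36)

For any field `K` and `q * M ∣ N` the substitution `t ↦ t^q` (Prelude `qExpand K q`) maps
`modularFunctionFieldFullC K M = K(j(t^d) : d ∣ M)` into `modularFunctionFieldFullC K N`.

* `vSub K q M N h : F(M) →ₐ[K] F(N)`, `coe_vSub`, `vSub_injective`;
* values on generators: `vSub_jdK`, `vSub_jK`, `vSub_jNK`;
* naturality in the coefficient field: `fullCMap_vSub`;
* range: `fieldRange_vSub` (`= K(j(t^(q d)) : d ∣ M)`);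
* orders and coefficientwise integrality: `order_qExpand`, `forall_coeff_mem_qExpand_iff`.
-/

set_option autoImplicit false
set_option linter.unusedSectionVars false

noncomputable section

namespace Fermat.Agent.S34.H36

open ModularCurve HahnSeries IntermediateField Fermat.Agent.S18

section Def

variable (K : Type*) [Field K] (q M N : ℕ) [NeZero q] [NeZero M] [NeZero N]

/-- `t ↦ t^q` maps `K(j(t^d) : d ∣ M)` into `K(j(t^d) : d ∣ N)` when `q * M ∣ N`. -/
theorem qExpand_mem_fullC (h : q * M ∣ N) {x : LaurentSeries K}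
    (hx : x ∈ modularFunctionFieldFullC K M) :
    qExpand K q x ∈ modularFunctionFieldFullC K N := by
  unfold modularFunctionFieldFullC at hx
  induction hx using IntermediateField.adjoin_induction with
  | mem y hy =>
      obtain ⟨d, hne, hd, rfl⟩ := hy
      have := hne
      rw [qExpand_qExpand]
      have : NeZero (q * d) := ⟨Nat.mul_ne_zero (NeZero.ne q) (NeZero.ne d)⟩
      exact jqModCd_mem_full K N ((Nat.mul_dvd_mul_left q hd).trans h)
  | algebraMap r =>
      have : qExpand K q (algebraMap K (LaurentSeries K) r) = algebraMap K (LaurentSeries K) r :=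
        (qExpandAlgHomC K q).commutes r
      rw [this]
      exact IntermediateField.algebraMap_mem _ _
  | add y z _ _ hy hz => rw [map_add]; exact add_mem hy hz
  | inv y _ hy => rw [map_inv₀]; exact inv_mem hy
  | mul y z _ _ hy hz => rw [map_mul]; exact mul_mem hy hz

/-- **The substitution `V_q : F(M) → F(N)`**, `f(t) ↦ f(t^q)`, as a `K`-algebra homomorphism. -/
def vSub (h : q * M ∣ N) :
    modularFunctionFieldFullC K M →ₐ[K] modularFunctionFieldFullC K N :=
  ((qExpandAlgHomC K q).comp (modularFunctionFieldFullC K M).val).codRestrict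
    (modularFunctionFieldFullC K N).toSubalgebra
    (fun x => qExpand_mem_fullC K q M N h x.2)

@[simp] theorem coe_vSub (h : q * M ∣ N) (x : modularFunctionFieldFullC K M) :
    ((vSub K q M N h x : modularFunctionFieldFullC K N) : LaurentSeries K) =
      qExpand K q (x : LaurentSeries K) := rfl

theorem vSub_injective (h : q * M ∣ N) : Function.Injective (vSub K q M N h) :=
  (vSub K q M N h).toRingHom.injective

/-- `V_q (j(t^d)) = j(t^(q d))`. -/
theorem vSub_jdK (h : q * M ∣ N) (d : ℕ) [NeZero d] (hd : d ∣ M) :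
    haveI : NeZero (q * d) := ⟨Nat.mul_ne_zero (NeZero.ne q) (NeZero.ne d)⟩
    vSub K q M N h (H99.jdK K M d hd) =
      H99.jdK K N (q * d) ((Nat.mul_dvd_mul_left q hd).trans h) := by
  apply Subtype.ext
  rw [coe_vSub, H99.coe_jdK, H99.coe_jdK, qExpand_qExpand]

/-- `V_q (j) = j(t^q)`. -/
theorem vSub_jK (h : q * M ∣ N) :
    vSub K q M N h (H16.jK K M) = H99.jdK K N q ((Dvd.intro _ rfl).trans h) := by
  apply Subtype.ext
  rw [coe_vSub, H16.coe_jK, H99.coe_jdK]

/-- `V_q (j(t^M)) = j(t^(q M))`. -/
theorem vSub_jNK (h : q * M ∣ N) :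
    haveI : NeZero (q * M) := ⟨Nat.mul_ne_zero (NeZero.ne q) (NeZero.ne M)⟩
    vSub K q M N h (H16.jNK K M) = H99.jdK K N (q * M) h := by
  apply Subtype.ext
  rw [coe_vSub, H16.coe_jNK, H99.coe_jdK, qExpand_qExpand]

/-- In the case `N = q * M`: `V_q (j(t^M)) = j(t^N)`. -/
theorem vSub_jNK_self [NeZero (q * M)] :
    vSub K q M (q * M) dvd_rfl (H16.jNK K M) = H16.jNK K (q * M) := by
  apply Subtype.ext
  rw [coe_vSub, H16.coe_jNK, H16.coe_jNK, qExpand_qExpand]

end Def

section Naturality

variable {K K' : Type*} [Field K] [Field K'] (f : K →+* K')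
  (q M N : ℕ) [NeZero q] [NeZero M] [NeZero N]

/-- `V_q` commutes with the coefficientwise maps. -/
theorem fullCMap_vSub (h : q * M ∣ N) (x : modularFunctionFieldFullC K M) :
    H99.fullCMap f N (vSub K q M N h x) = vSub K' q M N h (H99.fullCMap f M x) := by
  apply Subtype.ext
  rw [H99.coe_fullCMap, coe_vSub, coe_vSub, H99.coe_fullCMap, coeffMap_qExpand]

end Naturality

section Range

variable (K : Type*) [Field K] (q M N : ℕ) [NeZero q] [NeZero M] [NeZero N]

/-- The image of `V_q` inside `K((t))` is `K(j(t^(q d)) : d ∣ M)`. -/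
theorem map_qExpand_fullC :
    (modularFunctionFieldFullC K M).map (qExpandAlgHomC K q) =
      IntermediateField.adjoin K
        {x | ∃ (d : ℕ) (_ : NeZero d), d ∣ M ∧ x = qExpand K (q * d) (jqModC K)} := by
  unfold modularFunctionFieldFullC
  rw [IntermediateField.adjoin_map]
  congr 1
  ext x
  constructor
  · rintro ⟨y, ⟨d, hne, hd, rfl⟩, rfl⟩
    refine ⟨d, hne, hd, ?_⟩
    have := hne
    rw [qExpandAlgHomC_apply, qExpand_qExpand]
  · rintro ⟨d, hne, hd, rfl⟩
    have := hne
    refine ⟨qExpand K d (jqModC K), ⟨d, hne, hd, rfl⟩, ?_⟩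
    rw [qExpandAlgHomC_apply, qExpand_qExpand]

/-- Membership in the image of `V_q`, elementwise. -/
theorem exists_vSub_eq_iff (h : q * M ∣ N) (y : modularFunctionFieldFullC K N) :
    (∃ x, vSub K q M N h x = y) ↔
      (y : LaurentSeries K) ∈ IntermediateField.adjoin K
        {x | ∃ (d : ℕ) (_ : NeZero d), d ∣ M ∧ x = qExpand K (q * d) (jqModC K)} := by
  rw [← map_qExpand_fullC]
  constructor
  · rintro ⟨x, rfl⟩
    exact ⟨(x : LaurentSeries K), x.2, rfl⟩
  · rintro ⟨x, hx, hxy⟩
    exact ⟨⟨x, hx⟩, Subtype.ext hxy⟩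

end Range

section Coeff

variable {R : Type*} [CommRing R] (q : ℕ) [NeZero q]

/-- Coefficients of `f(t^q)`: those of `f`, spread out. -/
theorem coeff_qExpand (f : LaurentSeries R) (k : ℤ) :
    (qExpand R q f).coeff k = if (q : ℤ) ∣ k then f.coeff (k / q) else 0 := by
  split_ifs with hk
  · obtain ⟨m, rfl⟩ := hk
    have hq : (q : ℤ) ≠ 0 := by exact_mod_cast NeZero.ne q
    rw [qExpand_coeff_mul, Int.mul_ediv_cancel_left _ hq]
  · exact qExpand_coeff_of_not_dvd q f hk

/-- All coefficients of `f(t^q)` lie in a set containing `0` iff all those of `f` do. -/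
theorem forall_coeff_mem_qExpand_iff (S : Set R) (h0 : (0 : R) ∈ S) (f : LaurentSeries R) :
    (∀ k, (qExpand R q f).coeff k ∈ S) ↔ ∀ k, f.coeff k ∈ S := by
  constructor
  · intro h k
    have := h ((q : ℤ) * k)
    rwa [qExpand_coeff_mul] at this
  · intro h k
    rw [coeff_qExpand]
    split_ifs
    · exact h _
    · exact h0

/-- `V_q` multiplies orders by `q`. -/
theorem order_qExpand [IsDomain R] (f : LaurentSeries R) :
    (qExpand R q f).order = (q : ℤ) * f.order := by
  by_cases hf : f = 0
  · rw [hf, map_zero, HahnSeries.order_zero, mul_zero]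
  have hf' : qExpand R q f ≠ 0 := fun h =>
    hf (qExpand_injective q (by rw [h, map_zero]))
  have hqpos : (0 : ℤ) < (q : ℤ) := by exact_mod_cast Nat.pos_of_ne_zero (NeZero.ne q)
  apply le_antisymm
  · -- the coefficient at `q * order f` is nonzero
    apply HahnSeries.order_le_of_coeff_ne_zero
    rw [qExpand_coeff_mul]
    exact fun h0 => hf (HahnSeries.coeff_order_eq_zero.1 h0)
  · -- every nonzero coefficient sits at a multiple `q * m` with `m ≥ order f`
    have hne : (qExpand R q f).coeff (qExpand R q f).order ≠ 0 :=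
      fun h0 => hf' (HahnSeries.coeff_order_eq_zero.1 h0)
    by_cases hd : (q : ℤ) ∣ (qExpand R q f).order
    · obtain ⟨m, hm⟩ := hd
      rw [hm, qExpand_coeff_mul] at hne
      rw [hm]
      exact mul_le_mul_of_nonneg_left (HahnSeries.order_le_of_coeff_ne_zero hne) hqpos.le
    · exact absurd (qExpand_coeff_of_not_dvd q f hd) hne

end Coeff

end Fermat.Agent.S34.H36
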