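import Mathlib
import Fermat.Agent.S28.H16_HasModPoly
import Fermat.Agent.S28.H16_Transfer
import Fermat.Agent.S28.H64_Triples
import Fermat.Agent.S28.H59_PrimeStep
import Fermat.Agent.S28.H39_Laurent
import Fermat.Agent.S37.H59_FrobLaurent

/-!
# Kronecker's congruence for the modular polynomial, polynomial form (helper6; S34, L0 cut (K))

`q` a prime, `D : ModularPolynomialData q` whose polynomial has all formal conjugates as roots
(`S28.RootsAt`, the property packaged in `S28.HasModPoly q`).  Then over every commutative ring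
`k` of characteristic `q`

  `D.Φ.map (mapRingHom (Int.castRingHom k)) = (X - C (X ^ q)) * (X ^ q - C X)`   in `k[X][X]`,

the OUTER variable being the `j_q`-slot (the conjugates) and the INNER one the `j`-slot.
-/

set_option autoImplicit false
set_option linter.style.haveILetI false

noncomputable section

namespace Fermat.Agent.S34.H6

open ModularCurve HahnSeries Polynomial Fermat.Agent.S28

section Step1

variable (q : ℕ) [NeZero q]

/-- Over a field `K` with a primitive `q`-th root of unity, a monic polynomial of degree `ψ(q)`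
with the `RootsAt` property IS the product of the conjugates. -/
theorem map_evalJ_eq_conjProd (D : ModularPolynomialData q) {K : Type*} [Field K] (ζ : Kˣ)
    (hζ : IsPrimitiveRoot ζ q) (hroots : RootsAt K q ζ D.Φ) :
    D.Φ.map (evalJ (qExpand K q (jqModC K))) = H96.conjProd q ζ := by
  have hq0 : 0 < q := Nat.pos_of_ne_zero (NeZero.ne q)
  refine H96.eq_conjProd_of_roots q ζ _ (D.monic.map _) ?_ ?_ ?_
  · rw [D.monic.natDegree_map, D.natDegree_eq, H17.card_triples_eq]
  · rintro ⟨a, b, d⟩ hx
    have ha : a ≠ 0 := (H96.pos_of_mem_triples hq0 hx).1.ne'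
    haveI : NeZero (a * a) := ⟨mul_ne_zero ha ha⟩
    rw [H96.JT_eq, Polynomial.eval_map]
    exact hroots a b d ((mem_triples hq0).mp hx) inferInstance
  · have h := H59.Jtrip_injOn (k := K) hq0 hζ
    exact h

end Step1

section Step2

variable (q : ℕ) [NeZero q]

/-- The same identity over the cyclotomic ring `ℤ[ζ_q]`. -/
theorem map_evalJ_eq_conjProd_cycRing (D : ModularPolynomialData q)
    (hD : ∀ (k : Type) [Field k] (ζ : kˣ), IsPrimitiveRoot ζ q → RootsAt k q ζ D.Φ) :
    D.Φ.map (evalJ (qExpand (H16.CycRing q) q (jqModC (H16.CycRing q)))) =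
      H96.conjProd q (H16.cycUnit q) := by
  have hq0 : 0 < q := Nat.pos_of_ne_zero (NeZero.ne q)
  -- the cyclotomic field
  let K := CyclotomicField q ℚ
  haveI : IsCyclotomicExtension {q} ℚ K := CyclotomicField.isCyclotomicExtension q ℚ
  have hζK : IsPrimitiveRoot (IsCyclotomicExtension.zeta q ℚ K) q :=
    IsCyclotomicExtension.zeta_spec q ℚ K
  set ζ : Kˣ := (hζK.isUnit hq0.ne').unit with hζdef
  have hζ : IsPrimitiveRoot ζ q := IsPrimitiveRoot.coe_units_iff.mp (by
    rw [hζdef, IsUnit.unit_spec]; exact hζK)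
  set f : H16.CycRing q →+* K := H16.cycHom ζ hζ with hf
  have hfinj : Function.Injective f := H16.cycHom_injective ζ hζ
  apply Polynomial.map_injective (coeffMap f) (H16.coeffMap_injective hfinj)
  rw [Polynomial.map_map, H16.coeffMap_comp_evalJ, coeffMap_qExpand, coeffMap_jqModC,
    H96.map_conjProd, H16.map_cycUnit]
  exact map_evalJ_eq_conjProd q D ζ hζ (hD K ζ hζ)

end Step2

section Step3

variable (q : ℕ) [hq : Fact q.Prime]

/-- The reduction `ℤ[ζ_q] → 𝔽_q`, `ζ ↦ 1`. -/
def cycToZMod : H16.CycRing q →+* ZMod q :=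
  AdjoinRoot.lift (Int.castRingHom (ZMod q)) 1 (by
    rw [Polynomial.eval₂_eq_eval_map, map_cyclotomic_int,
      eval_one_cyclotomic_prime (R := ZMod q) (p := q)]
    exact CharP.cast_eq_zero (ZMod q) q)

theorem cycToZMod_root : cycToZMod q (AdjoinRoot.root (cyclotomic q ℤ)) = 1 := by
  simp [cycToZMod]

end Step3

section Step4

variable (q : ℕ) {F : Type*} [CommRing F]

/-- The product of the conjugates for the trivial root of unity, `q` prime. -/
theorem conjProd_one_prime (hq : q.Prime) [NeZero (q * q)] :
    H96.conjProd q (1 : Fˣ) =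
      (X - Polynomial.C (qExpand F (q * q) (jqModC F))) *
        (X - Polynomial.C (jqModC F)) ^ q := by
  classical
  unfold H96.conjProd
  rw [H64.triples_prime hq, Finset.prod_insert, Finset.prod_image]
  · congr 1
    · rw [H96.JT_eq, one_pow, Jconj_one]
    · rw [Finset.prod_congr rfl
        (g := fun _ => (X - Polynomial.C (jqModC F) : Polynomial (LaurentSeries F)))]
      · rw [Finset.prod_const, Finset.card_range]
      · intro b _
        haveI : NeZero (1 * 1) := ⟨by norm_num⟩
        rw [H96.JT_eq, one_pow, Jconj_one]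
        congr 2
        ext n
        have h : ((1 * 1 : ℕ) : ℤ) * n = n := by simp
        conv_lhs => rw [← h]
        rw [qExpand_coeff_mul]
  · intro a _ b _ h
    simpa using h
  · intro h
    rw [Finset.mem_image] at h
    obtain ⟨b, -, hb⟩ := h
    have := congrArg Prod.fst hb
    simp only at this
    exact hq.one_lt.ne this

end Step4

section Step5

variable (q : ℕ) [hq : Fact q.Prime] [NeZero q]

/-- Kronecker's congruence on `q`-expansions over `𝔽_q`. -/
theorem map_evalJ_zmod (D : ModularPolynomialData q)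
    (hD : ∀ (k : Type) [Field k] (ζ : kˣ), IsPrimitiveRoot ζ q → RootsAt k q ζ D.Φ) :
    D.Φ.map (evalJ (qExpand (ZMod q) q (jqModC (ZMod q)))) =
      (X - Polynomial.C ((qExpand (ZMod q) q (jqModC (ZMod q))) ^ q)) *
        (X ^ q - Polynomial.C (qExpand (ZMod q) q (jqModC (ZMod q)))) := by
  haveI : NeZero (q * q) := ⟨mul_ne_zero hq.out.ne_zero hq.out.ne_zero⟩
  have h1 := congrArg (Polynomial.map (coeffMap (cycToZMod q)))
    (map_evalJ_eq_conjProd_cycRing q D hD)
  rw [Polynomial.map_map, H16.coeffMap_comp_evalJ, coeffMap_qExpand, coeffMap_jqModC,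
    H96.map_conjProd] at h1
  have hu : Units.map (cycToZMod q : H16.CycRing q →* ZMod q) (H16.cycUnit q) = 1 := by
    ext
    simp [cycToZMod_root]
  rw [hu, conjProd_one_prime q hq.out] at h1
  rw [h1]
  -- Frobenius identities over `𝔽_q`
  have hfrob : ∀ x : LaurentSeries (ZMod q), x ^ q = qExpand (ZMod q) q x := by
    intro x
    rw [Fermat.Agent.S37.H59.pow_char_eq_qExpand_frobenius q x, ZMod.frobenius_zmod, coeffMap_id]
  haveI : CharP (LaurentSeries (ZMod q)) q :=
    charP_of_injective_ringHom (f := (HahnSeries.C : ZMod q →+* LaurentSeries (ZMod q)))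
      HahnSeries.C_injective q
  rw [sub_pow_char, ← Polynomial.C_pow, hfrob (jqModC (ZMod q)), hfrob, qExpand_qExpand]

end Step5

section Step6

variable (q : ℕ) [hq : Fact q.Prime] [NeZero q]

/-- **Kronecker's congruence over `𝔽_q`**, polynomial form. -/
theorem kronecker_poly_zmod (D : ModularPolynomialData q)
    (hD : ∀ (k : Type) [Field k] (ζ : kˣ), IsPrimitiveRoot ζ q → RootsAt k q ζ D.Φ) :
    D.Φ.map (Polynomial.mapRingHom (Int.castRingHom (ZMod q))) =
      (X - Polynomial.C (X ^ q)) * (X ^ q - Polynomial.C X) := by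
  set Y₀ : LaurentSeries (ZMod q) := qExpand (ZMod q) q (jqModC (ZMod q)) with hY₀
  -- `Y₀` is transcendental over `𝔽_q`
  have hfrob : (jqModC (ZMod q)) ^ q = Y₀ := by
    rw [Fermat.Agent.S37.H59.pow_char_eq_qExpand_frobenius q, ZMod.frobenius_zmod, coeffMap_id]
  have htr : Transcendental (ZMod q) Y₀ := by
    rw [← hfrob]
    exact (H39.transcendental_jqModC (k := ZMod q)).pow hq.out.pos
  have hinj : Function.Injective (Polynomial.aeval (R := ZMod q) Y₀) :=
    transcendental_iff_injective.mp htr
  -- `evalJ Y₀` factors through `𝔽_q[X]`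
  have hfac : evalJ Y₀ = ((Polynomial.aeval (R := ZMod q) Y₀).toRingHom).comp
      (Polynomial.mapRingHom (Int.castRingHom (ZMod q))) := by
    refine Polynomial.ringHom_ext' (Subsingleton.elim _ _) ?_
    simp [evalJ]
  apply Polynomial.map_injective ((Polynomial.aeval (R := ZMod q) Y₀).toRingHom) hinj
  rw [Polynomial.map_map, ← hfac, map_evalJ_zmod q D hD]
  simp [Polynomial.map_sub, Polynomial.map_mul, Polynomial.map_pow]
  rfl

/-- **Kronecker's congruence**, polynomial form, over every commutative ring of
characteristic `q`. -/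
theorem kronecker_poly (D : ModularPolynomialData q)
    (hD : ∀ (k : Type) [Field k] (ζ : kˣ), IsPrimitiveRoot ζ q → RootsAt k q ζ D.Φ)
    (k : Type*) [CommRing k] [CharP k q] :
    D.Φ.map (Polynomial.mapRingHom (Int.castRingHom k)) =
      (X - Polynomial.C (X ^ q)) * (X ^ q - Polynomial.C X) := by
  have h : Int.castRingHom k = (ZMod.castHom (dvd_refl q) k).comp (Int.castRingHom (ZMod q)) :=
    Subsingleton.elim _ _
  rw [h, ← Polynomial.mapRingHom_comp, ← Polynomial.map_map, kronecker_poly_zmod q D hD]
  simp [Polynomial.map_sub, Polynomial.map_mul, Polynomial.map_pow]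

/-- Existence form: the modular polynomial data of `S28.hasModPoly` satisfies Kronecker. -/
theorem exists_modPoly_kronecker :
    ∃ D : ModularPolynomialData q,
      (∀ (k : Type) [Field k] (ζ : kˣ), IsPrimitiveRoot ζ q → RootsAt k q ζ D.Φ) ∧
      ∀ (k : Type) [CommRing k] [CharP k q],
        D.Φ.map (Polynomial.mapRingHom (Int.castRingHom k)) =
          (X - Polynomial.C (X ^ q)) * (X ^ q - Polynomial.C X) := by
  obtain ⟨D, hD⟩ := H16.hasModPoly q
  exact ⟨D, hD, fun k _ _ => kronecker_poly q D hD k⟩

end Step6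

end Fermat.Agent.S34.H6
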