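import Mathlib
import Fermat.Agent.S34.H6_KroneckerPoly
import Fermat.Agent.S20.H78_Index

/-!
# Kronecker's congruence evaluated at a point: the data `f, g₁, g₂` for Kummer–Dedekind (helper6)

For the L0 instance of S34 (helper99's `CA.H99.nonempty_placeOver` / `exists_eq_aeval_of_mem_of_mem`):
`O` a local ring with residue characteristic `q`, `y : O` (the instance: `O = V_M`, `y = j_M`),
`φ : ℤ[X] →+* O` any ring hom (`φ X = y`), `f := D.Φ.map φ = Φ_q(y, Y) ∈ O[Y]`,
`g₁ := Y - C (y ^ q)`, `g₂ := Y ^ q - C y`.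

* `kronecker_poly_at` : `D.Φ.map φ = (X - C (φ X ^ q)) * (X ^ q - C (φ X))` for `φ : ℤ[X] →+* κ`,
  `κ` of characteristic `q`.
* `map_map_kronecker` : `(D.Φ.map φ).map res = (X - C (φ X ^ q)).map res * (X ^ q - C (φ X)).map res`
  (= `hfac`).
* `monic_map_Phi`, `natDegree_map_Phi` : `f` is monic of degree `q + 1`.
* `irreducible_map_X_sub_C` (= `hirr₁`), `irreducible_map_X_pow_sub_C_of_order` (= `hirr₂`, from an
  embedding of the residue field into Laurent series where the residue of `y` has order prime to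
  `q`), `isCoprime_map_of_ne` (= `hcop`, from `ȳ ^ (q * q) ≠ ȳ`).
-/

set_option autoImplicit false
set_option linter.unusedSectionVars false
set_option linter.style.haveILetI false

noncomputable section

namespace Fermat.Agent.S34.H6

open Polynomial ModularCurve Fermat.Agent.S28

/-- every ring hom `ℤ[X] →+* κ` is "cast the coefficients, then evaluate at the image of `X`". -/
theorem ringHom_eq_eval_comp_map {κ : Type*} [CommRing κ] (φ : ℤ[X] →+* κ) :
    φ = (evalRingHom (φ X)).comp (mapRingHom (Int.castRingHom κ)) := by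
  apply Polynomial.ringHom_ext'
  · exact RingHom.ext_int _ _
  · simp

section Kronecker

variable (q : ℕ) [Fact q.Prime] [NeZero q] (D : ModularPolynomialData q)
  (hD : ∀ (k : Type) [Field k] (ζ : kˣ), IsPrimitiveRoot ζ q → RootsAt k q ζ D.Φ)

include hD in
/-- **Kronecker's congruence at a point**: in characteristic `q`,
`Φ_q(y, Y) = (Y - y^q)(Y^q - y)` for `y = φ X`. -/
theorem kronecker_poly_at (κ : Type*) [CommRing κ] [CharP κ q] (φ : ℤ[X] →+* κ) :
    D.Φ.map φ = (X - C (φ X ^ q)) * (X ^ q - C (φ X)) := by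
  conv_lhs => rw [ringHom_eq_eval_comp_map φ, ← Polynomial.map_map, kronecker_poly q D hD κ]
  simp only [Polynomial.map_mul, Polynomial.map_sub, Polynomial.map_pow, Polynomial.map_X,
    Polynomial.map_C, coe_evalRingHom, eval_pow, eval_X]

include hD in
/-- `hfac` of `CA.H99.nonempty_placeOver` for `f = Φ_q(y, Y)`, `g₁ = Y - y^q`, `g₂ = Y^q - y`. -/
theorem map_map_kronecker {O κ : Type*} [CommRing O] [CommRing κ] [CharP κ q] (φ : ℤ[X] →+* O)
    (res : O →+* κ) :
    (D.Φ.map φ).map res =
      (X - C (φ X ^ q) : O[X]).map res * (X ^ q - C (φ X) : O[X]).map res := by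
  rw [Polynomial.map_map, kronecker_poly_at q D hD κ (res.comp φ)]
  simp only [Polynomial.map_sub, Polynomial.map_pow, Polynomial.map_X, Polynomial.map_C,
    RingHom.comp_apply, map_pow]

include hD in
/-- same with the factors in the other order (`g₁ = Y^q - y` first). -/
theorem map_map_kronecker' {O κ : Type*} [CommRing O] [CommRing κ] [CharP κ q] (φ : ℤ[X] →+* O)
    (res : O →+* κ) :
    (D.Φ.map φ).map res =
      (X ^ q - C (φ X) : O[X]).map res * (X - C (φ X ^ q) : O[X]).map res := by
  rw [map_map_kronecker q D hD φ res, mul_comm]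

omit [Fact q.Prime] in
theorem monic_map_Phi {O : Type*} [CommRing O] (φ : ℤ[X] →+* O) : (D.Φ.map φ).Monic :=
  D.monic.map φ

theorem natDegree_map_Phi {O : Type*} [CommRing O] [Nontrivial O] (φ : ℤ[X] →+* O) :
    (D.Φ.map φ).natDegree = q + 1 := by
  rw [D.monic.natDegree_map φ, D.natDegree_eq]
  simpa using Fermat.Agent.S20.H78.dedekindPsi_prime_pow (p := q) (k := 1) (Fact.out : q.Prime)
    one_pos

end Kronecker

/-! ### The side conditions on the two factors -/

section Factors

variable {O κ : Type*} [CommRing O] [Field κ] (res : O →+* κ) (q : ℕ)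

/-- `hirr₁`: the linear factor. -/
theorem irreducible_map_X_sub_C (a : O) : Irreducible ((X - C a : O[X]).map res) := by
  rw [Polynomial.map_sub, Polynomial.map_X, Polynomial.map_C]
  exact irreducible_X_sub_C _

/-- `hirr₂`, abstract form: `ȳ` is not a `q`-th power in the residue field. -/
theorem irreducible_map_X_pow_sub_C (hq : q.Prime) (y : O) (h : ∀ b : κ, b ^ q ≠ res y) :
    Irreducible ((X ^ q - C y : O[X]).map res) := by
  rw [Polynomial.map_sub, Polynomial.map_pow, Polynomial.map_X, Polynomial.map_C]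
  exact X_pow_sub_C_irreducible_of_prime hq h

/-- an element of a field embedded in Laurent series whose image has order prime to `q` is not a
`q`-th power. -/
theorem pow_ne_of_order {k : Type*} [CommRing k] [IsDomain k] (ρ : κ →+* LaurentSeries k) (a : κ)
    (h : ¬ (q : ℤ) ∣ (ρ a).order) : ∀ b : κ, b ^ q ≠ a := by
  intro b hb
  apply h
  rw [← hb, map_pow, HahnSeries.order_pow, nsmul_eq_mul]
  exact dvd_mul_right _ _

/-- `hirr₂`: `Y^q - ȳ` is irreducible over the residue field as soon as the residue field embeds in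
a Laurent series field where `ȳ` has order prime to `q` (instance: `ȳ = j̄_M`, order `-M`). -/
theorem irreducible_map_X_pow_sub_C_of_order (hq : q.Prime) {k : Type*} [CommRing k] [IsDomain k]
    (ρ : κ →+* LaurentSeries k) (y : O) (h : ¬ (q : ℤ) ∣ (ρ (res y)).order) :
    Irreducible ((X ^ q - C y : O[X]).map res) :=
  irreducible_map_X_pow_sub_C res q hq y (pow_ne_of_order q ρ (res y) h)

/-- `hcop`: the two Kronecker factors are coprime modulo `q` as soon as `ȳ^(q²) ≠ ȳ`. -/
theorem isCoprime_map_of_ne (y : O) (h : res y ^ (q * q) ≠ res y) :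
    IsCoprime ((X - C (y ^ q) : O[X]).map res) ((X ^ q - C y : O[X]).map res) := by
  rw [Polynomial.map_sub, Polynomial.map_X, Polynomial.map_C, Polynomial.map_sub,
    Polynomial.map_pow, Polynomial.map_X, Polynomial.map_C, map_pow]
  refine ((irreducible_X_sub_C (res y ^ q)).coprime_iff_not_dvd).2 ?_
  rw [dvd_iff_isRoot, IsRoot.def, eval_sub, eval_pow, eval_X, eval_C, ← pow_mul, sub_eq_zero]
  exact h

theorem isCoprime_map_of_ne' (y : O) (h : res y ^ (q * q) ≠ res y) :
    IsCoprime ((X ^ q - C y : O[X]).map res) ((X - C (y ^ q) : O[X]).map res) :=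
  (isCoprime_map_of_ne res q y h).symm

/-- `ȳ^(q²) ≠ ȳ` from an embedding into Laurent series with `ord ȳ ≠ 0` (`q ≥ 2`). -/
theorem pow_ne_self_of_order (hq : 2 ≤ q) {k : Type*} [CommRing k] [IsDomain k]
    (ρ : κ →+* LaurentSeries k) (a : κ) (h : (ρ a).order ≠ 0) : a ^ (q * q) ≠ a := by
  intro hb
  have h1 := congrArg (fun x => (ρ x).order) hb
  simp only [map_pow, HahnSeries.order_pow, nsmul_eq_mul] at h1
  have h2 : (((q * q : ℕ) : ℤ) - 1) * (ρ a).order = 0 := by rw [sub_mul, h1, one_mul, sub_self]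
  rcases mul_eq_zero.1 h2 with h3 | h3
  · have h4 : (2 : ℤ) ≤ q := by exact_mod_cast hq
    have h5 : ((q * q : ℕ) : ℤ) = (q : ℤ) * q := by push_cast; ring
    rw [h5] at h3
    nlinarith
  · exact h h3

end Factors

end Fermat.Agent.S34.H6
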