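/-
S34, last wiring step (helper47): the unipotence input `(U)` of
`Fermat.Agent.S34.H47.isUnipotentOnInertiaAt_of_stages` from its function-field form `(U-fn)`.

`(U-fn)` for a semilinear automorphism `g` of a function field `F / K` and an exponent `m`:
for every `f ≠ 0` whose divisor is divisible by `m`, the function
`u := g (g f / f) / (g f / f)` lies in `K^× · F^{× m}`.

Then `(g - 1)² x = 0` for every `x ∈ Pic⁰(F)[m]`: if `x = [D]`, `m D = div f`, then
`div u = m (g - 1)² D`, and `u = c · h ^ m` gives `div h = (g - 1)² D` (divisors are torsion-free).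
-/
import Mathlib
import Fermat.Prelude.Def_ModularCurve_ArithmeticGalois
import Fermat.Prelude.Def_FLTPrelim_Ramification

set_option autoImplicit false

namespace Fermat.Agent.S34.H47

open AlgebraicCurve AlgebraicCurve.SemilinearAut

section Abstract

variable {K F : Type*} [Field K] [Field F] [Algebra K F]

/-- The function-field form of `(σ - 1)² = 0` on `m`-torsion. -/
def UFn (g : SemilinearAut K F) (m : ℕ) : Prop :=
  ∀ f : F, f ≠ 0 → (∃ D : Divisor K F, ∀ v : Place K F, v.ord f = (m : ℤ) * D v) →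
    ∃ (c : K) (h : F), h ≠ 0 ∧ (g • (g • f / f)) / (g • f / f) = algebraMap K F c * h ^ m

theorem ord_algebraMap_of_ne_zero (v : Place K F) {c : K} (hc : c ≠ 0) :
    v.ord (algebraMap K F c) = 0 := by
  have h1 : algebraMap K F c ∈ v.toValuationSubring := v.algebraMap_mem' c
  have h2 : algebraMap K F c⁻¹ ∈ v.toValuationSubring := v.algebraMap_mem' c⁻¹
  have hmul : (⟨algebraMap K F c, h1⟩ : v.toValuationSubring) * ⟨algebraMap K F c⁻¹, h2⟩ = 1 := by
    ext
    simp only [MulMemClass.mk_mul_mk, OneMemClass.coe_one]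
    rw [← map_mul, mul_inv_cancel₀ hc, map_one]
  have hu : IsUnit (⟨algebraMap K F c, h1⟩ : v.toValuationSubring) :=
    IsUnit.of_mul_eq_one _ hmul
  have := v.ord_coe_unit hu.unit
  rwa [IsUnit.unit_spec] at this

theorem ord_div (v : Place K F) {a b : F} (ha : a ≠ 0) (hb : b ≠ 0) :
    v.ord (a / b) = v.ord a - v.ord b := by
  rw [div_eq_mul_inv, v.ord_mul ha (inv_ne_zero hb), v.ord_inv]; ring

theorem ord_pow (v : Place K F) (a : F) (n : ℕ) : v.ord (a ^ n) = n * v.ord a := by
  have := v.ord_zpow a n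
  rwa [zpow_natCast] at this

theorem ord_smul' (g : SemilinearAut K F) (v : Place K F) (f : F) :
    v.ord (g • f) = (g⁻¹ • v).ord f := by
  have h := ord_smul g (g⁻¹ • v) f
  rwa [smul_inv_smul] at h

/-- **`(U-fn)` implies `(U)`**, abstract form. -/
theorem smul_smul_sub_of_uFn (g : SemilinearAut K F) {m : ℕ} (hm : m ≠ 0) (hU : UFn g m)
    (x : Pic0 K F) (hx : m • x = 0) : g • g • x - 2 • g • x + x = 0 := by
  obtain ⟨D, rfl⟩ := Pic0.mk_surjective x
  -- `m D` is principal
  have hmD : Pic0.mk (m • D) = (0 : Pic0 K F) := by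
    rw [← hx]; rfl
  have hprin : ((m • D : Divisor.degZero (K := K) (F := F)) : Divisor K F)
      ∈ Divisor.principal (K := K) (F := F) := by
    have := (QuotientAddGroup.eq_zero_iff (m • D)).mp hmD
    exact AddSubgroup.mem_addSubgroupOf.mp this
  obtain ⟨f, hf, hfD⟩ := hprin
  have hfD' : ∀ v : Place K F, v.ord f = (m : ℤ) * (D : Divisor K F) v := by
    intro v
    rw [← hfD v]
    simp [Finsupp.smul_apply]
  obtain ⟨c, h, hh, hu⟩ := hU f hf ⟨(D : Divisor K F), hfD'⟩
  have hgf : g • f ≠ 0 := by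
    rw [SemilinearAut.smul_def]; simpa using hf
  have hq : g • f / f ≠ 0 := div_ne_zero hgf hf
  have hgq : g • (g • f / f) ≠ 0 := by
    rw [SemilinearAut.smul_def]; simpa using hq
  have hc : c ≠ 0 := by
    rintro rfl
    rw [map_zero, zero_mul] at hu
    exact (div_ne_zero hgq hq) hu
  -- the candidate divisor
  set E : Divisor.degZero (K := K) (F := F) :=
    degZeroSMulHom g (degZeroSMulHom g D) - 2 • degZeroSMulHom g D + D with hE
  have hEx : g • g • Pic0.mk D - 2 • g • Pic0.mk D + Pic0.mk D = Pic0.mk E := by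
    rw [pic0_smul_mk, pic0_smul_mk]; rfl
  rw [hEx]
  refine (QuotientAddGroup.eq_zero_iff E).mpr (AddSubgroup.mem_addSubgroupOf.mpr ?_)
  refine ⟨h, hh, fun v => ?_⟩
  -- compute both sides at `v`
  have hEv : (E : Divisor K F) v = (D : Divisor K F) (g⁻¹ • g⁻¹ • v)
      - 2 * (D : Divisor K F) (g⁻¹ • v) + (D : Divisor K F) v := by
    simp only [hE, AddSubgroup.coe_add, AddSubgroup.coe_sub, AddSubgroup.coe_nsmul,
      coe_degZeroSMulHom, Finsupp.add_apply, Finsupp.sub_apply, Finsupp.smul_apply,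
      divisor_smul_apply, nsmul_eq_mul, Nat.cast_ofNat]
  have hord_u : v.ord ((g • (g • f / f)) / (g • f / f))
      = (m : ℤ) * ((D : Divisor K F) (g⁻¹ • g⁻¹ • v)
        - 2 * (D : Divisor K F) (g⁻¹ • v) + (D : Divisor K F) v) := by
    rw [ord_div v hgq hq, ord_smul' g v (g • f / f), ord_div _ hgf hf, ord_div v hgf hf,
      ord_smul' g (g⁻¹ • v) f, ord_smul' g v f, hfD', hfD', hfD']
    ring
  have hord_u' : v.ord ((g • (g • f / f)) / (g • f / f)) = (m : ℤ) * v.ord h := by
    rw [hu, v.ord_mul ((map_ne_zero _).mpr hc) (pow_ne_zero _ hh),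
      ord_algebraMap_of_ne_zero v hc, zero_add, ord_pow]
  rw [hEv]
  have hm' : (m : ℤ) ≠ 0 := by exact_mod_cast hm
  exact mul_left_cancel₀ hm' (hord_u.symm.trans hord_u')

end Abstract

section JZero

open ModularCurve

local notation "Qb" => AlgebraicClosure ℚ
local notation "GQ" => (AlgebraicClosure ℚ ≃ₐ[ℚ] AlgebraicClosure ℚ)

/-- **`(U)` on `JZero N` from `(U-fn)`**, in the exact shape of the hypothesis `hU` of
`isUnipotentOnInertiaAt_of_stages`. -/
theorem hU_of_uFn (N p q : ℕ) (hp : p.Prime)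
    (h : ∀ A : ValuationSubring Qb, A.LiesOverPrime q → ∀ σ ∈ A.inertiaSubgroupIn ℚ,
      ∀ n : ℕ, UFn (arithmeticGalois (L := Qb) (modularFunctionFieldFull N) σ) (p ^ n)) :
    ∀ A : ValuationSubring Qb, A.LiesOverPrime q → ∀ σ ∈ A.inertiaSubgroupIn ℚ,
      ∀ x : JZero N, (∃ n : ℕ, p ^ n • x = 0) → σ • σ • x - 2 • σ • x + x = 0 := by
  intro A hA σ hσ x ⟨n, hn⟩
  exact smul_smul_sub_of_uFn (arithmeticGalois (L := Qb) (modularFunctionFieldFull N) σ)
    (pow_ne_zero n hp.ne_zero) (h A hA σ hσ n) x hn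

end JZero

end Fermat.Agent.S34.H47
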