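import Mathlib
import Fermat.Agent.S18.H40_CechFG

/-!
# S34: the `hint` hypothesis of the (D3) dictionary at a chart `chartB R J`

`H3_PlaceChart`, `H3_PointOfPlace`, `H56_CoordGlue`, ... consume a chart `B` with a coordinate
`J : B` and the hypothesis

  `hint : ∀ b : B, (aeval (R := R) J : R[X] →ₐ[R] B).toRingHom.IsIntegralElem b`

(`B` is integral over `R[J]`).  Here it is produced for the concrete chart
`B := ↥(H40.chartB R J)`, `J := ⟨J, H40.self_mem_chartB J⟩`.  Mathlib + `S18.H40_CechFG` only.
-/

set_option autoImplicit false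

namespace Fermat.Agent.S34.H95

open Polynomial Fermat.Agent.S18

variable {R : Type*} [CommRing R] {F : Type*} [Field F] [Algebra R F]

/-- The coordinate `J` as an element of its chart. -/
def coordB (J : F) : ↥(H40.chartB R J) := ⟨J, H40.self_mem_chartB J⟩

@[simp] theorem coe_coordB (J : F) : ((coordB (R := R) J : ↥(H40.chartB R J)) : F) = J := rfl

theorem algebraMap_coordB (J : F) :
    algebraMap ↥(H40.chartB R J) F (coordB (R := R) J) = J := rfl

/-- `aeval` at the coordinate, read in `F`. -/
theorem coe_aeval_coordB (J : F) (q : R[X]) :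
    ((aeval (R := R) (coordB (R := R) J) q : ↥(H40.chartB R J)) : F) = aeval J q := by
  have h := Polynomial.aeval_algHom_apply (H40.chartB R J).val (coordB (R := R) J) q
  simpa using h.symm

/-- An element of `F` integral over the subalgebra `R[J]` is integral for the ring
homomorphism `aeval J : R[X] → F`. -/
theorem isIntegralElem_aeval_of_isIntegral_adjoin (J : F) {x : F}
    (hx : IsIntegral (Algebra.adjoin R {J}) x) :
    (aeval (R := R) J : R[X] →ₐ[R] F).toRingHom.IsIntegralElem x := by
  classical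
  obtain ⟨p, hpm, hp⟩ := hx
  -- the surjection `R[X] → R[J]`
  have hmem : ∀ q : R[X], aeval J q ∈ Algebra.adjoin R {J} := fun q => by
    rw [Algebra.adjoin_singleton_eq_range_aeval]; exact ⟨q, rfl⟩
  let φ : R[X] →+* ↥(Algebra.adjoin R {J}) :=
    (aeval (R := R) J : R[X] →ₐ[R] F).toRingHom.codRestrict
      (Algebra.adjoin R {J}).toSubring hmem
  have hφ : Function.Surjective φ := by
    rintro ⟨y, hy⟩
    have hy' := hy
    rw [Algebra.adjoin_singleton_eq_range_aeval] at hy'
    obtain ⟨q, hq⟩ := hy'
    exact ⟨q, Subtype.ext hq⟩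
  have hlift : p ∈ lifts φ := by
    obtain ⟨P, hP⟩ := Polynomial.map_surjective φ hφ p
    exact (Polynomial.mem_lifts p).2 ⟨P, hP⟩
  obtain ⟨P, hP, -, hPm⟩ := lifts_and_natDegree_eq_and_monic hlift hpm
  refine ⟨P, hPm, ?_⟩
  have hcomp : (algebraMap ↥(Algebra.adjoin R {J}) F).comp φ =
      (aeval (R := R) J : R[X] →ₐ[R] F).toRingHom := by
    ext <;> rfl
  rw [← hcomp, ← Polynomial.eval₂_map, hP]
  exact hp

/-- **`hint` at a concrete chart.**  Every element of `chartB R J` is integral over `R[J]`, in
the `aeval`-shape consumed by `H3.exists_point_of_rational`, `H56.local_datum_of_L1`, .... -/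
theorem hint_chartB (J : F) :
    ∀ b : ↥(H40.chartB R J),
      (aeval (R := R) (coordB (R := R) J) : R[X] →ₐ[R] ↥(H40.chartB R J)).toRingHom.IsIntegralElem
        b := by
  intro b
  obtain ⟨P, hPm, hP⟩ := isIntegralElem_aeval_of_isIntegral_adjoin J (H40.mem_chartB.1 b.2)
  refine ⟨P, hPm, ?_⟩
  apply Subtype.ext
  have h1 := Polynomial.hom_eval₂ P
    (aeval (R := R) (coordB (R := R) J) : R[X] →ₐ[R] ↥(H40.chartB R J)).toRingHom
    (H40.chartB R J).val.toRingHom b
  have hcomp : ((H40.chartB R J).val.toRingHom).comp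
      (aeval (R := R) (coordB (R := R) J) : R[X] →ₐ[R] ↥(H40.chartB R J)).toRingHom =
      (aeval (R := R) J : R[X] →ₐ[R] F).toRingHom := by
    ext q
    · simp
    · simp
  rw [hcomp] at h1
  change (H40.chartB R J).val.toRingHom _ = _
  rw [h1]
  exact hP

end Fermat.Agent.S34.H95
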