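/-
helper95 — S34: the chart-to-chart base change `chartB A1 J1 → chartB A'' (bc J1)`.

* generic: a ring map `bc : F₁ →+* F₂` semilinear over `φ : A₁ →+* A₂` maps the chart
  `chartB A₁ J` into `chartB A₂ (bc J)` (`map_mem_chartB`, `chartMap`);
* concrete: `chartBC` at `A₁ = A0 A ℓ`, `A₂ = cutOver A E`, `bc = baseChangeE E N`, with the
  compatibility facts consumed by `H56.local_datum_of_L1'` (`hcomp`, `hsB₁`, `hsR`, `hσ`, `h1`).
-/
import Fermat.Agent.S34.H95_CoordJInst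
import Fermat.Agent.S34.H95_ChartHint

set_option autoImplicit false
set_option linter.unusedSectionVars false
set_option linter.style.haveILetI false
set_option synthInstance.maxHeartbeats 400000

noncomputable section

namespace Fermat.Agent.S34.H95

open Polynomial ModularCurve HahnSeries IntermediateField IsLocalRing
open Fermat.Agent.S18 Fermat.Agent.S18.H45

local notation "Qbar" => AlgebraicClosure ℚ

/-! ### Generic part -/

section Generic

variable {A₁ A₂ F₁ F₂ : Type*} [CommRing A₁] [CommRing A₂] [Field F₁] [Field F₂]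
  [Algebra A₁ F₁] [Algebra A₂ F₂] (φ : A₁ →+* A₂) (bc : F₁ →+* F₂)

/-- The converse of `isIntegralElem_aeval_of_isIntegral_adjoin`. -/
theorem isIntegral_adjoin_of_isIntegralElem_aeval (J : F₁) {x : F₁}
    (hx : (aeval (R := A₁) J : A₁[X] →ₐ[A₁] F₁).toRingHom.IsIntegralElem x) :
    IsIntegral (Algebra.adjoin A₁ {J}) x := by
  obtain ⟨P, hPm, hP⟩ := hx
  have hmem : ∀ q : A₁[X], aeval J q ∈ Algebra.adjoin A₁ {J} := fun q => by
    rw [Algebra.adjoin_singleton_eq_range_aeval]; exact ⟨q, rfl⟩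
  let ψ : A₁[X] →+* ↥(Algebra.adjoin A₁ {J}) :=
    (aeval (R := A₁) J : A₁[X] →ₐ[A₁] F₁).toRingHom.codRestrict
      (Algebra.adjoin A₁ {J}).toSubring hmem
  have hcomp : (algebraMap ↥(Algebra.adjoin A₁ {J}) F₁).comp ψ =
      (aeval (R := A₁) J : A₁[X] →ₐ[A₁] F₁).toRingHom := by
    ext <;> rfl
  refine ⟨P.map ψ, hPm.map _, ?_⟩
  rw [Polynomial.eval₂_map, hcomp]
  exact hP

variable (hbc : ∀ a : A₁, bc (algebraMap A₁ F₁ a) = algebraMap A₂ F₂ (φ a))

include hbc in
theorem map_aeval_eq (J : F₁) (q : A₁[X]) : bc (aeval J q) = aeval (bc J) (q.map φ) := by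
  induction q using Polynomial.induction_on' with
  | add p q hp hq => rw [map_add, map_add, Polynomial.map_add, map_add, hp, hq]
  | monomial n a =>
    rw [← C_mul_X_pow_eq_monomial, map_mul, map_pow, aeval_C, aeval_X, map_mul, map_pow, hbc,
      Polynomial.map_mul, Polynomial.map_pow, Polynomial.map_C, Polynomial.map_X, map_mul,
      map_pow, aeval_C, aeval_X]

include hbc in
/-- A `φ`-semilinear ring map maps the chart of `J` into the chart of `bc J`. -/
theorem map_mem_chartB (J : F₁) {x : F₁} (hx : x ∈ H40.chartB A₁ J) :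
    bc x ∈ H40.chartB A₂ (bc J) := by
  obtain ⟨P, hPm, hP⟩ := isIntegralElem_aeval_of_isIntegral_adjoin J (H40.mem_chartB.1 hx)
  rw [H40.mem_chartB]
  apply isIntegral_adjoin_of_isIntegralElem_aeval
  refine ⟨P.map (mapRingHom φ), hPm.map _, ?_⟩
  have hcomp : ((aeval (R := A₂) (bc J) : A₂[X] →ₐ[A₂] F₂).toRingHom).comp (mapRingHom φ) =
      bc.comp (aeval (R := A₁) J : A₁[X] →ₐ[A₁] F₁).toRingHom := by
    refine RingHom.ext fun q => ?_
    exact (map_aeval_eq φ bc hbc J q).symm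
  rw [Polynomial.eval₂_map, hcomp, ← Polynomial.hom_eval₂, hP, map_zero]

/-- The induced map of charts (target coordinate `J₂ = bc J`, cast-free). -/
def chartMap (J : F₁) (J₂ : F₂) (h : bc J = J₂) :
    ↥(H40.chartB A₁ J) →+* ↥(H40.chartB A₂ J₂) :=
  (bc.comp (H40.chartB A₁ J).val.toRingHom).codRestrict (H40.chartB A₂ J₂).toSubring
    (fun b => h ▸ map_mem_chartB φ bc hbc J b.2)

@[simp] theorem coe_chartMap (J : F₁) (J₂ : F₂) (h : bc J = J₂) (b : ↥(H40.chartB A₁ J)) :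
    ((chartMap φ bc hbc J J₂ h b : ↥(H40.chartB A₂ J₂)) : F₂) = bc (b : F₁) := rfl

theorem chartMap_injective (J : F₁) (J₂ : F₂) (h : bc J = J₂) :
    Function.Injective (chartMap φ bc hbc J J₂ h) := by
  intro a b hab
  apply Subtype.ext
  apply bc.injective
  have := congrArg (fun z : ↥(H40.chartB A₂ J₂) => (z : F₂)) hab
  simpa using this

theorem chartMap_algebraMap (J : F₁) (J₂ : F₂) (h : bc J = J₂) (a : A₁) :
    chartMap φ bc hbc J J₂ h (algebraMap A₁ ↥(H40.chartB A₁ J) a) =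
      algebraMap A₂ ↥(H40.chartB A₂ J₂) (φ a) := by
  apply Subtype.ext
  exact hbc a

theorem chartMap_coordB (J : F₁) (J₂ : F₂) (h : bc J = J₂) :
    chartMap φ bc hbc J J₂ h (coordB (R := A₁) J) = coordB (R := A₂) J₂ := by
  apply Subtype.ext
  exact h

end Generic

/-! ### The concrete base change `A0 A ℓ → cutOver A E` -/

variable {A : ValuationSubring Qbar} {ℓ : ℕ} (hℓ : ℓ.Prime) (hA : A.LiesOverPrime ℓ)
variable (E : IntermediateField (unrCyclo ℓ) Qbar) (N : ℕ) [NeZero N]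

theorem baseChangeE_algebraMap_A0 (a : A0 A ℓ) :
    baseChangeE E N (algebraMap (A0 A ℓ) (modularFunctionFieldFullC (unrCyclo ℓ) N) a) =
      algebraMap (cutOver A E) (modularFunctionFieldFullC ↥E N)
        (algebraMap (A0 A ℓ) (cutOver A E) a) :=
  baseChangeE_algebraMap E N (a : unrCyclo ℓ)

/-- **The chart-to-chart base change** `chartB A1 J₁ → chartB A'' J_E` (`J_E = bc J₁`). -/
def chartBC (J₁ : modularFunctionFieldFullC (unrCyclo ℓ) N) (J_E : modularFunctionFieldFullC ↥E N)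
    (h : baseChangeE E N J₁ = J_E) :
    ↥(H40.chartB (A0 A ℓ) J₁) →+* ↥(H40.chartB (cutOver A E) J_E) :=
  chartMap (algebraMap (A0 A ℓ) (cutOver A E)) (baseChangeE E N)
    (baseChangeE_algebraMap_A0 E N) J₁ J_E h

variable (J₁ : modularFunctionFieldFullC (unrCyclo ℓ) N)
  (J_E : modularFunctionFieldFullC ↥E N) (h : baseChangeE E N J₁ = J_E)

@[simp] theorem coe_chartBC (b : ↥(H40.chartB (A0 A ℓ) J₁)) :
    ((chartBC E N J₁ J_E h b : ↥(H40.chartB (cutOver A E) J_E)) :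
      modularFunctionFieldFullC ↥E N) = baseChangeE E N (b : modularFunctionFieldFullC _ N) :=
  rfl

theorem algebraMap_chartBC (b : ↥(H40.chartB (A0 A ℓ) J₁)) :
    algebraMap ↥(H40.chartB (cutOver A E) J_E) (modularFunctionFieldFullC ↥E N)
      (chartBC E N J₁ J_E h b) = baseChangeE E N (b : modularFunctionFieldFullC _ N) := rfl

theorem chartBC_injective : Function.Injective (chartBC (A := A) E N J₁ J_E h) :=
  chartMap_injective _ _ _ J₁ J_E h

/-- `hcomp` of `H56.local_datum_of_L1'` (with `letI := (chartBC ..).toAlgebra`). -/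
theorem chartBC_algebraMap (a : A0 A ℓ) :
    chartBC E N J₁ J_E h (algebraMap (A0 A ℓ) ↥(H40.chartB (A0 A ℓ) J₁) a) =
      algebraMap (cutOver A E) ↥(H40.chartB (cutOver A E) J_E)
        (algebraMap (A0 A ℓ) (cutOver A E) a) :=
  chartMap_algebraMap _ _ _ J₁ J_E h a

theorem chartBC_coordB :
    chartBC E N J₁ J_E h (coordB (R := A0 A ℓ) J₁) = coordB (R := cutOver A E) J_E :=
  chartMap_coordB _ _ _ J₁ J_E h

/-- `hsB₁` of `H56.local_datum_of_L1'`: inertia fixes the image of the chart over `A1`. -/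
theorem inertiaActFullC_chartBC [Normal (unrCyclo ℓ) E] (σ : Qbar ≃ₐ[ℚ] Qbar)
    (hσ : σ ∈ A.inertiaSubgroupIn ℚ) (b : ↥(H40.chartB (A0 A ℓ) J₁)) :
    inertiaActFullC hℓ hA E N σ hσ
        (algebraMap ↥(H40.chartB (cutOver A E) J_E) (modularFunctionFieldFullC ↥E N)
          (chartBC E N J₁ J_E h b)) =
      algebraMap ↥(H40.chartB (cutOver A E) J_E) (modularFunctionFieldFullC ↥E N)
        (chartBC E N J₁ J_E h b) := by
  rw [algebraMap_chartBC]
  exact inertiaActFullC_baseChangeE hℓ hA E N σ hσ _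

/-- `hsR` of `H56.local_datum_of_L1'`: on the constants `A''` inertia acts through
`inertiaActCutOver`. -/
theorem inertiaActFullC_algebraMap_cutOver [Normal (unrCyclo ℓ) E] (σ : Qbar ≃ₐ[ℚ] Qbar)
    (hσ : σ ∈ A.inertiaSubgroupIn ℚ) (a : cutOver A E) :
    inertiaActFullC hℓ hA E N σ hσ
        (algebraMap (cutOver A E) (modularFunctionFieldFullC ↥E N) a) =
      algebraMap (cutOver A E) (modularFunctionFieldFullC ↥E N)
        (inertiaActCutOver hℓ hA E σ hσ a) :=
  inertiaActFullC_algebraMap hℓ hA E N σ hσ (a : ↥E)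

/-- `hσ` of `H56.local_datum_of_L1'`: `inertiaActCutOver` fixes `A1`. -/
theorem inertiaActCutOver_algebraMap_A0 [Normal (unrCyclo ℓ) E] (σ : Qbar ≃ₐ[ℚ] Qbar)
    (hσ : σ ∈ A.inertiaSubgroupIn ℚ) (a : A0 A ℓ) :
    inertiaActCutOver hℓ hA E σ hσ (algebraMap (A0 A ℓ) (cutOver A E) a) =
      algebraMap (A0 A ℓ) (cutOver A E) a :=
  inertiaActCutOver_inclA0 hℓ hA E σ hσ a

include hℓ hA in
/-- `h1` of `H56.local_datum_of_L1'` / `CA.H79.fibreEquiv`: `A'' = A1 + π A''`. -/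
theorem exists_A0_add_mul (π : cutOver A E)
    (hmax : maximalIdeal (cutOver A E) = Ideal.span {π}) (a : cutOver A E) :
    ∃ c : A0 A ℓ, ∃ a' : cutOver A E, a = algebraMap (A0 A ℓ) (cutOver A E) c + π * a' := by
  obtain ⟨c, hc⟩ := exists_A0_sub_mem hℓ hA E a
  rw [hmax, Ideal.mem_span_singleton] at hc
  obtain ⟨a', ha'⟩ := hc
  refine ⟨c, a', ?_⟩
  rw [← ha']
  show a = inclA0CutOver A E c + (a - inclA0CutOver A E c)
  ring

include hℓ hA in
/-- Variant: the inertia action is trivial modulo `π` on `A''` (`hπ` of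
`CA.H79.exists_ringEquiv_of_eq_genRing`). -/
theorem dvd_inertiaActCutOver_sub [Normal (unrCyclo ℓ) E] (σ : Qbar ≃ₐ[ℚ] Qbar)
    (hσ : σ ∈ A.inertiaSubgroupIn ℚ) (π : cutOver A E)
    (hmax : maximalIdeal (cutOver A E) = Ideal.span {π}) (a : cutOver A E) :
    π ∣ inertiaActCutOver hℓ hA E σ hσ a - a := by
  have := inertiaActCutOver_sub_mem hℓ hA E σ hσ a
  rwa [hmax, Ideal.mem_span_singleton] at this

/-! ### At the pinned coordinate `J = j · j_q` and its inverse (cast-free) -/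

variable (q : ℕ) [NeZero q] (hq : q ∣ N)

theorem baseChangeE_JK_inv :
    baseChangeE E N (JK (unrCyclo ℓ) N q hq)⁻¹ = (JK ↥E N q hq)⁻¹ := by
  rw [map_inv₀, baseChangeE_JK]

/-- `chartB A1 J → chartB A'' J`. -/
def chartBC_JK : ↥(H40.chartB (A0 A ℓ) (JK (unrCyclo ℓ) N q hq)) →+*
    ↥(H40.chartB (cutOver A E) (JK ↥E N q hq)) :=
  chartBC E N _ _ (baseChangeE_JK E N q hq)

/-- `chartB A1 J⁻¹ → chartB A'' J⁻¹`. -/
def chartBC_JK_inv : ↥(H40.chartB (A0 A ℓ) (JK (unrCyclo ℓ) N q hq)⁻¹) →+*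
    ↥(H40.chartB (cutOver A E) (JK ↥E N q hq)⁻¹) :=
  chartBC E N _ _ (baseChangeE_JK_inv E N q hq)

end Fermat.Agent.S34.H95
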