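/-
helper95 — S34: `hgenR` of `H56.local_datum_of_L1'` / `CA.H47.served_or_stable` from the
set-level description `chartB A'' J = closure (bc (chartB A1 J) ∪ A'')` (helper40's `(a)'`).
-/
import Fermat.Agent.S34.H95_ChartBC

set_option autoImplicit false
set_option linter.unusedSectionVars false
set_option linter.style.haveILetI false
set_option synthInstance.maxHeartbeats 400000

noncomputable section

namespace Fermat.Agent.S34.H95

open ModularCurve HahnSeries IntermediateField IsLocalRing
open Fermat.Agent.S18 Fermat.Agent.S18.H45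

local notation "Qbar" => AlgebraicClosure ℚ

/-- Generic: if every element of the subalgebra `Bs ⊆ F` lies in the subring generated by the
image of `g : B₁ → Bs` and the constants `R`, then `Bs` is generated over `B₁` by `R`. -/
theorem adjoin_range_eq_top_of_forall_mem_closure {B₁ R F : Type*} [CommRing B₁] [CommRing R]
    [Field F] [Algebra R F] (Bs : Subalgebra R F) (g : B₁ →+* ↥Bs)
    (hcl : ∀ z : F, z ∈ Bs → z ∈ Subring.closure
      (Set.range (fun b : B₁ => ((g b : ↥Bs) : F)) ∪ Set.range (algebraMap R F))) :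
    letI := g.toAlgebra
    Algebra.adjoin B₁ (Set.range (algebraMap R ↥Bs)) = ⊤ := by
  letI := g.toAlgebra
  rw [eq_top_iff]
  rintro x -
  set S : Subalgebra B₁ ↥Bs := Algebra.adjoin B₁ (Set.range (algebraMap R ↥Bs)) with hS
  have hle : Subring.closure
      (Set.range (fun b : B₁ => ((g b : ↥Bs) : F)) ∪ Set.range (algebraMap R F)) ≤
      S.toSubring.map Bs.val.toRingHom := by
    rw [Subring.closure_le]
    rintro z (⟨b, rfl⟩ | ⟨a, rfl⟩)
    · exact ⟨g b, S.algebraMap_mem b, rfl⟩
    · exact ⟨algebraMap R ↥Bs a, Algebra.subset_adjoin ⟨a, rfl⟩, rfl⟩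
  obtain ⟨y, hy, hyx⟩ := hle (hcl (x : F) x.2)
  have : y = x := Subtype.ext hyx
  rw [← this]
  exact hy

variable {A : ValuationSubring Qbar} {ℓ : ℕ}
variable (E : IntermediateField (unrCyclo ℓ) Qbar) (N : ℕ) [NeZero N]
variable (J₁ : modularFunctionFieldFullC (unrCyclo ℓ) N)
  (J_E : modularFunctionFieldFullC ↥E N) (h : baseChangeE E N J₁ = J_E)

/-- **`hgenR` at the concrete charts**, conditional on the set-level description `(a)'` of
`chartB A'' J_E`. -/
theorem adjoin_chartBC_eq_top
    (hcl : ∀ z : modularFunctionFieldFullC ↥E N, z ∈ H40.chartB (cutOver A E) J_E →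
      z ∈ Subring.closure
        (Set.range (fun b : ↥(H40.chartB (A0 A ℓ) J₁) =>
            baseChangeE E N (b : modularFunctionFieldFullC (unrCyclo ℓ) N)) ∪
          Set.range (algebraMap (cutOver A E) (modularFunctionFieldFullC ↥E N)))) :
    letI := (chartBC (A := A) E N J₁ J_E h).toAlgebra
    Algebra.adjoin ↥(H40.chartB (A0 A ℓ) J₁)
      (Set.range (algebraMap (cutOver A E) ↥(H40.chartB (cutOver A E) J_E))) = ⊤ :=
  adjoin_range_eq_top_of_forall_mem_closure (H40.chartB (cutOver A E) J_E)
    (chartBC (A := A) E N J₁ J_E h) hcl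

end Fermat.Agent.S34.H95
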