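/-
S34 chain, step L8 (helper47, Mathlib only): the induction `m = l ^ k`.

Abstract setting: a field `F` over a "DVR" `R` (uniformiser `π`), a family of local subrings
`O n ⊆ F` (the Zariski local rings of the charts of the model at the closed points of the special
fibre), a family of valuation subrings `V k` (the vertical valuations), `Thr n k` = "`V k` passes
through `n`".  The *local datum* of a function `u` for an exponent `m` is
`u = ε_n ψ_n ^ m`, `ε_n ∈ 1 + π O_n`, `ψ_n ∈ 1 + 𝔪(V k)` for every `V k` through `n`.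

`exists_pow_of_localDatum` : if every `u` with a local datum for the exponent `l` is a constant
times an `l`-th power (the Kummer cover step, L6-L7), then every `u` with a local datum for
`l ^ k` is a constant times an `l ^ k`-th power.
-/
import Mathlib

set_option autoImplicit false

namespace Fermat.Agent.S34.H47

open Finset

section OneUnits

variable {F : Type*} [Field F] (A : ValuationSubring F)

/-- `x` is a `1`-unit of the valuation ring `A`. -/
def OneU (x : F) : Prop := A.valuation (x - 1) < 1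

variable {A}

theorem OneU.valuation_eq_one {x : F} (h : OneU A x) : A.valuation x = 1 := by
  have : x = (x - 1) + 1 := by ring
  rw [this]
  have h1 : A.valuation (1 : F) = 1 := map_one _
  rw [Valuation.map_add_eq_of_lt_right _ (by rw [h1]; exact h), h1]

theorem OneU.ne_zero {x : F} (h : OneU A x) : x ≠ 0 := by
  intro h0
  have := h.valuation_eq_one
  rw [h0, map_zero] at this
  exact zero_ne_one this

theorem OneU.mul {x y : F} (hx : OneU A x) (hy : OneU A y) : OneU A (x * y) := by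
  unfold OneU at *
  have : x * y - 1 = (x - 1) * y + (y - 1) := by ring
  rw [this]
  refine lt_of_le_of_lt (Valuation.map_add _ _ _) (max_lt ?_ hy)
  rw [map_mul, OneU.valuation_eq_one (A := A) (x := y) hy, mul_one]
  exact hx

theorem OneU.one : OneU A (1 : F) := by
  unfold OneU; rw [sub_self, map_zero]; exact zero_lt_one

theorem OneU.pow {x : F} (hx : OneU A x) (k : ℕ) : OneU A (x ^ k) := by
  induction k with
  | zero => rw [pow_zero]; exact OneU.one
  | succ k ih => rw [pow_succ]; exact ih.mul hx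

theorem OneU.inv {x : F} (hx : OneU A x) : OneU A x⁻¹ := by
  have hx0 := hx.ne_zero
  have hv := hx.valuation_eq_one
  unfold OneU at *
  have : x⁻¹ - 1 = -((x - 1) * x⁻¹) := by
    rw [sub_mul, mul_inv_cancel₀ hx0]; ring
  rw [this, Valuation.map_neg, map_mul, map_inv₀, hv, inv_one, mul_one]
  exact hx

theorem OneU.div {x y : F} (hx : OneU A x) (hy : OneU A y) : OneU A (x / y) := by
  rw [div_eq_mul_inv]; exact hx.mul hy.inv

/-- `1 + t` with `v t < 1`. -/
theorem oneU_of_sub {x t : F} (h : x - 1 = t) (ht : A.valuation t < 1) : OneU A x := by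
  unfold OneU; rw [h]; exact ht

/-- Roots of unity modulo the maximal ideal of a valuation ring. -/
theorem exists_pow_sub_lt_one {l : ℕ} (hl : 0 < l) {ζ : F} (hζ : IsPrimitiveRoot ζ l)
    (hζA : A.valuation ζ ≤ 1) {w : F} (hw : A.valuation w ≤ 1)
    (h : A.valuation (w ^ l - 1) < 1) : ∃ j < l, A.valuation (w - ζ ^ j) < 1 := by
  have hprod := hζ.pow_sub_pow_eq_prod_sub_mul w 1 hl
  rw [one_pow] at hprod
  rw [hprod, map_prod] at h
  by_contra hcon
  simp only [not_exists, not_and, not_lt] at hcon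
  have hall : ∀ ξ ∈ Polynomial.nthRootsFinset l (1 : F), A.valuation (w - ξ * 1) = 1 := by
    intro ξ hξ
    rw [Polynomial.mem_nthRootsFinset hl] at hξ
    have : NeZero l := ⟨hl.ne'⟩
    obtain ⟨j, hj, rfl⟩ := hζ.eq_pow_of_pow_eq_one hξ
    rw [mul_one]
    refine le_antisymm ?_ (hcon j hj)
    refine le_trans (Valuation.map_sub _ _ _) (max_le hw ?_)
    rw [map_pow]
    exact pow_le_one₀ zero_le hζA
  rw [Finset.prod_congr rfl hall, Finset.prod_const_one] at h
  exact lt_irrefl _ h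

end OneUnits

section Induct

set_option linter.unusedSectionVars false

variable {R K0 F : Type*} [CommRing R] [Field K0] [Field F] [Algebra R K0] [Algebra R F]
  [Algebra K0 F] [IsScalarTower R K0 F]
variable {ν κ : Type*} (O : ν → Subring F) (V : κ → ValuationSubring F) (Thr : ν → κ → Prop)
  (π : R)

/-- `a` is a unit of the subring `S ⊆ F`. -/
def UnitIn (S : Subring F) (a : F) : Prop := a ∈ S ∧ a⁻¹ ∈ S ∧ a ≠ 0

/-- `x ∈ π S`. -/
def PiIn (S : Subring F) (x : F) : Prop := ∃ y ∈ S, x = algebraMap R F π * y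

/-- **Local datum** of `u` for the exponent `m`. -/
def LocalDatum (u : F) (m : ℕ) : Prop :=
  ∀ n : ν, ∃ ψ : F, ψ ≠ 0 ∧ PiIn π (O n) (u / ψ ^ m - 1) ∧ ∀ k, Thr n k → OneU (V k) ψ

variable (K0) in
/-- The standing hypotheses on the model. -/
structure ModelHyp (l : ℕ) (ζ : R) : Prop where
  /-- constants are regular at every closed point -/
  hRO : ∀ n (r : R), algebraMap R F r ∈ O n
  /-- the local ring at `n` lies in every vertical valuation ring through `n` -/
  hOV : ∀ n k, Thr n k → ∀ x ∈ O n, x ∈ V k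
  /-- the local rings are `l`-root closed (e.g. integrally closed) -/
  hOroot : ∀ n (x : F), x ^ l ∈ O n → x ∈ O n
  /-- the local rings are local: unit + non-unit is a unit -/
  hOloc : ∀ n (a b : F), UnitIn (O n) a → b ∈ O n → ¬ UnitIn (O n) b → UnitIn (O n) (a + b)
  /-- `π` is in the maximal ideal of every vertical valuation ring -/
  hπV : ∀ k, (V k).valuation (algebraMap R F π) < 1
  hπ0 : algebraMap R F π ≠ 0
  /-- `π` is a uniformiser of every vertical valuation ring -/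
  hVdvr : ∀ k (x : F), x ≠ 0 → ∃ e : ℤ, (V k).valuation (x * algebraMap R F π ^ (-e)) = 1
  /-- `R` is a DVR with uniformiser `π` and fraction field `K0` -/
  hRdvr : ∀ c : K0, c ≠ 0 → ∃ (a : ℤ) (r : R), IsUnit r ∧
    algebraMap K0 F c = algebraMap R F r * algebraMap R F π ^ a
  /-- `l`-th roots modulo `π` (residue field algebraically closed) -/
  hroot : ∀ r : R, IsUnit r → ∃ γ : R, IsUnit γ ∧ π ∣ γ ^ l * r - 1
  hl : 0 < l
  hlu : IsUnit ((l : ℕ) : R)
  hζ : IsPrimitiveRoot (algebraMap R F ζ) l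
  hζu : ∀ i j, i < l → j < l → i ≠ j → IsUnit (ζ ^ i - ζ ^ j)
  /-- every closed point lies on a component -/
  hcentre : ∀ n, ∃ k, Thr n k
  /-- every component has a closed point -/
  hVthr : ∀ k, ∃ n, Thr n k
  /-- the special fibre is connected -/
  hconn : ∀ c : κ → ℕ, (∀ n k k', Thr n k → Thr n k' → c k = c k') → ∀ k k', c k = c k'
  hκ : Nonempty κ

variable {O V Thr π}

theorem unitIn_algebraMap {l : ℕ} {ζ : R} (H : ModelHyp K0 O V Thr π l ζ) (n : ν) {r : R}
    (hr : IsUnit r) : UnitIn (O n) (algebraMap R F r) := by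
  obtain ⟨s, hs⟩ := hr.exists_right_inv
  have h1 : algebraMap R F r * algebraMap R F s = 1 := by rw [← map_mul, hs, map_one]
  have hne : algebraMap R F r ≠ 0 := left_ne_zero_of_mul_eq_one h1
  refine ⟨H.hRO n r, ?_, hne⟩
  rw [show (algebraMap R F r)⁻¹ = algebraMap R F s from (eq_inv_of_mul_eq_one_right h1).symm]
  exact H.hRO n s

theorem valuation_algebraMap_le {l : ℕ} {ζ : R} (H : ModelHyp K0 O V Thr π l ζ) (k : κ) (r : R) :
    (V k).valuation (algebraMap R F r) ≤ 1 := by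
  obtain ⟨n, hn⟩ := H.hVthr k
  exact ((V k).valuation_le_one_iff _).mpr (H.hOV n k hn _ (H.hRO n r))

theorem valuation_algebraMap_unit {l : ℕ} {ζ : R} (H : ModelHyp K0 O V Thr π l ζ) (k : κ) {r : R}
    (hr : IsUnit r) : (V k).valuation (algebraMap R F r) = 1 := by
  obtain ⟨s, hs⟩ := hr.exists_right_inv
  have h1 : algebraMap R F r * algebraMap R F s = 1 := by rw [← map_mul, hs, map_one]
  have hv := congrArg (V k).valuation h1
  rw [map_mul, map_one] at hv
  refine le_antisymm (valuation_algebraMap_le H k r) ?_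
  by_contra hlt
  rw [not_le] at hlt
  have : (V k).valuation (algebraMap R F r) * (V k).valuation (algebraMap R F s) < 1 := by
    calc _ ≤ (V k).valuation (algebraMap R F r) * 1 :=
          mul_le_mul_right (valuation_algebraMap_le H k s) _
      _ < 1 := by rwa [mul_one]
  rw [hv] at this
  exact lt_irrefl _ this

theorem PiIn.valuation_lt {l : ℕ} {ζ : R} (H : ModelHyp K0 O V Thr π l ζ) {n : ν} {k : κ}
    (hnk : Thr n k) {x : F} (hx : PiIn π (O n) x) : (V k).valuation x < 1 := by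
  obtain ⟨y, hy, rfl⟩ := hx
  rw [map_mul]
  have hy1 : (V k).valuation y ≤ 1 := ((V k).valuation_le_one_iff _).mpr (H.hOV n k hnk y hy)
  calc _ ≤ (V k).valuation (algebraMap R F π) * 1 := mul_le_mul_right hy1 _
    _ < 1 := by rw [mul_one]; exact H.hπV k

/-- A function with a local datum is a `1`-unit at every vertical valuation. -/
theorem LocalDatum.oneU {l : ℕ} {ζ : R} (H : ModelHyp K0 O V Thr π l ζ) {u : F} {m : ℕ}
    (hu : LocalDatum O V Thr π u m) (k : κ) : OneU (V k) u := by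
  obtain ⟨n, hnk⟩ := H.hVthr k
  obtain ⟨ψ, hψ0, hε, hψ⟩ := hu n
  have h1 : OneU (V k) (u / ψ ^ m) := oneU_of_sub rfl (hε.valuation_lt H hnk)
  have h2 : OneU (V k) (ψ ^ m) := (hψ k hnk).pow m
  have : u = u / ψ ^ m * ψ ^ m := by field_simp
  rw [this]
  exact h1.mul h2

/-- Lowering the exponent: a datum for `l * m₁` is a datum for `l`. -/
theorem LocalDatum.of_mul {u : F} {l m₁ : ℕ} (hu : LocalDatum O V Thr π u (l * m₁)) :
    LocalDatum O V Thr π u l := by
  intro n
  obtain ⟨ψ, hψ0, hε, hψ⟩ := hu n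
  refine ⟨ψ ^ m₁, pow_ne_zero _ hψ0, ?_, fun k hk => (hψ k hk).pow m₁⟩
  rwa [← pow_mul, mul_comm m₁ l]

theorem UnitIn.mul {S : Subring F} {a b : F} (ha : UnitIn S a) (hb : UnitIn S b) :
    UnitIn S (a * b) :=
  ⟨S.mul_mem ha.1 hb.1, by rw [mul_inv]; exact S.mul_mem ha.2.1 hb.2.1, mul_ne_zero ha.2.2 hb.2.2⟩

theorem UnitIn.pow {S : Subring F} {a : F} (ha : UnitIn S a) (k : ℕ) : UnitIn S (a ^ k) :=
  ⟨S.pow_mem ha.1 k, by rw [← inv_pow]; exact S.pow_mem ha.2.1 k, pow_ne_zero k ha.2.2⟩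

theorem UnitIn.inv {S : Subring F} {a : F} (ha : UnitIn S a) : UnitIn S a⁻¹ :=
  ⟨ha.2.1, by rw [inv_inv]; exact ha.1, inv_ne_zero ha.2.2⟩

/-- An element of `O n` of valuation `< 1` at a vertical valuation through `n` is a non-unit. -/
theorem not_unitIn_of_valuation_lt {l : ℕ} {ζ : R} (H : ModelHyp K0 O V Thr π l ζ) {n : ν} {k : κ}
    (hnk : Thr n k) {d : F} (hd : (V k).valuation d < 1) : ¬ UnitIn (O n) d := by
  rintro ⟨-, hinv, hd0⟩
  have h1 : (V k).valuation d⁻¹ ≤ 1 :=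
    ((V k).valuation_le_one_iff _).mpr (H.hOV n k hnk _ hinv)
  have h2 : (V k).valuation d * (V k).valuation d⁻¹ = 1 := by
    rw [← map_mul, mul_inv_cancel₀ hd0, map_one]
  have : (V k).valuation d * (V k).valuation d⁻¹ < 1 := by
    calc _ ≤ (V k).valuation d * 1 := mul_le_mul_right h1 _
      _ < 1 := by rwa [mul_one]
  rw [h2] at this
  exact lt_irrefl _ this

theorem valuation_pow_sub_pow_lt {A : ValuationSubring F} {x b : F} (hx : A.valuation x ≤ 1)
    (hb : A.valuation b ≤ 1) (h : A.valuation (x - b) < 1) (i : ℕ) :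
    A.valuation (x ^ i - b ^ i) < 1 := by
  induction i with
  | zero => simp
  | succ i ih =>
    have : x ^ (i + 1) - b ^ (i + 1) = x * (x ^ i - b ^ i) + (x - b) * b ^ i := by ring
    rw [this]
    refine lt_of_le_of_lt (Valuation.map_add _ _ _) (max_lt ?_ ?_)
    · rw [map_mul]
      calc _ ≤ 1 * A.valuation (x ^ i - b ^ i) := mul_le_mul_left hx _
        _ < 1 := by rwa [one_mul]
    · rw [map_mul, map_pow]
      calc _ ≤ A.valuation (x - b) * 1 := mul_le_mul_right (pow_le_one₀ zero_le hb) _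
        _ < 1 := by rwa [mul_one]

theorem unitIn_zeta_pow {l : ℕ} {ζ : R} (H : ModelHyp K0 O V Thr π l ζ) (n : ν) (j : ℕ) :
    UnitIn (O n) (algebraMap R F ζ ^ j) := by
  have hζl : algebraMap R F ζ ^ l = 1 := H.hζ.pow_eq_one
  have hζ0 : algebraMap R F ζ ≠ 0 := by
    intro h0
    rw [h0, zero_pow H.hl.ne'] at hζl
    exact zero_ne_one hζl
  have hu : UnitIn (O n) (algebraMap R F ζ) := by
    refine ⟨H.hRO n ζ, ?_, hζ0⟩
    have : (algebraMap R F ζ)⁻¹ = algebraMap R F (ζ ^ (l - 1)) := by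
      rw [map_pow]
      apply inv_eq_of_mul_eq_one_right
      rw [← pow_succ', Nat.sub_add_cancel H.hl, hζl]
    rw [this]
    exact H.hRO n _
  exact hu.pow j

/-- **Roots of unity modulo `π` in the local ring `O n`.** -/
theorem exists_piIn_sub_pow {l : ℕ} {ζ : R} (H : ModelHyp K0 O V Thr π l ζ) (n : ν) {x : F}
    (hx : x ∈ O n) (hxl : PiIn π (O n) (x ^ l - 1)) :
    ∃ j < l, PiIn π (O n) (x - algebraMap R F ζ ^ j) := by
  obtain ⟨k, hnk⟩ := H.hcentre n
  set z := algebraMap R F ζ with hz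
  have hxV : (V k).valuation x ≤ 1 := ((V k).valuation_le_one_iff _).mpr (H.hOV n k hnk x hx)
  have hzV : (V k).valuation z ≤ 1 := valuation_algebraMap_le H k ζ
  obtain ⟨j, hj, hjv⟩ := exists_pow_sub_lt_one H.hl H.hζ hzV hxV (hxl.valuation_lt H hnk)
  refine ⟨j, hj, ?_⟩
  set b := z ^ j with hb
  have hbu : UnitIn (O n) b := unitIn_zeta_pow H n j
  have hbV : (V k).valuation b ≤ 1 := by rw [hb, map_pow]; exact pow_le_one₀ zero_le hzV
  have hbl : b ^ l = 1 := by rw [hb, ← pow_mul, mul_comm, pow_mul, H.hζ.pow_eq_one, one_pow]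
  -- the cofactor
  set S := ∑ i ∈ range l, x ^ i * b ^ (l - 1 - i) with hS
  have hSd : S * (x - b) = x ^ l - 1 := by rw [hS, geom_sum₂_mul, hbl]
  have hSmem : S ∈ O n :=
    Subring.sum_mem _ fun i _ => (O n).mul_mem ((O n).pow_mem hx i) ((O n).pow_mem hbu.1 _)
  -- `S ≡ l b^(l-1)` modulo the maximal ideal of `V k`
  have hlu : UnitIn (O n) (algebraMap R F ((l : ℕ) : R) * b ^ (l - 1)) :=
    (unitIn_algebraMap H n H.hlu).mul (hbu.pow _)
  have hdiff : S - algebraMap R F ((l : ℕ) : R) * b ^ (l - 1)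
      = ∑ i ∈ range l, (x ^ i - b ^ i) * b ^ (l - 1 - i) := by
    have h1 : ∑ i ∈ range l, (x ^ i - b ^ i) * b ^ (l - 1 - i)
        = S - ∑ i ∈ range l, b ^ i * b ^ (l - 1 - i) := by
      rw [hS, ← Finset.sum_sub_distrib]
      exact Finset.sum_congr rfl fun i _ => by ring
    have h2 : ∑ i ∈ range l, b ^ i * b ^ (l - 1 - i) = ∑ _i ∈ range l, b ^ (l - 1) := by
      refine Finset.sum_congr rfl fun i hi => ?_
      rw [← pow_add]
      congr 1
      have := Finset.mem_range.mp hi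
      omega
    rw [h1, h2, Finset.sum_const, Finset.card_range, nsmul_eq_mul, map_natCast]
  have hdiffV : (V k).valuation (S - algebraMap R F ((l : ℕ) : R) * b ^ (l - 1)) < 1 := by
    rw [hdiff]
    refine Valuation.map_sum_lt _ one_ne_zero fun i _ => ?_
    rw [map_mul, map_pow]
    calc _ ≤ (V k).valuation (x ^ i - b ^ i) * 1 :=
          mul_le_mul_right (pow_le_one₀ zero_le hbV) _
      _ < 1 := by rw [mul_one]; exact valuation_pow_sub_pow_lt hxV hbV hjv i
  have hSu : UnitIn (O n) S := by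
    have := H.hOloc n _ (S - algebraMap R F ((l : ℕ) : R) * b ^ (l - 1)) hlu
      ((O n).sub_mem hSmem hlu.1) (not_unitIn_of_valuation_lt H hnk hdiffV)
    rwa [add_sub_cancel] at this
  obtain ⟨y, hy, hxy⟩ := hxl
  refine ⟨S⁻¹ * y, (O n).mul_mem hSu.2.1 hy, ?_⟩
  have : x - b = S⁻¹ * (x ^ l - 1) := by
    rw [← hSd, ← mul_assoc, inv_mul_cancel₀ hSu.2.2, one_mul]
  rw [this, hxy]; ring

/-- Uniqueness of the root of unity a function is congruent to at a vertical valuation. -/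
theorem pow_index_unique {l : ℕ} {ζ : R} (H : ModelHyp K0 O V Thr π l ζ) (k : κ) {w : F}
    {i j : ℕ} (hi : i < l) (hj : j < l)
    (h1 : (V k).valuation (w - algebraMap R F ζ ^ i) < 1)
    (h2 : (V k).valuation (w - algebraMap R F ζ ^ j) < 1) : i = j := by
  by_contra hne
  have hu := valuation_algebraMap_unit H k (H.hζu i j hi hj hne)
  rw [map_sub, map_pow, map_pow] at hu
  have : algebraMap R F ζ ^ i - algebraMap R F ζ ^ j
      = (w - algebraMap R F ζ ^ j) - (w - algebraMap R F ζ ^ i) := by ring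
  rw [this] at hu
  have hlt := lt_of_le_of_lt (Valuation.map_sub _ _ _) (max_lt h2 h1)
  rw [hu] at hlt
  exact lt_irrefl _ hlt

/-- **The induction step (L8).**  From `u = c g ^ l` and a local datum of `u` for `l * m₁`:
renormalise `c, g` so that `g` has a local datum for `m₁`. -/
theorem exists_localDatum_of_eq {l : ℕ} {ζ : R} (H : ModelHyp K0 O V Thr π l ζ) {u : F}
    (hu0 : u ≠ 0) {m₁ : ℕ} (hu : LocalDatum O V Thr π u (l * m₁)) {c : K0} {g : F}
    (hcg : u = algebraMap K0 F c * g ^ l) :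
    ∃ (c' : K0) (g' : F), c' ≠ 0 ∧ g' ≠ 0 ∧ u = algebraMap K0 F c' * g' ^ l ∧
      LocalDatum O V Thr π g' m₁ := by
  have hl0 : l ≠ 0 := H.hl.ne'
  have hc0 : c ≠ 0 := by
    rintro rfl; rw [map_zero, zero_mul] at hcg; exact hu0 hcg
  have hg0 : g ≠ 0 := by
    rintro rfl; rw [zero_pow hl0, mul_zero] at hcg; exact hu0 hcg
  set P : F := algebraMap R F π with hP
  have hP0 : P ≠ 0 := H.hπ0
  -- Step A: normalise.
  obtain ⟨a, r, hr, hc⟩ := H.hRdvr c hc0
  have hexp : ∀ k, ∀ e : ℤ, (V k).valuation (g * P ^ (-e)) = 1 → a + e * l = 0 := by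
    intro k e he
    have hvP : (V k).valuation P ≠ 0 := (Valuation.ne_zero_iff _).mpr hP0
    have hvg : (V k).valuation g = (V k).valuation P ^ e := by
      rw [map_mul, map_zpow₀, zpow_neg] at he
      rw [← mul_inv_eq_one₀ (zpow_ne_zero e hvP)]
      exact he
    have hvu : (V k).valuation u = 1 := (hu.oneU H k).valuation_eq_one
    rw [hcg, hc, map_mul, map_mul, map_zpow₀, map_pow, valuation_algebraMap_unit H k hr, one_mul,
      hvg, ← zpow_natCast, ← zpow_mul, ← zpow_add₀ hvP] at hvu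
    exact (zpow_eq_one_iff_right₀ zero_le (ne_of_lt (H.hπV k))).mp hvu
  obtain ⟨k₀⟩ := H.hκ
  obtain ⟨e, he⟩ := H.hVdvr k₀ g hg0
  have hae : a + e * l = 0 := hexp k₀ e he
  have hall : ∀ k, (V k).valuation (g * P ^ (-e)) = 1 := by
    intro k
    obtain ⟨e', he'⟩ := H.hVdvr k g hg0
    have h2 := hexp k e' he'
    have : e' = e := by
      have hl' : (l : ℤ) ≠ 0 := by exact_mod_cast hl0
      have : e' * l = e * l := by linarith
      exact mul_right_cancel₀ hl' this
    rw [← this]; exact he'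
  set g' : F := g * P ^ (-e) with hg'
  have hg'0 : g' ≠ 0 := mul_ne_zero hg0 (zpow_ne_zero _ hP0)
  have hug' : u = algebraMap R F r * g' ^ l := by
    rw [hcg, hc, hg', mul_pow, ← zpow_natCast (P ^ (-e)), ← zpow_mul]
    have : (-e) * (l : ℤ) = a := by linarith
    rw [this]; ring
  -- Step B: kill the constant modulo `π`.
  obtain ⟨γ, hγ, t, hγt⟩ := H.hroot r hr
  set G : F := algebraMap R F γ with hG
  have hG0 : G ≠ 0 := (hγ.map (algebraMap R F)).ne_zero
  set c₁ : R := γ ^ l * r with hc₁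
  have hc₁u : IsUnit c₁ := (hγ.pow l).mul hr
  set C : F := algebraMap R F c₁ with hC
  have hC0 : C ≠ 0 := (hc₁u.map (algebraMap R F)).ne_zero
  have hC1 : C - 1 = P * algebraMap R F t := by
    rw [hC, hP, ← map_mul, ← hγt, map_sub, map_one]
  set z : F := algebraMap R F ζ with hz
  have hzl : z ^ l = 1 := H.hζ.pow_eq_one
  set g₁ : F := g' * G⁻¹ with hg₁
  have hg₁0 : g₁ ≠ 0 := mul_ne_zero hg'0 (inv_ne_zero hG0)
  have hug₁ : u = C * g₁ ^ l := by
    have hgg : g' = g₁ * G := by rw [hg₁, mul_assoc, inv_mul_cancel₀ hG0, mul_one]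
    rw [hug', hgg, mul_pow, hC, hc₁, map_mul, map_pow, ← hG]
    ring
  have hg₁v : ∀ k, (V k).valuation g₁ = 1 := by
    intro k
    rw [hg₁, map_mul, map_inv₀, hall k, hG, valuation_algebraMap_unit H k hγ, inv_one, mul_one]
  -- Step C: at every closed point, `g₁ / ψ ^ m₁` is a root of unity modulo `π`.
  have key : ∀ n, ∃ ψ : F, ψ ≠ 0 ∧ (∀ k, Thr n k → OneU (V k) ψ) ∧
      ∃ j < l, PiIn π (O n) (g₁ / ψ ^ m₁ - z ^ j) := by
    intro n
    obtain ⟨ψ, hψ0, ⟨y, hy, hεy⟩, hψ⟩ := hu n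
    refine ⟨ψ, hψ0, hψ, ?_⟩
    have hCinv : C⁻¹ ∈ O n := (unitIn_algebraMap H n hc₁u).2.1
    have hxl : (g₁ / ψ ^ m₁) ^ l = (1 + P * y) * C⁻¹ := by
      have h1 : u / ψ ^ (l * m₁) = 1 + P * y := by rw [← hεy]; ring
      rw [← h1, hug₁, div_pow, ← pow_mul, mul_comm m₁ l]
      field_simp
    have hxmem : g₁ / ψ ^ m₁ ∈ O n := by
      apply H.hOroot n
      rw [hxl]
      exact (O n).mul_mem ((O n).add_mem (O n).one_mem ((O n).mul_mem (H.hRO n π) hy)) hCinv
    refine exists_piIn_sub_pow H n hxmem ⟨(y - algebraMap R F t) * C⁻¹,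
      (O n).mul_mem ((O n).sub_mem hy (H.hRO n t)) hCinv, ?_⟩
    rw [hxl]
    have : (1 + P * y) * C⁻¹ - 1 = (1 + P * y - C) * C⁻¹ := by
      rw [sub_mul, mul_inv_cancel₀ hC0]
    rw [this, show 1 + P * y - C = P * y - (C - 1) by ring, hC1]
    ring
  -- transfer to the vertical valuations
  have transfer : ∀ n k, Thr n k → ∀ ψ : F, OneU (V k) ψ → ∀ j,
      PiIn π (O n) (g₁ / ψ ^ m₁ - z ^ j) → (V k).valuation (g₁ - z ^ j) < 1 := by
    intro n k hnk ψ hψ j hj
    have hψ0 : ψ ≠ 0 := hψ.ne_zero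
    have hψm : OneU (V k) (ψ ^ m₁) := hψ.pow m₁
    have hzv : (V k).valuation (z ^ j) ≤ 1 := by
      rw [map_pow]; exact pow_le_one₀ zero_le (valuation_algebraMap_le H k ζ)
    have : g₁ - z ^ j = (g₁ / ψ ^ m₁ - z ^ j) * ψ ^ m₁ + z ^ j * (ψ ^ m₁ - 1) := by
      field_simp; ring
    rw [this]
    refine lt_of_le_of_lt (Valuation.map_add _ _ _) (max_lt ?_ ?_)
    · rw [map_mul, hψm.valuation_eq_one, mul_one]
      exact hj.valuation_lt H hnk
    · rw [map_mul]
      calc _ ≤ 1 * (V k).valuation (ψ ^ m₁ - 1) := mul_le_mul_left hzv _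
        _ < 1 := by rw [one_mul]; exact hψm
  -- Step D: the index function on the vertical valuations
  have hidx : ∀ k, ∃ j < l, (V k).valuation (g₁ - z ^ j) < 1 := by
    intro k
    obtain ⟨n, hnk⟩ := H.hVthr k
    obtain ⟨ψ, -, hψ, j, hj, hjp⟩ := key n
    exact ⟨j, hj, transfer n k hnk ψ (hψ k hnk) j hjp⟩
  choose idx hidxlt hidxv using hidx
  have hconst : ∀ k k', idx k = idx k' := by
    apply H.hconn idx
    intro n k k' hk hk'
    obtain ⟨ψ, -, hψ, j, hj, hjp⟩ := key n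
    rw [pow_index_unique H k (hidxlt k) hj (hidxv k) (transfer n k hk ψ (hψ k hk) j hjp),
      pow_index_unique H k' (hidxlt k') hj (hidxv k') (transfer n k' hk' ψ (hψ k' hk') j hjp)]
  set i₀ := idx k₀ with hi₀
  -- Step E: conclude
  have hzi : UnitIn (O (Classical.choice (⟨(H.hVthr k₀).choose⟩ : Nonempty ν))) (z ^ i₀) :=
    unitIn_zeta_pow H _ i₀
  have hzi0 : z ^ i₀ ≠ 0 := hzi.2.2
  refine ⟨algebraMap R K0 c₁, g₁ * (z ^ i₀)⁻¹, ?_, mul_ne_zero hg₁0 (inv_ne_zero hzi0), ?_, ?_⟩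
  · intro h0
    apply hC0
    rw [hC, IsScalarTower.algebraMap_apply R K0 F, h0, map_zero]
  · rw [← IsScalarTower.algebraMap_apply R K0 F, ← hC, mul_pow, inv_pow, ← pow_mul, mul_comm i₀ l,
      pow_mul, hzl, one_pow, inv_one, mul_one]
    exact hug₁
  · intro n
    obtain ⟨ψ, hψ0, hψ, j, hj, hjp⟩ := key n
    refine ⟨ψ, hψ0, ?_, hψ⟩
    obtain ⟨k, hnk⟩ := H.hcentre n
    have hji : j = i₀ := by
      rw [hi₀, hconst k₀ k]
      exact (pow_index_unique H k (hidxlt k) hj (hidxv k)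
        (transfer n k hnk ψ (hψ k hnk) j hjp)).symm
    rw [hji] at hjp
    obtain ⟨y, hy, hxy⟩ := hjp
    refine ⟨y * (z ^ i₀)⁻¹, (O n).mul_mem hy (unitIn_zeta_pow H n i₀).2.1, ?_⟩
    have : g₁ * (z ^ i₀)⁻¹ / ψ ^ m₁ - 1 = (g₁ / ψ ^ m₁ - z ^ i₀) * (z ^ i₀)⁻¹ := by
      field_simp
    rw [this, hxy]; ring

/-- **L8: the induction `m = l ^ k`.** -/
theorem exists_pow_of_localDatum {l : ℕ} {ζ : R} (H : ModelHyp K0 O V Thr π l ζ)
    (hK : ∀ u : F, u ≠ 0 → LocalDatum O V Thr π u l →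
      ∃ (c : K0) (g : F), u = algebraMap K0 F c * g ^ l) :
    ∀ (k : ℕ) (u : F), u ≠ 0 → LocalDatum O V Thr π u (l ^ k) →
      ∃ (c : K0) (g : F), c ≠ 0 ∧ g ≠ 0 ∧ u = algebraMap K0 F c * g ^ (l ^ k) := by
  intro k
  induction k with
  | zero =>
    intro u hu0 _
    exact ⟨1, u, one_ne_zero, hu0, by simp⟩
  | succ k ih =>
    intro u hu0 hu
    have hu' : LocalDatum O V Thr π u (l * l ^ k) := by rwa [pow_succ'] at hu
    obtain ⟨c, g, hcg⟩ := hK u hu0 hu'.of_mul
    obtain ⟨c', g', hc', hg', hug', hdat⟩ := exists_localDatum_of_eq H hu0 hu' hcg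
    obtain ⟨c'', g'', hc'', hg'', hgg⟩ := ih g' hg' hdat
    refine ⟨c' * c'' ^ l, g'', mul_ne_zero hc' (pow_ne_zero _ hc''), hg'', ?_⟩
    rw [hug', hgg, mul_pow, ← pow_mul, map_mul, map_pow, pow_succ]
    ring

end Induct

end Fermat.Agent.S34.H47
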