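import Mathlib

/-!
# S34, Step 3': the local Kummer datum of `(t - 1)(s - 1) D`

Abstract (Mathlib only).  `F` a field with two ring automorphisms `s, t` (two inertia elements),
`f` with `div f = m D`, `w` a local equation of `D` near a closed point `n` of the special fibre.
Put `h = s f / f`, `u = t h / h`.  Then `u = ε * ψ ^ m` with
`ψ = t φ / φ`, `φ = s w / w`, `ε = t η' / η'`, `η' = s η / η`, `η = f / w ^ m`, and

* `ε ∈ 1 + π O` as soon as `η'` is a unit of the local ring `O` and `t` is trivial mod `π` on `O`;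
* `ψ ∈ 1 + 𝔪_V` for every valuation ring `V` (a vertical valuation through `n`) preserved by `s`
  on which `t` induces the identity of the residue field.
-/

set_option autoImplicit false

namespace Fermat.Agent.S34.H56

variable {F : Type*} [Field F]

/-- The algebraic identity `u = ε ψ^m`. -/
theorem kummer_local_identity (s t : F ≃+* F) {f w : F} (m : ℕ) (hf : f ≠ 0) (hw : w ≠ 0) :
    t (s f / f) / (s f / f) =
      (t (s (f / w ^ m) / (f / w ^ m)) / (s (f / w ^ m) / (f / w ^ m))) *
        (t (s w / w) / (s w / w)) ^ m := by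
  have hsf : s f ≠ 0 := (map_ne_zero s).mpr hf
  have hsw : s w ≠ 0 := (map_ne_zero s).mpr hw
  have htf : t f ≠ 0 := (map_ne_zero t).mpr hf
  have htw : t w ≠ 0 := (map_ne_zero t).mpr hw
  have htsf : t (s f) ≠ 0 := (map_ne_zero t).mpr hsf
  have htsw : t (s w) ≠ 0 := (map_ne_zero t).mpr hsw
  simp only [map_div₀, map_pow, div_pow]
  have h1 : t (s w) ^ m ≠ 0 := pow_ne_zero _ htsw
  have h2 : t w ^ m ≠ 0 := pow_ne_zero _ htw
  have h3 : s w ^ m ≠ 0 := pow_ne_zero _ hsw
  have h4 : w ^ m ≠ 0 := pow_ne_zero _ hw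
  generalize t (s w) ^ m = A at *
  generalize t w ^ m = B at *
  generalize s w ^ m = C at *
  generalize w ^ m = D at *
  field_simp

/-- If `a` is a unit of the subring `O` and `t` is trivial modulo `π` on `O`, then
`t a / a ∈ 1 + π O`. -/
theorem map_div_self_sub_one_mem (O : Subring F) (π : F) (t : F ≃+* F)
    (ht : ∀ a ∈ O, ∃ b ∈ O, t a - a = π * b) {a : F} (ha : a ∈ O) (ha' : a⁻¹ ∈ O) (ha0 : a ≠ 0) :
    ∃ b ∈ O, t a / a - 1 = π * b := by
  obtain ⟨b, hb, hb'⟩ := ht a ha
  refine ⟨b * a⁻¹, O.mul_mem hb ha', ?_⟩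
  have : t a / a - 1 = (t a - a) * a⁻¹ := by field_simp
  rw [this, hb']; ring

/-- If `φ` is a unit of the valuation ring `V` and `t` induces the identity on the residue field
of `V`, then `t φ / φ ≡ 1` modulo the maximal ideal of `V`. -/
theorem valuation_map_div_self_sub_one_lt (V : ValuationSubring F) (t : F ≃+* F)
    (ht : ∀ a ∈ V, V.valuation (t a - a) < 1) {φ : F} (hφ : V.valuation φ = 1) :
    V.valuation (t φ / φ - 1) < 1 := by
  have hφ0 : φ ≠ 0 := by
    rintro rfl
    simp at hφ
  have hmem : φ ∈ V := by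
    rw [← V.valuation_le_one_iff, hφ]
  have : t φ / φ - 1 = (t φ - φ) * φ⁻¹ := by field_simp
  rw [this, map_mul, map_inv₀, hφ, inv_one, mul_one]
  exact ht φ hmem

/-- `s a / a` is a unit of `V` when `s` preserves the valuation of `V`. -/
theorem valuation_map_div_self_eq_one (V : ValuationSubring F) (s : F ≃+* F)
    (hs : ∀ a : F, V.valuation (s a) = V.valuation a) {a : F} (ha : a ≠ 0) :
    V.valuation (s a / a) = 1 := by
  rw [map_div₀, hs a]
  exact div_self ((map_ne_zero _).mpr ha)

end Fermat.Agent.S34.H56
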