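/-
helper56 — S34 rows L4/L5 (STEP 3'), abstract form.  Mathlib + CA.H42_Hartogs + H56_KummerLocal.

`B` a noetherian integrally closed domain (the local ring `O_n` of the model over `A''` at a
closed point `n` of the special fibre, or any open piece of the model), `K = Frac B = F''`,
`π ∈ B` (`π''`), `s t : K ≃+* K` inertia elements preserving `B` and trivial mod `π`.
`f w : K` with `η = f / w ^ m` a unit at every horizontal height-one prime
(`w` = local equation on `Spec B` of the divisor `D`, `div f = m D`).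
Then `u := t(h)/h`, `h := s(f)/f` factors as `u = ε * ψ ^ m` with `ε ∈ Bˣ`, `ε ≡ 1 mod π`,
`ψ := t(φ)/φ`, `φ := s(w)/w`, and `ψ ≡ 1 mod π` at every vertical prime.
-/
import Mathlib
import Fermat.Agent.CA.H42_Hartogs
import Fermat.Agent.S34.H56_KummerLocal

set_option autoImplicit false
set_option linter.unusedSectionVars false
set_option linter.style.haveILetI false

namespace Fermat.Agent.S34.H56

open Fermat.Agent.CA.H42

variable {B K : Type*} [CommRing B] [IsDomain B] [Field K] [Algebra B K] [IsFractionRing B K]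

/-- `x : K` is a unit at the prime `p` of `B` (i.e. `x ∈ (B_p)ˣ`), "in the field" form. -/
def IsUnitAt (p : Ideal B) (x : K) : Prop :=
  ∃ a b : B, a ∉ p ∧ b ∉ p ∧ x * algebraMap B K b = algebraMap B K a

omit [IsDomain B] in
theorem IsUnitAt.ne_zero {p : Ideal B} {x : K} (h : IsUnitAt p x) : x ≠ 0 := by
  obtain ⟨a, b, ha, -, hab⟩ := h
  rintro rfl
  rw [zero_mul] at hab
  have : a = 0 := (IsFractionRing.injective B K) (by rw [← hab, map_zero])
  exact ha (this ▸ p.zero_mem)

omit [IsDomain B] [IsFractionRing B K] in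
theorem isUnitAt_algebraMap {p : Ideal B} {a : B} (ha : a ∉ p) (hp : p ≠ ⊤) :
    IsUnitAt p (algebraMap B K a) :=
  ⟨a, 1, ha, (Ideal.ne_top_iff_one p).mp hp, by rw [map_one, mul_one]⟩

omit [IsDomain B] in
theorem IsUnitAt.mul {p : Ideal B} [p.IsPrime] {x y : K} (hx : IsUnitAt p x)
    (hy : IsUnitAt p y) : IsUnitAt p (x * y) := by
  obtain ⟨a, b, ha, hb, hab⟩ := hx
  obtain ⟨c, d, hc, hd, hcd⟩ := hy
  refine ⟨a * c, b * d, fun h => ?_, fun h => ?_, ?_⟩
  · exact (Ideal.IsPrime.mem_or_mem ‹_› h).elim ha hc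
  · exact (Ideal.IsPrime.mem_or_mem ‹_› h).elim hb hd
  · rw [map_mul, map_mul, ← hab, ← hcd]; ring

theorem IsUnitAt.inv {p : Ideal B} {x : K} (hx : IsUnitAt p x) : IsUnitAt p x⁻¹ := by
  have hx0 := hx.ne_zero
  obtain ⟨a, b, ha, hb, hab⟩ := hx
  refine ⟨b, a, hb, ha, ?_⟩
  rw [← hab]; field_simp

theorem IsUnitAt.div {p : Ideal B} [p.IsPrime] {x y : K} (hx : IsUnitAt p x)
    (hy : IsUnitAt p y) : IsUnitAt p (x / y) := by
  rw [div_eq_mul_inv]; exact hx.mul hy.inv

omit [IsDomain B] in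
theorem IsUnitAt.pow {p : Ideal B} [p.IsPrime] {x : K} (hx : IsUnitAt p x) (n : ℕ) :
    IsUnitAt p (x ^ n) := by
  induction n with
  | zero =>
    rw [pow_zero]
    exact ⟨1, 1, (Ideal.ne_top_iff_one p).mp (Ideal.IsPrime.ne_top ‹_›),
      (Ideal.ne_top_iff_one p).mp (Ideal.IsPrime.ne_top ‹_›), by simp⟩
  | succ n ih => rw [pow_succ]; exact ih.mul hx

omit [IsDomain B] [IsFractionRing B K] in
/-- Transport of `IsUnitAt` along a compatible pair of automorphisms. -/
theorem IsUnitAt.map {sB : B ≃+* B} {s : K ≃+* K}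
    (hs : ∀ b, s (algebraMap B K b) = algebraMap B K (sB b)) {p : Ideal B} {x : K}
    (hx : IsUnitAt (p.comap (sB : B →+* B)) x) : IsUnitAt p (s x) := by
  obtain ⟨a, b, ha, hb, hab⟩ := hx
  refine ⟨sB a, sB b, ha, hb, ?_⟩
  rw [← hs, ← hs, ← map_mul, hab]

section Main

variable [IsNoetherianRing B] [IsIntegrallyClosed B]

/-- **STEP 3' (abstract).** -/
theorem step3_local (π : B)
    (sB tB : B ≃+* B) (s t : K ≃+* K)
    (hs : ∀ b, s (algebraMap B K b) = algebraMap B K (sB b))
    (ht : ∀ b, t (algebraMap B K b) = algebraMap B K (tB b))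
    (hsπ : ∀ b, sB b - b ∈ Ideal.span {π})
    (htπ : ∀ b, tB b - b ∈ Ideal.span {π})
    (f w : K) (hf : f ≠ 0) (hw : w ≠ 0) (m : ℕ)
    (hhor : ∀ p : Ideal B, p.IsPrime → p.height = 1 → π ∉ p → IsUnitAt p (f / w ^ m))
    (hvert : ∀ p : Ideal B, p.IsPrime → p.height = 1 → π ∈ p →
      IsUnitAt p (s (f / w ^ m) / (f / w ^ m))) :
    ∃ ε : Bˣ, ((ε : B) - 1 ∈ Ideal.span {π}) ∧
      t (s f / f) / (s f / f) =
        algebraMap B K (ε : B) * (t (s w / w) / (s w / w)) ^ m := by
  set η : K := f / w ^ m with hη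
  have hη0 : η ≠ 0 := div_ne_zero hf (pow_ne_zero _ hw)
  have hκ0 : s η / η ≠ 0 := div_ne_zero ((map_ne_zero s).mpr hη0) hη0
  -- `κ = s η / η` is a unit of `B`
  obtain ⟨u, hu⟩ : ∃ u : Bˣ, algebraMap B K u = s η / η := by
    refine exists_unit_of_forall_height_one (s η / η) hκ0 fun p hp h1 => ?_
    by_cases hπp : π ∈ p
    · exact hvert p hp h1 hπp
    · have h1' : (p.comap (sB : B →+* B)).height = 1 := by
        have := RingEquiv.height_comap sB p
        rw [← h1, ← this]; rfl
      have hp' : (p.comap (sB : B →+* B)).IsPrime := Ideal.comap_isPrime _ _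
      have hπ' : π ∉ p.comap (sB : B →+* B) := by
        intro h
        have h2 : sB π ∈ p := h
        have h3 := hsπ π
        -- `sB π = π + (sB π - π)`, both divisible by `π`... we need `π ∈ p` from `sB π ∈ p`
        -- use the inverse: `π = sB.symm (sB π)`; apply `hsπ` to `sB.symm`-images
        have h4 : ∀ b, b - sB.symm b ∈ Ideal.span {π} := fun b => by
          have := hsπ (sB.symm b); rwa [RingEquiv.apply_symm_apply] at this
        -- `sB π = π * c` and `π = sB π * d'`-type argument: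
        obtain ⟨c, hc⟩ := Ideal.mem_span_singleton.mp h3
        -- sB π = π * (1 + c)
        have h5 : sB π = π * (1 + c) := by rw [mul_add, mul_one, ← hc]; ring
        -- π = sB (sB.symm π), sB.symm π = π - π * d = π * (1 - d)
        obtain ⟨d, hd⟩ := Ideal.mem_span_singleton.mp (h4 π)
        have h6 : sB.symm π = π * (1 - d) := by rw [mul_sub, mul_one, ← hd]; ring
        have h7 : π = sB π * sB (1 - d) := by
          have := congrArg sB h6
          rwa [RingEquiv.apply_symm_apply, map_mul] at this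
        exact hπp (h7 ▸ Ideal.mul_mem_right _ _ h2)
      have hA := hhor _ hp' h1' hπ'
      exact (IsUnitAt.map hs hA).div (hhor p hp h1 hπp)
  -- `ε = tB u / u`
  refine ⟨Units.map (tB : B →* B) u * u⁻¹, ?_, ?_⟩
  · have : ((Units.map (tB : B →* B) u * u⁻¹ : Bˣ) : B) - 1 = (tB u - u) * ((u⁻¹ : Bˣ) : B) := by
      rw [Units.val_mul, sub_mul, Units.mul_inv]; rfl
    rw [this]
    exact Ideal.mul_mem_right _ _ (htπ u)
  · rw [kummer_local_identity s t m hf hw, ← hη, ← hu, ht]
    congr 1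
    rw [Units.val_mul, map_mul]
    have hinv : algebraMap B K ((u⁻¹ : Bˣ) : B) = (algebraMap B K (u : B))⁻¹ := by
      apply eq_inv_of_mul_eq_one_left
      rw [← map_mul, Units.inv_mul, map_one]
    rw [hinv, div_eq_mul_inv]; rfl

/-- At a prime `p ∋ π` where `φ` is a unit, `ψ = t φ / φ ≡ 1 mod π` (in `B_p`). -/
theorem map_div_self_sub_one_at (π : B) (tB : B ≃+* B) (t : K ≃+* K)
    (ht : ∀ b, t (algebraMap B K b) = algebraMap B K (tB b))
    (htπ : ∀ b, tB b - b ∈ Ideal.span {π})
    (p : Ideal B) [p.IsPrime] (hπp : π ∈ p) {φ : K} (hφ : IsUnitAt p φ) :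
    ∃ a b : B, b ∉ p ∧ (t φ / φ - 1) * algebraMap B K b = algebraMap B K (π * a) := by
  have hφ0 := hφ.ne_zero
  obtain ⟨a, b, ha, hb, hab⟩ := hφ
  have hb0 : algebraMap B K b ≠ 0 := by
    intro h
    have : b = 0 := (IsFractionRing.injective B K) (by rw [h, map_zero])
    exact hb (this ▸ p.zero_mem)
  have ha0 : algebraMap B K a ≠ 0 := by rw [← hab]; exact mul_ne_zero hφ0 hb0
  obtain ⟨c, hc⟩ := Ideal.mem_span_singleton.mp (htπ a)
  obtain ⟨d, hd⟩ := Ideal.mem_span_singleton.mp (htπ b)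
  have htb : tB b ∉ p := by
    intro h
    apply hb
    have : b = tB b - π * d := by rw [← hd]; ring
    rw [this]; exact Ideal.sub_mem _ h (Ideal.mul_mem_right _ _ hπp)
  have htb0 : algebraMap B K (tB b) ≠ 0 := by
    intro h
    have : tB b = 0 := (IsFractionRing.injective B K) (by rw [h, map_zero])
    exact htb (this ▸ p.zero_mem)
  refine ⟨c * b - d * a, tB b * a, fun h => (Ideal.IsPrime.mem_or_mem ‹_› h).elim htb ha, ?_⟩
  have hφ' : φ = algebraMap B K a / algebraMap B K b := by rw [← hab]; field_simp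
  have htφ : t φ = algebraMap B K (tB a) / algebraMap B K (tB b) := by
    rw [hφ', map_div₀, ht, ht]
  have e1 : algebraMap B K (tB a) = algebraMap B K a + algebraMap B K π * algebraMap B K c := by
    rw [← map_mul, ← map_add, ← hc]; congr 1; ring
  have e2 : algebraMap B K (tB b) = algebraMap B K b + algebraMap B K π * algebraMap B K d := by
    rw [← map_mul, ← map_add, ← hd]; congr 1; ring
  have hsum : algebraMap B K b + algebraMap B K π * algebraMap B K d ≠ 0 := by
    rw [← e2]; exact htb0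
  rw [htφ, hφ']
  simp only [map_mul, map_sub]
  rw [e1, e2]
  field_simp
  ring

end Main

end Fermat.Agent.S34.H56
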