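/-
helper56 — S34 dictionary helper: the valuation subring of `K = Frac B` attached to a height-one
prime `p` of a noetherian integrally closed domain `B` ("in the field" form of `B_p`), and the
translation `V_p.valuation x = 1 ↔ IsUnitAt p x`.  Mathlib + helper42's CA files.
-/
import Mathlib
import Fermat.Agent.CA.H42_KrullDvr
import Fermat.Agent.S34.H56_Step3

set_option autoImplicit false
set_option linter.unusedSectionVars false
set_option linter.style.haveILetI false

namespace Fermat.Agent.S34.H56

open Fermat.Agent.CA.H42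

variable {B K : Type*} [CommRing B] [IsDomain B] [Field K] [Algebra B K] [IsFractionRing B K]

/-- `x ∈ B_p` in the field: `x = a / b` with `b ∉ p`. -/
def MemAt (p : Ideal B) (x : K) : Prop :=
  ∃ a b : B, b ∉ p ∧ x * algebraMap B K b = algebraMap B K a

omit [IsDomain B] in
theorem memAt_algebraMap (p : Ideal B) (hp : p ≠ ⊤) (a : B) : MemAt p (algebraMap B K a) :=
  ⟨a, 1, (Ideal.ne_top_iff_one p).mp hp, by rw [map_one, mul_one]⟩

omit [IsDomain B] in
theorem MemAt.add {p : Ideal B} [p.IsPrime] {x y : K} (hx : MemAt p x) (hy : MemAt p y) :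
    MemAt p (x + y) := by
  obtain ⟨a, b, hb, hab⟩ := hx
  obtain ⟨c, d, hd, hcd⟩ := hy
  refine ⟨a * d + c * b, b * d, fun h => (Ideal.IsPrime.mem_or_mem ‹_› h).elim hb hd, ?_⟩
  simp only [map_mul, map_add, ← hab, ← hcd]; ring

omit [IsDomain B] in
theorem MemAt.mul {p : Ideal B} [p.IsPrime] {x y : K} (hx : MemAt p x) (hy : MemAt p y) :
    MemAt p (x * y) := by
  obtain ⟨a, b, hb, hab⟩ := hx
  obtain ⟨c, d, hd, hcd⟩ := hy
  refine ⟨a * c, b * d, fun h => (Ideal.IsPrime.mem_or_mem ‹_› h).elim hb hd, ?_⟩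
  simp only [map_mul, ← hab, ← hcd]; ring

omit [IsDomain B] in
theorem MemAt.neg {p : Ideal B} {x : K} (hx : MemAt p x) : MemAt p (-x) := by
  obtain ⟨a, b, hb, hab⟩ := hx
  exact ⟨-a, b, hb, by rw [map_neg, ← hab]; ring⟩

omit [IsDomain B] in
theorem IsUnitAt.memAt {p : Ideal B} {x : K} (hx : IsUnitAt p x) : MemAt p x := by
  obtain ⟨a, b, -, hb, hab⟩ := hx
  exact ⟨a, b, hb, hab⟩

theorem isUnitAt_iff_memAt {p : Ideal B} [p.IsPrime] {x : K} :
    IsUnitAt p x ↔ x ≠ 0 ∧ MemAt p x ∧ MemAt p x⁻¹ := by
  constructor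
  · intro h
    exact ⟨h.ne_zero, h.memAt, h.inv.memAt⟩
  · rintro ⟨hx0, ⟨a, b, hb, hab⟩, ⟨c, d, hd, hcd⟩⟩
    refine ⟨a, b, fun ha => ?_, hb, hab⟩
    -- `a * c = b * d ∉ p`
    have hd0 : algebraMap B K d ≠ 0 := by
      intro h
      have : d = 0 := (IsFractionRing.injective B K) (by rw [h, map_zero])
      exact hd (this ▸ p.zero_mem)
    have h1 : algebraMap B K (a * c) = algebraMap B K (b * d) := by
      rw [map_mul, map_mul, ← hab, ← hcd]; field_simp
    have h2 : a * c = b * d := (IsFractionRing.injective B K) h1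
    have h3 : b * d ∈ p := h2 ▸ Ideal.mul_mem_right _ _ ha
    exact (Ideal.IsPrime.mem_or_mem ‹_› h3).elim hb hd

section DVR

variable [IsNoetherianRing B] [IsIntegrallyClosed B]

/-- `B_p` is a valuation ring of `K` when `p` has height one: `x ∈ B_p` or `x⁻¹ ∈ B_p`. -/
theorem memAt_or_memAt_inv (p : Ideal B) [hp : p.IsPrime] (h1 : p.height = 1) (x : K) :
    MemAt p x ∨ MemAt p x⁻¹ := by
  let Bp := Localization.AtPrime p
  have hunit : ∀ y : p.primeCompl, IsUnit (algebraMap B K y) := fun y => by
    refine IsUnit.mk0 _ ?_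
    intro h
    have : (y : B) = 0 := (IsFractionRing.injective B K) (by rw [h, map_zero])
    exact y.2 (this ▸ p.zero_mem)
  let φ : Bp →+* K := IsLocalization.lift (M := p.primeCompl) (g := algebraMap B K) hunit
  letI : Algebra Bp K := φ.toAlgebra
  haveI : IsScalarTower B Bp K := IsScalarTower.of_algebraMap_eq fun b => by
    show algebraMap B K b = φ (algebraMap B Bp b)
    exact (IsLocalization.lift_eq hunit b).symm
  haveI : IsFractionRing Bp K :=
    IsFractionRing.isFractionRing_of_isDomain_of_isLocalization p.primeCompl Bp K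
  haveI : IsDiscreteValuationRing Bp := isDiscreteValuationRing_of_height_eq_one p h1 Bp
  have key : ∀ z : K, IsLocalization.IsInteger Bp z → MemAt p z := by
    rintro z ⟨y, rfl⟩
    obtain ⟨⟨a, b⟩, hab⟩ := IsLocalization.surj p.primeCompl y
    refine ⟨a, b, b.2, ?_⟩
    have := congrArg (algebraMap Bp K) hab
    rw [map_mul, ← IsScalarTower.algebraMap_apply, ← IsScalarTower.algebraMap_apply] at this
    exact this
  rcases ValuationRing.isInteger_or_isInteger Bp x with h | h
  · exact Or.inl (key x h)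
  · exact Or.inr (key x⁻¹ h)

/-- The valuation subring `B_p ⊆ K` of a height-one prime. -/
def valuationSubringAt (p : Ideal B) [hp : p.IsPrime] (h1 : p.height = 1) : ValuationSubring K where
  carrier := {x | MemAt p x}
  mul_mem' := fun hx hy => hx.mul hy
  one_mem' := by
    have := memAt_algebraMap (K := K) p hp.ne_top 1
    rwa [map_one] at this
  add_mem' := fun hx hy => hx.add hy
  zero_mem' := by
    have := memAt_algebraMap (K := K) p hp.ne_top 0
    rwa [map_zero] at this
  neg_mem' := fun hx => hx.neg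
  mem_or_inv_mem' := memAt_or_memAt_inv p h1

theorem mem_valuationSubringAt {p : Ideal B} [hp : p.IsPrime] (h1 : p.height = 1) {x : K} :
    x ∈ valuationSubringAt (K := K) p h1 ↔ MemAt p x := Iff.rfl

theorem algebraMap_mem_valuationSubringAt {p : Ideal B} [hp : p.IsPrime] (h1 : p.height = 1)
    (b : B) : algebraMap B K b ∈ valuationSubringAt (K := K) p h1 :=
  memAt_algebraMap p hp.ne_top b

/-- `V_p.valuation x = 1 ↔ x` is a unit at `p`. -/
theorem valuation_eq_one_iff {p : Ideal B} [hp : p.IsPrime] (h1 : p.height = 1) {x : K} :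
    (valuationSubringAt (K := K) p h1).valuation x = 1 ↔ IsUnitAt p x := by
  rw [isUnitAt_iff_memAt]
  constructor
  · intro h
    have hx0 : x ≠ 0 := by
      rintro rfl
      rw [map_zero] at h
      exact zero_ne_one h
    refine ⟨hx0, ?_, ?_⟩
    · exact (mem_valuationSubringAt h1).mp
        (((valuationSubringAt (K := K) p h1).valuation_le_one_iff x).mp h.le)
    · refine (mem_valuationSubringAt h1).mp
        (((valuationSubringAt (K := K) p h1).valuation_le_one_iff x⁻¹).mp ?_)
      rw [map_inv₀, h, inv_one]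
  · rintro ⟨hx0, hx, hxi⟩
    have h1' := ((valuationSubringAt (K := K) p h1).valuation_le_one_iff x).mpr hx
    have h2' := ((valuationSubringAt (K := K) p h1).valuation_le_one_iff x⁻¹).mpr hxi
    rw [map_inv₀] at h2'
    have hv0 : (valuationSubringAt (K := K) p h1).valuation x ≠ 0 :=
      (Valuation.ne_zero_iff _).mpr hx0
    have h3 : 1 ≤ (valuationSubringAt (K := K) p h1).valuation x := by
      rwa [inv_le_one₀ (zero_lt_iff.mpr hv0)] at h2'
    exact le_antisymm h1' h3

/-- The centre of `V_p` on `B` is `p`. -/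
theorem algebraMap_mem_nonunits_iff {p : Ideal B} [hp : p.IsPrime] (h1 : p.height = 1) (b : B) :
    (valuationSubringAt (K := K) p h1).valuation (algebraMap B K b) < 1 ↔ b ∈ p := by
  have hle : (valuationSubringAt (K := K) p h1).valuation (algebraMap B K b) ≤ 1 :=
    ((valuationSubringAt (K := K) p h1).valuation_le_one_iff _).mpr
      (algebraMap_mem_valuationSubringAt h1 b)
  rw [lt_iff_le_and_ne, and_iff_right hle, Ne, valuation_eq_one_iff]
  constructor
  · intro h
    by_contra hb
    exact h (isUnitAt_algebraMap hb hp.ne_top)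
  · rintro hb ⟨a, c, ha, hc, hac⟩
    have : b * c = a := (IsFractionRing.injective B K) (by rw [map_mul, hac])
    exact ha (this ▸ Ideal.mul_mem_right _ _ hb)

end DVR

end Fermat.Agent.S34.H56
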