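/-
helper21 — S34 chain, step L8, the BRIDGE (a): the hypotheses `H47.ModelHyp` of the abstract
induction `H47.exists_pow_of_localDatum` for a model given by two charts.

One chart (`B` a domain with fraction field `F`):
* `locSubring n`      : the localisation `B_n ⊆ F` as a `Subring F` (carrier `H56.MemAt n`);
* `unitIn_locSubring_iff`, `locSubring_root_closed`, `locSubring_local`, `locSubring_le`.
* `centre V hBV`      : the centre on `B` of a valuation subring `V ⊇ B`.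

Two charts `B₁ B₂ : Subalgebra R F` over a DVR `R` with uniformiser `π`:
* `ClosedPt B π`, `ptO`, `ptThr` : closed points of the special fibre, their local rings, incidence
  with the vertical valuation rings `V k`;
* `modelHyp_of_charts` : `H47.ModelHyp K0 (ptO B₁ B₂ π) V (ptThr B₁ B₂ V π) π l ζ` (abstract `V k`).
* `le_of_le_of_inv_not_mem` (a DVR is a maximal subring), `exists_mul_eq_mul_pow`,
  `exists_zpow_valuation_eq_one` (`hVdvr` for `H56.valuationSubringAt p` from `p B_p = π B_p`),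
  `valuationSubringAt_eq` (chart 1 and chart 2 give the same vertical valuation ring).
* `modelHyp_of_chart_primes` : the same in the binder block of `kummer_descent` /
  `hconn_of_no_split` (ONE index type `κ`, vertical primes `P₁ k`, `P₂ k`, `P₁₂ k`),
  with `V k := H56.valuationSubringAt (P₁ k)` and `Thr := primeThr P₁ P₂`.
-/
import Mathlib
import Fermat.Agent.S34.H47_KummerInduct
import Fermat.Agent.S34.H56_PrimeVal
import Fermat.Agent.CA.H21_KummerInduction

set_option autoImplicit false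
set_option linter.unusedSectionVars false
set_option linter.style.haveILetI false

namespace Fermat.Agent.S34.H21

open Fermat.Agent.S34

section OneChart

variable {B F : Type*} [CommRing B] [IsDomain B] [Field F] [Algebra B F] [IsFractionRing B F]

/-- The localisation of `B` at the prime `n`, as a subring of the fraction field. -/
def locSubring (n : Ideal B) [hn : n.IsPrime] : Subring F where
  carrier := {x | H56.MemAt n x}
  mul_mem' hx hy := hx.mul hy
  one_mem' := by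
    have := H56.memAt_algebraMap (K := F) n hn.ne_top 1
    rwa [map_one] at this
  add_mem' hx hy := hx.add hy
  zero_mem' := by
    have := H56.memAt_algebraMap (K := F) n hn.ne_top 0
    rwa [map_zero] at this
  neg_mem' hx := hx.neg

theorem mem_locSubring {n : Ideal B} [n.IsPrime] {x : F} :
    x ∈ locSubring (F := F) n ↔ H56.MemAt n x := Iff.rfl

theorem algebraMap_mem_locSubring (n : Ideal B) [hn : n.IsPrime] (b : B) :
    algebraMap B F b ∈ locSubring (F := F) n :=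
  H56.memAt_algebraMap n hn.ne_top b

theorem unitIn_locSubring_iff {n : Ideal B} [n.IsPrime] {x : F} :
    H47.UnitIn (locSubring (F := F) n) x ↔ H56.IsUnitAt n x := by
  rw [H56.isUnitAt_iff_memAt]
  constructor
  · rintro ⟨h1, h2, h3⟩
    exact ⟨h3, h1, h2⟩
  · rintro ⟨h3, h1, h2⟩
    exact ⟨h1, h2, h3⟩

/-- `B_n` is `l`-root closed when `B` is integrally closed. -/
theorem locSubring_root_closed [IsIntegrallyClosed B] (n : Ideal B) [n.IsPrime] {l : ℕ}
    (hl : 0 < l) {x : F} (hx : x ^ l ∈ locSubring (F := F) n) : x ∈ locSubring (F := F) n := by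
  obtain ⟨a, s, hs, has⟩ := hx
  obtain ⟨l', rfl⟩ : ∃ l', l = l' + 1 := ⟨l - 1, by omega⟩
  have hy : IsIntegral B (x * algebraMap B F s) := by
    refine ⟨Polynomial.X ^ (l' + 1) - Polynomial.C (a * s ^ l'),
      Polynomial.monic_X_pow_sub_C _ (Nat.succ_ne_zero l'), ?_⟩
    rw [Polynomial.eval₂_sub, Polynomial.eval₂_pow, Polynomial.eval₂_X, Polynomial.eval₂_C,
      map_mul, map_pow, ← has]
    ring
  obtain ⟨b, hb⟩ := IsIntegrallyClosed.isIntegral_iff.mp hy
  exact ⟨b, s, hs, hb.symm⟩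

/-- `B_n` is local: unit + non-unit is a unit. -/
theorem locSubring_local (n : Ideal B) [hn : n.IsPrime] {a b : F}
    (ha : H47.UnitIn (locSubring (F := F) n) a) (hb : b ∈ locSubring (F := F) n)
    (hbu : ¬ H47.UnitIn (locSubring (F := F) n) b) :
    H47.UnitIn (locSubring (F := F) n) (a + b) := by
  rw [unitIn_locSubring_iff] at ha hbu ⊢
  obtain ⟨a₁, s, ha₁, hs, has⟩ := ha
  obtain ⟨b₁, t, ht, hbt⟩ := hb
  have hb₁ : b₁ ∈ n := by
    by_contra hb₁
    exact hbu ⟨b₁, t, hb₁, ht, hbt⟩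
  refine ⟨a₁ * t + b₁ * s, s * t, ?_, ?_, ?_⟩
  · intro hmem
    have h2 : a₁ * t ∈ n := by
      have := n.sub_mem hmem (n.mul_mem_right s hb₁)
      rwa [add_sub_cancel_right] at this
    exact (hn.mem_or_mem h2).elim ha₁ ht
  · intro hmem
    exact (hn.mem_or_mem hmem).elim hs ht
  · simp only [map_add, map_mul, ← has, ← hbt]; ring

/-- The centre on `B` of a valuation subring containing `B`. -/
def centre (V : ValuationSubring F) (hBV : ∀ b : B, algebraMap B F b ∈ V) : Ideal B where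
  carrier := {b | V.valuation (algebraMap B F b) < 1}
  add_mem' := by
    intro a b ha hb
    show V.valuation (algebraMap B F (a + b)) < 1
    rw [map_add]
    exact Valuation.map_add_lt _ ha hb
  zero_mem' := by
    show V.valuation (algebraMap B F 0) < 1
    rw [map_zero, map_zero]; exact zero_lt_one
  smul_mem' := by
    intro c b hb
    show V.valuation (algebraMap B F (c • b)) < 1
    rw [smul_eq_mul, map_mul, map_mul]
    have hc : V.valuation (algebraMap B F c) ≤ 1 := (V.valuation_le_one_iff _).2 (hBV c)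
    exact mul_lt_one_of_nonneg_of_lt_one_right hc zero_le hb

theorem mem_centre {V : ValuationSubring F} {hBV : ∀ b : B, algebraMap B F b ∈ V} {b : B} :
    b ∈ centre V hBV ↔ V.valuation (algebraMap B F b) < 1 := Iff.rfl

theorem centre_ne_top (V : ValuationSubring F) (hBV : ∀ b : B, algebraMap B F b ∈ V) :
    centre V hBV ≠ ⊤ := by
  intro h
  have : (1 : B) ∈ centre V hBV := by rw [h]; trivial
  rw [mem_centre, map_one, map_one] at this
  exact lt_irrefl _ this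

/-- If the centre of `V` lies in `n` then `B_n ⊆ V`. -/
theorem locSubring_le {V : ValuationSubring F} (hBV : ∀ b : B, algebraMap B F b ∈ V)
    {n : Ideal B} [n.IsPrime] (hcn : centre V hBV ≤ n) {x : F}
    (hx : x ∈ locSubring (F := F) n) : x ∈ V := by
  obtain ⟨a, s, hs, has⟩ := hx
  have hs1 : V.valuation (algebraMap B F s) = 1 := by
    refine le_antisymm ((V.valuation_le_one_iff _).2 (hBV s)) (not_lt.1 fun hlt => hs (hcn hlt))
  have : V.valuation x = V.valuation (algebraMap B F a) := by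
    rw [← has, map_mul, hs1, mul_one]
  rw [← V.valuation_le_one_iff, this]
  exact (V.valuation_le_one_iff _).2 (hBV a)

/-- In a valuation subring with uniformiser `ϖ` (every nonzero `x` is a unit times a power of `ϖ`),
any subring `W ⊇ V` in which `ϖ` is not invertible equals `V`: a DVR is a maximal subring. -/
theorem le_of_le_of_inv_not_mem {V : ValuationSubring F} {ϖ : F} (hϖV : ϖ ∈ V)
    (hdvr : ∀ x : F, x ≠ 0 → ∃ e : ℤ, V.valuation (x * ϖ ^ (-e)) = 1)
    {W : Subring F} (hVW : ∀ x ∈ V, x ∈ W) (hϖW : ϖ⁻¹ ∉ W) {x : F} (hx : x ∈ W) : x ∈ V := by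
  rcases eq_or_ne x 0 with rfl | hx0
  · exact V.zero_mem
  obtain ⟨e, he⟩ := hdvr x hx0
  have hu : x * ϖ ^ (-e) ∈ V := (V.valuation_le_one_iff _).1 he.le
  have hui : (x * ϖ ^ (-e))⁻¹ ∈ V := by
    rw [← V.valuation_le_one_iff, map_inv₀, he, inv_one]
  have hϖ0 : ϖ ≠ 0 := by
    rintro rfl
    exact hϖW (by rw [inv_zero]; exact W.zero_mem)
  rcases le_or_gt 0 e with hpos | hneg
  · -- `x = u * ϖ ^ e`, `e ≥ 0`
    obtain ⟨k, rfl⟩ := Int.eq_ofNat_of_zero_le hpos
    have : x = (x * ϖ ^ (-(k : ℤ))) * ϖ ^ k := by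
      rw [zpow_neg, zpow_natCast, mul_assoc, inv_mul_cancel₀ (pow_ne_zero _ hϖ0), mul_one]
    rw [this]
    exact V.mul_mem _ _ hu (V.pow_mem hϖV k)
  · -- `ϖ⁻¹ ∈ W`, contradiction
    exfalso
    apply hϖW
    obtain ⟨k, hk⟩ : ∃ k : ℕ, -e = (k : ℤ) + 1 := ⟨(-e - 1).toNat, by omega⟩
    -- `ϖ ^ (k+1) = (x * ϖ ^ (-e)) * x⁻¹`, so `(ϖ^(k+1))⁻¹ = x * (x ϖ^(-e))⁻¹ ∈ W`
    have h1 : (ϖ ^ (k + 1))⁻¹ = x * (x * ϖ ^ (-e))⁻¹ := by
      rw [hk, mul_inv, ← mul_assoc, mul_inv_cancel₀ hx0, one_mul]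
      norm_cast
    have h2 : (ϖ ^ (k + 1))⁻¹ ∈ W := by
      rw [h1]
      exact W.mul_mem hx (hVW _ hui)
    have h3 : ϖ⁻¹ = (ϖ ^ (k + 1))⁻¹ * ϖ ^ k := by
      rw [pow_succ, mul_inv, mul_comm (ϖ ^ k)⁻¹, mul_assoc, inv_mul_cancel₀ (pow_ne_zero _ hϖ0),
        mul_one]
    rw [h3]
    exact W.mul_mem h2 (W.pow_mem (hVW _ hϖV) k)

end OneChart

section Uniformiser

open Fermat.Agent.CA.H42

variable {B F : Type*} [CommRing B] [IsDomain B] [Field F] [Algebra B F] [IsFractionRing B F]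
  [IsNoetherianRing B] [IsIntegrallyClosed B]

/-- If `p B_p = ϖ B_p` (`hred`), every nonzero element of `B` is `ϖ ^ e` times a unit at `p`. -/
theorem exists_mul_eq_mul_pow (p : Ideal B) [hp : p.IsPrime] (h1 : p.height = 1) {ϖ : B}
    (hϖp : ϖ ∈ p) (hred : ∀ b ∈ p, ∃ s, s ∉ p ∧ ϖ ∣ s * b) {b : B} (hb : b ≠ 0) :
    ∃ (e : ℕ) (c d : B), c ∉ p ∧ d ∉ p ∧ b * d = c * ϖ ^ e := by
  let Bp := Localization.AtPrime p
  haveI : IsDiscreteValuationRing Bp := isDiscreteValuationRing_of_height_eq_one p h1 Bp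
  have hinj : Function.Injective (algebraMap B Bp) :=
    IsLocalization.injective Bp p.primeCompl_le_nonZeroDivisors
  -- `ϖ` is a uniformiser of `Bp`
  have hmax : IsLocalRing.maximalIdeal Bp = Ideal.span {algebraMap B Bp ϖ} := by
    apply le_antisymm
    · rw [← IsLocalization.AtPrime.map_eq_maximalIdeal p Bp, Ideal.map_le_iff_le_comap]
      intro b hb
      obtain ⟨s, hs, y, hy⟩ := hred b hb
      rw [Ideal.mem_comap, Ideal.mem_span_singleton]
      have hsu : IsUnit (algebraMap B Bp s) :=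
        (IsLocalization.AtPrime.isUnit_to_map_iff Bp p s).mpr hs
      obtain ⟨su, hsu'⟩ := hsu
      refine ⟨algebraMap B Bp y * ↑su⁻¹, ?_⟩
      have : algebraMap B Bp s * algebraMap B Bp b = algebraMap B Bp ϖ * algebraMap B Bp y := by
        rw [← map_mul, ← map_mul, hy]
      calc algebraMap B Bp b = ↑su⁻¹ * (algebraMap B Bp s * algebraMap B Bp b) := by
            rw [← mul_assoc, ← hsu', Units.inv_mul, one_mul]
        _ = algebraMap B Bp ϖ * (algebraMap B Bp y * ↑su⁻¹) := by rw [this]; ring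
    · rw [Ideal.span_singleton_le_iff_mem]
      exact (IsLocalization.AtPrime.to_map_mem_maximal_iff Bp p ϖ).mpr hϖp
  have hirr : Irreducible (algebraMap B Bp ϖ) :=
    (IsDiscreteValuationRing.irreducible_iff_uniformizer _).mpr hmax
  have hb' : algebraMap B Bp b ≠ 0 := fun h => hb (hinj (by rw [h, map_zero]))
  obtain ⟨e, u, hu⟩ := IsDiscreteValuationRing.eq_unit_mul_pow_irreducible hb' hirr
  obtain ⟨⟨c, d⟩, hcd⟩ := IsLocalization.surj p.primeCompl (u : Bp)
  -- `u * d = c`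
  have hcu : IsUnit (algebraMap B Bp c) := by
    rw [← hcd]
    exact u.isUnit.mul (IsLocalization.map_units Bp d)
  have hc : c ∉ p := (IsLocalization.AtPrime.isUnit_to_map_iff Bp p c).mp hcu
  refine ⟨e, c, d, hc, d.2, hinj ?_⟩
  rw [map_mul, map_mul, map_pow, hu, ← hcd]
  ring

/-- `hVdvr` for the valuation ring of a height-one prime with uniformiser `ϖ`. -/
theorem exists_zpow_valuation_eq_one (p : Ideal B) [hp : p.IsPrime] (h1 : p.height = 1) {ϖ : B}
    (hϖp : ϖ ∈ p) (hred : ∀ b ∈ p, ∃ s, s ∉ p ∧ ϖ ∣ s * b) {x : F} (hx : x ≠ 0) :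
    ∃ e : ℤ, (H56.valuationSubringAt (K := F) p h1).valuation
      (x * algebraMap B F ϖ ^ (-e)) = 1 := by
  obtain ⟨a, b, hb, rfl⟩ := IsFractionRing.div_surjective (A := B) x
  have ha0 : a ≠ 0 := by
    rintro rfl
    rw [map_zero, zero_div] at hx
    exact hx rfl
  have hb0 : b ≠ 0 := nonZeroDivisors.ne_zero hb
  obtain ⟨ea, ca, da, hca, hda, hA⟩ := exists_mul_eq_mul_pow p h1 hϖp hred ha0
  obtain ⟨eb, cb, db, hcb, hdb, hB⟩ := exists_mul_eq_mul_pow p h1 hϖp hred hb0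
  have hinj := IsFractionRing.injective B F
  have hϖ0 : ϖ ≠ 0 := by
    rintro rfl
    rw [zero_pow_eq] at hA
    split_ifs at hA with h
    · -- `a * da = ca`; fine, but then `p ∋ 0` only; derive contradiction from `hred`
      obtain ⟨s, hs, y, hy⟩ := hred 0 p.zero_mem
      -- no contradiction here in general; use height: `p ≠ ⊥`
      have hpbot : p ≠ ⊥ := by
        intro hbot
        rw [hbot, Ideal.height_bot] at h1
        exact zero_ne_one h1
      obtain ⟨z, hzp, hz0⟩ := Submodule.exists_mem_ne_zero_of_ne_bot hpbot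
      obtain ⟨s', hs', y', hy'⟩ := hred z hzp
      rw [zero_mul] at hy'
      rcases mul_eq_zero.mp hy' with h' | h'
      · exact hs' (h' ▸ p.zero_mem)
      · exact hz0 h'
    · rw [mul_zero] at hA
      rcases mul_eq_zero.mp hA with h' | h'
      · exact ha0 h'
      · exact hda (h' ▸ p.zero_mem)
  have hϖF : algebraMap B F ϖ ≠ 0 := fun h => hϖ0 (hinj (by rw [h, map_zero]))
  have hbF : algebraMap B F b ≠ 0 := fun h => hb0 (hinj (by rw [h, map_zero]))
  refine ⟨(ea : ℤ) - eb, ?_⟩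
  rw [H56.valuation_eq_one_iff]
  refine ⟨ca * db, da * cb, fun h => (hp.mem_or_mem h).elim hca hdb,
    fun h => (hp.mem_or_mem h).elim hda hcb, ?_⟩
  have hA' : algebraMap B F a * algebraMap B F da = algebraMap B F ca * algebraMap B F ϖ ^ ea := by
    rw [← map_mul, hA, map_mul, map_pow]
  have hB' : algebraMap B F b * algebraMap B F db = algebraMap B F cb * algebraMap B F ϖ ^ eb := by
    rw [← map_mul, hB, map_mul, map_pow]
  rw [neg_sub, zpow_sub₀ hϖF, zpow_natCast, zpow_natCast, map_mul, map_mul]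
  have hpow : algebraMap B F ϖ ^ ea ≠ 0 := pow_ne_zero _ hϖF
  field_simp
  linear_combination (algebraMap B F ϖ ^ eb * algebraMap B F cb) * hA' -
    (algebraMap B F ca * algebraMap B F ϖ ^ ea) * hB'

end Uniformiser

section TwoCharts

variable {R K0 F : Type*} [CommRing R] [IsDomain R] [IsDiscreteValuationRing R]
  [Field K0] [Algebra R K0] [IsFractionRing R K0]
  [Field F] [Algebra R F] [Algebra K0 F] [IsScalarTower R K0 F]

/-- Closed points of the special fibre of the chart `B`: maximal ideals containing `π`. -/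
def ClosedPt (B : Subalgebra R F) (π : R) : Type _ :=
  {n : Ideal B // n.IsMaximal ∧ algebraMap R B π ∈ n}

variable (B₁ B₂ : Subalgebra R F) [IsFractionRing B₁ F] [IsFractionRing B₂ F]
  {κ : Type*} (V : κ → ValuationSubring F) (π : R)

/-- The local ring of the model at a closed point of either chart. -/
noncomputable def ptO : ClosedPt B₁ π ⊕ ClosedPt B₂ π → Subring F :=
  Sum.elim (fun n => haveI := n.2.1.isPrime; locSubring (F := F) n.1)
    (fun n => haveI := n.2.1.isPrime; locSubring (F := F) n.1)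

/-- Incidence: the vertical valuation ring `V k` passes through the closed point `n`
(its centre on the chart is contained in `n`). -/
def ptThr (hBV₁ : ∀ k (b : B₁), algebraMap B₁ F b ∈ V k)
    (hBV₂ : ∀ k (b : B₂), algebraMap B₂ F b ∈ V k) :
    ClosedPt B₁ π ⊕ ClosedPt B₂ π → κ → Prop :=
  Sum.elim (fun n k => centre (V k) (hBV₁ k) ≤ n.1) (fun n k => centre (V k) (hBV₂ k) ≤ n.1)

omit [IsDiscreteValuationRing R] in
variable (K0) in
include K0 in
theorem algebraMap_injective_of_tower : Function.Injective (algebraMap R F) := by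
  rw [IsScalarTower.algebraMap_eq R K0 F]
  exact (algebraMap K0 F).injective.comp (IsFractionRing.injective R K0)

/-- Every nonzero constant is a unit times a power of the uniformiser. -/
theorem exists_unit_mul_zpow {π : R} (hπ : Irreducible π) {c : K0} (hc : c ≠ 0) :
    ∃ (a : ℤ) (r : R), IsUnit r ∧
      algebraMap K0 F c = algebraMap R F r * algebraMap R F π ^ a := by
  obtain ⟨x, y, hy, rfl⟩ := IsFractionRing.div_surjective (A := R) c
  have hx0 : x ≠ 0 := by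
    rintro rfl
    rw [map_zero, zero_div] at hc
    exact hc rfl
  have hy0 : y ≠ 0 := nonZeroDivisors.ne_zero hy
  obtain ⟨i, u, hu⟩ := IsDiscreteValuationRing.eq_unit_mul_pow_irreducible hx0 hπ
  obtain ⟨j, w, hw⟩ := IsDiscreteValuationRing.eq_unit_mul_pow_irreducible hy0 hπ
  have hinj := algebraMap_injective_of_tower (R := R) K0 (F := F)
  have hπF : algebraMap R F π ≠ 0 := fun h => hπ.ne_zero (hinj (by rw [h, map_zero]))
  have hwF : algebraMap R F (w : R) ≠ 0 := fun h => w.ne_zero (hinj (by rw [h, map_zero]))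
  refine ⟨(i : ℤ) - j, (u : R) * ((w⁻¹ : Rˣ) : R), (u * w⁻¹).isUnit, ?_⟩
  rw [map_div₀, ← IsScalarTower.algebraMap_apply, ← IsScalarTower.algebraMap_apply, hu, hw,
    zpow_sub₀ hπF, zpow_natCast, zpow_natCast]
  simp only [map_mul, map_pow]
  have hww : algebraMap R F ((w⁻¹ : Rˣ) : R) = (algebraMap R F (w : R))⁻¹ := by
    refine eq_inv_of_mul_eq_one_left ?_
    rw [← map_mul, Units.inv_mul, map_one]
  rw [hww]
  field_simp

variable {B₁ B₂ V π}

/-- **The bridge (a).**  The standing hypotheses `H47.ModelHyp` of the induction L8 for a model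
given by two integrally closed charts `B₁ B₂ ⊆ F` over the DVR `R` (uniformiser `π`), with vertical
valuation rings `V k ⊇ B₁, B₂`. -/
theorem modelHyp_of_charts [IsIntegrallyClosed B₁] [IsIntegrallyClosed B₂]
    (hBV₁ : ∀ k (b : B₁), algebraMap B₁ F b ∈ V k)
    (hBV₂ : ∀ k (b : B₂), algebraMap B₂ F b ∈ V k)
    (hπ : Irreducible π)
    (hπV : ∀ k, (V k).valuation (algebraMap R F π) < 1)
    (hVdvr : ∀ k (x : F), x ≠ 0 →
      ∃ e : ℤ, (V k).valuation (x * algebraMap R F π ^ (-e)) = 1)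
    {l : ℕ} (hl : 0 < l) (hlu : IsUnit ((l : ℕ) : R)) {ζ : R} (hζ : IsPrimitiveRoot ζ l)
    (hroot : ∀ r : R, IsUnit r → ∃ γ : R, IsUnit γ ∧ π ∣ γ ^ l * r - 1)
    (hcentre₁ : ∀ n : ClosedPt B₁ π, ∃ k, centre (V k) (hBV₁ k) ≤ n.1)
    (hcentre₂ : ∀ n : ClosedPt B₂ π, ∃ k, centre (V k) (hBV₂ k) ≤ n.1)
    (hconn : ∀ c : κ → ℕ,
      (∀ n k k', ptThr B₁ B₂ V π hBV₁ hBV₂ n k → ptThr B₁ B₂ V π hBV₁ hBV₂ n k' → c k = c k') →
      ∀ k k', c k = c k')
    [hκ : Nonempty κ] :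
    H47.ModelHyp K0 (ptO B₁ B₂ π) V (ptThr B₁ B₂ V π hBV₁ hBV₂) π l ζ where
  hRO := by
    rintro (n | n) r
    · haveI := n.2.1.isPrime
      have : algebraMap R F r = algebraMap B₁ F (algebraMap R B₁ r) := rfl
      rw [this]
      exact algebraMap_mem_locSubring n.1 _
    · haveI := n.2.1.isPrime
      have : algebraMap R F r = algebraMap B₂ F (algebraMap R B₂ r) := rfl
      rw [this]
      exact algebraMap_mem_locSubring n.1 _
  hOV := by
    rintro (n | n) k hnk x hx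
    · haveI := n.2.1.isPrime
      exact locSubring_le (hBV₁ k) hnk hx
    · haveI := n.2.1.isPrime
      exact locSubring_le (hBV₂ k) hnk hx
  hOroot := by
    rintro (n | n) x hx
    · haveI := n.2.1.isPrime
      exact locSubring_root_closed n.1 hl hx
    · haveI := n.2.1.isPrime
      exact locSubring_root_closed n.1 hl hx
  hOloc := by
    rintro (n | n) a b ha hb hbu
    · haveI := n.2.1.isPrime
      exact locSubring_local n.1 ha hb hbu
    · haveI := n.2.1.isPrime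
      exact locSubring_local n.1 ha hb hbu
  hπV := hπV
  hπ0 := fun h => hπ.ne_zero (algebraMap_injective_of_tower K0 (by rw [h, map_zero]))
  hVdvr := hVdvr
  hRdvr := fun c hc => exists_unit_mul_zpow hπ hc
  hroot := hroot
  hl := hl
  hlu := hlu
  hζ := hζ.map_of_injective (algebraMap_injective_of_tower K0)
  hζu := by
    intro i j hi hj hij
    have hmem : ∀ i, ζ ^ i ∈ Polynomial.nthRootsFinset l (1 : R) := by
      intro i
      rw [Polynomial.mem_nthRootsFinset hl, ← pow_mul, mul_comm, pow_mul, hζ.pow_eq_one, one_pow]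
    refine CA.H21.diff_of_isPrimitiveRoot hl hζ hlu _ (hmem i) _ (hmem j) ?_
    intro h
    exact hij (hζ.pow_inj hi hj h)
  hcentre := by
    rintro (n | n)
    · exact hcentre₁ n
    · exact hcentre₂ n
  hVthr := by
    intro k
    obtain ⟨M, hM, hle⟩ := Ideal.exists_le_maximal _ (centre_ne_top (V k) (hBV₁ k))
    refine ⟨Sum.inl ⟨M, hM, hle ?_⟩, hle⟩
    rw [mem_centre]
    exact hπV k
  hconn := hconn
  hκ := hκ

/-! ### Dictionary for the consumers of `ptO`, `ptThr` -/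

theorem mem_ptO_inl {n : ClosedPt B₁ π} {x : F} :
    x ∈ ptO B₁ B₂ π (Sum.inl n) ↔ ∃ a s : B₁, s ∉ n.1 ∧ x * (s : F) = (a : F) := Iff.rfl

theorem mem_ptO_inr {n : ClosedPt B₂ π} {x : F} :
    x ∈ ptO B₁ B₂ π (Sum.inr n) ↔ ∃ a s : B₂, s ∉ n.1 ∧ x * (s : F) = (a : F) := Iff.rfl

theorem ptThr_inl {hBV₁ : ∀ k (b : B₁), algebraMap B₁ F b ∈ V k}
    {hBV₂ : ∀ k (b : B₂), algebraMap B₂ F b ∈ V k} {n : ClosedPt B₁ π} {k : κ} :
    ptThr B₁ B₂ V π hBV₁ hBV₂ (Sum.inl n) k ↔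
      ∀ b : B₁, (V k).valuation (b : F) < 1 → b ∈ n.1 := Iff.rfl

theorem ptThr_inr {hBV₁ : ∀ k (b : B₁), algebraMap B₁ F b ∈ V k}
    {hBV₂ : ∀ k (b : B₂), algebraMap B₂ F b ∈ V k} {n : ClosedPt B₂ π} {k : κ} :
    ptThr B₁ B₂ V π hBV₁ hBV₂ (Sum.inr n) k ↔
      ∀ b : B₂, (V k).valuation (b : F) < 1 → b ∈ n.1 := Iff.rfl

/-- `x ∈ π B_n` in the field. -/
theorem piIn_locSubring_iff {B : Subalgebra R F} [IsFractionRing B F] (n : Ideal B) [hn : n.IsPrime]
    (π : R) {x : F} :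
    H47.PiIn π (locSubring (F := F) n) x ↔
      ∃ a s : B, s ∉ n ∧ x * (s : F) = algebraMap R F π * (a : F) := by
  constructor
  · rintro ⟨y, ⟨a, s, hs, hys⟩, rfl⟩
    refine ⟨a, s, hs, ?_⟩
    have : y * (s : F) = (a : F) := hys
    rw [mul_assoc, this]
  · rintro ⟨a, s, hs, hxs⟩
    have hs0 : (s : F) ≠ 0 := by
      intro h
      apply hs
      have : s = 0 := Subtype.ext h
      rw [this]; exact n.zero_mem
    refine ⟨(a : F) / (s : F), ⟨a, s, hs, ?_⟩, ?_⟩
    · show (a : F) / (s : F) * (s : F) = (a : F)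
      rw [div_mul_cancel₀ _ hs0]
    · rw [mul_div_assoc', ← hxs, mul_div_assoc, div_self hs0, mul_one]

end TwoCharts

section ChartPrimes

variable {R K0 F : Type*} [CommRing R] [IsDomain R] [IsDiscreteValuationRing R]
  [Field K0] [Algebra R K0] [IsFractionRing R K0]
  [Field F] [Algebra R F] [Algebra K0 F] [IsScalarTower R K0 F]
  {B₁ B₂ B₁₂ : Subalgebra R F} [IsFractionRing B₁ F] [IsFractionRing B₂ F] [IsFractionRing B₁₂ F]
  [IsNoetherianRing B₁] [IsNoetherianRing B₂] [IsIntegrallyClosed B₁] [IsIntegrallyClosed B₂]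
  {κ : Type*} {π : R}

theorem valuation_lt_one_congr {V V' : ValuationSubring F} (h : V = V') (x : F) :
    V.valuation x < 1 ↔ V'.valuation x < 1 := by
  subst h; rfl

variable (K0) in
include K0 in
/-- The vertical primes `p₁ ⊆ B₁`, `p₂ ⊆ B₂` below one vertical prime `p₁₂` of the overlap chart
`B₁₂ ⊇ B₁, B₂` have the same valuation ring. -/
theorem valuationSubringAt_eq (hπ : Irreducible π) (h₁ : B₁ ≤ B₁₂) (h₂ : B₂ ≤ B₁₂)
    (p₁ : Ideal B₁) (p₂ : Ideal B₂) (p₁₂ : Ideal B₁₂) [p₁.IsPrime] [p₂.IsPrime] [p₁₂.IsPrime]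
    (hh₁ : p₁.height = 1) (hh₂ : p₂.height = 1)
    (hπ₁ : algebraMap R B₁ π ∈ p₁) (hπ₂ : algebraMap R B₂ π ∈ p₂)
    (hπ₁₂ : algebraMap R B₁₂ π ∈ p₁₂)
    (hcomp₁ : ∀ s : B₁, s ∉ p₁ → Subalgebra.inclusion h₁ s ∉ p₁₂)
    (hcomp₂ : ∀ s : B₂, s ∉ p₂ → Subalgebra.inclusion h₂ s ∉ p₁₂)
    (hred₁ : ∀ b ∈ p₁, ∃ s, s ∉ p₁ ∧ algebraMap R B₁ π ∣ s * b)
    (hred₂ : ∀ b ∈ p₂, ∃ s, s ∉ p₂ ∧ algebraMap R B₂ π ∣ s * b) :
    H56.valuationSubringAt (K := F) p₁ hh₁ = H56.valuationSubringAt (K := F) p₂ hh₂ := by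
  have hπF : algebraMap R F π ≠ 0 := fun h =>
    hπ.ne_zero (algebraMap_injective_of_tower K0 (by rw [h, map_zero]))
  -- `π⁻¹ ∉ (B₁₂)_{p₁₂}`
  have hW : (algebraMap R F π)⁻¹ ∉ locSubring (F := F) p₁₂ := by
    rintro ⟨a, s, hs, has⟩
    apply hs
    have : s = algebraMap R B₁₂ π * a := by
      apply Subtype.ext
      have h' : (algebraMap R F π)⁻¹ * (s : F) = (a : F) := has
      show (s : F) = algebraMap R F π * (a : F)
      rw [← h', ← mul_assoc, mul_inv_cancel₀ hπF, one_mul]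
    rw [this]
    exact p₁₂.mul_mem_right _ hπ₁₂
  have hle₁ : ∀ x ∈ H56.valuationSubringAt (K := F) p₁ hh₁, x ∈ locSubring (F := F) p₁₂ := by
    rintro x ⟨a, s, hs, has⟩
    exact ⟨Subalgebra.inclusion h₁ a, Subalgebra.inclusion h₁ s, hcomp₁ s hs, has⟩
  have hle₂ : ∀ x ∈ H56.valuationSubringAt (K := F) p₂ hh₂, x ∈ locSubring (F := F) p₁₂ := by
    rintro x ⟨a, s, hs, has⟩
    exact ⟨Subalgebra.inclusion h₂ a, Subalgebra.inclusion h₂ s, hcomp₂ s hs, has⟩
  have hπV₁ : algebraMap R F π ∈ H56.valuationSubringAt (K := F) p₁ hh₁ :=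
    H56.algebraMap_mem_valuationSubringAt hh₁ (algebraMap R B₁ π)
  have hπV₂ : algebraMap R F π ∈ H56.valuationSubringAt (K := F) p₂ hh₂ :=
    H56.algebraMap_mem_valuationSubringAt hh₂ (algebraMap R B₂ π)
  have hd₁ := fun (x : F) (hx : x ≠ 0) =>
    exists_zpow_valuation_eq_one (F := F) p₁ hh₁ hπ₁ hred₁ hx
  have hd₂ := fun (x : F) (hx : x ≠ 0) =>
    exists_zpow_valuation_eq_one (F := F) p₂ hh₂ hπ₂ hred₂ hx
  apply SetLike.ext
  intro x
  constructor
  · intro hx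
    exact le_of_le_of_inv_not_mem hπV₂ hd₂ hle₂ hW (hle₁ x hx)
  · intro hx
    exact le_of_le_of_inv_not_mem hπV₁ hd₁ hle₁ hW (hle₂ x hx)

variable (P₁ : κ → Ideal B₁) (P₂ : κ → Ideal B₂) (P₁₂ : κ → Ideal B₁₂)

/-- Incidence in prime-ideal form: the vertical prime `P_i k` of the chart lies in `n`. -/
def primeThr : ClosedPt B₁ π ⊕ ClosedPt B₂ π → κ → Prop :=
  Sum.elim (fun n k => P₁ k ≤ n.1) (fun n k => P₂ k ≤ n.1)

variable {P₁ P₂ P₁₂}

/-- **The bridge (a), binder block of `kummer_descent` / `hconn_of_no_split`.**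
Charts `B₁ B₂ ⊆ B₁₂` in `F` over the DVR `R` (uniformiser `π`); ONE index type `κ` for the vertical
primes `P₁ k ⊆ B₁`, `P₂ k ⊆ B₂`, `P₁₂ k ⊆ B₁₂` (height one, containing `π`, `P B_P = π B_P`),
linked through the overlap chart (`hcomp`).  The vertical valuation rings are
`V k := H56.valuationSubringAt (P₁ k)` (`= H56.valuationSubringAt (P₂ k)`). -/
theorem modelHyp_of_chart_primes [hP₁ : ∀ k, (P₁ k).IsPrime] [hP₂ : ∀ k, (P₂ k).IsPrime]
    [hP₁₂ : ∀ k, (P₁₂ k).IsPrime] (hπ : Irreducible π) (h₁ : B₁ ≤ B₁₂) (h₂ : B₂ ≤ B₁₂)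
    (hh₁ : ∀ k, (P₁ k).height = 1) (hh₂ : ∀ k, (P₂ k).height = 1)
    (hπ₁ : ∀ k, algebraMap R B₁ π ∈ P₁ k) (hπ₂ : ∀ k, algebraMap R B₂ π ∈ P₂ k)
    (hπ₁₂ : ∀ k, algebraMap R B₁₂ π ∈ P₁₂ k)
    (hcomp₁ : ∀ k (s : B₁), s ∉ P₁ k → Subalgebra.inclusion h₁ s ∉ P₁₂ k)
    (hcomp₂ : ∀ k (s : B₂), s ∉ P₂ k → Subalgebra.inclusion h₂ s ∉ P₁₂ k)
    (hred₁ : ∀ k, ∀ b ∈ P₁ k, ∃ s, s ∉ P₁ k ∧ algebraMap R B₁ π ∣ s * b)
    (hred₂ : ∀ k, ∀ b ∈ P₂ k, ∃ s, s ∉ P₂ k ∧ algebraMap R B₂ π ∣ s * b)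
    (hall₁ : ∀ n : Ideal B₁, n.IsMaximal → algebraMap R B₁ π ∈ n → ∃ k, P₁ k ≤ n)
    (hall₂ : ∀ n : Ideal B₂, n.IsMaximal → algebraMap R B₂ π ∈ n → ∃ k, P₂ k ≤ n)
    {l : ℕ} (hl : 0 < l) (hlu : IsUnit ((l : ℕ) : R)) {ζ : R} (hζ : IsPrimitiveRoot ζ l)
    (hroot : ∀ r : R, IsUnit r → ∃ γ : R, IsUnit γ ∧ π ∣ γ ^ l * r - 1)
    (hconn : ∀ c : κ → ℕ,
      (∀ n : Ideal B₁, n.IsMaximal → ∀ k k', P₁ k ≤ n → P₁ k' ≤ n → c k = c k') →
      (∀ n : Ideal B₂, n.IsMaximal → ∀ k k', P₂ k ≤ n → P₂ k' ≤ n → c k = c k') →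
      ∀ k k', c k = c k')
    [hκ : Nonempty κ] :
    H47.ModelHyp K0 (ptO B₁ B₂ π) (fun k => H56.valuationSubringAt (K := F) (P₁ k) (hh₁ k))
      (primeThr (π := π) P₁ P₂) π l ζ := by
  set V : κ → ValuationSubring F := fun k => H56.valuationSubringAt (K := F) (P₁ k) (hh₁ k) with hV
  have hVeq : ∀ k, V k = H56.valuationSubringAt (K := F) (P₂ k) (hh₂ k) := fun k =>
    valuationSubringAt_eq K0 hπ h₁ h₂ (P₁ k) (P₂ k) (P₁₂ k) (hh₁ k) (hh₂ k) (hπ₁ k) (hπ₂ k)
      (hπ₁₂ k) (hcomp₁ k) (hcomp₂ k) (hred₁ k) (hred₂ k)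
  have hBV₁ : ∀ k (b : B₁), algebraMap B₁ F b ∈ V k := fun k b =>
    H56.algebraMap_mem_valuationSubringAt (hh₁ k) b
  have hBV₂ : ∀ k (b : B₂), algebraMap B₂ F b ∈ V k := fun k b => by
    rw [hVeq k]; exact H56.algebraMap_mem_valuationSubringAt (hh₂ k) b
  have hc₁ : ∀ k, centre (V k) (hBV₁ k) = P₁ k := fun k =>
    Ideal.ext fun b => H56.algebraMap_mem_nonunits_iff (hh₁ k) b
  have hc₂ : ∀ k, centre (V k) (hBV₂ k) = P₂ k := fun k =>
    Ideal.ext fun b => (valuation_lt_one_congr (hVeq k) _).trans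
      (H56.algebraMap_mem_nonunits_iff (hh₂ k) b)
  have hThr : ptThr B₁ B₂ V π hBV₁ hBV₂ = primeThr (π := π) P₁ P₂ := by
    funext n k
    rcases n with n | n
    · show (centre (V k) (hBV₁ k) ≤ n.1) = (P₁ k ≤ n.1)
      rw [hc₁ k]
    · show (centre (V k) (hBV₂ k) ≤ n.1) = (P₂ k ≤ n.1)
      rw [hc₂ k]
  rw [← hThr]
  refine modelHyp_of_charts hBV₁ hBV₂ hπ ?_ ?_ hl hlu hζ hroot ?_ ?_ ?_
  · intro k
    exact (H56.algebraMap_mem_nonunits_iff (hh₁ k) (algebraMap R B₁ π)).2 (hπ₁ k)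
  · intro k x hx
    exact exists_zpow_valuation_eq_one (F := F) (P₁ k) (hh₁ k) (hπ₁ k) (hred₁ k) hx
  · intro n
    obtain ⟨k, hk⟩ := hall₁ n.1 n.2.1 n.2.2
    exact ⟨k, by rw [hc₁ k]; exact hk⟩
  · intro n
    obtain ⟨k, hk⟩ := hall₂ n.1 n.2.1 n.2.2
    exact ⟨k, by rw [hc₂ k]; exact hk⟩
  · intro c hc
    rw [hThr] at hc
    refine hconn c ?_ ?_
    · intro n hn k k' hk hk'
      exact hc (Sum.inl ⟨n, hn, hk (hπ₁ k)⟩) k k' hk hk'
    · intro n hn k k' hk hk'
      exact hc (Sum.inr ⟨n, hn, hk (hπ₂ k)⟩) k k' hk hk'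

end ChartPrimes

end Fermat.Agent.S34.H21
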