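import Fermat.Agent.S34.H3_PlaceChart

/-!
# S34 dictionary (D3), packaged in the shape consumed by `H56_PointBridge` / `H56_LocalDatum`

`R` the base valuation ring (`k = R[1/π]` its fraction field, `𝔪_R = (π)`), `B` a chart:
noetherian integrally closed domain, integral over `R[J]`, fraction field `F`.

* `hrat_of_deg_eq_one` : a place of degree one is `k`-rational (every integral element is
  congruent to a constant);
* `algebraMap_mem_of_coord_mem` : the chart lies in `𝒪_v` as soon as `J` does;
* `isUnit_of_not_dvd` : `R` is local with maximal ideal `(π)`;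
* `exists_point_of_rational` : a rational place `w` containing the chart, with centre under a
  maximal ideal `n ∋ π`, is a chart point `P : B →ₐ[R] R` with `hu`, `(ker P).height = 1`,
  `ker P ≤ n`, `π ∉ ker P`, `ker P = centre w` and
  `w.toValuationSubring = valuationSubringAt (ker P) h1`;
* `exists_place_of_horizontal` : every horizontal height-one prime is the centre of a place;
* `centre_eq_of_toValuationSubring_eq`, `eq_of_valuationSubringAt_eq` : the prime is determined
  by the place.
-/

set_option autoImplicit false
set_option linter.unusedSectionVars false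

namespace Fermat.Agent.S34.H3

open Polynomial Fermat.Agent.S34.H56 Fermat.Agent.CA.H42 AlgebraicCurve IsLocalRing

section Deg

variable {k F : Type*} [Field k] [Field F] [Algebra k F]

/-- A place of degree one is rational: every element of `𝒪_v` is congruent to a constant. -/
theorem hrat_of_deg_eq_one (v : Place k F) (hdeg : v.deg = 1) :
    ∀ x ∈ v.toValuationSubring, ∃ c : k,
      v.toValuationSubring.valuation (x - algebraMap k F c) < 1 := by
  intro x hx
  have h1 : (1 : v.ResidueField) ≠ 0 := one_ne_zero
  obtain ⟨c, hc⟩ := (finrank_eq_one_iff_of_nonzero' (1 : v.ResidueField) h1).mp hdeg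
    (residue v.toValuationSubring ⟨x, hx⟩)
  refine ⟨c, ?_⟩
  have hmem : (⟨x, hx⟩ : v.toValuationSubring) - algebraMap k v.toValuationSubring c ∈
      maximalIdeal v.toValuationSubring := by
    rw [← residue_eq_zero_iff, map_sub, sub_eq_zero, ← hc, Algebra.smul_def, mul_one,
      IsScalarTower.algebraMap_apply k v.toValuationSubring v.ResidueField,
      ResidueField.algebraMap_eq]
  have := (ValuationSubring.valuation_lt_one_iff v.toValuationSubring _).1 hmem
  simpa using this

end Deg

variable {R k B F : Type*} [CommRing R] [IsDomain R] [Field k] [Algebra R k]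
  [CommRing B] [IsDomain B] [Field F] [Algebra B F] [IsFractionRing B F]
  [Algebra R B] [Algebra k F] [Algebra R F] [IsScalarTower R B F] [IsScalarTower R k F]

/-- The chart `B` (integral over `R[J]`) lies in the valuation ring of a place of `F/k` as soon
as the coordinate `J` does. -/
theorem algebraMap_mem_of_coord_mem (J : B)
    (hint : ∀ b : B, (aeval (R := R) J : R[X] →ₐ[R] B).toRingHom.IsIntegralElem b)
    (v : Place k F) (hJ : algebraMap B F J ∈ v.toValuationSubring) (b : B) :
    algebraMap B F b ∈ v.toValuationSubring := by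
  set V := v.toValuationSubring with hV
  have hR : ∀ r : R, algebraMap B F (algebraMap R B r) ∈ V := fun r => by
    rw [← IsScalarTower.algebraMap_apply, IsScalarTower.algebraMap_apply R k F]
    exact v.algebraMap_mem' _
  have hall : ∀ f : R[X], algebraMap B F (aeval J f) ∈ V := by
    intro f
    induction f using Polynomial.induction_on' with
    | add p q hp hq => rw [map_add, map_add]; exact V.add_mem _ _ hp hq
    | monomial n a =>
      rw [← C_mul_X_pow_eq_monomial, map_mul, map_pow, aeval_C, aeval_X, map_mul, map_pow]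
      exact V.mul_mem _ _ (hR a) (V.pow_mem hJ n)
  let g : R[X] →+* V :=
    ((algebraMap B F).comp (aeval (R := R) J : R[X] →ₐ[R] B).toRingHom).codRestrict V.toSubring
      hall
  obtain ⟨P, hPm, hP⟩ := hint b
  have hint' : IsIntegral V (algebraMap B F b) := by
    refine ⟨P.map g, hPm.map _, ?_⟩
    rw [Polynomial.eval₂_map]
    have hcomp : (algebraMap V F).comp g =
        (algebraMap B F).comp (aeval (R := R) J : R[X] →ₐ[R] B).toRingHom := by
      ext <;> rfl
    rw [hcomp, ← Polynomial.hom_eval₂, hP, map_zero]
  obtain ⟨y, hy⟩ := IsIntegrallyClosed.isIntegral_iff.1 hint'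
  rw [← hy]
  exact y.2

/-- `R` is local with maximal ideal `(π)`: an element not divisible by `π` is a unit. -/
theorem isUnit_of_not_dvd (π : R) (hinjR : Function.Injective (algebraMap R k))
    (hval : ∀ c : k, (∃ r : R, algebraMap R k r = c) ∨ ∃ r : R, c⁻¹ = algebraMap R k (π * r))
    (r : R) (hr : ¬ π ∣ r) : IsUnit r := by
  have h0 : r ≠ 0 := fun h => hr (h ▸ dvd_zero _)
  have h0k : algebraMap R k r ≠ 0 := fun h => h0 (hinjR (by rw [h, map_zero]))
  rcases hval (algebraMap R k r)⁻¹ with ⟨s, hs⟩ | ⟨s, hs⟩
  · exact IsUnit.of_mul_eq_one s (hinjR (by rw [map_mul, hs, mul_inv_cancel₀ h0k, map_one]))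
  · rw [inv_inv] at hs
    exact absurd ⟨s, hinjR hs⟩ hr

variable [IsNoetherianRing B] [IsIntegrallyClosed B]

/-- **(D3), chart-point form.**  A `k`-rational place `w` of `F/k` containing the chart `B`,
whose centre lies under a maximal ideal `n ∋ π`, is a chart point `P : B →ₐ[R] R`:
`n`-units go to units, `ker P` is the centre of `w`, a horizontal height-one prime under `n`,
and `𝒪_w = B_{ker P}`. -/
theorem exists_point_of_rational (π : R) (hπ : π ≠ 0) [IsLocalization.Away π k]
    (hinjR : Function.Injective (algebraMap R k))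
    (hval : ∀ c : k, (∃ r : R, algebraMap R k r = c) ∨ ∃ r : R, c⁻¹ = algebraMap R k (π * r))
    (hRint : ∀ c : k, IsIntegral R c → ∃ r : R, algebraMap R k r = c)
    (J : B)
    (hint : ∀ b : B, (aeval (R := R) J : R[X] →ₐ[R] B).toRingHom.IsIntegralElem b)
    (w : Place k F) (hB : ∀ b : B, algebraMap B F b ∈ w.toValuationSubring)
    (hrat : ∀ x ∈ w.toValuationSubring, ∃ c : k,
      w.toValuationSubring.valuation (x - algebraMap k F c) < 1)
    (n : Ideal B) [hn : n.IsMaximal] (hcn : centre w.toValuationSubring hB ≤ n)
    (hπn : algebraMap R B π ∈ n) :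
    ∃ (P : B →ₐ[R] R), haveI := RingHom.ker_isPrime (P : B →+* R)
    ∃ (h1 : (RingHom.ker (P : B →+* R)).height = 1),
      (∀ b, b ∉ n → IsUnit (P b)) ∧ (∀ b ∈ n, π ∣ P b) ∧
      RingHom.ker (P : B →+* R) ≤ n ∧
      algebraMap R B π ∉ RingHom.ker (P : B →+* R) ∧
      RingHom.ker (P : B →+* R) = centre w.toValuationSubring hB ∧
      w.toValuationSubring = valuationSubringAt (RingHom.ker (P : B →+* R)) h1 ∧
      ∀ b, w.toValuationSubring.valuation
        (algebraMap B F b - algebraMap k F (algebraMap R k (P b))) < 1 := by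
  obtain ⟨P, hker, hdvd, hcong⟩ := exists_eval_of_rational π hinjR hval hRint J hint w hB hrat n
    hn.ne_top hcn hπn
  have hkerc : RingHom.ker (P : B →+* R) = centre w.toValuationSubring hB := by
    ext b
    rw [RingHom.mem_ker]
    exact hker b
  have := centre_isPrime w.toValuationSubring hB
  obtain ⟨h1c, hw⟩ := eq_placeOfHorizontalPrime_centre π hπ J hint w hB
  have h1 : (RingHom.ker (P : B →+* R)).height = 1 := by rw [hkerc]; exact h1c
  have hπu : ¬ IsUnit π := fun hu =>
    hn.ne_top (Ideal.eq_top_of_isUnit_mem _ hπn (hu.map (algebraMap R B)))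
  have := RingHom.ker_isPrime (P : B →+* R)
  refine ⟨P, h1, ?_, hdvd, hkerc ▸ hcn, ?_, hkerc, ?_, hcong⟩
  · -- `n = P⁻¹(π)` by maximality
    intro b hb
    apply isUnit_of_not_dvd π hinjR hval
    intro hπb
    have hle : n ≤ (Ideal.span {π}).comap (P : B →+* R) := fun x hx =>
      Ideal.mem_span_singleton.2 (hdvd x hx)
    have hne : (Ideal.span {π}).comap (P : B →+* R) ≠ ⊤ := by
      intro h
      have h1' : (1 : B) ∈ (Ideal.span {π}).comap (P : B →+* R) := h ▸ Submodule.mem_top
      rw [Ideal.mem_comap, map_one, Ideal.mem_span_singleton] at h1'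
      exact hπu (isUnit_of_dvd_one h1')
    have heq := hn.eq_of_le hne hle
    exact hb (heq ▸ (Ideal.mem_comap.2 (Ideal.mem_span_singleton.2 hπb)))
  · rw [hkerc]
    exact algebraMap_notMem_centre π hπ w hB
  · have h2 := congrArg Place.toValuationSubring hw
    rw [h2]
    simp only [placeOfHorizontalPrime, placeOfPrime_toValuationSubring]
    congr 1
    exact hkerc.symm

/-- Every horizontal height-one prime of the chart is the centre of a place of `F/k`. -/
theorem exists_place_of_horizontal (π : R) [IsLocalization.Away π k] (p : Ideal B) [p.IsPrime]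
    (h1 : p.height = 1) (hπp : algebraMap R B π ∉ p) :
    ∃ w : Place k F, w.toValuationSubring = valuationSubringAt p h1 ∧
      (∀ b : B, algebraMap B F b ∈ w.toValuationSubring) ∧
      (∀ x : F, x ≠ 0 → (w.ord x = 0 ↔ IsUnitAt p x)) ∧
      (∀ x : F, x ≠ 0 → (0 ≤ w.ord x ↔ MemAt p x)) :=
  ⟨placeOfHorizontalPrime π p h1 hπp, placeOfPrime_toValuationSubring p h1 _,
    fun b => by
      rw [show (placeOfHorizontalPrime (k := k) π p h1 hπp).toValuationSubring =
        valuationSubringAt p h1 from placeOfPrime_toValuationSubring p h1 _]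
      exact memAt_algebraMap p (‹p.IsPrime›).ne_top b,
    fun _ hx => ord_placeOfHorizontalPrime_eq_zero_iff π p h1 hπp hx,
    fun _ hx => ord_placeOfHorizontalPrime_nonneg_iff π p h1 hπp hx⟩

omit [Algebra R B] [Algebra R F] [IsScalarTower R B F] [IsScalarTower R k F] [Algebra R k]
  [IsDomain R] [CommRing R] [Field k] [Algebra k F] in
/-- The centre of a valuation subring equal to `B_p` is `p`. -/
theorem centre_eq_of_eq_valuationSubringAt (V : ValuationSubring F)
    (hB : ∀ b : B, algebraMap B F b ∈ V) (p : Ideal B) [p.IsPrime] (h1 : p.height = 1)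
    (hV : V = valuationSubringAt p h1) : centre V hB = p := by
  subst hV
  ext b
  rw [mem_centre]
  exact algebraMap_mem_nonunits_iff h1 b

omit [Algebra R B] [Algebra R F] [IsScalarTower R B F] [IsScalarTower R k F] [Algebra R k]
  [IsDomain R] [CommRing R] in
/-- The centre of a place with `𝒪_w = B_p` is `p`. -/
theorem centre_eq_of_toValuationSubring_eq (w : Place k F)
    (hB : ∀ b : B, algebraMap B F b ∈ w.toValuationSubring) (p : Ideal B) [p.IsPrime]
    (h1 : p.height = 1) (hw : w.toValuationSubring = valuationSubringAt p h1) :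
    centre w.toValuationSubring hB = p :=
  centre_eq_of_eq_valuationSubringAt _ hB p h1 hw

omit [Algebra R B] [Algebra R F] [IsScalarTower R B F] [IsScalarTower R k F] [Algebra R k]
  [IsDomain R] [CommRing R] [Field k] [Algebra k F] in
/-- A height-one prime is determined by its valuation subring. -/
theorem eq_of_valuationSubringAt_eq {p q : Ideal B} [p.IsPrime] [q.IsPrime] (hp : p.height = 1)
    (hq : q.height = 1) (h : valuationSubringAt (K := F) p hp = valuationSubringAt q hq) :
    p = q := by
  ext b
  rw [← algebraMap_mem_nonunits_iff (K := F) hp b, ← algebraMap_mem_nonunits_iff (K := F) hq b, h]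

end Fermat.Agent.S34.H3
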