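import Mathlib

/-!
# S34 dictionary: horizontal primes of a chart have height one

`R` a domain with `k = R[1/π]` a field (e.g. a DVR with uniformiser `π`), `B` a domain integral
over `R[J]`, `J` transcendental over `R`.  Then every nonzero prime of `B` not containing `π`
has height one (the generic fibre `B[1/π]` is integral over the PID `k[J]`).
-/

set_option autoImplicit false

namespace Fermat.Agent.S34.H3

open Polynomial

section Poly

variable {R k : Type*} [CommRing R] [IsDomain R] [Field k] [Algebra R k]

attribute [local instance] Polynomial.algebra in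
/-- No chain `⊥ < q0 < p0` of primes of `R[X]` with `π ∉ p0` when `R[1/π]` is a field. -/
theorem polynomial_no_chain (π : R) [IsLocalization.Away π k]
    (q0 p0 : Ideal R[X]) [hq : q0.IsPrime] [hp : p0.IsPrime] (hq0 : q0 ≠ ⊥) (hlt : q0 < p0)
    (hπ : C π ∉ p0) : False := by
  set M : Submonoid R := Submonoid.powers π with hM
  have : IsLocalization (M.map (C : R →+* R[X])) k[X] := Polynomial.isLocalization M k
  have hdisj : ∀ I : Ideal R[X], I.IsPrime → C π ∉ I →
      Disjoint ((M.map (C : R →+* R[X]) : Submonoid R[X]) : Set R[X]) (I : Set R[X]) := by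
    intro I hI hπI
    rw [Set.disjoint_left]
    rintro x ⟨m, ⟨n, rfl⟩, rfl⟩ hxI
    apply hπI
    have : (C π) ^ n ∈ I := by simpa using hxI
    exact hI.mem_of_pow_mem n this
  have hπq : C π ∉ q0 := fun h => hπ (hlt.le h)
  have hdp := hdisj p0 hp hπ
  have hdq := hdisj q0 hq hπq
  have hP : (Ideal.map (algebraMap R[X] k[X]) p0).IsPrime :=
    IsLocalization.isPrime_of_isPrime_disjoint (M.map (C : R →+* R[X])) k[X] p0 hp hdp
  have hQ : (Ideal.map (algebraMap R[X] k[X]) q0).IsPrime :=
    IsLocalization.isPrime_of_isPrime_disjoint (M.map (C : R →+* R[X])) k[X] q0 hq hdq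
  have hcp : (Ideal.map (algebraMap R[X] k[X]) p0).under R[X] = p0 :=
    IsLocalization.under_map_of_isPrime_disjoint (M.map (C : R →+* R[X])) k[X] hp hdp
  have hcq : (Ideal.map (algebraMap R[X] k[X]) q0).under R[X] = q0 :=
    IsLocalization.under_map_of_isPrime_disjoint (M.map (C : R →+* R[X])) k[X] hq hdq
  have hQ0 : Ideal.map (algebraMap R[X] k[X]) q0 ≠ ⊥ := by
    intro h
    apply hq0
    rw [eq_bot_iff]
    intro x hx
    have h1 : algebraMap R[X] k[X] x ∈ Ideal.map (algebraMap R[X] k[X]) q0 :=
      Ideal.mem_map_of_mem _ hx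
    rw [h, Ideal.mem_bot] at h1
    have hπ0 : π ≠ 0 := fun h0 => hπ (by rw [h0, C_0]; exact p0.zero_mem)
    have hinj : Function.Injective (algebraMap R[X] k[X]) :=
      Polynomial.map_injective _ (IsLocalization.injective k
        (powers_le_nonZeroDivisors_of_noZeroDivisors hπ0))
    exact hinj (by rw [h1, map_zero])
  have hQmax : (Ideal.map (algebraMap R[X] k[X]) q0).IsMaximal := hQ.isMaximal hQ0
  have hle : Ideal.map (algebraMap R[X] k[X]) q0 ≤ Ideal.map (algebraMap R[X] k[X]) p0 :=
    Ideal.map_mono hlt.le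
  have heq : Ideal.map (algebraMap R[X] k[X]) q0 = Ideal.map (algebraMap R[X] k[X]) p0 :=
    hQmax.eq_of_le hP.ne_top hle
  have : q0 = p0 := by rw [← hcq, ← hcp, heq]
  exact hlt.ne this

end Poly

section Chart

variable {R k B : Type*} [CommRing R] [IsDomain R] [Field k] [Algebra R k]
  [CommRing B] [IsDomain B] [Algebra R B]

/-- Every nonzero prime of `B` not containing `π` has height one. -/
theorem height_eq_one_of_horizontal (π : R) [IsLocalization.Away π k] (J : B)
    (hint : ∀ b : B, (aeval (R := R) J : R[X] →ₐ[R] B).toRingHom.IsIntegralElem b)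
    (p : Ideal B) [hp : p.IsPrime] (hp0 : p ≠ ⊥) (hπp : algebraMap R B π ∉ p) :
    p.height = 1 := by
  refine le_antisymm ?_ ?_
  · -- no prime strictly between `⊥` and `p`
    have h1 : p.height ≤ ((1 : ℕ) : ℕ∞) := by
      rw [Ideal.height_le_iff]
      intro q hq hqp
      by_cases hq0 : q = ⊥
      · rw [hq0, Ideal.height_bot]; exact_mod_cast zero_lt_one
      · exfalso
        let : Algebra R[X] B := (aeval (R := R) J : R[X] →ₐ[R] B).toRingHom.toAlgebra
        have hintb : ∀ b : B, IsIntegral R[X] b := hint
        obtain ⟨x, hxp, hxq⟩ := SetLike.exists_of_lt hqp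
        have hlt : q.comap (algebraMap R[X] B) < p.comap (algebraMap R[X] B) :=
          Ideal.comap_lt_comap_of_integral_mem_sdiff hqp.le ⟨hxp, hxq⟩ (hintb x)
        obtain ⟨y, hyq, hy0⟩ := Submodule.exists_mem_ne_zero_of_ne_bot hq0
        have hq0' : q.comap (algebraMap R[X] B) ≠ ⊥ :=
          Ideal.comap_ne_bot_of_integral_mem hy0 hyq (hintb y)
        have : (q.comap (algebraMap R[X] B)).IsPrime := Ideal.comap_isPrime _ q
        have : (p.comap (algebraMap R[X] B)).IsPrime := Ideal.comap_isPrime _ p
        refine polynomial_no_chain (k := k) π _ _ hq0' hlt ?_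
        intro hC
        apply hπp
        have : algebraMap R[X] B (C π) ∈ p := hC
        have h2 : algebraMap R[X] B (C π) = algebraMap R B π := by
          show (aeval (R := R) J) (C π) = _
          rw [aeval_C]
        rwa [h2] at this
    exact_mod_cast h1
  · rw [Order.one_le_iff_pos, pos_iff_ne_zero, Ne, Ideal.height_eq_zero_iff_eq_bot]
    exact hp0

end Chart

end Fermat.Agent.S34.H3
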