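import Fermat.Agent.S34.H3_PlacePrime
import Fermat.Agent.S34.H3_HorizontalHeight

/-!
# S34 dictionary (D3-places), chart form

`R` the base DVR-like ring (`k = R[1/π]` a field), `B` a chart: noetherian integrally closed
domain, integral over `R[J]`, fraction field `F`.  Then

* `placeOfHorizontalPrime` : every height-one prime `p` of `B` with `π ∉ p` is a place of `F/k`;
* `eq_placeOfHorizontalPrime_centre` : every place `v` of `F/k` with `B ⊆ 𝒪_v` is the place of
  its centre (which is horizontal of height one);
* `exists_eval_of_rational` : a `k`-rational place whose centre lies under a prime `n ∋ π`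
  is an `R`-point `B →ₐ[R] R` (kernel = centre, `n`-nonunits go to nonunits).
-/

set_option autoImplicit false
set_option linter.unusedSectionVars false

namespace Fermat.Agent.S34.H3

open Polynomial Fermat.Agent.S34.H56 Fermat.Agent.CA.H42 AlgebraicCurve

variable {R k B F : Type*} [CommRing R] [IsDomain R] [Field k] [Algebra R k]
  [CommRing B] [IsDomain B] [Field F] [Algebra B F] [IsFractionRing B F]
  [Algebra R B] [Algebra k F] [Algebra R F] [IsScalarTower R B F] [IsScalarTower R k F]

/-- `k = R[1/π] ⊆ B_p` for every prime `p` of the chart not containing `π`. -/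
theorem memAt_algebraMap_of_away (π : R) [IsLocalization.Away π k] (p : Ideal B) [p.IsPrime]
    (hπp : algebraMap R B π ∉ p) (c : k) : MemAt p (algebraMap k F c) := by
  obtain ⟨⟨a, ⟨s, ⟨m, rfl⟩⟩⟩, h⟩ := IsLocalization.surj (Submonoid.powers π) c
  refine ⟨algebraMap R B a, algebraMap R B (π ^ m), ?_, ?_⟩
  · rw [map_pow]
    exact fun h' => hπp (‹p.IsPrime›.mem_of_pow_mem m h')
  · have h' : c * algebraMap R k (π ^ m) = algebraMap R k a := h
    rw [← IsScalarTower.algebraMap_apply R B F, ← IsScalarTower.algebraMap_apply R B F,
      IsScalarTower.algebraMap_apply R k F, IsScalarTower.algebraMap_apply R k F a, ← h',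
      map_mul]

variable [IsNoetherianRing B] [IsIntegrallyClosed B]

/-- The place of `F/k` attached to a horizontal height-one prime of the chart. -/
noncomputable def placeOfHorizontalPrime (π : R) [IsLocalization.Away π k] (p : Ideal B)
    [p.IsPrime] (h1 : p.height = 1) (hπp : algebraMap R B π ∉ p) : Place k F :=
  placeOfPrime p h1 (memAt_algebraMap_of_away π p hπp)

theorem ord_placeOfHorizontalPrime_eq_zero_iff (π : R) [IsLocalization.Away π k] (p : Ideal B)
    [p.IsPrime] (h1 : p.height = 1) (hπp : algebraMap R B π ∉ p) {x : F} (hx : x ≠ 0) :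
    (placeOfHorizontalPrime (k := k) π p h1 hπp).ord x = 0 ↔ IsUnitAt p x :=
  ord_placeOfPrime_eq_zero_iff p h1 _ hx

theorem ord_placeOfHorizontalPrime_nonneg_iff (π : R) [IsLocalization.Away π k] (p : Ideal B)
    [p.IsPrime] (h1 : p.height = 1) (hπp : algebraMap R B π ∉ p) {x : F} (hx : x ≠ 0) :
    0 ≤ (placeOfHorizontalPrime (k := k) π p h1 hπp).ord x ↔ MemAt p x :=
  ord_placeOfPrime_nonneg_iff p h1 _ hx

theorem ord_placeOfHorizontalPrime_algebraMap_pos_iff (π : R) [IsLocalization.Away π k]
    (p : Ideal B) [p.IsPrime] (h1 : p.height = 1) (hπp : algebraMap R B π ∉ p) {b : B}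
    (hb : b ≠ 0) :
    0 < (placeOfHorizontalPrime (k := k) π p h1 hπp).ord (algebraMap B F b) ↔ b ∈ p :=
  ord_placeOfPrime_algebraMap_pos_iff p h1 _ hb

omit [IsNoetherianRing B] [IsIntegrallyClosed B] in
/-- The centre of a place of `F/k` on the chart is horizontal. -/
theorem algebraMap_notMem_centre (π : R) (hπ : π ≠ 0) [IsLocalization.Away π k] (v : Place k F)
    (hB : ∀ b : B, algebraMap B F b ∈ v.toValuationSubring) :
    algebraMap R B π ∉ centre v.toValuationSubring hB := by
  rw [mem_centre, not_lt]
  have hπk : algebraMap R k π ≠ 0 := fun h =>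
    hπ (IsLocalization.injective k (powers_le_nonZeroDivisors_of_noZeroDivisors hπ)
      (by rw [h, map_zero]))
  have h1 : algebraMap B F (algebraMap R B π) = algebraMap k F (algebraMap R k π) := by
    rw [← IsScalarTower.algebraMap_apply, ← IsScalarTower.algebraMap_apply]
  have hinv : (algebraMap k F (algebraMap R k π))⁻¹ ∈ v.toValuationSubring := by
    rw [← map_inv₀]; exact v.algebraMap_mem' _
  have hle := (v.toValuationSubring.valuation_le_one_iff _).2 hinv
  rw [map_inv₀, h1.symm] at hle
  have hne : v.toValuationSubring.valuation (algebraMap B F (algebraMap R B π)) ≠ 0 := by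
    rw [Valuation.ne_zero_iff, h1]
    exact fun h => hπk ((algebraMap k F).injective (by rw [h, map_zero]))
  rwa [inv_le_one₀ (zero_lt_iff.2 hne)] at hle

/-- Every place of `F/k` containing the chart is the place of its centre. -/
theorem eq_placeOfHorizontalPrime_centre (π : R) (hπ : π ≠ 0) [IsLocalization.Away π k] (J : B)
    (hint : ∀ b : B, (aeval (R := R) J : R[X] →ₐ[R] B).toRingHom.IsIntegralElem b)
    (v : Place k F) (hB : ∀ b : B, algebraMap B F b ∈ v.toValuationSubring) :
    haveI := centre_isPrime v.toValuationSubring hB
    ∃ h1 : (centre v.toValuationSubring hB).height = 1,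
      v = placeOfHorizontalPrime π (centre v.toValuationSubring hB) h1
        (algebraMap_notMem_centre π hπ v hB) := by
  have := centre_isPrime v.toValuationSubring hB
  have h1 : (centre v.toValuationSubring hB).height = 1 :=
    height_eq_one_of_horizontal (k := k) π J hint _
      (centre_ne_bot v.toValuationSubring hB v.ne_top') (algebraMap_notMem_centre π hπ v hB)
  obtain ⟨hk, hv⟩ := eq_placeOfPrime_centre v hB h1
  exact ⟨h1, hv⟩

/-! ### Rational places are `R`-points of the chart -/

section Eval

omit [IsNoetherianRing B] [IsIntegrallyClosed B] in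
/-- A `k`-rational place of `F/k` containing the chart `B`, whose centre lies under a proper
ideal `n ∋ π`, is an `R`-valued point of the chart: there is `ev : B →ₐ[R] R` with kernel the
centre, sending `n` into `(π)`.  (`R` a valuation ring of `k` with maximal ideal `(π)`,
integrally closed in `k`; `B` integral over `R[J]`.) -/
theorem exists_eval_of_rational (π : R) (hinjR : Function.Injective (algebraMap R k))
    (hval : ∀ c : k, (∃ r : R, algebraMap R k r = c) ∨ ∃ r : R, c⁻¹ = algebraMap R k (π * r))
    (hRint : ∀ c : k, IsIntegral R c → ∃ r : R, algebraMap R k r = c)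
    (J : B)
    (hint : ∀ b : B, (aeval (R := R) J : R[X] →ₐ[R] B).toRingHom.IsIntegralElem b)
    (v : Place k F) (hB : ∀ b : B, algebraMap B F b ∈ v.toValuationSubring)
    (hrat : ∀ x ∈ v.toValuationSubring, ∃ c : k,
      v.toValuationSubring.valuation (x - algebraMap k F c) < 1)
    (n : Ideal B) (hn : n ≠ ⊤) (hcn : centre v.toValuationSubring hB ≤ n)
    (hπn : algebraMap R B π ∈ n) :
    ∃ ev : B →ₐ[R] R, (∀ b, ev b = 0 ↔ b ∈ centre v.toValuationSubring hB) ∧
      (∀ b ∈ n, π ∣ ev b) ∧
      ∀ b, v.toValuationSubring.valuation
        (algebraMap B F b - algebraMap k F (algebraMap R k (ev b))) < 1 := by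
  classical
  set V := v.toValuationSubring with hV
  -- nonzero constants are units of `V`
  have hconst : ∀ c : k, V.valuation (algebraMap k F c) < 1 → c = 0 := by
    intro c hc
    by_contra hc0
    have hinv : (algebraMap k F c)⁻¹ ∈ V := by rw [← map_inv₀]; exact v.algebraMap_mem' _
    have hle := (V.valuation_le_one_iff _).2 hinv
    have hne : V.valuation (algebraMap k F c) ≠ 0 := by
      rw [Valuation.ne_zero_iff]
      exact fun h => hc0 ((algebraMap k F).injective (by rw [h, map_zero]))
    rw [map_inv₀, inv_le_one₀ (zero_lt_iff.2 hne)] at hle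
    exact absurd hc (not_lt.2 hle)
  -- the residue map `B → k`
  choose res hres using fun b : B => hrat (algebraMap B F b) (hB b)
  have huniq : ∀ (b : B) (c : k), V.valuation (algebraMap B F b - algebraMap k F c) < 1 →
      res b = c := by
    intro b c hc
    have h1 : V.valuation (algebraMap k F (res b - c)) < 1 := by
      have : algebraMap k F (res b - c) =
          (algebraMap B F b - algebraMap k F c) - (algebraMap B F b - algebraMap k F (res b)) := by
        rw [map_sub]; ring
      rw [this]
      exact lt_of_le_of_lt (V.valuation.map_sub _ _) (max_lt hc (hres b))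
    exact sub_eq_zero.1 (hconst _ h1)
  have hres_add : ∀ a b, res (a + b) = res a + res b := fun a b => by
    apply huniq
    have : algebraMap B F (a + b) - algebraMap k F (res a + res b) =
        (algebraMap B F a - algebraMap k F (res a)) +
          (algebraMap B F b - algebraMap k F (res b)) := by
      rw [map_add, map_add]; ring
    rw [this]
    exact lt_of_le_of_lt (V.valuation.map_add _ _) (max_lt (hres a) (hres b))
  have hresV : ∀ b, algebraMap k F (res b) ∈ V := fun b => v.algebraMap_mem' _
  have hres_mul : ∀ a b, res (a * b) = res a * res b := fun a b => by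
    apply huniq
    have : algebraMap B F (a * b) - algebraMap k F (res a * res b) =
        (algebraMap B F a - algebraMap k F (res a)) * algebraMap B F b +
          algebraMap k F (res a) * (algebraMap B F b - algebraMap k F (res b)) := by
      rw [map_mul, map_mul]; ring
    rw [this]
    refine lt_of_le_of_lt (V.valuation.map_add _ _) (max_lt ?_ ?_)
    · rw [map_mul]
      exact mul_lt_one_of_nonneg_of_lt_one_left zero_le (hres a)
        ((V.valuation_le_one_iff _).2 (hB b))
    · rw [map_mul]
      exact mul_lt_one_of_nonneg_of_lt_one_right ((V.valuation_le_one_iff _).2 (hresV a))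
        zero_le (hres b)
  have hres_alg : ∀ r : R, res (algebraMap R B r) = algebraMap R k r := fun r => by
    apply huniq
    rw [← IsScalarTower.algebraMap_apply, ← IsScalarTower.algebraMap_apply, sub_self, map_zero]
    exact zero_lt_one
  have hres_one : res 1 = 1 := by
    have := hres_alg 1
    rwa [map_one, map_one] at this
  have hres_zero : res 0 = 0 := by
    have := hres_alg 0
    rwa [map_zero, map_zero] at this
  let ρ : B →+* k :=
    { toFun := res, map_one' := hres_one, map_mul' := hres_mul, map_zero' := hres_zero,
      map_add' := hres_add }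
  have hker : ∀ b, ρ b = 0 ↔ b ∈ centre V hB := by
    intro b
    rw [mem_centre]
    constructor
    · intro h
      have := hres b
      rwa [show res b = 0 from h, map_zero, sub_zero] at this
    · intro h
      apply huniq
      rwa [map_zero, sub_zero]
  have hρalg : ∀ r : R, ρ (algebraMap R B r) = algebraMap R k r := hres_alg
  -- `ρ J ∈ R`
  have hJ : ∃ r : R, algebraMap R k r = ρ J := by
    by_cases h0 : ρ J = 0
    · exact ⟨0, by rw [map_zero, h0]⟩
    rcases hval (ρ J) with h | ⟨r, hr⟩
    · exact h
    · exfalso
      have h1 : ρ (J * algebraMap R B (π * r) - 1) = 0 := by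
        rw [map_sub, map_mul, map_one, hρalg, ← hr, mul_inv_cancel₀ h0, sub_self]
      have h2 : J * algebraMap R B (π * r) - 1 ∈ n := hcn ((hker _).1 h1)
      have h3 : J * algebraMap R B (π * r) ∈ n := by
        rw [map_mul]
        exact Ideal.mul_mem_left _ _ (Ideal.mul_mem_right _ _ hπn)
      have h4 : (1 : B) ∈ n := by
        have := n.sub_mem h3 h2
        rwa [sub_sub_cancel] at this
      exact hn ((Ideal.eq_top_iff_one n).2 h4)
  obtain ⟨rJ, hrJ⟩ := hJ
  -- `ρ b ∈ R` for all `b`
  have hall : ∀ b : B, ∃ r : R, algebraMap R k r = ρ b := by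
    intro b
    apply hRint
    obtain ⟨P, hPm, hP⟩ := hint b
    have hcomp : ρ.comp (aeval (R := R) J : R[X] →ₐ[R] B).toRingHom =
        (algebraMap R k).comp (Polynomial.evalRingHom rJ) := by
      apply Polynomial.ringHom_ext
      · intro a
        simp only [RingHom.comp_apply, AlgHom.toRingHom_eq_coe, RingHom.coe_coe, aeval_C,
          Polynomial.coe_evalRingHom, eval_C]
        exact hρalg a
      · simp only [RingHom.comp_apply, AlgHom.toRingHom_eq_coe, RingHom.coe_coe, aeval_X,
          Polynomial.coe_evalRingHom, eval_X]
        exact hrJ.symm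
    refine ⟨P.map (Polynomial.evalRingHom rJ), hPm.map _, ?_⟩
    rw [Polynomial.eval₂_map, ← hcomp]
    have := congrArg ρ hP
    rwa [Polynomial.hom_eval₂, map_zero] at this
  choose e he using hall
  let ev : B →ₐ[R] R :=
    { toFun := e
      map_one' := hinjR (by rw [he, map_one, map_one])
      map_mul' := fun a b => hinjR (by rw [he, map_mul, map_mul, he, he])
      map_zero' := hinjR (by rw [he, map_zero, map_zero])
      map_add' := fun a b => hinjR (by rw [he, map_add, map_add, he, he])
      commutes' := fun r => hinjR (by rw [he, hρalg]; rfl) }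
  have hev : ∀ b, algebraMap R k (ev b) = ρ b := he
  refine ⟨ev, fun b => ?_, fun b hb => ?_, fun b => ?_⟩
  · rw [← hker]
    constructor
    · intro h
      rw [← hev, h, map_zero]
    · intro h
      exact hinjR (by rw [hev, h, map_zero])
  · by_cases h0 : ev b = 0
    · rw [h0]; exact dvd_zero _
    have h0k : algebraMap R k (ev b) ≠ 0 := fun h => h0 (hinjR (by rw [h, map_zero]))
    rcases hval (algebraMap R k (ev b))⁻¹ with ⟨r, hr⟩ | ⟨r, hr⟩
    · exfalso
      have hu : ev b * r = 1 := hinjR (by
        rw [map_mul, hr, mul_inv_cancel₀ h0k, map_one])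
      have h1 : ρ (b - algebraMap R B (ev b)) = 0 := by
        rw [map_sub, hρalg, hev, sub_self]
      have h2 : b - algebraMap R B (ev b) ∈ n := hcn ((hker _).1 h1)
      have h3 : algebraMap R B (ev b) ∈ n := by
        have := n.sub_mem hb h2
        rwa [sub_sub_cancel] at this
      have h4 : (1 : B) ∈ n := by
        have := Ideal.mul_mem_right (algebraMap R B r) n h3
        rwa [← map_mul, hu, map_one] at this
      exact hn ((Ideal.eq_top_iff_one n).2 h4)
    · rw [inv_inv] at hr
      exact ⟨r, hinjR hr⟩
  · have := hres b
    rwa [show res b = ρ b from rfl, ← hev] at this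

end Eval

end Fermat.Agent.S34.H3
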