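/-
helper56 — S34 row A4: the abstract local statement behind "(I1) local principality" at a
point of the special fibre (node or smooth point), in exact-coordinates form.  Mathlib only.

`O` : noetherian local ring (the local ring of the model over `A''` at a closed point `n` of
the special fibre), `A` the base DVR-like ring (only: a domain, with an element `ϖ`),
`P : O →ₐ[A] A` a section ("an `A`-valued point through `n`").
If `𝔪_O = (x, y, ϖ)` and `P x, P y ∈ (ϖ)` then `ker P = (x - P x, y - P y)`.
If moreover `x * y = c ∈ A` then `(x - β) * y = - β * (y - γ)`, so `ker P = (x - β)` wherever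
`β` is invertible, and a prime containing `x - β` but not `β` contains `ker P`.
-/
import Mathlib

set_option autoImplicit false
set_option linter.unusedSectionVars false
set_option linter.style.haveILetI false

namespace Fermat.Agent.S34.H56

open IsLocalRing

section Krull

variable {O : Type*} [CommRing O] [IsNoetherianRing O] [IsLocalRing O]

/-- Ideals of a noetherian local ring are closed for the `J`-adic topology (`J` proper). -/
theorem mem_of_forall_mem_sup_pow (I J : Ideal O) (hJ : J ≠ ⊤) (z : O)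
    (h : ∀ n : ℕ, z ∈ I ⊔ J ^ n) : z ∈ I := by
  have key := Ideal.iInf_pow_smul_eq_bot_of_isLocalRing (R := O) (M := O ⧸ I) J hJ
  have hz : (Ideal.Quotient.mk I z : O ⧸ I) ∈ (⨅ i : ℕ, J ^ i • ⊤ : Submodule O (O ⧸ I)) := by
    rw [Submodule.mem_iInf]
    intro n
    obtain ⟨a, ha, b, hb, hab⟩ := Submodule.mem_sup.mp (h n)
    have : (Ideal.Quotient.mk I z : O ⧸ I) = b • (Ideal.Quotient.mk I 1 : O ⧸ I) := by
      rw [← hab, map_add, Ideal.Quotient.eq_zero_iff_mem.mpr ha, zero_add]
      simp [Algebra.smul_def]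
    rw [this]
    exact Submodule.smul_mem_smul hb Submodule.mem_top
  rw [key] at hz
  exact Ideal.Quotient.eq_zero_iff_mem.mp ((Submodule.mem_bot O).mp hz)

end Krull

section Point

variable {A O : Type*} [CommRing A] [IsDomain A] [CommRing O] [IsNoetherianRing O]
  [IsLocalRing O] [Algebra A O]

/-- **Kernel of a point in coordinates.** -/
theorem ker_point_eq_span (P : O →ₐ[A] A) (x y : O) (ϖ : A)
    (hϖ : ϖ ≠ 0) (hϖO : algebraMap A O ϖ ∈ maximalIdeal O)
    (hmax : maximalIdeal O ≤ Ideal.span {x, y, algebraMap A O ϖ})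
    (hx : ϖ ∣ P x) (hy : ϖ ∣ P y) :
    RingHom.ker (P : O →+* A) =
      Ideal.span {x - algebraMap A O (P x), y - algebraMap A O (P y)} := by
  set I : Ideal O := Ideal.span {x - algebraMap A O (P x), y - algebraMap A O (P y)} with hI
  set J : Ideal O := Ideal.span {algebraMap A O ϖ} with hJ
  have hJtop : J ≠ ⊤ := by
    intro h
    have : J ≤ maximalIdeal O := by
      rw [hJ, Ideal.span_le]; intro z hz; rw [Set.mem_singleton_iff] at hz; rw [hz]; exact hϖO
    rw [h] at this
    exact (maximalIdeal.isMaximal O).ne_top (top_le_iff.mp this)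
  have hIker : I ≤ RingHom.ker (P : O →+* A) := by
    rw [hI, Ideal.span_le]
    intro z hz
    rcases hz with rfl | hz
    · simp [RingHom.mem_ker]
    · rw [Set.mem_singleton_iff] at hz; rw [hz]; simp [RingHom.mem_ker]
  -- the kernel of `P` is proper hence inside the maximal ideal
  have hker_le : RingHom.ker (P : O →+* A) ≤ maximalIdeal O := by
    apply le_maximalIdeal
    intro h
    have h1 : (1 : O) ∈ RingHom.ker (P : O →+* A) := by rw [h]; trivial
    rw [RingHom.mem_ker] at h1
    simp at h1
  apply le_antisymm _ hIker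
  intro z hz
  apply mem_of_forall_mem_sup_pow I J hJtop z
  intro n
  induction n with
  | zero => simp
  | succ n ih =>
    obtain ⟨i, hi, j, hj, hij⟩ := Submodule.mem_sup.mp ih
    rw [hJ, Ideal.span_singleton_pow, Ideal.mem_span_singleton] at hj
    obtain ⟨w, hw⟩ := hj
    -- `P w = 0`
    have hPw : P w = 0 := by
      have h0 : P z = 0 := hz
      have hPi : P i = 0 := hIker hi
      rw [← hij, map_add, hPi, zero_add, hw, map_mul, map_pow, AlgHom.commutes] at h0
      exact (mul_eq_zero.mp h0).resolve_left (pow_ne_zero _ hϖ)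
    have hwm : w ∈ Ideal.span {x, y, algebraMap A O ϖ} := hmax (hker_le hPw)
    obtain ⟨r, s, t, hrst⟩ := Submodule.mem_span_triple.mp hwm
    simp only [smul_eq_mul] at hrst
    obtain ⟨β', hβ'⟩ := hx
    obtain ⟨γ', hγ'⟩ := hy
    -- `w = r (x - β) + s (y - γ) + ϖ (r β' + s γ' + t)`
    have hw' : w = (r * (x - algebraMap A O (P x)) + s * (y - algebraMap A O (P y)))
        + algebraMap A O ϖ * (r * algebraMap A O β' + s * algebraMap A O γ' + t) := by
      rw [← hrst, hβ', hγ', map_mul, map_mul]; ring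
    have hwI : (r * (x - algebraMap A O (P x)) + s * (y - algebraMap A O (P y))) ∈ I := by
      apply Ideal.add_mem
      · exact Ideal.mul_mem_left _ _ (Ideal.subset_span (by simp))
      · exact Ideal.mul_mem_left _ _ (Ideal.subset_span (by simp))
    rw [← hij, hw, hw', mul_add, ← add_assoc]
    apply Submodule.add_mem_sup
    · exact Ideal.add_mem _ hi (Ideal.mul_mem_left _ _ hwI)
    · rw [hJ, Ideal.span_singleton_pow, Ideal.mem_span_singleton]
      exact ⟨r * algebraMap A O β' + s * algebraMap A O γ' + t, by ring⟩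

/-- **Approximate node relation.** If `x * y = c + (β * δ) * G` with `c, δ` constants,
`β = P x`, then `(x - β) * (y - β δ a) = - β (1 - δ b) (y - γ)` whenever
`G - G(P) = a (x - β) + b (y - γ)`. (Exact case: `δ = 0`.) -/
theorem node_relation (P : O →ₐ[A] A) (x y G a b : O) (c δ : A)
    (hxy : x * y = algebraMap A O c + algebraMap A O (P x * δ) * G)
    (hG : G - algebraMap A O (P G) =
      a * (x - algebraMap A O (P x)) + b * (y - algebraMap A O (P y))) :
    (x - algebraMap A O (P x)) * (y - algebraMap A O (P x * δ) * a) =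
      - (algebraMap A O (P x) * (1 - algebraMap A O δ * b) * (y - algebraMap A O (P y))) := by
  have hβγ : P x * P y = c + P x * δ * P G := by
    have := congrArg P hxy
    rwa [map_mul, map_add, map_mul, AlgHom.commutes, AlgHom.commutes,
      Algebra.algebraMap_self_apply, Algebra.algebraMap_self_apply] at this
  have h1 := congrArg (algebraMap A O) hβγ
  simp only [map_mul, map_add] at h1
  have h2 : algebraMap A O (P x * δ) = algebraMap A O (P x) * algebraMap A O δ := map_mul _ _ _
  rw [h2] at hxy ⊢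
  linear_combination hxy - h1 + (algebraMap A O (P x) * algebraMap A O δ) * hG

/-- `β • ker P ⊆ (x - β)`: the function `x - β` generates the ideal of the point `P` wherever
`β` is invertible (i.e. on the generic fibre).  Approximate node relation
`x y = c + β δ G`, `δ ∈ (ϖ)`; the exact case is `δ = 0`, `G = 0`; the smooth case is `y = 0`. -/
theorem smul_ker_point_le (P : O →ₐ[A] A) (x y G : O) (c δ ϖ : A)
    (hxy : x * y = algebraMap A O c + algebraMap A O (P x * δ) * G)
    (hδ : ϖ ∣ δ)
    (hϖ : ϖ ≠ 0) (hϖO : algebraMap A O ϖ ∈ maximalIdeal O)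
    (hmax : maximalIdeal O ≤ Ideal.span {x, y, algebraMap A O ϖ})
    (hx : ϖ ∣ P x) (hy : ϖ ∣ P y) {z : O} (hz : P z = 0) :
    algebraMap A O (P x) * z ∈ Ideal.span {x - algebraMap A O (P x)} := by
  have hker := ker_point_eq_span P x y ϖ hϖ hϖO hmax hx hy
  have hz' : z ∈ RingHom.ker (P : O →+* A) := hz
  rw [hker, Ideal.mem_span_pair] at hz'
  obtain ⟨a', b', hab'⟩ := hz'
  have hG' : G - algebraMap A O (P G) ∈ RingHom.ker (P : O →+* A) := by
    rw [RingHom.mem_ker]; simp
  rw [hker, Ideal.mem_span_pair] at hG'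
  obtain ⟨a, b, hab⟩ := hG'
  have h := node_relation P x y G a b c δ hxy hab.symm
  -- `υ = 1 - δ b` is a unit
  have hυ : IsUnit (1 - algebraMap A O δ * b) := by
    have hm : algebraMap A O δ * b ∈ maximalIdeal O := by
      obtain ⟨δ', rfl⟩ := hδ
      rw [map_mul, mul_assoc]
      exact Ideal.mul_mem_right _ _ hϖO
    by_contra hnu
    have h1 : (1 - algebraMap A O δ * b) ∈ maximalIdeal O := (mem_maximalIdeal _).mpr hnu
    have : (1 : O) ∈ maximalIdeal O := by
      have := Ideal.add_mem _ h1 hm
      rwa [sub_add_cancel] at this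
    exact (maximalIdeal.isMaximal O).ne_top ((Ideal.eq_top_iff_one _).mpr this)
  obtain ⟨υ, hυe⟩ := hυ
  rw [Ideal.mem_span_singleton]
  refine ⟨algebraMap A O (P x) * a' -
    (υ⁻¹ : Oˣ) * b' * (y - algebraMap A O (P x * δ) * a), ?_⟩
  have hinv : ((υ⁻¹ : Oˣ) : O) * (1 - algebraMap A O δ * b) = 1 := by
    rw [← hυe]; exact Units.inv_mul υ
  rw [← hab']
  linear_combination (((υ⁻¹ : Oˣ) : O) * b') * h -
    (algebraMap A O (P x) * b' * (y - algebraMap A O (P y))) * hinv

/-- **Uniqueness of the point with a given `x`-coordinate.** A prime containing `x - β` but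
not the constant `β` contains the whole ideal of the point `P`. -/
theorem ker_point_le_of_mem (P : O →ₐ[A] A) (x y G : O) (c δ ϖ : A)
    (hxy : x * y = algebraMap A O c + algebraMap A O (P x * δ) * G)
    (hδ : ϖ ∣ δ)
    (hϖ : ϖ ≠ 0) (hϖO : algebraMap A O ϖ ∈ maximalIdeal O)
    (hmax : maximalIdeal O ≤ Ideal.span {x, y, algebraMap A O ϖ})
    (hx : ϖ ∣ P x) (hy : ϖ ∣ P y) (𝔭 : Ideal O) [𝔭.IsPrime]
    (hβ : algebraMap A O (P x) ∉ 𝔭) (hmem : x - algebraMap A O (P x) ∈ 𝔭) :
    RingHom.ker (P : O →+* A) ≤ 𝔭 := by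
  intro z hz
  have h := smul_ker_point_le P x y G c δ ϖ hxy hδ hϖ hϖO hmax hx hy hz
  have h' : algebraMap A O (P x) * z ∈ 𝔭 := by
    obtain ⟨w, hw⟩ := Ideal.mem_span_singleton.mp h
    rw [hw]; exact Ideal.mul_mem_right _ _ hmem
  exact (Ideal.IsPrime.mem_or_mem ‹_› h').resolve_left hβ

/-- Smooth case (`𝔪 = (τ, ϖ)`): the ideal of the point is principal, `ker P = (τ - τ(P))`. -/
theorem ker_point_eq_span_singleton (P : O →ₐ[A] A) (τ : O) (ϖ : A)
    (hϖ : ϖ ≠ 0) (hϖO : algebraMap A O ϖ ∈ maximalIdeal O)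
    (hmax : maximalIdeal O ≤ Ideal.span {τ, algebraMap A O ϖ})
    (hτ : ϖ ∣ P τ) :
    RingHom.ker (P : O →+* A) = Ideal.span {τ - algebraMap A O (P τ)} := by
  have hmax' : maximalIdeal O ≤ Ideal.span {τ, 0, algebraMap A O ϖ} := by
    refine hmax.trans (Ideal.span_mono ?_)
    intro z hz
    rcases hz with rfl | hz
    · simp
    · rw [Set.mem_singleton_iff] at hz; rw [hz]; simp
  rw [ker_point_eq_span P τ 0 ϖ hϖ hϖO hmax' hτ (by simp)]
  apply le_antisymm
  · rw [Ideal.span_le]
    intro z hz
    rcases hz with rfl | hz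
    · exact Ideal.subset_span (by simp)
    · rw [Set.mem_singleton_iff] at hz; rw [hz]; simp
  · exact Ideal.span_mono (by intro z hz; rw [Set.mem_singleton_iff] at hz; rw [hz]; simp)

end Point

end Fermat.Agent.S34.H56
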