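/-
helper56 — S34 dictionary glue: from `H56_NodePoint` (local ring `O = B_n`, point
`P : O →ₐ[A] A`) to the chart-form hypotheses `hsingle`, `hf` of `H56_LocalDatum.local_datum`.

* `isUnitAt_of_notMem_map` : `ω ∈ O = B_n`, `ω ∉ p B_n` ⇒ `ω` is a unit at `p` (`p ≤ n`).
* `pointExt` : extension of a chart point `P : B →ₐ[A] A` with centre `n` to `O`.
* `isUnitAt_coord_sub` : single zero in chart form.
* `exists_eq_mul_of_mem_ker` : `x - β` generates `q B_q`, `q = ker P`.
* `ord_eq_one_of_generates`, `isUnitAt_div_pow_of_ord` : the Place side.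
-/
import Mathlib
import Fermat.Prelude.Def_AlgebraicCurve_DivisorClassGroup
import Fermat.Agent.S34.H56_NodePoint
import Fermat.Agent.S34.H56_PrimeVal

set_option autoImplicit false
set_option linter.unusedSectionVars false
set_option linter.style.haveILetI false

namespace Fermat.Agent.S34.H56

open IsLocalRing

section Bridge

variable {B K : Type*} [CommRing B] [IsDomain B] [Field K] [Algebra B K] [IsFractionRing B K]
  (n : Ideal B) [hn : n.IsPrime] (O : Type*) [CommRing O] [Algebra B O]
  [IsLocalization.AtPrime O n] [Algebra O K] [IsScalarTower B O K]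

/-- Elements of `O = B_n` lie in `B_p` for `p ≤ n`. -/
theorem memAt_algebraMap_of_le (p : Ideal B) (hpn : p ≤ n) (ω : O) :
    MemAt p (algebraMap O K ω) := by
  obtain ⟨⟨a, s⟩, has⟩ := IsLocalization.surj n.primeCompl ω
  refine ⟨a, s, fun h => s.2 (hpn h), ?_⟩
  have := congrArg (algebraMap O K) has
  rwa [map_mul, ← IsScalarTower.algebraMap_apply, ← IsScalarTower.algebraMap_apply] at this

/-- `ω ∈ B_n`, `ω ∉ p B_n` ⇒ `ω` is a unit at `p`. -/
theorem isUnitAt_of_notMem_map (p : Ideal B) [p.IsPrime] (hpn : p ≤ n) (ω : O)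
    (h : ω ∉ p.map (algebraMap B O)) : IsUnitAt p (algebraMap O K ω) := by
  obtain ⟨⟨a, s⟩, has⟩ := IsLocalization.surj n.primeCompl ω
  have hsu : IsUnit (algebraMap B O s) := IsLocalization.map_units O s
  refine ⟨a, s, fun ha => h ?_, fun h' => s.2 (hpn h'), ?_⟩
  · have h1 : algebraMap B O a ∈ p.map (algebraMap B O) := Ideal.mem_map_of_mem _ ha
    rw [← has] at h1
    obtain ⟨u, hu⟩ := hsu
    have : ω = ω * algebraMap B O s * ((u⁻¹ : Oˣ) : O) := by
      rw [mul_assoc, ← hu, Units.mul_inv, mul_one]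
    rw [this]
    exact Ideal.mul_mem_right _ _ h1
  · have := congrArg (algebraMap O K) has
    rwa [map_mul, ← IsScalarTower.algebraMap_apply, ← IsScalarTower.algebraMap_apply] at this

end Bridge

section Point

variable {A B K : Type*} [CommRing A] [IsDomain A] [CommRing B] [IsDomain B] [Algebra A B]
  [Field K] [Algebra B K] [IsFractionRing B K]
  (n : Ideal B) [hn : n.IsPrime] (O : Type*) [CommRing O] [Algebra B O]
  [IsLocalization.AtPrime O n] [Algebra A O] [IsScalarTower A B O]
  [Algebra O K] [IsScalarTower B O K]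

/-- Extension of a chart point with centre `n` to the local ring `O = B_n`. -/
noncomputable def pointExt (P : B →ₐ[A] A) (hu : ∀ b, b ∉ n → IsUnit (P b)) : O →ₐ[A] A where
  toRingHom := IsLocalization.lift (M := n.primeCompl) (g := (P : B →+* A))
    (fun y => hu y y.2)
  commutes' a := by
    show IsLocalization.lift (M := n.primeCompl) (g := (P : B →+* A)) _ (algebraMap A O a) = _
    rw [IsScalarTower.algebraMap_apply A B O, IsLocalization.lift_eq]
    simp

@[simp]
theorem pointExt_algebraMap (P : B →ₐ[A] A) (hu : ∀ b, b ∉ n → IsUnit (P b)) (b : B) :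
    pointExt n O P hu (algebraMap B O b) = P b := by
  show IsLocalization.lift (M := n.primeCompl) (g := (P : B →+* A)) _ (algebraMap B O b) = _
  rw [IsLocalization.lift_eq]; rfl

theorem ker_pointExt_comap (P : B →ₐ[A] A) (hu : ∀ b, b ∉ n → IsUnit (P b)) :
    (RingHom.ker (pointExt n O P hu : O →+* A)).comap (algebraMap B O) =
      RingHom.ker (P : B →+* A) := by
  ext b
  simp only [Ideal.mem_comap, RingHom.mem_ker]
  show pointExt n O P hu (algebraMap B O b) = 0 ↔ P b = 0
  rw [pointExt_algebraMap]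

variable [IsNoetherianRing O] [IsLocalRing O]

/-- **Single zero, chart form.** A horizontal height-one prime `p ≤ n` of the chart other than
`ker P`: the coordinate function `x - β` is a unit at `p`. -/
theorem isUnitAt_coord_sub (P : B →ₐ[A] A) (hu : ∀ b, b ∉ n → IsUnit (P b))
    (x y G : O) (c δ ϖ : A)
    (hxy : x * y = algebraMap A O c + algebraMap A O (pointExt n O P hu x * δ) * G)
    (hδ : ϖ ∣ δ) (hϖ : ϖ ≠ 0) (hϖO : algebraMap A O ϖ ∈ maximalIdeal O)
    (hmax : maximalIdeal O ≤ Ideal.span {x, y, algebraMap A O ϖ})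
    (hx : ϖ ∣ pointExt n O P hu x) (hy : ϖ ∣ pointExt n O P hu y)
    (hβ : ∃ e : ℕ, pointExt n O P hu x ∣ ϖ ^ e)
    (p : Ideal B) [hp : p.IsPrime] (h1 : p.height = 1) (hpn : p ≤ n)
    (hπp : algebraMap A B ϖ ∉ p)
    (hker1 : (RingHom.ker (P : B →+* A)).height = 1)
    (hne : p ≠ RingHom.ker (P : B →+* A)) :
    IsUnitAt p (algebraMap O K (x - algebraMap A O (pointExt n O P hu x))) := by
  refine isUnitAt_of_notMem_map n O p hpn _ fun hmem => hne ?_
  have hdisj : Disjoint (n.primeCompl : Set B) (p : Set B) := by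
    rw [Set.disjoint_left]
    intro b hb hbp
    exact hb (hpn hbp)
  haveI hp' : (p.map (algebraMap B O)).IsPrime :=
    IsLocalization.isPrime_of_isPrime_disjoint n.primeCompl O p hp hdisj
  have hcomap : (p.map (algebraMap B O)).comap (algebraMap B O) = p :=
    IsLocalization.under_map_of_isPrime_disjoint n.primeCompl O hp hdisj
  -- `β ∉ p B_n`
  have hβ' : algebraMap A O (pointExt n O P hu x) ∉ p.map (algebraMap B O) := by
    intro h
    obtain ⟨e, d, hd⟩ := hβ
    have h2 : algebraMap A O (ϖ ^ e) ∈ p.map (algebraMap B O) := by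
      rw [hd, map_mul]; exact Ideal.mul_mem_right _ _ h
    rw [IsScalarTower.algebraMap_apply A B O] at h2
    have h3 : algebraMap A B (ϖ ^ e) ∈ p := by
      have : algebraMap A B (ϖ ^ e) ∈ (p.map (algebraMap B O)).comap (algebraMap B O) := h2
      rwa [hcomap] at this
    rw [map_pow] at h3
    exact hπp (hp.mem_of_pow_mem e h3)
  have hle := ker_point_le_of_mem (pointExt n O P hu) x y G c δ ϖ hxy hδ hϖ hϖO hmax hx hy
    (p.map (algebraMap B O)) hβ' hmem
  have hle' : RingHom.ker (P : B →+* A) ≤ p := by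
    rw [← ker_pointExt_comap n O P hu, ← hcomap]
    exact Ideal.comap_mono hle
  haveI : (RingHom.ker (P : B →+* A)).IsPrime := RingHom.ker_isPrime _
  haveI : (RingHom.ker (P : B →+* A)).FiniteHeight :=
    ⟨Or.inr (by rw [hker1]; exact ENat.one_ne_top)⟩
  exact (Ideal.eq_of_le_of_height_le (I := RingHom.ker (P : B →+* A)) hle' (by rw [h1, hker1])).symm

/-- `x - β` generates `q B_q`, `q = ker P`. -/
theorem exists_eq_mul_of_mem_ker (P : B →ₐ[A] A) (hu : ∀ b, b ∉ n → IsUnit (P b))
    (hPn : RingHom.ker (P : B →+* A) ≤ n)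
    (x y G : O) (c δ ϖ : A)
    (hxy : x * y = algebraMap A O c + algebraMap A O (pointExt n O P hu x * δ) * G)
    (hδ : ϖ ∣ δ) (hϖ : ϖ ≠ 0) (hϖO : algebraMap A O ϖ ∈ maximalIdeal O)
    (hmax : maximalIdeal O ≤ Ideal.span {x, y, algebraMap A O ϖ})
    (hx : ϖ ∣ pointExt n O P hu x) (hy : ϖ ∣ pointExt n O P hu y)
    (hβ : ∃ e : ℕ, pointExt n O P hu x ∣ ϖ ^ e) (b : B) (hb : P b = 0) :
    ∃ d : K, MemAt (RingHom.ker (P : B →+* A)) d ∧
      algebraMap B K b = algebraMap O K (x - algebraMap A O (pointExt n O P hu x)) * d := by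
  haveI : (RingHom.ker (P : B →+* A)).IsPrime := RingHom.ker_isPrime _
  have hβ0 : pointExt n O P hu x ≠ 0 := by
    obtain ⟨e, d, hd⟩ := hβ
    intro h
    rw [h, zero_mul] at hd
    exact pow_ne_zero e hϖ hd
  have hz : pointExt n O P hu (algebraMap B O b) = 0 := by rw [pointExt_algebraMap, hb]
  have h := smul_ker_point_le (pointExt n O P hu) x y G c δ ϖ hxy hδ hϖ hϖO hmax hx hy hz
  obtain ⟨cc, hcc⟩ := Ideal.mem_span_singleton.mp h
  -- in `K`: `β_K * b_K = ω_K * cc_K`
  have e1 : algebraMap O K (algebraMap A O (pointExt n O P hu x)) =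
      algebraMap B K (algebraMap A B (pointExt n O P hu x)) := by
    rw [IsScalarTower.algebraMap_apply A B O, ← IsScalarTower.algebraMap_apply B O K]
  have hK := congrArg (algebraMap O K) hcc
  rw [map_mul, map_mul, e1, ← IsScalarTower.algebraMap_apply B O K] at hK
  have hβB : algebraMap A B (pointExt n O P hu x) ∉ RingHom.ker (P : B →+* A) := by
    rw [RingHom.mem_ker]
    show ¬ P (algebraMap A B (pointExt n O P hu x)) = 0
    rw [AlgHom.commutes]; exact hβ0
  have hβK : algebraMap B K (algebraMap A B (pointExt n O P hu x)) ≠ 0 := by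
    intro h0
    have : algebraMap A B (pointExt n O P hu x) = 0 :=
      (IsFractionRing.injective B K) (by rw [h0, map_zero])
    exact hβB (this ▸ Ideal.zero_mem _)
  refine ⟨algebraMap O K cc * (algebraMap B K (algebraMap A B (pointExt n O P hu x)))⁻¹, ?_, ?_⟩
  · refine (memAt_algebraMap_of_le n O _ hPn cc).mul ?_
    refine ⟨1, algebraMap A B (pointExt n O P hu x), hβB, ?_⟩
    rw [map_one, inv_mul_cancel₀ hβK]
  · rw [← mul_assoc, ← hK]
    field_simp

end Point

section PlaceSide

open AlgebraicCurve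

variable {B K : Type*} [CommRing B] [IsDomain B] [Field K] [Algebra B K] [IsFractionRing B K]
  [IsNoetherianRing B] [IsIntegrallyClosed B] {E : Type*} [Field E] [Algebra E K]

/-- If `ω` generates `q B_q` and the place `w` has valuation ring `B_q`, then `ord_w ω = 1`. -/
theorem ord_eq_one_of_generates (w : Place E K) (q : Ideal B) [hq : q.IsPrime]
    (h1 : q.height = 1) (hw : w.toValuationSubring = valuationSubringAt q h1)
    (ω : K) (hω : MemAt q ω) (hωq : ¬ IsUnitAt q ω)
    (hgen : ∀ b ∈ q, ∃ d : K, MemAt q d ∧ algebraMap B K b = ω * d) : w.ord ω = 1 := by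
  have hmemV : ∀ z : K, z ∈ w.toValuationSubring ↔ MemAt q z := fun z => by
    rw [hw]; exact mem_valuationSubringAt h1
  have hunitV : ∀ z : w.toValuationSubring, IsUnit z ↔ IsUnitAt q (z : K) := fun z => by
    rw [isUnitAt_iff_memAt]
    constructor
    · rintro ⟨u, rfl⟩
      have hu0 : ((u : w.toValuationSubring) : K) ≠ 0 := by
        intro h
        have : (u : w.toValuationSubring) = 0 := Subtype.ext h
        exact u.ne_zero this
      refine ⟨hu0, (hmemV _).mp (u : w.toValuationSubring).2, ?_⟩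
      have : ((u : w.toValuationSubring) : K)⁻¹ = ((u⁻¹ : (w.toValuationSubring)ˣ) :
          w.toValuationSubring) := by
        apply inv_eq_of_mul_eq_one_right
        have h0 := congrArg (fun t : w.toValuationSubring => (t : K)) (Units.mul_inv u)
        exact h0
      rw [this]
      exact (hmemV _).mp (SetLike.coe_mem _)
    · rintro ⟨hz0, -, hzi⟩
      have hzi' : (z : K)⁻¹ ∈ w.toValuationSubring := (hmemV _).mpr hzi
      refine isUnit_iff_exists_inv.mpr ⟨⟨(z : K)⁻¹, hzi'⟩, ?_⟩
      apply Subtype.ext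
      show (z : K) * (z : K)⁻¹ = 1
      exact mul_inv_cancel₀ hz0
  let ϖw : w.toValuationSubring := ⟨ω, (hmemV ω).mpr hω⟩
  have hirr : Irreducible ϖw := by
    rw [IsDiscreteValuationRing.irreducible_iff_uniformizer]
    apply le_antisymm
    · intro z hz
      rw [IsLocalRing.mem_maximalIdeal, mem_nonunits_iff, hunitV] at hz
      obtain ⟨a, s, hs, has⟩ := (hmemV (z : K)).mp z.2
      have ha : a ∈ q := by
        by_contra ha
        exact hz ⟨a, s, ha, hs, has⟩
      obtain ⟨d, hd, hde⟩ := hgen a ha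
      have hs0 : algebraMap B K s ≠ 0 := by
        intro h0
        have : s = 0 := (IsFractionRing.injective B K) (by rw [h0, map_zero])
        exact hs (this ▸ q.zero_mem)
      have hsinv : MemAt q (algebraMap B K s)⁻¹ :=
        ⟨1, s, hs, by rw [map_one, inv_mul_cancel₀ hs0]⟩
      rw [Ideal.mem_span_singleton]
      refine ⟨⟨d * (algebraMap B K s)⁻¹, (hmemV _).mpr (hd.mul hsinv)⟩, ?_⟩
      apply Subtype.ext
      show (z : K) = ω * (d * (algebraMap B K s)⁻¹)
      rw [← mul_assoc, ← hde, ← has]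
      field_simp
    · rw [Ideal.span_le]
      intro z hz
      rw [Set.mem_singleton_iff] at hz
      rw [hz]
      show ϖw ∈ IsLocalRing.maximalIdeal _
      rw [IsLocalRing.mem_maximalIdeal, mem_nonunits_iff, hunitV]
      exact hωq
  exact w.ord_coe_irreducible hirr

/-- `ord_w x = 0` ⇒ `x` is a unit at `q` (valuation ring of `w` is `B_q`). -/
theorem isUnitAt_of_ord_eq_zero (w : Place E K) (q : Ideal B) [hq : q.IsPrime]
    (h1 : q.height = 1) (hw : w.toValuationSubring = valuationSubringAt q h1)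
    {x : K} (hx0 : x ≠ 0) (hx : w.ord x = 0) : IsUnitAt q x := by
  obtain ⟨π, hπ⟩ := IsDiscreteValuationRing.exists_irreducible w.toValuationSubring
  obtain ⟨u, hu⟩ := w.exists_unit_mul_zpow hx0 hπ
  rw [hx, zpow_zero, mul_one] at hu
  rw [← valuation_eq_one_iff h1, ← hw, hu]
  exact (ValuationSubring.valuation_eq_one_iff _ _).mp u.isUnit

/-- The order hypothesis `hf` of `local_datum` from `ord_w f = m k`, `ord_w ω = 1`. -/
theorem isUnitAt_div_pow_of_ord (w : Place E K) (q : Ideal B) [hq : q.IsPrime]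
    (h1 : q.height = 1) (hw : w.toValuationSubring = valuationSubringAt q h1)
    {ω f : K} (hω0 : ω ≠ 0) (hf0 : f ≠ 0) (hord : w.ord ω = 1) (k : ℤ) (m : ℕ)
    (hfk : w.ord f = m * k) : IsUnitAt q (f / (ω ^ k) ^ m) := by
  have hden : (ω ^ k) ^ m ≠ 0 := pow_ne_zero _ (zpow_ne_zero _ hω0)
  refine isUnitAt_of_ord_eq_zero w q h1 hw (div_ne_zero hf0 hden) ?_
  rw [div_eq_mul_inv, w.ord_mul hf0 (inv_ne_zero hden), w.ord_inv, hfk]
  have : w.ord ((ω ^ k) ^ m) = m * k := by
    rw [← zpow_natCast, ← zpow_mul, w.ord_zpow, hord, mul_one, mul_comm]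
  rw [this]; ring

end PlaceSide

end Fermat.Agent.S34.H56
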