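/-
helper56 — S34: the coordinate function of a SERVED rational point, i.e. the provider of the
hypothesis `hcoord` of `H56_LocalDatumPlaces.local_datum_of_places`.

Input: a place `w` of `F/k` centred on the chart `B` at a point of the residue tube of `n`
(`centre w ≤ n`), its evaluation `ev : B →ₐ[R] R` (helper3 `H3.exists_eval_of_rational`), and
coordinates `x, y ∈ O = B_n` with `𝔪_O = (x, y, π)`, `x y = c + β δ G`, `β = x(P)`, `π ∣ δ`
(node, finite-order Morse form; exact form `δ = 0`; smooth point `y = 0`, `c = 0`, `δ = 0`).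
Output: `ω := x - β` has `ord_w ω = 1` and is a unit at every other horizontal height-one
prime `≤ n`.
-/
import Mathlib
import Fermat.Agent.S34.H3_PlaceChart
import Fermat.Agent.S34.H56_PointBridge

set_option autoImplicit false
set_option linter.unusedSectionVars false
set_option linter.style.haveILetI false

namespace Fermat.Agent.S34.H56

open Polynomial IsLocalRing Fermat.Agent.S34.H3 Fermat.Agent.CA.H42 AlgebraicCurve

variable {R k B F : Type*} [CommRing R] [IsDomain R] [Field k] [Algebra R k]
  [CommRing B] [IsDomain B] [Field F] [Algebra B F] [IsFractionRing B F]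
  [Algebra R B] [Algebra k F] [Algebra R F] [IsScalarTower R B F] [IsScalarTower R k F]
  [IsNoetherianRing B] [IsIntegrallyClosed B]

/-- Units of `R` come from outside `n`: the centre of `ev` is `n`. -/
theorem isUnit_ev_of_notMem (π : R) (hπu : ¬ IsUnit π) (hRloc : ∀ r : R, ¬ π ∣ r → IsUnit r)
    (n : Ideal B) [hn : n.IsMaximal] (ev : B →ₐ[R] R) (hevn : ∀ b ∈ n, π ∣ ev b)
    (b : B) (hb : b ∉ n) : IsUnit (ev b) := by
  apply hRloc
  intro hdvd
  -- the ideal `ev⁻¹ (π)` contains `n` and `b`, hence is `⊤`
  let I : Ideal B := (Ideal.span {π}).comap (ev : B →+* R)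
  have hnI : n ≤ I := fun z hz => by
    show ev z ∈ Ideal.span {π}
    exact Ideal.mem_span_singleton.mpr (hevn z hz)
  have hbI : b ∈ I := by
    show ev b ∈ Ideal.span {π}
    exact Ideal.mem_span_singleton.mpr hdvd
  have hI : I = ⊤ := by
    by_contra hne
    have := hn.eq_of_le hne hnI
    exact hb (this ▸ hbI)
  have h1 : (1 : B) ∈ I := by rw [hI]; trivial
  have h1' : ev 1 ∈ Ideal.span {π} := h1
  rw [map_one, Ideal.mem_span_singleton] at h1'
  exact hπu (isUnit_of_dvd_one h1')

variable (n : Ideal B) [hn : n.IsMaximal] (O : Type*) [CommRing O] [Algebra B O]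
  [IsLocalization.AtPrime O n] [Algebra R O] [IsScalarTower R B O]
  [Algebra O F] [IsScalarTower B O F] [IsNoetherianRing O] [IsLocalRing O]

/-- **Coordinate function of a served point.** -/
theorem exists_coord_of_served (π : R) (hπ : π ≠ 0) (hπu : ¬ IsUnit π)
    (hRloc : ∀ r : R, ¬ π ∣ r → IsUnit r) [IsLocalization.Away π k] (J : B)
    (hint : ∀ b : B, (aeval (R := R) J : R[X] →ₐ[R] B).toRingHom.IsIntegralElem b)
    (w : Place k F) (hB : ∀ b : B, algebraMap B F b ∈ w.toValuationSubring)
    (hcn : centre w.toValuationSubring hB ≤ n)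
    (ev : B →ₐ[R] R) (hev0 : ∀ b, ev b = 0 ↔ b ∈ centre w.toValuationSubring hB)
    (hevn : ∀ b ∈ n, π ∣ ev b)
    (x y G : O) (c δ : R)
    (hxy : x * y = algebraMap R O c + algebraMap R O
      (pointExt n O ev (isUnit_ev_of_notMem π hπu hRloc n ev hevn) x * δ) * G)
    (hδ : π ∣ δ) (hπO : algebraMap R O π ∈ maximalIdeal O)
    (hmax : maximalIdeal O ≤ Ideal.span {x, y, algebraMap R O π})
    (hxm : x ∈ maximalIdeal O) (hym : y ∈ maximalIdeal O)
    (hβ : ∃ e : ℕ, pointExt n O ev (isUnit_ev_of_notMem π hπu hRloc n ev hevn) x ∣ π ^ e) :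
    ∃ ω : F, ω ≠ 0 ∧ w.ord ω = 1 ∧
      ∀ p : Ideal B, p.IsPrime → p.height = 1 → p ≤ n → algebraMap R B π ∉ p →
        p ≠ centre w.toValuationSubring hB → IsUnitAt p ω := by
  set hu := isUnit_ev_of_notMem π hπu hRloc n ev hevn with hhu
  set PO := pointExt n O ev hu with hPO
  haveI hcp := centre_isPrime w.toValuationSubring hB
  obtain ⟨h1c, hv⟩ := eq_placeOfHorizontalPrime_centre π hπ J hint w hB
  have hwV : w.toValuationSubring =
      valuationSubringAt (K := F) (centre w.toValuationSubring hB) h1c :=
    congrArg Place.toValuationSubring hv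
  have hker : RingHom.ker (ev : B →+* R) = centre w.toValuationSubring hB := by
    ext b
    rw [RingHom.mem_ker]
    exact hev0 b
  have hker1 : (RingHom.ker (ev : B →+* R)).height = 1 := by rw [hker]; exact h1c
  -- `PO` maps the maximal ideal into `(π)`
  have hPOm : ∀ z ∈ maximalIdeal O, π ∣ PO z := by
    intro z hz
    by_contra hnd
    have hzu : IsUnit (PO z) := hRloc _ hnd
    obtain ⟨⟨a, s⟩, has⟩ := IsLocalization.surj n.primeCompl z
    have h2 : PO z * ev s = ev a := by
      have := congrArg PO has
      rwa [map_mul, hPO, pointExt_algebraMap, pointExt_algebraMap] at this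
    have han : a ∉ n := by
      intro han
      have h3 : π ∣ ev a := hevn a han
      rw [← h2] at h3
      have h4 : IsUnit (PO z * ev s) := hzu.mul (hu s s.2)
      exact hπu (isUnit_of_dvd_unit h3 h4)
    -- then `z` is a unit of `O`
    have hau : IsUnit (algebraMap B O a) :=
      IsLocalization.map_units O (⟨a, han⟩ : n.primeCompl)
    rw [← has] at hau
    exact (mem_maximalIdeal z).mp hz (isUnit_of_mul_isUnit_left hau)
  have hx := hPOm x hxm
  have hy := hPOm y hym
  set ω0 : O := x - algebraMap R O (PO x) with hω0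
  have hω0ker : PO ω0 = 0 := by
    rw [hω0, map_sub, AlgHom.commutes]
    simp
  refine ⟨algebraMap O F ω0, ?_, ?_, ?_⟩
  rotate_left
  · -- `ord = 1`
    refine ord_eq_one_of_generates w (centre w.toValuationSubring hB) h1c hwV _
      (memAt_algebraMap_of_le n O _ hcn ω0) ?_ ?_
    · -- not a unit at the centre
      rintro ⟨a', b', ha', hb', hab'⟩
      obtain ⟨⟨a, s⟩, has⟩ := IsLocalization.surj n.primeCompl ω0
      have hac : a ∈ centre w.toValuationSubring hB := by
        rw [← hev0]
        have := congrArg PO has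
        rw [map_mul, hω0ker, zero_mul, hPO, pointExt_algebraMap] at this
        exact this.symm
      have hF : algebraMap O F ω0 * algebraMap B F s = algebraMap B F a := by
        have := congrArg (algebraMap O F) has
        rwa [map_mul, ← IsScalarTower.algebraMap_apply, ← IsScalarTower.algebraMap_apply] at this
      -- `a * b' = a' * s`
      have h5 : algebraMap B F (a * b') = algebraMap B F (a' * s) := by
        rw [map_mul, map_mul, ← hF, ← hab']; ring
      have h6 : a * b' = a' * s := (IsFractionRing.injective B F) h5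
      have h7 : a' * s ∈ centre w.toValuationSubring hB := h6 ▸ Ideal.mul_mem_right _ _ hac
      rcases Ideal.IsPrime.mem_or_mem hcp h7 with h | h
      · exact ha' h
      · exact s.2 (hcn h)
    · intro b hb
      have hb0 : ev b = 0 := (hev0 b).mpr hb
      obtain ⟨d, hd, hde⟩ := exists_eq_mul_of_mem_ker (K := F) n O ev hu (by rw [hker]; exact hcn)
        x y G c δ π hxy hδ hπ hπO hmax hx hy hβ b hb0
      rw [hker] at hd
      exact ⟨d, hd, hde⟩
  · -- single zero
    intro p hp h1 hpn hπp hne
    haveI := hp
    exact isUnitAt_coord_sub n O ev hu x y G c δ π hxy hδ hπ hπO hmax hx hy hβ p h1 hpn hπp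
      hker1 (by rw [hker]; exact hne)
  · -- `ω ≠ 0`
    intro h0
    have h1 : w.ord (algebraMap O F ω0) = 1 := by
      refine ord_eq_one_of_generates w (centre w.toValuationSubring hB) h1c hwV _
        (memAt_algebraMap_of_le n O _ hcn ω0) ?_ ?_
      · rw [h0]
        rintro ⟨a', b', ha', -, hab'⟩
        rw [zero_mul] at hab'
        have : a' = 0 := (IsFractionRing.injective B F) (by rw [← hab', map_zero])
        exact ha' (this ▸ Ideal.zero_mem _)
      · intro b hb
        have hb0 : ev b = 0 := (hev0 b).mpr hb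
        obtain ⟨d, hd, hde⟩ := exists_eq_mul_of_mem_ker (K := F) n O ev hu (by rw [hker]; exact hcn)
          x y G c δ π hxy hδ hπ hπO hmax hx hy hβ b hb0
        rw [hker] at hd
        exact ⟨d, hd, hde⟩
    rw [h0, Place.ord_zero] at h1
    exact zero_ne_one h1

end Fermat.Agent.S34.H56
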