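/-
helper56 — S34 dictionary (D3), abstract: the local equation `w = ∏ ω_j ^ k_j` of the divisor
on the residue tube of `n`, and `IsUnitAt p (f / w ^ m)` at every horizontal height-one prime
`p ≤ n`.  Also the translation local ring → chart of the STEP 3' output.
-/
import Mathlib
import Fermat.Agent.S34.H56_PrimeVal

set_option autoImplicit false
set_option linter.unusedSectionVars false
set_option linter.style.haveILetI false

namespace Fermat.Agent.S34.H56

variable {B K : Type*} [CommRing B] [IsDomain B] [Field K] [Algebra B K] [IsFractionRing B K]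

omit [IsDomain B] in
theorem IsUnitAt.one (p : Ideal B) [hp : p.IsPrime] : IsUnitAt p (1 : K) :=
  ⟨1, 1, (Ideal.ne_top_iff_one p).mp hp.ne_top, (Ideal.ne_top_iff_one p).mp hp.ne_top, by simp⟩

theorem IsUnitAt.zpow {p : Ideal B} [p.IsPrime] {x : K} (hx : IsUnitAt p x) (k : ℤ) :
    IsUnitAt p (x ^ k) := by
  cases k with
  | ofNat k => simpa using hx.pow k
  | negSucc k => rw [zpow_negSucc]; exact (hx.pow (k + 1)).inv

theorem IsUnitAt.prod {ι : Type*} {p : Ideal B} [p.IsPrime] (S : Finset ι) (x : ι → K)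
    (hx : ∀ j ∈ S, IsUnitAt p (x j)) : IsUnitAt p (∏ j ∈ S, x j) := by
  classical
  induction S using Finset.induction_on with
  | empty => simpa using IsUnitAt.one p
  | insert j S hj ih =>
    rw [Finset.prod_insert hj]
    exact (hx j (Finset.mem_insert_self _ _)).mul
      (ih fun i hi => hx i (Finset.mem_insert_of_mem hi))

/-- **(D3), abstract.** `ω j ∈ K` is a unit at every horizontal height-one prime `p ≤ n` other
than `q j` (single zero), the `q j` are pairwise distinct, `f` has order `m * k j` at `q j`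
measured by `ω j`, and `f` is a unit at `p` if `p` is none of the `q j`. Then
`f / (∏ ω_j ^ k_j) ^ m` is a unit at `p`. (`S` = the SERVED points of `supp D` with centre `n`;
the hypothesis `hf'` is only asked at the prime `p` under consideration, so inertia-fixed
unserved points are simply not in `S` and are treated by stability.) -/
theorem isUnitAt_div_localEq {ι : Type*} (S : Finset ι)
    (q : ι → Ideal B) (hqinj : ∀ i ∈ S, ∀ j ∈ S, q i = q j → i = j)
    (ω : ι → K) (k : ι → ℤ) (f : K) (m : ℕ)
    (p : Ideal B) [hp : p.IsPrime]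
    (hsingle : ∀ j ∈ S, p ≠ q j → IsUnitAt p (ω j))
    (hf : ∀ j ∈ S, p = q j → IsUnitAt p (f / (ω j ^ k j) ^ m))
    (hf' : (∀ j ∈ S, p ≠ q j) → IsUnitAt p f) :
    IsUnitAt p (f / (∏ j ∈ S, ω j ^ k j) ^ m) := by
  classical
  have hunit : ∀ j ∈ S, p ≠ q j → IsUnitAt p (ω j ^ k j) := fun j hj hne =>
    (hsingle j hj hne).zpow _
  by_cases hex : ∃ j ∈ S, p = q j
  · obtain ⟨j0, hj0, hpj0⟩ := hex
    have hother : ∀ j ∈ S.erase j0, IsUnitAt p (ω j ^ k j) := by
      intro j hj
      have hjS := Finset.mem_of_mem_erase hj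
      refine hunit j hjS fun h => ?_
      exact (Finset.ne_of_mem_erase hj) (hqinj j hjS j0 hj0 (h.symm.trans hpj0))
    have hprod := IsUnitAt.prod (S.erase j0) _ hother
    have hsplit : ∏ j ∈ S, ω j ^ k j = ω j0 ^ k j0 * ∏ j ∈ S.erase j0, ω j ^ k j :=
      (Finset.mul_prod_erase S _ hj0).symm
    have h0 := hf j0 hj0 hpj0
    have : f / (∏ j ∈ S, ω j ^ k j) ^ m =
        f / (ω j0 ^ k j0) ^ m / (∏ j ∈ S.erase j0, ω j ^ k j) ^ m := by
      rw [hsplit, mul_pow, div_div]
    rw [this]
    exact h0.div (hprod.pow m)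
  · have hne : ∀ j ∈ S, p ≠ q j := fun j hj h => hex ⟨j, hj, h⟩
    have hprod := IsUnitAt.prod S _ fun j hj => hunit j hj (hne j hj)
    exact (hf' hne).div (hprod.pow m)

/-- Translation of the STEP 3' output from the local ring `Bn = B_n` to the chart `B`. -/
theorem exists_chart_of_local (n : Ideal B) [hn : n.IsPrime] (Bn : Type*) [CommRing Bn]
    [Algebra B Bn] [IsLocalization.AtPrime Bn n] [Algebra Bn K] [IsScalarTower B Bn K]
    (π : B) (ε : Bn) (hε : ε - 1 ∈ Ideal.span {algebraMap B Bn π}) :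
    ∃ a b : B, b ∉ n ∧ a - b ∈ Ideal.span {π} ∧
      algebraMap Bn K ε * algebraMap B K b = algebraMap B K a := by
  obtain ⟨c, hc⟩ := Ideal.mem_span_singleton.mp hε
  obtain ⟨⟨c0, s0⟩, hcs⟩ := IsLocalization.surj n.primeCompl c
  refine ⟨s0 + π * c0, s0, s0.2, ?_, ?_⟩
  · rw [add_sub_cancel_left]; exact Ideal.mul_mem_right _ _ (Ideal.mem_span_singleton_self π)
  · have hε' : ε = 1 + algebraMap B Bn π * c := by rw [← hc]; ring
    have h2 : algebraMap Bn K c * algebraMap B K s0 = algebraMap B K c0 := by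
      have := congrArg (algebraMap Bn K) hcs
      rwa [map_mul, ← IsScalarTower.algebraMap_apply, ← IsScalarTower.algebraMap_apply] at this
    rw [hε', map_add, map_one, map_mul, ← IsScalarTower.algebraMap_apply, map_add, map_mul,
      ← h2]
    ring

end Fermat.Agent.S34.H56
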