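/-
helper56 — S34 rows L4/L5 (STEP 3') in CHART form: `B` a noetherian integrally closed domain
(the chart `B_i''`), `n` a prime (closed point of the special fibre), all statements "in the
field" (`∃ s ∉ n, ...`), no `Localization` in the statements.  Output shapes = helper69's
`hε` / `InPiB`.
-/
import Mathlib
import Fermat.Agent.CA.H42_KrullDvr
import Fermat.Agent.S34.H56_PrimeVal

set_option autoImplicit false
set_option linter.unusedSectionVars false
set_option linter.style.haveILetI false

namespace Fermat.Agent.S34.H56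

open Fermat.Agent.CA.H42

variable {B K : Type*} [CommRing B] [IsDomain B] [Field K] [Algebra B K] [IsFractionRing B K]
  [IsNoetherianRing B] [IsIntegrallyClosed B]

/-- **Local Hartogs, in the field**: `x ∈ B_p` for every height-one prime `p ≤ n` implies
`x ∈ B_n`. -/
theorem memAt_of_forall_height_one_le (n : Ideal B) [hn : n.IsPrime] (x : K)
    (h : ∀ p : Ideal B, p.IsPrime → p.height = 1 → p ≤ n → MemAt p x) : MemAt n x := by
  let Bn := Localization.AtPrime n
  have hunit : ∀ y : n.primeCompl, IsUnit (algebraMap B K y) := fun y => by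
    refine IsUnit.mk0 _ ?_
    intro h0
    have : (y : B) = 0 := (IsFractionRing.injective B K) (by rw [h0, map_zero])
    exact y.2 (this ▸ n.zero_mem)
  let φ : Bn →+* K := IsLocalization.lift (M := n.primeCompl) (g := algebraMap B K) hunit
  letI : Algebra Bn K := φ.toAlgebra
  haveI : IsScalarTower B Bn K := IsScalarTower.of_algebraMap_eq fun b => by
    show algebraMap B K b = φ (algebraMap B Bn b)
    exact (IsLocalization.lift_eq hunit b).symm
  haveI : IsFractionRing Bn K :=
    IsFractionRing.isFractionRing_of_isDomain_of_isLocalization n.primeCompl Bn K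
  haveI : IsNoetherianRing Bn := IsLocalization.isNoetherianRing n.primeCompl Bn inferInstance
  haveI : IsIntegrallyClosed Bn :=
    isIntegrallyClosed_of_isLocalization Bn n.primeCompl n.primeCompl_le_nonZeroDivisors
  have hx : x ∈ Set.range (algebraMap Bn K) := by
    refine mem_range_of_forall_height_one x fun q hq hq1 => ?_
    have hp : (q.under B).IsPrime := Ideal.comap_isPrime _ _
    have hp1 : (q.under B).height = 1 := by
      rw [IsLocalization.height_under n.primeCompl q, hq1]
    have hple : q.under B ≤ n := by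
      have h1 : q ≤ IsLocalRing.maximalIdeal Bn := IsLocalRing.le_maximalIdeal hq.ne_top
      have h2 := Ideal.comap_mono (f := algebraMap B Bn) h1
      rwa [show Ideal.comap (algebraMap B Bn) (IsLocalRing.maximalIdeal Bn) = n from
        IsLocalization.AtPrime.under_maximalIdeal Bn n] at h2
    obtain ⟨a, b, hb, hab⟩ := h _ hp hp1 hple
    refine ⟨algebraMap B Bn a, algebraMap B Bn b, hb, ?_⟩
    rw [← IsScalarTower.algebraMap_apply, ← IsScalarTower.algebraMap_apply, hab]
  obtain ⟨y, rfl⟩ := hx
  obtain ⟨⟨a, b⟩, hab⟩ := IsLocalization.surj n.primeCompl y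
  refine ⟨a, b, b.2, ?_⟩
  have := congrArg (algebraMap Bn K) hab
  rw [map_mul, ← IsScalarTower.algebraMap_apply, ← IsScalarTower.algebraMap_apply] at this
  exact this

/-- Local unit criterion, in the field. -/
theorem isUnitAt_of_forall_height_one_le (n : Ideal B) [hn : n.IsPrime] (x : K)
    (h : ∀ p : Ideal B, p.IsPrime → p.height = 1 → p ≤ n → IsUnitAt p x) (hx0 : x ≠ 0) :
    IsUnitAt n x := by
  rw [isUnitAt_iff_memAt]
  refine ⟨hx0, ?_, ?_⟩
  · exact memAt_of_forall_height_one_le n x fun p hp h1 hle => (h p hp h1 hle).memAt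
  · exact memAt_of_forall_height_one_le n x⁻¹ fun p hp h1 hle => (h p hp h1 hle).inv.memAt

/-- **STEP 3' in chart form, core.**  Only hypothesis: `κ := s η / η`, `η := f / w ^ m`, is a
unit at every height-one prime `p ≤ n` (vertical: automatic; horizontal `s`-stable, e.g. an
inertia-fixed point: automatic; horizontal non-stable: from `η` a unit at `p` and `s⁻¹ p`). -/
theorem step3_chart_core (n : Ideal B) [hn : n.IsPrime] (π : B) (hπn : π ∈ n)
    (tB : B ≃+* B) (s t : K ≃+* K)
    (ht : ∀ b, t (algebraMap B K b) = algebraMap B K (tB b))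
    (htπ : ∀ b, tB b - b ∈ Ideal.span {π})
    (f w : K) (hf : f ≠ 0) (hw : w ≠ 0) (m : ℕ)
    (hκ : ∀ p : Ideal B, p.IsPrime → p.height = 1 → p ≤ n →
      IsUnitAt p (s (f / w ^ m) / (f / w ^ m))) :
    ∃ a b : B, b ∉ n ∧ a - b ∈ Ideal.span {π} ∧
      t (s f / f) / (s f / f) * algebraMap B K b =
        (t (s w / w) / (s w / w)) ^ m * algebraMap B K a := by
  set η : K := f / w ^ m with hη
  have hη0 : η ≠ 0 := div_ne_zero hf (pow_ne_zero _ hw)
  have hκ0 : s η / η ≠ 0 := div_ne_zero ((map_ne_zero s).mpr hη0) hη0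
  have hκn : IsUnitAt n (s η / η) := isUnitAt_of_forall_height_one_le n _ hκ hκ0
  obtain ⟨a0, b0, ha0, hb0, hab0⟩ := hκn
  have htmem : ∀ b, b ∉ n → tB b ∉ n := by
    intro b hb h
    obtain ⟨c, hc⟩ := Ideal.mem_span_singleton.mp (htπ b)
    apply hb
    have : b = tB b - π * c := by rw [← hc]; ring
    rw [this]; exact Ideal.sub_mem _ h (Ideal.mul_mem_right _ _ hπn)
  have hb00 : algebraMap B K b0 ≠ 0 := by
    intro h
    have : b0 = 0 := (IsFractionRing.injective B K) (by rw [h, map_zero])
    exact hb0 (this ▸ n.zero_mem)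
  have ha00 : algebraMap B K a0 ≠ 0 := by
    intro h
    have : a0 = 0 := (IsFractionRing.injective B K) (by rw [h, map_zero])
    exact ha0 (this ▸ n.zero_mem)
  have htb00 : algebraMap B K (tB b0) ≠ 0 := by
    intro h
    have : tB b0 = 0 := (IsFractionRing.injective B K) (by rw [h, map_zero])
    exact htmem b0 hb0 (this ▸ n.zero_mem)
  refine ⟨tB a0 * b0, tB b0 * a0, fun h => (Ideal.IsPrime.mem_or_mem hn h).elim
    (htmem b0 hb0) ha0, ?_, ?_⟩
  · have : tB a0 * b0 - tB b0 * a0 = (tB a0 - a0) * b0 - (tB b0 - b0) * a0 := by ring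
    rw [this]
    exact Ideal.sub_mem _ (Ideal.mul_mem_right _ _ (htπ a0)) (Ideal.mul_mem_right _ _ (htπ b0))
  · have hκe : s η / η = algebraMap B K a0 / algebraMap B K b0 := by
      rw [← hab0]; field_simp
    rw [kummer_local_identity s t m hf hw, ← hη, hκe, map_div₀, ht, ht]
    simp only [map_mul]
    field_simp

/-- Horizontal non-stable primes: `κ` is a unit at `p` if `η` is a unit at `p` and at
`s⁻¹ p = p.comap sB`. -/
theorem isUnitAt_map_div_self_of_isUnitAt (sB : B ≃+* B) (s : K ≃+* K)
    (hs : ∀ b, s (algebraMap B K b) = algebraMap B K (sB b)) (p : Ideal B) [p.IsPrime] {η : K}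
    (h1 : IsUnitAt p η) (h2 : IsUnitAt (p.comap (sB : B →+* B)) η) :
    IsUnitAt p (s η / η) :=
  (IsUnitAt.map hs h2).div h1

/-- **STEP 3' in chart form.**  `u := t(h)/h`, `h := s(f)/f`, `ψ := t(φ)/φ`, `φ := s(w)/w`.
Conclusion: `u / ψ^m = a / b` with `b ∉ n`, `a ≡ b mod π` (so `a ∉ n` too). -/
theorem step3_chart (n : Ideal B) [hn : n.IsPrime] (π : B) (hπn : π ∈ n)
    (sB tB : B ≃+* B) (s t : K ≃+* K)
    (hs : ∀ b, s (algebraMap B K b) = algebraMap B K (sB b))
    (ht : ∀ b, t (algebraMap B K b) = algebraMap B K (tB b))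
    (hsπ : ∀ b, sB b - b ∈ Ideal.span {π})
    (htπ : ∀ b, tB b - b ∈ Ideal.span {π})
    (f w : K) (hf : f ≠ 0) (hw : w ≠ 0) (m : ℕ)
    (hhor : ∀ p : Ideal B, p.IsPrime → p.height = 1 → p ≤ n → π ∉ p → IsUnitAt p (f / w ^ m))
    (hvert : ∀ p : Ideal B, p.IsPrime → p.height = 1 → p ≤ n → π ∈ p →
      IsUnitAt p (s (f / w ^ m) / (f / w ^ m))) :
    ∃ a b : B, b ∉ n ∧ a - b ∈ Ideal.span {π} ∧
      t (s f / f) / (s f / f) * algebraMap B K b =
        (t (s w / w) / (s w / w)) ^ m * algebraMap B K a := by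
  set η : K := f / w ^ m with hη
  have hη0 : η ≠ 0 := div_ne_zero hf (pow_ne_zero _ hw)
  have hκ0 : s η / η ≠ 0 := div_ne_zero ((map_ne_zero s).mpr hη0) hη0
  -- `sB` preserves membership in `n` and `π`-divisibility
  have hmem : ∀ (q : Ideal B), π ∈ q → ∀ b, sB b ∈ q ↔ b ∈ q := by
    intro q hq b
    obtain ⟨c, hc⟩ := Ideal.mem_span_singleton.mp (hsπ b)
    constructor
    · intro h
      have : b = sB b - π * c := by rw [← hc]; ring
      rw [this]; exact Ideal.sub_mem _ h (Ideal.mul_mem_right _ _ hq)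
    · intro h
      have : sB b = b + π * c := by rw [← hc]; ring
      rw [this]; exact Ideal.add_mem _ h (Ideal.mul_mem_right _ _ hq)
  have hκ : IsUnitAt n (s η / η) := by
    refine isUnitAt_of_forall_height_one_le n _ (fun p hp h1 hle => ?_) hκ0
    by_cases hπp : π ∈ p
    · exact hvert p hp h1 hle hπp
    · have h1' : (p.comap (sB : B →+* B)).height = 1 := by
        have := RingEquiv.height_comap sB p
        rw [← h1, ← this]; rfl
      have hp' : (p.comap (sB : B →+* B)).IsPrime := Ideal.comap_isPrime _ _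
      have hle' : p.comap (sB : B →+* B) ≤ n := by
        intro b hb
        have hb' : sB b ∈ p := hb
        exact (hmem n hπn b).mp (hle hb')
      have hπ' : π ∉ p.comap (sB : B →+* B) := by
        intro h
        have h2 : sB π ∈ p := h
        have h4 : ∀ b, b - sB.symm b ∈ Ideal.span {π} := fun b => by
          have := hsπ (sB.symm b); rwa [RingEquiv.apply_symm_apply] at this
        obtain ⟨d, hd⟩ := Ideal.mem_span_singleton.mp (h4 π)
        have h6 : sB.symm π = π * (1 - d) := by rw [mul_sub, mul_one, ← hd]; ring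
        have h7 : π = sB π * sB (1 - d) := by
          have := congrArg sB h6
          rwa [RingEquiv.apply_symm_apply, map_mul] at this
        exact hπp (h7 ▸ Ideal.mul_mem_right _ _ h2)
      exact (IsUnitAt.map hs (hhor _ hp' h1' hle' hπ')).div (hhor p hp h1 hle hπp)
  obtain ⟨a0, b0, ha0, hb0, hab0⟩ := hκ
  -- `t` preserves non-membership in `n`
  have htmem : ∀ b, b ∉ n → tB b ∉ n := by
    intro b hb h
    obtain ⟨c, hc⟩ := Ideal.mem_span_singleton.mp (htπ b)
    apply hb
    have : b = tB b - π * c := by rw [← hc]; ring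
    rw [this]; exact Ideal.sub_mem _ h (Ideal.mul_mem_right _ _ hπn)
  have hb00 : algebraMap B K b0 ≠ 0 := by
    intro h
    have : b0 = 0 := (IsFractionRing.injective B K) (by rw [h, map_zero])
    exact hb0 (this ▸ n.zero_mem)
  have ha00 : algebraMap B K a0 ≠ 0 := by
    intro h
    have : a0 = 0 := (IsFractionRing.injective B K) (by rw [h, map_zero])
    exact ha0 (this ▸ n.zero_mem)
  have htb00 : algebraMap B K (tB b0) ≠ 0 := by
    intro h
    have : tB b0 = 0 := (IsFractionRing.injective B K) (by rw [h, map_zero])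
    exact htmem b0 hb0 (this ▸ n.zero_mem)
  refine ⟨tB a0 * b0, tB b0 * a0, fun h => (Ideal.IsPrime.mem_or_mem hn h).elim
    (htmem b0 hb0) ha0, ?_, ?_⟩
  · have : tB a0 * b0 - tB b0 * a0 = (tB a0 - a0) * b0 - (tB b0 - b0) * a0 := by ring
    rw [this]
    exact Ideal.sub_mem _ (Ideal.mul_mem_right _ _ (htπ a0)) (Ideal.mul_mem_right _ _ (htπ b0))
  · have hκe : s η / η = algebraMap B K a0 / algebraMap B K b0 := by
      rw [← hab0]; field_simp
    rw [kummer_local_identity s t m hf hw, ← hη, hκe, map_div₀, ht, ht]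
    simp only [map_mul]
    field_simp

end Fermat.Agent.S34.H56
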