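/-
helper56 — S34 dictionary (D2): invariance of the vertical valuations, "in the field" form.
`B` noetherian integrally closed domain, `p` a height-one prime containing `π` with
`p B_p = π B_p` (reduced special fibre), `s` an automorphism trivial mod `π`.
Then `s η / η` is a unit at `p` for every `η ≠ 0`  (`v_p ∘ s = v_p`).
-/
import Mathlib
import Fermat.Agent.CA.H42_KrullDvr
import Fermat.Agent.S34.H56_PrimeVal

set_option autoImplicit false
set_option linter.unusedSectionVars false
set_option linter.style.haveILetI false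

namespace Fermat.Agent.S34.H56

open Fermat.Agent.CA.H42 IsDiscreteValuationRing

variable {B K : Type*} [CommRing B] [IsDomain B] [Field K] [Algebra B K] [IsFractionRing B K]
  [IsNoetherianRing B] [IsIntegrallyClosed B]

/-- Elements of `B`: `s a / a` is a unit at `p`. -/
theorem isUnitAt_map_div_self_of_mem (p : Ideal B) [hp : p.IsPrime] (h1 : p.height = 1)
    (π : B) (hπp : π ∈ p) (hπ0 : π ≠ 0)
    (hred : ∀ b ∈ p, ∃ c, c ∉ p ∧ π ∣ c * b)
    (sB : B ≃+* B) (s : K ≃+* K)
    (hs : ∀ b, s (algebraMap B K b) = algebraMap B K (sB b))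
    (hsπ : ∀ b, sB b - b ∈ Ideal.span {π}) (a : B) (ha : a ≠ 0) :
    IsUnitAt p (s (algebraMap B K a) / algebraMap B K a) := by
  let Bp := Localization.AtPrime p
  haveI : IsDiscreteValuationRing Bp := isDiscreteValuationRing_of_height_eq_one p h1 Bp
  have hinj : Function.Injective (algebraMap B Bp) :=
    IsLocalization.injective Bp p.primeCompl_le_nonZeroDivisors
  -- `sB` preserves membership in `p`
  have hmem : ∀ b, sB b ∈ p ↔ b ∈ p := by
    intro b
    obtain ⟨c, hc⟩ := Ideal.mem_span_singleton.mp (hsπ b)
    constructor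
    · intro h
      have : b = sB b - π * c := by rw [← hc]; ring
      rw [this]; exact Ideal.sub_mem _ h (Ideal.mul_mem_right _ _ hπp)
    · intro h
      have : sB b = b + π * c := by rw [← hc]; ring
      rw [this]; exact Ideal.add_mem _ h (Ideal.mul_mem_right _ _ hπp)
  -- `sB π = π * unit`
  obtain ⟨d, hd⟩ := Ideal.mem_span_singleton.mp (hsπ π)
  have hsπ' : sB π = π * (1 + d) := by rw [mul_add, mul_one, ← hd]; ring
  have hd1 : (1 + d) ∉ p := by
    intro h
    have h4 : π - sB.symm π ∈ Ideal.span {π} := by
      have := hsπ (sB.symm π); rwa [RingEquiv.apply_symm_apply] at this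
    obtain ⟨d', hd'⟩ := Ideal.mem_span_singleton.mp h4
    have h6 : sB.symm π = π * (1 - d') := by rw [mul_sub, mul_one, ← hd']; ring
    have h7 : π = sB π * sB (1 - d') := by
      have := congrArg sB h6
      rwa [RingEquiv.apply_symm_apply, map_mul] at this
    rw [hsπ'] at h7
    have h8 : (1 + d) * sB (1 - d') = 1 := by
      have : π * ((1 + d) * sB (1 - d')) = π * 1 := by rw [mul_one, ← mul_assoc]; exact h7.symm
      exact mul_left_cancel₀ hπ0 this
    have : (1 : B) ∈ p := h8 ▸ Ideal.mul_mem_right _ _ h
    exact hp.ne_top ((Ideal.eq_top_iff_one _).mpr this)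
  have hne : ∀ b : B, b ≠ 0 → algebraMap B K b ≠ 0 := fun b hb h =>
    hb ((IsFractionRing.injective B K) (by rw [h, map_zero]))
  -- strong induction on the order of `a` at `p`
  suffices H : ∀ (k : ℕ) (a : B), a ≠ 0 → (addVal Bp (algebraMap B Bp a)).toNat = k →
      IsUnitAt p (s (algebraMap B K a) / algebraMap B K a) from H _ a ha rfl
  intro k
  induction k using Nat.strong_induction_on with
  | _ k ih =>
    intro a ha hk
    by_cases hap : a ∈ p
    · obtain ⟨c, hc, a', ha'⟩ := hred a hap
      have ha'0 : a' ≠ 0 := by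
        rintro rfl
        rw [mul_zero] at ha'
        rcases mul_eq_zero.mp ha' with h | h
        · exact hc (h ▸ p.zero_mem)
        · exact ha h
      have hc0 : c ≠ 0 := fun h => hc (h ▸ p.zero_mem)
      -- orders
      have e1 : addVal Bp (algebraMap B Bp c) = 0 := by
        rw [addVal_eq_zero_iff]
        exact (IsLocalization.AtPrime.isUnit_to_map_iff Bp p c).mpr hc
      have e2 : addVal Bp (algebraMap B Bp π) ≠ 0 := by
        rw [Ne, addVal_eq_zero_iff]
        intro h
        exact ((IsLocalization.AtPrime.isUnit_to_map_iff Bp p π).mp h) hπp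
      have e3 : addVal Bp (algebraMap B Bp a) =
          addVal Bp (algebraMap B Bp π) + addVal Bp (algebraMap B Bp a') := by
        have := congrArg (fun z => addVal Bp (algebraMap B Bp z)) ha'
        simp only [map_mul, addVal_mul, e1, zero_add] at this
        exact this
      have t1 : addVal Bp (algebraMap B Bp π) ≠ ⊤ := by
        rw [Ne, addVal_eq_top_iff]
        intro h
        exact hπ0 (hinj (by rw [h, map_zero]))
      have t2 : addVal Bp (algebraMap B Bp a') ≠ ⊤ := by
        rw [Ne, addVal_eq_top_iff]
        intro h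
        exact ha'0 (hinj (by rw [h, map_zero]))
      have e4 : (addVal Bp (algebraMap B Bp a')).toNat < k := by
        rw [← hk, e3, ENat.toNat_add t1 t2]
        have : (addVal Bp (algebraMap B Bp π)).toNat ≠ 0 := by
          rw [Ne, ENat.toNat_eq_zero]
          rintro (h | h)
          · exact e2 h
          · exact t1 h
        omega
      have hIH := ih _ e4 a' ha'0 rfl
      -- units: `c`, `sB c`, `1 + d`
      have hsc : sB c ∉ p := fun h => hc ((hmem c).mp h)
      have u1 : IsUnitAt p (algebraMap B K (sB c) / algebraMap B K c) :=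
        (isUnitAt_algebraMap hsc hp.ne_top).div (isUnitAt_algebraMap hc hp.ne_top)
      have u2 : IsUnitAt p (algebraMap B K (1 + d)) := isUnitAt_algebraMap hd1 hp.ne_top
      -- `s a / a = (1 + d) * (s a' / a') / (s c / c)`
      have key : s (algebraMap B K a) / algebraMap B K a =
          algebraMap B K (1 + d) * (s (algebraMap B K a') / algebraMap B K a') /
            (algebraMap B K (sB c) / algebraMap B K c) := by
        have h1' : algebraMap B K c * algebraMap B K a = algebraMap B K π * algebraMap B K a' := by
          rw [← map_mul, ← map_mul, ha']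
        have h2' : algebraMap B K (sB c) * s (algebraMap B K a) =
            algebraMap B K π * algebraMap B K (1 + d) * s (algebraMap B K a') := by
          rw [← hs c, ← map_mul, h1', map_mul, hs π, hsπ', map_mul]
        have n1 := hne c hc0
        have n2 := hne a ha
        have n3 := hne a' ha'0
        have n4 := hne π hπ0
        have n5 : algebraMap B K (sB c) ≠ 0 := hne _ (fun h => hsc (h ▸ p.zero_mem))
        have ea : algebraMap B K a = algebraMap B K π * algebraMap B K a' / algebraMap B K c := by
          rw [← h1']; field_simp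
        have esa : s (algebraMap B K a) =
            algebraMap B K π * algebraMap B K (1 + d) * s (algebraMap B K a') /
              algebraMap B K (sB c) := by
          rw [← h2']; field_simp
        rw [esa, ea]
        field_simp
      rw [key]
      exact (u2.mul hIH).div u1
    · have hsa : sB a ∉ p := fun h => hap ((hmem a).mp h)
      rw [hs]
      exact (isUnitAt_algebraMap hsa hp.ne_top).div (isUnitAt_algebraMap hap hp.ne_top)

/-- **(D2)** `v_p ∘ s = v_p` at a vertical height-one prime with reduced fibre. -/
theorem isUnitAt_map_div_self (p : Ideal B) [hp : p.IsPrime] (h1 : p.height = 1)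
    (π : B) (hπp : π ∈ p) (hπ0 : π ≠ 0)
    (hred : ∀ b ∈ p, ∃ c, c ∉ p ∧ π ∣ c * b)
    (sB : B ≃+* B) (s : K ≃+* K)
    (hs : ∀ b, s (algebraMap B K b) = algebraMap B K (sB b))
    (hsπ : ∀ b, sB b - b ∈ Ideal.span {π}) (η : K) (hη : η ≠ 0) :
    IsUnitAt p (s η / η) := by
  obtain ⟨a, b, hb, rfl⟩ := IsFractionRing.div_surjective (A := B) η
  have hb0 : b ≠ 0 := nonZeroDivisors.ne_zero hb
  have ha0 : a ≠ 0 := by
    rintro rfl
    rw [map_zero, zero_div] at hη
    exact hη rfl
  have h := (isUnitAt_map_div_self_of_mem p h1 π hπp hπ0 hred sB s hs hsπ a ha0).div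
    (isUnitAt_map_div_self_of_mem p h1 π hπp hπ0 hred sB s hs hsπ b hb0)
  have e : s (algebraMap B K a / algebraMap B K b) / (algebraMap B K a / algebraMap B K b) =
      s (algebraMap B K a) / algebraMap B K a / (s (algebraMap B K b) / algebraMap B K b) := by
    rw [map_div₀]
    have n1 : algebraMap B K a ≠ 0 := fun h =>
      ha0 ((IsFractionRing.injective B K) (by rw [h, map_zero]))
    have n2 : algebraMap B K b ≠ 0 := fun h =>
      hb0 ((IsFractionRing.injective B K) (by rw [h, map_zero]))
    have n3 : s (algebraMap B K a) ≠ 0 := (map_ne_zero s).mpr n1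
    have n4 : s (algebraMap B K b) ≠ 0 := (map_ne_zero s).mpr n2
    field_simp
  rw [e]; exact h

end Fermat.Agent.S34.H56

namespace Fermat.Agent.S34.H56

open Fermat.Agent.CA.H42 IsDiscreteValuationRing

variable {B K : Type*} [CommRing B] [IsDomain B] [Field K] [Algebra B K] [IsFractionRing B K]
  [IsNoetherianRing B] [IsIntegrallyClosed B]

/-- A height-one prime of a noetherian integrally closed domain is locally principal:
there is `t ∈ p` with `p B_p = t B_p`, in the field form. -/
theorem exists_uniformizer_at (p : Ideal B) [hp : p.IsPrime] (h1 : p.height = 1) :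
    ∃ t ∈ p, t ≠ 0 ∧ ∀ b ∈ p, ∃ c, c ∉ p ∧ t ∣ c * b := by
  let Bp := Localization.AtPrime p
  haveI : IsDiscreteValuationRing Bp := isDiscreteValuationRing_of_height_eq_one p h1 Bp
  have hinj : Function.Injective (algebraMap B Bp) :=
    IsLocalization.injective Bp p.primeCompl_le_nonZeroDivisors
  obtain ⟨ϖ, hϖ⟩ := IsDiscreteValuationRing.exists_irreducible Bp
  obtain ⟨⟨t, s⟩, hts⟩ := IsLocalization.surj p.primeCompl ϖ
  -- `ϖ * s = t`
  have hsu : IsUnit (algebraMap B Bp s) := IsLocalization.map_units Bp s
  have htp : t ∈ p := by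
    by_contra h
    have hu : IsUnit (algebraMap B Bp t) := (IsLocalization.AtPrime.isUnit_to_map_iff Bp p t).mpr h
    rw [← hts] at hu
    exact hϖ.not_isUnit (isUnit_of_mul_isUnit_left hu)
  have ht0 : t ≠ 0 := by
    rintro rfl
    rw [map_zero] at hts
    rcases mul_eq_zero.mp hts with h | h
    · exact hϖ.ne_zero h
    · exact hsu.ne_zero h
  refine ⟨t, htp, ht0, fun b hb => ?_⟩
  -- `algebraMap b ∈ maximalIdeal = (ϖ)`
  have hbm : algebraMap B Bp b ∈ IsLocalRing.maximalIdeal Bp :=
    (IsLocalization.AtPrime.to_map_mem_maximal_iff Bp p b).mpr hb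
  rw [hϖ.maximalIdeal_eq, Ideal.mem_span_singleton] at hbm
  obtain ⟨d, hd⟩ := hbm
  obtain ⟨⟨d0, s0⟩, hds⟩ := IsLocalization.surj p.primeCompl d
  -- `b * s * s0 = t * d0` in `Bp`
  have e : algebraMap B Bp (b * s * s0) = algebraMap B Bp (t * d0) := by
    rw [map_mul, map_mul, map_mul, hd, ← hts, ← hds]; ring
  have e' := hinj e
  refine ⟨s * s0, fun h => (Ideal.IsPrime.mem_or_mem hp h).elim s.2 s0.2, d0, ?_⟩
  rw [← e']; ring

/-- Elements of `B`: `s a / a` is a unit at an `s`-stable height-one prime. -/
theorem isUnitAt_map_div_self_of_stable_of_mem (p : Ideal B) [hp : p.IsPrime]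
    (h1 : p.height = 1) (sB : B ≃+* B) (s : K ≃+* K)
    (hs : ∀ b, s (algebraMap B K b) = algebraMap B K (sB b))
    (hstab : ∀ b, sB b ∈ p ↔ b ∈ p) (a : B) (ha : a ≠ 0) :
    IsUnitAt p (s (algebraMap B K a) / algebraMap B K a) := by
  let Bp := Localization.AtPrime p
  haveI : IsDiscreteValuationRing Bp := isDiscreteValuationRing_of_height_eq_one p h1 Bp
  have hinj : Function.Injective (algebraMap B Bp) :=
    IsLocalization.injective Bp p.primeCompl_le_nonZeroDivisors
  obtain ⟨t, htp, ht0, hred⟩ := exists_uniformizer_at p h1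
  have hstab' : ∀ b, sB.symm b ∈ p ↔ b ∈ p := fun b => by
    rw [← hstab (sB.symm b), RingEquiv.apply_symm_apply]
  have hne : ∀ b : B, b ≠ 0 → algebraMap B K b ≠ 0 := fun b hb h =>
    hb ((IsFractionRing.injective B K) (by rw [h, map_zero]))
  -- `sB t = t * (unit at p)`: `c1 * sB t = t * d1`, `c1, d1 ∉ p`
  obtain ⟨c1, hc1, d1, hd1⟩ := hred (sB t) ((hstab t).mpr htp)
  obtain ⟨c2, hc2, d2, hd2⟩ := hred (sB.symm t) ((hstab' t).mpr htp)
  have hd1p : d1 ∉ p := by
    intro h
    -- apply `sB` to `c2 * sB.symm t = t * d2`: `sB c2 * t = sB t * sB d2`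
    have e1 : sB c2 * t = sB t * sB d2 := by
      have := congrArg sB hd2
      rwa [map_mul, RingEquiv.apply_symm_apply, map_mul] at this
    -- `c1 * sB c2 * t = t * d1 * sB d2`
    have e2 : t * (c1 * sB c2) = t * (d1 * sB d2) := by
      calc t * (c1 * sB c2) = c1 * (sB c2 * t) := by ring
        _ = c1 * (sB t * sB d2) := by rw [e1]
        _ = (c1 * sB t) * sB d2 := by ring
        _ = (t * d1) * sB d2 := by rw [hd1]
        _ = t * (d1 * sB d2) := by ring
    have e3 : c1 * sB c2 = d1 * sB d2 := mul_left_cancel₀ ht0 e2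
    have : c1 * sB c2 ∈ p := e3 ▸ Ideal.mul_mem_right _ _ h
    exact (Ideal.IsPrime.mem_or_mem hp this).elim hc1 (fun h' => hc2 ((hstab c2).mp h'))
  have hc10 : c1 ≠ 0 := fun h => hc1 (h ▸ p.zero_mem)
  have hd10 : d1 ≠ 0 := fun h => hd1p (h ▸ p.zero_mem)
  have ust : IsUnitAt p (s (algebraMap B K t) / algebraMap B K t) := by
    have : s (algebraMap B K t) / algebraMap B K t = algebraMap B K d1 / algebraMap B K c1 := by
      rw [hs]
      have n1 := hne t ht0
      have n2 := hne c1 hc10
      have e : algebraMap B K c1 * algebraMap B K (sB t) = algebraMap B K t * algebraMap B K d1 := by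
        rw [← map_mul, ← map_mul, hd1]
      field_simp
      rw [mul_comm, e]
    rw [this]
    exact (isUnitAt_algebraMap hd1p hp.ne_top).div (isUnitAt_algebraMap hc1 hp.ne_top)
  suffices H : ∀ (k : ℕ) (a : B), a ≠ 0 → (addVal Bp (algebraMap B Bp a)).toNat = k →
      IsUnitAt p (s (algebraMap B K a) / algebraMap B K a) from H _ a ha rfl
  intro k
  induction k using Nat.strong_induction_on with
  | _ k ih =>
    intro a ha hk
    by_cases hap : a ∈ p
    · obtain ⟨c, hc, a', ha'⟩ := hred a hap
      have ha'0 : a' ≠ 0 := by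
        rintro rfl
        rw [mul_zero] at ha'
        rcases mul_eq_zero.mp ha' with h | h
        · exact hc (h ▸ p.zero_mem)
        · exact ha h
      have hc0 : c ≠ 0 := fun h => hc (h ▸ p.zero_mem)
      have e1 : addVal Bp (algebraMap B Bp c) = 0 := by
        rw [addVal_eq_zero_iff]
        exact (IsLocalization.AtPrime.isUnit_to_map_iff Bp p c).mpr hc
      have e2 : addVal Bp (algebraMap B Bp t) ≠ 0 := by
        rw [Ne, addVal_eq_zero_iff]
        intro h
        exact ((IsLocalization.AtPrime.isUnit_to_map_iff Bp p t).mp h) htp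
      have e3 : addVal Bp (algebraMap B Bp a) =
          addVal Bp (algebraMap B Bp t) + addVal Bp (algebraMap B Bp a') := by
        have := congrArg (fun z => addVal Bp (algebraMap B Bp z)) ha'
        simp only [map_mul, addVal_mul, e1, zero_add] at this
        exact this
      have t1 : addVal Bp (algebraMap B Bp t) ≠ ⊤ := by
        rw [Ne, addVal_eq_top_iff]
        intro h
        exact ht0 (hinj (by rw [h, map_zero]))
      have t2 : addVal Bp (algebraMap B Bp a') ≠ ⊤ := by
        rw [Ne, addVal_eq_top_iff]
        intro h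
        exact ha'0 (hinj (by rw [h, map_zero]))
      have e4 : (addVal Bp (algebraMap B Bp a')).toNat < k := by
        rw [← hk, e3, ENat.toNat_add t1 t2]
        have : (addVal Bp (algebraMap B Bp t)).toNat ≠ 0 := by
          rw [Ne, ENat.toNat_eq_zero]
          rintro (h | h)
          · exact e2 h
          · exact t1 h
        omega
      have hIH := ih _ e4 a' ha'0 rfl
      have hsc : sB c ∉ p := fun h => hc ((hstab c).mp h)
      have u1 : IsUnitAt p (algebraMap B K (sB c) / algebraMap B K c) :=
        (isUnitAt_algebraMap hsc hp.ne_top).div (isUnitAt_algebraMap hc hp.ne_top)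
      have key : s (algebraMap B K a) / algebraMap B K a =
          (s (algebraMap B K t) / algebraMap B K t) *
            (s (algebraMap B K a') / algebraMap B K a') /
            (algebraMap B K (sB c) / algebraMap B K c) := by
        have h1' : algebraMap B K c * algebraMap B K a = algebraMap B K t * algebraMap B K a' := by
          rw [← map_mul, ← map_mul, ha']
        have h2' : algebraMap B K (sB c) * s (algebraMap B K a) =
            s (algebraMap B K t) * s (algebraMap B K a') := by
          rw [← hs c, ← map_mul, h1', map_mul]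
        have n1 := hne c hc0
        have n2 := hne a ha
        have n3 := hne a' ha'0
        have n4 := hne t ht0
        have n5 : algebraMap B K (sB c) ≠ 0 := hne _ (fun h => hsc (h ▸ p.zero_mem))
        have n6 : s (algebraMap B K t) ≠ 0 := (map_ne_zero s).mpr n4
        have n7 : s (algebraMap B K a') ≠ 0 := (map_ne_zero s).mpr n3
        have ea : algebraMap B K a = algebraMap B K t * algebraMap B K a' / algebraMap B K c := by
          rw [← h1']; field_simp
        have esa : s (algebraMap B K a) =
            s (algebraMap B K t) * s (algebraMap B K a') / algebraMap B K (sB c) := by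
          rw [← h2']; field_simp
        rw [esa, ea]
        field_simp
      rw [key]
      exact (ust.mul hIH).div u1
    · have hsa : sB a ∉ p := fun h => hap ((hstab a).mp h)
      rw [hs]
      exact (isUnitAt_algebraMap hsa hp.ne_top).div (isUnitAt_algebraMap hap hp.ne_top)

/-- **(D2), general form**: `s φ / φ` is a unit at every `s`-stable height-one prime
(vertical primes; kernels of inertia-fixed points). -/
theorem isUnitAt_map_div_self_of_stable (p : Ideal B) [hp : p.IsPrime] (h1 : p.height = 1)
    (sB : B ≃+* B) (s : K ≃+* K)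
    (hs : ∀ b, s (algebraMap B K b) = algebraMap B K (sB b))
    (hstab : ∀ b, sB b ∈ p ↔ b ∈ p) (η : K) (hη : η ≠ 0) :
    IsUnitAt p (s η / η) := by
  obtain ⟨a, b, hb, rfl⟩ := IsFractionRing.div_surjective (A := B) η
  have hb0 : b ≠ 0 := nonZeroDivisors.ne_zero hb
  have ha0 : a ≠ 0 := by
    rintro rfl
    rw [map_zero, zero_div] at hη
    exact hη rfl
  have h := (isUnitAt_map_div_self_of_stable_of_mem p h1 sB s hs hstab a ha0).div
    (isUnitAt_map_div_self_of_stable_of_mem p h1 sB s hs hstab b hb0)
  have e : s (algebraMap B K a / algebraMap B K b) / (algebraMap B K a / algebraMap B K b) =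
      s (algebraMap B K a) / algebraMap B K a / (s (algebraMap B K b) / algebraMap B K b) := by
    rw [map_div₀]
    have n1 : algebraMap B K a ≠ 0 := fun h =>
      ha0 ((IsFractionRing.injective B K) (by rw [h, map_zero]))
    have n2 : algebraMap B K b ≠ 0 := fun h =>
      hb0 ((IsFractionRing.injective B K) (by rw [h, map_zero]))
    have n3 : s (algebraMap B K a) ≠ 0 := (map_ne_zero s).mpr n1
    have n4 : s (algebraMap B K b) ≠ 0 := (map_ne_zero s).mpr n2
    field_simp
  rw [e]; exact h

/-- A prime containing `π` is stable under an automorphism trivial mod `π`. -/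
theorem stable_of_mem {π : B} (sB : B ≃+* B) (hsπ : ∀ b, sB b - b ∈ Ideal.span {π})
    (p : Ideal B) (hπp : π ∈ p) (b : B) : sB b ∈ p ↔ b ∈ p := by
  obtain ⟨c, hc⟩ := Ideal.mem_span_singleton.mp (hsπ b)
  constructor
  · intro h
    have : b = sB b - π * c := by rw [← hc]; ring
    rw [this]; exact Ideal.sub_mem _ h (Ideal.mul_mem_right _ _ hπp)
  · intro h
    have : sB b = b + π * c := by rw [← hc]; ring
    rw [this]; exact Ideal.add_mem _ h (Ideal.mul_mem_right _ _ hπp)

end Fermat.Agent.S34.H56
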