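/-
helper56 — S34 rows L4/L5: the LOCAL DATUM at a closed point `n` of the special fibre,
abstract assembly of STEP 3' (H56_Step3Chart) + (D2) (H56_VertInv) + (D3) (H56_LocalEq).

`B` noetherian integrally closed domain (chart `B_i''` or its local ring at `n`), `K = Frac B`,
`σ` an inertia element (`sB`, `s`), trivial mod `π`.  `S` = the served points of `supp D` with
centre `n`, `q j` their primes, `ω j` their single-zero functions, `k j` their multiplicities.
Output, with `w := ∏ ω_j ^ k_j`, `h := σ f / f`, `u := σ h / h`, `φ := σ w / w`, `ψ := σ φ / φ`: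
* `u / ψ ^ m ∈ (B_n)ˣ`, `≡ 1 mod π`;
* `ψ ≡ 1`, `u ≡ 1 mod π` at every vertical height-one prime.
-/
import Mathlib
import Fermat.Agent.S34.H56_Step3Chart
import Fermat.Agent.S34.H56_VertInv
import Fermat.Agent.S34.H56_LocalEq

set_option autoImplicit false
set_option linter.unusedSectionVars false
set_option linter.style.haveILetI false

namespace Fermat.Agent.S34.H56

variable {B K : Type*} [CommRing B] [IsDomain B] [Field K] [Algebra B K] [IsFractionRing B K]
  [IsNoetherianRing B] [IsIntegrallyClosed B]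

/-- `σ`-stability of a prime. -/
def Stable (sB : B ≃+* B) (p : Ideal B) : Prop := ∀ b, sB b ∈ p ↔ b ∈ p

theorem Stable.comap_iff (sB : B ≃+* B) (p : Ideal B) :
    Stable sB (p.comap (sB : B →+* B)) ↔ Stable sB p := by
  constructor
  · intro h b
    have := h (sB.symm b)
    simp only [Ideal.mem_comap, RingEquiv.coe_toRingHom, RingEquiv.apply_symm_apply] at this
    exact this
  · intro h b
    simp only [Ideal.mem_comap, RingEquiv.coe_toRingHom]
    exact h (sB b)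

/-- `κ = σ η / η` is a unit at every height-one prime `p ≤ n`, `η = f / w ^ m`,
`w = ∏ ω_j ^ k_j`. -/
theorem isUnitAt_kappa (n : Ideal B) [n.IsPrime] (π : B) (hπn : π ∈ n)
    (sB : B ≃+* B) (s : K ≃+* K)
    (hs : ∀ b, s (algebraMap B K b) = algebraMap B K (sB b))
    (hsπ : ∀ b, sB b - b ∈ Ideal.span {π})
    {ι : Type*} (S : Finset ι) (q : ι → Ideal B)
    (hqinj : ∀ i ∈ S, ∀ j ∈ S, q i = q j → i = j)
    (ω : ι → K) (k : ι → ℤ) (f : K) (hf0 : f ≠ 0) (hω0 : ∀ j ∈ S, ω j ≠ 0) (m : ℕ)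
    (hsingle : ∀ j ∈ S, ∀ p : Ideal B, p.IsPrime → p.height = 1 → p ≤ n → π ∉ p →
      p ≠ q j → IsUnitAt p (ω j))
    (hf : ∀ j ∈ S, IsUnitAt (q j) (f / (ω j ^ k j) ^ m))
    (hf' : ∀ p : Ideal B, p.IsPrime → p.height = 1 → p ≤ n → π ∉ p → ¬ Stable sB p →
      (∀ j ∈ S, p ≠ q j) → IsUnitAt p f)
    (p : Ideal B) (hp : p.IsPrime) (h1 : p.height = 1) (hpn : p ≤ n) :
    IsUnitAt p (s (f / (∏ j ∈ S, ω j ^ k j) ^ m) / (f / (∏ j ∈ S, ω j ^ k j) ^ m)) := by
  have hw0 : (∏ j ∈ S, ω j ^ k j) ≠ 0 :=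
    Finset.prod_ne_zero_iff.mpr fun j hj => zpow_ne_zero _ (hω0 j hj)
  have hη0 : f / (∏ j ∈ S, ω j ^ k j) ^ m ≠ 0 := div_ne_zero hf0 (pow_ne_zero _ hw0)
  by_cases hst : Stable sB p
  · exact isUnitAt_map_div_self_of_stable p h1 sB s hs hst _ hη0
  · -- `p` is horizontal
    have hπp : π ∉ p := fun h => hst (stable_of_mem sB hsπ p h)
    -- the conjugate prime
    have hp' : (p.comap (sB : B →+* B)).IsPrime := Ideal.comap_isPrime _ _
    have h1' : (p.comap (sB : B →+* B)).height = 1 := by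
      have := RingEquiv.height_comap sB p
      rw [← h1, ← this]; rfl
    have hpn' : p.comap (sB : B →+* B) ≤ n := by
      intro b hb
      have hb' : sB b ∈ p := hb
      exact (stable_of_mem sB hsπ n hπn b).mp (hpn hb')
    have hst' : ¬ Stable sB (p.comap (sB : B →+* B)) := fun h =>
      hst ((Stable.comap_iff sB p).mp h)
    have hπp' : π ∉ p.comap (sB : B →+* B) := fun h => hst' (stable_of_mem sB hsπ _ h)
    have key : ∀ (p : Ideal B) (hp : p.IsPrime), p.height = 1 → p ≤ n → π ∉ p → ¬ Stable sB p →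
        IsUnitAt p (f / (∏ j ∈ S, ω j ^ k j) ^ m) := by
      intro p hp h1 hpn hπp hst
      exact isUnitAt_div_localEq S q hqinj ω k f m p
        (fun j hj hne => hsingle j hj p hp h1 hpn hπp hne)
        (fun j hj he => he ▸ hf j hj)
        (fun hne => hf' p hp h1 hpn hπp hst hne)
    exact isUnitAt_map_div_self_of_isUnitAt sB s hs p (key p hp h1 hpn hπp hst)
      (key _ hp' h1' hpn' hπp' hst')

/-- **LOCAL DATUM at `n`** (abstract). -/
theorem local_datum (n : Ideal B) [hn : n.IsPrime] (π : B) (hπn : π ∈ n)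
    (sB : B ≃+* B) (s : K ≃+* K)
    (hs : ∀ b, s (algebraMap B K b) = algebraMap B K (sB b))
    (hsπ : ∀ b, sB b - b ∈ Ideal.span {π})
    {ι : Type*} (S : Finset ι) (q : ι → Ideal B)
    (hqinj : ∀ i ∈ S, ∀ j ∈ S, q i = q j → i = j)
    (ω : ι → K) (k : ι → ℤ) (f : K) (hf0 : f ≠ 0) (hω0 : ∀ j ∈ S, ω j ≠ 0) (m : ℕ)
    (hsingle : ∀ j ∈ S, ∀ p : Ideal B, p.IsPrime → p.height = 1 → p ≤ n → π ∉ p →
      p ≠ q j → IsUnitAt p (ω j))
    (hf : ∀ j ∈ S, IsUnitAt (q j) (f / (ω j ^ k j) ^ m))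
    (hf' : ∀ p : Ideal B, p.IsPrime → p.height = 1 → p ≤ n → π ∉ p → ¬ Stable sB p →
      (∀ j ∈ S, p ≠ q j) → IsUnitAt p f) :
    ∃ ψ : K, ψ ≠ 0 ∧
      (∃ a b : B, b ∉ n ∧ a - b ∈ Ideal.span {π} ∧
        s (s f / f) / (s f / f) * algebraMap B K b = ψ ^ m * algebraMap B K a) ∧
      (∀ P : Ideal B, P.IsPrime → P.height = 1 → π ∈ P →
        ∃ a b : B, b ∉ P ∧ (ψ - 1) * algebraMap B K b = algebraMap B K (π * a)) ∧
      (∀ P : Ideal B, P.IsPrime → P.height = 1 → π ∈ P →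
        ∃ a b : B, b ∉ P ∧
          (s (s f / f) / (s f / f) - 1) * algebraMap B K b = algebraMap B K (π * a)) := by
  set w : K := ∏ j ∈ S, ω j ^ k j with hw
  have hw0 : w ≠ 0 :=
    Finset.prod_ne_zero_iff.mpr fun j hj => zpow_ne_zero _ (hω0 j hj)
  have hφ0 : s w / w ≠ 0 := div_ne_zero ((map_ne_zero s).mpr hw0) hw0
  have hh0 : s f / f ≠ 0 := div_ne_zero ((map_ne_zero s).mpr hf0) hf0
  refine ⟨s (s w / w) / (s w / w), div_ne_zero ((map_ne_zero s).mpr hφ0) hφ0, ?_, ?_, ?_⟩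
  · exact step3_chart_core n π hπn sB s s hs hsπ f w hf0 hw0 m
      (fun p hp h1 hpn => isUnitAt_kappa n π hπn sB s hs hsπ S q hqinj ω k f hf0 hω0 m
        hsingle hf hf' p hp h1 hpn)
  · intro P hP h1 hπP
    have hφ : IsUnitAt P (s w / w) :=
      isUnitAt_map_div_self_of_stable P h1 sB s hs (stable_of_mem sB hsπ P hπP) w hw0
    exact map_div_self_sub_one_at π sB s hs hsπ P hπP hφ
  · intro P hP h1 hπP
    have hφ : IsUnitAt P (s f / f) :=
      isUnitAt_map_div_self_of_stable P h1 sB s hs (stable_of_mem sB hsπ P hπP) f hf0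
    exact map_div_self_sub_one_at π sB s hs hsπ P hπP hφ

end Fermat.Agent.S34.H56
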