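/-
helper56 — S34: the LOCAL DATUM INSTANCE in the Place vocabulary (helper3's dictionary
`H3_PlaceChart` + helper11's `UFnE` hypotheses).

`R` base ring (`A''`), `k = R[1/π]` (`E`), `B` a chart (noetherian integrally closed domain,
integral over `R[J]`), `F = Frac B` (`F_E`), `n` a prime of `B` containing `π`.
Input: `f : F` with `m ∣ ord_w f` for every place, finitely many zeros/poles, and for every
zero/pole `w` of `f` with centre `≤ n` whose centre is not `σ`-stable a coordinate function
`ω` with `ord_w ω = 1` and no other zero on the horizontal primes `≤ n`.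
Output: the conclusion of `local_datum` at `n`.
-/
import Mathlib
import Fermat.Agent.S34.H3_PlaceChart
import Fermat.Agent.S34.H56_LocalDatum
import Fermat.Agent.S34.H56_PointBridge

set_option autoImplicit false
set_option linter.unusedSectionVars false
set_option linter.style.haveILetI false

namespace Fermat.Agent.S34.H56

open Polynomial Fermat.Agent.S34.H3 Fermat.Agent.CA.H42 AlgebraicCurve

variable {R k B F : Type*} [CommRing R] [IsDomain R] [Field k] [Algebra R k]
  [CommRing B] [IsDomain B] [Field F] [Algebra B F] [IsFractionRing B F]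
  [Algebra R B] [Algebra k F] [Algebra R F] [IsScalarTower R B F] [IsScalarTower R k F]
  [IsNoetherianRing B] [IsIntegrallyClosed B]

/-- The valuation ring of a place centred on the chart is the local ring of its centre. -/
theorem mem_place_iff_memAt_centre (π : R) (hπ : π ≠ 0) [IsLocalization.Away π k] (J : B)
    (hint : ∀ b : B, (aeval (R := R) J : R[X] →ₐ[R] B).toRingHom.IsIntegralElem b)
    (v : Place k F) (hB : ∀ b : B, algebraMap B F b ∈ v.toValuationSubring) (x : F) :
    x ∈ v.toValuationSubring ↔ MemAt (centre v.toValuationSubring hB) x := by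
  haveI := centre_isPrime v.toValuationSubring hB
  obtain ⟨h1, hv⟩ := eq_placeOfHorizontalPrime_centre π hπ J hint v hB
  have h2 := congrArg Place.toValuationSubring hv
  exact (SetLike.ext_iff.mp h2 x).trans Iff.rfl

/-- **LOCAL DATUM INSTANCE (Place vocabulary).** -/
theorem local_datum_of_places (π : R) (hπ : π ≠ 0) [IsLocalization.Away π k] (J : B)
    (hint : ∀ b : B, (aeval (R := R) J : R[X] →ₐ[R] B).toRingHom.IsIntegralElem b)
    (n : Ideal B) [hn : n.IsPrime] (hπn : algebraMap R B π ∈ n)
    (sB : B ≃+* B) (s : F ≃+* F)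
    (hs : ∀ b, s (algebraMap B F b) = algebraMap B F (sB b))
    (hsπ : ∀ b, sB b - b ∈ Ideal.span {algebraMap R B π})
    (f : F) (hf0 : f ≠ 0) (m : ℕ)
    (hdiv : ∀ w : Place k F, (m : ℤ) ∣ w.ord f)
    (hfin : {w : Place k F | w.ord f ≠ 0}.Finite)
    (hcoord : ∀ w : Place k F, w.ord f ≠ 0 →
      ∀ hB : (∀ b : B, algebraMap B F b ∈ w.toValuationSubring),
        centre w.toValuationSubring hB ≤ n → ¬ Stable sB (centre w.toValuationSubring hB) →
        ∃ ω : F, ω ≠ 0 ∧ w.ord ω = 1 ∧
          ∀ p : Ideal B, p.IsPrime → p.height = 1 → p ≤ n → algebraMap R B π ∉ p →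
            p ≠ centre w.toValuationSubring hB → IsUnitAt p ω) :
    ∃ ψ : F, ψ ≠ 0 ∧
      (∃ a b : B, b ∉ n ∧ a - b ∈ Ideal.span {algebraMap R B π} ∧
        s (s f / f) / (s f / f) * algebraMap B F b = ψ ^ m * algebraMap B F a) ∧
      (∀ P : Ideal B, P.IsPrime → P.height = 1 → algebraMap R B π ∈ P →
        ∃ a b : B, b ∉ P ∧ (ψ - 1) * algebraMap B F b = algebraMap B F (algebraMap R B π * a)) ∧
      (∀ P : Ideal B, P.IsPrime → P.height = 1 → algebraMap R B π ∈ P →
        ∃ a b : B, b ∉ P ∧
          (s (s f / f) / (s f / f) - 1) * algebraMap B F b =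
            algebraMap B F (algebraMap R B π * a)) := by
  classical
  -- the relevant places
  let Rel : Place k F → Prop := fun w =>
    ∃ hB : (∀ b : B, algebraMap B F b ∈ w.toValuationSubring),
      centre w.toValuationSubring hB ≤ n ∧ ¬ Stable sB (centre w.toValuationSubring hB)
  let S : Finset (Place k F) := hfin.toFinset.filter Rel
  have hS : ∀ w, w ∈ S ↔ w.ord f ≠ 0 ∧ Rel w := fun w => by
    simp only [S, Finset.mem_filter, Set.Finite.mem_toFinset, Set.mem_ofPred_eq]
  let q : Place k F → Ideal B := fun w =>
    if hB : (∀ b : B, algebraMap B F b ∈ w.toValuationSubring) then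
      centre w.toValuationSubring hB else ⊥
  have hq : ∀ w (hB : ∀ b : B, algebraMap B F b ∈ w.toValuationSubring),
      q w = centre w.toValuationSubring hB := fun w hB => dif_pos hB
  -- choice of the coordinate functions
  have hcoord' : ∀ w : Place k F, ∃ ω : F, w ∈ S → ω ≠ 0 ∧ w.ord ω = 1 ∧
      ∀ p : Ideal B, p.IsPrime → p.height = 1 → p ≤ n → algebraMap R B π ∉ p →
        p ≠ q w → IsUnitAt p ω := by
    intro w
    by_cases hw : w ∈ S
    · obtain ⟨hord, hB, hcn, hns⟩ := (hS w).mp hw
      obtain ⟨ω, h0, h1, h2⟩ := hcoord w hord hB hcn hns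
      exact ⟨ω, fun _ => ⟨h0, h1, by rw [hq w hB]; exact h2⟩⟩
    · exact ⟨1, fun h => absurd h hw⟩
  choose ω hω using hcoord'
  let kk : Place k F → ℤ := fun w => w.ord f / m
  by_cases hm : m = 0
  · -- `m = 0` forces `ord_w f = 0` everywhere; `S = ∅`
    subst hm
    have hS0 : S = ∅ := by
      rw [Finset.eq_empty_iff_forall_notMem]
      intro w hw
      have := hdiv w
      simp only [Nat.cast_zero, zero_dvd_iff] at this
      exact ((hS w).mp hw).1 this
    refine local_datum n (algebraMap R B π) hπn sB s hs hsπ (∅ : Finset (Place k F)) q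
      (by simp) ω kk f hf0 (by simp) 0 (by simp) (by simp) ?_
    intro p hp h1 hpn hπp hst _
    haveI := hp
    by_contra hcon
    have hord : (placeOfHorizontalPrime (k := k) π p h1 hπp).ord f ≠ 0 := fun h0 =>
      hcon ((ord_placeOfHorizontalPrime_eq_zero_iff π p h1 hπp hf0).mp h0)
    have := hdiv (placeOfHorizontalPrime (k := k) π p h1 hπp)
    simp only [Nat.cast_zero, zero_dvd_iff] at this
    exact hord this
  · refine local_datum n (algebraMap R B π) hπn sB s hs hsπ S q ?_ ω kk f hf0
      (fun w hw => (hω w hw).1) m (fun w hw p hp h1 hpn hπp hne => (hω w hw).2.2 p hp h1 hpn hπp hne)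
      ?_ ?_
    · -- injectivity of the centre
      intro w hw w' hw' hqq
      obtain ⟨-, hB, -, -⟩ := (hS w).mp hw
      obtain ⟨-, hB', -, -⟩ := (hS w').mp hw'
      rw [hq w hB, hq w' hB'] at hqq
      apply Place.ext
      ext x
      rw [mem_place_iff_memAt_centre π hπ J hint w hB, mem_place_iff_memAt_centre π hπ J hint w' hB',
        hqq]
    · -- orders at the points of `S`
      intro w hw
      obtain ⟨-, hB, -, -⟩ := (hS w).mp hw
      haveI := centre_isPrime w.toValuationSubring hB
      obtain ⟨h1, hv⟩ := eq_placeOfHorizontalPrime_centre π hπ J hint w hB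
      have hwV : w.toValuationSubring =
          valuationSubringAt (K := F) (centre w.toValuationSubring hB) h1 :=
        congrArg Place.toValuationSubring hv
      obtain ⟨c, hc⟩ := hdiv w
      have hk : w.ord f = m * kk w := by
        show w.ord f = m * (w.ord f / m)
        rw [hc, Int.mul_ediv_cancel_left _ (by exact_mod_cast hm)]
      have := isUnitAt_div_pow_of_ord w (centre w.toValuationSubring hB) h1 hwV (hω w hw).1 hf0
        (hω w hw).2.1 (kk w) m hk
      rw [hq w hB]
      exact this
    · -- the other horizontal primes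
      intro p hp h1 hpn hπp hst hne
      haveI := hp
      by_contra hcon
      have hord : (placeOfHorizontalPrime (k := k) π p h1 hπp).ord f ≠ 0 := fun h0 =>
        hcon ((ord_placeOfHorizontalPrime_eq_zero_iff π p h1 hπp hf0).mp h0)
      have hB : ∀ b : B, algebraMap B F b ∈
          (placeOfHorizontalPrime (k := k) π p h1 hπp).toValuationSubring :=
        fun b => algebraMap_mem_valuationSubringAt h1 b
      have hc : centre (placeOfHorizontalPrime (k := k) π p h1 hπp).toValuationSubring hB = p :=
        centre_placeOfPrime p h1 _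
      have hmem : placeOfHorizontalPrime (k := k) π p h1 hπp ∈ S := by
        rw [hS]
        exact ⟨hord, hB, by rw [hc]; exact hpn, by rw [hc]; exact hst⟩
      exact hne _ hmem (by rw [hq _ hB, hc])

end Fermat.Agent.S34.H56
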