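/-
helper56 — S34: the provider of `hcoord` of `H56_LocalDatumPlaces.local_datum_of_places` from
the L1 output (helper83 `TwoComponents.local_output`, over `A₁`) + the base change `A₁ → R = A''`
(helper79/helper70: `B = B₁[R]`, `n = (n₁, π)`) + helper47's `served_or_stable` + my
`exists_coord_of_served`.

`A₁` the unramified base (`A0 A q`), `R` the DVR `A''` (uniformiser `π`, `π ∣ q`), `k = Frac R`,
`B₁` the `A₁`-chart, `B` the `R`-chart (`= B₁[R]`), `F = Frac B`, `n` a closed point of `B` over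
`π`, `n₁ = n ∩ B₁`, `O₁ = (B₁)_{n₁}`, `O = B_n`.

* `exists_coord_of_smooth` : smooth point (`𝔪_{O₁} = (q, τ)`): every rational place centred in
  the residue disc of `n` has a single-zero coordinate function.
* `exists_coord_or_stable_of_node` : node (`𝔪_{O₁} = (q, x, y)`, `x y ∈ q O₁`, `NodeDec`): the
  centre is `σ`-stable or the place has a single-zero coordinate function.
* `exists_coord_of_L1` : both, in the `hcoord` shape.
* `local_datum_of_L1` : `local_datum_of_places` with `hcoord` discharged.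
-/
import Mathlib
import Fermat.Agent.CA.H47_ServedOrStable
import Fermat.Agent.S34.H3_PointOfPlace
import Fermat.Agent.S34.H56_CoordOfServed
import Fermat.Agent.S34.H56_LocalDatumPlaces

set_option autoImplicit false
set_option linter.unusedSectionVars false
set_option linter.style.haveILetI false

namespace Fermat.Agent.S34.H56

open Polynomial IsLocalRing Fermat.Agent.S34.H3 Fermat.Agent.CA.H42 AlgebraicCurve
open Fermat.Agent.CA

variable {A₁ : Type*} [CommRing A₁]
variable {R k B F : Type*} [CommRing R] [IsDomain R] [Field k] [Algebra R k]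
  [CommRing B] [IsDomain B] [Field F] [Algebra B F] [IsFractionRing B F]
  [Algebra R B] [Algebra k F] [Algebra R F] [IsScalarTower R B F] [IsScalarTower R k F]
  [IsNoetherianRing B] [IsIntegrallyClosed B]
variable [Algebra A₁ R]
variable {B₁ : Type*} [CommRing B₁] [Algebra A₁ B₁] [Algebra B₁ B]
variable (n₁ : Ideal B₁) [hn₁p : n₁.IsPrime] (O₁ : Type*) [CommRing O₁] [Algebra B₁ O₁]
  [IsLocalization.AtPrime O₁ n₁] [Algebra A₁ O₁] [IsScalarTower A₁ B₁ O₁] [IsLocalRing O₁]
variable (n : Ideal B) [hn : n.IsMaximal] (O : Type*) [CommRing O] [Algebra B O]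
  [IsLocalization.AtPrime O n] [Algebra R O] [IsScalarTower R B O]
  [Algebra O F] [IsScalarTower B O F] [IsNoetherianRing O] [IsLocalRing O]

section Compare

/-- The comparison map `O₁ = (B₁)_{n₁} → O = B_n`. -/
noncomputable def locMap (hn₁ : n.comap (algebraMap B₁ B) = n₁) : O₁ →+* O :=
  IsLocalization.map (M := n₁.primeCompl) (T := n.primeCompl) O (algebraMap B₁ B)
    (by
      intro b hb
      show algebraMap B₁ B b ∈ n.primeCompl
      intro h
      apply hb
      rw [← hn₁]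
      exact h)

theorem locMap_algebraMap (hn₁ : n.comap (algebraMap B₁ B) = n₁) (b : B₁) :
    locMap n₁ O₁ n O hn₁ (algebraMap B₁ O₁ b) = algebraMap B O (algebraMap B₁ B b) :=
  IsLocalization.map_eq _ b

theorem locMap_algebraMap_base (hn₁ : n.comap (algebraMap B₁ B) = n₁)
    (hcomp : ∀ a : A₁, algebraMap B₁ B (algebraMap A₁ B₁ a) = algebraMap R B (algebraMap A₁ R a))
    (a : A₁) :
    locMap n₁ O₁ n O hn₁ (algebraMap A₁ O₁ a) = algebraMap R O (algebraMap A₁ R a) := by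
  rw [IsScalarTower.algebraMap_apply A₁ B₁ O₁, locMap_algebraMap, hcomp,
    ← IsScalarTower.algebraMap_apply]

/-- `𝔪_{O₁} O ⊆ 𝔪_O`. -/
theorem map_locMap_maximalIdeal_le (hn₁ : n.comap (algebraMap B₁ B) = n₁) :
    (maximalIdeal O₁).map (locMap n₁ O₁ n O hn₁) ≤ maximalIdeal O := by
  rw [← IsLocalization.AtPrime.map_eq_maximalIdeal n₁ O₁, Ideal.map_map, Ideal.map_le_iff_le_comap]
  intro b hb
  show locMap n₁ O₁ n O hn₁ (algebraMap B₁ O₁ b) ∈ maximalIdeal O
  rw [locMap_algebraMap, IsLocalization.AtPrime.to_map_mem_maximal_iff O n]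
  have : b ∈ n.comap (algebraMap B₁ B) := by rw [hn₁]; exact hb
  exact this

/-- `𝔪_O = 𝔪_{O₁} O + π O` when `n = (n₁, π)`. -/
theorem maximalIdeal_le_map_locMap_sup (hn₁ : n.comap (algebraMap B₁ B) = n₁) (π : R)
    (hnn : n ≤ Ideal.map (algebraMap B₁ B) n₁ ⊔ Ideal.span {algebraMap R B π}) :
    maximalIdeal O ≤ (maximalIdeal O₁).map (locMap n₁ O₁ n O hn₁) ⊔
      Ideal.span {algebraMap R O π} := by
  rw [← IsLocalization.AtPrime.map_eq_maximalIdeal n O]
  refine (Ideal.map_mono hnn).trans ?_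
  rw [Ideal.map_sup, Ideal.map_span, Set.image_singleton, ← IsScalarTower.algebraMap_apply]
  refine sup_le_sup_right ?_ _
  rw [← IsLocalization.AtPrime.map_eq_maximalIdeal n₁ O₁, Ideal.map_map, Ideal.map_map]
  apply le_of_eq
  congr 1
  ext b
  simp only [RingHom.comp_apply]
  rw [locMap_algebraMap]

end Compare

section Level

/-- The chart point `ev`, extended to `O = B_n` and restricted to `O₁ = (B₁)_{n₁}`. -/
noncomputable def pointExt₁ (hn₁ : n.comap (algebraMap B₁ B) = n₁)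
    (hcomp : ∀ a : A₁, algebraMap B₁ B (algebraMap A₁ B₁ a) = algebraMap R B (algebraMap A₁ R a))
    (ev : B →ₐ[R] R) (hu : ∀ b, b ∉ n → IsUnit (ev b)) : O₁ →ₐ[A₁] R where
  toRingHom := (pointExt n O ev hu : O →+* R).comp (locMap n₁ O₁ n O hn₁)
  commutes' a := by
    show pointExt n O ev hu (locMap n₁ O₁ n O hn₁ (algebraMap A₁ O₁ a)) = _
    rw [locMap_algebraMap_base n₁ O₁ n O hn₁ hcomp, AlgHom.commutes]
    rfl

theorem pointExt₁_apply (hn₁ : n.comap (algebraMap B₁ B) = n₁)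
    (hcomp : ∀ a : A₁, algebraMap B₁ B (algebraMap A₁ B₁ a) = algebraMap R B (algebraMap A₁ R a))
    (ev : B →ₐ[R] R) (hu : ∀ b, b ∉ n → IsUnit (ev b)) (z : O₁) :
    pointExt₁ n₁ O₁ n O hn₁ hcomp ev hu z = pointExt n O ev hu (locMap n₁ O₁ n O hn₁ z) := rfl

theorem pointExt₁_algebraMap (hn₁ : n.comap (algebraMap B₁ B) = n₁)
    (hcomp : ∀ a : A₁, algebraMap B₁ B (algebraMap A₁ B₁ a) = algebraMap R B (algebraMap A₁ R a))
    (ev : B →ₐ[R] R) (hu : ∀ b, b ∉ n → IsUnit (ev b)) (b : B₁) :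
    pointExt₁ n₁ O₁ n O hn₁ hcomp ev hu (algebraMap B₁ O₁ b) = ev (algebraMap B₁ B b) := by
  rw [pointExt₁_apply, locMap_algebraMap, pointExt_algebraMap]

/-- **Served level ⇒ coordinate function.** Level data `x_N y_N = c + q^(N+1) G` in `O₁` with
`𝔪_{O₁} = (q, x_N, y_N)` and `q^(N+1) ∤ x_N(P)`. -/
theorem exists_coord_of_level (π : R) (hπ : π ≠ 0) (hπu : ¬ IsUnit π)
    (hRloc : ∀ r : R, ¬ π ∣ r → IsUnit r) (hdvr : ∀ r : R, r ≠ 0 → ∃ e : ℕ, r ∣ π ^ e)
    (htot : ∀ a b : R, a ∣ b ∨ b ∣ a)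
    [IsLocalization.Away π k] (J : B)
    (hint : ∀ b : B, (aeval (R := R) J : R[X] →ₐ[R] B).toRingHom.IsIntegralElem b)
    (q : A₁) (hq0 : algebraMap A₁ R q ≠ 0) (hπq : π ∣ algebraMap A₁ R q)
    (hπn : algebraMap R B π ∈ n)
    (hcomp : ∀ a : A₁, algebraMap B₁ B (algebraMap A₁ B₁ a) = algebraMap R B (algebraMap A₁ R a))
    (hn₁ : n.comap (algebraMap B₁ B) = n₁)
    (hnn : n ≤ Ideal.map (algebraMap B₁ B) n₁ ⊔ Ideal.span {algebraMap R B π})
    (w : Place k F) (hB : ∀ b : B, algebraMap B F b ∈ w.toValuationSubring)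
    (hcn : centre w.toValuationSubring hB ≤ n)
    (ev : B →ₐ[R] R) (hev0 : ∀ b, ev b = 0 ↔ b ∈ centre w.toValuationSubring hB)
    (hevn : ∀ b ∈ n, π ∣ ev b)
    (xN yN GN : O₁) (c : A₁) (N : ℕ)
    (hxy : xN * yN = algebraMap A₁ O₁ c + algebraMap A₁ O₁ q ^ (N + 1) * GN)
    (hxm : xN ∈ maximalIdeal O₁) (hym : yN ∈ maximalIdeal O₁)
    (hmax₁ : maximalIdeal O₁ ≤ Ideal.span {algebraMap A₁ O₁ q, xN, yN})
    (hserved : ¬ algebraMap A₁ R q ^ (N + 1) ∣
      pointExt n O ev (isUnit_ev_of_notMem π hπu hRloc n ev hevn) (locMap n₁ O₁ n O hn₁ xN)) :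
    ∃ ω : F, ω ≠ 0 ∧ w.ord ω = 1 ∧
      ∀ p : Ideal B, p.IsPrime → p.height = 1 → p ≤ n → algebraMap R B π ∉ p →
        p ≠ centre w.toValuationSubring hB → IsUnitAt p ω := by
  set φ := locMap n₁ O₁ n O hn₁ with hφ
  set hu := isUnit_ev_of_notMem π hπu hRloc n ev hevn with hhu
  set β := pointExt n O ev hu (φ xN) with hβdef
  -- `q^(N+1) = β δ`, `δ` a non-unit
  obtain ⟨δ, hδu, hδ⟩ : ∃ δ : R, ¬ IsUnit δ ∧ algebraMap A₁ R q ^ (N + 1) = β * δ := by
    rcases htot (algebraMap A₁ R q ^ (N + 1)) β with h | ⟨δ, hδ⟩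
    · exact absurd h hserved
    · refine ⟨δ, fun hu' => hserved ?_, hδ⟩
      obtain ⟨u, rfl⟩ := hu'
      exact ⟨↑u⁻¹, by rw [hδ, mul_assoc, Units.mul_inv, mul_one]⟩
  have hπδ : π ∣ δ := by
    by_contra h
    exact hδu (hRloc δ h)
  have hqN0 : algebraMap A₁ R q ^ (N + 1) ≠ 0 := pow_ne_zero _ hq0
  have hβe : ∃ e : ℕ, β ∣ π ^ e := by
    obtain ⟨e, he⟩ := hdvr _ hqN0
    exact ⟨e, (Dvd.intro δ hδ.symm).trans he⟩
  have hπO : algebraMap R O π ∈ maximalIdeal O := by
    rw [IsScalarTower.algebraMap_apply R B O, IsLocalization.AtPrime.to_map_mem_maximal_iff O n]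
    exact hπn
  have hφq : φ (algebraMap A₁ O₁ q) = algebraMap R O (algebraMap A₁ R q) :=
    locMap_algebraMap_base n₁ O₁ n O hn₁ hcomp q
  have hmapm := map_locMap_maximalIdeal_le n₁ O₁ n O hn₁
  have hxm' : φ xN ∈ maximalIdeal O := hmapm (Ideal.mem_map_of_mem _ hxm)
  have hym' : φ yN ∈ maximalIdeal O := hmapm (Ideal.mem_map_of_mem _ hym)
  have hmax : maximalIdeal O ≤ Ideal.span {φ xN, φ yN, algebraMap R O π} := by
    refine (maximalIdeal_le_map_locMap_sup n₁ O₁ n O hn₁ π hnn).trans ?_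
    refine sup_le ?_ ?_
    · refine (Ideal.map_mono hmax₁).trans ?_
      rw [Ideal.map_span, Ideal.span_le]
      rintro _ ⟨z, hz, rfl⟩
      simp only [Set.mem_insert_iff, Set.mem_singleton_iff] at hz
      rcases hz with rfl | rfl | rfl
      · rw [hφq]
        obtain ⟨d, hd⟩ := hπq
        rw [hd, map_mul]
        exact Ideal.mul_mem_right _ _ (Ideal.subset_span (by simp))
      · exact Ideal.subset_span (Or.inl rfl)
      · exact Ideal.subset_span (Or.inr (Or.inl rfl))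
    · rw [Ideal.span_le]
      rintro _ rfl
      exact Ideal.subset_span (Or.inr (Or.inr rfl))
  have hxy' : φ xN * φ yN = algebraMap R O (algebraMap A₁ R c) +
      algebraMap R O (pointExt n O ev hu (φ xN) * δ) * φ GN := by
    rw [← map_mul, hxy, map_add, map_mul, map_pow, hφq, ← hβdef, ← hδ, map_pow,
      locMap_algebraMap_base n₁ O₁ n O hn₁ hcomp]
  exact exists_coord_of_served n O π hπ hπu hRloc J hint w hB hcn ev hev0 hevn (φ xN) (φ yN)
    (φ GN) (algebraMap A₁ R c) δ hxy' hπδ hπO hmax hxm' hym' hβe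

end Level

section Node

variable [IsLocalRing R] [IsNoetherianRing R]

include O in
/-- **Node: served or stable** (with an auxiliary model `O` of `B_n`). -/
theorem exists_coord_or_stable_of_node_aux (π : R) (hπ : π ≠ 0) (hπu : ¬ IsUnit π)
    (hRloc : ∀ r : R, ¬ π ∣ r → IsUnit r) (hdvr : ∀ r : R, r ≠ 0 → ∃ e : ℕ, r ∣ π ^ e)
    (htot : ∀ a b : R, a ∣ b ∨ b ∣ a)
    [IsLocalization.Away π k] (J : B)
    (hint : ∀ b : B, (aeval (R := R) J : R[X] →ₐ[R] B).toRingHom.IsIntegralElem b)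
    (q : A₁) (hq0 : algebraMap A₁ R q ≠ 0) (hπq : π ∣ algebraMap A₁ R q)
    (hπn : algebraMap R B π ∈ n)
    (hcomp : ∀ a : A₁, algebraMap B₁ B (algebraMap A₁ B₁ a) = algebraMap R B (algebraMap A₁ R a))
    (hn₁ : n.comap (algebraMap B₁ B) = n₁)
    (hnn : n ≤ Ideal.map (algebraMap B₁ B) n₁ ⊔ Ideal.span {algebraMap R B π})
    (hgenR : Algebra.adjoin B₁ (Set.range (algebraMap R B)) = ⊤)
    (σ : R ≃+* R) (hσ : ∀ a : A₁, σ (algebraMap A₁ R a) = algebraMap A₁ R a)
    (sB : B ≃+* B) (hsB : ∀ b : B₁, sB (algebraMap B₁ B b) = algebraMap B₁ B b)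
    (hsA : ∀ a : R, sB (algebraMap R B a) = algebraMap R B (σ a))
    (x y : O₁) (hxy : ∃ G, x * y = algebraMap A₁ O₁ q * G)
    (hxm : x ∈ maximalIdeal O₁) (hym : y ∈ maximalIdeal O₁)
    (hmax₁ : maximalIdeal O₁ ≤ Ideal.span {algebraMap A₁ O₁ q, x, y})
    (hdec : H38.NodeDec (algebraMap A₁ O₁).range (algebraMap A₁ O₁ q) x y)
    (w : Place k F) (hB : ∀ b : B, algebraMap B F b ∈ w.toValuationSubring)
    (hcn : centre w.toValuationSubring hB ≤ n)
    (ev : B →ₐ[R] R) (hev0 : ∀ b, ev b = 0 ↔ b ∈ centre w.toValuationSubring hB)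
    (hevn : ∀ b ∈ n, π ∣ ev b) :
    Stable sB (centre w.toValuationSubring hB) ∨
    ∃ ω : F, ω ≠ 0 ∧ w.ord ω = 1 ∧
      ∀ p : Ideal B, p.IsPrime → p.height = 1 → p ≤ n → algebraMap R B π ∉ p →
        p ≠ centre w.toValuationSubring hB → IsUnitAt p ω := by
  have hu := isUnit_ev_of_notMem π hπu hRloc n ev hevn
  have hgen := H47.genBy_of_nodeDec hdec
  obtain ⟨xs, ys, Gs, cs, hT⟩ := H47.exists_morseTower hgen hxy
  have hqm : algebraMap A₁ R q ∈ maximalIdeal R := by
    rw [mem_maximalIdeal, mem_nonunits_iff]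
    intro h
    exact hπu (isUnit_of_dvd_unit hπq h)
  have hqO₁ : algebraMap A₁ O₁ q ∈ maximalIdeal O₁ := by
    rw [IsScalarTower.algebraMap_apply A₁ B₁ O₁,
      IsLocalization.AtPrime.to_map_mem_maximal_iff O₁ n₁, ← hn₁]
    show algebraMap B₁ B (algebraMap A₁ B₁ q) ∈ n
    rw [hcomp]
    obtain ⟨d, hd⟩ := hπq
    rw [hd, map_mul]
    exact Ideal.mul_mem_right _ _ hπn
  -- the level data
  have hlev : ∀ N, xs N ∈ maximalIdeal O₁ ∧ ys N ∈ maximalIdeal O₁ ∧
      maximalIdeal O₁ ≤ Ideal.span {algebraMap A₁ O₁ q, xs N, ys N} := by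
    intro N
    obtain ⟨⟨⟨u, hu'⟩, ⟨v, hv⟩, -⟩, -, -⟩ := hT N
    refine ⟨?_, ?_, hmax₁.trans ?_⟩
    · rw [hu']
      exact Ideal.add_mem _ hxm (Ideal.mul_mem_right _ _ hqO₁)
    · rw [hv]
      exact Ideal.add_mem _ hym (Ideal.mul_mem_right _ _ hqO₁)
    · rw [Ideal.span_le]
      intro z hz
      simp only [Set.mem_insert_iff, Set.mem_singleton_iff] at hz
      have hq' : algebraMap A₁ O₁ q ∈
          Ideal.span {algebraMap A₁ O₁ q, xs N, ys N} := Ideal.subset_span (Or.inl rfl)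
      rcases hz with rfl | rfl | rfl
      · exact hq'
      · have : z = xs N - algebraMap A₁ O₁ q * u := by rw [hu']; ring
        rw [this]
        exact Ideal.sub_mem _ (Ideal.subset_span (Or.inr (Or.inl rfl)))
          (Ideal.mul_mem_right _ _ hq')
      · have : z = ys N - algebraMap A₁ O₁ q * v := by rw [hv]; ring
        rw [this]
        exact Ideal.sub_mem _ (Ideal.subset_span (Or.inr (Or.inr rfl)))
          (Ideal.mul_mem_right _ _ hq')
  rcases H47.served_or_stable hT hgen σ hσ hqm sB hsB hsA hgenR ev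
      (pointExt₁ n₁ O₁ n O hn₁ hcomp ev hu)
      (pointExt₁_algebraMap n₁ O₁ n O hn₁ hcomp ev hu) with ⟨N, hN⟩ | ⟨-, hst⟩
  · right
    obtain ⟨hxN, hyN, hmaxN⟩ := hlev N
    obtain ⟨-, -, hmul⟩ := (hT N).1
    rcases hN with hN | hN
    · exact exists_coord_of_level n₁ O₁ n O π hπ hπu hRloc hdvr htot J hint q hq0 hπq hπn hcomp
        hn₁ hnn w hB hcn ev hev0 hevn (xs N) (ys N) (Gs N) (cs N) N hmul hxN hyN hmaxN hN
    · refine exists_coord_of_level n₁ O₁ n O π hπ hπu hRloc hdvr htot J hint q hq0 hπq hπn hcomp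
        hn₁ hnn w hB hcn ev hev0 hevn (ys N) (xs N) (Gs N) (cs N) N (by rw [mul_comm]; exact hmul)
        hyN hxN ?_ hN
      refine hmaxN.trans (le_of_eq ?_)
      congr 1
      ext z
      simp only [Set.mem_insert_iff, Set.mem_singleton_iff]
      tauto
  · left
    intro b
    have := hst b
    rw [RingHom.mem_ker, RingHom.mem_ker] at this
    rw [← hev0, ← hev0]
    exact this

end Node

section Smooth

include O in
/-- **Smooth point** (with an auxiliary model `O` of `B_n`). -/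
theorem exists_coord_of_smooth_aux (π : R) (hπ : π ≠ 0) (hπu : ¬ IsUnit π)
    (hRloc : ∀ r : R, ¬ π ∣ r → IsUnit r) (hdvr : ∀ r : R, r ≠ 0 → ∃ e : ℕ, r ∣ π ^ e)
    [IsLocalization.Away π k] (J : B)
    (hint : ∀ b : B, (aeval (R := R) J : R[X] →ₐ[R] B).toRingHom.IsIntegralElem b)
    (q : A₁) (hπq : π ∣ algebraMap A₁ R q)
    (hπn : algebraMap R B π ∈ n)
    (hcomp : ∀ a : A₁, algebraMap B₁ B (algebraMap A₁ B₁ a) = algebraMap R B (algebraMap A₁ R a))
    (hn₁ : n.comap (algebraMap B₁ B) = n₁)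
    (hnn : n ≤ Ideal.map (algebraMap B₁ B) n₁ ⊔ Ideal.span {algebraMap R B π})
    (τ : O₁) (hτm : τ ∈ maximalIdeal O₁)
    (hmax₁ : maximalIdeal O₁ ≤ Ideal.span {algebraMap A₁ O₁ q, τ})
    (w : Place k F) (hB : ∀ b : B, algebraMap B F b ∈ w.toValuationSubring)
    (hcn : centre w.toValuationSubring hB ≤ n)
    (ev : B →ₐ[R] R) (hev0 : ∀ b, ev b = 0 ↔ b ∈ centre w.toValuationSubring hB)
    (hevn : ∀ b ∈ n, π ∣ ev b) :
    ∃ ω : F, ω ≠ 0 ∧ w.ord ω = 1 ∧
      ∀ p : Ideal B, p.IsPrime → p.height = 1 → p ≤ n → algebraMap R B π ∉ p →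
        p ≠ centre w.toValuationSubring hB → IsUnitAt p ω := by
  set φ := locMap n₁ O₁ n O hn₁ with hφ
  set hu := isUnit_ev_of_notMem π hπu hRloc n ev hevn with hhu
  have hπO : algebraMap R O π ∈ maximalIdeal O := by
    rw [IsScalarTower.algebraMap_apply R B O, IsLocalization.AtPrime.to_map_mem_maximal_iff O n]
    exact hπn
  have hφq : φ (algebraMap A₁ O₁ q) = algebraMap R O (algebraMap A₁ R q) :=
    locMap_algebraMap_base n₁ O₁ n O hn₁ hcomp q
  have hmapm := map_locMap_maximalIdeal_le n₁ O₁ n O hn₁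
  have hτm' : φ τ ∈ maximalIdeal O := hmapm (Ideal.mem_map_of_mem _ hτm)
  have hmax0 : maximalIdeal O ≤ Ideal.span {φ τ, algebraMap R O π} := by
    refine (maximalIdeal_le_map_locMap_sup n₁ O₁ n O hn₁ π hnn).trans ?_
    refine sup_le ?_ ?_
    · refine (Ideal.map_mono hmax₁).trans ?_
      rw [Ideal.map_span, Ideal.span_le]
      rintro _ ⟨z, hz, rfl⟩
      simp only [Set.mem_insert_iff, Set.mem_singleton_iff] at hz
      rcases hz with rfl | rfl
      · rw [hφq]
        obtain ⟨d, hd⟩ := hπq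
        rw [hd, map_mul]
        exact Ideal.mul_mem_right _ _ (Ideal.subset_span (Or.inr rfl))
      · exact Ideal.subset_span (Or.inl rfl)
    · rw [Ideal.span_le]
      rintro _ rfl
      exact Ideal.subset_span (Or.inr rfl)
  -- the coordinate: `t := φ τ` or `φ τ + π`
  obtain ⟨t, htm, hmax, hβe⟩ : ∃ t : O, t ∈ maximalIdeal O ∧
      maximalIdeal O ≤ Ideal.span {t, 0, algebraMap R O π} ∧
      ∃ e : ℕ, pointExt n O ev hu t ∣ π ^ e := by
    by_cases h0 : pointExt n O ev hu (φ τ) = 0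
    · refine ⟨φ τ + algebraMap R O π, Ideal.add_mem _ hτm' hπO, hmax0.trans ?_, 1, ?_⟩
      · rw [Ideal.span_le]
        intro z hz
        simp only [Set.mem_insert_iff, Set.mem_singleton_iff] at hz
        have hπ' : algebraMap R O π ∈
            Ideal.span {φ τ + algebraMap R O π, 0, algebraMap R O π} :=
          Ideal.subset_span (Or.inr (Or.inr rfl))
        rcases hz with rfl | rfl
        · have h2 := Ideal.sub_mem _
            (Ideal.subset_span (show φ τ + algebraMap R O π ∈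
              ({φ τ + algebraMap R O π, 0, algebraMap R O π} : Set O) from Or.inl rfl)) hπ'
          rwa [add_sub_cancel_right] at h2
        · exact hπ'
      · rw [map_add, h0, zero_add, AlgHom.commutes, pow_one]
        exact dvd_refl _
    · refine ⟨φ τ, hτm', hmax0.trans ?_, hdvr _ h0⟩
      rw [Ideal.span_le]
      intro z hz
      simp only [Set.mem_insert_iff, Set.mem_singleton_iff] at hz
      rcases hz with rfl | rfl
      · exact Ideal.subset_span (Or.inl rfl)
      · exact Ideal.subset_span (Or.inr (Or.inr rfl))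
  exact exists_coord_of_served n O π hπ hπu hRloc J hint w hB hcn ev hev0 hevn t 0 0 0 0
    (by simp) (dvd_zero _) hπO hmax htm (Ideal.zero_mem _) hβe

end Smooth

section Dvr

variable [IsDiscreteValuationRing R] [IsFractionRing R k]

omit [Algebra A₁ R] in
/-- For a DVR with uniformiser `π`, `Frac R = R[1/π]`. -/
theorem isLocalization_away_of_dvr {π : R} (hπ : Irreducible π) : IsLocalization.Away π k := by
  have hle : Submonoid.powers π ≤ nonZeroDivisors R :=
    powers_le_nonZeroDivisors_of_noZeroDivisors hπ.ne_zero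
  have h1 : IsLocalization (nonZeroDivisors R) (Localization.Away π) := by
    refine IsLocalization.isLocalization_of_is_exists_mul_mem (Localization.Away π)
      (Submonoid.powers π) (nonZeroDivisors R) hle (fun x => ?_)
    have hx0 : (x : R) ≠ 0 := nonZeroDivisors.ne_zero x.2
    obtain ⟨e, u, hu⟩ := IsDiscreteValuationRing.eq_unit_mul_pow_irreducible hx0 hπ
    refine ⟨((u⁻¹ : Rˣ) : R), e, ?_⟩
    rw [hu, ← mul_assoc, Units.inv_mul, one_mul]
  let e : Localization.Away π ≃ₐ[R] k :=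
    IsLocalization.algEquiv (nonZeroDivisors R) (Localization.Away π) k
  exact IsLocalization.isLocalization_of_algEquiv (Submonoid.powers π) e

omit [Algebra A₁ R] in
theorem isUnit_of_not_dvd_of_dvr {π : R} (hπ : Irreducible π) (r : R) (h : ¬ π ∣ r) : IsUnit r := by
  by_contra hu
  have : r ∈ maximalIdeal R := (mem_maximalIdeal r).mpr hu
  rw [hπ.maximalIdeal_eq, Ideal.mem_span_singleton] at this
  exact h this

omit [Algebra A₁ R] in
theorem exists_dvd_pow_of_dvr {π : R} (hπ : Irreducible π) (r : R) (hr : r ≠ 0) :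
    ∃ e : ℕ, r ∣ π ^ e := by
  obtain ⟨e, he⟩ := IsDiscreteValuationRing.associated_pow_irreducible hr hπ
  exact ⟨e, he.dvd⟩

omit [Algebra A₁ R] in
theorem hval_of_dvr {π : R} (hπ : Irreducible π) (c : k) :
    (∃ r : R, algebraMap R k r = c) ∨ ∃ r : R, c⁻¹ = algebraMap R k (π * r) := by
  by_cases hc : ∃ r : R, algebraMap R k r = c
  · exact Or.inl hc
  · right
    rcases ValuationRing.isInteger_or_isInteger R c with ⟨r, hr⟩ | ⟨r, hr⟩
    · exact absurd ⟨r, hr⟩ hc
    · have hr' : algebraMap R k r = c⁻¹ := hr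
      have hnu : ¬ IsUnit r := by
        rintro ⟨u, rfl⟩
        apply hc
        refine ⟨((u⁻¹ : Rˣ) : R), ?_⟩
        have h1 : algebraMap R k ((u⁻¹ : Rˣ) : R) * algebraMap R k (u : R) = 1 := by
          rw [← map_mul, Units.inv_mul, map_one]
        rw [hr'] at h1
        have hc0 : c ≠ 0 := by
          rintro rfl
          exact hc ⟨0, map_zero _⟩
        field_simp at h1
        exact h1
      have : r ∈ maximalIdeal R := (mem_maximalIdeal r).mpr hnu
      rw [hπ.maximalIdeal_eq, Ideal.mem_span_singleton] at this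
      obtain ⟨d, rfl⟩ := this
      exact ⟨d, hr'.symm⟩

end Dvr

section Final

variable [IsDiscreteValuationRing R] [IsFractionRing R k]

/-- **`hcoord` from the L1 output.** `R` a DVR with uniformiser `π`, `k = Frac R`; the L1 output
at `n₁ = n ∩ B₁` (smooth or node with `NodeDec`), base change data `B = B₁[R]`, `n = (n₁, π)`,
`sB = id` on `B₁` and `= σ` on `R`.  Every place of degree one centred in the residue disc of `n`
whose centre is not `sB`-stable has a single-zero coordinate function. -/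
theorem exists_coord_of_L1 (π : R) (hπ : Irreducible π) (J : B)
    (hint : ∀ b : B, (aeval (R := R) J : R[X] →ₐ[R] B).toRingHom.IsIntegralElem b)
    (q : A₁) (hq0 : algebraMap A₁ R q ≠ 0) (hπq : π ∣ algebraMap A₁ R q)
    (hπn : algebraMap R B π ∈ n)
    (hcomp : ∀ a : A₁, algebraMap B₁ B (algebraMap A₁ B₁ a) = algebraMap R B (algebraMap A₁ R a))
    (hn₁ : n.comap (algebraMap B₁ B) = n₁)
    (hnn : n ≤ Ideal.map (algebraMap B₁ B) n₁ ⊔ Ideal.span {algebraMap R B π})
    (hgenR : Algebra.adjoin B₁ (Set.range (algebraMap R B)) = ⊤)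
    (σ : R ≃+* R) (hσ : ∀ a : A₁, σ (algebraMap A₁ R a) = algebraMap A₁ R a)
    (sB : B ≃+* B) (hsB : ∀ b : B₁, sB (algebraMap B₁ B b) = algebraMap B₁ B b)
    (hsA : ∀ a : R, sB (algebraMap R B a) = algebraMap R B (σ a))
    (hL1 : (∃ τ : O₁, τ ∈ maximalIdeal O₁ ∧
        maximalIdeal O₁ ≤ Ideal.span {algebraMap A₁ O₁ q, τ}) ∨
      (∃ x y : O₁, (∃ G, x * y = algebraMap A₁ O₁ q * G) ∧ x ∈ maximalIdeal O₁ ∧
        y ∈ maximalIdeal O₁ ∧ maximalIdeal O₁ ≤ Ideal.span {algebraMap A₁ O₁ q, x, y} ∧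
        H38.NodeDec (algebraMap A₁ O₁).range (algebraMap A₁ O₁ q) x y))
    (w : Place k F) (hdeg : w.deg = 1)
    (hB : ∀ b : B, algebraMap B F b ∈ w.toValuationSubring)
    (hcn : centre w.toValuationSubring hB ≤ n)
    (hnst : ¬ Stable sB (centre w.toValuationSubring hB)) :
    ∃ ω : F, ω ≠ 0 ∧ w.ord ω = 1 ∧
      ∀ p : Ideal B, p.IsPrime → p.height = 1 → p ≤ n → algebraMap R B π ∉ p →
        p ≠ centre w.toValuationSubring hB → IsUnitAt p ω := by
  haveI := isLocalization_away_of_dvr (k := k) hπ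
  have hπ0 := hπ.ne_zero
  have hπu := hπ.not_isUnit
  have hRloc := isUnit_of_not_dvd_of_dvr hπ
  have hdvr := exists_dvd_pow_of_dvr hπ
  -- the evaluation at the place
  obtain ⟨ev, hev0, hevn, -⟩ := exists_eval_of_rational π (IsFractionRing.injective R k)
    (hval_of_dvr hπ) (fun c hc => IsIntegrallyClosed.algebraMap_eq_of_integral hc) J hint w hB
    (hrat_of_deg_eq_one w hdeg) n hn.ne_top hcn hπn
  -- a model of `B_n`
  letI : Algebra (Localization.AtPrime n) F :=
    (IsLocalization.lift (M := n.primeCompl) (S := Localization.AtPrime n) (g := algebraMap B F)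
      (fun y => IsUnit.mk0 _ (by
        have : (y : B) ≠ 0 := fun h => y.2 (h ▸ n.zero_mem)
        exact (map_ne_zero_iff _ (IsFractionRing.injective B F)).mpr this))).toAlgebra
  haveI : IsScalarTower B (Localization.AtPrime n) F :=
    IsScalarTower.of_algebraMap_eq fun b => (IsLocalization.lift_eq _ b).symm
  haveI : IsNoetherianRing (Localization.AtPrime n) :=
    IsLocalization.isNoetherianRing n.primeCompl _ inferInstance
  rcases hL1 with ⟨τ, hτm, hmax₁⟩ | ⟨x, y, hxy, hxm, hym, hmax₁, hdec⟩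
  · exact exists_coord_of_smooth_aux n₁ O₁ n (Localization.AtPrime n) π hπ0 hπu hRloc hdvr J hint
      q hπq hπn hcomp hn₁ hnn τ hτm hmax₁ w hB hcn ev hev0 hevn
  · rcases exists_coord_or_stable_of_node_aux n₁ O₁ n (Localization.AtPrime n) π hπ0 hπu hRloc
      hdvr ValuationRing.dvd_total J hint q hq0 hπq hπn hcomp hn₁ hnn hgenR σ hσ sB hsB hsA x y
      hxy hxm hym hmax₁ hdec w hB hcn ev hev0 hevn with h | h
    · exact absurd h hnst
    · exact h

/-- **LOCAL DATUM at a closed point from the L1 output** (`local_datum_of_places` with `hcoord`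
discharged by `exists_coord_of_L1`). -/
theorem local_datum_of_L1 (π : R) (hπ : Irreducible π) (J : B)
    (hint : ∀ b : B, (aeval (R := R) J : R[X] →ₐ[R] B).toRingHom.IsIntegralElem b)
    (q : A₁) (hq0 : algebraMap A₁ R q ≠ 0) (hπq : π ∣ algebraMap A₁ R q)
    (hπn : algebraMap R B π ∈ n)
    (hcomp : ∀ a : A₁, algebraMap B₁ B (algebraMap A₁ B₁ a) = algebraMap R B (algebraMap A₁ R a))
    (hn₁ : n.comap (algebraMap B₁ B) = n₁)
    (hnn : n ≤ Ideal.map (algebraMap B₁ B) n₁ ⊔ Ideal.span {algebraMap R B π})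
    (hgenR : Algebra.adjoin B₁ (Set.range (algebraMap R B)) = ⊤)
    (σ : R ≃+* R) (hσ : ∀ a : A₁, σ (algebraMap A₁ R a) = algebraMap A₁ R a)
    (sB : B ≃+* B) (hsB : ∀ b : B₁, sB (algebraMap B₁ B b) = algebraMap B₁ B b)
    (hsA : ∀ a : R, sB (algebraMap R B a) = algebraMap R B (σ a))
    (hL1 : (∃ τ : O₁, τ ∈ maximalIdeal O₁ ∧
        maximalIdeal O₁ ≤ Ideal.span {algebraMap A₁ O₁ q, τ}) ∨
      (∃ x y : O₁, (∃ G, x * y = algebraMap A₁ O₁ q * G) ∧ x ∈ maximalIdeal O₁ ∧
        y ∈ maximalIdeal O₁ ∧ maximalIdeal O₁ ≤ Ideal.span {algebraMap A₁ O₁ q, x, y} ∧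
        H38.NodeDec (algebraMap A₁ O₁).range (algebraMap A₁ O₁ q) x y))
    (s : F ≃+* F) (hs : ∀ b, s (algebraMap B F b) = algebraMap B F (sB b))
    (hsπ : ∀ b, sB b - b ∈ Ideal.span {algebraMap R B π})
    (f : F) (hf0 : f ≠ 0) (m : ℕ)
    (hdiv : ∀ w : Place k F, (m : ℤ) ∣ w.ord f)
    (hdeg : ∀ w : Place k F, w.ord f ≠ 0 → w.deg = 1)
    (hfin : {w : Place k F | w.ord f ≠ 0}.Finite) :
    ∃ ψ : F, ψ ≠ 0 ∧
      (∃ a b : B, b ∉ n ∧ a - b ∈ Ideal.span {algebraMap R B π} ∧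
        s (s f / f) / (s f / f) * algebraMap B F b = ψ ^ m * algebraMap B F a) ∧
      (∀ P : Ideal B, P.IsPrime → P.height = 1 → algebraMap R B π ∈ P →
        ∃ a b : B, b ∉ P ∧ (ψ - 1) * algebraMap B F b = algebraMap B F (algebraMap R B π * a)) ∧
      (∀ P : Ideal B, P.IsPrime → P.height = 1 → algebraMap R B π ∈ P →
        ∃ a b : B, b ∉ P ∧
          (s (s f / f) / (s f / f) - 1) * algebraMap B F b =
            algebraMap B F (algebraMap R B π * a)) := by
  haveI := isLocalization_away_of_dvr (k := k) hπ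
  exact local_datum_of_places π hπ.ne_zero J hint n hπn sB s hs hsπ f hf0 m hdiv hfin
    fun w hw hB hcn hnst =>
      exists_coord_of_L1 n₁ O₁ n π hπ J hint q hq0 hπq hπn hcomp hn₁ hnn hgenR σ hσ sB hsB hsA
        hL1 w (hdeg w hw) hB hcn hnst

end Final

end Fermat.Agent.S34.H56
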