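/-
S34 project, [DESC] (helper34; hedge twin of helper11's `S34/H11_Desc`): **descent of `(U-fn)` from
`Qbar` to the finite Galois levels `E / K1`.**

`K1 := H45.unrCyclo q`, `E : IntermediateField K1 Qbar`, `F_E := modularFunctionFieldFullC ↥E N`,
`s_E := H45.inertiaActFullC hq hA E N σ hσ` (coefficientwise inertia action), `H99.toBar ↥E N :
F_E →+* FN N`.

* `UFnE` : the level-`E` statement (hypotheses: `m ∣ ord_w f` for all places `w` of `F_E / E`, every
  place in the support of `div f` has degree one, the support is finite; conclusion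
  `s (s f / f) / (s f / f) = c · h ^ m` with `c : E`, `h : F_E`).
* `uFn_of_uFnE` : if `UFnE` holds for every finite Galois `E / K1`, then helper47's
  `S34.H47.UFn (arithmeticGalois (modularFunctionFieldFull N) σ) m` holds.
-/
import Mathlib
import Fermat.Agent.S34.H47_UOfUFn
import Fermat.Agent.S18.H45_CutOverField
import Fermat.Agent.S18.H95_Abhyankar
import Fermat.Agent.S29.H46_OpenStab
import Fermat.Agent.S24.H97_Degree

set_option autoImplicit false
set_option linter.unusedSectionVars false
set_option linter.style.haveILetI false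
set_option synthInstance.maxHeartbeats 400000

namespace Fermat.Agent.S34.H34

open AlgebraicCurve ModularCurve IntermediateField HahnSeries
open Fermat.Agent.S18 Fermat.Agent.S24

noncomputable section

local notation "Qbar" => AlgebraicClosure ℚ

variable (N : ℕ) [NeZero N]

/-! ### every element of `FN N` is defined over a finitely generated extension of `K1` -/

/-- Every `f : FN N` lies in the image of `F_E` as soon as `E` contains a suitable finite set of
constants. -/
theorem exists_finset_forall_mem_range_toBar (q : ℕ) (f : FN N) :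
    ∃ S : Finset Qbar, ∀ E : IntermediateField (H45.unrCyclo q) Qbar, (∀ a ∈ S, a ∈ E) →
      f ∈ Set.range (H99.toBar ↥E N) := by
  classical
  have htop := H99.adjoin_range_toBar_eq_top (H45.unrCyclo q) N
  have hf : f ∈ IntermediateField.adjoin Qbar (Set.range (H99.toBar (H45.unrCyclo q) N)) := by
    rw [htop]; exact IntermediateField.mem_top
  induction hf using IntermediateField.adjoin_induction with
  | mem x hx =>
    obtain ⟨y, rfl⟩ := hx
    exact ⟨∅, fun E _ => ⟨H45.baseChangeE E N y, H45.toBar_baseChangeE E N y⟩⟩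
  | algebraMap c =>
    refine ⟨{c}, fun E hE => ?_⟩
    refine ⟨algebraMap ↥E _ ⟨c, hE c (Finset.mem_singleton_self c)⟩, ?_⟩
    rw [H99.toBar_algebraMap]
    rfl
  | add x y _ _ hx hy =>
    obtain ⟨S₁, h₁⟩ := hx
    obtain ⟨S₂, h₂⟩ := hy
    refine ⟨S₁ ∪ S₂, fun E hE => ?_⟩
    obtain ⟨a, ha⟩ := h₁ E (fun c hc => hE c (Finset.mem_union_left _ hc))
    obtain ⟨b, hb⟩ := h₂ E (fun c hc => hE c (Finset.mem_union_right _ hc))
    exact ⟨a + b, by rw [map_add, ha, hb]⟩
  | inv x _ hx =>
    obtain ⟨S₁, h₁⟩ := hx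
    refine ⟨S₁, fun E hE => ?_⟩
    obtain ⟨a, ha⟩ := h₁ E hE
    exact ⟨a⁻¹, by rw [map_inv₀, ha]⟩
  | mul x y _ _ hx hy =>
    obtain ⟨S₁, h₁⟩ := hx
    obtain ⟨S₂, h₂⟩ := hy
    refine ⟨S₁ ∪ S₂, fun E hE => ?_⟩
    obtain ⟨a, ha⟩ := h₁ E (fun c hc => hE c (Finset.mem_union_left _ hc))
    obtain ⟨b, hb⟩ := h₂ E (fun c hc => hE c (Finset.mem_union_right _ hc))
    exact ⟨a * b, by rw [map_mul, ha, hb]⟩

/-! ### the level-`E` statement and the transport of its conclusion to `FN N` -/

section Level

variable {q : ℕ} (hq : q.Prime) {A : ValuationSubring Qbar} (hA : A.LiesOverPrime q)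

/-- The level-`E` form of `(U-fn)`: for `f ∈ F_E^×` whose divisor over `E` is divisible by `m` and
supported at finitely many places of degree one, `s (s f / f) / (s f / f) ∈ E · F_E^{× m}`, with
`s = H45.inertiaActFullC` the coefficientwise action of the inertia element `σ`. -/
def UFnE (σ : Qbar ≃ₐ[ℚ] Qbar) (hσ : σ ∈ A.inertiaSubgroupIn ℚ) (m : ℕ)
    (E : IntermediateField (H45.unrCyclo q) Qbar) [Normal (H45.unrCyclo q) E] : Prop :=
  ∀ f : modularFunctionFieldFullC ↥E N, f ≠ 0 →
    (∀ w : Place ↥E (modularFunctionFieldFullC ↥E N), (m : ℤ) ∣ w.ord f) →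
    (∀ w : Place ↥E (modularFunctionFieldFullC ↥E N), w.ord f ≠ 0 → w.deg = 1) →
    {w : Place ↥E (modularFunctionFieldFullC ↥E N) | w.ord f ≠ 0}.Finite →
    ∃ (c : ↥E) (h : modularFunctionFieldFullC ↥E N), h ≠ 0 ∧
      H45.inertiaActFullC hq hA E N σ hσ (H45.inertiaActFullC hq hA E N σ hσ f / f) /
          (H45.inertiaActFullC hq hA E N σ hσ f / f) =
        algebraMap ↥E (modularFunctionFieldFullC ↥E N) c * h ^ m

/-- Transport of the level-`E` conclusion to `FN N` along `H99.toBar`. -/
theorem concl_of_level (σ : Qbar ≃ₐ[ℚ] Qbar) (hσ : σ ∈ A.inertiaSubgroupIn ℚ) (m : ℕ)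
    (E : IntermediateField (H45.unrCyclo q) Qbar) [Normal (H45.unrCyclo q) E]
    (f c' h : modularFunctionFieldFullC ↥E N)
    (hrel : H45.inertiaActFullC hq hA E N σ hσ (H45.inertiaActFullC hq hA E N σ hσ f / f) /
          (H45.inertiaActFullC hq hA E N σ hσ f / f) = c' * h ^ m) :
    (arithmeticGalois (modularFunctionFieldFull N) σ •
        (arithmeticGalois (modularFunctionFieldFull N) σ • H99.toBar ↥E N f / H99.toBar ↥E N f)) /
      (arithmeticGalois (modularFunctionFieldFull N) σ • H99.toBar ↥E N f / H99.toBar ↥E N f) =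
      H99.toBar ↥E N c' * H99.toBar ↥E N h ^ m := by
  have h1 := congrArg (H99.toBar ↥E N) hrel
  rw [map_div₀, H45.toBar_inertiaActFullC_smul, map_div₀, H45.toBar_inertiaActFullC_smul,
    map_mul, map_pow] at h1
  exact h1

end Level

/-! ### the places of `F_E / E` under the places of `FN N / Qbar` -/

section Places

variable {q : ℕ} (E : IntermediateField (H45.unrCyclo q) Qbar)

/-- An element of `F_E` is fixed by the arithmetic Galois action of every `τ` fixing `E`. -/
theorem arithmeticGalois_smul_toBar (τ : Qbar ≃ₐ[ℚ] Qbar) (hτ : ∀ a ∈ E, τ a = a)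
    (x : modularFunctionFieldFullC ↥E N) :
    arithmeticGalois (modularFunctionFieldFull N) τ • H99.toBar ↥E N x = H99.toBar ↥E N x := by
  apply Subtype.ext
  rw [coe_arithmeticGalois_smul, H99.coe_toBar, coeffMap_coeffMap]
  refine coeffMap_congr (RingHom.ext fun c => ?_) _
  exact hτ _ c.2

/-- The arithmetic Galois action preserves "positive order at a fixed place". -/
theorem adicValuation_smul_lt_one {K F : Type*} [Field K] [Field F] [Algebra K F]
    (g : SemilinearAut K F) (v : Place K F) (hv : g • v = v) {z : F}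
    (hz : v.adicValuation z < 1) : v.adicValuation (g • z) < 1 := by
  rcases eq_or_ne z 0 with rfl | hz0
  · rw [smul_zero, map_zero]; exact zero_lt_one
  · have hgz : g • z ≠ 0 := by
      rw [SemilinearAut.smul_def]; simpa using hz0
    rw [H95.adicValuation_lt_one_iff v hgz]
    rw [H95.adicValuation_lt_one_iff v hz0] at hz
    have := SemilinearAut.ord_smul g v z
    rw [hv] at this
    rw [this]; exact hz

/-- An element of `Qbar` fixed by all automorphisms fixing `E` lies in `E`. -/
theorem mem_of_forall_fixed (b : Qbar)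
    (hb : ∀ τ : Qbar ≃ₐ[ℚ] Qbar, (∀ a ∈ E, τ a = a) → τ b = b) : b ∈ E := by
  haveI : IsGalois ↥E Qbar := inferInstance
  have h : b ∈ Set.range (algebraMap ↥E Qbar) := by
    rw [InfiniteGalois.mem_range_algebraMap_iff_fixed]
    intro τ'
    have := hb (τ'.restrictScalars ℚ) (fun a ha => τ'.commutes ⟨a, ha⟩)
    exact this
  obtain ⟨c, rfl⟩ := h
  exact c.2

end Places

/-! ### the place-level analysis, abstract form -/

section Abstract

variable {K F K' F' : Type*} [Field K] [Field F] [Algebra K F] [Field K'] [Field F']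
  [Algebra K' F'] [Algebra K K'] [Algebra F F'] [Algebra K F'] [IsScalarTower K F F']
  [IsScalarTower K K' F']

/-- **The place-level analysis** (abstract).  `f ∈ F` with `div (f) = m D` over `K'`; every place
`w` of `F / K` lies under a place `v` of `F' / K'` (`hext`); if every place of the support of `D`
has a uniformiser in `F` (`hunif`) and its residue constants of elements of `F` lie in `K`
(`hconst`), then the divisor of `f` over `K` is divisible by `m` and supported at finitely many
places of degree one. -/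
theorem level_hyps_abstract (m : ℕ) (f : F) (D : Divisor K' F')
    (hD : ∀ v : Place K' F', v.ord (algebraMap F F' f) = (m : ℤ) * D v)
    (hext : ∀ w : Place K F, ∃ (v : Place K' F') (e : ℕ), 0 < e ∧
      (∀ x : F, v.ord (algebraMap F F' x) = e * w.ord x) ∧
      (∀ x : F, x ∈ w.toValuationSubring ↔ algebraMap F F' x ∈ v.toValuationSubring))
    (hunif : ∀ v : Place K' F', D v ≠ 0 → ∃ π : F, v.ord (algebraMap F F' π) = 1)
    (hconst : ∀ v : Place K' F', D v ≠ 0 → ∀ x : F, algebraMap F F' x ∈ v.toValuationSubring →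
      ∃ c : K, v.adicValuation (algebraMap F F' x - algebraMap K F' c) < 1) :
    (∀ w : Place K F, (m : ℤ) ∣ w.ord f) ∧
    (∀ w : Place K F, w.ord f ≠ 0 → w.deg = 1) ∧
    {w : Place K F | w.ord f ≠ 0}.Finite := by
  classical
  -- outside the support of `D` the order vanishes
  have hzero : ∀ (w : Place K F) (v : Place K' F') (e : ℕ),
      0 < e → (∀ x, v.ord (algebraMap F F' x) = e * w.ord x) → D v = 0 → w.ord f = 0 := by
    intro w v e he hve hDv
    have h1 := hve f
    rw [hD v, hDv, mul_zero] at h1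
    have he' : (e : ℤ) ≠ 0 := by exact_mod_cast he.ne'
    exact (mul_eq_zero.mp h1.symm).resolve_left he'
  -- on the support of `D` the ramification index is one
  have hone : ∀ (w : Place K F) (v : Place K' F') (e : ℕ),
      0 < e → (∀ x, v.ord (algebraMap F F' x) = e * w.ord x) → D v ≠ 0 → e = 1 := by
    intro w v e he hve hDv
    obtain ⟨π, hπ⟩ := hunif v hDv
    have h1 := hve π
    rw [hπ] at h1
    have : (e : ℤ) = 1 := Int.eq_one_of_mul_eq_one_right (by exact_mod_cast he.le) h1.symm
    exact_mod_cast this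
  refine ⟨fun w => ?_, fun w hw => ?_, ?_⟩
  · -- divisibility
    obtain ⟨v, e, he, hve, -⟩ := hext w
    by_cases hDv : D v = 0
    · rw [hzero w v e he hve hDv]; exact dvd_zero _
    · have h1 := hve f
      rw [hone w v e he hve hDv, Nat.cast_one, one_mul, hD v] at h1
      exact ⟨D v, h1.symm⟩
  · -- degree one
    obtain ⟨v, e, he, hve, hmem⟩ := hext w
    have hDv : D v ≠ 0 := fun h0 => hw (hzero w v e he hve h0)
    have hsurj : Function.Surjective (algebraMap K w.ResidueField) := by
      intro r
      obtain ⟨x, rfl⟩ := IsLocalRing.residue_surjective r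
      obtain ⟨c, hc⟩ := hconst v hDv (x : F) ((hmem _).1 x.2)
      refine ⟨c, ?_⟩
      have hres : IsLocalRing.residue w.toValuationSubring
          (x - algebraMap K w.toValuationSubring c) = 0 := by
        rw [IsLocalRing.residue_eq_zero_iff]
        by_cases h0 : x - algebraMap K w.toValuationSubring c = 0
        · rw [h0]; exact zero_mem _
        · rw [← H27.ord_pos_iff_mem_maximalIdeal w _ h0]
          have hcoe : ((x - algebraMap K w.toValuationSubring c : w.toValuationSubring) : F) =
              (x : F) - algebraMap K F c := rfl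
          have hz0 : (x : F) - algebraMap K F c ≠ 0 := fun h => h0 (Subtype.ext (hcoe.trans h))
          have htb : algebraMap F F' ((x : F) - algebraMap K F c) =
              algebraMap F F' (x : F) - algebraMap K F' c := by
            rw [map_sub, ← IsScalarTower.algebraMap_apply K F F']
          have hpos : 0 < v.ord (algebraMap F F' ((x : F) - algebraMap K F c)) := by
            rw [← H95.adicValuation_lt_one_iff v ((_root_.map_ne_zero _).mpr hz0), htb]
            exact hc
          rw [hve] at hpos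
          rw [hcoe]
          have he' : (0 : ℤ) < e := by exact_mod_cast he
          exact (mul_pos_iff_of_pos_left he').mp hpos
      rw [map_sub, sub_eq_zero] at hres
      rw [hres]
      rfl
    have hbij : Function.Bijective (Algebra.linearMap K w.ResidueField) :=
      ⟨(algebraMap K w.ResidueField).injective, hsurj⟩
    have eqv : K ≃ₗ[K] w.ResidueField := LinearEquiv.ofBijective _ hbij
    rw [Place.deg, ← eqv.finrank_eq, Module.finrank_self]
  · -- finiteness
    let φ : Place K F → Place K' F' := fun w => Classical.choose (hext w)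
    have hφ : ∀ w, ∃ e : ℕ, 0 < e ∧
        (∀ x : F, (φ w).ord (algebraMap F F' x) = e * w.ord x) ∧
        (∀ x : F, x ∈ w.toValuationSubring ↔ algebraMap F F' x ∈ (φ w).toValuationSubring) :=
      fun w => Classical.choose_spec (hext w)
    refine Set.Finite.of_injOn (f := φ) (t := (D.support : Set (Place K' F'))) ?_ ?_
      (Finset.finite_toSet _)
    · intro w hw
      obtain ⟨e, he, hve, -⟩ := hφ w
      rw [Finset.mem_coe, Finsupp.mem_support_iff]
      exact fun h0 => hw (hzero w (φ w) e he hve h0)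
    · intro w₁ _ w₂ _ h12
      obtain ⟨-, -, -, hm₁⟩ := hφ w₁
      obtain ⟨-, -, -, hm₂⟩ := hφ w₂
      apply Place.ext
      ext x
      rw [hm₁ x, hm₂ x, h12]

end Abstract

/-! ### the concrete inputs of the place-level analysis -/

section Concrete

variable {q : ℕ} (E : IntermediateField (H45.unrCyclo q) Qbar)

/-- Fixing a finite-dimensional subfield of `Qbar` is a condition on finitely many elements. -/
theorem exists_finset_fixing (Kv : IntermediateField ℚ Qbar) [FiniteDimensional ℚ Kv] :
    ∃ S : Finset Qbar, ∀ τ : Qbar ≃ₐ[ℚ] Qbar, (∀ a ∈ S, τ a = a) → ∀ a ∈ Kv, τ a = a := by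
  classical
  let b := Module.finBasis ℚ Kv
  refine ⟨Finset.univ.image (fun i => ((b i : Kv) : Qbar)), fun τ hτ a ha => ?_⟩
  have h := b.sum_repr ⟨a, ha⟩
  have h' : a = ∑ i, (b.repr ⟨a, ha⟩ i) • ((b i : Kv) : Qbar) := by
    have h2 := congrArg (fun z : Kv => (z : Qbar)) h
    simp only [IntermediateField.coe_sum, IntermediateField.coe_smul] at h2
    exact h2.symm
  rw [h', map_sum]
  refine Finset.sum_congr rfl (fun i _ => ?_)
  rw [Algebra.smul_def, map_mul, τ.commutes,
    hτ _ (Finset.mem_image_of_mem _ (Finset.mem_univ i))]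

/-- **Residue constants descend.**  If the place `v` of `FN N` and the element `y ∈ O_v` are fixed
by every `τ ∈ Gal(Qbar / E)`, then the residue constant of `y` at `v` lies in `E`. -/
theorem exists_const_mem_of_fixed (v : Place Qbar (FN N))
    (hfixv : ∀ τ : Qbar ≃ₐ[ℚ] Qbar, (∀ a ∈ E, τ a = a) →
      arithmeticGalois (modularFunctionFieldFull N) τ • v = v)
    (y : FN N) (hy : y ∈ v.toValuationSubring)
    (hfixy : ∀ τ : Qbar ≃ₐ[ℚ] Qbar, (∀ a ∈ E, τ a = a) →
      arithmeticGalois (modularFunctionFieldFull N) τ • y = y) :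
    ∃ b ∈ E, v.adicValuation (y - algebraMap Qbar (FN N) b) < 1 := by
  haveI := H40.finiteDimensional_FN N
  have ht := H40.transcendental_jBar N
  have hdegv : v.deg = 1 := H97.deg_eq_one (jBar N) ht v
  obtain ⟨b, hb⟩ := H95.exists_const_of_deg_eq_one v hdegv y hy
  refine ⟨b, ?_, hb⟩
  apply mem_of_forall_fixed E
  intro τ hτ
  have h2 := adicValuation_smul_lt_one
    (arithmeticGalois (modularFunctionFieldFull N) τ) v (hfixv τ hτ) hb
  rw [smul_sub, hfixy τ hτ, SemilinearAut.smul_algebraMap, baseAut_arithmeticGalois] at h2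
  by_contra hne
  have hc : τ b - b ≠ 0 := sub_ne_zero.mpr hne
  have h3 : v.adicValuation (algebraMap Qbar (FN N) (τ b - b)) < 1 := by
    have : algebraMap Qbar (FN N) (τ b - b) =
        (y - algebraMap Qbar (FN N) b) - (y - algebraMap Qbar (FN N) (τ b)) := by
      rw [map_sub]; ring
    rw [this]
    exact lt_of_le_of_lt (Valuation.map_sub _ _ _) (max_lt hb h2)
  rw [H95.adicValuation_algebraMap v hc] at h3
  exact lt_irrefl _ h3

/-- Every place of `F_E / E` lies under a place of `FN N / Qbar` (concrete form of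
`H95.exists_place_extension`). -/
theorem exists_place_above (w : Place ↥E (modularFunctionFieldFullC ↥E N)) :
    ∃ (v : Place Qbar (FN N)) (e : ℕ), 0 < e ∧
      (∀ x : modularFunctionFieldFullC ↥E N, v.ord (H99.toBar ↥E N x) = e * w.ord x) ∧
      (∀ x : modularFunctionFieldFullC ↥E N,
        x ∈ w.toValuationSubring ↔ H99.toBar ↥E N x ∈ v.toValuationSubring) := by
  letI := H99.toBarAlgebra ↥E N
  haveI := H99.isScalarTower_toBar ↥E N
  haveI := H40.finiteDimensional_FN N
  exact H95.exists_place_extension (K := ↥E) (F := modularFunctionFieldFullC ↥E N)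
    (K' := Qbar) (F' := FN N) (jBar N) (H40.transcendental_jBar N) w

/-- Residue constants of elements of `F_E` at a `Gal(Qbar / E)`-fixed place lie in `E`. -/
theorem exists_const_toBar (v : Place Qbar (FN N))
    (hfixv : ∀ τ : Qbar ≃ₐ[ℚ] Qbar, (∀ a ∈ E, τ a = a) →
      arithmeticGalois (modularFunctionFieldFull N) τ • v = v)
    (x : modularFunctionFieldFullC ↥E N) (hx : H99.toBar ↥E N x ∈ v.toValuationSubring) :
    ∃ c : ↥E, v.adicValuation (H99.toBar ↥E N x - algebraMap Qbar (FN N) (c : Qbar)) < 1 := by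
  obtain ⟨b, hbE, hb⟩ := exists_const_mem_of_fixed N E v hfixv (H99.toBar ↥E N x) hx
    (fun τ hτ => arithmeticGalois_smul_toBar N E τ hτ x)
  exact ⟨⟨b, hbE⟩, hb⟩

end Concrete

/-! ### the finitely many constants needed at one place -/

section PerPlace

/-- For a place `v` of `FN N`, finitely many constants suffice for `v` to have a uniformiser in
`F_E` and to be fixed by `Gal(Qbar / E)`. -/
theorem exists_finset_place (q : ℕ) (v : Place Qbar (FN N)) :
    ∃ S : Finset Qbar, ∀ E : IntermediateField (H45.unrCyclo q) Qbar, (∀ a ∈ S, a ∈ E) →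
      (∃ π : modularFunctionFieldFullC ↥E N, v.ord (H99.toBar ↥E N π) = 1) ∧
      (∀ τ : Qbar ≃ₐ[ℚ] Qbar, (∀ a ∈ E, τ a = a) →
        arithmeticGalois (modularFunctionFieldFull N) τ • v = v) := by
  classical
  obtain ⟨π, hπ⟩ := Fermat.Agent.RR.H52.exists_val_eq_exp_neg_one v
  have hord : v.ord π = 1 := Fermat.Agent.S29.H46.ord_eq_of_val_eq_exp_neg v (n := 1) hπ
  obtain ⟨S₁, h₁⟩ := exists_finset_forall_mem_range_toBar N q π
  obtain ⟨Kv, hKv, hfix⟩ := Fermat.Agent.S29.H46.exists_finite_fixing_place N v
  haveI := hKv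
  obtain ⟨S₂, h₂⟩ := exists_finset_fixing Kv
  refine ⟨S₁ ∪ S₂, fun E hE => ⟨?_, fun τ hτ => ?_⟩⟩
  · obtain ⟨p, hp⟩ := h₁ E (fun a ha => hE a (Finset.mem_union_left _ ha))
    exact ⟨p, by rw [hp]; exact hord⟩
  · exact hfix τ (h₂ τ (fun a ha => hτ a (hE a (Finset.mem_union_right _ ha))))

end PerPlace

/-! ### the descent -/

section Descent

variable {q : ℕ} (hq : q.Prime) {A : ValuationSubring Qbar} (hA : A.LiesOverPrime q)

/-- The level-`E` hypotheses of `UFnE` hold for the descended function, as soon as `E` contains the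
finitely many constants attached to the support of `D`. -/
theorem level_hyps (E : IntermediateField (H45.unrCyclo q) Qbar) (m : ℕ)
    (fE : modularFunctionFieldFullC ↥E N) (D : Divisor Qbar (FN N))
    (hD : ∀ v : Place Qbar (FN N), v.ord (H99.toBar ↥E N fE) = (m : ℤ) * D v)
    (hE : ∀ v : Place Qbar (FN N), D v ≠ 0 →
      (∃ π : modularFunctionFieldFullC ↥E N, v.ord (H99.toBar ↥E N π) = 1) ∧
      (∀ τ : Qbar ≃ₐ[ℚ] Qbar, (∀ a ∈ E, τ a = a) →
        arithmeticGalois (modularFunctionFieldFull N) τ • v = v)) :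
    (∀ w : Place ↥E (modularFunctionFieldFullC ↥E N), (m : ℤ) ∣ w.ord fE) ∧
    (∀ w : Place ↥E (modularFunctionFieldFullC ↥E N), w.ord fE ≠ 0 → w.deg = 1) ∧
    {w : Place ↥E (modularFunctionFieldFullC ↥E N) | w.ord fE ≠ 0}.Finite := by
  letI := H99.toBarAlgebra ↥E N
  haveI := H99.isScalarTower_toBar ↥E N
  exact level_hyps_abstract (K := ↥E) (F := modularFunctionFieldFullC ↥E N) (K' := Qbar)
    (F' := FN N) m fE D hD (exists_place_above N E) (fun v hv => (hE v hv).1)
    (fun v hv x hx => exists_const_toBar N E v (hE v hv).2 x hx)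

/-- **[DESC]**: if the level-`E` statement `UFnE` holds for every finite Galois `E / K1`, then
`(U-fn)` holds for `FN N / Qbar` and the arithmetic Galois action of the inertia element `σ`. -/
theorem uFn_of_uFnE (σ : Qbar ≃ₐ[ℚ] Qbar) (hσ : σ ∈ A.inertiaSubgroupIn ℚ) (m : ℕ)
    (H : ∀ (E : IntermediateField (H45.unrCyclo q) Qbar)
      [FiniteDimensional (H45.unrCyclo q) E] [IsGalois (H45.unrCyclo q) E],
      UFnE N hq hA σ hσ m E) :
    Fermat.Agent.S34.H47.UFn (arithmeticGalois (modularFunctionFieldFull N) σ) m := by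
  classical
  rintro f hf ⟨D, hD⟩
  obtain ⟨S₀, h₀⟩ := exists_finset_forall_mem_range_toBar N q f
  choose S hS using fun v => exists_finset_place N q v
  obtain ⟨E, hEfd, hEgal, hES⟩ := H45.exists_finite_galois_ge q (S₀ ∪ D.support.biUnion S)
  haveI := hEfd
  haveI := hEgal
  obtain ⟨fE, rfl⟩ := h₀ E (fun a ha => hES a (Finset.mem_union_left _ ha))
  have hfE : fE ≠ 0 := fun h => hf (by rw [h, map_zero])
  have hlev := level_hyps N E m fE D hD (fun v hv => hS v E (fun a ha => hES a
    (Finset.mem_union_right _ (Finset.mem_biUnion.mpr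
      ⟨v, Finsupp.mem_support_iff.mpr hv, ha⟩))))
  obtain ⟨c, h, hh, hrel⟩ := H E fE hfE hlev.1 hlev.2.1 hlev.2.2
  refine ⟨(c : Qbar), H99.toBar ↥E N h, (_root_.map_ne_zero _).mpr hh, ?_⟩
  have h1 := concl_of_level N hq hA σ hσ m E fE _ h hrel
  rw [H99.toBar_algebraMap] at h1
  exact h1

end Descent

end

end Fermat.Agent.S34.H34
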