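/-
helper83: S34, L1 (LOCGEN), abstract core (Mathlib only).

`B` a ring with two surjections `red₁ red₂ : B → R` onto a Dedekind domain (the two components of
the special fibre), kernels `P₁`, `P₂` with `P₁ ⊓ P₂ = (q)`.  A level-`M` ring `BM` with two
embeddings `ι`, `V` into `B` (`f ↦ f(z)`, `f ↦ f(qz)`), a Frobenius lift `s` on `BM` and the
Kronecker congruences.  Then at every maximal ideal `n ∋ q` of `B` the maximal ideal of `B_n` is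
`(q, τ)` or `(q, x, y)` with `x * y ∈ (q)`.
-/
import Mathlib

set_option autoImplicit false

namespace Fermat.Agent.S34.H83

/-! ### Dedekind: local generation by an element of `𝔞 \ 𝔞²` -/

section Dedekind

variable {R : Type*} [CommRing R] [IsDedekindDomain R]

theorem exists_mul_mem_span_of_not_mem_sq {𝔞 : Ideal R} (h𝔞 : 𝔞.IsPrime) {θ : R}
    (hθ : θ ∈ 𝔞) (hθ2 : θ ∉ 𝔞 ^ 2) {w : R} (hw : w ∈ 𝔞) :
    ∃ t : R, t ∉ 𝔞 ∧ t * w ∈ Ideal.span {θ} := by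
  have hle : Ideal.span {θ} ≤ 𝔞 := (Ideal.span_singleton_le_iff_mem 𝔞).2 hθ
  obtain ⟨J, hJ⟩ := Ideal.dvd_iff_le.2 hle
  have hJ𝔞 : ¬ J ≤ 𝔞 := by
    intro hJle
    obtain ⟨J', hJ'⟩ := Ideal.dvd_iff_le.2 hJle
    apply hθ2
    have : Ideal.span {θ} ≤ 𝔞 ^ 2 := by
      rw [hJ, hJ', ← mul_assoc, ← pow_two]
      exact Ideal.mul_le_left (I := 𝔞 ^ 2) (J := J')
    exact this (Ideal.mem_span_singleton_self θ)
  obtain ⟨t, htJ, ht𝔞⟩ := Set.not_subset.1 hJ𝔞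
  refine ⟨t, ht𝔞, ?_⟩
  rw [hJ, mul_comm t w]
  exact Ideal.mul_mem_mul hw htJ

theorem exists_mem_not_mem_sq {𝔞 : Ideal R} (h𝔞 : 𝔞.IsPrime) (h0 : 𝔞 ≠ ⊥) :
    ∃ θ : R, θ ∈ 𝔞 ∧ θ ∉ 𝔞 ^ 2 := by
  by_contra hcon
  push Not at hcon
  have hle : 𝔞 ≤ 𝔞 ^ 2 := fun θ hθ => hcon θ hθ
  have hne : 𝔞 ≠ ⊤ := h𝔞.ne_top
  have h1 : 𝔞 ^ 2 = 𝔞 := le_antisymm (Ideal.pow_le_self (by norm_num)) hle
  have h2 : 𝔞 * 𝔞 = 𝔞 * 1 := by rw [← pow_two, h1, mul_one]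
  have h3 : 𝔞 = 1 := mul_left_cancel₀ h0 h2
  exact hne (by rw [h3, Ideal.one_eq_top])

end Dedekind

/-! ### The transversality elements -/

section Transversal

variable {B R BM : Type*} [CommRing B] [CommRing R] [CommRing BM]
  (red₁ red₂ : B →+* R) (ι V : BM →+* B) (rbar : BM →+* R) (ρ : R ≃+* R) (s : BM →+* BM) (q : ℕ)

/-- `a_ψ = ψ ^ q - V (s ψ)` (helper83 #2429 (a)). -/
def aElt (ψ : BM) : B := ι ψ ^ q - V (s ψ)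

variable {red₁ red₂ ι V rbar ρ s q}

theorem red₁_aElt (h1ι : ∀ ψ, red₁ (ι ψ) = rbar ψ) (h1V : ∀ ψ, red₁ (V ψ) = ρ (rbar ψ) ^ q)
    (hs : ∀ ψ, rbar (s ψ) = ρ.symm (rbar ψ)) (ψ : BM) : red₁ (aElt ι V s q ψ) = 0 := by
  unfold aElt
  rw [map_sub, map_pow, h1ι, h1V, hs, RingEquiv.apply_symm_apply, sub_self]

theorem red₂_aElt (h2ι : ∀ ψ, red₂ (ι ψ) = ρ (rbar ψ) ^ q) (h2V : ∀ ψ, red₂ (V ψ) = rbar ψ)
    (hs : ∀ ψ, rbar (s ψ) = ρ.symm (rbar ψ)) (ψ : BM) :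
    red₂ (aElt ι V s q ψ) = ρ (rbar ψ) ^ (q * q) - ρ.symm (rbar ψ) := by
  unfold aElt
  rw [map_sub, map_pow, h2ι, h2V, hs, ← pow_mul]

/-- **Transversality.**  At a point `n` lying on both components there is an element of `P₁`
restricting to a uniformiser of the second component at `n`. -/
theorem exists_mem_ker_uniformizer
    (h1ι : ∀ ψ, red₁ (ι ψ) = rbar ψ) (h1V : ∀ ψ, red₁ (V ψ) = ρ (rbar ψ) ^ q)
    (h2ι : ∀ ψ, red₂ (ι ψ) = ρ (rbar ψ) ^ q) (h2V : ∀ ψ, red₂ (V ψ) = rbar ψ)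
    (hs : ∀ ψ, rbar (s ψ) = ρ.symm (rbar ψ)) (hrbar : Function.Surjective rbar) (hq : 2 ≤ q)
    (n : Ideal B) (𝔞 𝔟 : Ideal R) (h𝔞 : 𝔞.IsPrime) (h𝔟 : 𝔟.IsPrime)
    (hn₁ : ∀ z : B, z ∈ n ↔ red₁ z ∈ 𝔞) (hn₂ : ∀ z : B, z ∈ n ↔ red₂ z ∈ 𝔟)
    {θ : R} (hθ : θ ∈ 𝔟) (hθ2 : θ ∉ 𝔟 ^ 2) :
    ∃ x : B, red₁ x = 0 ∧ red₂ x ∈ 𝔟 ∧ red₂ x ∉ 𝔟 ^ 2 := by
  -- `θ' ∈ 𝔞 ↔ ρ θ' ∈ 𝔟` and `ρ θ' ∈ 𝔞 ↔ θ' ∈ 𝔟`
  have hA : ∀ θ' : R, θ' ∈ 𝔞 → ρ θ' ∈ 𝔟 := by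
    intro θ' h
    obtain ⟨ψ', rfl⟩ := hrbar θ'
    have h1 : ι ψ' ∈ n := (hn₁ _).2 (by rw [h1ι]; exact h)
    have h2 := (hn₂ _).1 h1
    rw [h2ι] at h2
    exact h𝔟.mem_of_pow_mem _ h2
  have hB : ∀ θ' : R, θ' ∈ 𝔟 → ρ θ' ∈ 𝔞 := by
    intro θ' h
    obtain ⟨ψ', rfl⟩ := hrbar θ'
    have h1 : V ψ' ∈ n := (hn₂ _).2 (by rw [h2V]; exact h)
    have h2 := (hn₁ _).1 h1
    rw [h1V] at h2
    exact h𝔞.mem_of_pow_mem _ h2
  obtain ⟨ψ, hψ⟩ := hrbar (ρ θ)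
  refine ⟨aElt ι V s q ψ, red₁_aElt h1ι h1V hs ψ, ?_, ?_⟩
  · rw [red₂_aElt h2ι h2V hs, hψ, RingEquiv.symm_apply_apply]
    refine sub_mem (Ideal.pow_mem_of_mem _ (hA _ (hB _ hθ)) _ (by positivity)) hθ
  · rw [red₂_aElt h2ι h2V hs, hψ, RingEquiv.symm_apply_apply]
    intro hmem
    apply hθ2
    have h1 : ρ (ρ θ) ^ (q * q) ∈ 𝔟 ^ 2 := by
      have h2 : ρ (ρ θ) ^ 2 ∈ 𝔟 ^ 2 := Ideal.pow_mem_pow (hA _ (hB _ hθ)) 2
      have h4 : 2 ≤ q * q := by nlinarith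
      have h3 : q * q = 2 + (q * q - 2) := by omega
      rw [h3, pow_add]
      exact Ideal.mul_mem_right _ _ h2
    have := sub_mem h1 hmem
    simpa using this

end Transversal

/-! ### Local generators of the maximal ideals of the special fibre -/

section LocGen

variable {B R : Type*} [CommRing B] [CommRing R] [IsDedekindDomain R]
  {red₁ red₂ : B →+* R} {qB : B}

/-- A point on exactly one component: `m_n = (q, τ)` locally. -/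
theorem locGen_smooth (hred₁ : Function.Surjective red₁)
    (hinf : ∀ z : B, red₁ z = 0 → red₂ z = 0 → z ∈ Ideal.span {qB})
    (n : Ideal B) (𝔞 : Ideal R) (h𝔞 : 𝔞.IsPrime) (h𝔞0 : 𝔞 ≠ ⊥)
    (hn₁ : ∀ z : B, z ∈ n ↔ red₁ z ∈ 𝔞)
    (hp₂ : ∃ p₂ : B, red₂ p₂ = 0 ∧ p₂ ∉ n) :
    ∃ τ ∈ n, ∀ z ∈ n, ∃ t : B, t ∉ n ∧ t * z ∈ Ideal.span {qB, τ} := by
  obtain ⟨θ, hθ, hθ2⟩ := exists_mem_not_mem_sq h𝔞 h𝔞0
  obtain ⟨τ, rfl⟩ := hred₁ θ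
  obtain ⟨p₂, hp₂0, hp₂n⟩ := hp₂
  have hnprime : n.IsPrime := by
    have : n = Ideal.comap red₁ 𝔞 := by
      ext z; rw [Ideal.mem_comap]; exact hn₁ z
    rw [this]; exact Ideal.comap_isPrime red₁ 𝔞
  refine ⟨τ, (hn₁ τ).2 hθ, fun z hz => ?_⟩
  obtain ⟨tb, htb, htw⟩ := exists_mul_mem_span_of_not_mem_sq h𝔞 hθ hθ2 ((hn₁ z).1 hz)
  obtain ⟨t, rfl⟩ := hred₁ tb
  obtain ⟨cb, hcb⟩ := Ideal.mem_span_singleton'.1 htw
  obtain ⟨c, rfl⟩ := hred₁ cb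
  have htn : t ∉ n := fun h => htb ((hn₁ t).1 h)
  refine ⟨p₂ * t, fun h => ?_, ?_⟩
  · rcases hnprime.mem_or_mem h with h | h
    · exact hp₂n h
    · exact htn h
  · have h1 : red₁ (t * z - c * τ) = 0 := by
      rw [map_sub, map_mul, map_mul, hcb, sub_self]
    have h2 : p₂ * (t * z - c * τ) ∈ Ideal.span {qB} :=
      hinf _ (by rw [map_mul, h1, mul_zero]) (by rw [map_mul, hp₂0, zero_mul])
    have h3 : p₂ * t * z = p₂ * (t * z - c * τ) + p₂ * c * τ := by ring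
    rw [h3]
    refine add_mem ?_ ?_
    · exact Ideal.span_mono (by simp) h2
    · exact Ideal.mul_mem_left _ _ (Ideal.subset_span (by simp))

/-- A point on both components: `m_n = (q, x, y)` locally, `x y ∈ (q)`. -/
theorem locGen_node (hred₁ : Function.Surjective red₁) (hred₂ : Function.Surjective red₂)
    (hinf : ∀ z : B, red₁ z = 0 → red₂ z = 0 → z ∈ Ideal.span {qB})
    (n : Ideal B) (𝔞 𝔟 : Ideal R) (h𝔞 : 𝔞.IsPrime) (h𝔟 : 𝔟.IsPrime)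
    (hn₁ : ∀ z : B, z ∈ n ↔ red₁ z ∈ 𝔞) (hn₂ : ∀ z : B, z ∈ n ↔ red₂ z ∈ 𝔟)
    {x y : B} (hx₁ : red₁ x = 0) (hx₂ : red₂ x ∈ 𝔟) (hx₂' : red₂ x ∉ 𝔟 ^ 2)
    (hy₂ : red₂ y = 0) (hy₁ : red₁ y ∈ 𝔞) (hy₁' : red₁ y ∉ 𝔞 ^ 2) :
    x * y ∈ Ideal.span {qB} ∧ x ∈ n ∧ y ∈ n ∧
      ∀ z ∈ n, ∃ t : B, t ∉ n ∧ t * z ∈ Ideal.span {qB, x, y} := by
  have hnprime : n.IsPrime := by
    have : n = Ideal.comap red₁ 𝔞 := by
      ext z; rw [Ideal.mem_comap]; exact hn₁ z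
    rw [this]; exact Ideal.comap_isPrime red₁ 𝔞
  refine ⟨hinf _ (by rw [map_mul, hx₁, zero_mul]) (by rw [map_mul, hy₂, mul_zero]),
    (hn₂ x).2 hx₂, (hn₁ y).2 hy₁, fun z hz => ?_⟩
  -- first component
  obtain ⟨tb₁, htb₁, htw₁⟩ := exists_mul_mem_span_of_not_mem_sq h𝔞 hy₁ hy₁' ((hn₁ z).1 hz)
  obtain ⟨t₁, rfl⟩ := hred₁ tb₁
  obtain ⟨cb₁, hcb₁⟩ := Ideal.mem_span_singleton'.1 htw₁
  obtain ⟨c₁, rfl⟩ := hred₁ cb₁
  have ht₁n : t₁ ∉ n := fun h => htb₁ ((hn₁ t₁).1 h)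
  set p₁ := t₁ * z - c₁ * y with hp₁
  have hp₁1 : red₁ p₁ = 0 := by
    rw [hp₁, map_sub, map_mul, map_mul, hcb₁, sub_self]
  have hp₁n : p₁ ∈ n := (hn₁ p₁).2 (by rw [hp₁1]; exact 𝔞.zero_mem)
  -- second component
  obtain ⟨tb₂, htb₂, htw₂⟩ := exists_mul_mem_span_of_not_mem_sq h𝔟 hx₂ hx₂' ((hn₂ p₁).1 hp₁n)
  obtain ⟨t₂, rfl⟩ := hred₂ tb₂
  obtain ⟨cb₂, hcb₂⟩ := Ideal.mem_span_singleton'.1 htw₂
  obtain ⟨c₂, rfl⟩ := hred₂ cb₂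
  have ht₂n : t₂ ∉ n := fun h => htb₂ ((hn₂ t₂).1 h)
  set p₂ := t₂ * p₁ - c₂ * x with hp₂
  have hp₂2 : red₂ p₂ = 0 := by
    rw [hp₂, map_sub, map_mul, map_mul, hcb₂, sub_self]
  have hp₂1 : red₁ p₂ = 0 := by
    rw [hp₂, map_sub, map_mul, map_mul, hp₁1, hx₁, mul_zero, mul_zero, sub_self]
  have hp₂q : p₂ ∈ Ideal.span {qB} := hinf _ hp₂1 hp₂2
  refine ⟨t₂ * t₁, fun h => ?_, ?_⟩
  · rcases hnprime.mem_or_mem h with h | h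
    · exact ht₂n h
    · exact ht₁n h
  · have h3 : t₂ * t₁ * z = p₂ + c₂ * x + t₂ * c₁ * y := by
      rw [hp₂, hp₁]; ring
    rw [h3]
    refine add_mem (add_mem ?_ ?_) ?_
    · exact Ideal.span_mono (by simp) hp₂q
    · exact Ideal.mul_mem_left _ _ (Ideal.subset_span (by simp))
    · exact Ideal.mul_mem_left _ _ (Ideal.subset_span (by simp))

end LocGen

/-! ### Assembly: L1 (LOCGEN), abstract form -/

section Assembly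

variable {B R BM : Type*} [CommRing B] [CommRing R] [IsDedekindDomain R] [CommRing BM]
  {red₁ red₂ : B →+* R} {ι V : BM →+* B} {rbar : BM →+* R} {ρ : R ≃+* R} {s : BM →+* BM}
  {q : ℕ} {qB : B}

/-- membership in a maximal ideal containing the kernel of a surjection -/
theorem mem_iff_map_mem {red : B →+* R} (hred : Function.Surjective red) (n : Ideal B)
    (hker : ∀ z : B, red z = 0 → z ∈ n) (z : B) : z ∈ n ↔ red z ∈ Ideal.map red n := by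
  constructor
  · exact fun h => Ideal.mem_map_of_mem red h
  · intro h
    obtain ⟨w, hw, hwz⟩ := (Ideal.mem_map_iff_of_surjective red hred).1 h
    have : z - w ∈ n := hker _ (by rw [map_sub, hwz, sub_self])
    have h2 : z = (z - w) + w := by ring
    rw [h2]; exact add_mem this hw

/-- **L1 (LOCGEN), abstract.** -/
theorem locGen
    (h1ι : ∀ ψ, red₁ (ι ψ) = rbar ψ) (h1V : ∀ ψ, red₁ (V ψ) = ρ (rbar ψ) ^ q)
    (h2ι : ∀ ψ, red₂ (ι ψ) = ρ (rbar ψ) ^ q) (h2V : ∀ ψ, red₂ (V ψ) = rbar ψ)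
    (hs : ∀ ψ, rbar (s ψ) = ρ.symm (rbar ψ)) (hrbar : Function.Surjective rbar) (hq : 2 ≤ q)
    (hred₁ : Function.Surjective red₁) (hred₂ : Function.Surjective red₂)
    (hinf : ∀ z : B, red₁ z = 0 → red₂ z = 0 → z ∈ Ideal.span {qB})
    (hR : ¬ IsField R)
    (n : Ideal B) (hn : n.IsMaximal) (hqn : qB ∈ n) :
    (∃ τ ∈ n, ∀ z ∈ n, ∃ t : B, t ∉ n ∧ t * z ∈ Ideal.span {qB, τ}) ∨
    (∃ x y : B, red₁ x = 0 ∧ red₂ y = 0 ∧ x ∈ n ∧ y ∈ n ∧ x * y ∈ Ideal.span {qB} ∧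
      ∀ z ∈ n, ∃ t : B, t ∉ n ∧ t * z ∈ Ideal.span {qB, x, y}) := by
  classical
  have hnprime : n.IsPrime := hn.isPrime
  -- the image of `n` under a surjection whose kernel lies in `n` is maximal and `≠ ⊥`
  have hmax : ∀ (red : B →+* R), Function.Surjective red → (∀ z : B, red z = 0 → z ∈ n) →
      (Ideal.map red n).IsMaximal ∧ Ideal.map red n ≠ ⊥ := by
    intro red hred hker
    have h1 : (Ideal.map red n).IsMaximal := by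
      rcases Ideal.map_eq_top_or_isMaximal_of_surjective red hred hn with h | h
      · exfalso
        have : (1 : B) ∈ n := (mem_iff_map_mem hred n hker 1).2 (by rw [h]; trivial)
        exact hnprime.ne_top ((Ideal.eq_top_iff_one n).2 this)
      · exact h
    exact ⟨h1, Ring.ne_bot_of_isMaximal_of_not_isField h1 hR⟩
  by_cases hk₁ : ∀ z : B, red₁ z = 0 → z ∈ n
  · obtain ⟨hm₁, h0₁⟩ := hmax red₁ hred₁ hk₁
    have hn₁ := mem_iff_map_mem hred₁ n hk₁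
    by_cases hk₂ : ∀ z : B, red₂ z = 0 → z ∈ n
    · -- node
      obtain ⟨hm₂, h0₂⟩ := hmax red₂ hred₂ hk₂
      have hn₂ := mem_iff_map_mem hred₂ n hk₂
      obtain ⟨θ₂, hθ₂, hθ₂'⟩ := exists_mem_not_mem_sq hm₂.isPrime h0₂
      obtain ⟨θ₁, hθ₁, hθ₁'⟩ := exists_mem_not_mem_sq hm₁.isPrime h0₁
      obtain ⟨x, hx₁, hx₂, hx₂'⟩ := exists_mem_ker_uniformizer (red₁ := red₁) (red₂ := red₂)
        h1ι h1V h2ι h2V hs hrbar hq n _ _ hm₁.isPrime hm₂.isPrime hn₁ hn₂ hθ₂ hθ₂'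
      obtain ⟨y, hy₂, hy₁, hy₁'⟩ := exists_mem_ker_uniformizer (red₁ := red₂) (red₂ := red₁)
        (ι := V) (V := ι) h2V h2ι h1V h1ι hs hrbar hq n _ _ hm₂.isPrime hm₁.isPrime hn₂ hn₁
        hθ₁ hθ₁'
      obtain ⟨hxy, hxn, hyn, hgen⟩ := locGen_node hred₁ hred₂ hinf n _ _ hm₁.isPrime hm₂.isPrime
        hn₁ hn₂ hx₁ hx₂ hx₂' hy₂ hy₁ hy₁'
      exact Or.inr ⟨x, y, hx₁, hy₂, hxn, hyn, hxy, hgen⟩
    · -- only the first component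
      push Not at hk₂
      obtain ⟨p₂, hp₂0, hp₂n⟩ := hk₂
      exact Or.inl (locGen_smooth hred₁ hinf n _ hm₁.isPrime h0₁ hn₁ ⟨p₂, hp₂0, hp₂n⟩)
  · -- only the second component
    push Not at hk₁
    obtain ⟨p₁, hp₁0, hp₁n⟩ := hk₁
    have hk₂ : ∀ z : B, red₂ z = 0 → z ∈ n := by
      intro z hz
      have h1 : p₁ * z ∈ Ideal.span {qB} :=
        hinf _ (by rw [map_mul, hp₁0, zero_mul]) (by rw [map_mul, hz, mul_zero])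
      have h2 : p₁ * z ∈ n := (Ideal.span_singleton_le_iff_mem n).2 hqn h1
      rcases hnprime.mem_or_mem h2 with h | h
      · exact absurd h hp₁n
      · exact h
    obtain ⟨hm₂, h0₂⟩ := hmax red₂ hred₂ hk₂
    have hn₂ := mem_iff_map_mem hred₂ n hk₂
    have hinf' : ∀ z : B, red₂ z = 0 → red₁ z = 0 → z ∈ Ideal.span {qB} :=
      fun z h2 h1 => hinf z h1 h2
    exact Or.inl (locGen_smooth hred₂ hinf' n _ hm₂.isPrime h0₂ hn₂ ⟨p₁, hp₁0, hp₁n⟩)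

end Assembly

end Fermat.Agent.S34.H83
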