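/-
helper83: S34, L1 (LOCGEN), second abstract file.

* `locGen'` : the statement of `H83.locGen` with NO Frobenius lift `s` and with the pair
  `(ρ, q)` replaced by an arbitrary ring endomorphism `W` of `R` all of whose values are `q`-th
  powers (`W = (ρ ·) ^ q`, i.e. the substitution `t ↦ t ^ q` on `q`-expansions).
* the output of `locGen` read in the local ring `O` of `B` at `n`:
  `maximalIdeal O = (q, x, y)` resp. `(q, τ)`, and the decomposition
  `O = C + x O + y O + q O` (`CA.H38.NodeDec`) where `C` is the image of a subring of constants of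
  `B` which surjects onto the residue field `B / n`.
-/
import Mathlib
import Fermat.Agent.CA.H38_MorseStep
import Fermat.Agent.S34.H83_LocGen

set_option autoImplicit false

namespace Fermat.Agent.S34.H83

/-! ### `locGen` without the Frobenius lift -/

section Transversal'

variable {B R BM : Type*} [CommRing B] [CommRing R] [CommRing BM]
  {red₁ red₂ : B →+* R} {ι V : BM →+* B} {rbar : BM →+* R} {W : R →+* R} {q : ℕ}

/-- **Transversality**, `s`-free form. -/
theorem exists_mem_ker_uniformizer'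
    (hroot : ∀ r : R, ∃ r' : R, r' ^ q = W r)
    (h1ι : ∀ ψ, red₁ (ι ψ) = rbar ψ) (h1V : ∀ ψ, red₁ (V ψ) = W (rbar ψ))
    (h2ι : ∀ ψ, red₂ (ι ψ) = W (rbar ψ)) (h2V : ∀ ψ, red₂ (V ψ) = rbar ψ)
    (hrbar : Function.Surjective rbar) (hq : 2 ≤ q)
    (n : Ideal B) (𝔞 𝔟 : Ideal R) (h𝔞 : 𝔞.IsPrime)
    (hn₁ : ∀ z : B, z ∈ n ↔ red₁ z ∈ 𝔞) (hn₂ : ∀ z : B, z ∈ n ↔ red₂ z ∈ 𝔟)
    {θ : R} (hθ : θ ∈ 𝔟) (hθ2 : θ ∉ 𝔟 ^ 2) :
    ∃ x : B, red₁ x = 0 ∧ red₂ x ∈ 𝔟 ∧ red₂ x ∉ 𝔟 ^ 2 := by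
  have hA : ∀ θ' : R, θ' ∈ 𝔞 → W θ' ∈ 𝔟 := by
    intro θ' h
    obtain ⟨ψ', rfl⟩ := hrbar θ'
    have h1 : ι ψ' ∈ n := (hn₁ _).2 (by rw [h1ι]; exact h)
    have h2 := (hn₂ _).1 h1
    rwa [h2ι] at h2
  have hB : ∀ θ' : R, θ' ∈ 𝔟 → W θ' ∈ 𝔞 := by
    intro θ' h
    obtain ⟨ψ', rfl⟩ := hrbar θ'
    have h1 : V ψ' ∈ n := (hn₂ _).2 (by rw [h2V]; exact h)
    have h2 := (hn₁ _).1 h1
    rwa [h1V] at h2
  obtain ⟨r', hr'⟩ := hroot θ
  obtain ⟨ψ, rfl⟩ := hrbar r'
  obtain ⟨ψ', rfl⟩ := hrbar θ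
  have hr𝔞 : rbar ψ ∈ 𝔞 := h𝔞.mem_of_pow_mem q (by rw [hr']; exact hB _ hθ)
  have hW𝔟 : W (rbar ψ) ∈ 𝔟 := hA _ hr𝔞
  have hW2 : W (rbar ψ) ^ q ∈ 𝔟 ^ 2 := by
    have h3 : q = 2 + (q - 2) := by omega
    rw [h3, pow_add]
    exact Ideal.mul_mem_right _ _ (Ideal.pow_mem_pow hW𝔟 2)
  have e₁ : red₁ (ι ψ ^ q - V ψ') = 0 := by
    rw [map_sub, map_pow, h1ι, h1V, hr', sub_self]
  have e₂ : red₂ (ι ψ ^ q - V ψ') = W (rbar ψ) ^ q - rbar ψ' := by
    rw [map_sub, map_pow, h2ι, h2V]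
  refine ⟨ι ψ ^ q - V ψ', e₁, ?_, ?_⟩
  · rw [e₂]
    exact sub_mem (Ideal.pow_le_self (by norm_num) hW2) hθ
  · rw [e₂]
    intro hmem
    apply hθ2
    have := sub_mem hW2 hmem
    simpa using this

end Transversal'

section Assembly'

variable {B R BM : Type*} [CommRing B] [CommRing R] [IsDedekindDomain R] [CommRing BM]
  {red₁ red₂ : B →+* R} {ι V : BM →+* B} {rbar : BM →+* R} {W : R →+* R}
  {q : ℕ} {qB : B}

/-- **L1 (LOCGEN), abstract, without Frobenius lift.**  `W` is the endomorphism `f(t) ↦ f(t^q)`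
of the level-`M` special fibre ring `R`; all its values are `q`-th powers. -/
theorem locGen'
    (hroot : ∀ r : R, ∃ r' : R, r' ^ q = W r)
    (h1ι : ∀ ψ, red₁ (ι ψ) = rbar ψ) (h1V : ∀ ψ, red₁ (V ψ) = W (rbar ψ))
    (h2ι : ∀ ψ, red₂ (ι ψ) = W (rbar ψ)) (h2V : ∀ ψ, red₂ (V ψ) = rbar ψ)
    (hrbar : Function.Surjective rbar) (hq : 2 ≤ q)
    (hred₁ : Function.Surjective red₁) (hred₂ : Function.Surjective red₂)
    (hinf : ∀ z : B, red₁ z = 0 → red₂ z = 0 → z ∈ Ideal.span {qB})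
    (hR : ¬ IsField R)
    (n : Ideal B) (hn : n.IsMaximal) (hqn : qB ∈ n) :
    (∃ τ ∈ n, ∀ z ∈ n, ∃ t : B, t ∉ n ∧ t * z ∈ Ideal.span {qB, τ}) ∨
    (∃ x y : B, red₁ x = 0 ∧ red₂ y = 0 ∧ x ∈ n ∧ y ∈ n ∧ x * y ∈ Ideal.span {qB} ∧
      ∀ z ∈ n, ∃ t : B, t ∉ n ∧ t * z ∈ Ideal.span {qB, x, y}) := by
  classical
  have hnprime : n.IsPrime := hn.isPrime
  have hmax : ∀ (red : B →+* R), Function.Surjective red → (∀ z : B, red z = 0 → z ∈ n) →
      (Ideal.map red n).IsMaximal ∧ Ideal.map red n ≠ ⊥ := by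
    intro red hred hker
    have h1 : (Ideal.map red n).IsMaximal := by
      rcases Ideal.map_eq_top_or_isMaximal_of_surjective red hred hn with h | h
      · exfalso
        have : (1 : B) ∈ n := (mem_iff_map_mem hred n hker 1).2 (by rw [h]; trivial)
        exact hnprime.ne_top ((Ideal.eq_top_iff_one n).2 this)
      · exact h
    exact ⟨h1, Ring.ne_bot_of_isMaximal_of_not_isField h1 hR⟩
  by_cases hk₁ : ∀ z : B, red₁ z = 0 → z ∈ n
  · obtain ⟨hm₁, h0₁⟩ := hmax red₁ hred₁ hk₁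
    have hn₁ := mem_iff_map_mem hred₁ n hk₁
    by_cases hk₂ : ∀ z : B, red₂ z = 0 → z ∈ n
    · obtain ⟨hm₂, h0₂⟩ := hmax red₂ hred₂ hk₂
      have hn₂ := mem_iff_map_mem hred₂ n hk₂
      obtain ⟨θ₂, hθ₂, hθ₂'⟩ := exists_mem_not_mem_sq hm₂.isPrime h0₂
      obtain ⟨θ₁, hθ₁, hθ₁'⟩ := exists_mem_not_mem_sq hm₁.isPrime h0₁
      obtain ⟨x, hx₁, hx₂, hx₂'⟩ := exists_mem_ker_uniformizer' (red₁ := red₁) (red₂ := red₂)
        hroot h1ι h1V h2ι h2V hrbar hq n _ _ hm₁.isPrime hn₁ hn₂ hθ₂ hθ₂'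
      obtain ⟨y, hy₂, hy₁, hy₁'⟩ := exists_mem_ker_uniformizer' (red₁ := red₂) (red₂ := red₁)
        (ι := V) (V := ι) hroot h2V h2ι h1V h1ι hrbar hq n _ _ hm₂.isPrime hn₂ hn₁
        hθ₁ hθ₁'
      obtain ⟨hxy, hxn, hyn, hgen⟩ := locGen_node hred₁ hred₂ hinf n _ _ hm₁.isPrime hm₂.isPrime
        hn₁ hn₂ hx₁ hx₂ hx₂' hy₂ hy₁ hy₁'
      exact Or.inr ⟨x, y, hx₁, hy₂, hxn, hyn, hxy, hgen⟩
    · push Not at hk₂
      obtain ⟨p₂, hp₂0, hp₂n⟩ := hk₂
      exact Or.inl (locGen_smooth hred₁ hinf n _ hm₁.isPrime h0₁ hn₁ ⟨p₂, hp₂0, hp₂n⟩)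
  · push Not at hk₁
    obtain ⟨p₁, hp₁0, hp₁n⟩ := hk₁
    have hk₂ : ∀ z : B, red₂ z = 0 → z ∈ n := by
      intro z hz
      have h1 : p₁ * z ∈ Ideal.span {qB} :=
        hinf _ (by rw [map_mul, hp₁0, zero_mul]) (by rw [map_mul, hz, mul_zero])
      have h2 : p₁ * z ∈ n := (Ideal.span_singleton_le_iff_mem n).2 hqn h1
      rcases hnprime.mem_or_mem h2 with h | h
      · exact absurd h hp₁n
      · exact h
    obtain ⟨hm₂, h0₂⟩ := hmax red₂ hred₂ hk₂
    have hn₂ := mem_iff_map_mem hred₂ n hk₂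
    have hinf' : ∀ z : B, red₂ z = 0 → red₁ z = 0 → z ∈ Ideal.span {qB} :=
      fun z h2 h1 => hinf z h1 h2
    exact Or.inl (locGen_smooth hred₂ hinf' n _ hm₂.isPrime h0₂ hn₂ ⟨p₁, hp₁0, hp₁n⟩)

end Assembly'

/-! ### Reading the output in the local ring -/

section Local

variable {B : Type*} [CommRing B] (n : Ideal B) [hn : n.IsMaximal]
  (O : Type*) [CommRing O] [Algebra B O] [IsLocalization.AtPrime O n]

/-- In the local ring, `n O` is generated by the images of any set of "local generators". -/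
theorem map_le_span_image_of_locGen {S : Set B}
    (hgen : ∀ z ∈ n, ∃ t : B, t ∉ n ∧ t * z ∈ Ideal.span S) :
    Ideal.map (algebraMap B O) n ≤ Ideal.span (algebraMap B O '' S) := by
  rw [Ideal.map_le_iff_le_comap]
  intro z hz
  obtain ⟨t, htn, htz⟩ := hgen z hz
  rw [Ideal.mem_comap]
  have hu : IsUnit (algebraMap B O t) :=
    IsLocalization.map_units O (⟨t, htn⟩ : n.primeCompl)
  have h1 : algebraMap B O (t * z) ∈ Ideal.span (algebraMap B O '' S) := by
    rw [← Ideal.map_span]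
    exact Ideal.mem_map_of_mem _ htz
  rw [map_mul] at h1
  exact (Ideal.unit_mul_mem_iff_mem _ hu).1 h1

/-- `maximalIdeal O` is generated by the images of local generators. -/
theorem maximalIdeal_le_span_image_of_locGen [IsLocalRing O] {S : Set B}
    (hgen : ∀ z ∈ n, ∃ t : B, t ∉ n ∧ t * z ∈ Ideal.span S) :
    IsLocalRing.maximalIdeal O ≤ Ideal.span (algebraMap B O '' S) := by
  rw [← IsLocalization.AtPrime.map_eq_maximalIdeal n O]
  exact map_le_span_image_of_locGen n O hgen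

/-- Every element of the local ring is congruent, modulo `n O`, to the image of a constant, as
soon as the constants surject onto `B / n`. -/
theorem exists_sub_mem_map_of_hres (C₀ : Subring B)
    (hres : ∀ b : B, ∃ c ∈ C₀, b - c ∈ n) (g : O) :
    ∃ c ∈ C₀, g - algebraMap B O c ∈ Ideal.map (algebraMap B O) n := by
  obtain ⟨b, ⟨s, hs⟩, rfl⟩ := IsLocalization.exists_mk'_eq n.primeCompl g
  -- an inverse of `s` modulo `n`
  obtain ⟨s', hs'⟩ : ∃ s' : B, s * s' - 1 ∈ n := by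
    obtain ⟨s', hs'⟩ := Ideal.Quotient.exists_inv (I := n)
      (a := Ideal.Quotient.mk n s) (by
        intro h
        exact hs (Ideal.Quotient.eq_zero_iff_mem.1 h))
    obtain ⟨s'', rfl⟩ := Ideal.Quotient.mk_surjective s'
    refine ⟨s'', ?_⟩
    rw [← Ideal.Quotient.eq_zero_iff_mem, map_sub, map_mul, hs', map_one, sub_self]
  obtain ⟨c, hc, hbc⟩ := hres (b * s')
  refine ⟨c, hc, ?_⟩
  have hu : IsUnit (algebraMap B O s) :=
    IsLocalization.map_units O (⟨s, hs⟩ : n.primeCompl)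
  have hmem : b - c * s ∈ n := by
    have e : b - c * s = (b * s' - c) * s - b * (s * s' - 1) := by ring
    rw [e]
    exact sub_mem (Ideal.mul_mem_right _ _ hbc) (Ideal.mul_mem_left _ _ hs')
  have h2 : algebraMap B O s * (IsLocalization.mk' O b (⟨s, hs⟩ : n.primeCompl)
      - algebraMap B O c) ∈ Ideal.map (algebraMap B O) n := by
    have e : algebraMap B O s * (IsLocalization.mk' O b (⟨s, hs⟩ : n.primeCompl)
        - algebraMap B O c) = algebraMap B O (b - c * s) := by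
      rw [mul_sub, mul_comm _ (IsLocalization.mk' O b _)]
      have := IsLocalization.mk'_spec O b (⟨s, hs⟩ : n.primeCompl)
      simp only at this
      rw [this, map_sub, map_mul]
      ring
    rw [e]
    exact Ideal.mem_map_of_mem _ hmem
  exact (Ideal.unit_mul_mem_iff_mem _ hu).1 h2

/-- **`NodeDec` is an output of L1**: at a node `n` with local generators `q, x, y`, if the
subring `C₀` of constants surjects onto `B / n` then `O = C + x O + y O + q O`, where `C` is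
the image of `C₀` in the local ring `O`. -/
theorem nodeDec_of_locGen (C₀ : Subring B)
    (hres : ∀ b : B, ∃ c ∈ C₀, b - c ∈ n) {qB x y : B}
    (hgen : ∀ z ∈ n, ∃ t : B, t ∉ n ∧ t * z ∈ Ideal.span {qB, x, y}) :
    CA.H38.NodeDec (C₀.map (algebraMap B O)) (algebraMap B O qB) (algebraMap B O x)
      (algebraMap B O y) := by
  intro g
  obtain ⟨c, hc, hg⟩ := exists_sub_mem_map_of_hres n O C₀ hres g
  have h1 := map_le_span_image_of_locGen n O hgen hg
  have himg : algebraMap B O '' {qB, x, y} =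
      {algebraMap B O qB, algebraMap B O x, algebraMap B O y} := by
    simp [Set.image_insert_eq]
  rw [himg] at h1
  obtain ⟨r, w, hw, hrw⟩ := Ideal.mem_span_insert.1 h1
  obtain ⟨a, b, rfl⟩ := Ideal.mem_span_pair.1 hw
  refine ⟨algebraMap B O c, Subring.mem_map.2 ⟨c, hc, rfl⟩, a, b, r, ?_⟩
  have e : g = algebraMap B O c + (g - algebraMap B O c) := by ring
  rw [e, hrw]
  ring

/-- The smooth-point analogue: `O = C + τ O + q O`. -/
theorem smoothDec_of_locGen (C₀ : Subring B)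
    (hres : ∀ b : B, ∃ c ∈ C₀, b - c ∈ n) {qB τ : B}
    (hgen : ∀ z ∈ n, ∃ t : B, t ∉ n ∧ t * z ∈ Ideal.span {qB, τ}) (g : O) :
    ∃ c ∈ C₀.map (algebraMap B O), ∃ a r : O,
      g = c + algebraMap B O τ * a + algebraMap B O qB * r := by
  obtain ⟨c, hc, hg⟩ := exists_sub_mem_map_of_hres n O C₀ hres g
  have h1 := map_le_span_image_of_locGen n O hgen hg
  have himg : algebraMap B O '' {qB, τ} = {algebraMap B O qB, algebraMap B O τ} := by
    simp [Set.image_insert_eq]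
  rw [himg] at h1
  obtain ⟨r, a, hra⟩ := Ideal.mem_span_pair.1 h1
  refine ⟨algebraMap B O c, Subring.mem_map.2 ⟨c, hc, rfl⟩, a, r, ?_⟩
  have e : g = algebraMap B O c + (g - algebraMap B O c) := by ring
  rw [e, ← hra]
  ring

/-- Variant of `nodeDec_of_locGen` with the constants given by a base ring `A₁`. -/
theorem nodeDec_of_locGen_algebra (A₁ : Type*) [CommRing A₁] [Algebra A₁ B] [Algebra A₁ O]
    [IsScalarTower A₁ B O]
    (hres : ∀ b : B, ∃ c : A₁, b - algebraMap A₁ B c ∈ n) {qB x y : B}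
    (hgen : ∀ z ∈ n, ∃ t : B, t ∉ n ∧ t * z ∈ Ideal.span {qB, x, y}) :
    CA.H38.NodeDec (algebraMap A₁ O).range (algebraMap B O qB) (algebraMap B O x)
      (algebraMap B O y) := by
  have h := nodeDec_of_locGen n O (algebraMap A₁ B).range
    (fun b => by
      obtain ⟨c, hc⟩ := hres b
      exact ⟨algebraMap A₁ B c, ⟨c, rfl⟩, hc⟩) hgen
  have e : (algebraMap A₁ B).range.map (algebraMap B O) = (algebraMap A₁ O).range := by
    rw [IsScalarTower.algebraMap_eq A₁ B O, RingHom.map_range]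
  rwa [e] at h

end Local

/-! ### The residue field of a closed point of the special fibre is the base residue field -/

section Residue

variable {A₁ B : Type*} [CommRing A₁] [CommRing B] [Algebra A₁ B]

/-- If `B` is of finite type over `A₁`, `(q)` is a maximal ideal of `A₁` with algebraically closed
residue field and `n ∋ q` is a maximal ideal of `B`, then `A₁ → B / n` is onto. -/
theorem hres_of_isAlgClosed [Algebra.FiniteType A₁ B] (q : A₁)
    [hqmax : (Ideal.span {q}).IsMaximal]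
    (hk : ∀ p : Polynomial (A₁ ⧸ Ideal.span {q}), p.Monic → 0 < p.natDegree →
      ∃ z, p.eval z = 0)
    (n : Ideal B) [hn : n.IsMaximal] (hqn : algebraMap A₁ B q ∈ n) (b : B) :
    ∃ c : A₁, b - algebraMap A₁ B c ∈ n := by
  classical
  let _ : Field (A₁ ⧸ Ideal.span {q}) := Ideal.Quotient.field _
  let _ : Field (B ⧸ n) := Ideal.Quotient.field _
  have : IsAlgClosed (A₁ ⧸ Ideal.span {q}) := by
    refine IsAlgClosed.of_exists_root _ ?_
    intro p hp hirr
    exact hk p hp (Polynomial.natDegree_pos_iff_degree_pos.2 (Polynomial.degree_pos_of_irreducible hirr))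
  -- the structure map `k → B / n`
  let φ : (A₁ ⧸ Ideal.span {q}) →+* (B ⧸ n) :=
    Ideal.Quotient.lift _ ((Ideal.Quotient.mk n).comp (algebraMap A₁ B)) (by
      intro a ha
      obtain ⟨c, rfl⟩ := Ideal.mem_span_singleton'.1 ha
      rw [RingHom.comp_apply, map_mul, map_mul,
        Ideal.Quotient.eq_zero_iff_mem.2 hqn, mul_zero])
  let _ : Algebra (A₁ ⧸ Ideal.span {q}) (B ⧸ n) := φ.toAlgebra
  have hft : Algebra.FiniteType (A₁ ⧸ Ideal.span {q}) (B ⧸ n) := by
    have h1 : ((Ideal.Quotient.mk n).comp (algebraMap A₁ B)).FiniteType :=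
      (RingHom.FiniteType.of_surjective _ Ideal.Quotient.mk_surjective).comp
        (RingHom.finiteType_algebraMap.2 inferInstance)
    have h2 : (φ.comp (Ideal.Quotient.mk (Ideal.span {q}))).FiniteType := by
      have : φ.comp (Ideal.Quotient.mk (Ideal.span {q})) =
          (Ideal.Quotient.mk n).comp (algebraMap A₁ B) := by
        ext a; simp [φ]
      rw [this]; exact h1
    exact RingHom.FiniteType.of_comp_finiteType h2
  have : Module.Finite (A₁ ⧸ Ideal.span {q}) (B ⧸ n) :=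
    finite_of_finite_type_of_isJacobsonRing _ _
  have hsurj : Function.Surjective (algebraMap (A₁ ⧸ Ideal.span {q}) (B ⧸ n)) :=
    (IsAlgClosed.algebraMap_bijective_of_isIntegral).2
  obtain ⟨cbar, hc⟩ := hsurj (Ideal.Quotient.mk n b)
  obtain ⟨c, rfl⟩ := Ideal.Quotient.mk_surjective cbar
  refine ⟨c, ?_⟩
  rw [← Ideal.Quotient.eq_zero_iff_mem, map_sub, ← hc]
  simp [RingHom.algebraMap_toAlgebra, φ]

end Residue

end Fermat.Agent.S34.H83
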