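/-
helper83: S34, the L0 → L1 interface as ONE `Prop`-valued structure, and the complete output of
L1 at a closed point `n` of the special fibre, read in the local ring `O` of the chart at `n`.

`TwoComponents red₁ red₂ ι V rbar W q qB` : the special fibre `B / q` of the chart `B` has two
components, both identified with the level-`M` special fibre ring `R` (`red₁`, `red₂ : B → R`
onto, `ker red₁ ∩ ker red₂ = (q)`), and the two degeneracy maps `ι, V : BM → B`
(`f ↦ f(z)`, `f ↦ f(qz)`) reduce to `id`, `W` on the first component and to `W`, `id` on the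
second one, `W` the substitution `t ↦ t ^ q`, all of whose values are `q`-th powers.
-/
import Mathlib
import Fermat.Agent.S34.H83_LocGenLocal

set_option autoImplicit false

namespace Fermat.Agent.S34.H83

/-- **The L0 → L1 interface.** -/
structure TwoComponents {B R BM : Type*} [CommRing B] [CommRing R] [CommRing BM]
    (red₁ red₂ : B →+* R) (ι V : BM →+* B) (rbar : BM →+* R) (W : R →+* R) (q : ℕ) (qB : B) :
    Prop where
  hroot : ∀ r : R, ∃ r' : R, r' ^ q = W r
  h1ι : ∀ ψ, red₁ (ι ψ) = rbar ψ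
  h1V : ∀ ψ, red₁ (V ψ) = W (rbar ψ)
  h2ι : ∀ ψ, red₂ (ι ψ) = W (rbar ψ)
  h2V : ∀ ψ, red₂ (V ψ) = rbar ψ
  hrbar : Function.Surjective rbar
  hred₁ : Function.Surjective red₁
  hred₂ : Function.Surjective red₂
  hinf : ∀ z : B, red₁ z = 0 → red₂ z = 0 → z ∈ Ideal.span {qB}

namespace TwoComponents

variable {B R BM : Type*} [CommRing B] [CommRing R] [IsDedekindDomain R] [CommRing BM]
  {red₁ red₂ : B →+* R} {ι V : BM →+* B} {rbar : BM →+* R} {W : R →+* R} {q : ℕ} {qB : B}

/-- L1 from the interface. -/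
theorem locGen (h : TwoComponents red₁ red₂ ι V rbar W q qB) (hq : 2 ≤ q) (hR : ¬ IsField R)
    (n : Ideal B) (hn : n.IsMaximal) (hqn : qB ∈ n) :
    (∃ τ ∈ n, ∀ z ∈ n, ∃ t : B, t ∉ n ∧ t * z ∈ Ideal.span {qB, τ}) ∨
    (∃ x y : B, red₁ x = 0 ∧ red₂ y = 0 ∧ x ∈ n ∧ y ∈ n ∧ x * y ∈ Ideal.span {qB} ∧
      ∀ z ∈ n, ∃ t : B, t ∉ n ∧ t * z ∈ Ideal.span {qB, x, y}) :=
  locGen' h.hroot h.h1ι h.h1V h.h2ι h.h2V h.hrbar hq h.hred₁ h.hred₂ h.hinf hR n hn hqn

/-- **L1, complete local output.**  `O` the local ring of `B` at a maximal ideal `n ∋ q`,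
`A₁` a base ring whose image surjects onto `B / n`.  Either (smooth point)
`𝔪_O = (q, τ)` and `O = A₁ + τ O + q O`, or (node) `𝔪_O = (q, x, y)`, `x y ∈ q O` and
`O = A₁ + x O + y O + q O` (`CA.H38.NodeDec`). -/
theorem local_output (h : TwoComponents red₁ red₂ ι V rbar W q qB) (hq : 2 ≤ q)
    (hR : ¬ IsField R) (n : Ideal B) [hn : n.IsMaximal] (hqn : qB ∈ n)
    (O : Type*) [CommRing O] [Algebra B O] [IsLocalization.AtPrime O n] [IsLocalRing O]
    (A₁ : Type*) [CommRing A₁] [Algebra A₁ B] [Algebra A₁ O] [IsScalarTower A₁ B O]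
    (hres : ∀ b : B, ∃ c : A₁, b - algebraMap A₁ B c ∈ n) :
    (∃ τ : B, τ ∈ n ∧
      IsLocalRing.maximalIdeal O ≤ Ideal.span {algebraMap B O qB, algebraMap B O τ} ∧
      ∀ g : O, ∃ c ∈ (algebraMap A₁ O).range, ∃ a r : O,
        g = c + algebraMap B O τ * a + algebraMap B O qB * r) ∨
    (∃ x y : B, red₁ x = 0 ∧ red₂ y = 0 ∧ x ∈ n ∧ y ∈ n ∧
      (∃ G : O, algebraMap B O x * algebraMap B O y = algebraMap B O qB * G) ∧
      IsLocalRing.maximalIdeal O ≤
        Ideal.span {algebraMap B O qB, algebraMap B O x, algebraMap B O y} ∧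
      CA.H38.NodeDec (algebraMap A₁ O).range (algebraMap B O qB) (algebraMap B O x)
        (algebraMap B O y)) := by
  have hC : (algebraMap A₁ B).range.map (algebraMap B O) = (algebraMap A₁ O).range := by
    rw [IsScalarTower.algebraMap_eq A₁ B O, RingHom.map_range]
  have hres' : ∀ b : B, ∃ c ∈ (algebraMap A₁ B).range, b - c ∈ n := fun b => by
    obtain ⟨c, hc⟩ := hres b
    exact ⟨algebraMap A₁ B c, ⟨c, rfl⟩, hc⟩
  rcases h.locGen hq hR n hn hqn with ⟨τ, hτn, hgen⟩ | ⟨x, y, hx, hy, hxn, hyn, hxy, hgen⟩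
  · refine Or.inl ⟨τ, hτn, ?_, ?_⟩
    · have := maximalIdeal_le_span_image_of_locGen n O hgen
      rwa [show algebraMap B O '' {qB, τ} = {algebraMap B O qB, algebraMap B O τ} by
        simp [Set.image_insert_eq]] at this
    · intro g
      have := smoothDec_of_locGen n O (algebraMap A₁ B).range hres' hgen g
      rwa [hC] at this
  · refine Or.inr ⟨x, y, hx, hy, hxn, hyn, ?_, ?_, ?_⟩
    · obtain ⟨G, hG⟩ := Ideal.mem_span_singleton'.1 hxy
      refine ⟨algebraMap B O G, ?_⟩
      rw [← map_mul, ← map_mul, ← hG, mul_comm]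
    · have := maximalIdeal_le_span_image_of_locGen n O hgen
      rwa [show algebraMap B O '' {qB, x, y} =
        {algebraMap B O qB, algebraMap B O x, algebraMap B O y} by
        simp [Set.image_insert_eq]] at this
    · exact nodeDec_of_locGen_algebra n O A₁ hres hgen

end TwoComponents

end Fermat.Agent.S34.H83
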