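import Fermat.Agent.S34.H3_VerticalPrimes
import Fermat.Agent.S34.H83_L0Target

/-!
# S34 seam: where the reducedness hypothesis `hrad` comes from

* `TwoComponents.hrad` : helper83's L0 → L1 interface gives `hrad` for the `A₁`-chart
  (`ker red₁ ∩ ker red₂ = (q)`, target reduced).
* `HradField C π` : `hrad` stated in the ambient field (depends only on the carrier set);
  `hrad_iff_hradField` : for any subring-like `S ⊆ E` and `p : S`.
* `hrad_of_carrier_eq` : transfer of `hrad` between two subrings of `E` with the same carrier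
  (e.g. helper79's `genRing A'' B E` and `chartB A'' J`).
* `hradField_of_isReduced` : from `IsReduced (S ⧸ (p))` (helper79's `isReduced_fibre`).
-/

set_option autoImplicit false

namespace Fermat.Agent.S34.H3

section TwoComp

variable {B R BM : Type*} [CommRing B] [CommRing R] [CommRing BM]
  {red₁ red₂ : B →+* R} {ι V : BM →+* B} {rbar : BM →+* R} {W : R →+* R} {q : ℕ} {qB : B}

/-- `B / q` is reduced when it embeds into `R × R` with `R` reduced. -/
theorem hrad_of_twoComponents [IsReduced R]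
    (h : H83.TwoComponents red₁ red₂ ι V rbar W q qB) (h₁ : red₁ qB = 0) (h₂ : red₂ qB = 0) :
    ∀ b : B, (∃ n : ℕ, qB ∣ b ^ n) → qB ∣ b := by
  rintro b ⟨n, c, hc⟩
  have hb₁ : red₁ b = 0 := by
    have : red₁ b ^ n = 0 := by rw [← map_pow, hc, map_mul, h₁, zero_mul]
    exact IsReduced.eq_zero _ ⟨n, this⟩
  have hb₂ : red₂ b = 0 := by
    have : red₂ b ^ n = 0 := by rw [← map_pow, hc, map_mul, h₂, zero_mul]
    exact IsReduced.eq_zero _ ⟨n, this⟩
  exact Ideal.mem_span_singleton.1 (h.hinf b hb₁ hb₂)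

/-- The two components are the kernels of `red₁`, `red₂`: an element of both is divisible by
`q`. -/
theorem dvd_of_red_eq_zero (h : H83.TwoComponents red₁ red₂ ι V rbar W q qB) {b : B}
    (hb₁ : red₁ b = 0) (hb₂ : red₂ b = 0) : qB ∣ b :=
  Ideal.mem_span_singleton.1 (h.hinf b hb₁ hb₂)

end TwoComp

section Field

variable {E : Type*} [Field E]

/-- `hrad` in the ambient field: only the carrier set matters. -/
def HradField (C : Set E) (π : E) : Prop :=
  ∀ b ∈ C, (∃ n : ℕ, ∃ c ∈ C, b ^ n = π * c) → ∃ c ∈ C, b = π * c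

variable {S : Type*} [SetLike S E] [SubringClass S E]

theorem hrad_iff_hradField (s : S) (p : ↥s) :
    (∀ b : ↥s, (∃ n : ℕ, p ∣ b ^ n) → p ∣ b) ↔ HradField (s : Set E) (p : E) := by
  constructor
  · intro h b hb ⟨n, c, hc, hbc⟩
    obtain ⟨d, hd⟩ := h ⟨b, hb⟩ ⟨n, ⟨c, hc⟩, Subtype.ext (by
      simpa using hbc)⟩
    exact ⟨d, d.2, by simpa using congrArg Subtype.val hd⟩
  · intro h b ⟨n, c, hc⟩
    obtain ⟨d, hd, hbd⟩ := h b b.2 ⟨n, c, c.2, by simpa using congrArg Subtype.val hc⟩
    exact ⟨⟨d, hd⟩, Subtype.ext (by simpa using hbd)⟩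

/-- `hrad` passes between two subring-like objects of `E` with the same carrier. -/
theorem hrad_of_carrier_eq {T : Type*} [SetLike T E] [SubringClass T E] (s : S) (t : T)
    (hst : (s : Set E) = (t : Set E)) (p : ↥s) (p' : ↥t) (hp : (p : E) = (p' : E))
    (h : ∀ b : ↥s, (∃ n : ℕ, p ∣ b ^ n) → p ∣ b) :
    ∀ b : ↥t, (∃ n : ℕ, p' ∣ b ^ n) → p' ∣ b := by
  rw [hrad_iff_hradField] at h ⊢
  rwa [← hst, ← hp]

end Field

section Reduced

variable {E : Type*} [Field E] {S : Type*} [SetLike S E] [SubringClass S E]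

/-- From `IsReduced (S ⧸ (p))` (e.g. `CA.H79.isReduced_fibre`). -/
theorem hradField_of_isReduced (s : S) (p : ↥s) [IsReduced (↥s ⧸ Ideal.span {p})] :
    HradField (s : Set E) (p : E) :=
  (hrad_iff_hradField s p).1 hrad_of_isReduced

end Reduced

end Fermat.Agent.S34.H3
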