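/-
helper56 — S34: adapter from the chart-form output of `H56_LocalDatum.local_datum` to
helper47's vocabulary (`H47_KummerInduct`): `PiIn π (O n) (u / ψ ^ m - 1)` with
`O n := localSubring n` (the local ring `B_n ⊆ K`) and `OneU (V k) ψ` with
`V k := valuationSubringAt P h1` (vertical height-one prime `P`).
-/
import Mathlib
import Fermat.Agent.S34.H47_KummerInduct
import Fermat.Agent.S34.H56_LocalDatum

set_option autoImplicit false
set_option linter.unusedSectionVars false
set_option linter.style.haveILetI false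

namespace Fermat.Agent.S34.H56

open Fermat.Agent.S34.H47

variable {B K : Type*} [CommRing B] [IsDomain B] [Field K] [Algebra B K] [IsFractionRing B K]

/-- The local ring `B_n ⊆ K` of the chart at the prime `n`, as a subring of `K`. -/
def localSubring (n : Ideal B) [hn : n.IsPrime] : Subring K where
  carrier := {x | MemAt n x}
  mul_mem' := fun hx hy => hx.mul hy
  one_mem' := by
    have := memAt_algebraMap (K := K) n hn.ne_top 1
    rwa [map_one] at this
  add_mem' := fun hx hy => hx.add hy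
  zero_mem' := by
    have := memAt_algebraMap (K := K) n hn.ne_top 0
    rwa [map_zero] at this
  neg_mem' := fun hx => hx.neg

theorem mem_localSubring {n : Ideal B} [n.IsPrime] {x : K} :
    x ∈ localSubring (K := K) n ↔ MemAt n x := Iff.rfl

theorem algebraMap_mem_localSubring (n : Ideal B) [hn : n.IsPrime] (b : B) :
    algebraMap B K b ∈ localSubring (K := K) n := memAt_algebraMap n hn.ne_top b

/-- `x` is a unit of `B_n` iff `IsUnitAt n x`. -/
theorem unitIn_localSubring_iff {n : Ideal B} [n.IsPrime] {x : K} :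
    UnitIn (localSubring (K := K) n) x ↔ IsUnitAt n x := by
  rw [isUnitAt_iff_memAt]
  constructor
  · rintro ⟨h1, h2, h3⟩; exact ⟨h3, h1, h2⟩
  · rintro ⟨h3, h1, h2⟩; exact ⟨h1, h2, h3⟩

/-- Chart form `u b = ψ^m a`, `b ∉ n`, `a ≡ b mod π` ⇒ `u / ψ^m - 1 ∈ π B_n`. -/
theorem piIn_of_chart {R : Type*} [CommRing R] [Algebra R B] [Algebra R K] [IsScalarTower R B K]
    (π0 : R) (n : Ideal B) [n.IsPrime] {u ψ : K} {m : ℕ} (hψ : ψ ≠ 0)
    (h : ∃ a b : B, b ∉ n ∧ a - b ∈ Ideal.span {algebraMap R B π0} ∧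
      u * algebraMap B K b = ψ ^ m * algebraMap B K a) :
    PiIn π0 (localSubring (K := K) n) (u / ψ ^ m - 1) := by
  obtain ⟨a, b, hb, hab, he⟩ := h
  obtain ⟨c, hc⟩ := Ideal.mem_span_singleton.mp hab
  have hb0 : algebraMap B K b ≠ 0 := by
    intro h0
    have : b = 0 := (IsFractionRing.injective B K) (by rw [h0, map_zero])
    exact hb (this ▸ n.zero_mem)
  refine ⟨algebraMap B K c / algebraMap B K b, ⟨c, b, hb, by field_simp⟩, ?_⟩
  have hψm : ψ ^ m ≠ 0 := pow_ne_zero _ hψ
  have e1 : u / ψ ^ m = algebraMap B K a / algebraMap B K b := by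
    rw [div_eq_div_iff hψm hb0, he]; ring
  have e2 : algebraMap B K a = algebraMap B K b + algebraMap R K π0 * algebraMap B K c := by
    rw [IsScalarTower.algebraMap_apply R B K, ← map_mul, ← map_add, ← hc]; congr 1; ring
  rw [e1, e2]
  field_simp
  ring

section Vert

variable [IsNoetherianRing B] [IsIntegrallyClosed B]

/-- Chart form `(ψ - 1) b = π a`, `b ∉ P` ⇒ `ψ` is a `1`-unit of the vertical valuation ring. -/
theorem oneU_of_chart (P : Ideal B) [hP : P.IsPrime] (h1 : P.height = 1) {π : B} (hπP : π ∈ P)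
    {ψ : K} (h : ∃ a b : B, b ∉ P ∧ (ψ - 1) * algebraMap B K b = algebraMap B K (π * a)) :
    OneU (valuationSubringAt (K := K) P h1) ψ := by
  obtain ⟨a, b, hb, hab⟩ := h
  unfold OneU
  have hvb : (valuationSubringAt (K := K) P h1).valuation (algebraMap B K b) = 1 :=
    (valuation_eq_one_iff h1).mpr (isUnitAt_algebraMap hb hP.ne_top)
  have hvπ : (valuationSubringAt (K := K) P h1).valuation (algebraMap B K π) < 1 :=
    (algebraMap_mem_nonunits_iff h1 π).mpr hπP
  have hva : (valuationSubringAt (K := K) P h1).valuation (algebraMap B K a) ≤ 1 :=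
    ((valuationSubringAt (K := K) P h1).valuation_le_one_iff _).mpr
      (algebraMap_mem_valuationSubringAt h1 a)
  have := congrArg (valuationSubringAt (K := K) P h1).valuation hab
  rw [map_mul, hvb, mul_one, map_mul, map_mul] at this
  rw [this]
  calc _ ≤ (valuationSubringAt (K := K) P h1).valuation (algebraMap B K π) * 1 :=
        mul_le_mul_right hva _
    _ < 1 := by rwa [mul_one]

/-- **The local datum at `n` in helper47's shape.** -/
theorem localDatum_at {R : Type*} [CommRing R] [Algebra R B] [Algebra R K] [IsScalarTower R B K]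
    (π0 : R) (n : Ideal B) [hn : n.IsPrime] (hπn : algebraMap R B π0 ∈ n)
    (sB : B ≃+* B) (s : K ≃+* K)
    (hs : ∀ b, s (algebraMap B K b) = algebraMap B K (sB b))
    (hsπ : ∀ b, sB b - b ∈ Ideal.span {algebraMap R B π0})
    {ι : Type*} (S : Finset ι) (q : ι → Ideal B)
    (hqinj : ∀ i ∈ S, ∀ j ∈ S, q i = q j → i = j)
    (ω : ι → K) (k : ι → ℤ) (f : K) (hf0 : f ≠ 0) (hω0 : ∀ j ∈ S, ω j ≠ 0) (m : ℕ)
    (hsingle : ∀ j ∈ S, ∀ p : Ideal B, p.IsPrime → p.height = 1 → p ≤ n →
      algebraMap R B π0 ∉ p → p ≠ q j → IsUnitAt p (ω j))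
    (hf : ∀ j ∈ S, IsUnitAt (q j) (f / (ω j ^ k j) ^ m))
    (hf' : ∀ p : Ideal B, p.IsPrime → p.height = 1 → p ≤ n → algebraMap R B π0 ∉ p →
      ¬ Stable sB p → (∀ j ∈ S, p ≠ q j) → IsUnitAt p f) :
    ∃ ψ : K, ψ ≠ 0 ∧
      PiIn π0 (localSubring (K := K) n) (s (s f / f) / (s f / f) / ψ ^ m - 1) ∧
      (∀ (P : Ideal B) [P.IsPrime] (h1 : P.height = 1), algebraMap R B π0 ∈ P →
        OneU (valuationSubringAt (K := K) P h1) ψ) ∧
      (∀ (P : Ideal B) [P.IsPrime] (h1 : P.height = 1), algebraMap R B π0 ∈ P →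
        OneU (valuationSubringAt (K := K) P h1) (s (s f / f) / (s f / f))) := by
  obtain ⟨ψ, hψ0, hε, hψ1, hu1⟩ := local_datum n (algebraMap R B π0) hπn sB s hs hsπ S q hqinj
    ω k f hf0 hω0 m hsingle hf hf'
  refine ⟨ψ, hψ0, piIn_of_chart π0 n hψ0 hε, ?_, ?_⟩
  · intro P hP h1 hπP
    exact oneU_of_chart P h1 hπP (hψ1 P hP h1 hπP)
  · intro P hP h1 hπP
    exact oneU_of_chart P h1 hπP (hu1 P hP h1 hπP)

end Vert

end Fermat.Agent.S34.H56
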