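import Fermat.Agent.S34.H69_KummerInduction
import Fermat.Agent.S34.H21_ModelHypCharts

/-!
# S34, L8: the composition (helper69)

`kummer_descent_pow` = `H47.exists_pow_of_localDatum` applied to helper21's
`H21.modelHyp_of_chart_primes` (the standing hypotheses for the two-chart model) and
`hK_of_charts` (the Kummer step from `kummer_descent`).  The only hypothesis about the
function `u` is its local datum `H47.LocalDatum (H21.ptO ..) (V) (H21.primeThr ..) π u (l ^ k)`.
-/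

set_option autoImplicit false

open Polynomial IntermediateField Fermat.Agent.S18 Fermat.Agent.CA.H69

namespace Fermat.Agent.S34.H69

universe v

section Noeth

variable {R : Type*} [CommRing R] {K : Type*} [Field K] [Algebra R K]
  {F : Type*} [Field F] [Algebra R F] [Algebra K F] [IsScalarTower R K F]

/-- The chart `chartB R j` is noetherian (same statement as `H95.isNoetherianRing_chartB`;
repeated here to keep this file independent of the modular-curve instance). -/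
theorem isNoetherianRing_chartB_of_finite [IsDomain R] [IsNoetherianRing R] [IsIntegrallyClosed R]
    [IsFractionRing R K] (j : F) (htr : Transcendental K j)
    [FiniteDimensional K⟮j⟯ F] [Algebra.IsSeparable K⟮j⟯ F] :
    IsNoetherianRing ↥(H40.chartB R j) := by
  have hfin : Module.Finite (Algebra.adjoin R {j}) (integralClosure (Algebra.adjoin R {j}) F) :=
    H40.module_finite_integralClosure_adjoin j htr
  have hA1 : IsNoetherianRing (Algebra.adjoin R {j}) :=
    isNoetherianRing_of_ringEquiv (Polynomial R)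
      (Polynomial.algEquivOfTranscendental R j (H40.transcendental_of_tower j htr)).toRingEquiv
  have h : IsNoetherianRing ↥(integralClosure (Algebra.adjoin R {j}) F) :=
    IsNoetherianRing.of_finite (Algebra.adjoin R {j}) _
  exact h

end Noeth

section SeamV

variable {B F : Type*} [CommRing B] [IsDomain B] [Field F] [Algebra B F] [IsFractionRing B F]
  [IsNoetherianRing B] [IsIntegrallyClosed B]

/-- an element of the maximal ideal of the valuation ring of a height-one prime `p`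
is a fraction `a / s` with `a ∈ p`, `s ∉ p`. -/
theorem inMaxB_of_valuation_lt_one {p : Ideal B} [hp : p.IsPrime] (h1 : p.height = 1) {x : F}
    (hx : (H56.valuationSubringAt (K := F) p h1).valuation x < 1) : InMaxB (K := F) p x := by
  have hmem : x ∈ H56.valuationSubringAt (K := F) p h1 :=
    ((H56.valuationSubringAt (K := F) p h1).valuation_le_one_iff x).mp hx.le
  obtain ⟨a, s, hs, has⟩ := (H56.mem_valuationSubringAt h1).mp hmem
  have hs1 : (H56.valuationSubringAt (K := F) p h1).valuation (algebraMap B F s) = 1 := by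
    have hle : (H56.valuationSubringAt (K := F) p h1).valuation (algebraMap B F s) ≤ 1 :=
      ((H56.valuationSubringAt (K := F) p h1).valuation_le_one_iff _).mpr
        (H56.algebraMap_mem_valuationSubringAt h1 s)
    rcases lt_or_eq_of_le hle with h | h
    · exact absurd ((H56.algebraMap_mem_nonunits_iff h1 s).mp h) hs
    · exact h
  have ha : a ∈ p := by
    rw [← H56.algebraMap_mem_nonunits_iff (K := F) h1 a, ← has, map_mul, hs1, mul_one]
    exact hx
  exact ⟨a, ha, s, hs, has⟩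

end SeamV

/-- **L8, composed.**  In the binder block of `kummer_descent` over a DVR `R` (uniformiser `π`),
with the vertical primes `P₁ k`, `P₂ k`, `P₁₂ k` of height one and the connectedness `hconn`:
a function `u ≠ 0` with a local datum for `l ^ k` is a constant times an `l ^ k`-th power. -/
theorem kummer_descent_pow
    {R : Type*} [CommRing R] [IsDomain R] [IsDiscreteValuationRing R]
    {K : Type*} [Field K] [Algebra R K] [IsFractionRing R K]
    {F : Type v} [Field F] [Algebra R F] [Algebra K F] [IsScalarTower R K F]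
    (J : F) (htr : Transcendental K J) [FiniteDimensional K⟮J⟯ F] [Algebra.IsSeparable K⟮J⟯ F]
    [IsFractionRing ↥(H40.chartB R J) F] [IsFractionRing ↥(H40.chartB R J⁻¹) F]
    [IsNoetherianRing ↥(H40.chartB R J)] [IsIntegrallyClosed ↥(H40.chartB R J)]
    (hcl : ∀ z : F, IsAlgebraic K z → z ∈ (algebraMap K F).range)
    (π : R) (hπ : Irreducible π)
    {l : ℕ} (hl : l.Prime) (hlu : IsUnit ((l : ℕ) : R)) {ζ : R} (hζ : IsPrimitiveRoot ζ l)
    (hroot : ∀ r : R, IsUnit r → ∃ γ : R, IsUnit γ ∧ π ∣ γ ^ l * r - 1)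
    {ι : Type*} [Finite ι] [Nonempty ι]
    (P₁ : ι → Ideal ↥(H40.chartB R J)) (P₂ : ι → Ideal ↥(H40.chartB R J⁻¹))
    (P₁₂ : ι → Ideal ↥(H83.chart12 R J))
    [hP₁ : ∀ i, (P₁ i).IsPrime] [hP₂ : ∀ i, (P₂ i).IsPrime] [hP₁₂ : ∀ k, (P₁₂ k).IsPrime]
    (hh₁ : ∀ k, (P₁ k).height = 1) (hh₂ : ∀ k, (P₂ k).height = 1)
    (hπP₁ : ∀ i, algebraMap R ↥(H40.chartB R J) π ∈ P₁ i)
    (hπP₂ : ∀ i, algebraMap R ↥(H40.chartB R J⁻¹) π ∈ P₂ i)
    (hπP₁₂ : ∀ i, algebraMap R ↥(H83.chart12 R J) π ∈ P₁₂ i)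
    (hcomp₁ : ∀ k, ∀ s : ↥(H40.chartB R J), s ∉ P₁ k →
      Subalgebra.inclusion (H83.chartB_le_chart12 (R := R) J) s ∉ P₁₂ k)
    (hcomp₂ : ∀ k, ∀ s : ↥(H40.chartB R J⁻¹), s ∉ P₂ k →
      Subalgebra.inclusion (H83.chartB_inv_le_chart12 (R := R) J) s ∉ P₁₂ k)
    (hred₁ : ∀ i, ∀ b ∈ P₁ i, ∃ s, s ∉ P₁ i ∧ algebraMap R ↥(H40.chartB R J) π ∣ s * b)
    (hred₂ : ∀ i, ∀ b ∈ P₂ i, ∃ s, s ∉ P₂ i ∧ algebraMap R ↥(H40.chartB R J⁻¹) π ∣ s * b)
    (hsat₁ : ∀ b : ↥(H40.chartB R J),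
      (∀ i, ∃ s, s ∉ P₁ i ∧ algebraMap R ↥(H40.chartB R J) π ∣ s * b) →
      algebraMap R ↥(H40.chartB R J) π ∣ b)
    (hsat₂ : ∀ b : ↥(H40.chartB R J⁻¹),
      (∀ i, ∃ s, s ∉ P₂ i ∧ algebraMap R ↥(H40.chartB R J⁻¹) π ∣ s * b) →
      algebraMap R ↥(H40.chartB R J⁻¹) π ∣ b)
    (hsat₁₂ : ∀ b : ↥(H83.chart12 R J),
      (∀ k, ∃ s, s ∉ P₁₂ k ∧ algebraMap R ↥(H83.chart12 R J) π ∣ s * b) →
      algebraMap R ↥(H83.chart12 R J) π ∣ b)
    (hall₁ : ∀ n : Ideal ↥(H40.chartB R J), n.IsMaximal →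
      algebraMap R ↥(H40.chartB R J) π ∈ n → ∃ k, P₁ k ≤ n)
    (hall₂ : ∀ n : Ideal ↥(H40.chartB R J⁻¹), n.IsMaximal →
      algebraMap R ↥(H40.chartB R J⁻¹) π ∈ n → ∃ k, P₂ k ≤ n)
    (hconn : ∀ c : ι → ℕ,
      (∀ n : Ideal ↥(H40.chartB R J), n.IsMaximal → ∀ k k', P₁ k ≤ n → P₁ k' ≤ n → c k = c k') →
      (∀ n : Ideal ↥(H40.chartB R J⁻¹), n.IsMaximal → ∀ k k', P₂ k ≤ n → P₂ k' ≤ n →
        c k = c k') →
      ∀ k k', c k = c k') :
    ∀ (k : ℕ) (u : F), u ≠ 0 →
      H47.LocalDatum (H21.ptO (H40.chartB R J) (H40.chartB R J⁻¹) π)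
        (fun k => H56.valuationSubringAt (K := F) (P₁ k) (hh₁ k))
        (H21.primeThr (π := π) P₁ P₂) π u (l ^ k) →
      ∃ (c : K) (g : F), c ≠ 0 ∧ g ≠ 0 ∧ u = algebraMap K F c * g ^ (l ^ k) := by
  have hfdinv : FiniteDimensional K⟮J⁻¹⟯ F := by
    have e : K⟮J⁻¹⟯ = K⟮J⟯ := by
      apply le_antisymm
      · rw [IntermediateField.adjoin_simple_le_iff]
        exact inv_mem (IntermediateField.mem_adjoin_simple_self K J)
      · rw [IntermediateField.adjoin_simple_le_iff]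
        have := inv_mem (IntermediateField.mem_adjoin_simple_self K J⁻¹)
        rwa [inv_inv] at this
    rw [e]
    infer_instance
  have hsepinv : Algebra.IsSeparable K⟮J⁻¹⟯ F := by
    have e : K⟮J⁻¹⟯ = K⟮J⟯ := by
      apply le_antisymm
      · rw [IntermediateField.adjoin_simple_le_iff]
        exact inv_mem (IntermediateField.mem_adjoin_simple_self K J)
      · rw [IntermediateField.adjoin_simple_le_iff]
        have := inv_mem (IntermediateField.mem_adjoin_simple_self K J⁻¹)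
        rwa [inv_inv] at this
    rw [e]
    infer_instance
  have htrinv : Transcendental K J⁻¹ := by
    intro halg
    exact htr (by simpa using halg.inv)
  have hN₂ : IsNoetherianRing ↥(H40.chartB R J⁻¹) :=
    isNoetherianRing_chartB_of_finite (K := K) J⁻¹ htrinv
  have hI₂ : IsIntegrallyClosed ↥(H40.chartB R J⁻¹) :=
    H3.isIntegrallyClosed_chartB (R := R) (K := K) J⁻¹
  have hF₁₂ : IsFractionRing ↥(H83.chart12 R J) F := isFractionRing_chart12 (R := R) (K := K) J
  have hinj : Function.Injective (algebraMap R F) :=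
    H21.algebraMap_injective_of_tower (R := R) K (F := F)
  have hπp : Prime π := hπ.prime
  obtain ⟨vl, hvl⟩ := hlu
  have hrl : algebraMap R F ((vl⁻¹ : Rˣ) : R) * (l : F) = 1 := by
    have : (l : F) = algebraMap R F ((l : ℕ) : R) := (map_natCast (algebraMap R F) l).symm
    rw [this, ← hvl, ← map_mul, Units.inv_mul, map_one]
  have hw : IsPrimitiveRoot (algebraMap R F ζ) l := hζ.map_of_injective hinj
  have H : H47.ModelHyp K (H21.ptO (H40.chartB R J) (H40.chartB R J⁻¹) π)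
      (fun k => H56.valuationSubringAt (K := F) (P₁ k) (hh₁ k))
      (H21.primeThr (π := π) P₁ P₂) π l ζ :=
    H21.modelHyp_of_chart_primes (B₁₂ := H83.chart12 R J) (P₁₂ := P₁₂) hπ
      (H83.chartB_le_chart12 (R := R) J) (H83.chartB_inv_le_chart12 (R := R) J)
      hh₁ hh₂ hπP₁ hπP₂ hπP₁₂ hcomp₁ hcomp₂ hred₁ hred₂ hall₁ hall₂ hl.pos ⟨vl, hvl⟩ hζ hroot
      hconn
  have hVeq : ∀ k, H56.valuationSubringAt (K := F) (P₁ k) (hh₁ k)
      = H56.valuationSubringAt (K := F) (P₂ k) (hh₂ k) := fun k =>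
    H21.valuationSubringAt_eq K hπ (H83.chartB_le_chart12 (R := R) J)
      (H83.chartB_inv_le_chart12 (R := R) J) (P₁ k) (P₂ k) (P₁₂ k) (hh₁ k) (hh₂ k) (hπP₁ k)
      (hπP₂ k) (hπP₁₂ k) (hcomp₁ k) (hcomp₂ k) (hred₁ k) (hred₂ k)
  refine H47.exists_pow_of_localDatum H
    (hK_of_charts J htr hcl π hπp hl hrl hw P₁ P₂ P₁₂ hP₁ hP₂ hP₁₂ hπP₁ hπP₂ hcomp₁ hcomp₂
      hred₁ hred₂ hsat₁ hsat₂ hsat₁₂ _ _ _
      (fun n hn hπn => Sum.inl ⟨n, hn, hπn⟩) (fun n hn hπn => Sum.inr ⟨n, hn, hπn⟩) id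
      ?_ ?_ ?_ ?_ ?_ ?_)
  · intro n hn hπn x hx
    exact hx
  · intro n hn hπn x hx
    exact hx
  · intro n hn hπn k hk
    exact hk
  · intro n hn hπn k hk
    exact hk
  · intro k x hx
    exact (inMaxB_of_valuation_lt_one (hh₁ k) hx).inPiB (P₁ k) (hred₁ k)
  · intro k x hx
    have hx' : (H56.valuationSubringAt (K := F) (P₂ k) (hh₂ k)).valuation (x - 1) < 1 :=
      (H21.valuation_lt_one_congr (hVeq k) _).mp hx
    exact (inMaxB_of_valuation_lt_one (hh₂ k) hx').inPiB (P₂ k) (hred₂ k)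

end Fermat.Agent.S34.H69
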