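import Mathlib
import Fermat.Agent.S34.H69_KummerPow
import Fermat.Agent.S34.H56_DatumAdapter
import Fermat.Agent.S34.H56_CoordGlue
import Fermat.Prelude.Def_AlgebraicCurve_DivisorClassGroup

/-!
# S34, MIDDLE layer (helper61): the chain skeleton

`exists_const_mul_pow_of_chartDatum`:  in the binder block of helper69's `H69.kummer_descent_pow`
(`R = A''` a DVR with uniformiser `π`, `K = K''`, `F = F''`, chart coordinate `J`, the vertical
primes `P₁ k`, `P₂ k`, `P₁₂ k` of the three charts, connectedness), let `s : F ≃+* F` be the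
inertia action.  Suppose that at EVERY closed point `n ∋ π` of the two charts the chart-form local
datum holds for every admissible `f` - this is VERBATIM the conclusion of helper56's
`H56.local_datum_of_L1` (`ChartDatum` below).  Then for every admissible `f`
(`l ^ k ∣ ord_w f`, zeros and poles of degree one, finite support)

  `s (s f / f) / (s f / f) = c * g ^ (l ^ k)`   with `c : K`, `g : F`,

which is the conclusion of helper11's `UFnE` at level `E`.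
-/

set_option autoImplicit false
set_option linter.unusedSectionVars false
set_option linter.style.haveILetI false

open Polynomial IntermediateField AlgebraicCurve Fermat.Agent.S18

namespace Fermat.Agent.S34.H61

universe v

section Datum

variable {R k B F : Type*} [CommRing R] [Field k] [Algebra R k]
  [CommRing B] [Field F] [Algebra B F] [Algebra R B] [Algebra k F]

/-- The admissibility conditions on `f` (helper11's `UFnE` hypotheses). -/
def Admissible (k : Type*) {F : Type*} [Field k] [Field F] [Algebra k F] (f : F) (m : ℕ) : Prop :=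
  f ≠ 0 ∧ (∀ w : Place k F, (m : ℤ) ∣ w.ord f) ∧ (∀ w : Place k F, w.ord f ≠ 0 → w.deg = 1) ∧
    {w : Place k F | w.ord f ≠ 0}.Finite

/-- The chart-form local datum at the prime `n` of the chart `B` for the function
`u = s (s f / f) / (s f / f)` and the exponent `m`: VERBATIM the conclusion of
`H56.local_datum_of_L1`. -/
def ChartDatumAt (π : R) (s : F ≃+* F) (n : Ideal B) (f : F) (m : ℕ) : Prop :=
  ∃ ψ : F, ψ ≠ 0 ∧
    (∃ a b : B, b ∉ n ∧ a - b ∈ Ideal.span {algebraMap R B π} ∧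
      s (s f / f) / (s f / f) * algebraMap B F b = ψ ^ m * algebraMap B F a) ∧
    (∀ P : Ideal B, P.IsPrime → P.height = 1 → algebraMap R B π ∈ P →
      ∃ a b : B, b ∉ P ∧ (ψ - 1) * algebraMap B F b = algebraMap B F (algebraMap R B π * a)) ∧
    (∀ P : Ideal B, P.IsPrime → P.height = 1 → algebraMap R B π ∈ P →
      ∃ a b : B, b ∉ P ∧
        (s (s f / f) / (s f / f) - 1) * algebraMap B F b =
          algebraMap B F (algebraMap R B π * a))

/-- The chart-form local datum at every closed point of the special fibre of the chart `B`. -/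
def ChartDatum (k : Type*) [Field k] [Algebra k F] (π : R) (s : F ≃+* F) : Prop :=
  ∀ n : Ideal B, n.IsMaximal → algebraMap R B π ∈ n →
    ∀ (f : F) (m : ℕ), Admissible k f m → ChartDatumAt (B := B) π s n f m

end Datum

/-- **MIDDLE, core.**  Chart data at all closed points of both charts + the vertical block of
`kummer_descent_pow` ⟹ the `UFnE` conclusion. -/
theorem exists_const_mul_pow_of_chartDatum
    {R : Type*} [CommRing R] [IsDomain R] [IsDiscreteValuationRing R]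
    {K : Type*} [Field K] [Algebra R K] [IsFractionRing R K]
    {F : Type v} [Field F] [Algebra R F] [Algebra K F] [IsScalarTower R K F]
    (J : F) (htr : Transcendental K J) [FiniteDimensional K⟮J⟯ F] [Algebra.IsSeparable K⟮J⟯ F]
    [IsFractionRing ↥(H40.chartB R J) F] [IsFractionRing ↥(H40.chartB R J⁻¹) F]
    [IsNoetherianRing ↥(H40.chartB R J)] [IsIntegrallyClosed ↥(H40.chartB R J)]
    [IsNoetherianRing ↥(H40.chartB R J⁻¹)] [IsIntegrallyClosed ↥(H40.chartB R J⁻¹)]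
    (hcl : ∀ z : F, IsAlgebraic K z → z ∈ (algebraMap K F).range)
    (π : R) (hπ : Irreducible π)
    {l : ℕ} (hl : l.Prime) (hlu : IsUnit ((l : ℕ) : R)) {ζ : R} (hζ : IsPrimitiveRoot ζ l)
    (hroot : ∀ r : R, IsUnit r → ∃ γ : R, IsUnit γ ∧ π ∣ γ ^ l * r - 1)
    {ι : Type*} [Finite ι] [Nonempty ι]
    (P₁ : ι → Ideal ↥(H40.chartB R J)) (P₂ : ι → Ideal ↥(H40.chartB R J⁻¹))
    (P₁₂ : ι → Ideal ↥(H83.chart12 R J))
    [hP₁ : ∀ i, (P₁ i).IsPrime] [hP₂ : ∀ i, (P₂ i).IsPrime] [hP₁₂ : ∀ k, (P₁₂ k).IsPrime]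
    (hh₁ : ∀ k, (P₁ k).height = 1) (hh₂ : ∀ k, (P₂ k).height = 1)
    (hπP₁ : ∀ i, algebraMap R ↥(H40.chartB R J) π ∈ P₁ i)
    (hπP₂ : ∀ i, algebraMap R ↥(H40.chartB R J⁻¹) π ∈ P₂ i)
    (hπP₁₂ : ∀ i, algebraMap R ↥(H83.chart12 R J) π ∈ P₁₂ i)
    (hcomp₁ : ∀ k, ∀ s : ↥(H40.chartB R J), s ∉ P₁ k →
      Subalgebra.inclusion (H83.chartB_le_chart12 (R := R) J) s ∉ P₁₂ k)
    (hcomp₂ : ∀ k, ∀ s : ↥(H40.chartB R J⁻¹), s ∉ P₂ k →
      Subalgebra.inclusion (H83.chartB_inv_le_chart12 (R := R) J) s ∉ P₁₂ k)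
    (hred₁ : ∀ i, ∀ b ∈ P₁ i, ∃ s, s ∉ P₁ i ∧ algebraMap R ↥(H40.chartB R J) π ∣ s * b)
    (hred₂ : ∀ i, ∀ b ∈ P₂ i, ∃ s, s ∉ P₂ i ∧ algebraMap R ↥(H40.chartB R J⁻¹) π ∣ s * b)
    (hsat₁ : ∀ b : ↥(H40.chartB R J),
      (∀ i, ∃ s, s ∉ P₁ i ∧ algebraMap R ↥(H40.chartB R J) π ∣ s * b) →
      algebraMap R ↥(H40.chartB R J) π ∣ b)
    (hsat₂ : ∀ b : ↥(H40.chartB R J⁻¹),
      (∀ i, ∃ s, s ∉ P₂ i ∧ algebraMap R ↥(H40.chartB R J⁻¹) π ∣ s * b) →
      algebraMap R ↥(H40.chartB R J⁻¹) π ∣ b)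
    (hsat₁₂ : ∀ b : ↥(H83.chart12 R J),
      (∀ k, ∃ s, s ∉ P₁₂ k ∧ algebraMap R ↥(H83.chart12 R J) π ∣ s * b) →
      algebraMap R ↥(H83.chart12 R J) π ∣ b)
    (hall₁ : ∀ n : Ideal ↥(H40.chartB R J), n.IsMaximal →
      algebraMap R ↥(H40.chartB R J) π ∈ n → ∃ k, P₁ k ≤ n)
    (hall₂ : ∀ n : Ideal ↥(H40.chartB R J⁻¹), n.IsMaximal →
      algebraMap R ↥(H40.chartB R J⁻¹) π ∈ n → ∃ k, P₂ k ≤ n)
    (hconn : ∀ c : ι → ℕ,
      (∀ n : Ideal ↥(H40.chartB R J), n.IsMaximal → ∀ k k', P₁ k ≤ n → P₁ k' ≤ n → c k = c k') →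
      (∀ n : Ideal ↥(H40.chartB R J⁻¹), n.IsMaximal → ∀ k k', P₂ k ≤ n → P₂ k' ≤ n →
        c k = c k') →
      ∀ k k', c k = c k')
    (s : F ≃+* F)
    (hD₁ : ChartDatum (B := ↥(H40.chartB R J)) K π s)
    (hD₂ : ChartDatum (B := ↥(H40.chartB R J⁻¹)) K π s) :
    ∀ (k : ℕ) (f : F), Admissible K f (l ^ k) →
      ∃ (c : K) (g : F), c ≠ 0 ∧ g ≠ 0 ∧
        s (s f / f) / (s f / f) = algebraMap K F c * g ^ (l ^ k) := by
  intro k f hadm
  have hf0 : f ≠ 0 := hadm.1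
  have hsf0 : s f ≠ 0 := (map_ne_zero s).mpr hf0
  have hh0 : s f / f ≠ 0 := div_ne_zero hsf0 hf0
  have hu0 : s (s f / f) / (s f / f) ≠ 0 := div_ne_zero ((map_ne_zero s).mpr hh0) hh0
  have hF₁₂ : IsFractionRing ↥(H83.chart12 R J) F :=
    H69.isFractionRing_chart12 (R := R) (K := K) J
  have hVeq : ∀ k, H56.valuationSubringAt (K := F) (P₁ k) (hh₁ k)
      = H56.valuationSubringAt (K := F) (P₂ k) (hh₂ k) := fun k =>
    H21.valuationSubringAt_eq K hπ (H83.chartB_le_chart12 (R := R) J)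
      (H83.chartB_inv_le_chart12 (R := R) J) (P₁ k) (P₂ k) (P₁₂ k) (hh₁ k) (hh₂ k) (hπP₁ k)
      (hπP₂ k) (hπP₁₂ k) (hcomp₁ k) (hcomp₂ k) (hred₁ k) (hred₂ k)
  refine H69.kummer_descent_pow J htr hcl π hπ hl hlu hζ hroot P₁ P₂ P₁₂ hh₁ hh₂ hπP₁ hπP₂ hπP₁₂
    hcomp₁ hcomp₂ hred₁ hred₂ hsat₁ hsat₂ hsat₁₂ hall₁ hall₂ hconn k _ hu0 ?_
  rintro (⟨n, hn, hπn⟩ | ⟨n, hn, hπn⟩)
  · haveI := hn.isPrime
    obtain ⟨ψ, hψ0, hε, hψ1, -⟩ := hD₁ n hn hπn f (l ^ k) hadm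
    refine ⟨ψ, hψ0, ?_, fun i hi => ?_⟩
    · exact H56.piIn_of_chart π n hψ0 hε
    · exact H56.oneU_of_chart (P₁ i) (hh₁ i) (hπP₁ i) (hψ1 (P₁ i) (hP₁ i) (hh₁ i) (hπP₁ i))
  · haveI := hn.isPrime
    obtain ⟨ψ, hψ0, hε, hψ1, -⟩ := hD₂ n hn hπn f (l ^ k) hadm
    refine ⟨ψ, hψ0, ?_, fun i hi => ?_⟩
    · exact H56.piIn_of_chart π n hψ0 hε
    · have h2 : H47.OneU (H56.valuationSubringAt (K := F) (P₂ i) (hh₂ i)) ψ :=
        H56.oneU_of_chart (P₂ i) (hh₂ i) (hπP₂ i) (hψ1 (P₂ i) (hP₂ i) (hh₂ i) (hπP₂ i))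
      exact (H21.valuation_lt_one_congr (hVeq i) _).mpr h2

/-! ### The per-chart package (fields = hypotheses of `H56.local_datum_of_L1`) -/

section ChartPkg

open IsLocalRing Fermat.Agent.CA

variable {A₁ : Type*} [CommRing A₁]
variable {R k B F : Type*} [CommRing R] [IsDomain R] [Field k] [Algebra R k]
  [CommRing B] [IsDomain B] [Field F] [Algebra B F] [IsFractionRing B F]
  [Algebra R B] [Algebra k F] [Algebra R F] [IsScalarTower R B F] [IsScalarTower R k F]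
  [IsNoetherianRing B] [IsIntegrallyClosed B]
variable [Algebra A₁ R]
variable {B₁ : Type*} [CommRing B₁] [Algebra A₁ B₁] [Algebra B₁ B]

/-- The L1 output (helper83) at a closed point `n₁` of the special fibre of the `A₁`-chart `B₁`,
in the local ring `O₁ = Localization.AtPrime n₁`: a smooth point `𝔪 = (q, τ)` or a node
`𝔪 = (q, x, y)`, `x y ∈ q O₁`, with the node decomposition `O₁ = A₁ + q O₁ + x O₁ + y O₁`.
VERBATIM the hypothesis `hL1` of `H56.local_datum_of_L1` at `O₁ := Localization.AtPrime n₁`. -/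
def L1At (q : A₁) (n₁ : Ideal B₁) [n₁.IsPrime] : Prop :=
  (∃ τ : Localization.AtPrime n₁, τ ∈ maximalIdeal (Localization.AtPrime n₁) ∧
      maximalIdeal (Localization.AtPrime n₁) ≤
        Ideal.span {algebraMap A₁ (Localization.AtPrime n₁) q, τ}) ∨
    (∃ x y : Localization.AtPrime n₁,
      (∃ G, x * y = algebraMap A₁ (Localization.AtPrime n₁) q * G) ∧
      x ∈ maximalIdeal (Localization.AtPrime n₁) ∧ y ∈ maximalIdeal (Localization.AtPrime n₁) ∧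
      maximalIdeal (Localization.AtPrime n₁) ≤
        Ideal.span {algebraMap A₁ (Localization.AtPrime n₁) q, x, y} ∧
      H38.NodeDec (algebraMap A₁ (Localization.AtPrime n₁)).range
        (algebraMap A₁ (Localization.AtPrime n₁) q) x y)

/-- **The chart package**: everything the MIDDLE needs about ONE chart `B = chartB A'' J^(±1)`
of the model over `R = A''`, sitting over the `A₁`-chart `B₁ = chartB A₁ J^(±1)`
(`A₁ = A0 A q`).  Every field is a hypothesis of `H56.local_datum_of_L1`, in its exact shape. -/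
structure ChartPkg (k : Type*) [Field k] [Algebra R k] [Algebra k F] [IsScalarTower R k F]
    (B₁ : Type*) [CommRing B₁] [Algebra A₁ B₁] [Algebra B₁ B]
    (π : R) (q : A₁) (J : B) (σ : R ≃+* R) (sB : B ≃+* B) (s : F ≃+* F) : Prop where
  /-- the chart is integral over `R[J]` -/
  hint : ∀ b : B, (aeval (R := R) J : R[X] →ₐ[R] B).toRingHom.IsIntegralElem b
  hq0 : algebraMap A₁ R q ≠ 0
  hπq : π ∣ algebraMap A₁ R q
  /-- the two structure maps `A₁ → B` agree -/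
  hcomp : ∀ a : A₁, algebraMap B₁ B (algebraMap A₁ B₁ a) = algebraMap R B (algebraMap A₁ R a)
  /-- (R-a3b)(a): `B = B₁[R]` -/
  hgenR : Algebra.adjoin B₁ (Set.range (algebraMap R B)) = ⊤
  /-- (R-a3b): every closed point of the special fibre of `B` is `(n₁, π)` -/
  hnn : ∀ n : Ideal B, n.IsMaximal → algebraMap R B π ∈ n →
    n ≤ Ideal.map (algebraMap B₁ B) (n.comap (algebraMap B₁ B)) ⊔
      Ideal.span {algebraMap R B π}
  /-- (R-a3b): its contraction to the `A₁`-chart is a closed point -/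
  hmax : ∀ n : Ideal B, n.IsMaximal → algebraMap R B π ∈ n →
    (n.comap (algebraMap B₁ B)).IsMaximal
  /-- (R-a3)/(D1): the inertia action -/
  hσ : ∀ a : A₁, σ (algebraMap A₁ R a) = algebraMap A₁ R a
  hsB : ∀ b : B₁, sB (algebraMap B₁ B b) = algebraMap B₁ B b
  hsA : ∀ a : R, sB (algebraMap R B a) = algebraMap R B (σ a)
  hs : ∀ b, s (algebraMap B F b) = algebraMap B F (sB b)
  hsπ : ∀ b, sB b - b ∈ Ideal.span {algebraMap R B π}
  /-- L1 at every closed point of the special fibre of the `A₁`-chart -/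
  hL1 : ∀ (n₁ : Ideal B₁) [n₁.IsMaximal], algebraMap A₁ B₁ q ∈ n₁ → L1At q n₁

variable [IsDiscreteValuationRing R] [IsFractionRing R k]

/-- The chart package gives the chart datum at every closed point
(`H56.local_datum_of_L1`). -/
theorem ChartPkg.chartDatum {π : R} (hπ : Irreducible π) {q : A₁} {J : B} {σ : R ≃+* R}
    {sB : B ≃+* B} {s : F ≃+* F} (H : ChartPkg k B₁ π q J σ sB s) :
    ChartDatum (B := B) k π s := by
  intro n hn hπn f m hadm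
  obtain ⟨hf0, hdiv, hdeg, hfin⟩ := hadm
  haveI := hn
  haveI hmax := H.hmax n hn hπn
  have hq₁ : algebraMap A₁ B₁ q ∈ n.comap (algebraMap B₁ B) := by
    obtain ⟨c, hc⟩ := H.hπq
    show algebraMap B₁ B (algebraMap A₁ B₁ q) ∈ n
    rw [H.hcomp, hc, map_mul]
    exact n.mul_mem_right _ hπn
  exact H56.local_datum_of_L1 (n.comap (algebraMap B₁ B))
    (Localization.AtPrime (n.comap (algebraMap B₁ B))) n π hπ J H.hint q H.hq0 H.hπq hπn H.hcomp rfl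
    (H.hnn n hn hπn) H.hgenR σ H.hσ sB H.hsB H.hsA (H.hL1 _ hq₁) s H.hs H.hsπ f hf0 m hdiv hdeg hfin

end ChartPkg

/-! ### The vertical package and the MIDDLE theorem -/

section Model

variable {R : Type*} [CommRing R] [IsDomain R] [IsDiscreteValuationRing R]
  {K : Type*} [Field K] [Algebra R K] [IsFractionRing R K]
  {F : Type v} [Field F] [Algebra R F] [Algebra K F] [IsScalarTower R K F]

/-- **The vertical package** = the hypotheses of helper69's `H69.kummer_descent_pow` which do not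
mention the function `u` (VERBATIM, same names): coordinate, constants, roots of unity, the
vertical primes of the three charts (ONE index type `ι`), reducedness (`hred`, `hsat`),
exhaustion (`hall`) and connectedness (`hconn`, helper83's `hconn_of_no_split`). -/
structure VertPkg (J : F) (π : R) (l : ℕ) (ζ : R) {ι : Type*}
    (P₁ : ι → Ideal ↥(H40.chartB R J)) (P₂ : ι → Ideal ↥(H40.chartB R J⁻¹))
    (P₁₂ : ι → Ideal ↥(H83.chart12 R J)) : Prop where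
  htr : Transcendental K J
  hcl : ∀ z : F, IsAlgebraic K z → z ∈ (algebraMap K F).range
  hπ : Irreducible π
  hl : l.Prime
  hlu : IsUnit ((l : ℕ) : R)
  hζ : IsPrimitiveRoot ζ l
  hroot : ∀ r : R, IsUnit r → ∃ γ : R, IsUnit γ ∧ π ∣ γ ^ l * r - 1
  hh₁ : ∀ k, (P₁ k).height = 1
  hh₂ : ∀ k, (P₂ k).height = 1
  hπP₁ : ∀ i, algebraMap R ↥(H40.chartB R J) π ∈ P₁ i
  hπP₂ : ∀ i, algebraMap R ↥(H40.chartB R J⁻¹) π ∈ P₂ i
  hπP₁₂ : ∀ i, algebraMap R ↥(H83.chart12 R J) π ∈ P₁₂ i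
  hcomp₁ : ∀ k, ∀ s : ↥(H40.chartB R J), s ∉ P₁ k →
    Subalgebra.inclusion (H83.chartB_le_chart12 (R := R) J) s ∉ P₁₂ k
  hcomp₂ : ∀ k, ∀ s : ↥(H40.chartB R J⁻¹), s ∉ P₂ k →
    Subalgebra.inclusion (H83.chartB_inv_le_chart12 (R := R) J) s ∉ P₁₂ k
  hred₁ : ∀ i, ∀ b ∈ P₁ i, ∃ s, s ∉ P₁ i ∧ algebraMap R ↥(H40.chartB R J) π ∣ s * b
  hred₂ : ∀ i, ∀ b ∈ P₂ i, ∃ s, s ∉ P₂ i ∧ algebraMap R ↥(H40.chartB R J⁻¹) π ∣ s * b
  hsat₁ : ∀ b : ↥(H40.chartB R J),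
    (∀ i, ∃ s, s ∉ P₁ i ∧ algebraMap R ↥(H40.chartB R J) π ∣ s * b) →
    algebraMap R ↥(H40.chartB R J) π ∣ b
  hsat₂ : ∀ b : ↥(H40.chartB R J⁻¹),
    (∀ i, ∃ s, s ∉ P₂ i ∧ algebraMap R ↥(H40.chartB R J⁻¹) π ∣ s * b) →
    algebraMap R ↥(H40.chartB R J⁻¹) π ∣ b
  hsat₁₂ : ∀ b : ↥(H83.chart12 R J),
    (∀ k, ∃ s, s ∉ P₁₂ k ∧ algebraMap R ↥(H83.chart12 R J) π ∣ s * b) →
    algebraMap R ↥(H83.chart12 R J) π ∣ b
  hall₁ : ∀ n : Ideal ↥(H40.chartB R J), n.IsMaximal →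
    algebraMap R ↥(H40.chartB R J) π ∈ n → ∃ k, P₁ k ≤ n
  hall₂ : ∀ n : Ideal ↥(H40.chartB R J⁻¹), n.IsMaximal →
    algebraMap R ↥(H40.chartB R J⁻¹) π ∈ n → ∃ k, P₂ k ≤ n
  hconn : ∀ c : ι → ℕ,
    (∀ n : Ideal ↥(H40.chartB R J), n.IsMaximal → ∀ k k', P₁ k ≤ n → P₁ k' ≤ n → c k = c k') →
    (∀ n : Ideal ↥(H40.chartB R J⁻¹), n.IsMaximal → ∀ k k', P₂ k ≤ n → P₂ k' ≤ n →
      c k = c k') →
    ∀ k k', c k = c k'

/-- **MIDDLE theorem.**  From the vertical package and the two chart packages (over the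
`A₁`-charts `B₁₁`, `B₁₂`), for every admissible `f` (helper11's `UFnE` hypotheses at `m = l ^ k`):
`s (s f / f) / (s f / f) = c * g ^ (l ^ k)` with `c : K`, `g : F`. -/
theorem exists_const_mul_pow_of_model
    {A₁ : Type*} [CommRing A₁] [Algebra A₁ R]
    (J : F) [FiniteDimensional K⟮J⟯ F] [Algebra.IsSeparable K⟮J⟯ F]
    [IsFractionRing ↥(H40.chartB R J) F] [IsFractionRing ↥(H40.chartB R J⁻¹) F]
    [IsNoetherianRing ↥(H40.chartB R J)] [IsIntegrallyClosed ↥(H40.chartB R J)]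
    [IsNoetherianRing ↥(H40.chartB R J⁻¹)] [IsIntegrallyClosed ↥(H40.chartB R J⁻¹)]
    (π : R) {l : ℕ} {ζ : R} {ι : Type*} [Finite ι] [Nonempty ι]
    (P₁ : ι → Ideal ↥(H40.chartB R J)) (P₂ : ι → Ideal ↥(H40.chartB R J⁻¹))
    (P₁₂ : ι → Ideal ↥(H83.chart12 R J))
    [hP₁ : ∀ i, (P₁ i).IsPrime] [hP₂ : ∀ i, (P₂ i).IsPrime] [hP₁₂ : ∀ k, (P₁₂ k).IsPrime]
    (V : VertPkg (K := K) J π l ζ P₁ P₂ P₁₂)
    (q : A₁) (σ : R ≃+* R) (s : F ≃+* F)
    {B₁₁ : Type*} [CommRing B₁₁] [Algebra A₁ B₁₁] [Algebra B₁₁ ↥(H40.chartB R J)]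
    (J₁ : ↥(H40.chartB R J)) (sB₁ : ↥(H40.chartB R J) ≃+* ↥(H40.chartB R J))
    (C₁ : ChartPkg K B₁₁ π q J₁ σ sB₁ s)
    {B₁₂ : Type*} [CommRing B₁₂] [Algebra A₁ B₁₂] [Algebra B₁₂ ↥(H40.chartB R J⁻¹)]
    (J₂ : ↥(H40.chartB R J⁻¹)) (sB₂ : ↥(H40.chartB R J⁻¹) ≃+* ↥(H40.chartB R J⁻¹))
    (C₂ : ChartPkg K B₁₂ π q J₂ σ sB₂ s) :
    ∀ (k : ℕ) (f : F), Admissible K f (l ^ k) →
      ∃ (c : K) (g : F), c ≠ 0 ∧ g ≠ 0 ∧
        s (s f / f) / (s f / f) = algebraMap K F c * g ^ (l ^ k) :=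
  exists_const_mul_pow_of_chartDatum J V.htr V.hcl π V.hπ V.hl V.hlu V.hζ V.hroot P₁ P₂ P₁₂
    V.hh₁ V.hh₂ V.hπP₁ V.hπP₂ V.hπP₁₂ V.hcomp₁ V.hcomp₂ V.hred₁ V.hred₂ V.hsat₁ V.hsat₂ V.hsat₁₂
    V.hall₁ V.hall₂ V.hconn s (C₁.chartDatum V.hπ) (C₂.chartDatum V.hπ)

end Model

end Fermat.Agent.S34.H61
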