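import Fermat.Agent.S34.H3_VerticalSingle
import Fermat.Agent.S34.H61_ChainSkeleton

/-!
# S34 seam: producer of `H61.VertPkg` from reducedness of the two special fibres

`vertPkg_of_reduced` : the vertical package of helper61's MIDDLE skeleton for the canonical
family (`ι := VertIdx J π`, `P₁ := vertP₁ J π`, `P₂ := vertP₂ J π`, `P₁₂ k := ↑k`) from
* the base facts (`htr hcl hπ hl hlu hζ hroot`),
* `hrad₁ hrad₂` : the special fibres of `chartB R J^{±1}` are reduced,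
* `hJ₁ hJ₂` : `J^{±1}` vanishes identically on no vertical component.

`exists_const_mul_pow_of_reduced` : `H61.exists_const_mul_pow_of_model` with this package.
-/

set_option autoImplicit false
set_option linter.unusedSectionVars false

open Polynomial IntermediateField Fermat.Agent.S18 Fermat.Agent.CA.H69

namespace Fermat.Agent.S34.H3

universe v

instance Vert.instIsPrime {B : Type*} [CommRing B] {π : B} (P : Vert π) :
    (P : Ideal B).IsPrime := P.isPrime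

section Main

variable {R : Type*} [CommRing R] [IsDomain R] [IsDiscreteValuationRing R]
  {K : Type*} [Field K] [Algebra R K] [IsFractionRing R K]
  {F : Type v} [Field F] [Algebra R F] [Algebra K F] [IsScalarTower R K F]
  (J : F) (htr : Transcendental K J) [FiniteDimensional K⟮J⟯ F]
  [Algebra.IsSeparable K⟮J⟯ F] (π : R) (hπ : Irreducible π)

include htr in
/-- The overlap chart is noetherian, so there are finitely many vertical primes. -/
theorem finite_vertIdx : Finite (VertIdx (R := R) J π) := by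
  have hJ0 : J ≠ 0 := fun h => htr (h ▸ isAlgebraic_zero)
  have hN₁ := isNoetherianRing_chartB' (R := R) (K := K) J htr
  have hloc12 := isLocalization_chart12 (R := R) J hJ0
  have hN₁₂ : IsNoetherianRing ↥(H83.chart12 R J) := by
    let _ : Algebra ↥(H40.chartB R J) ↥(H83.chart12 R J) := chart12Algebra (R := R) J
    have : IsLocalization (Submonoid.powers (⟨J, H40.self_mem_chartB J⟩ : ↥(H40.chartB R J)))
        ↥(H83.chart12 R J) := hloc12
    exact IsLocalization.isNoetherianRing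
      (Submonoid.powers (⟨J, H40.self_mem_chartB J⟩ : ↥(H40.chartB R J))) _ hN₁
  exact Vert.finite

include htr hπ in
theorem nonempty_vertIdx
    (hJ₁ : ∀ P : Vert (algebraMap R ↥(H40.chartB R J) π),
      (⟨J, H40.self_mem_chartB J⟩ : ↥(H40.chartB R J)) ∉ (P : Ideal ↥(H40.chartB R J))) :
    Nonempty (VertIdx (R := R) J π) := by
  have hJ0 : J ≠ 0 := fun h => htr (h ▸ isAlgebraic_zero)
  have hloc12 := isLocalization_chart12 (R := R) J hJ0
  obtain ⟨P⟩ : Nonempty (Vert (algebraMap R ↥(H40.chartB R J) π)) :=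
    Vert.nonempty (not_isUnit_algebraMap_chartB (K := K) J htr π hπ.prime)
  obtain ⟨k, -⟩ := exists_vertComap_eq (H83.chartB_le_chart12 (R := R) J) _ hloc12 π P (hJ₁ P)
  exact ⟨k⟩

include htr hπ in
/-- **Producer of the vertical package** of `H61_ChainSkeleton`. -/
theorem vertPkg_of_reduced
    (hcl : ∀ z : F, IsAlgebraic K z → z ∈ (algebraMap K F).range)
    {l : ℕ} (hl : l.Prime) (hlu : IsUnit ((l : ℕ) : R)) {ζ : R} (hζ : IsPrimitiveRoot ζ l)
    (hroot : ∀ r : R, IsUnit r → ∃ γ : R, IsUnit γ ∧ π ∣ γ ^ l * r - 1)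
    (hrad₁ : ∀ b : ↥(H40.chartB R J),
      (∃ n : ℕ, algebraMap R ↥(H40.chartB R J) π ∣ b ^ n) →
        algebraMap R ↥(H40.chartB R J) π ∣ b)
    (hrad₂ : ∀ b : ↥(H40.chartB R J⁻¹),
      (∃ n : ℕ, algebraMap R ↥(H40.chartB R J⁻¹) π ∣ b ^ n) →
        algebraMap R ↥(H40.chartB R J⁻¹) π ∣ b)
    (hJ₁ : ∀ P : Vert (algebraMap R ↥(H40.chartB R J) π),
      (⟨J, H40.self_mem_chartB J⟩ : ↥(H40.chartB R J)) ∉ (P : Ideal ↥(H40.chartB R J)))
    (hJ₂ : ∀ P : Vert (algebraMap R ↥(H40.chartB R J⁻¹) π),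
      (⟨J⁻¹, H40.self_mem_chartB J⁻¹⟩ : ↥(H40.chartB R J⁻¹)) ∉
        (P : Ideal ↥(H40.chartB R J⁻¹))) :
    H61.VertPkg (K := K) J π l ζ (vertP₁ J π) (vertP₂ J π)
      (fun k : VertIdx (R := R) J π => (k : Ideal ↥(H83.chart12 R J))) := by
  have hJ0 : J ≠ 0 := fun h => htr (h ▸ isAlgebraic_zero)
  have htr' : Transcendental K J⁻¹ := fun h => htr (by simpa using h.inv)
  have e : K⟮J⁻¹⟯ = K⟮J⟯ := by
    apply le_antisymm
    · rw [IntermediateField.adjoin_simple_le_iff]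
      exact inv_mem (IntermediateField.mem_adjoin_simple_self K J)
    · rw [IntermediateField.adjoin_simple_le_iff]
      have := inv_mem (IntermediateField.mem_adjoin_simple_self K J⁻¹)
      rwa [inv_inv] at this
  have hfdinv : FiniteDimensional K⟮J⁻¹⟯ F := by rw [e]; infer_instance
  have hsepinv : Algebra.IsSeparable K⟮J⁻¹⟯ F := by rw [e]; infer_instance
  have hN₁ := isNoetherianRing_chartB' (R := R) (K := K) J htr
  have hN₂ := isNoetherianRing_chartB' (R := R) (K := K) J⁻¹ htr'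
  have hloc12 := isLocalization_chart12 (R := R) J hJ0
  have hloc12' := isLocalization_chart12_inv (R := R) J hJ0
  have hrad₁₂ := hrad_of_away (H83.chartB_le_chart12 (R := R) J) _ hloc12 π hrad₁
  have hfin : Finite (VertIdx (R := R) J π) := finite_vertIdx (K := K) J htr π
  have hmin₁ := fun k : VertIdx (R := R) J π =>
    vertComap_mem_minimalPrimes (H83.chartB_le_chart12 (R := R) J) _ hloc12 π k
  have hmin₂ := fun k : VertIdx (R := R) J π =>
    vertComap_mem_minimalPrimes (H83.chartB_inv_le_chart12 (R := R) J) _ hloc12' π k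
  have hcomp₁ : ∀ k : VertIdx (R := R) J π, ∀ s : ↥(H40.chartB R J), s ∉ vertP₁ J π k →
      Subalgebra.inclusion (H83.chartB_le_chart12 (R := R) J) s ∉
        (k : Ideal ↥(H83.chart12 R J)) :=
    fun k s hs h => hs ((mem_vertComap _ π k s).2 h)
  have hcomp₂ : ∀ k : VertIdx (R := R) J π, ∀ s : ↥(H40.chartB R J⁻¹), s ∉ vertP₂ J π k →
      Subalgebra.inclusion (H83.chartB_inv_le_chart12 (R := R) J) s ∉
        (k : Ideal ↥(H83.chart12 R J)) :=
    fun k s hs h => hs ((mem_vertComap _ π k s).2 h)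
  have hred₁ : ∀ k : VertIdx (R := R) J π, ∀ b ∈ vertP₁ J π k, ∃ s, s ∉ vertP₁ J π k ∧
      algebraMap R ↥(H40.chartB R J) π ∣ s * b := fun k => vert_hred hrad₁ ⟨_, hmin₁ k⟩
  have hred₂ : ∀ k : VertIdx (R := R) J π, ∀ b ∈ vertP₂ J π k, ∃ s, s ∉ vertP₂ J π k ∧
      algebraMap R ↥(H40.chartB R J⁻¹) π ∣ s * b := fun k => vert_hred hrad₂ ⟨_, hmin₂ k⟩
  have hsat₁ : ∀ b : ↥(H40.chartB R J),
      (∀ k : VertIdx (R := R) J π, ∃ s, s ∉ vertP₁ J π k ∧
        algebraMap R ↥(H40.chartB R J) π ∣ s * b) →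
      algebraMap R ↥(H40.chartB R J) π ∣ b := fun b hb => vert_hsat hrad₁ b fun P => by
    obtain ⟨k, hk⟩ := exists_vertComap_eq (H83.chartB_le_chart12 (R := R) J) _ hloc12 π P (hJ₁ P)
    obtain ⟨s, hs, hd⟩ := hb k
    exact ⟨s, fun h => hs ((SetLike.ext_iff.1 hk s).2 h), hd⟩
  have hsat₂ : ∀ b : ↥(H40.chartB R J⁻¹),
      (∀ k : VertIdx (R := R) J π, ∃ s, s ∉ vertP₂ J π k ∧
        algebraMap R ↥(H40.chartB R J⁻¹) π ∣ s * b) →
      algebraMap R ↥(H40.chartB R J⁻¹) π ∣ b := fun b hb => vert_hsat hrad₂ b fun P => by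
    obtain ⟨k, hk⟩ :=
      exists_vertComap_eq (H83.chartB_inv_le_chart12 (R := R) J) _ hloc12' π P (hJ₂ P)
    obtain ⟨s, hs, hd⟩ := hb k
    exact ⟨s, fun h => hs ((SetLike.ext_iff.1 hk s).2 h), hd⟩
  have hsat₁₂ : ∀ b : ↥(H83.chart12 R J),
      (∀ k : VertIdx (R := R) J π, ∃ s, s ∉ (k : Ideal ↥(H83.chart12 R J)) ∧
        algebraMap R ↥(H83.chart12 R J) π ∣ s * b) →
      algebraMap R ↥(H83.chart12 R J) π ∣ b := vert_hsat hrad₁₂
  have hπP₁ : ∀ k : VertIdx (R := R) J π, algebraMap R ↥(H40.chartB R J) π ∈ vertP₁ J π k :=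
    fun k => algebraMap_mem_vertComap _ π k
  refine
    { htr := htr, hcl := hcl, hπ := hπ, hl := hl, hlu := hlu, hζ := hζ, hroot := hroot
      hh₁ := height_vertP₁ J htr π hπ
      hh₂ := height_vertP₂ J htr π hπ
      hπP₁ := hπP₁
      hπP₂ := fun k => algebraMap_mem_vertComap _ π k
      hπP₁₂ := fun k => k.mem
      hcomp₁ := hcomp₁
      hcomp₂ := hcomp₂
      hred₁ := hred₁
      hred₂ := hred₂
      hsat₁ := hsat₁
      hsat₂ := hsat₂
      hsat₁₂ := hsat₁₂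
      hall₁ := fun n hn hπn => by
        have := hn.isPrime
        obtain ⟨P, hP⟩ := exists_vert_le n hπn
        obtain ⟨k, hk⟩ :=
          exists_vertComap_eq (H83.chartB_le_chart12 (R := R) J) _ hloc12 π P (hJ₁ P)
        exact ⟨k, fun x hx => hP ((SetLike.ext_iff.1 hk x).1 hx)⟩
      hall₂ := fun n hn hπn => by
        have := hn.isPrime
        obtain ⟨P, hP⟩ := exists_vert_le n hπn
        obtain ⟨k, hk⟩ :=
          exists_vertComap_eq (H83.chartB_inv_le_chart12 (R := R) J) _ hloc12' π P (hJ₂ P)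
        exact ⟨k, fun x hx => hP ((SetLike.ext_iff.1 hk x).1 hx)⟩
      hconn := H83.hconn_of_no_split J htr hcl π hπ.prime (vertP₁ J π) (vertP₂ J π)
        (fun k : VertIdx (R := R) J π => (k : Ideal ↥(H83.chart12 R J)))
        (fun k => inferInstance) (fun k => k.isPrime) hπP₁ hcomp₁ hcomp₂
        hred₁ hred₂ hsat₁ hsat₂ hsat₁₂ }

include htr hπ in
/-- **MIDDLE theorem of `H61_ChainSkeleton` with the vertical package discharged**: the two
special fibres are reduced, `J^{±1}` vanishes on no vertical component, and the two chart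
packages hold. -/
theorem exists_const_mul_pow_of_reduced
    {A₁ : Type*} [CommRing A₁] [Algebra A₁ R]
    [IsFractionRing ↥(H40.chartB R J) F] [IsFractionRing ↥(H40.chartB R J⁻¹) F]
    [IsNoetherianRing ↥(H40.chartB R J)] [IsIntegrallyClosed ↥(H40.chartB R J)]
    [IsNoetherianRing ↥(H40.chartB R J⁻¹)] [IsIntegrallyClosed ↥(H40.chartB R J⁻¹)]
    (hcl : ∀ z : F, IsAlgebraic K z → z ∈ (algebraMap K F).range)
    {l : ℕ} (hl : l.Prime) (hlu : IsUnit ((l : ℕ) : R)) {ζ : R} (hζ : IsPrimitiveRoot ζ l)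
    (hroot : ∀ r : R, IsUnit r → ∃ γ : R, IsUnit γ ∧ π ∣ γ ^ l * r - 1)
    (hrad₁ : ∀ b : ↥(H40.chartB R J),
      (∃ n : ℕ, algebraMap R ↥(H40.chartB R J) π ∣ b ^ n) →
        algebraMap R ↥(H40.chartB R J) π ∣ b)
    (hrad₂ : ∀ b : ↥(H40.chartB R J⁻¹),
      (∃ n : ℕ, algebraMap R ↥(H40.chartB R J⁻¹) π ∣ b ^ n) →
        algebraMap R ↥(H40.chartB R J⁻¹) π ∣ b)
    (hJ₁ : ∀ P : Vert (algebraMap R ↥(H40.chartB R J) π),
      (⟨J, H40.self_mem_chartB J⟩ : ↥(H40.chartB R J)) ∉ (P : Ideal ↥(H40.chartB R J)))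
    (hJ₂ : ∀ P : Vert (algebraMap R ↥(H40.chartB R J⁻¹) π),
      (⟨J⁻¹, H40.self_mem_chartB J⁻¹⟩ : ↥(H40.chartB R J⁻¹)) ∉
        (P : Ideal ↥(H40.chartB R J⁻¹)))
    (q : A₁) (σ : R ≃+* R) (s : F ≃+* F)
    {B₁₁ : Type*} [CommRing B₁₁] [Algebra A₁ B₁₁] [Algebra B₁₁ ↥(H40.chartB R J)]
    (J₁ : ↥(H40.chartB R J)) (sB₁ : ↥(H40.chartB R J) ≃+* ↥(H40.chartB R J))
    (C₁ : H61.ChartPkg K B₁₁ π q J₁ σ sB₁ s)
    {B₁₂ : Type*} [CommRing B₁₂] [Algebra A₁ B₁₂] [Algebra B₁₂ ↥(H40.chartB R J⁻¹)]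
    (J₂ : ↥(H40.chartB R J⁻¹)) (sB₂ : ↥(H40.chartB R J⁻¹) ≃+* ↥(H40.chartB R J⁻¹))
    (C₂ : H61.ChartPkg K B₁₂ π q J₂ σ sB₂ s) :
    ∀ (k : ℕ) (f : F), H61.Admissible K f (l ^ k) →
      ∃ (c : K) (g : F), c ≠ 0 ∧ g ≠ 0 ∧
        s (s f / f) / (s f / f) = algebraMap K F c * g ^ (l ^ k) := by
  have hfin : Finite (VertIdx (R := R) J π) := finite_vertIdx (K := K) J htr π
  have hne : Nonempty (VertIdx (R := R) J π) := nonempty_vertIdx (K := K) J htr π hπ hJ₁
  exact H61.exists_const_mul_pow_of_model J π (vertP₁ J π) (vertP₂ J π)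
    (fun k : VertIdx (R := R) J π => (k : Ideal ↥(H83.chart12 R J)))
    (vertPkg_of_reduced J htr π hπ hcl hl hlu hζ hroot hrad₁ hrad₂ hJ₁ hJ₂)
    q σ s J₁ sB₁ C₁ J₂ sB₂ C₂

end Main

end Fermat.Agent.S34.H3
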