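/-
helper83: S34, generic `hbot` for STEP 5: an element of a function field `F ⊇ K(j)` that is
integral over `R[j]` and over `R[j⁻¹]` is integral over `R` (`R` an integrally closed domain with
fraction field `K`, `j` transcendental over `K`).  "Global sections of the normal model are
constants."  Mathlib + S18.H40_CechFG only.
-/
import Mathlib
import Fermat.Agent.S18.H40_CechFG

set_option autoImplicit false

namespace Fermat.Agent.S34.H83

open Polynomial IntermediateField
open Fermat.Agent.S18

variable {R : Type*} [CommRing R] [IsDomain R] [IsIntegrallyClosed R]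
  {K : Type*} [Field K] [Algebra R K] [IsFractionRing R K]
  {F : Type*} [Field F] [Algebra R F] [Algebra K F] [IsScalarTower R K F]

/-- The coefficients of the minimal polynomial over `K(j)` of an element integral over `R[j]` are
polynomials in `j` with coefficients in `R`. -/
theorem exists_aeval_eq_coeff_minpoly (j : F) (htr : Transcendental K j) {z : F}
    (hz : z ∈ H40.chartB R j) (i : ℕ) :
    ∃ p : R[X], aeval j p = (((minpoly K⟮j⟯ z).coeff i : K⟮j⟯) : F) := by
  have hinjRF : Function.Injective (algebraMap R F) := by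
    rw [IsScalarTower.algebraMap_eq R K F]
    exact (algebraMap K F).injective.comp (IsFractionRing.injective R K)
  let e : R[X] ≃ₐ[R] Algebra.adjoin R {j} :=
    Polynomial.algEquivOfTranscendental R j (H40.transcendental_of_tower j htr)
  have hA2 : IsIntegrallyClosed (Algebra.adjoin R {j}) :=
    IsIntegrallyClosed.of_equiv e.toRingEquiv
  let _ : Algebra (Algebra.adjoin R {j}) K⟮j⟯ := (H40.adjoinToSimple (K := K) j).toAlgebra
  have hst : IsScalarTower (Algebra.adjoin R {j}) K⟮j⟯ F :=
    IsScalarTower.of_algebraMap_eq (fun a => rfl)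
  have hfr : IsFractionRing (Algebra.adjoin R {j}) K⟮j⟯ := by
    have hfs : FaithfulSMul (Algebra.adjoin R {j}) K⟮j⟯ :=
      (faithfulSMul_iff_algebraMap_injective _ _).2 (by
        intro a b hab
        apply Subtype.ext
        exact congrArg (fun z : K⟮j⟯ => (z : F)) hab)
    refine IsFractionRing.of_field (Algebra.adjoin R {j}) K⟮j⟯ ?_
    rintro ⟨z, hz⟩
    obtain ⟨r, s, hrs⟩ := (mem_adjoin_simple_iff K z).1 hz
    obtain ⟨c, r', hc, hr'⟩ := H40.exists_aeval_eq_div (R := R) j r
    obtain ⟨d, s', hd, hs'⟩ := H40.exists_aeval_eq_div (R := R) j s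
    have hcF : algebraMap R F c ≠ 0 := fun h => hc (hinjRF (by rw [h, map_zero]))
    have hdF : algebraMap R F d ≠ 0 := fun h => hd (hinjRF (by rw [h, map_zero]))
    refine ⟨⟨aeval j (C d * r'), ?_⟩, ⟨aeval j (C c * s'), ?_⟩, ?_⟩
    · rw [Algebra.adjoin_singleton_eq_range_aeval]; exact ⟨_, rfl⟩
    · rw [Algebra.adjoin_singleton_eq_range_aeval]; exact ⟨_, rfl⟩
    · apply Subtype.ext
      change z = aeval j (C d * r') / aeval j (C c * s')
      rw [map_mul, map_mul, aeval_C, aeval_C, ← hr', ← hs', hrs]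
      by_cases hs0 : aeval j s = 0
      · rw [hs0]; simp
      · field_simp
  have hzint : IsIntegral (Algebra.adjoin R {j}) z := H40.mem_chartB.1 hz
  have hmin := minpoly.isIntegrallyClosed_eq_field_fractions' (R := Algebra.adjoin R {j})
    K⟮j⟯ hzint
  rw [hmin, coeff_map]
  set a : Algebra.adjoin R {j} := (minpoly (Algebra.adjoin R {j}) z).coeff i with ha
  have h1 : ∀ w : F, w ∈ Algebra.adjoin R {j} → ∃ q : R[X], aeval j q = w := by
    intro w hw
    rw [Algebra.adjoin_singleton_eq_range_aeval] at hw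
    exact hw
  obtain ⟨q, hq⟩ := h1 _ a.2
  exact ⟨q, hq⟩

theorem adjoin_inv_eq (j : F) : K⟮j⁻¹⟯ = K⟮j⟯ := by
  apply le_antisymm
  · rw [adjoin_simple_le_iff]
    exact inv_mem (mem_adjoin_simple_self K j)
  · rw [adjoin_simple_le_iff]
    have := inv_mem (mem_adjoin_simple_self K j⁻¹)
    rwa [inv_inv] at this

theorem coeff_minpoly_congr {L₁ L₂ : IntermediateField K F} (h : L₁ = L₂) (z : F) (i : ℕ) :
    (((minpoly L₁ z).coeff i : L₁) : F) = (((minpoly L₂ z).coeff i : L₂) : F) := by
  subst h; rfl

/-- A polynomial in `j` that is also a polynomial in `j⁻¹` is a constant. -/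
theorem const_of_aeval_eq_aeval_inv (j : F) (htr : Transcendental R j) (p q : R[X])
    (h : aeval j p = aeval j⁻¹ q) : ∃ r : R, aeval j p = algebraMap R F r := by
  classical
  have hj : j ≠ 0 := by
    rintro rfl
    exact htr isAlgebraic_zero
  -- `X ^ n * p = reverse-like polynomial of degree ≤ n`
  set n := q.natDegree with hn
  have hle : (q.reflect n).natDegree ≤ n := by
    rw [natDegree_le_iff_coeff_eq_zero]
    intro i hi
    rw [coeff_reflect, revAt_eq_self_of_lt hi]
    exact coeff_eq_zero_of_natDegree_lt (by omega)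
  have key : aeval j (X ^ n * p) = aeval j (q.reflect n) := by
    rw [map_mul, map_pow, aeval_X, h]
    haveI : Invertible (j⁻¹ : F) := invertibleOfNonzero (inv_ne_zero hj)
    have h1 := eval₂_reflect_mul_pow (algebraMap R F) (j⁻¹ : F) n q le_rfl
    have h2 : ⅟(j⁻¹ : F) = j := by
      rw [invOf_eq_inv, inv_inv]
    rw [h2] at h1
    rw [aeval_def, aeval_def, ← h1, inv_pow]
    field_simp
  have hpoly : X ^ n * p = q.reflect n := by
    by_contra hne
    have hne' : X ^ n * p - q.reflect n ≠ 0 := sub_ne_zero.2 hne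
    exact htr ⟨_, hne', by rw [map_sub, key, sub_self]⟩
  -- degree comparison
  by_cases hp : p = 0
  · exact ⟨0, by rw [hp]; simp⟩
  · have hdeg : (X ^ n * p).natDegree = p.natDegree + n := natDegree_X_pow_mul n hp
    rw [hpoly] at hdeg
    have hp0 : p.natDegree = 0 := by omega
    obtain ⟨r, hr⟩ := natDegree_eq_zero.1 hp0
    exact ⟨r, by rw [← hr, aeval_C]⟩

/-- **Global sections are constants.** -/
theorem isIntegral_of_mem_chartB_of_mem_chartB_inv (j : F) (htr : Transcendental K j)
    [FiniteDimensional K⟮j⟯ F] {z : F}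
    (h1 : z ∈ H40.chartB R j) (h2 : z ∈ H40.chartB R j⁻¹) : IsIntegral R z := by
  classical
  have hj : j ≠ 0 := by
    rintro rfl
    exact htr isAlgebraic_zero
  have htr' : Transcendental K j⁻¹ := by
    intro h
    exact htr (by simpa using h.inv)
  have htrR : Transcendental R j := H40.transcendental_of_tower j htr
  have hzL : IsIntegral K⟮j⟯ z := IsIntegral.of_finite _ _
  -- the coefficients of the minimal polynomial lie in `R`
  have hcoeff : ∀ i, ∃ r : R, (((minpoly K⟮j⟯ z).coeff i : K⟮j⟯) : F) = algebraMap R F r := by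
    intro i
    obtain ⟨p, hp⟩ := exists_aeval_eq_coeff_minpoly j htr h1 i
    obtain ⟨q, hq⟩ := exists_aeval_eq_coeff_minpoly j⁻¹ htr' h2 i
    rw [coeff_minpoly_congr (adjoin_inv_eq (K := K) j) z i] at hq
    obtain ⟨r, hr⟩ := const_of_aeval_eq_aeval_inv j htrR p q (by rw [hp, hq])
    exact ⟨r, by rw [← hp, hr]⟩
  choose r hr using hcoeff
  set μ := minpoly K⟮j⟯ z with hμ
  set n := μ.natDegree with hn
  -- the monic polynomial over `R`
  let P : R[X] := X ^ n + ∑ i ∈ Finset.range n, C (r i) * X ^ i
  have hPm : P.Monic := by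
    apply monic_X_pow_add
    refine lt_of_le_of_lt (degree_sum_le _ _) ?_
    rw [Finset.sup_lt_iff (by exact WithBot.bot_lt_coe n)]
    intro i hi
    exact lt_of_le_of_lt (degree_C_mul_X_pow_le i (r i))
      (by exact_mod_cast Finset.mem_range.1 hi)
  refine ⟨P, hPm, ?_⟩
  have hroot : aeval z μ = 0 := minpoly.aeval _ _
  rw [aeval_eq_sum_range, Finset.sum_range_succ, ← hn] at hroot
  have hlead : μ.coeff n = 1 := (minpoly.monic hzL).coeff_natDegree
  rw [hlead, one_smul] at hroot
  show eval₂ (algebraMap R F) z P = 0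
  simp only [P, eval₂_add, eval₂_pow, eval₂_X, eval₂_finsetSum, eval₂_mul, eval₂_C]
  rw [add_comm, ← hroot]
  congr 1
  refine Finset.sum_congr rfl fun i _ => ?_
  rw [← hr i]
  rfl

/-- `hbot` of `no_split_special_fibre`, from "`R` is integrally closed in `F`". -/
theorem hbot_of_isIntegral (j : F) (htr : Transcendental K j) [FiniteDimensional K⟮j⟯ F]
    (hconst : ∀ z : F, IsIntegral R z → ∃ r : R, algebraMap R F r = z) :
    ∀ z : F, z ∈ H40.chartB R j → z ∈ H40.chartB R j⁻¹ → ∃ r : R, algebraMap R F r = z :=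
  fun z h1 h2 => hconst z (isIntegral_of_mem_chartB_of_mem_chartB_inv j htr h1 h2)

end Fermat.Agent.S34.H83
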