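/-
helper83: S34, STEP 5 of the chain #2472 (generic, no modular curves).

`R` a noetherian integrally closed domain with fraction field `K`, `F/K(j)` finite separable,
`j` transcendental over `K`.  The two charts `C₁ = chartB R j`, `C₂ = chartB R j⁻¹` of the
normal model of `F` over `R`, and `C₁₂ = chart12 R j` (integral closure of `R[j, j⁻¹]`).
If the only global sections are the constants of `R` and `π` is a prime of `R`, then the special
fibre of the model has no nontrivial compatible idempotent ("Zariski connectedness").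
-/
import Mathlib
import Fermat.Agent.S18.H83_CechAbstract
import Fermat.Agent.S18.H40_CechFG

set_option autoImplicit false

namespace Fermat.Agent.S34.H83

open Polynomial
open Fermat.Agent.S18

section Chart12

variable (R : Type*) [CommRing R] {F : Type*} [Field F] [Algebra R F]

/-- The intersection of the two charts: the integral closure of `R[j, j⁻¹]` in `F`. -/
def chart12 (j : F) : Subalgebra R F :=
  (integralClosure (Algebra.adjoin R {j, j⁻¹}) F).restrictScalars R

variable {R}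

theorem mem_chart12 {j x : F} : x ∈ chart12 R j ↔ IsIntegral (Algebra.adjoin R {j, j⁻¹}) x :=
  Iff.rfl

/-- Integrality over a subalgebra passes to a larger subalgebra. -/
theorem isIntegral_of_le {S S' : Subalgebra R F} (h : S ≤ S') {x : F} (hx : IsIntegral S x) :
    IsIntegral S' x := by
  obtain ⟨p, hpm, hp⟩ := hx
  refine ⟨p.map (Subalgebra.inclusion h).toRingHom, hpm.map _, ?_⟩
  rw [eval₂_map]
  have : (algebraMap S' F).comp (Subalgebra.inclusion h).toRingHom = algebraMap S F := by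
    ext a; rfl
  rw [this]; exact hp

theorem chartB_le_chart12 (j : F) : H40.chartB R j ≤ chart12 R j := by
  intro x hx
  rw [mem_chart12]
  exact isIntegral_of_le (Algebra.adjoin_mono (by simp)) (H40.mem_chartB.1 hx)

theorem chartB_inv_le_chart12 (j : F) : H40.chartB R j⁻¹ ≤ chart12 R j := by
  intro x hx
  rw [mem_chart12]
  exact isIntegral_of_le (Algebra.adjoin_mono (by simp)) (H40.mem_chartB.1 hx)

/-- Multiplying a Laurent polynomial in `j` by a high power of `j` gives a polynomial in `j`. -/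
theorem exists_pow_mul_mem_adjoin (j : F) (hj : j ≠ 0) {a : F}
    (ha : a ∈ Algebra.adjoin R {j, j⁻¹}) :
    ∃ m : ℕ, ∀ e, m ≤ e → j ^ e * a ∈ Algebra.adjoin R {j} := by
  induction ha using Algebra.adjoin_induction with
  | mem x hx =>
    rcases hx with rfl | hx
    · exact ⟨0, fun e _ => mul_mem (pow_mem (Algebra.self_mem_adjoin_singleton R _) e)
        (Algebra.self_mem_adjoin_singleton R _)⟩
    · rw [Set.mem_singleton_iff] at hx
      subst hx
      refine ⟨1, fun e he => ?_⟩
      obtain ⟨d, rfl⟩ := Nat.exists_eq_add_of_le he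
      have : j ^ (1 + d) * j⁻¹ = j ^ d := by
        rw [pow_add, pow_one, mul_comm j, mul_assoc, mul_inv_cancel₀ hj, mul_one]
      rw [this]
      exact pow_mem (Algebra.self_mem_adjoin_singleton R _) d
  | algebraMap r =>
    exact ⟨0, fun e _ => mul_mem (pow_mem (Algebra.self_mem_adjoin_singleton R _) e)
      (Subalgebra.algebraMap_mem _ r)⟩
  | add x y _ _ hx hy =>
    obtain ⟨m₁, h₁⟩ := hx
    obtain ⟨m₂, h₂⟩ := hy
    refine ⟨max m₁ m₂, fun e he => ?_⟩
    rw [mul_add]
    exact add_mem (h₁ e (le_trans (le_max_left _ _) he)) (h₂ e (le_trans (le_max_right _ _) he))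
  | mul x y _ _ hx hy =>
    obtain ⟨m₁, h₁⟩ := hx
    obtain ⟨m₂, h₂⟩ := hy
    refine ⟨m₁ + m₂, fun e he => ?_⟩
    obtain ⟨d, rfl⟩ := Nat.exists_eq_add_of_le he
    have : j ^ (m₁ + m₂ + d) * (x * y) = (j ^ m₁ * x) * (j ^ (m₂ + d) * y) := by
      rw [pow_add, pow_add, pow_add]; ring
    rw [this]
    exact mul_mem (h₁ m₁ le_rfl) (h₂ (m₂ + d) (Nat.le_add_right _ _))

/-- `hloc`: every element of `C₁₂` is `j ^ (-n)` times an element of `C₁`. -/
theorem chart12_hloc (j : F) (hj : j ≠ 0) {y : F} (hy : y ∈ chart12 R j) :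
    ∃ n : ℕ, j ^ n * y ∈ H40.chartB R j := by
  obtain ⟨m, hm⟩ := H40.exists_pow_mul_isIntegral_of (Algebra.adjoin R {j, j⁻¹})
    (Algebra.adjoin R {j}) j (fun a ha => exists_pow_mul_mem_adjoin j hj ha) (mem_chart12.1 hy)
  exact ⟨m, H40.mem_chartB.2 (hm m le_rfl)⟩

end Chart12

section Hinj

variable {R : Type*} [CommRing R] {F : Type*} [Field F] [Algebra R F]

/-- An element integral over `R[j]` satisfies a monic equation whose coefficients are polynomials
in `j` with coefficients in `R`. -/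
theorem exists_monic_coeffs (j : F) {a : F} (ha : a ∈ H40.chartB R j) :
    ∃ (n : ℕ) (c : ℕ → R[X]), a ^ n + ∑ i ∈ Finset.range n, aeval j (c i) * a ^ i = 0 := by
  classical
  obtain ⟨p, hpm, hp⟩ := H40.mem_chartB.1 ha
  have hc : ∀ i, ∃ q : R[X], aeval j q = ((p.coeff i : Algebra.adjoin R {j}) : F) := by
    intro i
    have h1 : ∀ z : F, z ∈ Algebra.adjoin R {j} → ∃ q : R[X], aeval j q = z := by
      intro z hz
      rw [Algebra.adjoin_singleton_eq_range_aeval] at hz
      exact hz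
    exact h1 _ (p.coeff i).2
  choose c hc using hc
  refine ⟨p.natDegree, c, ?_⟩
  have h1 : eval₂ (algebraMap (Algebra.adjoin R {j}) F) a p
      = ∑ i ∈ Finset.range (p.natDegree + 1), algebraMap _ F (p.coeff i) * a ^ i :=
    eval₂_eq_sum_range _ _
  rw [h1, Finset.sum_range_succ, hpm.coeff_natDegree, map_one, one_mul] at hp
  rw [add_comm]
  rw [← hp]
  congr 1
  refine Finset.sum_congr rfl fun i _ => ?_
  rw [hc i]
  rfl

/-- `hinj` of `no_split_special_fibre`: a constant that is divisible by the prime `π` in the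
chart is divisible by `π` in `R`. -/
theorem hinj_of_prime (j : F) (htr : Transcendental R j) (π : R) (hπ : Prime π) (r : R)
    (h : ∃ a ∈ H40.chartB R j, algebraMap R F r = π • a) : ∃ s, r = π * s := by
  classical
  obtain ⟨a, ha, hra⟩ := h
  obtain ⟨n, c, hc⟩ := exists_monic_coeffs j ha
  -- multiply by `π ^ n`
  set P : R[X] := C (r ^ n) + ∑ i ∈ Finset.range n, c i * C (π ^ (n - i) * r ^ i) with hP
  have hPj : aeval j P = 0 := by
    have hπa : (algebraMap R F π) * a = algebraMap R F r := by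
      rw [hra, Algebra.smul_def]
    rw [hP, map_add, aeval_C, map_sum]
    have : ∀ i ∈ Finset.range n, aeval j (c i * C (π ^ (n - i) * r ^ i))
        = algebraMap R F π ^ n * (aeval j (c i) * a ^ i) := by
      intro i hi
      have hin : i ≤ n := (Finset.mem_range.1 hi).le
      rw [map_mul, aeval_C, map_mul, map_pow, map_pow, ← hπa, mul_pow]
      have : algebraMap R F π ^ n = algebraMap R F π ^ (n - i) * algebraMap R F π ^ i := by
        rw [← pow_add, Nat.sub_add_cancel hin]
      rw [this]; ring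
    rw [Finset.sum_congr rfl this, ← Finset.mul_sum, map_pow, ← hπa, mul_pow, ← mul_add, hc,
      mul_zero]
  have hP0 : P = 0 := by
    by_contra hne
    exact htr ⟨P, hne, hPj⟩
  have h0 : P.coeff 0 = 0 := by rw [hP0]; simp
  rw [hP, coeff_add, coeff_C_zero, finsetSum_coeff] at h0
  have hdiv : π ∣ r ^ n := by
    have h2 : ∀ i ∈ Finset.range n, π ∣ (c i * C (π ^ (n - i) * r ^ i)).coeff 0 := by
      intro i hi
      have hin : 1 ≤ n - i := Nat.sub_pos_of_lt (Finset.mem_range.1 hi)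
      rw [mul_coeff_zero, coeff_C_zero]
      refine Dvd.dvd.mul_left (Dvd.dvd.mul_right (dvd_pow_self π (by omega)) _) _
    have h3 : π ∣ ∑ i ∈ Finset.range n, (c i * C (π ^ (n - i) * r ^ i)).coeff 0 :=
      Finset.dvd_sum h2
    have h4 : r ^ n = -∑ i ∈ Finset.range n, (c i * C (π ^ (n - i) * r ^ i)).coeff 0 :=
      eq_neg_of_add_eq_zero_left h0
    rw [h4]
    exact (dvd_neg).2 h3
  rcases Nat.eq_zero_or_pos n with hn | hn
  · subst hn
    rw [pow_zero] at hdiv
    exact absurd (isUnit_of_dvd_one hdiv) hπ.not_isUnit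
  · exact hπ.dvd_of_dvd_pow hdiv

end Hinj

section Main

variable {R : Type*} [CommRing R] [IsDomain R] [IsNoetherianRing R] [IsIntegrallyClosed R]
  {K : Type*} [Field K] [Algebra R K] [IsFractionRing R K]
  {F : Type*} [Field F] [Algebra R F] [Algebra K F] [IsScalarTower R K F]

/-- **STEP 5 (generic).**  Zariski connectedness of the special fibre of the normal model of a
function field `F` over `R`: no nontrivial idempotent of `C₁/π` and `C₂/π` agreeing in `C₁₂/π`. -/
theorem no_split_special_fibre (j : F) (htr : Transcendental K j)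
    [FiniteDimensional (IntermediateField.adjoin K {j}) F]
    [Algebra.IsSeparable (IntermediateField.adjoin K {j}) F]
    (π : R) (hπ : Prime π)
    (hbot : ∀ z : F, z ∈ H40.chartB R j → z ∈ H40.chartB R j⁻¹ → ∃ r : R, algebraMap R F r = z)
    (hinj : ∀ r : R, (∃ a ∈ H40.chartB R j, algebraMap R F r = π • a) → ∃ s, r = π * s)
    {e₁ e₂ : F} (h₁ : e₁ ∈ H40.chartB R j) (h₂ : e₂ ∈ H40.chartB R j⁻¹)
    (hi₁ : ∃ a ∈ H40.chartB R j, e₁ ^ 2 - e₁ = π • a)
    (hi₂ : ∃ a ∈ H40.chartB R j⁻¹, e₂ ^ 2 - e₂ = π • a)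
    (h₁₂ : ∃ y ∈ chart12 R j, e₁ - e₂ = π • y) :
    (∃ a ∈ H40.chartB R j, e₁ = π • a) ∨ ∃ a ∈ H40.chartB R j, e₁ - 1 = π • a := by
  classical
  have hj : j ≠ 0 := by
    rintro rfl
    exact htr isAlgebraic_zero
  -- the ambient ring
  have hC : ∀ x : F, x ∈ H40.chartB R j → x ∈ chart12 R j := fun x hx => chartB_le_chart12 j hx
  have hC' : ∀ x : F, x ∈ H40.chartB R j⁻¹ → x ∈ chart12 R j :=
    fun x hx => chartB_inv_le_chart12 j hx
  -- chart data
  obtain ⟨n, β, c0, hβ1, hβ2, hβ3⟩ :=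
    H40.exists_chart_data (R := R) j hj (H40.integralClosure_adjoin_fg (K := K) j htr)
  have hjj : (⟨j, hC j (H40.self_mem_chartB j)⟩ : ↥(chart12 R j))
      * ⟨j⁻¹, hC' j⁻¹ (H40.self_mem_chartB j⁻¹)⟩ = 1 := Subtype.ext (mul_inv_cancel₀ hj)
  have hfin : Module.Finite R
      (↥(chart12 R j) ⧸ (Subalgebra.toSubmodule ((H40.chartB R j).comap (chart12 R j).val) ⊔
        Subalgebra.toSubmodule ((H40.chartB R j⁻¹).comap (chart12 R j).val))) := by
    refine S18.H83.finite_quotient ((H40.chartB R j).comap (chart12 R j).val)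
      ((H40.chartB R j⁻¹).comap (chart12 R j).val) hjj
      (show j ∈ H40.chartB R j from H40.self_mem_chartB j)
      (show j⁻¹ ∈ H40.chartB R j⁻¹ from H40.self_mem_chartB j⁻¹)
      (fun i => (⟨β i, hC _ (hβ1 i)⟩ : ↥(chart12 R j)))
      (fun i => show β i ∈ H40.chartB R j from hβ1 i) ?_ c0 ?_ ?_
    · intro b hb
      obtain ⟨p, hp⟩ := hβ2 (b : F) hb
      refine ⟨p, Subtype.ext ?_⟩
      rw [hp]
      have hcoe : ∀ q : R[X], (((aeval (⟨j, hC j (H40.self_mem_chartB j)⟩ : ↥(chart12 R j)) q :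
          ↥(chart12 R j)) : F)) = aeval j q := by
        intro q
        have := aeval_algHom_apply (chart12 R j).val
          (⟨j, hC j (H40.self_mem_chartB j)⟩ : ↥(chart12 R j)) q
        exact this.symm
      rw [AddSubmonoidClass.coe_finsetSum]
      refine Finset.sum_congr rfl fun i _ => ?_
      rw [MulMemClass.coe_mul, hcoe]
    · intro i
      show (j⁻¹ ^ c0 * β i : F) ∈ H40.chartB R j⁻¹
      exact hβ3 i
    · intro y
      obtain ⟨m, hm⟩ := chart12_hloc j hj y.2
      exact ⟨m, show (j ^ m * (y : F) : F) ∈ H40.chartB R j from hm⟩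
  -- the elements
  obtain ⟨y, hy, hy'⟩ := h₁₂
  obtain ⟨a₁, ha₁, ha₁'⟩ := hi₁
  obtain ⟨a₂, ha₂, ha₂'⟩ := hi₂
  have key := S18.H83.no_nontrivial_idempotent_of_finite (R := R)
    (C₁ := (H40.chartB R j).comap (chart12 R j).val)
    (C₂ := (H40.chartB R j⁻¹).comap (chart12 R j).val) (π := π)
    (e₁ := (⟨e₁, hC _ h₁⟩ : ↥(chart12 R j))) (e₂ := (⟨e₂, hC' _ h₂⟩ : ↥(chart12 R j)))
    (by
      intro c hc1 hc2
      obtain ⟨r, hr⟩ := hbot (c : F) hc1 hc2
      exact ⟨r, Subtype.ext hr⟩)
    (by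
      rintro r ⟨a, ha, hra⟩
      refine hinj r ⟨(a : F), ha, ?_⟩
      exact congrArg (fun x : ↥(chart12 R j) => (x : F)) hra)
    (S18.H83.hconn_of_prime hπ)
    (show e₁ ∈ H40.chartB R j from h₁) (show e₂ ∈ H40.chartB R j⁻¹ from h₂)
    ⟨⟨a₁, hC _ ha₁⟩, (show a₁ ∈ H40.chartB R j from ha₁), Subtype.ext ha₁'⟩
    ⟨⟨a₂, hC' _ ha₂⟩, (show a₂ ∈ H40.chartB R j⁻¹ from ha₂), Subtype.ext ha₂'⟩
    ⟨⟨y, hy⟩, Subtype.ext hy'⟩
  rcases key with ⟨a, ha, hea⟩ | ⟨a, ha, hea⟩
  · left
    exact ⟨(a : F), ha, congrArg (fun x : ↥(chart12 R j) => (x : F)) hea⟩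
  · right
    exact ⟨(a : F), ha, congrArg (fun x : ↥(chart12 R j) => (x : F)) hea⟩

end Main

end Fermat.Agent.S34.H83
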