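/-
helper83: S34, STEP 5 in its final generic shape: `no_split_special_fibre` with `hbot`, `hinj`
discharged.  Only input about constants: `R` is integrally closed in `F`.
-/
import Mathlib
import Fermat.Agent.S34.H83_NoSplit
import Fermat.Agent.S34.H83_GlobalSections

set_option autoImplicit false

namespace Fermat.Agent.S34.H83

open Polynomial IntermediateField
open Fermat.Agent.S18

variable {R : Type*} [CommRing R] [IsDomain R] [IsNoetherianRing R] [IsIntegrallyClosed R]
  {K : Type*} [Field K] [Algebra R K] [IsFractionRing R K]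
  {F : Type*} [Field F] [Algebra R F] [Algebra K F] [IsScalarTower R K F]

/-- **STEP 5, final generic form.**  `F / K(j)` finite separable, `j` transcendental over
`K = Frac R`, `R` noetherian and integrally closed in `F`, `π` a prime of `R`.  Then no idempotent
of `chartB R j / π` that agrees on the overlap with an idempotent of `chartB R j⁻¹ / π` is
nontrivial. -/
theorem no_split_special_fibre' (j : F) (htr : Transcendental K j)
    [FiniteDimensional K⟮j⟯ F] [Algebra.IsSeparable K⟮j⟯ F]
    (π : R) (hπ : Prime π)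
    (hconst : ∀ z : F, IsIntegral R z → ∃ r : R, algebraMap R F r = z)
    {e₁ e₂ : F} (h₁ : e₁ ∈ H40.chartB R j) (h₂ : e₂ ∈ H40.chartB R j⁻¹)
    (hi₁ : ∃ a ∈ H40.chartB R j, e₁ ^ 2 - e₁ = π • a)
    (hi₂ : ∃ a ∈ H40.chartB R j⁻¹, e₂ ^ 2 - e₂ = π • a)
    (h₁₂ : ∃ y ∈ chart12 R j, e₁ - e₂ = π • y) :
    (∃ a ∈ H40.chartB R j, e₁ = π • a) ∨ ∃ a ∈ H40.chartB R j, e₁ - 1 = π • a :=
  no_split_special_fibre j htr π hπ (hbot_of_isIntegral j htr hconst)
    (fun r h => hinj_of_prime j (H40.transcendental_of_tower j htr) π hπ r h)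
    h₁ h₂ hi₁ hi₂ h₁₂

end Fermat.Agent.S34.H83
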