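/-
helper83: S34, L8 (c): the special fibre of the two-chart normal model is CONNECTED, derived from
`no_split_special_fibre'` applied to the function field itself (the "trivial cover").

Binder block = `H69.kummer_descent`'s: `R` noetherian integrally closed domain, `K = Frac R`
algebraically closed in `F`, `J` a transcendental coordinate, `F / K(J)` finite separable, `π : R`
prime, vertical primes `P₁ i`, `P₂ i`, `P₁₂ k` of the charts `chartB R J`, `chartB R J⁻¹`,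
`chart12 R J` with `hred`, `hsat`.

* `colouring_const` : a 2-colouring of the components which is constant around every closed point
  of both charts (and compatible on the overlap) is constant.
* `hconn_of_no_split` : the same for one index type and `ℕ`-valued colourings — verbatim
  `H47.ModelHyp.hconn`.
-/
import Mathlib
import Fermat.Agent.S34.H83_NoSplitFinal

set_option autoImplicit false

namespace Fermat.Agent.S34.H83

open Polynomial IntermediateField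
open Fermat.Agent.S18

/-! ### Abstract commutative algebra -/

section CRT

variable {B : Type*} [CommRing B] {ι : Type*} [Finite ι]

/-- CRT for a 2-colouring of finitely many ideals, no two of different colours contained in a
common maximal ideal. -/
theorem exists_idem_of_colouring (P : ι → Ideal B) (c : ι → Prop)
    (hloc : ∀ n : Ideal B, n.IsMaximal → ∀ i i', P i ≤ n → P i' ≤ n → (c i ↔ c i')) :
    ∃ e : B, (∀ i, c i → e - 1 ∈ P i) ∧ (∀ i, ¬ c i → e ∈ P i) := by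
  classical
  have := Fintype.ofFinite ι
  set IT : Ideal B := (Finset.univ.filter fun i => c i).inf P with hIT
  set IF : Ideal B := (Finset.univ.filter fun i => ¬ c i).inf P with hIF
  have htop : IT ⊔ IF = ⊤ := by
    by_contra hne
    obtain ⟨n, hn, hle⟩ := Ideal.exists_le_maximal _ hne
    have h1 : IT ≤ n := le_trans le_sup_left hle
    have h2 : IF ≤ n := le_trans le_sup_right hle
    obtain ⟨i, hi, hin⟩ := (Ideal.IsPrime.inf_le' hn.isPrime).1 h1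
    obtain ⟨i', hi', hi'n⟩ := (Ideal.IsPrime.inf_le' hn.isPrime).1 h2
    have hci : c i := (Finset.mem_filter.1 hi).2
    have hci' : ¬ c i' := (Finset.mem_filter.1 hi').2
    exact hci' ((hloc n hn i i' hin hi'n).1 hci)
  have h1 : (1 : B) ∈ IT ⊔ IF := by rw [htop]; trivial
  obtain ⟨a, ha, b, hb, hab⟩ := Submodule.mem_sup.1 h1
  refine ⟨b, fun i hi => ?_, fun i hi => ?_⟩
  · have : b - 1 = -a := by rw [← hab]; ring
    rw [this]
    have hle : IT ≤ P i :=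
      Finset.inf_le (f := P) (Finset.mem_filter.2 ⟨Finset.mem_univ i, hi⟩)
    exact neg_mem (hle ha)
  · have hle : IF ≤ P i :=
      Finset.inf_le (f := P) (Finset.mem_filter.2 ⟨Finset.mem_univ i, hi⟩)
    exact hle hb

omit [Finite ι] in
/-- `⋂ P i = (π)` from `hred` + `hsat`. -/
theorem dvd_of_forall_mem (P : ι → Ideal B) (π : B)
    (hred : ∀ i, ∀ b ∈ P i, ∃ s, s ∉ P i ∧ π ∣ s * b)
    (hsat : ∀ b : B, (∀ i, ∃ s, s ∉ P i ∧ π ∣ s * b) → π ∣ b)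
    (b : B) (hb : ∀ i, b ∈ P i) : π ∣ b :=
  hsat b fun i => hred i b (hb i)

end CRT

/-! ### Connectedness of the special fibre -/

section Connected

variable {R : Type*} [CommRing R] [IsDomain R] [IsNoetherianRing R] [IsIntegrallyClosed R]
  {K : Type*} [Field K] [Algebra R K] [IsFractionRing R K]
  {F : Type*} [Field F] [Algebra R F] [Algebra K F] [IsScalarTower R K F]

omit [IsNoetherianRing R] in
/-- `R` is integrally closed in `F` as soon as `K = Frac R` is algebraically closed in `F`. -/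
theorem hconst_of_hcl (hcl : ∀ z : F, IsAlgebraic K z → z ∈ (algebraMap K F).range)
    (z : F) (hz : IsIntegral R z) : ∃ r : R, algebraMap R F r = z := by
  obtain ⟨c, rfl⟩ := hcl z (hz.tower_top (A := K)).isAlgebraic
  have hc : IsIntegral R c := (isIntegral_algebraMap_iff (algebraMap K F).injective).1 hz
  obtain ⟨r, rfl⟩ := IsIntegrallyClosed.isIntegral_iff.1 hc
  exact ⟨r, IsScalarTower.algebraMap_apply R K F r⟩

omit [IsDomain R] [IsNoetherianRing R] [IsIntegrallyClosed R] in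
/-- the `π`-divisibility transported along a subalgebra inclusion, with an explicit cofactor -/
theorem overlap_dvd {S T : Subalgebra R F} (hST : S ≤ T) (π : R)
    {s b d : ↥S} (hd : s * b = algebraMap R ↥S π * d) :
    Subalgebra.inclusion hST s * Subalgebra.inclusion hST b =
      algebraMap R ↥T π * Subalgebra.inclusion hST d := by
  have := congrArg (Subalgebra.inclusion hST) hd
  rwa [map_mul, map_mul, AlgHom.commutes] at this

omit [IsDomain R] [IsNoetherianRing R] [IsIntegrallyClosed R] in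
/-- Two elements of two subalgebras which are congruent to the same constant `ε ∈ {0, 1}` at a
common prime of a bigger subalgebra are congruent there. -/
theorem overlap_congr {S₁ S₂ T : Subalgebra R F} (h₁ : S₁ ≤ T) (h₂ : S₂ ≤ T) (π : R)
    (Q : Ideal ↥T) (hQ : Q.IsPrime) (ε : R)
    {s₁ e₁ d₁ : ↥S₁} {s₂ e₂ d₂ : ↥S₂}
    (hs₁ : Subalgebra.inclusion h₁ s₁ ∉ Q) (hs₂ : Subalgebra.inclusion h₂ s₂ ∉ Q)
    (hd₁ : s₁ * (e₁ - algebraMap R ↥S₁ ε) = algebraMap R ↥S₁ π * d₁)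
    (hd₂ : s₂ * (e₂ - algebraMap R ↥S₂ ε) = algebraMap R ↥S₂ π * d₂) :
    ∃ s, s ∉ Q ∧ algebraMap R ↥T π ∣
      s * (Subalgebra.inclusion h₁ e₁ - Subalgebra.inclusion h₂ e₂) := by
  refine ⟨Subalgebra.inclusion h₁ s₁ * Subalgebra.inclusion h₂ s₂, fun h => ?_,
    Subalgebra.inclusion h₂ s₂ * Subalgebra.inclusion h₁ d₁
      - Subalgebra.inclusion h₁ s₁ * Subalgebra.inclusion h₂ d₂, ?_⟩
  · rcases hQ.mem_or_mem h with h | h
    · exact hs₁ h
    · exact hs₂ h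
  · have e1 := overlap_dvd h₁ π hd₁
    have e2 := overlap_dvd h₂ π hd₂
    rw [map_sub, AlgHom.commutes] at e1 e2
    have : Subalgebra.inclusion h₁ s₁ * Subalgebra.inclusion h₂ s₂ *
        (Subalgebra.inclusion h₁ e₁ - Subalgebra.inclusion h₂ e₂) =
        Subalgebra.inclusion h₂ s₂ *
          (Subalgebra.inclusion h₁ s₁ * (Subalgebra.inclusion h₁ e₁ - algebraMap R ↥T ε))
        - Subalgebra.inclusion h₁ s₁ *
          (Subalgebra.inclusion h₂ s₂ * (Subalgebra.inclusion h₂ e₂ - algebraMap R ↥T ε)) := by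
      ring
    rw [this, e1, e2]
    ring

omit [IsDomain R] [IsNoetherianRing R] [IsIntegrallyClosed R] in
/-- reading a divisibility by `π` in a subalgebra inside the field -/
theorem coe_eq_smul_of_dvd {S : Subalgebra R F} (π : R) {b : ↥S}
    (h : algebraMap R ↥S π ∣ b) : ∃ a ∈ S, (b : F) = π • a := by
  obtain ⟨a, rfl⟩ := h
  exact ⟨a, a.2, by rw [Subalgebra.coe_mul, Subalgebra.coe_algebraMap, Algebra.smul_def]⟩

omit [IsDomain R] [IsNoetherianRing R] [IsIntegrallyClosed R] in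
theorem dvd_of_coe_eq_smul {S : Subalgebra R F} (π : R) {b : ↥S} {a : F} (ha : a ∈ S)
    (h : (b : F) = π • a) : algebraMap R ↥S π ∣ b :=
  ⟨⟨a, ha⟩, Subtype.ext (by
    rw [Subalgebra.coe_mul, Subalgebra.coe_algebraMap, h, Algebra.smul_def])⟩

/-- **Connectedness of the special fibre, colouring form.** -/
theorem colouring_const (J : F) (htr : Transcendental K J)
    [FiniteDimensional K⟮J⟯ F] [Algebra.IsSeparable K⟮J⟯ F]
    (hcl : ∀ z : F, IsAlgebraic K z → z ∈ (algebraMap K F).range)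
    (π : R) (hπ : Prime π)
    {ι₁ ι₂ ι₁₂ : Type*} [Finite ι₁] [Finite ι₂]
    (P₁ : ι₁ → Ideal ↥(H40.chartB R J)) (P₂ : ι₂ → Ideal ↥(H40.chartB R J⁻¹))
    (P₁₂ : ι₁₂ → Ideal ↥(H83.chart12 R J))
    (hP₁ : ∀ i, (P₁ i).IsPrime) (hP₁₂ : ∀ k, (P₁₂ k).IsPrime)
    (hπP₁ : ∀ i, algebraMap R ↥(H40.chartB R J) π ∈ P₁ i)
    (hred₁ : ∀ i, ∀ b ∈ P₁ i, ∃ s, s ∉ P₁ i ∧ algebraMap R ↥(H40.chartB R J) π ∣ s * b)
    (hred₂ : ∀ i, ∀ b ∈ P₂ i, ∃ s, s ∉ P₂ i ∧ algebraMap R ↥(H40.chartB R J⁻¹) π ∣ s * b)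
    (hsat₁ : ∀ b : ↥(H40.chartB R J),
      (∀ i, ∃ s, s ∉ P₁ i ∧ algebraMap R ↥(H40.chartB R J) π ∣ s * b) →
      algebraMap R ↥(H40.chartB R J) π ∣ b)
    (hsat₂ : ∀ b : ↥(H40.chartB R J⁻¹),
      (∀ i, ∃ s, s ∉ P₂ i ∧ algebraMap R ↥(H40.chartB R J⁻¹) π ∣ s * b) →
      algebraMap R ↥(H40.chartB R J⁻¹) π ∣ b)
    (hsat₁₂ : ∀ b : ↥(H83.chart12 R J),
      (∀ k, ∃ s, s ∉ P₁₂ k ∧ algebraMap R ↥(H83.chart12 R J) π ∣ s * b) →
      algebraMap R ↥(H83.chart12 R J) π ∣ b)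
    (c₁ : ι₁ → Prop) (c₂ : ι₂ → Prop)
    (hloc₁ : ∀ n : Ideal ↥(H40.chartB R J), n.IsMaximal → ∀ i i', P₁ i ≤ n → P₁ i' ≤ n →
      (c₁ i ↔ c₁ i'))
    (hloc₂ : ∀ n : Ideal ↥(H40.chartB R J⁻¹), n.IsMaximal → ∀ i i', P₂ i ≤ n → P₂ i' ≤ n →
      (c₂ i ↔ c₂ i'))
    (hlink : ∀ k : ι₁₂, ∃ i i',
      (∀ s : ↥(H40.chartB R J), s ∉ P₁ i →
        Subalgebra.inclusion (H83.chartB_le_chart12 (R := R) J) s ∉ P₁₂ k) ∧
      (∀ s : ↥(H40.chartB R J⁻¹), s ∉ P₂ i' →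
        Subalgebra.inclusion (H83.chartB_inv_le_chart12 (R := R) J) s ∉ P₁₂ k) ∧
      (c₁ i ↔ c₂ i')) :
    (∀ i, c₁ i) ∨ (∀ i, ¬ c₁ i) := by
  classical
  -- the two idempotents modulo `π`
  obtain ⟨e₁, he₁T, he₁F⟩ := exists_idem_of_colouring P₁ c₁ hloc₁
  obtain ⟨e₂, he₂T, he₂F⟩ := exists_idem_of_colouring P₂ c₂ hloc₂
  have hidem₁ : algebraMap R ↥(H40.chartB R J) π ∣ e₁ * (e₁ - 1) :=
    dvd_of_forall_mem P₁ _ hred₁ hsat₁ _ fun i => by
      by_cases hc : c₁ i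
      · exact Ideal.mul_mem_left _ _ (he₁T i hc)
      · exact Ideal.mul_mem_right _ _ (he₁F i hc)
  have hidem₂ : algebraMap R ↥(H40.chartB R J⁻¹) π ∣ e₂ * (e₂ - 1) :=
    dvd_of_forall_mem P₂ _ hred₂ hsat₂ _ fun i => by
      by_cases hc : c₂ i
      · exact Ideal.mul_mem_left _ _ (he₂T i hc)
      · exact Ideal.mul_mem_right _ _ (he₂F i hc)
  -- compatibility on the overlap
  have hcompat : algebraMap R ↥(H83.chart12 R J) π ∣
      Subalgebra.inclusion (H83.chartB_le_chart12 (R := R) J) e₁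
        - Subalgebra.inclusion (H83.chartB_inv_le_chart12 (R := R) J) e₂ := by
    refine hsat₁₂ _ fun k => ?_
    obtain ⟨i, i', ho₁, ho₂, hcc⟩ := hlink k
    by_cases hc : c₁ i
    · obtain ⟨s₁, hs₁, d₁, hd₁⟩ := hred₁ i _ (he₁T i hc)
      obtain ⟨s₂, hs₂, d₂, hd₂⟩ := hred₂ i' _ (he₂T i' (hcc.1 hc))
      exact overlap_congr _ _ π (P₁₂ k) (hP₁₂ k) 1 (ho₁ s₁ hs₁) (ho₂ s₂ hs₂)
        (by rw [map_one]; exact hd₁) (by rw [map_one]; exact hd₂)
    · have hc' : ¬ c₂ i' := fun h => hc (hcc.2 h)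
      obtain ⟨s₁, hs₁, d₁, hd₁⟩ := hred₁ i _ (he₁F i hc)
      obtain ⟨s₂, hs₂, d₂, hd₂⟩ := hred₂ i' _ (he₂F i' hc')
      exact overlap_congr _ _ π (P₁₂ k) (hP₁₂ k) 0 (ho₁ s₁ hs₁) (ho₂ s₂ hs₂)
        (by rw [map_zero, sub_zero]; exact hd₁) (by rw [map_zero, sub_zero]; exact hd₂)
  -- translate to `F` and apply STEP 5 to `F` itself
  have hi₁ : ∃ a ∈ H40.chartB R J, (e₁ : F) ^ 2 - e₁ = π • a := by
    obtain ⟨a, ha, h⟩ := coe_eq_smul_of_dvd π hidem₁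
    refine ⟨a, ha, ?_⟩
    rw [← h, Subalgebra.coe_mul, Subalgebra.coe_sub, Subalgebra.coe_one]
    ring
  have hi₂ : ∃ a ∈ H40.chartB R J⁻¹, (e₂ : F) ^ 2 - e₂ = π • a := by
    obtain ⟨a, ha, h⟩ := coe_eq_smul_of_dvd π hidem₂
    refine ⟨a, ha, ?_⟩
    rw [← h, Subalgebra.coe_mul, Subalgebra.coe_sub, Subalgebra.coe_one]
    ring
  have h₁₂ : ∃ y ∈ H83.chart12 R J, (e₁ : F) - e₂ = π • y := by
    obtain ⟨a, ha, h⟩ := coe_eq_smul_of_dvd π hcompat
    refine ⟨a, ha, ?_⟩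
    rw [← h, Subalgebra.coe_sub, Subalgebra.coe_inclusion, Subalgebra.coe_inclusion]
  rcases no_split_special_fibre' J htr π hπ (hconst_of_hcl hcl) e₁.2 e₂.2 hi₁ hi₂ h₁₂ with
    ⟨a, ha, h⟩ | ⟨a, ha, h⟩
  · -- `e₁ ≡ 0`: every component has colour `false`
    right
    intro i hc
    have hmem : e₁ ∈ P₁ i :=
      Ideal.mem_of_dvd _ (dvd_of_coe_eq_smul π ha h) (hπP₁ i)
    have h1 : (1 : ↥(H40.chartB R J)) ∈ P₁ i := by
      have := sub_mem hmem (he₁T i hc)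
      simpa using this
    exact (hP₁ i).ne_top ((Ideal.eq_top_iff_one _).2 h1)
  · -- `e₁ ≡ 1`: every component has colour `true`
    left
    intro i
    by_contra hc
    have hmem : e₁ - 1 ∈ P₁ i :=
      Ideal.mem_of_dvd _ (dvd_of_coe_eq_smul π ha
        (by rw [Subalgebra.coe_sub, Subalgebra.coe_one]; exact h)) (hπP₁ i)
    have h1 : (1 : ↥(H40.chartB R J)) ∈ P₁ i := by
      have := sub_mem (he₁F i hc) hmem
      simpa using this
    exact (hP₁ i).ne_top ((Ideal.eq_top_iff_one _).2 h1)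

/-- **Connectedness of the special fibre**, one index type, `ℕ`-valued colourings: verbatim the
field `hconn` of `H47.ModelHyp` for `Thr n k := P_i k ≤ n`. -/
theorem hconn_of_no_split (J : F) (htr : Transcendental K J)
    [FiniteDimensional K⟮J⟯ F] [Algebra.IsSeparable K⟮J⟯ F]
    (hcl : ∀ z : F, IsAlgebraic K z → z ∈ (algebraMap K F).range)
    (π : R) (hπ : Prime π)
    {ι : Type*} [Finite ι]
    (P₁ : ι → Ideal ↥(H40.chartB R J)) (P₂ : ι → Ideal ↥(H40.chartB R J⁻¹))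
    (P₁₂ : ι → Ideal ↥(H83.chart12 R J))
    (hP₁ : ∀ i, (P₁ i).IsPrime) (hP₁₂ : ∀ k, (P₁₂ k).IsPrime)
    (hπP₁ : ∀ i, algebraMap R ↥(H40.chartB R J) π ∈ P₁ i)
    (hcomp₁ : ∀ k, ∀ s : ↥(H40.chartB R J), s ∉ P₁ k →
      Subalgebra.inclusion (H83.chartB_le_chart12 (R := R) J) s ∉ P₁₂ k)
    (hcomp₂ : ∀ k, ∀ s : ↥(H40.chartB R J⁻¹), s ∉ P₂ k →
      Subalgebra.inclusion (H83.chartB_inv_le_chart12 (R := R) J) s ∉ P₁₂ k)
    (hred₁ : ∀ i, ∀ b ∈ P₁ i, ∃ s, s ∉ P₁ i ∧ algebraMap R ↥(H40.chartB R J) π ∣ s * b)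
    (hred₂ : ∀ i, ∀ b ∈ P₂ i, ∃ s, s ∉ P₂ i ∧ algebraMap R ↥(H40.chartB R J⁻¹) π ∣ s * b)
    (hsat₁ : ∀ b : ↥(H40.chartB R J),
      (∀ i, ∃ s, s ∉ P₁ i ∧ algebraMap R ↥(H40.chartB R J) π ∣ s * b) →
      algebraMap R ↥(H40.chartB R J) π ∣ b)
    (hsat₂ : ∀ b : ↥(H40.chartB R J⁻¹),
      (∀ i, ∃ s, s ∉ P₂ i ∧ algebraMap R ↥(H40.chartB R J⁻¹) π ∣ s * b) →
      algebraMap R ↥(H40.chartB R J⁻¹) π ∣ b)
    (hsat₁₂ : ∀ b : ↥(H83.chart12 R J),
      (∀ k, ∃ s, s ∉ P₁₂ k ∧ algebraMap R ↥(H83.chart12 R J) π ∣ s * b) →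
      algebraMap R ↥(H83.chart12 R J) π ∣ b)
    (c : ι → ℕ)
    (h₁ : ∀ n : Ideal ↥(H40.chartB R J), n.IsMaximal → ∀ k k', P₁ k ≤ n → P₁ k' ≤ n →
      c k = c k')
    (h₂ : ∀ n : Ideal ↥(H40.chartB R J⁻¹), n.IsMaximal → ∀ k k', P₂ k ≤ n → P₂ k' ≤ n →
      c k = c k') :
    ∀ k k', c k = c k' := by
  intro k₀ k'
  have key := colouring_const J htr hcl π hπ P₁ P₂ P₁₂ hP₁ hP₁₂ hπP₁ hred₁ hred₂ hsat₁ hsat₂
    hsat₁₂ (fun k => c k = c k₀) (fun k => c k = c k₀)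
    (fun n hn i i' hi hi' => by rw [h₁ n hn i i' hi hi'])
    (fun n hn i i' hi hi' => by rw [h₂ n hn i i' hi hi'])
    (fun k => ⟨k, k, hcomp₁ k, hcomp₂ k, Iff.rfl⟩)
  rcases key with h | h
  · exact (h k').symm
  · exact absurd rfl (h k₀)

/-- **Two components meet** (helper53's disjunctive form): if the special fibre has (at most) two
components `a`, `b`, they have a common closed point in chart 1 or in chart 2. -/
theorem exists_crossing_of_two (J : F) (htr : Transcendental K J)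
    [FiniteDimensional K⟮J⟯ F] [Algebra.IsSeparable K⟮J⟯ F]
    (hcl : ∀ z : F, IsAlgebraic K z → z ∈ (algebraMap K F).range)
    (π : R) (hπ : Prime π)
    {ι : Type*} [Finite ι]
    (P₁ : ι → Ideal ↥(H40.chartB R J)) (P₂ : ι → Ideal ↥(H40.chartB R J⁻¹))
    (P₁₂ : ι → Ideal ↥(H83.chart12 R J))
    (hP₁ : ∀ i, (P₁ i).IsPrime) (hP₁₂ : ∀ k, (P₁₂ k).IsPrime)
    (hπP₁ : ∀ i, algebraMap R ↥(H40.chartB R J) π ∈ P₁ i)
    (hcomp₁ : ∀ k, ∀ s : ↥(H40.chartB R J), s ∉ P₁ k →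
      Subalgebra.inclusion (H83.chartB_le_chart12 (R := R) J) s ∉ P₁₂ k)
    (hcomp₂ : ∀ k, ∀ s : ↥(H40.chartB R J⁻¹), s ∉ P₂ k →
      Subalgebra.inclusion (H83.chartB_inv_le_chart12 (R := R) J) s ∉ P₁₂ k)
    (hred₁ : ∀ i, ∀ b ∈ P₁ i, ∃ s, s ∉ P₁ i ∧ algebraMap R ↥(H40.chartB R J) π ∣ s * b)
    (hred₂ : ∀ i, ∀ b ∈ P₂ i, ∃ s, s ∉ P₂ i ∧ algebraMap R ↥(H40.chartB R J⁻¹) π ∣ s * b)
    (hsat₁ : ∀ b : ↥(H40.chartB R J),
      (∀ i, ∃ s, s ∉ P₁ i ∧ algebraMap R ↥(H40.chartB R J) π ∣ s * b) →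
      algebraMap R ↥(H40.chartB R J) π ∣ b)
    (hsat₂ : ∀ b : ↥(H40.chartB R J⁻¹),
      (∀ i, ∃ s, s ∉ P₂ i ∧ algebraMap R ↥(H40.chartB R J⁻¹) π ∣ s * b) →
      algebraMap R ↥(H40.chartB R J⁻¹) π ∣ b)
    (hsat₁₂ : ∀ b : ↥(H83.chart12 R J),
      (∀ k, ∃ s, s ∉ P₁₂ k ∧ algebraMap R ↥(H83.chart12 R J) π ∣ s * b) →
      algebraMap R ↥(H83.chart12 R J) π ∣ b)
    (a b : ι) (hι : ∀ k : ι, k = a ∨ k = b) :
    (∃ n : Ideal ↥(H40.chartB R J), n.IsMaximal ∧ P₁ a ≤ n ∧ P₁ b ≤ n) ∨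
    (∃ n : Ideal ↥(H40.chartB R J⁻¹), n.IsMaximal ∧ P₂ a ≤ n ∧ P₂ b ≤ n) := by
  classical
  by_contra hcon
  push Not at hcon
  obtain ⟨hc₁, hc₂⟩ := hcon
  have hab : a ≠ b := by
    rintro rfl
    obtain ⟨n, hn, hle⟩ := Ideal.exists_le_maximal _ (hP₁ a).ne_top
    exact hc₁ n hn hle hle
  have key := hconn_of_no_split J htr hcl π hπ P₁ P₂ P₁₂ hP₁ hP₁₂ hπP₁ hcomp₁ hcomp₂ hred₁ hred₂
    hsat₁ hsat₂ hsat₁₂ (fun k => if k = a then 0 else 1)
    (fun n hn k k' hk hk' => by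
      rcases hι k with rfl | rfl <;> rcases hι k' with rfl | rfl
      · rfl
      · exact absurd hk' (hc₁ n hn hk)
      · exact absurd hk (hc₁ n hn hk')
      · rfl)
    (fun n hn k k' hk hk' => by
      rcases hι k with rfl | rfl <;> rcases hι k' with rfl | rfl
      · rfl
      · exact absurd hk' (hc₂ n hn hk)
      · exact absurd hk (hc₂ n hn hk')
      · rfl)
    a b
  simp only [if_true, if_neg hab.symm] at key
  exact zero_ne_one key

end Connected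

end Fermat.Agent.S34.H83
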