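import Fermat.Agent.S34.H69_KummerPow
import Fermat.Agent.S34.H83_Connected

/-!
# S34, L8: the composition, connectedness discharged (helper69)

`kummer_descent_pow_conn` = `kummer_descent_pow` with its hypothesis `hconn` supplied by
helper83's `H83.hconn_of_no_split`.  What remains as hypotheses: the geometry of the two-chart
model (`hcomp`, `hred`, `hsat`, `hall`, heights) and the local datum of `u`.
-/

set_option autoImplicit false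

open Polynomial IntermediateField Fermat.Agent.S18 Fermat.Agent.CA.H69

namespace Fermat.Agent.S34.H69

universe v

/-- **L8, composed, connectedness included.** -/
theorem kummer_descent_pow_conn
    {R : Type*} [CommRing R] [IsDomain R] [IsDiscreteValuationRing R]
    {K : Type*} [Field K] [Algebra R K] [IsFractionRing R K]
    {F : Type v} [Field F] [Algebra R F] [Algebra K F] [IsScalarTower R K F]
    (J : F) (htr : Transcendental K J) [FiniteDimensional K⟮J⟯ F] [Algebra.IsSeparable K⟮J⟯ F]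
    [IsFractionRing ↥(H40.chartB R J) F] [IsFractionRing ↥(H40.chartB R J⁻¹) F]
    [IsNoetherianRing ↥(H40.chartB R J)] [IsIntegrallyClosed ↥(H40.chartB R J)]
    (hcl : ∀ z : F, IsAlgebraic K z → z ∈ (algebraMap K F).range)
    (π : R) (hπ : Irreducible π)
    {l : ℕ} (hl : l.Prime) (hlu : IsUnit ((l : ℕ) : R)) {ζ : R} (hζ : IsPrimitiveRoot ζ l)
    (hroot : ∀ r : R, IsUnit r → ∃ γ : R, IsUnit γ ∧ π ∣ γ ^ l * r - 1)
    {ι : Type*} [Finite ι] [Nonempty ι]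
    (P₁ : ι → Ideal ↥(H40.chartB R J)) (P₂ : ι → Ideal ↥(H40.chartB R J⁻¹))
    (P₁₂ : ι → Ideal ↥(H83.chart12 R J))
    [hP₁ : ∀ i, (P₁ i).IsPrime] [hP₂ : ∀ i, (P₂ i).IsPrime] [hP₁₂ : ∀ k, (P₁₂ k).IsPrime]
    (hh₁ : ∀ k, (P₁ k).height = 1) (hh₂ : ∀ k, (P₂ k).height = 1)
    (hπP₁ : ∀ i, algebraMap R ↥(H40.chartB R J) π ∈ P₁ i)
    (hπP₂ : ∀ i, algebraMap R ↥(H40.chartB R J⁻¹) π ∈ P₂ i)
    (hπP₁₂ : ∀ i, algebraMap R ↥(H83.chart12 R J) π ∈ P₁₂ i)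
    (hcomp₁ : ∀ k, ∀ s : ↥(H40.chartB R J), s ∉ P₁ k →
      Subalgebra.inclusion (H83.chartB_le_chart12 (R := R) J) s ∉ P₁₂ k)
    (hcomp₂ : ∀ k, ∀ s : ↥(H40.chartB R J⁻¹), s ∉ P₂ k →
      Subalgebra.inclusion (H83.chartB_inv_le_chart12 (R := R) J) s ∉ P₁₂ k)
    (hred₁ : ∀ i, ∀ b ∈ P₁ i, ∃ s, s ∉ P₁ i ∧ algebraMap R ↥(H40.chartB R J) π ∣ s * b)
    (hred₂ : ∀ i, ∀ b ∈ P₂ i, ∃ s, s ∉ P₂ i ∧ algebraMap R ↥(H40.chartB R J⁻¹) π ∣ s * b)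
    (hsat₁ : ∀ b : ↥(H40.chartB R J),
      (∀ i, ∃ s, s ∉ P₁ i ∧ algebraMap R ↥(H40.chartB R J) π ∣ s * b) →
      algebraMap R ↥(H40.chartB R J) π ∣ b)
    (hsat₂ : ∀ b : ↥(H40.chartB R J⁻¹),
      (∀ i, ∃ s, s ∉ P₂ i ∧ algebraMap R ↥(H40.chartB R J⁻¹) π ∣ s * b) →
      algebraMap R ↥(H40.chartB R J⁻¹) π ∣ b)
    (hsat₁₂ : ∀ b : ↥(H83.chart12 R J),
      (∀ k, ∃ s, s ∉ P₁₂ k ∧ algebraMap R ↥(H83.chart12 R J) π ∣ s * b) →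
      algebraMap R ↥(H83.chart12 R J) π ∣ b)
    (hall₁ : ∀ n : Ideal ↥(H40.chartB R J), n.IsMaximal →
      algebraMap R ↥(H40.chartB R J) π ∈ n → ∃ k, P₁ k ≤ n)
    (hall₂ : ∀ n : Ideal ↥(H40.chartB R J⁻¹), n.IsMaximal →
      algebraMap R ↥(H40.chartB R J⁻¹) π ∈ n → ∃ k, P₂ k ≤ n) :
    ∀ (k : ℕ) (u : F), u ≠ 0 →
      H47.LocalDatum (H21.ptO (H40.chartB R J) (H40.chartB R J⁻¹) π)
        (fun k => H56.valuationSubringAt (K := F) (P₁ k) (hh₁ k))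
        (H21.primeThr (π := π) P₁ P₂) π u (l ^ k) →
      ∃ (c : K) (g : F), c ≠ 0 ∧ g ≠ 0 ∧ u = algebraMap K F c * g ^ (l ^ k) :=
  kummer_descent_pow J htr hcl π hπ hl hlu hζ hroot P₁ P₂ P₁₂ hh₁ hh₂ hπP₁ hπP₂ hπP₁₂
    hcomp₁ hcomp₂ hred₁ hred₂ hsat₁ hsat₂ hsat₁₂ hall₁ hall₂
    (H83.hconn_of_no_split J htr hcl π hπ.prime P₁ P₂ P₁₂ hP₁ hP₁₂ hπP₁ hcomp₁ hcomp₂
      hred₁ hred₂ hsat₁ hsat₂ hsat₁₂)

end Fermat.Agent.S34.H69
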