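import Fermat.Agent.S34.H3_VerticalCharts
import Fermat.Agent.S34.H69_KummerPowConn

/-!
# S34 seam: L8 (`kummer_descent_pow_conn`) with the canonical single-index vertical family

Index type: the vertical primes of the overlap chart `B₁₂ = chart12 R J`; `P₁ k`, `P₂ k` are the
contractions to the two charts.  If the special fibres of the two charts are reduced and no
vertical prime of `B₁` (resp. `B₂`) contains `J` (resp. `J⁻¹`), every hypothesis of
`S34.H69.kummer_descent_pow_conn` about the vertical primes holds.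
-/

set_option autoImplicit false

open Polynomial IntermediateField Fermat.Agent.S18 Fermat.Agent.CA.H69

namespace Fermat.Agent.S34.H3

universe v

section Generic

variable {B : Type*} [CommRing B]

/-- Minimal primes over a nonzero principal ideal of a noetherian domain have height one. -/
theorem height_eq_one_of_mem_minimalPrimes [IsDomain B] [IsNoetherianRing B] {π : B}
    (hπ : π ≠ 0) {P : Ideal B} (hP : P ∈ (Ideal.span {π} : Ideal B).minimalPrimes) :
    P.height = 1 := by
  have := hP.1.1
  apply le_antisymm (Ideal.height_le_one_of_isPrincipal_of_mem_minimalPrimes _ P hP)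
  rw [Order.one_le_iff_pos, pos_iff_ne_zero, Ne, Ideal.height_eq_zero_iff,
    IsDomain.minimalPrimes_eq_singleton_bot, Set.mem_singleton_iff]
  intro h
  have : π ∈ P := hP.1.2 (Ideal.mem_span_singleton_self π)
  rw [h] at this
  exact hπ this

end Generic

section Comap

variable {R : Type*} [CommRing R] {F : Type*} [Field F] [Algebra R F]

/-- The contraction to `B` of a vertical prime of `C ⊇ B`. -/
def vertComap {B C : Subalgebra R F} (hBC : B ≤ C) (π : R) (k : Vert (algebraMap R ↥C π)) :
    Ideal ↥B :=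
  (k : Ideal ↥C).comap (Subalgebra.inclusion hBC)

theorem mem_vertComap {B C : Subalgebra R F} (hBC : B ≤ C) (π : R)
    (k : Vert (algebraMap R ↥C π)) (s : ↥B) :
    s ∈ vertComap hBC π k ↔ Subalgebra.inclusion hBC s ∈ (k : Ideal ↥C) := Iff.rfl

instance vertComap_isPrime {B C : Subalgebra R F} (hBC : B ≤ C) (π : R)
    (k : Vert (algebraMap R ↥C π)) : (vertComap hBC π k).IsPrime :=
  have := k.isPrime
  Ideal.comap_isPrime _ _

theorem algebraMap_mem_vertComap {B C : Subalgebra R F} (hBC : B ≤ C) (π : R)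
    (k : Vert (algebraMap R ↥C π)) : algebraMap R ↥B π ∈ vertComap hBC π k := by
  rw [mem_vertComap, (Subalgebra.inclusion hBC).commutes π]
  exact k.mem

variable {B C : Subalgebra R F} (hBC : B ≤ C) (u : ↥B)
  (hloc : @IsLocalization.Away ↥B _ u ↥C _ (Subalgebra.inclusion hBC).toRingHom.toAlgebra)
  (π : R)

include hloc in
/-- The contraction of a vertical prime of `C = B[1/u]` is a vertical prime of `B`. -/
theorem vertComap_mem_minimalPrimes (k : Vert (algebraMap R ↥C π)) :
    vertComap hBC π k ∈ (Ideal.span {algebraMap R ↥B π} : Ideal ↥B).minimalPrimes := by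
  let _ : Algebra ↥B ↥C := (Subalgebra.inclusion hBC).toRingHom.toAlgebra
  have hπ : algebraMap ↥B ↥C (algebraMap R ↥B π) = algebraMap R ↥C π :=
    (Subalgebra.inclusion hBC).commutes π
  obtain ⟨P, hP⟩ := k
  have hP' : P ∈ (Ideal.span {algebraMap ↥B ↥C (algebraMap R ↥B π)} : Ideal ↥C).minimalPrimes := by
    rw [hπ]; exact hP
  have hloc' : IsLocalization (Submonoid.powers u) ↥C := hloc
  exact under_mem_vert (Submonoid.powers u) ⟨P, hP'⟩

include hloc in
/-- Every vertical prime of `B` not containing `u` is the contraction of a vertical prime of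
`C = B[1/u]`. -/
theorem exists_vertComap_eq (P : Vert (algebraMap R ↥B π)) (hu : u ∉ (P : Ideal ↥B)) :
    ∃ k : Vert (algebraMap R ↥C π), vertComap hBC π k = (P : Ideal ↥B) := by
  let _ : Algebra ↥B ↥C := (Subalgebra.inclusion hBC).toRingHom.toAlgebra
  have hπ : algebraMap ↥B ↥C (algebraMap R ↥B π) = algebraMap R ↥C π :=
    (Subalgebra.inclusion hBC).commutes π
  have hloc' : IsLocalization (Submonoid.powers u) ↥C := hloc
  have hPp := P.isPrime
  have hdisj : Disjoint (Submonoid.powers u : Set ↥B) ((P : Ideal ↥B) : Set ↥B) := by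
    rw [Set.disjoint_left]
    rintro x ⟨n, rfl⟩ hx
    exact hu (hPp.mem_of_pow_mem n hx)
  have hunder : ((P : Ideal ↥B).map (algebraMap ↥B ↥C)).comap (algebraMap ↥B ↥C) = (P : Ideal ↥B) :=
    IsLocalization.under_map_of_isPrime_disjoint (Submonoid.powers u) ↥C hPp hdisj
  have hmem : (P : Ideal ↥B).map (algebraMap ↥B ↥C) ∈
      (Ideal.span {algebraMap R ↥C π} : Ideal ↥C).minimalPrimes := by
    have h2 : (Ideal.span {algebraMap R ↥C π} : Ideal ↥C) =
        (Ideal.span {algebraMap R ↥B π} : Ideal ↥B).map (algebraMap ↥B ↥C) := by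
      rw [Ideal.map_span, Set.image_singleton, hπ]
    rw [h2, IsLocalization.minimalPrimes_map (Submonoid.powers u)]
    show ((P : Ideal ↥B).map (algebraMap ↥B ↥C)).comap (algebraMap ↥B ↥C) ∈
      (Ideal.span {algebraMap R ↥B π} : Ideal ↥B).minimalPrimes
    rw [hunder]
    exact P.2
  exact ⟨⟨_, hmem⟩, hunder⟩

end Comap

section Main

variable {R : Type*} [CommRing R] [IsDomain R] [IsDiscreteValuationRing R]
  {K : Type*} [Field K] [Algebra R K] [IsFractionRing R K]
  {F : Type v} [Field F] [Algebra R F] [Algebra K F] [IsScalarTower R K F]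

/-- The canonical index type of the vertical primes of the two-chart model: the vertical primes
of the overlap chart. -/
abbrev VertIdx (J : F) (π : R) : Type _ := Vert (algebraMap R ↥(H83.chart12 R J) π)

/-- The vertical prime `k` seen in the first chart. -/
abbrev vertP₁ (J : F) (π : R) (k : VertIdx J π) : Ideal ↥(H40.chartB R J) :=
  vertComap (H83.chartB_le_chart12 (R := R) J) π k

/-- The vertical prime `k` seen in the second chart. -/
abbrev vertP₂ (J : F) (π : R) (k : VertIdx J π) : Ideal ↥(H40.chartB R J⁻¹) :=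
  vertComap (H83.chartB_inv_le_chart12 (R := R) J) π k

variable (J : F) (htr : Transcendental K J) [FiniteDimensional K⟮J⟯ F]
  [Algebra.IsSeparable K⟮J⟯ F] (π : R) (hπ : Irreducible π)

include htr hπ in
/-- The vertical primes of the first chart have height one. -/
theorem height_vertP₁ (k : VertIdx J π) : (vertP₁ J π k).height = 1 := by
  have hJ0 : J ≠ 0 := fun h => htr (h ▸ isAlgebraic_zero)
  have hN₁ := isNoetherianRing_chartB' (R := R) (K := K) J htr
  have := isFractionRing_chartB (R := R) (K := K) J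
  have hπ0 : algebraMap R ↥(H40.chartB R J) π ≠ 0 := fun h => by
    have h1 : algebraMap R F π = 0 := by
      rw [IsScalarTower.algebraMap_apply R ↥(H40.chartB R J) F, h, map_zero]
    rw [IsScalarTower.algebraMap_apply R K F] at h1
    have h2 : algebraMap R K π = 0 := (algebraMap K F).injective (by rw [h1, map_zero])
    exact hπ.ne_zero (IsFractionRing.injective R K (by rw [h2, map_zero]))
  exact height_eq_one_of_mem_minimalPrimes hπ0
    (vertComap_mem_minimalPrimes _ _ (isLocalization_chart12 (R := R) J hJ0) π k)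

include htr hπ in
/-- The vertical primes of the second chart have height one. -/
theorem height_vertP₂ (k : VertIdx J π) : (vertP₂ J π k).height = 1 := by
  have hJ0 : J ≠ 0 := fun h => htr (h ▸ isAlgebraic_zero)
  have htr' : Transcendental K J⁻¹ := fun h => htr (by simpa using h.inv)
  have e : K⟮J⁻¹⟯ = K⟮J⟯ := by
    apply le_antisymm
    · rw [IntermediateField.adjoin_simple_le_iff]
      exact inv_mem (IntermediateField.mem_adjoin_simple_self K J)
    · rw [IntermediateField.adjoin_simple_le_iff]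
      have := inv_mem (IntermediateField.mem_adjoin_simple_self K J⁻¹)
      rwa [inv_inv] at this
  have hfdinv : FiniteDimensional K⟮J⁻¹⟯ F := by rw [e]; infer_instance
  have hsepinv : Algebra.IsSeparable K⟮J⁻¹⟯ F := by rw [e]; infer_instance
  have hN₂ := isNoetherianRing_chartB' (R := R) (K := K) J⁻¹ htr'
  have hπ0 : algebraMap R ↥(H40.chartB R J⁻¹) π ≠ 0 := fun h => by
    have h1 : algebraMap R F π = 0 := by
      rw [IsScalarTower.algebraMap_apply R ↥(H40.chartB R J⁻¹) F, h, map_zero]
    rw [IsScalarTower.algebraMap_apply R K F] at h1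
    have h2 : algebraMap R K π = 0 := (algebraMap K F).injective (by rw [h1, map_zero])
    exact hπ.ne_zero (IsFractionRing.injective R K (by rw [h2, map_zero]))
  exact height_eq_one_of_mem_minimalPrimes hπ0
    (vertComap_mem_minimalPrimes _ _ (isLocalization_chart12_inv (R := R) J hJ0) π k)

include htr hπ in
/-- **L8 with the canonical vertical family.**  `R` a DVR with uniformiser `π`; the special
fibres of the two charts are reduced (`hrad₁`, `hrad₂`) and `J^{±1}` vanishes identically on no
vertical component (`hJ₁`, `hJ₂`).  Then a function with a local datum at level `l ^ k` (for the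
closed points of the two charts and the vertical valuations `B_{P₁ k}`) is a constant times an
`l ^ k`-th power. -/
theorem kummer_descent_pow_of_reduced
    (hcl : ∀ z : F, IsAlgebraic K z → z ∈ (algebraMap K F).range)
    {l : ℕ} (hl : l.Prime) (hlu : IsUnit ((l : ℕ) : R)) {ζ : R} (hζ : IsPrimitiveRoot ζ l)
    (hroot : ∀ r : R, IsUnit r → ∃ γ : R, IsUnit γ ∧ π ∣ γ ^ l * r - 1)
    (hrad₁ : ∀ b : ↥(H40.chartB R J),
      (∃ n : ℕ, algebraMap R ↥(H40.chartB R J) π ∣ b ^ n) →
        algebraMap R ↥(H40.chartB R J) π ∣ b)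
    (hrad₂ : ∀ b : ↥(H40.chartB R J⁻¹),
      (∃ n : ℕ, algebraMap R ↥(H40.chartB R J⁻¹) π ∣ b ^ n) →
        algebraMap R ↥(H40.chartB R J⁻¹) π ∣ b)
    (hJ₁ : ∀ P : Vert (algebraMap R ↥(H40.chartB R J) π),
      (⟨J, H40.self_mem_chartB J⟩ : ↥(H40.chartB R J)) ∉ (P : Ideal ↥(H40.chartB R J)))
    (hJ₂ : ∀ P : Vert (algebraMap R ↥(H40.chartB R J⁻¹) π),
      (⟨J⁻¹, H40.self_mem_chartB J⁻¹⟩ : ↥(H40.chartB R J⁻¹)) ∉
        (P : Ideal ↥(H40.chartB R J⁻¹)))
    [IsFractionRing ↥(H40.chartB R J) F] [IsFractionRing ↥(H40.chartB R J⁻¹) F]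
    [hN₁ : IsNoetherianRing ↥(H40.chartB R J)] [IsIntegrallyClosed ↥(H40.chartB R J)]
    (hh₁ : ∀ k : VertIdx J π, (vertP₁ J π k).height = 1) :
    ∀ (k : ℕ) (u : F), u ≠ 0 →
      H47.LocalDatum (H21.ptO (H40.chartB R J) (H40.chartB R J⁻¹) π)
        (fun k : VertIdx J π => H56.valuationSubringAt (K := F) (vertP₁ J π k) (hh₁ k))
        (H21.primeThr (π := π) (vertP₁ J π) (vertP₂ J π)) π u (l ^ k) →
      ∃ (c : K) (g : F), c ≠ 0 ∧ g ≠ 0 ∧ u = algebraMap K F c * g ^ (l ^ k) := by
  have hJ0 : J ≠ 0 := fun h => htr (h ▸ isAlgebraic_zero)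
  have htr' : Transcendental K J⁻¹ := fun h => htr (by simpa using h.inv)
  have e : K⟮J⁻¹⟯ = K⟮J⟯ := by
    apply le_antisymm
    · rw [IntermediateField.adjoin_simple_le_iff]
      exact inv_mem (IntermediateField.mem_adjoin_simple_self K J)
    · rw [IntermediateField.adjoin_simple_le_iff]
      have := inv_mem (IntermediateField.mem_adjoin_simple_self K J⁻¹)
      rwa [inv_inv] at this
  have hfdinv : FiniteDimensional K⟮J⁻¹⟯ F := by rw [e]; infer_instance
  have hsepinv : Algebra.IsSeparable K⟮J⁻¹⟯ F := by rw [e]; infer_instance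
  have hN₂ := isNoetherianRing_chartB' (R := R) (K := K) J⁻¹ htr'
  have hloc12 := isLocalization_chart12 (R := R) J hJ0
  have hloc12' := isLocalization_chart12_inv (R := R) J hJ0
  have hrad₁₂ := hrad_of_away (H83.chartB_le_chart12 (R := R) J) _ hloc12 π hrad₁
  -- the chart `B₁₂` is noetherian, hence the index type is finite
  have hN₁₂ : IsNoetherianRing ↥(H83.chart12 R J) := by
    let _ : Algebra ↥(H40.chartB R J) ↥(H83.chart12 R J) := chart12Algebra (R := R) J
    have : IsLocalization (Submonoid.powers (⟨J, H40.self_mem_chartB J⟩ : ↥(H40.chartB R J)))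
        ↥(H83.chart12 R J) := hloc12
    exact IsLocalization.isNoetherianRing
      (Submonoid.powers (⟨J, H40.self_mem_chartB J⟩ : ↥(H40.chartB R J))) _ hN₁
  have hne₁ : Nonempty (Vert (algebraMap R ↥(H40.chartB R J) π)) :=
    Vert.nonempty (not_isUnit_algebraMap_chartB (K := K) J htr π hπ.prime)
  have hne : Nonempty (VertIdx J π) := by
    obtain ⟨P⟩ := hne₁
    obtain ⟨k, -⟩ := exists_vertComap_eq (H83.chartB_le_chart12 (R := R) J) _ hloc12 π P (hJ₁ P)
    exact ⟨k⟩
  have hmin₁ := fun k : VertIdx J π =>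
    vertComap_mem_minimalPrimes (H83.chartB_le_chart12 (R := R) J) _ hloc12 π k
  have hmin₂ := fun k : VertIdx J π =>
    vertComap_mem_minimalPrimes (H83.chartB_inv_le_chart12 (R := R) J) _ hloc12' π k
  exact H69.kummer_descent_pow_conn J htr hcl π hπ hl hlu hζ hroot
    (vertP₁ J π) (vertP₂ J π) (fun k : VertIdx J π => (k : Ideal ↥(H83.chart12 R J)))
    (hP₁₂ := fun k => k.isPrime)
    hh₁ (height_vertP₂ J htr π hπ)
    (fun k => algebraMap_mem_vertComap _ π k) (fun k => algebraMap_mem_vertComap _ π k)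
    (fun k => k.mem)
    (fun k s hs h => hs ((mem_vertComap _ π k s).2 h))
    (fun k s hs h => hs ((mem_vertComap _ π k s).2 h))
    (fun k => vert_hred hrad₁ ⟨_, hmin₁ k⟩) (fun k => vert_hred hrad₂ ⟨_, hmin₂ k⟩)
    (fun b hb => vert_hsat hrad₁ b fun P => by
      obtain ⟨k, hk⟩ := exists_vertComap_eq (H83.chartB_le_chart12 (R := R) J) _ hloc12 π P (hJ₁ P)
      obtain ⟨s, hs, hd⟩ := hb k
      exact ⟨s, fun h => hs ((SetLike.ext_iff.1 hk s).2 h), hd⟩)
    (fun b hb => vert_hsat hrad₂ b fun P => by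
      obtain ⟨k, hk⟩ :=
        exists_vertComap_eq (H83.chartB_inv_le_chart12 (R := R) J) _ hloc12' π P (hJ₂ P)
      obtain ⟨s, hs, hd⟩ := hb k
      exact ⟨s, fun h => hs ((SetLike.ext_iff.1 hk s).2 h), hd⟩)
    (vert_hsat hrad₁₂)
    (fun n hn hπn => by
      have := hn.isPrime
      obtain ⟨P, hP⟩ := exists_vert_le n hπn
      obtain ⟨k, hk⟩ := exists_vertComap_eq (H83.chartB_le_chart12 (R := R) J) _ hloc12 π P (hJ₁ P)
      exact ⟨k, fun x hx => hP ((SetLike.ext_iff.1 hk x).1 hx)⟩)
    (fun n hn hπn => by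
      have := hn.isPrime
      obtain ⟨P, hP⟩ := exists_vert_le n hπn
      obtain ⟨k, hk⟩ :=
        exists_vertComap_eq (H83.chartB_inv_le_chart12 (R := R) J) _ hloc12' π P (hJ₂ P)
      exact ⟨k, fun x hx => hP ((SetLike.ext_iff.1 hk x).1 hx)⟩)

end Main

end Fermat.Agent.S34.H3
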