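/-
S34 chain (helper47): the base ring facts consumed by the Kummer steps L6-L8 and by the
place/point dictionary, for a DVR `R` with fraction field `K` - and their instance at
`R = A'' = S18.H45.cutOver A E`.

Generic (Mathlib only):
* `exists_unit_mul_zpow`      : `c ∈ Kˣ` is `unit * π ^ a`           (`ModelHyp.hRdvr`);
* `exists_root_mod`           : `l`-th roots modulo `π` when the residue field is algebraically
                                closed                              (`ModelHyp.hroot`);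
* `isUnit_pow_sub_pow`        : `ζ ^ i - ζ ^ j` is a unit if `l` is (`ModelHyp.hζu`);
* `mem_or_inv_eq_mul`, `exists_of_isIntegral` : `hval`, `hRint` of `S34.H3.exists_point_of_rational`.
Instance: `exists_baseData_cutOver`.
-/
import Mathlib
import Fermat.Agent.S18.H45_InertiaBaseAlg

set_option autoImplicit false
set_option linter.unusedSectionVars false
set_option linter.style.haveILetI false

namespace Fermat.Agent.S34.H47

open IsLocalRing

section Generic

variable {R K : Type*} [CommRing R] [IsDomain R] [IsDiscreteValuationRing R] [Field K]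
  [Algebra R K] [IsFractionRing R K]

/-- Every nonzero element of the fraction field of a DVR is a unit times a power of the
uniformiser. -/
theorem exists_unit_mul_zpow {π : R} (hπ : Irreducible π) (c : K) (hc : c ≠ 0) :
    ∃ (a : ℤ) (r : R), IsUnit r ∧ c = algebraMap R K r * algebraMap R K π ^ a := by
  obtain ⟨x, y, hy, rfl⟩ := IsFractionRing.div_surjective (A := R) c
  have hy0 : y ≠ 0 := nonZeroDivisors.ne_zero hy
  have hx0 : x ≠ 0 := by
    rintro rfl
    exact hc (by simp)
  obtain ⟨m, u, hu⟩ := IsDiscreteValuationRing.eq_unit_mul_pow_irreducible hx0 hπ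
  obtain ⟨n, v, hv⟩ := IsDiscreteValuationRing.eq_unit_mul_pow_irreducible hy0 hπ
  have hπK : algebraMap R K π ≠ 0 :=
    (map_ne_zero_iff _ (IsFractionRing.injective R K)).mpr hπ.ne_zero
  have hvK : algebraMap R K (v : R) ≠ 0 :=
    (map_ne_zero_iff _ (IsFractionRing.injective R K)).mpr v.ne_zero
  refine ⟨(m : ℤ) - n, (u * v⁻¹ : Rˣ), (u * v⁻¹).isUnit, ?_⟩
  have hvinv : algebraMap R K ((v⁻¹ : Rˣ) : R) = (algebraMap R K (v : R))⁻¹ := by
    apply eq_inv_of_mul_eq_one_left
    rw [← map_mul, Units.inv_mul, map_one]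
  rw [hu, hv, map_mul, map_mul, map_pow, map_pow, Units.val_mul, map_mul, hvinv,
    zpow_sub₀ hπK, zpow_natCast, zpow_natCast]
  field_simp

/-- `l`-th roots modulo the maximal ideal, residue field algebraically closed. -/
theorem exists_root_mod [IsAlgClosed (ResidueField R)] {π : R}
    (hmax : maximalIdeal R = Ideal.span {π}) {l : ℕ} (hl : 0 < l) (r : R) (hr : IsUnit r) :
    ∃ γ : R, IsUnit γ ∧ π ∣ γ ^ l * r - 1 := by
  have hr0 : residue R r ≠ 0 := by
    intro h
    rw [residue_eq_zero_iff] at h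
    exact (mem_maximalIdeal r).mp h hr
  obtain ⟨z, hz⟩ := IsAlgClosed.exists_pow_nat_eq (residue R r)⁻¹ hl
  obtain ⟨γ, rfl⟩ := residue_surjective z
  have hγ0 : residue R γ ≠ 0 := by
    intro h
    rw [h, zero_pow hl.ne'] at hz
    exact inv_ne_zero hr0 hz.symm
  refine ⟨γ, ?_, ?_⟩
  · by_contra hγ
    exact hγ0 ((residue_eq_zero_iff γ).mpr ((mem_maximalIdeal γ).mpr hγ))
  · have : γ ^ l * r - 1 ∈ maximalIdeal R := by
      rw [← residue_eq_zero_iff, map_sub, map_mul, map_pow, hz, map_one,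
        inv_mul_cancel₀ hr0, sub_self]
    rw [hmax, Ideal.mem_span_singleton] at this
    exact this

omit [IsDiscreteValuationRing R] in
/-- Differences of distinct `l`-th roots of unity are units when `l` is. -/
theorem isUnit_pow_sub_pow {l : ℕ} {ζ : R} (hζ : IsPrimitiveRoot ζ l) (hlu : IsUnit ((l : ℕ) : R))
    (i j : ℕ) (hi : i < l) (hj : j < l) (hij : i ≠ j) : IsUnit (ζ ^ i - ζ ^ j) := by
  -- reduce to `1 - η`, `η = ζ ^ k`, `0 < k < l`
  have key : ∀ k : ℕ, 0 < k → k < l → IsUnit (1 - ζ ^ k) := by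
    intro k hk0 hkl
    set η := ζ ^ k with hη
    have hη1 : η ≠ 1 := hζ.pow_ne_one_of_pos_of_lt hk0.ne' hkl
    have hηl : η ^ l = 1 := by rw [hη, ← pow_mul, mul_comm, pow_mul, hζ.pow_eq_one, one_pow]
    have hsum : ∑ t ∈ Finset.range l, η ^ t = 0 := by
      have h := mul_geom_sum η l
      rw [hηl, sub_self] at h
      rcases mul_eq_zero.mp h with h | h
      · exact absurd (sub_eq_zero.mp h) hη1
      · exact h
    have hdvd : (1 - η) ∣ ((l : ℕ) : R) := by
      have h1 : ((l : ℕ) : R) = ∑ t ∈ Finset.range l, (1 - η ^ t) := by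
        rw [Finset.sum_sub_distrib, hsum, sub_zero, Finset.sum_const, Finset.card_range,
          nsmul_eq_mul, mul_one]
      rw [h1]
      refine Finset.dvd_sum fun t _ => ?_
      have := sub_dvd_pow_sub_pow (1 : R) η t
      rwa [one_pow] at this
    exact isUnit_of_dvd_unit hdvd hlu
  have hζu : IsUnit ζ := by
    have hl0 : l ≠ 0 := by omega
    exact IsUnit.of_pow_eq_one hζ.pow_eq_one hl0
  rcases lt_or_gt_of_ne hij with h | h
  · -- `i < j`: `ζ^i - ζ^j = ζ^i (1 - ζ^(j-i))`
    have : ζ ^ i - ζ ^ j = ζ ^ i * (1 - ζ ^ (j - i)) := by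
      rw [mul_sub, mul_one, ← pow_add, Nat.add_sub_cancel' h.le]
    rw [this]
    exact (hζu.pow i).mul (key (j - i) (by omega) (by omega))
  · have : ζ ^ i - ζ ^ j = -(ζ ^ j * (1 - ζ ^ (i - j))) := by
      rw [mul_sub, mul_one, ← pow_add, Nat.add_sub_cancel' h.le]; ring
    rw [this]
    exact ((hζu.pow j).mul (key (i - j) (by omega) (by omega))).neg

/-- `hval` of `S34.H3.exists_point_of_rational`. -/
theorem mem_or_inv_eq_mul {π : R} (hmax : maximalIdeal R = Ideal.span {π}) (c : K) :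
    (∃ r : R, algebraMap R K r = c) ∨ ∃ r : R, c⁻¹ = algebraMap R K (π * r) := by
  rcases ValuationRing.isInteger_or_isInteger R c with ⟨r, hr⟩ | ⟨r, hr⟩
  · exact Or.inl ⟨r, hr⟩
  · by_cases hu : IsUnit r
    · left
      obtain ⟨u, rfl⟩ := hu
      refine ⟨((u⁻¹ : Rˣ) : R), ?_⟩
      have h1 : algebraMap R K ((u⁻¹ : Rˣ) : R) * algebraMap R K (u : R) = 1 := by
        rw [← map_mul, Units.inv_mul, map_one]
      rw [hr] at h1
      have hc : c ≠ 0 := by
        intro h0
        rw [h0, inv_zero, mul_zero] at h1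
        exact zero_ne_one h1
      field_simp at h1
      exact h1
    · right
      have : r ∈ maximalIdeal R := (mem_maximalIdeal r).mpr hu
      rw [hmax, Ideal.mem_span_singleton] at this
      obtain ⟨s, rfl⟩ := this
      exact ⟨s, hr.symm⟩

omit [IsDiscreteValuationRing R] in
/-- `hRint` of `S34.H3.exists_point_of_rational`. -/
theorem exists_of_isIntegral [IsIntegrallyClosed R] (c : K) (hc : IsIntegral R c) :
    ∃ r : R, algebraMap R K r = c :=
  IsIntegrallyClosed.isIntegral_iff.mp hc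

end Generic

section CutOver

open Fermat.Agent.S18.H45

local notation "Qbar" => AlgebraicClosure ℚ

variable {A : ValuationSubring Qbar} {ℓ : ℕ} (hℓ : ℓ.Prime) (hA : A.LiesOverPrime ℓ)
  (E : IntermediateField (unrCyclo ℓ) Qbar)

include hℓ hA in
/-- A natural number prime to `ℓ` is a unit of `A ∩ E`. -/
theorem isUnit_natCast_cutOver {n : ℕ} (hn : ¬ ℓ ∣ n) : IsUnit ((n : ℕ) : cutOver A E) := by
  have h := (isUnit_natCast_A0 hℓ hA hn).map (algebraMap (A0 A ℓ) (cutOver A E))
  rwa [map_natCast] at h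

/-- `A ∩ E` contains a primitive `n`-th root of unity for every `n ≠ 0` prime to `ℓ`. -/
theorem exists_isPrimitiveRoot_cutOver {n : ℕ} (hn0 : n ≠ 0) (hn : ¬ ℓ ∣ n) :
    ∃ ζ : cutOver A E, IsPrimitiveRoot ζ n := by
  obtain ⟨ζ, hζ⟩ := exists_isPrimitiveRoot_A0 A hn0 hn
  exact ⟨algebraMap (A0 A ℓ) (cutOver A E) ζ,
    hζ.map_of_injective (algebraMap_A0_cutOver_injective (A := A) (E := E))⟩

include hℓ hA in
/-- **The base data of `A'' = A ∩ E`** for an odd-or-even prime `p ≠ ℓ`: a uniformiser `π`, with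
`π ∣ ℓ`; `p` is a unit; a primitive `p`-th root of unity `ζ` with unit differences; `p`-th roots
modulo `π`; every nonzero constant is a unit times a power of `π`. -/
theorem exists_baseData_cutOver [FiniteDimensional (unrCyclo ℓ) E] {p : ℕ} (hp : p.Prime)
    (hpℓ : p ≠ ℓ) :
    haveI := isDiscreteValuationRing_cutOver hℓ hA E
    ∃ (π ζ : cutOver A E), Irreducible π ∧ maximalIdeal (cutOver A E) = Ideal.span {π} ∧
      π ∣ ((ℓ : ℕ) : cutOver A E) ∧ IsUnit ((p : ℕ) : cutOver A E) ∧ IsPrimitiveRoot ζ p ∧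
      (∀ i j, i < p → j < p → i ≠ j → IsUnit (ζ ^ i - ζ ^ j)) ∧
      (∀ r : cutOver A E, IsUnit r → ∃ γ : cutOver A E, IsUnit γ ∧ π ∣ γ ^ p * r - 1) ∧
      (∀ c : E, c ≠ 0 → ∃ (a : ℤ) (r : cutOver A E), IsUnit r ∧
        c = algebraMap (cutOver A E) E r * algebraMap (cutOver A E) E π ^ a) := by
  haveI := isDiscreteValuationRing_cutOver hℓ hA E
  haveI := isAlgClosed_residueField_cutOver hℓ hA E
  obtain ⟨π, e, u, hπ, he, hu, hmax⟩ := exists_uniformizer_cutOver hℓ hA E
  have hnd : ¬ ℓ ∣ p := fun h => hpℓ ((Nat.prime_dvd_prime_iff_eq hℓ hp).mp h).symm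
  obtain ⟨ζ, hζ⟩ := exists_isPrimitiveRoot_cutOver (A := A) E hp.ne_zero hnd
  have hpu := isUnit_natCast_cutOver hℓ hA E hnd
  refine ⟨π, ζ, hπ, hmax, ?_, hpu, hζ, isUnit_pow_sub_pow hζ hpu,
    fun r hr => exists_root_mod hmax hp.pos r hr, fun c hc => exists_unit_mul_zpow hπ c hc⟩
  rw [hu]
  obtain ⟨e', rfl⟩ : ∃ e', e = e' + 1 := ⟨e - 1, by omega⟩
  exact ⟨u * π ^ e', by rw [pow_succ]; ring⟩

end CutOver

end Fermat.Agent.S34.H47
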