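import Mathlib
import Fermat.Agent.S34.H61_ChainSkeleton
import Fermat.Agent.S34.H3_VerticalSingle

/-!
# S34, MIDDLE layer (helper61): the chain with the canonical vertical family

`exists_const_mul_pow_of_reduced` = `H61.exists_const_mul_pow_of_chartDatum` with the vertical
block replaced by helper3's canonical family (`H3.kummer_descent_pow_of_reduced`): the only
vertical hypotheses left are

* `hrad₁`, `hrad₂` : the special fibres of the two charts are reduced,
* `hJ₁`, `hJ₂` : `J^(±1)` vanishes identically on no vertical component,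

and the horizontal input is the chart datum at every closed point of the two charts
(`H61.ChartDatum`, VERBATIM the conclusion of helper56's `H56.local_datum_of_L1`).
-/

set_option autoImplicit false
set_option linter.unusedSectionVars false
set_option linter.style.haveILetI false

open Polynomial IntermediateField AlgebraicCurve Fermat.Agent.S18

namespace Fermat.Agent.S34.H61

universe v

/-- **MIDDLE, canonical vertical family.**  Reduced special fibres of the two charts + chart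
data at all closed points of both charts ⟹ the `UFnE` conclusion. -/
theorem exists_const_mul_pow_of_reduced
    {R : Type*} [CommRing R] [IsDomain R] [IsDiscreteValuationRing R]
    {K : Type*} [Field K] [Algebra R K] [IsFractionRing R K]
    {F : Type v} [Field F] [Algebra R F] [Algebra K F] [IsScalarTower R K F]
    (J : F) (htr : Transcendental K J) [FiniteDimensional K⟮J⟯ F] [Algebra.IsSeparable K⟮J⟯ F]
    [IsFractionRing ↥(H40.chartB R J) F] [IsFractionRing ↥(H40.chartB R J⁻¹) F]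
    [IsNoetherianRing ↥(H40.chartB R J)] [IsIntegrallyClosed ↥(H40.chartB R J)]
    [IsNoetherianRing ↥(H40.chartB R J⁻¹)] [IsIntegrallyClosed ↥(H40.chartB R J⁻¹)]
    (hcl : ∀ z : F, IsAlgebraic K z → z ∈ (algebraMap K F).range)
    (π : R) (hπ : Irreducible π)
    {l : ℕ} (hl : l.Prime) (hlu : IsUnit ((l : ℕ) : R)) {ζ : R} (hζ : IsPrimitiveRoot ζ l)
    (hroot : ∀ r : R, IsUnit r → ∃ γ : R, IsUnit γ ∧ π ∣ γ ^ l * r - 1)
    (hrad₁ : ∀ b : ↥(H40.chartB R J),
      (∃ n : ℕ, algebraMap R ↥(H40.chartB R J) π ∣ b ^ n) →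
        algebraMap R ↥(H40.chartB R J) π ∣ b)
    (hrad₂ : ∀ b : ↥(H40.chartB R J⁻¹),
      (∃ n : ℕ, algebraMap R ↥(H40.chartB R J⁻¹) π ∣ b ^ n) →
        algebraMap R ↥(H40.chartB R J⁻¹) π ∣ b)
    (hJ₁ : ∀ P : H3.Vert (algebraMap R ↥(H40.chartB R J) π),
      (⟨J, H40.self_mem_chartB J⟩ : ↥(H40.chartB R J)) ∉ (P : Ideal ↥(H40.chartB R J)))
    (hJ₂ : ∀ P : H3.Vert (algebraMap R ↥(H40.chartB R J⁻¹) π),
      (⟨J⁻¹, H40.self_mem_chartB J⁻¹⟩ : ↥(H40.chartB R J⁻¹)) ∉
        (P : Ideal ↥(H40.chartB R J⁻¹)))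
    (s : F ≃+* F)
    (hD₁ : ChartDatum (B := ↥(H40.chartB R J)) K π s)
    (hD₂ : ChartDatum (B := ↥(H40.chartB R J⁻¹)) K π s) :
    ∀ (k : ℕ) (f : F), Admissible K f (l ^ k) →
      ∃ (c : K) (g : F), c ≠ 0 ∧ g ≠ 0 ∧
        s (s f / f) / (s f / f) = algebraMap K F c * g ^ (l ^ k) := by
  intro k f hadm
  have hf0 : f ≠ 0 := hadm.1
  have hsf0 : s f ≠ 0 := (map_ne_zero s).mpr hf0
  have hh0 : s f / f ≠ 0 := div_ne_zero hsf0 hf0
  have hu0 : s (s f / f) / (s f / f) ≠ 0 := div_ne_zero ((map_ne_zero s).mpr hh0) hh0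
  have hJ0 : J ≠ 0 := fun h => htr (h ▸ isAlgebraic_zero)
  have hF₁₂ : IsFractionRing ↥(H83.chart12 R J) F :=
    H69.isFractionRing_chart12 (R := R) (K := K) J
  have hh₁ := H3.height_vertP₁ (R := R) (K := K) J htr π hπ
  have hh₂ := H3.height_vertP₂ (R := R) (K := K) J htr π hπ
  have hloc12 := H3.isLocalization_chart12 (R := R) J hJ0
  have hloc12' := H3.isLocalization_chart12_inv (R := R) J hJ0
  have hmin₁ := fun k : H3.VertIdx J π =>
    H3.vertComap_mem_minimalPrimes (H83.chartB_le_chart12 (R := R) J) _ hloc12 π k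
  have hmin₂ := fun k : H3.VertIdx J π =>
    H3.vertComap_mem_minimalPrimes (H83.chartB_inv_le_chart12 (R := R) J) _ hloc12' π k
  have hVeq : ∀ k : H3.VertIdx J π,
      H56.valuationSubringAt (K := F) (H3.vertP₁ J π k) (hh₁ k)
        = H56.valuationSubringAt (K := F) (H3.vertP₂ J π k) (hh₂ k) := fun k =>
    haveI := k.isPrime
    H21.valuationSubringAt_eq K hπ (H83.chartB_le_chart12 (R := R) J)
      (H83.chartB_inv_le_chart12 (R := R) J) (H3.vertP₁ J π k) (H3.vertP₂ J π k)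
      (k : Ideal ↥(H83.chart12 R J)) (hh₁ k) (hh₂ k)
      (H3.algebraMap_mem_vertComap _ π k) (H3.algebraMap_mem_vertComap _ π k) k.mem
      (fun s hs h => hs ((H3.mem_vertComap _ π k s).2 h))
      (fun s hs h => hs ((H3.mem_vertComap _ π k s).2 h))
      (H3.vert_hred hrad₁ ⟨_, hmin₁ k⟩) (H3.vert_hred hrad₂ ⟨_, hmin₂ k⟩)
  refine H3.kummer_descent_pow_of_reduced J htr π hπ hcl hl hlu hζ hroot hrad₁ hrad₂ hJ₁ hJ₂ hh₁
    k _ hu0 ?_
  rintro (⟨n, hn, hπn⟩ | ⟨n, hn, hπn⟩)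
  · haveI := hn.isPrime
    obtain ⟨ψ, hψ0, hε, hψ1, -⟩ := hD₁ n hn hπn f (l ^ k) hadm
    refine ⟨ψ, hψ0, ?_, fun i hi => ?_⟩
    · exact H56.piIn_of_chart π n hψ0 hε
    · exact H56.oneU_of_chart (H3.vertP₁ J π i) (hh₁ i) (H3.algebraMap_mem_vertComap _ π i)
        (hψ1 (H3.vertP₁ J π i) inferInstance (hh₁ i) (H3.algebraMap_mem_vertComap _ π i))
  · haveI := hn.isPrime
    obtain ⟨ψ, hψ0, hε, hψ1, -⟩ := hD₂ n hn hπn f (l ^ k) hadm
    refine ⟨ψ, hψ0, ?_, fun i hi => ?_⟩
    · exact H56.piIn_of_chart π n hψ0 hε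
    · have h2 : H47.OneU (H56.valuationSubringAt (K := F) (H3.vertP₂ J π i) (hh₂ i)) ψ :=
        H56.oneU_of_chart (H3.vertP₂ J π i) (hh₂ i) (H3.algebraMap_mem_vertComap _ π i)
          (hψ1 (H3.vertP₂ J π i) inferInstance (hh₂ i) (H3.algebraMap_mem_vertComap _ π i))
      exact (H21.valuation_lt_one_congr (hVeq i) _).mpr h2

end Fermat.Agent.S34.H61
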