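import Fermat.Agent.S34.H3_GlueIdem
import Fermat.Agent.S18.H40_CechFG

/-!
# S34, STEP 4 (global half), subalgebra form

`two_chart_idempotents`: the two chart idempotents of the cover in the exact shape consumed by
the no-split theorem of STEP 5, for base charts `B₁ B₂ ≤ B₁₂` given as subalgebras of the base
function field `F0` and the cover charts `= ` integral closures in the cover field `L`.

`isIntegral_chartB_iff`: integral over `chartB R j` (base field) `↔` in `chartB R j` (cover field).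
-/

namespace Fermat.Agent.S34.H3

open Polynomial IntermediateField Fermat.Agent.S18

section Bridge

variable {R : Type*} [CommRing R] {F0 L : Type*} [Field F0] [Field L]
  [Algebra R F0] [Algebra F0 L] [Algebra R L] [IsScalarTower R F0 L]

instance isScalarTower_subalgebra (B : Subalgebra R F0) : IsScalarTower R ↥B L :=
  IsScalarTower.of_algebraMap_eq fun r => by
    rw [IsScalarTower.algebraMap_apply R F0 L]; rfl

omit [Algebra R L] [IsScalarTower R F0 L] in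
theorem isIntegral_of_le {A S : Subalgebra R F0} (hAS : A ≤ S) {x : L} (hx : IsIntegral ↥A x) :
    IsIntegral ↥S x := by
  obtain ⟨p, hp, hpx⟩ := hx
  refine ⟨p.map (Subalgebra.inclusion hAS).toRingHom, hp.map _, ?_⟩
  rw [Polynomial.eval₂_map]
  exact hpx

omit [Algebra R L] [IsScalarTower R F0 L] in
theorem isIntegral_of_isIntegral_of_le {A S : Subalgebra R F0} (hAS : A ≤ S)
    (hS : ∀ s ∈ S, IsIntegral ↥A s) {x : L} (hx : IsIntegral ↥S x) : IsIntegral ↥A x := by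
  let : Algebra ↥A ↥S := (Subalgebra.inclusion hAS).toRingHom.toAlgebra
  have : IsScalarTower ↥A ↥S L := IsScalarTower.of_algebraMap_eq fun a => rfl
  have : IsScalarTower ↥A ↥S F0 := IsScalarTower.of_algebraMap_eq fun a => rfl
  have : Algebra.IsIntegral ↥A ↥S := ⟨fun s => by
    have h := hS s s.2
    have hinj : Function.Injective (IsScalarTower.toAlgHom ↥A ↥S F0) := fun a b h => Subtype.ext h
    exact (isIntegral_algHom_iff (IsScalarTower.toAlgHom ↥A ↥S F0) hinj).1 h⟩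
  exact isIntegral_trans x hx

/-- Integrality over a subalgebra of `F0` only depends on its image in `L`. -/
theorem isIntegral_map_iff (A : Subalgebra R F0) (x : L) :
    IsIntegral ↥(A.map (IsScalarTower.toAlgHom R F0 L)) x ↔ IsIntegral ↥A x := by
  set φ := IsScalarTower.toAlgHom R F0 L with hφ
  let f : ↥A →+* ↥(A.map φ) :=
    { toFun := fun a => ⟨φ a.1, ⟨a.1, a.2, rfl⟩⟩
      map_one' := Subtype.ext (map_one φ)
      map_mul' := fun a b => Subtype.ext (map_mul φ a.1 b.1)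
      map_zero' := Subtype.ext (map_zero φ)
      map_add' := fun a b => Subtype.ext (map_add φ a.1 b.1) }
  have hf : Function.Surjective f := by
    rintro ⟨_, a, ha, rfl⟩
    exact ⟨⟨a, ha⟩, rfl⟩
  have hcomp : (algebraMap ↥(A.map φ) L).comp f = algebraMap ↥A L := RingHom.ext fun a => rfl
  constructor
  · rintro ⟨p, hp, hpx⟩
    obtain ⟨q, hq, -, hqm⟩ := Polynomial.lifts_and_degree_eq_and_monic
      ((Polynomial.mem_lifts p).2 (Polynomial.map_surjective f hf p)) hp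
    refine ⟨q, hqm, ?_⟩
    rw [← hcomp, ← Polynomial.eval₂_map, hq]
    exact hpx
  · rintro ⟨p, hp, hpx⟩
    refine ⟨p.map f, hp.map f, ?_⟩
    rw [Polynomial.eval₂_map, hcomp]
    exact hpx

theorem isIntegral_congr_subalgebra {A A' : Subalgebra R L} (h : A = A') (x : L) :
    IsIntegral ↥A x ↔ IsIntegral ↥A' x := by
  subst h; rfl

/-- Integral over the chart ring of the base field `↔` in the chart ring of the cover field. -/
theorem isIntegral_chartB_iff (j : F0) (x : L) :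
    IsIntegral ↥(H40.chartB R j) x ↔ x ∈ H40.chartB R (algebraMap F0 L j) := by
  rw [H40.mem_chartB]
  have hmap : (Algebra.adjoin R {j}).map (IsScalarTower.toAlgHom R F0 L) =
      Algebra.adjoin R {algebraMap F0 L j} := by
    rw [AlgHom.map_adjoin, Set.image_singleton]; rfl
  rw [← isIntegral_congr_subalgebra hmap, isIntegral_map_iff]
  constructor
  · intro h
    exact isIntegral_of_isIntegral_of_le (H40.adjoin_le_chartB j)
      (fun s hs => H40.mem_chartB.1 hs) h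
  · intro h
    exact isIntegral_of_le (H40.adjoin_le_chartB j) h

end Bridge

/-! ## The two chart idempotents, subalgebra form -/

section TwoChartsSub

variable {R : Type*} [CommRing R] (π : R) {F0 L : Type*} [Field F0] [Field L]
  [Algebra R F0] [Algebra F0 L] [Algebra R L] [IsScalarTower R F0 L]

/-- `C_i := integralClosure ↥B_i L`.  Output: exactly the hypotheses `h₁ h₂ hi₁ hi₂ h₁₂` of the
no-split theorem of STEP 5 together with the negation of its conclusion (membership in the cover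
charts is phrased as `IsIntegral ↥B_i`; see `isIntegral_chartB_iff`). -/
theorem two_chart_idempotents
    (B₁ B₂ B₁₂ : Subalgebra R F0) (h₁ : B₁ ≤ B₁₂) (h₂ : B₂ ≤ B₁₂)
    [IsIntegrallyClosed ↥B₁] [IsFractionRing ↥B₁ F0]
    [IsIntegrallyClosed ↥B₂] [IsFractionRing ↥B₂ F0]
    [IsIntegrallyClosed ↥B₁₂] [IsFractionRing ↥B₁₂ F0]
    (hπ : algebraMap R F0 π ≠ 0)
    {ι₁ ι₂ ι₁₂ : Type*} [Finite ι₁] [Finite ι₂]
    (P₁ : ι₁ → Ideal ↥B₁) (P₂ : ι₂ → Ideal ↥B₂) (P₁₂ : ι₁₂ → Ideal ↥B₁₂)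
    (hP₁ : ∀ i, (P₁ i).IsPrime) (hP₂ : ∀ i, (P₂ i).IsPrime) (hP₁₂ : ∀ k, (P₁₂ k).IsPrime)
    (hπP₁ : ∀ i, algebraMap R ↥B₁ π ∈ P₁ i) (hπP₂ : ∀ i, algebraMap R ↥B₂ π ∈ P₂ i)
    (hcomp₁ : ∀ k, ∃ i, ∀ s : ↥B₁, s ∉ P₁ i → Subalgebra.inclusion h₁ s ∉ P₁₂ k)
    (hcomp₂ : ∀ k, ∃ i, ∀ s : ↥B₂, s ∉ P₂ i → Subalgebra.inclusion h₂ s ∉ P₁₂ k)
    (hred₁ : ∀ i, ∀ b ∈ P₁ i, ∃ s, s ∉ P₁ i ∧ algebraMap R ↥B₁ π ∣ s * b)
    (hred₂ : ∀ i, ∀ b ∈ P₂ i, ∃ s, s ∉ P₂ i ∧ algebraMap R ↥B₂ π ∣ s * b)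
    (hsat₁ : ∀ b : ↥B₁, (∀ i, ∃ s, s ∉ P₁ i ∧ algebraMap R ↥B₁ π ∣ s * b) →
      algebraMap R ↥B₁ π ∣ b)
    (hsat₂ : ∀ b : ↥B₂, (∀ i, ∃ s, s ∉ P₂ i ∧ algebraMap R ↥B₂ π ∣ s * b) →
      algebraMap R ↥B₂ π ∣ b)
    (hsat₁₂ : ∀ b : ↥B₁₂, (∀ k, ∃ s, s ∉ P₁₂ k ∧ algebraMap R ↥B₁₂ π ∣ s * b) →
      algebraMap R ↥B₁₂ π ∣ b)
    (g : L)
    (hloc₁ : ∀ n : Ideal ↥B₁, n.IsMaximal → algebraMap R ↥B₁ π ∈ n → ∃ e : L,
      LocMem (integralClosure ↥B₁ L) n e ∧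
      ∀ i, P₁ i ≤ n → LocDvd (integralClosure ↥B₁ L) (algebraMap R ↥B₁ π) (P₁ i) (e - g))
    (hloc₂ : ∀ n : Ideal ↥B₂, n.IsMaximal → algebraMap R ↥B₂ π ∈ n → ∃ e : L,
      LocMem (integralClosure ↥B₂ L) n e ∧
      ∀ i, P₂ i ≤ n → LocDvd (integralClosure ↥B₂ L) (algebraMap R ↥B₂ π) (P₂ i) (e - g))
    (hg2₁ : ∀ i, LocDvd (integralClosure ↥B₁ L) (algebraMap R ↥B₁ π) (P₁ i) (g ^ 2 - g))
    (hg2₂ : ∀ i, LocDvd (integralClosure ↥B₂ L) (algebraMap R ↥B₂ π) (P₂ i) (g ^ 2 - g))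
    (hg : ∃ i, ¬ LocDvd (integralClosure ↥B₁ L) (algebraMap R ↥B₁ π) (P₁ i) g)
    (hg1 : ∃ i, ¬ LocDvd (integralClosure ↥B₁ L) (algebraMap R ↥B₁ π) (P₁ i) (g - 1)) :
    ∃ e₁ e₂ : L, IsIntegral ↥B₁ e₁ ∧ IsIntegral ↥B₂ e₂ ∧
      (∃ a : L, IsIntegral ↥B₁ a ∧ e₁ ^ 2 - e₁ = π • a) ∧
      (∃ a : L, IsIntegral ↥B₂ a ∧ e₂ ^ 2 - e₂ = π • a) ∧
      (∃ y : L, IsIntegral ↥B₁₂ y ∧ e₁ - e₂ = π • y) ∧
      (¬ ∃ a : L, IsIntegral ↥B₁ a ∧ e₁ = π • a) ∧
      ¬ ∃ a : L, IsIntegral ↥B₁ a ∧ e₁ - 1 = π • a := by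
  have hinj : ∀ B : Subalgebra R F0, algebraMap R ↥B π ≠ 0 := fun B h => hπ (by
    have := congrArg (algebraMap ↥B F0) h
    rwa [map_zero, ← IsScalarTower.algebraMap_apply] at this)
  have hsm : ∀ (B : Subalgebra R F0) (a : L), (algebraMap R ↥B π) • a = π • a :=
    fun B a => algebraMap_smul ↥B π a
  obtain ⟨e₁, he₁, heg₁, ⟨a₁, ha₁, hi₁⟩, hn₁, hn₁'⟩ :=
    exists_chart_idempotent F0 P₁ hP₁ (algebraMap R ↥B₁ π) (hinj B₁) hπP₁ hred₁ hsat₁ g hloc₁
      hg2₁ hg hg1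
  obtain ⟨e₂, he₂, heg₂, ⟨a₂, ha₂, hi₂⟩⟩ :=
    exists_chart_idempotent' F0 P₂ hP₂ (algebraMap R ↥B₂ π) (hinj B₂) hπP₂ hred₂ hsat₂ g hloc₂
      hg2₂
  refine ⟨e₁, e₂, he₁, he₂, ⟨a₁, ha₁, by rw [hi₁, hsm]⟩, ⟨a₂, ha₂, by rw [hi₂, hsm]⟩, ?_, ?_, ?_⟩
  · have hsat : ∀ x ∈ integralClosure ↥B₁₂ L,
        (∀ k, LocDvd (integralClosure ↥B₁₂ L) (algebraMap R ↥B₁₂ π) (P₁₂ k) x) →
        ∃ c ∈ integralClosure ↥B₁₂ L, x = (algebraMap R ↥B₁₂ π) • c :=
      fun x hx hd => sat_lift F0 P₁₂ hP₁₂ _ (hinj B₁₂) hsat₁₂ hx hd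
    obtain ⟨y, hy, h⟩ := glue_two_charts (L := L) (Subalgebra.inclusion h₁).toRingHom
      (Subalgebra.inclusion h₂).toRingHom (fun b => rfl) (fun b => rfl) P₁ P₂ P₁₂ hP₁₂
      hcomp₁ hcomp₂ (integralClosure ↥B₁ L) (integralClosure ↥B₂ L) (integralClosure ↥B₁₂ L)
      (fun x hx => isIntegral_of_le h₁ hx) (fun x hx => isIntegral_of_le h₂ hx)
      (algebraMap R ↥B₁ π) (algebraMap R ↥B₂ π) (algebraMap R ↥B₁₂ π) rfl rfl hsat
      he₁ he₂ heg₁ heg₂
    exact ⟨y, hy, by rw [h, hsm]⟩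
  · rintro ⟨a, ha, h⟩
    exact hn₁ ⟨a, ha, by rw [h, hsm]⟩
  · rintro ⟨a, ha, h⟩
    exact hn₁' ⟨a, ha, by rw [h, hsm]⟩

end TwoChartsSub

/-! ## Instances for `H40.chartB` (consumed by `two_chart_idempotents`) -/

section ChartInstances

variable {R : Type*} [CommRing R]
  {K : Type*} [Field K] [Algebra R K]
  {F : Type*} [Field F] [Algebra R F] [Algebra K F] [IsScalarTower R K F]

/-- `Frac (R[j]) = K(j)`. -/
theorem isFractionRing_adjoin_adjoinSimple [IsDomain R] [IsFractionRing R K] (j : F) :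
    letI : Algebra (Algebra.adjoin R {j}) K⟮j⟯ := (H40.adjoinToSimple (K := K) j).toAlgebra
    IsFractionRing (Algebra.adjoin R {j}) K⟮j⟯ := by
  let : Algebra (Algebra.adjoin R {j}) K⟮j⟯ := (H40.adjoinToSimple (K := K) j).toAlgebra
  have hinjRF : Function.Injective (algebraMap R F) := by
    rw [IsScalarTower.algebraMap_eq R K F]
    exact (algebraMap K F).injective.comp (IsFractionRing.injective R K)
  have hfs : FaithfulSMul (Algebra.adjoin R {j}) K⟮j⟯ :=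
    (faithfulSMul_iff_algebraMap_injective _ _).2 (by
      intro a b hab
      apply Subtype.ext
      exact congrArg (fun z : K⟮j⟯ => (z : F)) hab)
  refine IsFractionRing.of_field (Algebra.adjoin R {j}) K⟮j⟯ ?_
  rintro ⟨z, hz⟩
  obtain ⟨r, s, hrs⟩ := (IntermediateField.mem_adjoin_simple_iff K z).1 hz
  obtain ⟨c, r', hc, hr'⟩ := H40.exists_aeval_eq_div (R := R) j r
  obtain ⟨d, s', hd, hs'⟩ := H40.exists_aeval_eq_div (R := R) j s
  have hcF : algebraMap R F c ≠ 0 := fun h => hc (hinjRF (by rw [h, map_zero]))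
  have hdF : algebraMap R F d ≠ 0 := fun h => hd (hinjRF (by rw [h, map_zero]))
  refine ⟨⟨aeval j (C d * r'), ?_⟩, ⟨aeval j (C c * s'), ?_⟩, ?_⟩
  · rw [Algebra.adjoin_singleton_eq_range_aeval]; exact ⟨_, rfl⟩
  · rw [Algebra.adjoin_singleton_eq_range_aeval]; exact ⟨_, rfl⟩
  · apply Subtype.ext
    change z = aeval j (C d * r') / aeval j (C c * s')
    rw [map_mul, map_mul, aeval_C, aeval_C, ← hr', ← hs', hrs]
    by_cases hs0 : aeval j s = 0
    · rw [hs0]; simp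
    · field_simp

theorem isFractionRing_chartB [IsDomain R] [IsFractionRing R K] (j : F)
    [FiniteDimensional K⟮j⟯ F] : IsFractionRing ↥(H40.chartB R j) F := by
  let : Algebra (Algebra.adjoin R {j}) K⟮j⟯ := (H40.adjoinToSimple (K := K) j).toAlgebra
  have : IsScalarTower (Algebra.adjoin R {j}) K⟮j⟯ F :=
    IsScalarTower.of_algebraMap_eq (fun a => rfl)
  have := isFractionRing_adjoin_adjoinSimple (R := R) (K := K) j
  exact IsIntegralClosure.isFractionRing_of_finite_extension (Algebra.adjoin R {j}) K⟮j⟯ F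
    (integralClosure (Algebra.adjoin R {j}) F)

theorem isIntegrallyClosed_chartB [IsDomain R] [IsFractionRing R K] (j : F)
    [FiniteDimensional K⟮j⟯ F] : IsIntegrallyClosed ↥(H40.chartB R j) := by
  let : Algebra (Algebra.adjoin R {j}) K⟮j⟯ := (H40.adjoinToSimple (K := K) j).toAlgebra
  have : IsScalarTower (Algebra.adjoin R {j}) K⟮j⟯ F :=
    IsScalarTower.of_algebraMap_eq (fun a => rfl)
  have := isFractionRing_adjoin_adjoinSimple (R := R) (K := K) j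
  exact integralClosure.isIntegrallyClosedOfFiniteExtension (R := Algebra.adjoin R {j}) K⟮j⟯

end ChartInstances

end Fermat.Agent.S34.H3
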