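/-
helper95 — S34: the chart coordinate `J = j · j_q` at the concrete types
`A'' = H45.cutOver A E`, `E ⊇ K1 = unrCyclo ℓ`, `F_E = modularFunctionFieldFullC ↥E N`:

* shortcut instance `IsScalarTower (cutOver A E) ↥E F_E` (instance synthesis times out);
* `baseChangeE_JK`, `inertiaActFullC_JK` : `J` comes from `F1` and is fixed by inertia;
* the chart rings `chartB (cutOver A E) J^(±1)` are noetherian, integrally closed, with fraction
  field `F_E`.
-/
import Fermat.Agent.S34.H95_CoordJ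
import Fermat.Agent.S18.H45_CutOverField
import Fermat.Agent.S34.H3_GlueCharts

set_option autoImplicit false
set_option linter.unusedSectionVars false
set_option linter.style.haveILetI false
set_option synthInstance.maxHeartbeats 400000

noncomputable section

namespace Fermat.Agent.S34.H95

open ModularCurve HahnSeries IntermediateField Fermat.Agent.S18 Fermat.Agent.S18.H45

local notation "Qbar" => AlgebraicClosure ℚ

variable {A : ValuationSubring Qbar} {ℓ : ℕ} (hℓ : ℓ.Prime) (hA : A.LiesOverPrime ℓ)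
variable (E : IntermediateField (unrCyclo ℓ) Qbar) (N : ℕ) [NeZero N]

/-- Shortcut instance (times out in instance synthesis at the default heartbeats). -/
instance isScalarTower_cutOver_fullC :
    IsScalarTower (cutOver A E) ↥E (modularFunctionFieldFullC ↥E N) :=
  IsScalarTower.of_algebraMap_eq fun _ => rfl

theorem algebraMap_cutOver_fullC (a : cutOver A E) :
    algebraMap (cutOver A E) (modularFunctionFieldFullC ↥E N) a =
      algebraMap ↥E (modularFunctionFieldFullC ↥E N) (a : ↥E) := rfl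

variable (q : ℕ) [NeZero q] (hq : q ∣ N)

/-- The coordinate `J` over `E` is the base change of the coordinate `J` over `K1`. -/
theorem baseChangeE_JK : baseChangeE E N (JK (unrCyclo ℓ) N q hq) = JK ↥E N q hq := by
  unfold JK baseChangeE
  rw [map_mul, H99.fullCMap_jK, H99.fullCMap_jdK]

/-- Inertia fixes the chart coordinate `J`. -/
theorem inertiaActFullC_JK [Normal (unrCyclo ℓ) E] (σ : Qbar ≃ₐ[ℚ] Qbar)
    (hσ : σ ∈ A.inertiaSubgroupIn ℚ) :
    inertiaActFullC hℓ hA E N σ hσ (JK ↥E N q hq) = JK ↥E N q hq := by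
  rw [← baseChangeE_JK, inertiaActFullC_baseChangeE]

/-- Inertia fixes `J⁻¹`. -/
theorem inertiaActFullC_JK_inv [Normal (unrCyclo ℓ) E] (σ : Qbar ≃ₐ[ℚ] Qbar)
    (hσ : σ ∈ A.inertiaSubgroupIn ℚ) :
    inertiaActFullC hℓ hA E N σ hσ (JK ↥E N q hq)⁻¹ = (JK ↥E N q hq)⁻¹ := by
  rw [map_inv₀, inertiaActFullC_JK]

/-! ### The two chart rings over `A'' = cutOver A E` -/

section Charts

variable [FiniteDimensional (unrCyclo ℓ) E]

include hℓ hA in
theorem isNoetherianRing_chartB_JK :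
    IsNoetherianRing ↥(H40.chartB (cutOver A E) (JK ↥E N q hq)) := by
  haveI := isDiscreteValuationRing_cutOver hℓ hA E
  haveI := finiteDimensional_JK ↥E N q hq (H99.natCast_ne_zero₀ N ↥E)
  haveI := isSeparable_JK ↥E N q hq
  exact isNoetherianRing_chartB (K := ↥E) (JK ↥E N q hq) (transcendental_JK ↥E N q hq)

include hℓ hA in
theorem isNoetherianRing_chartB_JK_inv :
    IsNoetherianRing ↥(H40.chartB (cutOver A E) (JK ↥E N q hq)⁻¹) := by
  haveI := isDiscreteValuationRing_cutOver hℓ hA E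
  haveI := finiteDimensional_JK_inv ↥E N q hq (H99.natCast_ne_zero₀ N ↥E)
  haveI := isSeparable_JK_inv ↥E N q hq
  exact isNoetherianRing_chartB (K := ↥E) (JK ↥E N q hq)⁻¹ (transcendental_JK_inv ↥E N q hq)

theorem isFractionRing_chartB_JK :
    IsFractionRing ↥(H40.chartB (cutOver A E) (JK ↥E N q hq)) (modularFunctionFieldFullC ↥E N) := by
  haveI := finiteDimensional_JK ↥E N q hq (H99.natCast_ne_zero₀ N ↥E)
  exact H3.isFractionRing_chartB (K := ↥E) (JK ↥E N q hq)

theorem isFractionRing_chartB_JK_inv :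
    IsFractionRing ↥(H40.chartB (cutOver A E) (JK ↥E N q hq)⁻¹)
      (modularFunctionFieldFullC ↥E N) := by
  haveI := finiteDimensional_JK_inv ↥E N q hq (H99.natCast_ne_zero₀ N ↥E)
  exact H3.isFractionRing_chartB (K := ↥E) (JK ↥E N q hq)⁻¹

theorem isIntegrallyClosed_chartB_JK :
    IsIntegrallyClosed ↥(H40.chartB (cutOver A E) (JK ↥E N q hq)) := by
  haveI := finiteDimensional_JK ↥E N q hq (H99.natCast_ne_zero₀ N ↥E)
  exact H3.isIntegrallyClosed_chartB (K := ↥E) (JK ↥E N q hq)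

theorem isIntegrallyClosed_chartB_JK_inv :
    IsIntegrallyClosed ↥(H40.chartB (cutOver A E) (JK ↥E N q hq)⁻¹) := by
  haveI := finiteDimensional_JK_inv ↥E N q hq (H99.natCast_ne_zero₀ N ↥E)
  exact H3.isIntegrallyClosed_chartB (K := ↥E) (JK ↥E N q hq)⁻¹

end Charts

/-! ### The two chart rings over `A1 = A0 A ℓ` (level `K1 = unrCyclo ℓ`) -/

section ChartsA0

include hℓ hA in
theorem isNoetherianRing_chartB_JK_A0 :
    IsNoetherianRing ↥(H40.chartB (A0 A ℓ) (JK (unrCyclo ℓ) N q hq)) := by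
  haveI := isDiscreteValuationRing_A0 hℓ hA
  haveI := finiteDimensional_JK (unrCyclo ℓ) N q hq (H99.natCast_ne_zero₀ N (unrCyclo ℓ))
  haveI := isSeparable_JK (unrCyclo ℓ) N q hq
  exact isNoetherianRing_chartB (K := unrCyclo ℓ) (JK (unrCyclo ℓ) N q hq)
    (transcendental_JK (unrCyclo ℓ) N q hq)

include hℓ hA in
theorem isNoetherianRing_chartB_JK_inv_A0 :
    IsNoetherianRing ↥(H40.chartB (A0 A ℓ) (JK (unrCyclo ℓ) N q hq)⁻¹) := by
  haveI := isDiscreteValuationRing_A0 hℓ hA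
  haveI := finiteDimensional_JK_inv (unrCyclo ℓ) N q hq (H99.natCast_ne_zero₀ N (unrCyclo ℓ))
  haveI := isSeparable_JK_inv (unrCyclo ℓ) N q hq
  exact isNoetherianRing_chartB (K := unrCyclo ℓ) (JK (unrCyclo ℓ) N q hq)⁻¹
    (transcendental_JK_inv (unrCyclo ℓ) N q hq)

theorem isFractionRing_chartB_JK_A0 :
    IsFractionRing ↥(H40.chartB (A0 A ℓ) (JK (unrCyclo ℓ) N q hq))
      (modularFunctionFieldFullC (unrCyclo ℓ) N) := by
  haveI := finiteDimensional_JK (unrCyclo ℓ) N q hq (H99.natCast_ne_zero₀ N (unrCyclo ℓ))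
  exact H3.isFractionRing_chartB (K := unrCyclo ℓ) (JK (unrCyclo ℓ) N q hq)

theorem isFractionRing_chartB_JK_inv_A0 :
    IsFractionRing ↥(H40.chartB (A0 A ℓ) (JK (unrCyclo ℓ) N q hq)⁻¹)
      (modularFunctionFieldFullC (unrCyclo ℓ) N) := by
  haveI := finiteDimensional_JK_inv (unrCyclo ℓ) N q hq (H99.natCast_ne_zero₀ N (unrCyclo ℓ))
  exact H3.isFractionRing_chartB (K := unrCyclo ℓ) (JK (unrCyclo ℓ) N q hq)⁻¹

theorem isIntegrallyClosed_chartB_JK_A0 :
    IsIntegrallyClosed ↥(H40.chartB (A0 A ℓ) (JK (unrCyclo ℓ) N q hq)) := by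
  haveI := finiteDimensional_JK (unrCyclo ℓ) N q hq (H99.natCast_ne_zero₀ N (unrCyclo ℓ))
  exact H3.isIntegrallyClosed_chartB (K := unrCyclo ℓ) (JK (unrCyclo ℓ) N q hq)

theorem isIntegrallyClosed_chartB_JK_inv_A0 :
    IsIntegrallyClosed ↥(H40.chartB (A0 A ℓ) (JK (unrCyclo ℓ) N q hq)⁻¹) := by
  haveI := finiteDimensional_JK_inv (unrCyclo ℓ) N q hq (H99.natCast_ne_zero₀ N (unrCyclo ℓ))
  exact H3.isIntegrallyClosed_chartB (K := unrCyclo ℓ) (JK (unrCyclo ℓ) N q hq)⁻¹

end ChartsA0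

end Fermat.Agent.S34.H95
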