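import Mathlib
import Fermat.Agent.S34.H61_ChainReduced
import Fermat.Agent.S34.H95_CoordJInst
import Fermat.Agent.S34.H47_BaseRing
import Fermat.Agent.CA.H92_LaurentConst
import Fermat.Agent.S18.H45_CutOverPoint

/-!
# S34, MIDDLE layer (helper61): the chain at the concrete types

`R := A'' = H45.cutOver A E`, `K := ↥E`, `F := F_E = modularFunctionFieldFullC ↥E N`,
`J := H95.JK ↥E N q hq = j · j_q`, `l := p ≠ ℓ`.

`middle_cutOver` : every base-ring / function-field hypothesis of
`H61.exists_const_mul_pow_of_reduced` is discharged at the concrete types (DVR, fraction field,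
`J` transcendental, `F_E / E(J)` finite separable, the chart rings noetherian normal with fraction
field `F_E`, `E` algebraically closed in `F_E`, `p` a unit, primitive `p`-th root of unity, `p`-th
roots modulo `π`).  What is left = the model hypotheses in the shapes of their producers:

* `hrad₁ hrad₂` (reduced special fibres: L0 + base change (R-a3b), helper70 `isReduced_fibre` +
  helper3 `H3.hrad_of_isReduced`),
* `hJ₁ hJ₂` (helper69, going-down),
* `hD₁ hD₂` (the chart data at all closed points = helper56's `H56_MiddleInst` output).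
-/

set_option autoImplicit false
set_option linter.unusedSectionVars false
set_option linter.style.haveILetI false
set_option synthInstance.maxHeartbeats 400000
set_option maxHeartbeats 3200000

noncomputable section

namespace Fermat.Agent.S34.H61

open ModularCurve HahnSeries IntermediateField IsLocalRing
open Fermat.Agent.S18 Fermat.Agent.S18.H45

local notation "Qbar" => AlgebraicClosure ℚ

variable {A : ValuationSubring Qbar} {ℓ : ℕ} (hℓ : ℓ.Prime) (hA : A.LiesOverPrime ℓ)
variable (E : IntermediateField (unrCyclo ℓ) Qbar) [FiniteDimensional (unrCyclo ℓ) E]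
variable (N : ℕ) [NeZero N] (q : ℕ) [NeZero q] (hq : q ∣ N)

include hℓ hA in
/-- **MIDDLE at the concrete types.** -/
theorem middle_cutOver {p : ℕ} (hp : p.Prime) (hpℓ : p ≠ ℓ)
    (s : modularFunctionFieldFullC ↥E N ≃+* modularFunctionFieldFullC ↥E N)
    (π : cutOver A E) (hmax : maximalIdeal (cutOver A E) = Ideal.span {π})
    (hrad₁ : ∀ b : ↥(H40.chartB (cutOver A E) (H95.JK ↥E N q hq)),
      (∃ n : ℕ, algebraMap (cutOver A E) ↥(H40.chartB (cutOver A E) (H95.JK ↥E N q hq)) π ∣ b ^ n) →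
        algebraMap (cutOver A E) ↥(H40.chartB (cutOver A E) (H95.JK ↥E N q hq)) π ∣ b)
    (hrad₂ : ∀ b : ↥(H40.chartB (cutOver A E) (H95.JK ↥E N q hq)⁻¹),
      (∃ n : ℕ,
        algebraMap (cutOver A E) ↥(H40.chartB (cutOver A E) (H95.JK ↥E N q hq)⁻¹) π ∣ b ^ n) →
        algebraMap (cutOver A E) ↥(H40.chartB (cutOver A E) (H95.JK ↥E N q hq)⁻¹) π ∣ b)
    (hJ₁ : ∀ P : H3.Vert
        (algebraMap (cutOver A E) ↥(H40.chartB (cutOver A E) (H95.JK ↥E N q hq)) π),
      (⟨H95.JK ↥E N q hq, H40.self_mem_chartB _⟩ :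
          ↥(H40.chartB (cutOver A E) (H95.JK ↥E N q hq))) ∉
        (P : Ideal ↥(H40.chartB (cutOver A E) (H95.JK ↥E N q hq))))
    (hJ₂ : ∀ P : H3.Vert
        (algebraMap (cutOver A E) ↥(H40.chartB (cutOver A E) (H95.JK ↥E N q hq)⁻¹) π),
      (⟨(H95.JK ↥E N q hq)⁻¹, H40.self_mem_chartB _⟩ :
          ↥(H40.chartB (cutOver A E) (H95.JK ↥E N q hq)⁻¹)) ∉
        (P : Ideal ↥(H40.chartB (cutOver A E) (H95.JK ↥E N q hq)⁻¹)))
    (hD₁ : ChartDatum (B := ↥(H40.chartB (cutOver A E) (H95.JK ↥E N q hq))) ↥E π s)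
    (hD₂ : ChartDatum (B := ↥(H40.chartB (cutOver A E) (H95.JK ↥E N q hq)⁻¹)) ↥E π s) :
    ∀ (k : ℕ) (f : modularFunctionFieldFullC ↥E N), Admissible ↥E f (p ^ k) →
      ∃ (c : ↥E) (g : modularFunctionFieldFullC ↥E N), c ≠ 0 ∧ g ≠ 0 ∧
        s (s f / f) / (s f / f) =
          algebraMap ↥E (modularFunctionFieldFullC ↥E N) c * g ^ (p ^ k) := by
  haveI := isDiscreteValuationRing_cutOver hℓ hA E
  haveI := isAlgClosed_residueField_cutOver hℓ hA E
  haveI := H95.finiteDimensional_JK ↥E N q hq (H99.natCast_ne_zero₀ N ↥E)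
  haveI := H95.isSeparable_JK ↥E N q hq
  haveI := H95.isFractionRing_chartB_JK (A := A) E N q hq
  haveI := H95.isFractionRing_chartB_JK_inv (A := A) E N q hq
  haveI := H95.isNoetherianRing_chartB_JK hℓ hA E N q hq
  haveI := H95.isNoetherianRing_chartB_JK_inv hℓ hA E N q hq
  haveI := H95.isIntegrallyClosed_chartB_JK (A := A) E N q hq
  haveI := H95.isIntegrallyClosed_chartB_JK_inv (A := A) E N q hq
  have hπ : Irreducible π := irreducible_of_maximalIdeal_cutOver_eq hℓ hA E hmax
  have hnd : ¬ ℓ ∣ p := fun h => hpℓ ((Nat.prime_dvd_prime_iff_eq hℓ hp).mp h).symm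
  obtain ⟨ζ, hζ⟩ := H47.exists_isPrimitiveRoot_cutOver (A := A) E hp.ne_zero hnd
  have hpu := H47.isUnit_natCast_cutOver hℓ hA E hnd
  have hcl : ∀ z : modularFunctionFieldFullC ↥E N, IsAlgebraic ↥E z →
      z ∈ (algebraMap ↥E (modularFunctionFieldFullC ↥E N)).range := fun z hz =>
    Fermat.Agent.CA.H92.mem_range_of_isAlgebraic_intermediateField
      (modularFunctionFieldFullC ↥E N) z hz
  exact exists_const_mul_pow_of_reduced (R := cutOver A E) (K := ↥E) (H95.JK ↥E N q hq)
    (H95.transcendental_JK ↥E N q hq) hcl π hπ hp hpu hζ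
    (fun r hr => H47.exists_root_mod hmax hp.pos r hr) hrad₁ hrad₂ hJ₁ hJ₂ s hD₁ hD₂

end Fermat.Agent.S34.H61
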