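import Mathlib
import Fermat.Agent.S18.H45_InertiaBaseAlg

/-!
# DVR data of `A1 = A0 A ℓ` and `A'' = cutOver A E` in the shape of `CA.H79_BaseChangeNormal`
(helper79, S34 row (R-a3b), instance side; independent of the `F1 → F_E` layer)

* `dvd_natCast_pow_A0` : `hA₁q` — every nonzero element of `A0` divides a power of `ℓ`.
* `dvd_pow_of_irreducible_cutOver` : `hdvr` — every nonzero element of `A ∩ E` divides a power of
  a uniformiser.
* `exists_primitive_cutOver` : a primitive element of `E / K1` lying in `A ∩ E` and integral over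
  `A0`.
-/

set_option autoImplicit false
set_option linter.unusedSectionVars false
set_option linter.style.haveILetI false

namespace Fermat.Agent.S34.H79

open Fermat.Agent.S18.H45 IsLocalRing

noncomputable section

local notation "Qbar" => AlgebraicClosure ℚ

variable {A : ValuationSubring Qbar} {ℓ : ℕ} (hℓ : ℓ.Prime) (hA : A.LiesOverPrime ℓ)
variable (E : IntermediateField (unrCyclo ℓ) Qbar)

include hℓ hA in
/-- `hA₁q`: every nonzero element of `A0` divides a power of `ℓ`. -/
theorem dvd_natCast_pow_A0 (c : A0 A ℓ) (hc : c ≠ 0) :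
    ∃ k : ℕ, c ∣ ((ℓ : ℕ) : A0 A ℓ) ^ k := by
  obtain ⟨k, hk⟩ := exists_associated_pow_A0 hℓ hA c hc
  exact ⟨k, hk.symm.dvd⟩

include hℓ hA in
/-- `hdvr`: every nonzero element of `A ∩ E` divides a power of a uniformiser. -/
theorem dvd_pow_of_irreducible_cutOver [FiniteDimensional (unrCyclo ℓ) E] {π : cutOver A E}
    (hπ : Irreducible π) (a : cutOver A E) (ha : a ≠ 0) : ∃ j : ℕ, a ∣ π ^ j := by
  haveI := isDiscreteValuationRing_cutOver hℓ hA E
  obtain ⟨j, hj⟩ := IsDiscreteValuationRing.associated_pow_irreducible ha hπ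
  exact ⟨j, hj.dvd⟩

include hℓ hA in
/-- A primitive element of `E / K1` lying in `A ∩ E` and integral over `A0`. -/
theorem exists_primitive_cutOver [FiniteDimensional (unrCyclo ℓ) E] :
    ∃ α : cutOver A E, IsIntegral (A0 A ℓ) α ∧
      IntermediateField.adjoin (unrCyclo ℓ) {(α : E)} = ⊤ := by
  classical
  haveI := isDiscreteValuationRing_A0 hℓ hA
  obtain ⟨α₀, hα₀⟩ := Field.exists_primitive_element (unrCyclo ℓ) E
  have halg : IsAlgebraic (unrCyclo ℓ) α₀ := Algebra.IsAlgebraic.isAlgebraic α₀
  have halg' : IsAlgebraic (A0 A ℓ) α₀ :=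
    (IsFractionRing.isAlgebraic_iff (A0 A ℓ) (unrCyclo ℓ) E).mpr halg
  obtain ⟨y, hy0, hy⟩ := halg'.exists_integral_multiple
  -- `y • α₀` is integral over `A0`, hence lies in the valuation ring `A ∩ E`
  have hmem : y • α₀ ∈ cutOver A E := by
    have hint : IsIntegral (cutOver A E) (y • α₀) := hy.tower_top
    obtain ⟨z, hz⟩ := (isIntegrallyClosed_iff E).mp
      (inferInstance : IsIntegrallyClosed (cutOver A E)) hint
    rw [← hz]
    exact z.2
  refine ⟨⟨y • α₀, hmem⟩, ?_, ?_⟩
  · -- integrality descends along the injective `A0`-algebra map `A ∩ E → E`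
    have hinj : Function.Injective (algebraMap (cutOver A E) E) := Subtype.val_injective
    exact (isIntegral_algebraMap_iff hinj).mp hy
  · -- same field
    show IntermediateField.adjoin (unrCyclo ℓ) {y • α₀} = ⊤
    rw [← hα₀]
    have hyK : algebraMap (A0 A ℓ) (unrCyclo ℓ) y ≠ 0 := by
      rw [Ne, map_eq_zero_iff _ algebraMap_A0_unrCyclo_injective]
      exact hy0
    have hsmul : y • α₀ = algebraMap (A0 A ℓ) (unrCyclo ℓ) y • α₀ := by
      rw [algebraMap_smul]
    apply le_antisymm
    · rw [IntermediateField.adjoin_simple_le_iff, hsmul]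
      exact IntermediateField.smul_mem _ (IntermediateField.mem_adjoin_simple_self _ _)
    · rw [IntermediateField.adjoin_simple_le_iff]
      have h0 : y • α₀ ∈ IntermediateField.adjoin (unrCyclo ℓ) {y • α₀} :=
        IntermediateField.mem_adjoin_simple_self _ _
      have h1 := IntermediateField.smul_mem _ h0 (x := (algebraMap (A0 A ℓ) (unrCyclo ℓ) y)⁻¹)
      have h2 : (algebraMap (A0 A ℓ) (unrCyclo ℓ) y)⁻¹ • (y • α₀) = α₀ := by
        rw [hsmul, smul_smul, inv_mul_cancel₀ hyK, one_smul]
      rwa [h2] at h1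

end

end Fermat.Agent.S34.H79
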