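import Mathlib
import Fermat.Agent.CA.H79_BaseChangeAut
import Fermat.Agent.CA.H79_BaseChangeNormal
import Fermat.Agent.CA.H92_LaurentConst
import Fermat.Agent.S18.H45_CutOverField
import Fermat.Agent.S18.H40_CechFG
import Fermat.Agent.S34.H3_GlueCharts
import Fermat.Agent.S34.H79_CutOverData

/-!
# S34, row (R-a3b), instance part 2 (helper40): instance block + generic lemmas

At the concrete types `A₁ = A0 A ℓ`, `K₁ = unrCyclo ℓ`, `A₂ = cutOver A E`, `F₁ = fullC K₁ N`,
`F₂ = fullC ↥E N`, `bc = H45.baseChangeE E N`, `B = chartB A₁ J`, `B'' = chartB A₂ (bc J)`: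

* `mem_chartB_cutOver_iff_genRing` / `mem_chartB_cutOver_iff` : `B'' = B · A₂` inside `F₂`
  (under the single hypothesis `IsReduced (B / ℓ B)`);
* `exists_inertiaAct_chartB` : the coefficientwise inertia action restricts to an automorphism of
  `B''` which is trivial modulo the uniformiser of `A₂`.
-/

set_option autoImplicit false
set_option linter.unusedSectionVars false
set_option linter.style.haveILetI false
set_option synthInstance.maxHeartbeats 400000
set_option maxHeartbeats 4000000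
set_option warn.classDefReducibility false

namespace Fermat.Agent.S34.H40

open IsLocalRing ModularCurve HahnSeries IntermediateField Polynomial
open Fermat.Agent.S18

/-! ## Generic lemmas -/

section GenericField

variable {K₁ E₀ F₁ F₂ : Type*} [Field K₁] [Field E₀] [Field F₁] [Field F₂]
  [Algebra K₁ E₀] [Algebra K₁ F₁] [Algebra F₁ F₂] [Algebra E₀ F₂] [Algebra K₁ F₂]
  [IsScalarTower K₁ F₁ F₂] [IsScalarTower K₁ E₀ F₂]

omit [Algebra K₁ F₁] [Algebra F₁ F₂] [IsScalarTower K₁ F₁ F₂] [Field F₁] in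
/-- If `E₀ = K₁(α)` then the image of `E₀` in `F₂` lies in `K₁(α'')`. -/
theorem algebraMap_mem_adjoin_simple_of_top (α : E₀) (hα : K₁⟮α⟯ = ⊤) (e : E₀) :
    algebraMap E₀ F₂ e ∈ K₁⟮algebraMap E₀ F₂ α⟯ := by
  have h1 : e ∈ K₁⟮α⟯ := by rw [hα]; exact IntermediateField.mem_top
  have h2 : (IsScalarTower.toAlgHom K₁ E₀ F₂) e ∈
      (K₁⟮α⟯).map (IsScalarTower.toAlgHom K₁ E₀ F₂) :=
    (IntermediateField.mem_map _).mpr ⟨e, h1, rfl⟩
  rw [IntermediateField.adjoin_map, Set.image_singleton] at h2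
  exact h2

/-- If `E₀ = K₁(α)` with `α` algebraic and `F₂ = E₀(bc S)` for a set `S ⊆ F₁`, then
`F₂ = F₁[α'']`. -/
theorem adjoin_eq_top_of_primitive (α : E₀) (hα : K₁⟮α⟯ = ⊤) (hαalg : IsAlgebraic K₁ α)
    (S : Set F₁) (hS : IntermediateField.adjoin E₀ (algebraMap F₁ F₂ '' S) = ⊤) :
    Algebra.adjoin F₁ {algebraMap E₀ F₂ α} = ⊤ := by
  have halg : IsAlgebraic F₁ (algebraMap E₀ F₂ α) := by
    have h0 : IsAlgebraic K₁ (algebraMap E₀ F₂ α) := hαalg.algebraMap
    exact h0.tower_top F₁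
  rw [← IntermediateField.adjoin_simple_toSubalgebra_of_isAlgebraic halg]
  have hK : K₁⟮algebraMap E₀ F₂ α⟯ ≤ (F₁⟮algebraMap E₀ F₂ α⟯).restrictScalars K₁ := by
    rw [IntermediateField.adjoin_simple_le_iff, IntermediateField.mem_restrictScalars]
    exact IntermediateField.mem_adjoin_simple_self F₁ _
  have hE : ∀ e : E₀, algebraMap E₀ F₂ e ∈ (F₁⟮algebraMap E₀ F₂ α⟯).toSubfield := fun e =>
    hK (algebraMap_mem_adjoin_simple_of_top α hα e)
  have hM' : IntermediateField.adjoin E₀ (algebraMap F₁ F₂ '' S) ≤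
      Subfield.toIntermediateField (F₁⟮algebraMap E₀ F₂ α⟯).toSubfield hE := by
    rw [IntermediateField.adjoin_le_iff]
    rintro _ ⟨s, -, rfl⟩
    exact (F₁⟮algebraMap E₀ F₂ α⟯).algebraMap_mem s
  rw [hS] at hM'
  rw [eq_top_iff]
  intro z _
  exact hM' (IntermediateField.mem_top)

end GenericField

section GenericChart

variable {A₁ A₂ F₁ F₂ : Type*} [CommRing A₁] [CommRing A₂] [Field F₁] [Field F₂]
  [Algebra A₁ A₂] [Algebra A₁ F₁] [Algebra F₁ F₂] [Algebra A₂ F₂] [Algebra A₁ F₂]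
  [IsScalarTower A₁ F₁ F₂] [IsScalarTower A₁ A₂ F₂]

/-- `bc (A₁[J]) ⊆ A₂[bc J]`. -/
theorem map_mem_adjoin_of_mem_adjoin (J : F₁) {x : F₁} (hx : x ∈ Algebra.adjoin A₁ {J}) :
    algebraMap F₁ F₂ x ∈ Algebra.adjoin A₂ {algebraMap F₁ F₂ J} := by
  induction hx using Algebra.adjoin_induction with
  | mem x hx =>
    rw [Set.mem_singleton_iff] at hx
    subst hx
    exact Algebra.self_mem_adjoin_singleton _ _
  | algebraMap r =>
    rw [← IsScalarTower.algebraMap_apply A₁ F₁ F₂, IsScalarTower.algebraMap_apply A₁ A₂ F₂]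
    exact Subalgebra.algebraMap_mem _ _
  | add x y _ _ hx hy => rw [map_add]; exact Subalgebra.add_mem _ hx hy
  | mul x y _ _ hx hy => rw [map_mul]; exact Subalgebra.mul_mem _ hx hy

/-- `bc (chartB A₁ J)` is integral over `A₂[bc J]`. -/
theorem isIntegral_map_of_mem_chartB (J : F₁) {b : F₁} (hb : b ∈ S18.H40.chartB A₁ J) :
    IsIntegral (Algebra.adjoin A₂ {algebraMap F₁ F₂ J}) (algebraMap F₁ F₂ b) := by
  let φ : ↥(Algebra.adjoin A₁ {J}) →+* ↥(Algebra.adjoin A₂ {algebraMap F₁ F₂ J}) :=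
    ((algebraMap F₁ F₂).comp (algebraMap ↥(Algebra.adjoin A₁ {J}) F₁)).codRestrict _
      (fun x => map_mem_adjoin_of_mem_adjoin J x.2)
  exact IsIntegral.map_of_comp_eq φ (algebraMap F₁ F₂) (by ext x; rfl) (S18.H40.mem_chartB.mp hb)

end GenericChart

/-! ## The concrete instance -/

noncomputable section Concrete

local notation "Qbar" => AlgebraicClosure ℚ

variable {A : ValuationSubring Qbar} {ℓ : ℕ} (hℓ : ℓ.Prime) (hA : A.LiesOverPrime ℓ)
variable (E : IntermediateField (H45.unrCyclo ℓ) Qbar) (N : ℕ) [NeZero N]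

local notation "K₁" => H45.unrCyclo ℓ
local notation "A₁" => H45.A0 A ℓ
local notation "A₂" => H45.cutOver A E
local notation "F₁" => modularFunctionFieldFullC (H45.unrCyclo ℓ) N
set_option quotPrecheck false in
local notation "F₂" => modularFunctionFieldFullC (↥E) N

/-! ### the instance block (all local) -/

/-- `F1 → F''` as an algebra structure. -/
def algF1 : Algebra F₁ F₂ := (H45.baseChangeE E N).toAlgebra

/-- `K1 → E → F''`. -/
def algK1 : Algebra K₁ F₂ :=
  ((algebraMap (↥E) F₂).comp (algebraMap K₁ (↥E))).toAlgebra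

attribute [local instance] algF1 algK1

theorem algebraMap_F1_eq : algebraMap F₁ F₂ = H45.baseChangeE E N := rfl

theorem algebraMap_K1_apply (c : K₁) :
    algebraMap K₁ F₂ c = algebraMap (↥E) F₂ (algebraMap K₁ (↥E) c) := rfl

theorem towerK1F1 : IsScalarTower K₁ F₁ F₂ :=
  IsScalarTower.of_algebraMap_eq fun c => by
    rw [algebraMap_K1_apply, algebraMap_F1_eq, H45.baseChangeE_algebraMap]

theorem towerK1E : IsScalarTower K₁ (↥E) F₂ :=
  IsScalarTower.of_algebraMap_eq fun _ => rfl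

theorem towerA1A2 : IsScalarTower A₁ A₂ F₂ :=
  IsScalarTower.of_algebraMap_eq fun _ => rfl

theorem towerA1F1 : IsScalarTower A₁ F₁ F₂ :=
  IsScalarTower.of_algebraMap_eq fun a => by
    show algebraMap K₁ F₂ (a : K₁) = H45.baseChangeE E N (algebraMap K₁ F₁ (a : K₁))
    rw [H45.baseChangeE_algebraMap]
    rfl

attribute [local instance] towerK1F1 towerK1E towerA1A2 towerA1F1

theorem towerBF1 (J : modularFunctionFieldFullC (H45.unrCyclo ℓ) N) :
    IsScalarTower ↥(S18.H40.chartB A₁ J) F₁ F₂ := inferInstance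

theorem towerA1B (J : modularFunctionFieldFullC (H45.unrCyclo ℓ) N) :
    IsScalarTower A₁ ↥(S18.H40.chartB A₁ J) F₂ := inferInstance

theorem algebraMap_A2_apply (a : A₂) : algebraMap A₂ F₂ a = algebraMap (↥E) F₂ (a : ↥E) := rfl

theorem algebraMap_A2_injective : Function.Injective (algebraMap A₂ F₂) := fun _ _ h =>
  Subtype.ext ((algebraMap (↥E) F₂).injective h)

end Concrete

end Fermat.Agent.S34.H40
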