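import Mathlib
import Fermat.Agent.S34.H40_BaseChangeInst

/-!
# S34, row (R-a3b), instance part 2 (helper40)

At the concrete types `A₁ = A0 A ℓ`, `K₁ = unrCyclo ℓ`, `A₂ = cutOver A E`, `F₁ = fullC K₁ N`,
`F₂ = fullC ↥E N`, `bc = H45.baseChangeE E N`, `B = chartB A₁ J`, `B'' = chartB A₂ (bc J)`:

* `mem_chartB_cutOver_iff_genRing` / `mem_chartB_cutOver_iff` : `B'' = B · A₂` inside `F₂`
  (under the single hypothesis `IsReduced (B / ℓ B)`);
* `exists_inertiaAct_chartB` : the coefficientwise inertia action restricts to an automorphism of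
  `B''` which is trivial modulo the uniformiser of `A₂`.
-/

set_option autoImplicit false
set_option linter.unusedSectionVars false
set_option linter.style.haveILetI false
set_option synthInstance.maxHeartbeats 400000
set_option maxHeartbeats 4000000
set_option warn.classDefReducibility false

namespace Fermat.Agent.S34.H40

open IsLocalRing ModularCurve HahnSeries IntermediateField Polynomial
open Fermat.Agent.S18

noncomputable section Concrete

local notation "Qbar" => AlgebraicClosure ℚ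

variable {A : ValuationSubring Qbar} {ℓ : ℕ} (hℓ : ℓ.Prime) (hA : A.LiesOverPrime ℓ)
variable (E : IntermediateField (H45.unrCyclo ℓ) Qbar) (N : ℕ) [NeZero N]

local notation "K1" => H45.unrCyclo ℓ
local notation "A1" => H45.A0 A ℓ
local notation "A2" => H45.cutOver A E
local notation "F1" => modularFunctionFieldFullC (H45.unrCyclo ℓ) N
set_option quotPrecheck false in
local notation "F2" => modularFunctionFieldFullC (↥E) N

attribute [local instance] algF1 algK1 towerK1F1 towerK1E towerA1A2 towerA1F1 towerBF1 towerA1B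

variable (J : modularFunctionFieldFullC (H45.unrCyclo ℓ) N)

include hℓ hA in
/-- `(h1)`: `A2 = A1 + π A2`. -/
theorem h1_cutOver {π : A2} (hπ : maximalIdeal A2 = Ideal.span {π}) (a : A2) :
    ∃ c : A1, ∃ a' : A2, a = algebraMap A1 A2 c + π * a' := by
  obtain ⟨c, hc⟩ := H45.exists_A0_sub_mem hℓ hA E a
  rw [hπ, Ideal.mem_span_singleton] at hc
  obtain ⟨a', ha'⟩ := hc
  refine ⟨c, a', ?_⟩
  rw [← ha', H45.algebraMap_A0_cutOver_eq]
  ring

include hℓ hA in
/-- `(h2)`: `π ∣ c` in `A2` implies `ℓ ∣ c` in `A1`. -/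
theorem h2_cutOver {π : A2} (hπ : maximalIdeal A2 = Ideal.span {π}) (c : A1)
    (hc : π ∣ algebraMap A1 A2 c) : ((ℓ : ℕ) : A1) ∣ c := by
  rw [← Ideal.mem_span_singleton, ← hπ, mem_maximalIdeal, mem_nonunits_iff] at hc
  rw [← Ideal.mem_span_singleton, ← H45.maximalIdeal_A0_eq hℓ hA, mem_maximalIdeal,
    mem_nonunits_iff]
  exact fun h => hc (h.map _)

include hℓ hA in
/-- `(h3)`: `π ∣ ℓ`. -/
theorem h3_cutOver {π : A2} (hπ : maximalIdeal A2 = Ideal.span {π}) :
    π ∣ algebraMap A1 A2 ((ℓ : ℕ) : A1) := by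
  rw [map_natCast, ← Ideal.mem_span_singleton, ← hπ]
  exact H45.natCast_mem_maximalIdeal_cutOver hℓ hA E

/-- `htop`: `F2 = F1[α'']` for a primitive element `α` of `E / K1`. -/
theorem htop_cutOver [FiniteDimensional K1 E] (α : A2)
    (hα : IntermediateField.adjoin K1 {(α : ↥E)} = ⊤) :
    Algebra.adjoin F1 {algebraMap A2 F2 α} = ⊤ := by
  have hαalg : IsAlgebraic K1 (α : ↥E) := Algebra.IsAlgebraic.isAlgebraic _
  refine adjoin_eq_top_of_primitive (K₁ := K1) (E₀ := ↥E) (F₁ := F1) (F₂ := F2) (α : ↥E) hα hαalg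
    {H16.jK K1 N, H16.jNK K1 N} ?_
  rw [Set.image_pair, algebraMap_F1_eq, H45.baseChangeE_jK, H45.baseChangeE_jNK]
  exact H99.adjoin_pair_eq_top₀ N ↥E

/-- `hA₂α`. -/
theorem hA₂α_cutOver (α : A2) (hα : IntermediateField.adjoin K1 {(α : ↥E)} = ⊤) (a : A2) :
    algebraMap A2 F2 a ∈ IntermediateField.adjoin K1 {algebraMap A2 F2 α} :=
  algebraMap_mem_adjoin_simple_of_top (K₁ := K1) (E₀ := ↥E) (F₂ := F2) (α : ↥E) hα (a : ↥E)

/-- `hsep`. -/
theorem hsep_cutOver [FiniteDimensional K1 E] (α : A2) :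
    (minpoly K1 (algebraMap A2 F2 α)).Separable := by
  have h0 : IsIntegral K1 (α : ↥E) := Algebra.IsIntegral.isIntegral _
  have h1 : IsIntegral K1 (algebraMap A2 F2 α) := h0.map (IsScalarTower.toAlgHom K1 ↥E F2)
  exact (minpoly.irreducible h1).separable

/-- `hcl`: `K1` is algebraically closed in `F1`. -/
theorem hcl_F1 (z : F1) (hz : IsAlgebraic K1 z) : z ∈ Set.range (algebraMap K1 F1) :=
  CA.H92.mem_range_of_isAlgebraic_intermediateField (modularFunctionFieldFullC K1 N) z hz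

include hℓ hA in
/-- **(a)', `genRing` form.**  `B'' = B · A₂` inside `F₂`. -/
theorem mem_chartB_cutOver_iff_genRing [FiniteDimensional K1 E] [FiniteDimensional K1⟮J⟯ F1]
    [IsReduced (↥(S18.H40.chartB A1 J) ⧸
      Ideal.span {algebraMap A1 ↥(S18.H40.chartB A1 J) ((ℓ : ℕ) : A1)})]
    (z : F2) :
    z ∈ S18.H40.chartB A2 (H45.baseChangeE E N J) ↔
      z ∈ CA.H79.genRing A2 ↥(S18.H40.chartB A1 J) F2 := by
  haveI := H45.isDiscreteValuationRing_A0 hℓ hA
  haveI := H45.isDiscreteValuationRing_cutOver hℓ hA E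
  haveI : IsIntegrallyClosed ↥(S18.H40.chartB A1 J) := H3.isIntegrallyClosed_chartB (K := K1) J
  haveI : IsFractionRing ↥(S18.H40.chartB A1 J) F1 := H3.isFractionRing_chartB (K := K1) J
  obtain ⟨π, e, u, hπirr, he, hℓπ, hπ⟩ := H45.exists_uniformizer_cutOver hℓ hA E
  obtain ⟨α, hαint, hαtop⟩ := H79.exists_primitive_cutOver hℓ hA E
  rw [S18.H40.mem_chartB]
  refine CA.H79.isIntegral_iff_mem_genRing (A₁ := A1) (A₂ := A2) (B := ↥(S18.H40.chartB A1 J))
    (K₁ := K1) (F₁ := F1) (E := F2) ((ℓ : ℕ) : A1) π α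
    (h1_cutOver hℓ hA E hπ) (h2_cutOver hℓ hA E hπ) (h3_cutOver hℓ hA E hπ)
    (H79.dvd_natCast_pow_A0 hℓ hA) (H79.dvd_pow_of_irreducible_cutOver hℓ hA E hπirr)
    (H45.natCast_ne_zero_A0 hℓ.ne_zero) (algebraMap_A2_injective E N) hαint
    (htop_cutOver E N α hαtop) (hsep_cutOver E N α) (hcl_F1 N) (hA₂α_cutOver E N α hαtop)
    ↥(Algebra.adjoin A2 {H45.baseChangeE E N J}) ?hC ?hCB ?hCA₂ z
  case hC =>
    rintro ⟨c, hc⟩
    show c ∈ CA.H79.genRing A2 ↥(S18.H40.chartB A1 J) F2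
    induction hc using Algebra.adjoin_induction with
    | mem x hx =>
      rw [Set.mem_singleton_iff] at hx
      subst hx
      exact CA.H79.algebraMap_mem_genRing' (A₂ := A2) (E := F2)
        (⟨J, S18.H40.self_mem_chartB J⟩ : ↥(S18.H40.chartB A1 J))
    | algebraMap r => exact CA.H79.algebraMap_mem_genRing r
    | add x y _ _ hx hy => exact Subalgebra.add_mem _ hx hy
    | mul x y _ _ hx hy => exact Subalgebra.mul_mem _ hx hy
  case hCB =>
    intro b
    exact isIntegral_map_of_mem_chartB (A₁ := A1) (A₂ := A2) (F₁ := F1) (F₂ := F2) J b.2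
  case hCA₂ =>
    intro a
    exact isIntegral_algebraMap (R := ↥(Algebra.adjoin A2 {H45.baseChangeE E N J})) (A := F2)
      (x := ⟨algebraMap A2 F2 a, Subalgebra.algebraMap_mem _ a⟩)

include hℓ hA in
/-- **(a)', instance-free form.**  `B'' = chartB A₂ (bc J)` is the subring of `F₂` generated by
`bc (chartB A₁ J)` and `A₂`. -/
theorem mem_chartB_cutOver_iff [FiniteDimensional K1 E] [FiniteDimensional K1⟮J⟯ F1]
    [IsReduced (↥(S18.H40.chartB A1 J) ⧸
      Ideal.span {algebraMap A1 ↥(S18.H40.chartB A1 J) ((ℓ : ℕ) : A1)})]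
    (z : F2) :
    z ∈ S18.H40.chartB A2 (H45.baseChangeE E N J) ↔
      z ∈ Subring.closure
        (Set.range (fun b : ↥(S18.H40.chartB A1 J) => H45.baseChangeE E N (b : F1)) ∪
          Set.range (algebraMap A2 F2)) := by
  rw [mem_chartB_cutOver_iff_genRing hℓ hA E N J z, ← Subalgebra.mem_toSubring, CA.H79.genRing,
    Algebra.adjoin_eq_ring_closure]
  rfl

include hℓ hA in
/-- **(c).**  The coefficientwise inertia action on `F₂` restricts to an automorphism of
`B'' = chartB A₂ (bc J)` which is trivial modulo the uniformiser `π` of `A₂`. -/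
theorem exists_inertiaAct_chartB [FiniteDimensional K1 E] [Normal K1 E]
    [FiniteDimensional K1⟮J⟯ F1]
    [IsReduced (↥(S18.H40.chartB A1 J) ⧸
      Ideal.span {algebraMap A1 ↥(S18.H40.chartB A1 J) ((ℓ : ℕ) : A1)})]
    (σ : Qbar ≃ₐ[ℚ] Qbar) (hσ : σ ∈ A.inertiaSubgroupIn ℚ)
    (π : A2) (hπ : maximalIdeal A2 = Ideal.span {π}) :
    ∃ sS : ↥(S18.H40.chartB A2 (H45.baseChangeE E N J)) ≃+*
        ↥(S18.H40.chartB A2 (H45.baseChangeE E N J)),
      (∀ x : ↥(S18.H40.chartB A2 (H45.baseChangeE E N J)),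
        H45.inertiaActFullC hℓ hA E N σ hσ (x : F2) = (sS x : F2)) ∧
      ∀ x : ↥(S18.H40.chartB A2 (H45.baseChangeE E N J)),
        sS x - x ∈ Ideal.span
          {algebraMap A2 ↥(S18.H40.chartB A2 (H45.baseChangeE E N J)) π} := by
  refine CA.H79.exists_ringEquiv_of_eq_genRing (A₂ := A2) (B := ↥(S18.H40.chartB A1 J))
    (E := F2) (S18.H40.chartB A2 (H45.baseChangeE E N J))
    (mem_chartB_cutOver_iff_genRing hℓ hA E N J)
    (H45.inertiaActFullC hℓ hA E N σ hσ) (H45.inertiaActCutOver hℓ hA E σ hσ) π ?hB ?hA ?hπ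
  case hB =>
    intro b
    exact H45.inertiaActFullC_baseChangeE hℓ hA E N σ hσ (b : F1)
  case hA =>
    intro a
    exact H45.inertiaActFullC_algebraMap hℓ hA E N σ hσ (a : ↥E)
  case hπ =>
    intro a
    rw [← Ideal.mem_span_singleton, ← hπ]
    exact H45.inertiaActCutOver_sub_mem hℓ hA E σ hσ a

end Concrete

end Fermat.Agent.S34.H40
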