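import Mathlib
import Fermat.Agent.S34.H40_BaseChangeAut

/-!
# S34, row (R-a3b), instance part 2, elementwise-radical variants (helper40)

The theorems of `S34/H40_BaseChangeAut` with the instance binder `IsReduced (B ⧸ ℓ B)` replaced by
the elementwise hypothesis `∀ b : B, (∃ n, ℓ ∣ b ^ n) → ℓ ∣ b` (the shape produced by
`H3.hrad_of_twoComponents`).
-/

set_option autoImplicit false
set_option linter.unusedSectionVars false
set_option linter.style.haveILetI false
set_option synthInstance.maxHeartbeats 400000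
set_option maxHeartbeats 4000000
set_option warn.classDefReducibility false

namespace Fermat.Agent.S34.H40

open IsLocalRing ModularCurve HahnSeries IntermediateField Polynomial
open Fermat.Agent.S18

/-- `B / qB` is reduced as soon as `q ∣ b ^ n → q ∣ b`. -/
theorem isReduced_quotient_span_of_forall {B : Type*} [CommRing B] (q : B)
    (h : ∀ b : B, (∃ n : ℕ, q ∣ b ^ n) → q ∣ b) : IsReduced (B ⧸ Ideal.span {q}) := by
  rw [← Ideal.isRadical_iff_quotient_reduced]
  intro b hb
  obtain ⟨n, hn⟩ := hb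
  rw [Ideal.mem_span_singleton] at hn ⊢
  exact h b ⟨n, hn⟩

noncomputable section Concrete

local notation "Qbar" => AlgebraicClosure ℚ

variable {A : ValuationSubring Qbar} {ℓ : ℕ} (hℓ : ℓ.Prime) (hA : A.LiesOverPrime ℓ)
variable (E : IntermediateField (H45.unrCyclo ℓ) Qbar) (N : ℕ) [NeZero N]

local notation "K1" => H45.unrCyclo ℓ
local notation "A1" => H45.A0 A ℓ
local notation "A2" => H45.cutOver A E
local notation "F1" => modularFunctionFieldFullC (H45.unrCyclo ℓ) N
set_option quotPrecheck false in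
local notation "F2" => modularFunctionFieldFullC (↥E) N

variable (J : modularFunctionFieldFullC (H45.unrCyclo ℓ) N)

include hℓ hA in
/-- **(a)'**, elementwise-radical form. -/
theorem mem_chartB_cutOver_iff_of_hrad [FiniteDimensional K1 E] [FiniteDimensional K1⟮J⟯ F1]
    (hrad : ∀ b : ↥(S18.H40.chartB A1 J),
      (∃ n : ℕ, algebraMap A1 ↥(S18.H40.chartB A1 J) ((ℓ : ℕ) : A1) ∣ b ^ n) →
        algebraMap A1 ↥(S18.H40.chartB A1 J) ((ℓ : ℕ) : A1) ∣ b)
    (z : F2) :
    z ∈ S18.H40.chartB A2 (H45.baseChangeE E N J) ↔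
      z ∈ Subring.closure
        (Set.range (fun b : ↥(S18.H40.chartB A1 J) => H45.baseChangeE E N (b : F1)) ∪
          Set.range (algebraMap A2 F2)) :=
  haveI := isReduced_quotient_span_of_forall _ hrad
  mem_chartB_cutOver_iff hℓ hA E N J z

include hℓ hA in
/-- **(c)**, elementwise-radical form. -/
theorem exists_inertiaAct_chartB_of_hrad [FiniteDimensional K1 E] [Normal K1 E]
    [FiniteDimensional K1⟮J⟯ F1]
    (hrad : ∀ b : ↥(S18.H40.chartB A1 J),
      (∃ n : ℕ, algebraMap A1 ↥(S18.H40.chartB A1 J) ((ℓ : ℕ) : A1) ∣ b ^ n) →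
        algebraMap A1 ↥(S18.H40.chartB A1 J) ((ℓ : ℕ) : A1) ∣ b)
    (σ : Qbar ≃ₐ[ℚ] Qbar) (hσ : σ ∈ A.inertiaSubgroupIn ℚ)
    (π : A2) (hπ : maximalIdeal A2 = Ideal.span {π}) :
    ∃ sS : ↥(S18.H40.chartB A2 (H45.baseChangeE E N J)) ≃+*
        ↥(S18.H40.chartB A2 (H45.baseChangeE E N J)),
      (∀ x : ↥(S18.H40.chartB A2 (H45.baseChangeE E N J)),
        H45.inertiaActFullC hℓ hA E N σ hσ (x : F2) = (sS x : F2)) ∧
      ∀ x : ↥(S18.H40.chartB A2 (H45.baseChangeE E N J)),
        sS x - x ∈ Ideal.span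
          {algebraMap A2 ↥(S18.H40.chartB A2 (H45.baseChangeE E N J)) π} :=
  haveI := isReduced_quotient_span_of_forall _ hrad
  exists_inertiaAct_chartB hℓ hA E N J σ hσ π hπ

end Concrete

end Fermat.Agent.S34.H40
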