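import Mathlib
import Fermat.Agent.S34.H40_BaseChangeAutRad
import Fermat.Agent.S34.H95_ChartBC

/-!
# S34, row (R-a3b): (a)' and (c) at the pinned coordinate `J = j · j_q` and its inverse (helper40)

The theorems of `S34/H40_BaseChangeAutRad` at `J := H95.JK K₁ N q hq` and `J⁻¹`, with the
`E`-level chart written directly as `chartB A'' (H95.JK ↥E N q hq)^(±1)` (no rewriting along
`H95.baseChangeE_JK(_inv)` left to the caller) and the instance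
`FiniteDimensional K₁⟮J^(±1)⟯ F₁` discharged.  `mem_chartB_JK_iff`, `mem_chartB_JK_inv_iff` are
`hmem₁`, `hmem₂` of `H61.middle_of_chartPkg` VERBATIM.
-/

set_option autoImplicit false
set_option linter.unusedSectionVars false
set_option linter.style.haveILetI false
set_option synthInstance.maxHeartbeats 400000
set_option maxHeartbeats 4000000
set_option warn.classDefReducibility false

namespace Fermat.Agent.S34.H40

open IsLocalRing ModularCurve HahnSeries IntermediateField Polynomial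
open Fermat.Agent.S18 Fermat.Agent.S18.H45

noncomputable section

local notation "Qbar" => AlgebraicClosure ℚ

variable {A : ValuationSubring Qbar} {ℓ : ℕ} (hℓ : ℓ.Prime) (hA : A.LiesOverPrime ℓ)
variable (E : IntermediateField (unrCyclo ℓ) Qbar) [FiniteDimensional (unrCyclo ℓ) E]
variable (N : ℕ) [NeZero N] (q : ℕ) [NeZero q] (hq : q ∣ N)

include hℓ hA in
/-- **(a)' at `J`**: `hmem₁` of `H61.middle_of_chartPkg`. -/
theorem mem_chartB_JK_iff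
    (hradB : ∀ b : ↥(S18.H40.chartB (A0 A ℓ) (H95.JK (unrCyclo ℓ) N q hq)),
      (∃ n : ℕ, algebraMap (A0 A ℓ) ↥(S18.H40.chartB (A0 A ℓ) (H95.JK (unrCyclo ℓ) N q hq))
          ((ℓ : ℕ) : A0 A ℓ) ∣ b ^ n) →
        algebraMap (A0 A ℓ) ↥(S18.H40.chartB (A0 A ℓ) (H95.JK (unrCyclo ℓ) N q hq))
          ((ℓ : ℕ) : A0 A ℓ) ∣ b)
    (z : modularFunctionFieldFullC ↥E N) :
    z ∈ S18.H40.chartB (cutOver A E) (H95.JK ↥E N q hq) ↔
      z ∈ Subring.closure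
        (Set.range (fun b : ↥(S18.H40.chartB (A0 A ℓ) (H95.JK (unrCyclo ℓ) N q hq)) =>
            baseChangeE E N (b : modularFunctionFieldFullC (unrCyclo ℓ) N)) ∪
          Set.range (algebraMap (cutOver A E) (modularFunctionFieldFullC ↥E N))) := by
  haveI := H95.finiteDimensional_JK (unrCyclo ℓ) N q hq (H99.natCast_ne_zero₀ N (unrCyclo ℓ))
  have h := mem_chartB_cutOver_iff_of_hrad hℓ hA E N (H95.JK (unrCyclo ℓ) N q hq) hradB z
  rwa [H95.baseChangeE_JK] at h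

include hℓ hA in
/-- **(a)' at `J⁻¹`**: `hmem₂` of `H61.middle_of_chartPkg`. -/
theorem mem_chartB_JK_inv_iff
    (hradB : ∀ b : ↥(S18.H40.chartB (A0 A ℓ) (H95.JK (unrCyclo ℓ) N q hq)⁻¹),
      (∃ n : ℕ, algebraMap (A0 A ℓ) ↥(S18.H40.chartB (A0 A ℓ) (H95.JK (unrCyclo ℓ) N q hq)⁻¹)
          ((ℓ : ℕ) : A0 A ℓ) ∣ b ^ n) →
        algebraMap (A0 A ℓ) ↥(S18.H40.chartB (A0 A ℓ) (H95.JK (unrCyclo ℓ) N q hq)⁻¹)
          ((ℓ : ℕ) : A0 A ℓ) ∣ b)
    (z : modularFunctionFieldFullC ↥E N) :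
    z ∈ S18.H40.chartB (cutOver A E) (H95.JK ↥E N q hq)⁻¹ ↔
      z ∈ Subring.closure
        (Set.range (fun b : ↥(S18.H40.chartB (A0 A ℓ) (H95.JK (unrCyclo ℓ) N q hq)⁻¹) =>
            baseChangeE E N (b : modularFunctionFieldFullC (unrCyclo ℓ) N)) ∪
          Set.range (algebraMap (cutOver A E) (modularFunctionFieldFullC ↥E N))) := by
  haveI := H95.finiteDimensional_JK_inv (unrCyclo ℓ) N q hq
    (H99.natCast_ne_zero₀ N (unrCyclo ℓ))
  have h := mem_chartB_cutOver_iff_of_hrad hℓ hA E N (H95.JK (unrCyclo ℓ) N q hq)⁻¹ hradB z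
  rwa [H95.baseChangeE_JK_inv] at h

include hℓ hA in
/-- **(c) at `J`**: `sB`, `hsB`, `hsπ` of `H56.chartPkg_of_chartBC` at the chart
`chartB A'' (JK ↥E N q hq)`. -/
theorem exists_inertiaAct_chartB_JK [Normal (unrCyclo ℓ) E]
    (hradB : ∀ b : ↥(S18.H40.chartB (A0 A ℓ) (H95.JK (unrCyclo ℓ) N q hq)),
      (∃ n : ℕ, algebraMap (A0 A ℓ) ↥(S18.H40.chartB (A0 A ℓ) (H95.JK (unrCyclo ℓ) N q hq))
          ((ℓ : ℕ) : A0 A ℓ) ∣ b ^ n) →
        algebraMap (A0 A ℓ) ↥(S18.H40.chartB (A0 A ℓ) (H95.JK (unrCyclo ℓ) N q hq))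
          ((ℓ : ℕ) : A0 A ℓ) ∣ b)
    (σ : Qbar ≃ₐ[ℚ] Qbar) (hσ : σ ∈ A.inertiaSubgroupIn ℚ)
    (π : cutOver A E) (hπ : maximalIdeal (cutOver A E) = Ideal.span {π}) :
    ∃ sS : ↥(S18.H40.chartB (cutOver A E) (H95.JK ↥E N q hq)) ≃+*
        ↥(S18.H40.chartB (cutOver A E) (H95.JK ↥E N q hq)),
      (∀ x : ↥(S18.H40.chartB (cutOver A E) (H95.JK ↥E N q hq)),
        inertiaActFullC hℓ hA E N σ hσ (x : modularFunctionFieldFullC ↥E N) =
          (sS x : modularFunctionFieldFullC ↥E N)) ∧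
      ∀ x : ↥(S18.H40.chartB (cutOver A E) (H95.JK ↥E N q hq)),
        sS x - x ∈ Ideal.span
          {algebraMap (cutOver A E) ↥(S18.H40.chartB (cutOver A E) (H95.JK ↥E N q hq)) π} := by
  haveI := H95.finiteDimensional_JK (unrCyclo ℓ) N q hq (H99.natCast_ne_zero₀ N (unrCyclo ℓ))
  have h := exists_inertiaAct_chartB_of_hrad hℓ hA E N (H95.JK (unrCyclo ℓ) N q hq) hradB
    σ hσ π hπ
  rwa [H95.baseChangeE_JK] at h

include hℓ hA in
/-- **(c) at `J⁻¹`**. -/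
theorem exists_inertiaAct_chartB_JK_inv [Normal (unrCyclo ℓ) E]
    (hradB : ∀ b : ↥(S18.H40.chartB (A0 A ℓ) (H95.JK (unrCyclo ℓ) N q hq)⁻¹),
      (∃ n : ℕ, algebraMap (A0 A ℓ) ↥(S18.H40.chartB (A0 A ℓ) (H95.JK (unrCyclo ℓ) N q hq)⁻¹)
          ((ℓ : ℕ) : A0 A ℓ) ∣ b ^ n) →
        algebraMap (A0 A ℓ) ↥(S18.H40.chartB (A0 A ℓ) (H95.JK (unrCyclo ℓ) N q hq)⁻¹)
          ((ℓ : ℕ) : A0 A ℓ) ∣ b)
    (σ : Qbar ≃ₐ[ℚ] Qbar) (hσ : σ ∈ A.inertiaSubgroupIn ℚ)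
    (π : cutOver A E) (hπ : maximalIdeal (cutOver A E) = Ideal.span {π}) :
    ∃ sS : ↥(S18.H40.chartB (cutOver A E) (H95.JK ↥E N q hq)⁻¹) ≃+*
        ↥(S18.H40.chartB (cutOver A E) (H95.JK ↥E N q hq)⁻¹),
      (∀ x : ↥(S18.H40.chartB (cutOver A E) (H95.JK ↥E N q hq)⁻¹),
        inertiaActFullC hℓ hA E N σ hσ (x : modularFunctionFieldFullC ↥E N) =
          (sS x : modularFunctionFieldFullC ↥E N)) ∧
      ∀ x : ↥(S18.H40.chartB (cutOver A E) (H95.JK ↥E N q hq)⁻¹),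
        sS x - x ∈ Ideal.span
          {algebraMap (cutOver A E) ↥(S18.H40.chartB (cutOver A E) (H95.JK ↥E N q hq)⁻¹) π} := by
  haveI := H95.finiteDimensional_JK_inv (unrCyclo ℓ) N q hq
    (H99.natCast_ne_zero₀ N (unrCyclo ℓ))
  have h := exists_inertiaAct_chartB_of_hrad hℓ hA E N (H95.JK (unrCyclo ℓ) N q hq)⁻¹ hradB
    σ hσ π hπ
  rwa [H95.baseChangeE_JK_inv] at h

end

end Fermat.Agent.S34.H40
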