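import Mathlib
import Fermat.Agent.S34.H16_RelDeg

/-!
S34 / L0 (helper16): INTEGRAL form of cut (R+D). For a subring-like `O → F_M` (e.g. the level-`M`
Gauss valuation ring `V_M`) containing `j_M`, the polynomial `f := Φ_q(j_M, Y) ∈ O[Y]`
(`f = D.Φ.map φ`, `φ : ℤ[X] →+* O`, `φ X = j_M`) satisfies the hypotheses `hθ`, `hmin` of
`CA.H99.nonempty_placeOver` at `θ := j_N ∈ F_N` (`N = q * M`, `q ∤ M`); `hgen` is
`S34.H16.algebra_adjoin_jNK_over_eq_top`.
-/

set_option autoImplicit false
set_option linter.unusedSectionVars false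
set_option linter.style.haveILetI false
set_option synthInstance.maxHeartbeats 400000

noncomputable section

namespace Fermat.Agent.S34.H16

open ModularCurve HahnSeries Polynomial IntermediateField Fermat.Agent.S28

section Integral

variable (K : Type) [Field K] (M N : ℕ) [NeZero M] [NeZero N]
variable {O : Type*} [CommRing O] [Algebra O (modularFunctionFieldFullC K M)]

/-- `f.map (O → F_M) = Φ_q(j_M, Y)` for `f := D.Φ.map φ`, `φ X = j_M`. -/
theorem map_map_eq_relPoly (q : ℕ) [NeZero q] (D : ModularPolynomialData q) (φ : ℤ[X] →+* O)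
    (hφ : algebraMap O (modularFunctionFieldFullC K M) (φ X) = S18.H16.jNK K M) :
    (D.Φ.map φ).map (algebraMap O (modularFunctionFieldFullC K M)) = relPoly K M q D := by
  rw [Polynomial.map_map, relPoly]
  congr 1
  apply S28.H50.ringHom_X_ext
  rw [RingHom.comp_apply, hφ, evalF_X]

/-- `hθ`, `eval₂` form: `f(j_N) = 0` in `F_N`. -/
theorem eval₂_jNK_map_eq_zero (h : M ∣ N) (q : ℕ) [NeZero q] (hN : N = q * M)
    (D : ModularPolynomialData q) (φ : ℤ[X] →+* O)
    (hφ : algebraMap O (modularFunctionFieldFullC K M) (φ X) = S18.H16.jNK K M) :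
    letI := degAlgebra K M N h
    (D.Φ.map φ).eval₂ ((algebraMap (modularFunctionFieldFullC K M)
      (modularFunctionFieldFullC K N)).comp (algebraMap O (modularFunctionFieldFullC K M)))
      (S18.H16.jNK K N) = 0 := by
  letI := degAlgebra K M N h
  rw [← Polynomial.eval₂_map, map_map_eq_relPoly K M q D φ hφ, ← Polynomial.aeval_def]
  exact aeval_jNK_relPoly K M N h q hN D

/-- `hmin`, `eval₂` form: a polynomial over `O` killing `j_N` is a multiple of `f`. -/
theorem map_dvd_of_eval₂_jNK_eq_zero (h : M ∣ N) (q : ℕ) [NeZero q] (hq : q.Prime)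
    (hqM : ¬ q ∣ M) (hN : N = q * M) (hNK : ((N : ℕ) : K) ≠ 0) (D : ModularPolynomialData q)
    (hinj : Function.Injective (algebraMap O (modularFunctionFieldFullC K M)))
    (φ : ℤ[X] →+* O)
    (hφ : algebraMap O (modularFunctionFieldFullC K M) (φ X) = S18.H16.jNK K M) (p : O[X]) :
    letI := degAlgebra K M N h
    p.eval₂ ((algebraMap (modularFunctionFieldFullC K M)
      (modularFunctionFieldFullC K N)).comp (algebraMap O (modularFunctionFieldFullC K M)))
      (S18.H16.jNK K N) = 0 → D.Φ.map φ ∣ p := by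
  letI := degAlgebra K M N h
  intro hp
  rw [← Polynomial.eval₂_map, ← Polynomial.aeval_def] at hp
  have h1 := relPoly_dvd_of_aeval_eq_zero K M N h q hq hqM hN hNK D _ hp
  rw [← map_map_eq_relPoly K M q D φ hφ] at h1
  exact (Polynomial.map_dvd_map _ hinj (D.monic.map φ)).1 h1

variable [Algebra O (modularFunctionFieldFullC K N)]

/-- `hθ` in the `aeval` shape of `CA.H99.nonempty_placeOver` (`O := V_M`, `K := F_M`, `L := F_N`,
`θ := j_N`, `f := D.Φ.map φ`). The tower hypothesis is taken w.r.t. `degAlgebra`. -/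
theorem aeval_jNK_map_eq_zero (h : M ∣ N) (q : ℕ) [NeZero q] (hN : N = q * M)
    (D : ModularPolynomialData q) (φ : ℤ[X] →+* O)
    (hφ : algebraMap O (modularFunctionFieldFullC K M) (φ X) = S18.H16.jNK K M)
    (htower : letI := degAlgebra K M N h
      IsScalarTower O (modularFunctionFieldFullC K M) (modularFunctionFieldFullC K N)) :
    Polynomial.aeval (S18.H16.jNK K N) (D.Φ.map φ) = 0 := by
  letI := degAlgebra K M N h
  haveI := htower
  rw [Polynomial.aeval_def, IsScalarTower.algebraMap_eq O (modularFunctionFieldFullC K M)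
    (modularFunctionFieldFullC K N)]
  exact eval₂_jNK_map_eq_zero K M N h q hN D φ hφ

/-- `hmin` in the `aeval` shape of `CA.H99.nonempty_placeOver`. -/
theorem map_dvd_of_aeval_jNK_eq_zero (h : M ∣ N) (q : ℕ) [NeZero q] (hq : q.Prime)
    (hqM : ¬ q ∣ M) (hN : N = q * M) (hNK : ((N : ℕ) : K) ≠ 0) (D : ModularPolynomialData q)
    (hinj : Function.Injective (algebraMap O (modularFunctionFieldFullC K M)))
    (φ : ℤ[X] →+* O)
    (hφ : algebraMap O (modularFunctionFieldFullC K M) (φ X) = S18.H16.jNK K M)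
    (htower : letI := degAlgebra K M N h
      IsScalarTower O (modularFunctionFieldFullC K M) (modularFunctionFieldFullC K N)) :
    ∀ p : O[X], Polynomial.aeval (S18.H16.jNK K N) p = 0 → D.Φ.map φ ∣ p := by
  letI := degAlgebra K M N h
  haveI := htower
  intro p hp
  rw [Polynomial.aeval_def, IsScalarTower.algebraMap_eq O (modularFunctionFieldFullC K M)
    (modularFunctionFieldFullC K N)] at hp
  exact map_dvd_of_eval₂_jNK_eq_zero K M N h q hq hqM hN hNK D hinj φ hφ p hp

end Integral

end Fermat.Agent.S34.H16
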