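import Mathlib
import Fermat.Agent.S34.H16_RelDegInt
import Fermat.Agent.CA.H99_TwoPlacesThm
import Fermat.Agent.S34.H6_KroneckerAt

/-!
S34 / L0 (helper16): the SEAM CHECK of the Kummer–Dedekind instance, compiled against the real
exports. For ANY discrete valuation ring `O` with fraction field `F_M = FullC K M`, residue
characteristic `q`, containing `y` with `y = j_M` (instance: `O = V_M`, the level-`M` Gauss ring),
and an embedding `ρ` of the residue field of `O` into a Laurent series field in which `ȳ` has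
order prime to `q`, the field `F_N = FullC K N` (`N = q * M`, `q ∤ M`) carries

* `nonempty_placeOver_infty` : a place `PlaceOver ϖ j_N ι θb` for every `ι : O →+* Fk` killing `ϖ`
  and `θb = ι y ^ q`   (factor `Y - y^q` of `Φ_q(y, Y)` mod `q`);
* `nonempty_placeOver_zero` : a place `PlaceOver ϖ j_N ι θb` for every `ι` killing `ϖ` and every
  `θb` with `θb ^ q = ι y`   (factor `Y^q - y`).

Inputs: `CA.H99.nonempty_placeOver` (helper99), `S34.H6_KroneckerAt` (helper6),
`S34.H16_RelDeg/RelDegInt` (`hθ`, `hmin`, `hgen`).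
-/

set_option autoImplicit false
set_option linter.unusedSectionVars false
set_option linter.style.haveILetI false
set_option synthInstance.maxHeartbeats 400000

noncomputable section

namespace Fermat.Agent.S34.H16

open ModularCurve Polynomial IsLocalRing Fermat.Agent.S28

section TwoPlaces

variable (K : Type) [Field K] (M N : ℕ) [NeZero M] [NeZero N] (h : M ∣ N)
  (q : ℕ) [Fact q.Prime] [NeZero q] (hqM : ¬ q ∣ M) (hN : N = q * M) (hNK : ((N : ℕ) : K) ≠ 0)
  (D : ModularPolynomialData q)
  (hD : ∀ (k : Type) [Field k] (ζ : kˣ), IsPrimitiveRoot ζ q → RootsAt k q ζ D.Φ)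
  {O : Type*} [CommRing O] [IsDomain O] [IsDiscreteValuationRing O]
  [CharP (ResidueField O) q]
  [Algebra O (modularFunctionFieldFullC K M)] [IsFractionRing O (modularFunctionFieldFullC K M)]
  [Algebra O (modularFunctionFieldFullC K N)]
  (htower : letI := degAlgebra K M N h
    IsScalarTower O (modularFunctionFieldFullC K M) (modularFunctionFieldFullC K N))
  (φ : ℤ[X] →+* O)
  (hφ : algebraMap O (modularFunctionFieldFullC K M) (φ X) = S18.H16.jNK K M)
  {k : Type*} [CommRing k] [IsDomain k] (ρ : ResidueField O →+* LaurentSeries k)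
  (hord : ¬ (q : ℤ) ∣ (ρ (residue O (φ X))).order)
  {ϖ : O} (hϖ : maximalIdeal O = Ideal.span {ϖ})
  {Fk : Type*} [Field Fk] (ι : O →+* Fk) (hιϖ : ι ϖ = 0)

include hqM hN hNK hD htower hφ hord hϖ hιϖ

theorem residue_pow_ne_self : residue O (φ X) ^ (q * q) ≠ residue O (φ X) := by
  refine S34.H6.pow_ne_self_of_order q (Fact.out : q.Prime).two_le ρ _ ?_
  intro h0
  exact hord (h0 ▸ dvd_zero _)

/-- The place of `F_N` over `O` belonging to the factor `Y - y^q` (the "`∞`-component"). -/
theorem nonempty_placeOver_infty (θb : Fk) (hθb : θb = ι (φ X) ^ q) :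
    letI := degAlgebra K M N h
    Nonempty (CA.H99.PlaceOver (L := modularFunctionFieldFullC K N) ϖ (S18.H16.jNK K N) ι θb) := by
  letI := degAlgebra K M N h
  haveI := htower
  have hq : q.Prime := Fact.out
  refine CA.H99.nonempty_placeOver (K := modularFunctionFieldFullC K M)
    (f := D.Φ.map φ) (g := X - C (φ X ^ q)) (h := X ^ q - C (φ X)) (D.monic.map φ)
    (S34.H6.map_map_kronecker q D hD φ (residue O))
    (S34.H6.irreducible_map_X_sub_C (residue O) _)
    (S34.H6.isCoprime_map_of_ne (residue O) q (φ X)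
      (residue_pow_ne_self K M N h q hqM hN hNK D hD htower φ hφ ρ hord hϖ ι hιϖ))
    hϖ (S18.H16.jNK K N)
    (aeval_jNK_map_eq_zero K M N h q hN D φ hφ htower)
    (map_dvd_of_aeval_jNK_eq_zero K M N h q hq hqM hN hNK D
      (IsFractionRing.injective O _) φ hφ htower)
    (algebra_adjoin_jNK_over_eq_top K M N h q hN hNK)
    ι hιϖ θb ?_
  rw [eval₂_sub, eval₂_X, eval₂_C, hθb, map_pow, sub_self]

/-- The place of `F_N` over `O` belonging to the factor `Y^q - y` (the "`0`-component"). -/
theorem nonempty_placeOver_zero (θb : Fk) (hθb : θb ^ q = ι (φ X)) :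
    letI := degAlgebra K M N h
    Nonempty (CA.H99.PlaceOver (L := modularFunctionFieldFullC K N) ϖ (S18.H16.jNK K N) ι θb) := by
  letI := degAlgebra K M N h
  haveI := htower
  have hq : q.Prime := Fact.out
  refine CA.H99.nonempty_placeOver (K := modularFunctionFieldFullC K M)
    (f := D.Φ.map φ) (g := X ^ q - C (φ X)) (h := X - C (φ X ^ q)) (D.monic.map φ)
    (S34.H6.map_map_kronecker' q D hD φ (residue O))
    (S34.H6.irreducible_map_X_pow_sub_C_of_order (residue O) q hq ρ (φ X) hord)
    (S34.H6.isCoprime_map_of_ne' (residue O) q (φ X)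
      (residue_pow_ne_self K M N h q hqM hN hNK D hD htower φ hφ ρ hord hϖ ι hιϖ))
    hϖ (S18.H16.jNK K N)
    (aeval_jNK_map_eq_zero K M N h q hN D φ hφ htower)
    (map_dvd_of_aeval_jNK_eq_zero K M N h q hq hqM hN hNK D
      (IsFractionRing.injective O _) φ hφ htower)
    (algebra_adjoin_jNK_over_eq_top K M N h q hN hNK)
    ι hιϖ θb ?_
  rw [eval₂_sub, eval₂_pow, eval₂_X, eval₂_C, hθb, sub_self]

end TwoPlaces

end Fermat.Agent.S34.H16
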