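import Fermat.Agent.S34.H36_VSub
import Fermat.Agent.S37.H59_FrobLaurent

/-!
# S34 (L0): the reduction of `V_q` in characteristic `q`  (helper36)

In characteristic `q` the substitution `f(t) ↦ f(t^q)` is `f ↦ (f^{σ⁻¹})^q` (`σ` = Frobenius on the
coefficients), so it maps each `k(j(t^d) : d ∣ M)` into ITSELF:

* `qExpand_jd_char` : `j(t^(q d)) = j(t^d)^q` over any ring of characteristic `q`;
* `qExpand_mem_fullC_char` : `f ∈ F_k(M) ⟹ f(t^q) ∈ F_k(M)` (any field `k` of char `q`);
* `frobLin k q M : F_k(M) →ₐ[k] F_k(M)`, `f(t) ↦ f(t^q)` — the `k`-LINEAR Frobenius: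
  `frobLin_jK : Fr j = j^q`, `frobLin_jNK : Fr j_M = j_M^q`, `frobLin_jdK`, `coe_frobLin`,
  `frobLin_injective`; `frobLin_eq_pow_fullCMap` (`k` perfect): `Fr x = (σ⁻¹ x)^q`;
* `fullC_char_mul` : `F_k(q M) = F_k(M)` as subfields of `k((t))`;
* `fullCMap_vSub_eq_frobLin` : the coefficientwise reduction of `V_q : F(M) → F(qM)` along
  `f : K → k` (char `k = q`) is `Fr ∘ (reduction)`, read inside `k((t))`.
-/

set_option autoImplicit false
set_option linter.unusedSectionVars false
set_option linter.style.haveILetI false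

noncomputable section

namespace Fermat.Agent.S34.H36

open ModularCurve HahnSeries IntermediateField Fermat.Agent.S18

section Ring

variable (R : Type*) [CommRing R] (q : ℕ) [hq : Fact q.Prime] [CharP R q]

/-- `j(t^(q d)) = j(t^d)^q` in characteristic `q`. -/
theorem qExpand_jd_char (d : ℕ) [NeZero d] :
    haveI : NeZero q := ⟨hq.out.ne_zero⟩
    qExpand R q (qExpand R d (jqModC R)) = (qExpand R d (jqModC R)) ^ q := by
  haveI : NeZero q := ⟨hq.out.ne_zero⟩
  rw [S37.H59.pow_char_eq_qExpand_frobenius q, coeffMap_qExpand, coeffMap_jqModC]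

end Ring

section Field

variable (k : Type*) [Field k] (q : ℕ) [hq : Fact q.Prime] [CharP k q] (M : ℕ) [NeZero M]

/-- In characteristic `q`, `t ↦ t^q` maps `k(j(t^d) : d ∣ M)` into itself. -/
theorem qExpand_mem_fullC_char {x : LaurentSeries k} (hx : x ∈ modularFunctionFieldFullC k M) :
    haveI : NeZero q := ⟨hq.out.ne_zero⟩
    qExpand k q x ∈ modularFunctionFieldFullC k M := by
  haveI : NeZero q := ⟨hq.out.ne_zero⟩
  unfold modularFunctionFieldFullC at hx
  induction hx using IntermediateField.adjoin_induction with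
  | mem y hy =>
      obtain ⟨d, hne, hd, rfl⟩ := hy
      have := hne
      rw [qExpand_jd_char k q d]
      exact pow_mem (jqModCd_mem_full k M hd) q
  | algebraMap r =>
      have : qExpand k q (algebraMap k (LaurentSeries k) r) = algebraMap k (LaurentSeries k) r :=
        (qExpandAlgHomC k q).commutes r
      rw [this]
      exact IntermediateField.algebraMap_mem _ _
  | add y z _ _ hy hz => rw [map_add]; exact add_mem hy hz
  | inv y _ hy => rw [map_inv₀]; exact inv_mem hy
  | mul y z _ _ hy hz => rw [map_mul]; exact mul_mem hy hz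

/-- **The `k`-linear Frobenius of `F_k(M)`**: `f(t) ↦ f(t^q)` (= the reduction of `V_q`). -/
def frobLin : modularFunctionFieldFullC k M →ₐ[k] modularFunctionFieldFullC k M :=
  haveI : NeZero q := ⟨hq.out.ne_zero⟩
  ((qExpandAlgHomC k q).comp (modularFunctionFieldFullC k M).val).codRestrict
    (modularFunctionFieldFullC k M).toSubalgebra
    (fun x => qExpand_mem_fullC_char k q M x.2)

@[simp] theorem coe_frobLin (x : modularFunctionFieldFullC k M) :
    haveI : NeZero q := ⟨hq.out.ne_zero⟩
    ((frobLin k q M x : modularFunctionFieldFullC k M) : LaurentSeries k) =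
      qExpand k q (x : LaurentSeries k) := rfl

theorem frobLin_injective : Function.Injective (frobLin k q M) :=
  (frobLin k q M).toRingHom.injective

theorem frobLin_jdK (d : ℕ) [NeZero d] (hd : d ∣ M) :
    frobLin k q M (H99.jdK k M d hd) = H99.jdK k M d hd ^ q := by
  haveI : NeZero q := ⟨hq.out.ne_zero⟩
  apply Subtype.ext
  rw [coe_frobLin, H99.coe_jdK]
  exact qExpand_jd_char k q d

theorem frobLin_jNK : frobLin k q M (H16.jNK k M) = H16.jNK k M ^ q := by
  rw [← H99.jdK_self]
  exact frobLin_jdK k q M M dvd_rfl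

theorem frobLin_jK : frobLin k q M (H16.jK k M) = H16.jK k M ^ q := by
  rw [← H99.jdK_one]
  exact frobLin_jdK k q M 1 (one_dvd M)

/-- For perfect `k`: `Fr x = (σ⁻¹ x)^q`, `σ⁻¹` the inverse Frobenius on coefficients. -/
theorem coe_frobLin_eq_pow [PerfectRing k q] (x : modularFunctionFieldFullC k M) :
    ((frobLin k q M x : modularFunctionFieldFullC k M) : LaurentSeries k) =
      (coeffMap ((frobeniusEquiv k q).symm : k →+* k) (x : LaurentSeries k)) ^ q := by
  haveI : NeZero q := ⟨hq.out.ne_zero⟩
  rw [coe_frobLin, S37.H59.pow_char_eq_qExpand_frobenius q, coeffMap_coeffMap]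
  congr 1
  have : (frobenius k q).comp ((frobeniusEquiv k q).symm : k →+* k) = RingHom.id k := by
    ext c
    simp
  rw [this, coeffMap_id]

theorem frobLin_eq_pow_fullCMap [PerfectRing k q] (x : modularFunctionFieldFullC k M) :
    frobLin k q M x = (H99.fullCMap ((frobeniusEquiv k q).symm : k →+* k) M x) ^ q := by
  apply Subtype.ext
  rw [coe_frobLin_eq_pow]
  rfl

end Field

section LevelChar

variable (k : Type*) [Field k] (q : ℕ) [hq : Fact q.Prime] [CharP k q] (M : ℕ) [NeZero M]

/-- **`F_k(q M) = F_k(M)` in characteristic `q`** (as subfields of `k((t))`). -/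
theorem fullC_char_mul [NeZero (q * M)] :
    modularFunctionFieldFullC k (q * M) = modularFunctionFieldFullC k M := by
  haveI : NeZero q := ⟨hq.out.ne_zero⟩
  apply le_antisymm
  · unfold modularFunctionFieldFullC
    rw [IntermediateField.adjoin_le_iff]
    rintro x ⟨e, hne, he, rfl⟩
    have := hne
    by_cases heM : e ∣ M
    · exact jqModCd_mem_full k M heM
    · -- `q ∣ e` and `e / q ∣ M`
      have hqe : q ∣ e := by
        by_contra hqe
        exact heM ((Nat.Coprime.dvd_mul_left
          ((Nat.Prime.coprime_iff_not_dvd hq.out).2 hqe).symm).1 he)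
      obtain ⟨d, rfl⟩ := hqe
      have hd0 : d ≠ 0 := fun h => by
        rw [h, mul_zero] at hne
        exact NeZero.ne 0 rfl
      haveI : NeZero d := ⟨hd0⟩
      have hdM : d ∣ M := (Nat.mul_dvd_mul_iff_left hq.out.pos).1 he
      rw [← qExpand_qExpand, qExpand_jd_char k q d]
      exact pow_mem (subset_adjoin k _ (mem_divisorExpansionsC k M hdM)) q
  · unfold modularFunctionFieldFullC
    apply IntermediateField.adjoin.mono
    rintro x ⟨d, hne, hd, rfl⟩
    exact ⟨d, hne, hd.mul_left q, rfl⟩

end LevelChar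

section Reduction

variable {K : Type*} [Field K] (k : Type*) [Field k] (f : K →+* k)
  (q : ℕ) [hq : Fact q.Prime] [CharP k q] (M N : ℕ) [NeZero M] [NeZero N]

/-- The coefficientwise image of `V_q x` is `Fr` of the coefficientwise image of `x`
(compared inside `k((t))`): reduction turns `V_q : F(M) → F(N)` into the linear Frobenius. -/
theorem coe_fullCMap_vSub_eq_frobLin (h : q * M ∣ N) (x : modularFunctionFieldFullC K M) :
    haveI : NeZero q := ⟨hq.out.ne_zero⟩
    ((H99.fullCMap f N (vSub K q M N h x) : modularFunctionFieldFullC k N) : LaurentSeries k) =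
      ((frobLin k q M (H99.fullCMap f M x) : modularFunctionFieldFullC k M) : LaurentSeries k) := by
  haveI : NeZero q := ⟨hq.out.ne_zero⟩
  rw [fullCMap_vSub, coe_vSub, coe_frobLin]

end Reduction

end Fermat.Agent.S34.H36
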