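import Mathlib
import Fermat.Agent.S18.H92_GaussModel
import Fermat.Agent.S18.H45_DVRGeneric

/-!
# S34 / L0 (T), generic part (helper92): more on the Gauss valuation ring of a two-generator field

On top of `S18.H92_GaussModel` (`TwoGen A π`, `ball`, `unitBall`, `resHom`):

* `exists_repr_L` : every `f ∈ L(x,y)` satisfies `f * s₀(x) = g₀(x,y)` with `s₀ ∈ L[X]` nonzero and
  `g₀ ∈ L[X][Y]` of `Y`-degree `< n`;
* `exists_repr`  : **(T4)** every `f` in the ball satisfies `f * s(x) = g(x,y)` with `s ∈ A[X]`,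
  `s̄ ≠ 0`, `g ∈ A[X][Y]`;
* `exists_associated_pow`, `isDiscreteValuationRing_unitBall`, `maximalIdeal_unitBall` : **(T1)** if
  every nonzero element of `A` is a unit times a power of `ϖ`, the Gauss ring is a DVR with
  uniformiser `ϖ`;
* `resHom_eq_zero_iff_dvd` : **(T2)** the kernel of the reduction is `(ϖ)`.
-/

set_option autoImplicit false

noncomputable section

namespace Fermat.Agent.S34.H92

open ModularCurve Polynomial IntermediateField
open Fermat.Agent.S18.H92

variable {L : Type*} [Field L] {k : Type*} [Field k] {A : ValuationSubring L} {π : A →+* k}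
  (T : TwoGen A π)

/-! ### 0. small facts -/

theorem n_pos : 0 < T.n := by
  by_contra h
  have hn : T.n = 0 := by omega
  have h1 : T.Φ = 1 := by
    have := T.monic
    have hd : T.Φ.natDegree = 0 := by rw [T.natDegree_eq, hn]
    exact Polynomial.eq_one_of_monic_natDegree_zero this hd
  have h2 := T.root
  rw [h1, map_one] at h2
  exact one_ne_zero h2

/-- `x` is transcendental over `L`: a nonzero one-variable polynomial does not kill `x_L`. -/
theorem aeval_xL_ne_zero {p : L[X]} (hp : p ≠ 0) : Polynomial.aeval T.xL p ≠ 0 := by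
  intro h0
  have hP : (C p : L[X][X]) ≠ 0 := by simpa using hp
  have hdeg : (C p : L[X][X]).degree < T.n := by
    rw [Polynomial.degree_C hp]
    exact_mod_cast n_pos T
  obtain ⟨c, hc, Q, hQ, hred⟩ := T.exists_scale_poly (C p) hP hdeg
  apply hred
  have h1 : up A (ev2 T.x T.y Q) = 0 := by
    rw [T.up_ev2, hQ, map_mul, ev2_C_C, ev2_C, h0, mul_zero]
  have h2 : ev2 T.x T.y Q = 0 := up_injective A (by rw [h1, map_zero])
  rw [h2, map_zero]

/-! ### 1. exact representation with a one-variable denominator -/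

/-- the set of `f` with `f * s₀(x) ∈ L[x,y]` for some nonzero `s₀`, as a subring. -/
def fracRing : Subring (LaurentSeries L) where
  carrier := {f | ∃ s0 : L[X], s0 ≠ 0 ∧ f * Polynomial.aeval T.xL s0 ∈ Algebra.adjoin L {T.xL, T.yL}}
  mul_mem' := by
    rintro f g ⟨s, hs, hf⟩ ⟨s', hs', hg⟩
    refine ⟨s * s', mul_ne_zero hs hs', ?_⟩
    have : f * g * Polynomial.aeval T.xL (s * s') =
        (f * Polynomial.aeval T.xL s) * (g * Polynomial.aeval T.xL s') := by
      rw [map_mul]; ring
    rw [this]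
    exact Subalgebra.mul_mem _ hf hg
  one_mem' := ⟨1, one_ne_zero, by simp [Subalgebra.one_mem]⟩
  add_mem' := by
    rintro f g ⟨s, hs, hf⟩ ⟨s', hs', hg⟩
    refine ⟨s * s', mul_ne_zero hs hs', ?_⟩
    have hx : ∀ p : L[X], Polynomial.aeval T.xL p ∈ Algebra.adjoin L {T.xL, T.yL} := fun p =>
      (Algebra.adjoin_mono (by simp : ({T.xL} : Set (LaurentSeries L)) ⊆ {T.xL, T.yL}))
        (Polynomial.aeval_mem_adjoin_singleton L T.xL)
    have : (f + g) * Polynomial.aeval T.xL (s * s') =
        (f * Polynomial.aeval T.xL s) * Polynomial.aeval T.xL s' +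
          (g * Polynomial.aeval T.xL s') * Polynomial.aeval T.xL s := by
      rw [map_mul]; ring
    rw [this]
    exact Subalgebra.add_mem _ (Subalgebra.mul_mem _ hf (hx _)) (Subalgebra.mul_mem _ hg (hx _))
  zero_mem' := ⟨1, one_ne_zero, by simp [Subalgebra.zero_mem]⟩
  neg_mem' := by
    rintro f ⟨s, hs, hf⟩
    exact ⟨s, hs, by rw [neg_mul]; exact Subalgebra.neg_mem _ hf⟩

theorem mem_fracRing {f : LaurentSeries L} : f ∈ fracRing T ↔
    ∃ s0 : L[X], s0 ≠ 0 ∧ f * Polynomial.aeval T.xL s0 ∈ Algebra.adjoin L {T.xL, T.yL} := Iff.rfl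

theorem mem_fracRing_of_mem_adjoin {f : LaurentSeries L}
    (hf : f ∈ Algebra.adjoin L {T.xL, T.yL}) : f ∈ fracRing T :=
  ⟨1, one_ne_zero, by simpa using hf⟩

theorem mem_fracRing_of_mem_adjoin_simple {e : LaurentSeries L} (he : e ∈ L⟮T.xL⟯) :
    e ∈ fracRing T := by
  obtain ⟨r, s, rfl⟩ := (IntermediateField.mem_adjoin_simple_iff L e).mp he
  have hx : ∀ p : L[X], Polynomial.aeval T.xL p ∈ Algebra.adjoin L {T.xL, T.yL} := fun p =>
    (Algebra.adjoin_mono (by simp : ({T.xL} : Set (LaurentSeries L)) ⊆ {T.xL, T.yL}))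
      (Polynomial.aeval_mem_adjoin_singleton L T.xL)
  by_cases hs : Polynomial.aeval T.xL s = 0
  · rw [hs, div_zero]; exact (fracRing T).zero_mem
  · have hs0 : s ≠ 0 := by
      rintro rfl
      exact hs (map_zero _)
    exact ⟨s, hs0, by rw [div_mul_cancel₀ _ hs]; exact hx r⟩

/-- `y_L` is integral over `L(x_L)`. -/
theorem isIntegral_yL : IsIntegral L⟮T.xL⟯ T.yL := by
  set φ : L[X] →+* L⟮T.xL⟯ :=
    (Polynomial.aeval (⟨T.xL, mem_adjoin_simple_self L T.xL⟩ : L⟮T.xL⟯) :
      L[X] →ₐ[L] L⟮T.xL⟯).toRingHom with hφ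
  refine ⟨T.ΦL.map φ, T.ΦL_monic.map φ, ?_⟩
  rw [Polynomial.eval₂_map]
  have hcomp : (algebraMap L⟮T.xL⟯ (LaurentSeries L)).comp φ =
      (Polynomial.aeval T.xL : L[X] →ₐ[L] LaurentSeries L).toRingHom := by
    apply Polynomial.ringHom_ext
    · intro a
      simp [hφ]
    · simp [hφ]
  rw [hcomp]
  exact T.ev2_ΦL

theorem FL_le_fracRing {f : LaurentSeries L} (hf : f ∈ T.FL) : f ∈ fracRing T := by
  have h1 : f ∈ (L⟮T.xL⟯⟮T.yL⟯).restrictScalars L := by
    rw [adjoin_simple_adjoin_simple]; exact hf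
  have h2 : f ∈ L⟮T.xL⟯⟮T.yL⟯ := h1
  have h3 : f ∈ (L⟮T.xL⟯⟮T.yL⟯).toSubalgebra := h2
  rw [adjoin_simple_toSubalgebra_of_isAlgebraic (isIntegral_yL T).isAlgebraic,
    Algebra.adjoin_singleton_eq_range_aeval] at h3
  obtain ⟨P, rfl⟩ := h3
  show Polynomial.aeval T.yL P ∈ fracRing T
  rw [Polynomial.aeval_eq_sum_range]
  refine Subring.sum_mem _ fun i _ => ?_
  rw [Algebra.smul_def]
  refine Subring.mul_mem _ (mem_fracRing_of_mem_adjoin_simple T (P.coeff i).2)
    (Subring.pow_mem _ (mem_fracRing_of_mem_adjoin T (Algebra.subset_adjoin (by simp))) i)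

/-- **Exact representation over `L`.** -/
theorem exists_repr_L {f : LaurentSeries L} (hf : f ∈ T.FL) :
    ∃ s0 : L[X], s0 ≠ 0 ∧ ∃ g0 : L[X][X], g0.degree < T.n ∧
      f * Polynomial.aeval T.xL s0 = ev2 T.xL T.yL g0 := by
  obtain ⟨s0, hs0, h⟩ := FL_le_fracRing T hf
  obtain ⟨g0, hdeg, hg0⟩ := T.exists_poly_of_mem h
  exact ⟨s0, hs0, g0, hdeg, hg0.symm⟩

/-! ### 2. (T4): elements of the ball have a one-variable denominator with nonzero reduction -/

/-- **(T4), generic.** -/
theorem exists_repr {f : LaurentSeries L} (hf : f ∈ T.FL) (hfb : f ∈ T.ball) :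
    ∃ (s : A[X]) (g : A[X][X]), s.map π ≠ 0 ∧ g.degree < T.n ∧
      f * up A (Polynomial.aeval T.x s) = up A (ev2 T.x T.y g) := by
  obtain ⟨s0, hs0, g0, hdeg, h⟩ := exists_repr_L T hf
  have hg0n : g0.coeff T.n = 0 := Polynomial.coeff_eq_zero_of_degree_lt hdeg
  set P : L[X][X] := C s0 * X ^ T.n + g0 with hPdef
  have hPn : P.coeff T.n = s0 := by
    rw [hPdef, Polynomial.coeff_add, Polynomial.coeff_C_mul, Polynomial.coeff_X_pow, if_pos rfl,
      mul_one, hg0n, add_zero]
  have hPi : ∀ i, i ≠ T.n → P.coeff i = g0.coeff i := by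
    intro i hi
    rw [hPdef, Polynomial.coeff_add, Polynomial.coeff_C_mul, Polynomial.coeff_X_pow, if_neg hi,
      mul_zero, zero_add]
  have hP : P ≠ 0 := by
    intro h0
    apply hs0
    rw [← hPn, h0, Polynomial.coeff_zero]
  obtain ⟨i, j, hij, hmax⟩ := exists_max_coeff A P hP
  set c := ((P.coeff i).coeff j)⁻¹ with hc
  have hc0 : c ≠ 0 := inv_ne_zero hij
  have hcoeff : ∀ i' j', ((C (C c) * P).coeff i').coeff j' = c * (P.coeff i').coeff j' := by
    intro i' j'
    rw [Polynomial.coeff_C_mul, Polynomial.coeff_C_mul]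
  obtain ⟨Q, hQ⟩ := exists_map_eq_of_coeff_mem A (C (C c) * P) (fun i' j' => by
    rw [hcoeff]; exact hmax i' j')
  have hQcoeff : ∀ i' j', (((Q.coeff i').coeff j' : A) : L) = c * (P.coeff i').coeff j' := by
    intro i' j'
    have := congrArg (fun R : L[X][X] => (R.coeff i').coeff j') hQ
    simp only [Polynomial.coeff_map, Polynomial.coe_mapRingHom] at this
    rw [hcoeff] at this
    exact this
  have hQij : (Q.coeff i).coeff j = 1 := by
    apply Subtype.ext
    rw [hQcoeff, hc, inv_mul_cancel₀ hij]; rfl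
  set s : A[X] := Q.coeff T.n with hs
  set g : A[X][X] := Q - C s * X ^ T.n with hg
  have hinj : Function.Injective (Polynomial.mapRingHom A.subtype) :=
    Polynomial.map_injective _ Subtype.val_injective
  have hsmap : s.map A.subtype = C c * s0 := by
    ext j'
    rw [Polynomial.coeff_map, Polynomial.coeff_C_mul, ← hPn]
    exact hQcoeff T.n j'
  have hgmap : g.map (Polynomial.mapRingHom A.subtype) = C (C c) * g0 := by
    rw [hg, Polynomial.map_sub, hQ, Polynomial.map_mul, Polynomial.map_pow, Polynomial.map_X,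
      Polynomial.map_C, Polynomial.coe_mapRingHom, hsmap, hPdef]
    simp only [map_mul]
    ring
  have hgdeg : g.degree < T.n := by
    have h1 : (g.map (Polynomial.mapRingHom A.subtype)).degree = g.degree :=
      Polynomial.degree_map_eq_of_injective hinj g
    rw [← h1, hgmap, Polynomial.degree_mul, Polynomial.degree_C (by simpa using hc0), zero_add]
    exact hdeg
  have hid : f * up A (Polynomial.aeval T.x s) = up A (ev2 T.x T.y g) := by
    rw [T.up_ev2, hgmap, map_mul, ev2_C_C, ← h]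
    show f * coeffMap A.subtype (Polynomial.aeval T.x s) = _
    rw [coeffMap_aeval, hsmap, map_mul, Polynomial.aeval_C, algebraMap_eq_single]
    show f * (HahnSeries.C c * _) = _
    ring
  refine ⟨s, g, ?_, hgdeg, hid⟩
  intro hs0'
  -- the unit coefficient sits in `g`
  have hin : i ≠ T.n := by
    intro hi
    have h1 : (s.map π).coeff j = 1 := by
      rw [Polynomial.coeff_map, hs, ← hi, hQij, map_one]
    rw [hs0', Polynomial.coeff_zero] at h1
    exact zero_ne_one h1
  have hgij : (g.coeff i).coeff j = 1 := by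
    rw [hg, Polynomial.coeff_sub, Polynomial.coeff_C_mul, Polynomial.coeff_X_pow, if_neg hin,
      mul_zero, sub_zero, hQij]
  have hgbar : g.map (Polynomial.mapRingHom π) ≠ 0 := by
    intro h0
    have h1 : ((g.map (Polynomial.mapRingHom π)).coeff i).coeff j = 0 := by
      rw [h0]; simp
    rw [Polynomial.coeff_map, Polynomial.coe_mapRingHom, Polynomial.coeff_map, hgij, map_one] at h1
    exact one_ne_zero h1
  have hgbardeg : (g.map (Polynomial.mapRingHom π)).degree < T.n :=
    lt_of_le_of_lt Polynomial.degree_map_le hgdeg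
  have hredg : T.red (ev2 T.x T.y g) ≠ 0 := by
    rw [T.red_ev2]
    intro h0
    exact hgbar (T.indep _ hgbardeg h0)
  obtain ⟨a, -, b, -, hb0, hab⟩ := hfb
  have h1 : up A (ev2 T.x T.y g * b) = up A (a * Polynomial.aeval T.x s) := by
    rw [map_mul, map_mul, ← hid, ← hab]; ring
  have h2 := up_injective A h1
  have h3 := congrArg T.red h2
  rw [map_mul, map_mul] at h3
  have h4 : T.red (Polynomial.aeval T.x s) = 0 := by
    show coeffMap π (Polynomial.aeval T.x s) = 0
    rw [coeffMap_aeval, hs0', map_zero]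
  rw [h4, mul_zero] at h3
  exact (mul_ne_zero hredg hb0) h3

/-! ### 3. (T1), (T2): the Gauss ring over a discrete valuation ring is a discrete valuation ring -/

section DVR

variable (F : IntermediateField L (LaurentSeries L)) (hF : F = T.FL)
variable (Fb : IntermediateField k (LaurentSeries k)) (hFb : Fb = T.Fk)

/-- the constants `A → O_v`. -/
def constHom : A →+* T.unitBall F hF where
  toFun a := ⟨algebraMap L F a, (T.algebraMap_mem_unitBall_iff F hF a).mpr a.2⟩
  map_one' := by apply Subtype.ext; simp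
  map_mul' a b := by apply Subtype.ext; simp
  map_zero' := by apply Subtype.ext; simp
  map_add' a b := by apply Subtype.ext; simp

theorem coe_constHom (a : A) : ((constHom T F hF a : T.unitBall F hF) : F) = algebraMap L F a := rfl

theorem resHom_constHom (a : A) :
    T.resHom F hF Fb hFb (constHom T F hF a) = algebraMap k Fb (π a) :=
  T.resHom_algebraMap F hF Fb hFb a

theorem constHom_injective : Function.Injective (constHom T F hF) := by
  intro a b h
  have h1 := congrArg (fun z : T.unitBall F hF => (z : F)) h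
  simp only [coe_constHom] at h1
  exact Subtype.ext ((algebraMap L F).injective h1)

variable (ϖ : A) (hϖ : ∀ a : A, a ≠ 0 → ∃ n : ℕ, Associated (ϖ ^ n) a)

include hFb hϖ in
/-- every nonzero element of the Gauss ring is a unit times a power of `ϖ`. -/
theorem exists_associated_pow (f : T.unitBall F hF) (hf : f ≠ 0) :
    ∃ n : ℕ, Associated (constHom T F hF ϖ ^ n) f := by
  have hf0 : (f : F) ≠ 0 := fun h => hf (Subtype.ext h)
  obtain ⟨c, hc, hmem, hres⟩ := T.exists_const_mul_mem F hF Fb hFb (f : F) hf0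
  have hu : IsUnit (⟨algebraMap L F c * f, hmem⟩ : T.unitBall F hF) := by
    by_contra hnu
    exact hres ((T.resHom_eq_zero_iff F hF Fb hFb _).mpr hnu)
  rcases A.mem_or_inv_mem c with hcA | hcA
  · -- `c ∈ A`: `f` is a unit
    refine ⟨0, ?_⟩
    rw [pow_zero]
    have h1 : constHom T F hF ⟨c, hcA⟩ * f = ⟨algebraMap L F c * f, hmem⟩ := by
      apply Subtype.ext; rfl
    have h2 : IsUnit f := isUnit_of_mul_isUnit_right (h1 ▸ hu)
    exact (associated_one_iff_isUnit.mpr h2).symm
  · -- `c⁻¹ ∈ A`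
    have hd0 : (⟨c⁻¹, hcA⟩ : A) ≠ 0 := by
      intro h0
      have := congrArg Subtype.val h0
      exact inv_ne_zero hc this
    obtain ⟨n, u, hu'⟩ := hϖ _ hd0
    refine ⟨n, (Units.map (constHom T F hF).toMonoidHom u) * hu.unit, ?_⟩
    apply Subtype.ext
    have h3 : ((constHom T F hF ϖ ^ n * ((Units.map (constHom T F hF).toMonoidHom u) * hu.unit :
        (T.unitBall F hF)ˣ) : T.unitBall F hF) : F) =
        algebraMap L F ((ϖ ^ n * u : A) : L) * (algebraMap L F c * f) := by
      simp [coe_constHom, mul_assoc]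
    rw [h3, hu']
    show algebraMap L F c⁻¹ * (algebraMap L F c * (f : F)) = f
    rw [← mul_assoc, ← map_mul, inv_mul_cancel₀ hc, map_one, one_mul]

variable (hϖπ : π ϖ = 0) (hϖ0 : ϖ ≠ 0)

include hFb hϖπ in
theorem not_isUnit_constHom : ¬ IsUnit (constHom T F hF ϖ) := by
  rw [← T.resHom_eq_zero_iff F hF Fb hFb, resHom_constHom, hϖπ, map_zero]

include hFb hϖ hϖπ hϖ0 in
theorem irreducible_constHom : Irreducible (constHom T F hF ϖ) :=
  Fermat.Agent.S18.H45.irreducible_of_forall_associated_pow _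
    (not_isUnit_constHom T F hF Fb hFb ϖ hϖπ)
    (fun h => hϖ0 (constHom_injective T F hF (by rw [h, map_zero])))
    (exists_associated_pow T F hF Fb hFb ϖ hϖ)

include hFb hϖ hϖπ hϖ0 in
/-- **(T1)** the Gauss ring is a discrete valuation ring. -/
theorem isDiscreteValuationRing_unitBall : IsDiscreteValuationRing (T.unitBall F hF) :=
  IsDiscreteValuationRing.ofHasUnitMulPowIrreducibleFactorization
    ⟨_, irreducible_constHom T F hF Fb hFb ϖ hϖ hϖπ hϖ0,
      fun {x} hx => exists_associated_pow T F hF Fb hFb ϖ hϖ x hx⟩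

include hFb hϖ hϖπ hϖ0 in
/-- **(T1)** its maximal ideal is `(ϖ)`. -/
theorem maximalIdeal_unitBall :
    IsLocalRing.maximalIdeal (T.unitBall F hF) = Ideal.span {constHom T F hF ϖ} := by
  haveI := isDiscreteValuationRing_unitBall T F hF Fb hFb ϖ hϖ hϖπ hϖ0
  exact (irreducible_constHom T F hF Fb hFb ϖ hϖ hϖπ hϖ0).maximalIdeal_eq

include hϖ hϖπ hϖ0 in
/-- **(T2)** the kernel of the reduction is `(ϖ)`. -/
theorem resHom_eq_zero_iff_dvd (f : T.unitBall F hF) :
    T.resHom F hF Fb hFb f = 0 ↔ constHom T F hF ϖ ∣ f := by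
  rw [T.resHom_eq_zero_iff F hF Fb hFb, ← Ideal.mem_span_singleton,
    ← maximalIdeal_unitBall T F hF Fb hFb ϖ hϖ hϖπ hϖ0, IsLocalRing.mem_maximalIdeal,
    mem_nonunits_iff]

end DVR

end Fermat.Agent.S34.H92
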