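import Mathlib
import Fermat.Agent.S34.H92_GaussGeneric
import Fermat.Agent.S18.H92_IndepK
import Fermat.Agent.S18.H45_A0Instances
import Fermat.Agent.S18.H99_F1Basics

/-!
# S34 / L0 (T) (helper92): the level-`M` Gauss valuation ring over `A₁ = H45.A0 A ℓ`

For `ℓ ∤ M`, `A` a valuation subring of `Qbar` over `ℓ`, `L₁ = H45.unrCyclo ℓ`, `A₁ = H45.A0 A ℓ`
(DVR, uniformiser `ℓ`), `kA = ResidueField A`, `F_M = modularFunctionFieldFullC L₁ M`:

* `VM : ValuationSubring F_M` - the Gauss ring (unit ball of the `q`-expansion Gauss norm);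
* `resMF : VM →+* modularFunctionFieldFullC kA M` (onto), `resM : VM →+* LaurentSeries kA`;
* **(T1)** `isDiscreteValuationRing_VM`, `maximalIdeal_VM : maximalIdeal = (ℓ)`, `irreducible_natCast_VM`;
* **(T2)** `resM_natCast`, `resM_eq_zero_iff` (kernel `= (ℓ)`), `resM_const` (constants reduce by
  `resA0`), `const_mem_VM_iff`;
* **(T3)** `mem_VM_of_up` (`q`-expansion principle), `jdK_mem_VM`, `resM_jdK`, `jK_mem_VM`, `jNK_mem_VM`;
* **(T4)** `exists_repr_VM` : `y ∈ VM → ∃ s g, s̄ ≠ 0 ∧ s(j) * y = g(j, j_M)`.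
-/

set_option autoImplicit false
set_option synthInstance.maxHeartbeats 400000
set_option linter.unusedSectionVars false

noncomputable section

namespace Fermat.Agent.S34.H92

open ModularCurve Polynomial AlgebraicCurve IsLocalRing
open Fermat.Agent.S18 Fermat.Agent.S18.H92 Fermat.Agent.S18.H45

local notation "Qbar" => AlgebraicClosure ℚ

variable (M : ℕ) [NeZero M] {ℓ : ℕ} [hℓ : Fact ℓ.Prime] (hℓM : ¬ ℓ ∣ M)
  (A : ValuationSubring Qbar) (hA : A.LiesOverPrime ℓ)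

local notation "kA" => IsLocalRing.ResidueField A
local notation "A₁" => H45.A0 A ℓ
local notation "L₁" => H45.unrCyclo ℓ
local notation "FM" => modularFunctionFieldFullC (H45.unrCyclo ℓ) M
local notation "FkM" => modularFunctionFieldFullC (IsLocalRing.ResidueField A) M

/-- The two-generator datum of `X₀(M)` over `A₁`. -/
def twoGenA0 : TwoGen A₁ (H45.resA0 A ℓ) where
  x := jqModC A₁
  y := jqNModC A₁ M
  n := dedekindPsi M
  Φ := (modData M).Φ.map (Polynomial.mapRingHom (Int.castRingHom A₁))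
  monic := (modData M).monic.map _
  natDegree_eq := by rw [(modData M).monic.natDegree_map, (modData M).natDegree_eq]
  root := ev2_map_eq_zero M (modData M) A₁
  indep := by
    intro P hdeg h
    rw [coeffMap_jqModC, coeffMap_jqNModC] at h
    exact indepK_residueField M hℓM A hA P hdeg h
  surj := H45.resA0_surjective hℓ.out hA

theorem twoGenA0_xL : (twoGenA0 M hℓM A hA).xL = jqModC L₁ := coeffMap_jqModC _

theorem twoGenA0_yL : (twoGenA0 M hℓM A hA).yL = qExpand L₁ M (jqModC L₁) :=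
  coeffMap_jqNModC _ _

theorem twoGenA0_xk : (twoGenA0 M hℓM A hA).xk = jqModC kA := coeffMap_jqModC _

theorem twoGenA0_yk : (twoGenA0 M hℓM A hA).yk = qExpand kA M (jqModC kA) :=
  coeffMap_jqNModC _ _

theorem natCast_unrCyclo_ne_zero : ((M : ℕ) : L₁) ≠ 0 := Nat.cast_ne_zero.2 (NeZero.ne M)

theorem twoGenA0_FL : FM = (twoGenA0 M hℓM A hA).FL := by
  rw [H16.fullC_eq_adjoin_gen M L₁ (natCast_unrCyclo_ne_zero M), TwoGen.FL, twoGenA0_xL,
    twoGenA0_yL]

theorem twoGenA0_Fk : FkM = (twoGenA0 M hℓM A hA).Fk := by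
  rw [H16.fullC_eq_adjoin_gen M kA (natCast_residueField_ne_zero M hℓM A hA), TwoGen.Fk,
    twoGenA0_xk, twoGenA0_yk]

/-- **The level-`M` Gauss valuation ring** of `F_M = fullC L₁ M` over `A₁`. -/
def VM : ValuationSubring FM :=
  (twoGenA0 M hℓM A hA).unitBall FM (twoGenA0_FL M hℓM A hA)

/-- The reduction map onto the level-`M` function field over `kA`. -/
def resMF : VM M hℓM A hA →+* FkM :=
  (twoGenA0 M hℓM A hA).resHom FM (twoGenA0_FL M hℓM A hA) FkM (twoGenA0_Fk M hℓM A hA)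

/-- The reduction map as `q`-expansions over `kA`. -/
def resM : VM M hℓM A hA →+* LaurentSeries kA :=
  (algebraMap FkM (LaurentSeries kA)).comp (resMF M hℓM A hA)

theorem resM_apply (f : VM M hℓM A hA) :
    resM M hℓM A hA f = ((resMF M hℓM A hA f : FkM) : LaurentSeries kA) := rfl

theorem resMF_surjective : Function.Surjective (resMF M hℓM A hA) :=
  (twoGenA0 M hℓM A hA).resHom_surjective _ _ _ _

theorem resM_injective_iff (f g : VM M hℓM A hA) :
    resM M hℓM A hA f = resM M hℓM A hA g ↔ resMF M hℓM A hA f = resMF M hℓM A hA g :=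
  ⟨fun h => Subtype.ext h, fun h => by rw [resM_apply, resM_apply, h]⟩

/-! ### (T2) constants -/

/-- the constants `A₁ → V_M` -/
def constVM : A₁ →+* VM M hℓM A hA :=
  constHom (twoGenA0 M hℓM A hA) FM (twoGenA0_FL M hℓM A hA)

theorem coe_constVM (a : A₁) :
    ((constVM M hℓM A hA a : VM M hℓM A hA) : FM) = algebraMap L₁ FM (a : L₁) := rfl

theorem const_mem_VM_iff (c : L₁) : algebraMap L₁ FM c ∈ VM M hℓM A hA ↔ c ∈ A₁ :=
  (twoGenA0 M hℓM A hA).algebraMap_mem_unitBall_iff _ _ c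

theorem resMF_const (a : A₁) :
    resMF M hℓM A hA (constVM M hℓM A hA a) = algebraMap kA FkM (H45.resA0 A ℓ a) :=
  resHom_constHom (twoGenA0 M hℓM A hA) _ _ _ _ a

theorem resM_const (a : A₁) :
    resM M hℓM A hA (constVM M hℓM A hA a) = HahnSeries.C (H45.resA0 A ℓ a) := by
  rw [resM_apply, resMF_const]
  show algebraMap kA (LaurentSeries kA) (H45.resA0 A ℓ a) = _
  rw [algebraMap_eq_single]; rfl

theorem constVM_natCast (n : ℕ) : constVM M hℓM A hA (n : A₁) = (n : VM M hℓM A hA) :=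
  map_natCast _ n

theorem resM_natCast : resM M hℓM A hA ((ℓ : ℕ) : VM M hℓM A hA) = 0 := by
  rw [map_natCast]
  have h := H45.resA0_natCast_eq_zero (A := A) hℓ.out hA
  rw [map_natCast] at h
  have h2 : ((ℓ : ℕ) : LaurentSeries kA) = HahnSeries.C ((ℓ : ℕ) : kA) := by
    rw [map_natCast]
  rw [h2, h, map_zero]

/-! ### (T1) discrete valuation ring -/

include hA in
theorem natCast_A0_ne_zero : ((ℓ : ℕ) : A₁) ≠ 0 :=
  (H45.irreducible_natCast_A0 hℓ.out hA).ne_zero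

/-- **(T1)** `V_M` is a discrete valuation ring. -/
theorem isDiscreteValuationRing_VM : IsDiscreteValuationRing (VM M hℓM A hA) :=
  isDiscreteValuationRing_unitBall (twoGenA0 M hℓM A hA) FM (twoGenA0_FL M hℓM A hA) FkM
    (twoGenA0_Fk M hℓM A hA) ((ℓ : ℕ) : A₁) (H45.exists_associated_pow_A0 hℓ.out hA)
    (H45.resA0_natCast_eq_zero hℓ.out hA) (natCast_A0_ne_zero A hA)

/-- **(T1)** `ℓ` is a uniformiser of `V_M`. -/
theorem irreducible_natCast_VM : Irreducible ((ℓ : ℕ) : VM M hℓM A hA) := by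
  rw [← constVM_natCast M hℓM A hA]
  exact irreducible_constHom (twoGenA0 M hℓM A hA) FM (twoGenA0_FL M hℓM A hA) FkM
    (twoGenA0_Fk M hℓM A hA) ((ℓ : ℕ) : A₁) (H45.exists_associated_pow_A0 hℓ.out hA)
    (H45.resA0_natCast_eq_zero hℓ.out hA) (natCast_A0_ne_zero A hA)

/-- **(T1)** the maximal ideal of `V_M` is `(ℓ)`. -/
theorem maximalIdeal_VM :
    IsLocalRing.maximalIdeal (VM M hℓM A hA) = Ideal.span {((ℓ : ℕ) : VM M hℓM A hA)} := by
  rw [← constVM_natCast M hℓM A hA]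
  exact maximalIdeal_unitBall (twoGenA0 M hℓM A hA) FM (twoGenA0_FL M hℓM A hA) FkM
    (twoGenA0_Fk M hℓM A hA) ((ℓ : ℕ) : A₁) (H45.exists_associated_pow_A0 hℓ.out hA)
    (H45.resA0_natCast_eq_zero hℓ.out hA) (natCast_A0_ne_zero A hA)

/-- **(T2)** the kernel of the reduction is `(ℓ)`. -/
theorem resMF_eq_zero_iff (f : VM M hℓM A hA) :
    resMF M hℓM A hA f = 0 ↔ ((ℓ : ℕ) : VM M hℓM A hA) ∣ f := by
  rw [← constVM_natCast M hℓM A hA]
  exact resHom_eq_zero_iff_dvd (twoGenA0 M hℓM A hA) FM (twoGenA0_FL M hℓM A hA) FkM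
    (twoGenA0_Fk M hℓM A hA) ((ℓ : ℕ) : A₁) (H45.exists_associated_pow_A0 hℓ.out hA)
    (H45.resA0_natCast_eq_zero hℓ.out hA) (natCast_A0_ne_zero A hA) f

theorem resM_eq_zero_iff (f : VM M hℓM A hA) :
    resM M hℓM A hA f = 0 ↔ ((ℓ : ℕ) : VM M hℓM A hA) ∣ f := by
  rw [← resMF_eq_zero_iff, resM_apply]
  constructor
  · intro h; exact Subtype.ext h
  · intro h; rw [h]; rfl

theorem ker_resM :
    RingHom.ker (resM M hℓM A hA) = Ideal.span {((ℓ : ℕ) : VM M hℓM A hA)} := by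
  ext f
  rw [RingHom.mem_ker, resM_eq_zero_iff, Ideal.mem_span_singleton]

theorem resM_eq_zero_iff_not_isUnit (f : VM M hℓM A hA) :
    resM M hℓM A hA f = 0 ↔ ¬ IsUnit f := by
  have key := (twoGenA0 M hℓM A hA).resHom_eq_zero_iff FM (twoGenA0_FL M hℓM A hA) FkM
    (twoGenA0_Fk M hℓM A hA) f
  rw [resM_apply]
  constructor
  · intro h
    exact key.mp (Subtype.ext h)
  · intro h
    have h0 : resMF M hℓM A hA f = 0 := key.mpr h
    rw [h0]; rfl

/-! ### (T3) the `q`-expansion principle -/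

/-- **(T3)** an `A₁`-integral `q`-expansion lying in `F_M` lies in `V_M` and reduces
coefficientwise. -/
theorem mem_VM_of_up (f : FM) (z : LaurentSeries A₁)
    (h : (f : LaurentSeries L₁) = coeffMap (A₁).subtype z) :
    ∃ hf : f ∈ VM M hℓM A hA, resM M hℓM A hA ⟨f, hf⟩ = coeffMap (H45.resA0 A ℓ) z := by
  have hz : up A₁ z ∈ FM := by
    show coeffMap (A₁).subtype z ∈ FM
    rw [← h]; exact f.2
  obtain ⟨h1, h2⟩ := (twoGenA0 M hℓM A hA).up_mem_unitBall FM (twoGenA0_FL M hℓM A hA) FkM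
    (twoGenA0_Fk M hℓM A hA) hz
  have hfe : f = ⟨up A₁ z, hz⟩ := Subtype.ext h
  subst hfe
  exact ⟨h1, h2⟩

theorem jdK_mem_VM (d : ℕ) [NeZero d] (hd : d ∣ M) :
    ∃ hf : H99.jdK L₁ M d hd ∈ VM M hℓM A hA,
      resM M hℓM A hA ⟨_, hf⟩ = qExpand kA d (jqModC kA) := by
  obtain ⟨hf, h⟩ := mem_VM_of_up M hℓM A hA (H99.jdK L₁ M d hd) (qExpand A₁ d (jqModC A₁))
    (by rw [H99.coe_jdK, coeffMap_qExpand, coeffMap_jqModC])
  refine ⟨hf, ?_⟩
  rw [h, coeffMap_qExpand, coeffMap_jqModC]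

theorem jK_mem_VM :
    ∃ hf : H16.jK L₁ M ∈ VM M hℓM A hA, resM M hℓM A hA ⟨_, hf⟩ = jqModC kA := by
  obtain ⟨hf, h⟩ := mem_VM_of_up M hℓM A hA (H16.jK L₁ M) (jqModC A₁)
    (by rw [H16.coe_jK, coeffMap_jqModC])
  exact ⟨hf, by rw [h, coeffMap_jqModC]⟩

theorem jNK_mem_VM :
    ∃ hf : H16.jNK L₁ M ∈ VM M hℓM A hA,
      resM M hℓM A hA ⟨_, hf⟩ = qExpand kA M (jqModC kA) := by
  obtain ⟨hf, h⟩ := mem_VM_of_up M hℓM A hA (H16.jNK L₁ M) (qExpand A₁ M (jqModC A₁))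
    (by rw [H16.coe_jNK, coeffMap_qExpand, coeffMap_jqModC])
  exact ⟨hf, by rw [h, coeffMap_qExpand, coeffMap_jqModC]⟩

/-! ### (T4) representation with a one-variable denominator -/

/-- the coercion `F_M → L₁((q))` as a ring hom -/
def coeHom : FM →+* LaurentSeries L₁ := (IntermediateField.val FM).toRingHom

theorem coeHom_apply (f : FM) : coeHom M f = (f : LaurentSeries L₁) := rfl

theorem coeHom_comp_aeval :
    (coeHom M (ℓ := ℓ)).comp
      ((Polynomial.aeval (H16.jK L₁ M) : A₁[X] →ₐ[A₁] FM) : A₁[X] →+* FM) =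
    ((Polynomial.aeval (jqModC L₁) : L₁[X] →ₐ[L₁] LaurentSeries L₁) : L₁[X] →+* LaurentSeries L₁).comp
      (Polynomial.mapRingHom (A₁).subtype) := by
  apply Polynomial.ringHom_ext
  · intro a
    simp only [RingHom.comp_apply, Polynomial.coe_mapRingHom, Polynomial.map_C]
    rw [RingHom.coe_coe, Polynomial.aeval_C, RingHom.coe_coe, Polynomial.aeval_C]
    rfl
  · simp only [RingHom.comp_apply, Polynomial.coe_mapRingHom, Polynomial.map_X]
    rw [RingHom.coe_coe, Polynomial.aeval_X, RingHom.coe_coe, Polynomial.aeval_X]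
    rfl

/-- **(T4)** every element of `V_M` is `g(j, j_M) / s(j)` with `s ∈ A₁[X]`, `s̄ ≠ 0`,
`g ∈ A₁[X][Y]` of `Y`-degree `< ψ(M)`.  The right-hand side is `H3.eval2 j j_M g`. -/
theorem exists_repr_VM (y : FM) (hy : y ∈ VM M hℓM A hA) :
    ∃ (s : A₁[X]) (g : A₁[X][X]), s.map (H45.resA0 A ℓ) ≠ 0 ∧ g.degree < dedekindPsi M ∧
      Polynomial.aeval (H16.jK L₁ M) s * y =
        g.eval₂ ((Polynomial.aeval (H16.jK L₁ M) : A₁[X] →ₐ[A₁] FM) : A₁[X] →+* FM)
          (H16.jNK L₁ M) := by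
  have hyFL : (y : LaurentSeries L₁) ∈ (twoGenA0 M hℓM A hA).FL := by
    rw [← twoGenA0_FL]; exact y.2
  obtain ⟨s, g, hs, hg, h⟩ := exists_repr (twoGenA0 M hℓM A hA) hyFL hy
  refine ⟨s, g, hs, hg, ?_⟩
  apply Subtype.ext
  have h1 : ((Polynomial.aeval (H16.jK L₁ M) s : FM) : LaurentSeries L₁) =
      up A₁ (Polynomial.aeval (jqModC A₁) s) := by
    have e1 := congrArg (fun φ : A₁[X] →+* LaurentSeries L₁ => φ s) (coeHom_comp_aeval M (ℓ := ℓ) (A := A))
    simp only [RingHom.comp_apply, Polynomial.coe_mapRingHom] at e1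
    rw [coeHom_apply] at e1
    rw [RingHom.coe_coe] at e1
    rw [e1]
    show _ = coeffMap (A₁).subtype (Polynomial.aeval (jqModC A₁) s)
    rw [coeffMap_aeval, coeffMap_jqModC]
    rfl
  have h2 : ((g.eval₂ ((Polynomial.aeval (H16.jK L₁ M) : A₁[X] →ₐ[A₁] FM) : A₁[X] →+* FM)
      (H16.jNK L₁ M) : FM) : LaurentSeries L₁) =
      up A₁ (ev2 (jqModC A₁) (jqNModC A₁ M) g) := by
    rw [← coeHom_apply, Polynomial.hom_eval₂, coeHom_comp_aeval, coeHom_apply, H16.coe_jNK]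
    have e2 := (twoGenA0 M hℓM A hA).up_ev2 g
    rw [twoGenA0_xL, twoGenA0_yL] at e2
    show _ = up A₁ (ev2 (twoGenA0 M hℓM A hA).x (twoGenA0 M hℓM A hA).y g)
    rw [e2, ev2_apply, Polynomial.eval₂_map]
    rfl
  show ((Polynomial.aeval (H16.jK L₁ M) s : FM) : LaurentSeries L₁) * (y : LaurentSeries L₁) = _
  rw [h1, h2, mul_comm]
  exact h

end Fermat.Agent.S34.H92
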