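import Mathlib
import Fermat.Agent.S34.H16_TwoPlacesJN
import Fermat.Agent.S34.H92_GaussLevelM
import Fermat.Agent.S34.H36_FrobLin

/-!
S34 / L0 (helper16): the two CONCRETE places of `F_N = FullC L₁ (ℓ * M)` over the level-`M` Gauss
ring `V_M = H92.VM M hℓM A hA` (`ℓ ∤ M`): instantiation of `S34.H16_TwoPlacesJN` at helper92's (T).
-/

set_option autoImplicit false
set_option linter.unusedSectionVars false
set_option linter.style.haveILetI false
set_option synthInstance.maxHeartbeats 400000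

noncomputable section

namespace Fermat.Agent.S34.H16

open ModularCurve Polynomial IsLocalRing Fermat.Agent.S28
open Fermat.Agent.S18 Fermat.Agent.S34.H92

local notation "Qbar" => AlgebraicClosure ℚ

section L0

variable (M : ℕ) [NeZero M] {ℓ : ℕ} [hℓ : Fact ℓ.Prime] (hℓM : ¬ ℓ ∣ M)
  (A : ValuationSubring Qbar) (hA : A.LiesOverPrime ℓ)

local notation "kA" => IsLocalRing.ResidueField A
local notation "L₁" => H45.unrCyclo ℓ
local notation "FM" => modularFunctionFieldFullC (H45.unrCyclo ℓ) M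
local notation "FN" => modularFunctionFieldFullC (H45.unrCyclo ℓ) (ℓ * M)
local notation "V" => VM M hℓM A hA

instance neZero_of_fact_prime : NeZero ℓ := ⟨hℓ.out.ne_zero⟩

theorem dvd_level : M ∣ ℓ * M := Dvd.intro_left ℓ rfl

/-- `V_M → F_N`: the composite `V_M ⊆ F_M ⊆ F_N`. -/
abbrev algebraVMFN : Algebra V FN :=
  ((@algebraMap FM FN _ _ (degAlgebra L₁ M (ℓ * M) (dvd_level M))).comp
    (algebraMap V FM)).toAlgebra

theorem isScalarTower_VMFN :
    letI := degAlgebra L₁ M (ℓ * M) (dvd_level M)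
    letI := algebraVMFN M hℓM A hA
    IsScalarTower V FM FN := by
  letI := degAlgebra L₁ M (ℓ * M) (dvd_level M)
  letI := algebraVMFN M hℓM A hA
  exact IsScalarTower.of_algebraMap_eq (fun _ => rfl)

/-- the residue field of `V_M` has characteristic `ℓ`. -/
theorem charP_residueField_VM : CharP (ResidueField V) ℓ := by
  rw [CharP.charP_iff_prime_eq_zero hℓ.out]
  have h : ((ℓ : ℕ) : V) ∈ maximalIdeal V := by
    rw [maximalIdeal_VM M hℓM A hA]
    exact Ideal.mem_span_singleton_self _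
  have h2 : residue V ((ℓ : ℕ) : V) = 0 := (residue_eq_zero_iff _).2 h
  rwa [map_natCast] at h2


/-- `j_M` as an element of `V_M`. -/
def jMV : V := ⟨S18.H16.jNK L₁ M, (jNK_mem_VM M hℓM A hA).1⟩

theorem coe_jMV : ((jMV M hℓM A hA : V) : FM) = S18.H16.jNK L₁ M := rfl

theorem resM_jMV : resM M hℓM A hA (jMV M hℓM A hA) = qExpand kA M (jqModC kA) :=
  (jNK_mem_VM M hℓM A hA).2

/-- `ℤ[X] → V_M`, `X ↦ j_M`. -/
def phiV : ℤ[X] →+* V := (Polynomial.aeval (R := ℤ) (jMV M hℓM A hA)).toRingHom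

theorem phiV_X : phiV M hℓM A hA X = jMV M hℓM A hA := by
  simp [phiV]

theorem algebraMap_phiV_X :
    algebraMap V FM (phiV M hℓM A hA X) = S18.H16.jNK L₁ M := by
  rw [phiV_X]
  rfl

/-- the embedding of the residue field of `V_M` into `kA((t))` induced by `resM`. -/
def rhoV : ResidueField V →+* LaurentSeries kA :=
  haveI := isDiscreteValuationRing_VM M hℓM A hA
  CA.H99.resLift (maximalIdeal_VM M hℓM A hA) (resM M hℓM A hA) (resM_natCast M hℓM A hA)

theorem rhoV_residue (y : V) : rhoV M hℓM A hA (residue V y) = resM M hℓM A hA y := rfl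

theorem order_rhoV_jMV :
    (rhoV M hℓM A hA (residue V (phiV M hℓM A hA X))).order = -(M : ℤ) := by
  rw [rhoV_residue, phiV_X, resM_jMV, S28.H39.order_qExpand, S28.H39.order_jqModC]
  ring

theorem not_dvd_order_rhoV_jMV :
    ¬ (ℓ : ℤ) ∣ (rhoV M hℓM A hA (residue V (phiV M hℓM A hA X))).order := by
  rw [order_rhoV_jMV, dvd_neg]
  exact_mod_cast hℓM


/-- `j̄_M(t^ℓ) = j̄_M(t)^ℓ` in `kA((t))`. -/
theorem qExpand_resM_jMV :
    qExpand kA ℓ (resM M hℓM A hA (jMV M hℓM A hA)) = resM M hℓM A hA (jMV M hℓM A hA) ^ ℓ := by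
  haveI : CharP kA ℓ := Fermat.Agent.S18.H92.charP_residueField A hA
  rw [resM_jMV]
  exact S34.H36.qExpand_jd_char kA ℓ M

/-- the reduction map of the `0`-component restricted to `V_M`: `f ↦ (f mod ℓ)(t^ℓ)`. -/
def iotaZero : V →+* LaurentSeries kA := (qExpand kA ℓ).comp (resM M hℓM A hA)

theorem iotaZero_apply (f : V) :
    iotaZero M hℓM A hA f = qExpand kA ℓ (resM M hℓM A hA f) := rfl

theorem iotaZero_natCast : iotaZero M hℓM A hA ((ℓ : ℕ) : V) = 0 := by
  rw [iotaZero_apply, resM_natCast, map_zero]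


theorem natCast_level_ne_zero : (((ℓ * M : ℕ) : ℕ) : L₁) ≠ 0 :=
  Nat.cast_ne_zero.2 (NeZero.ne (ℓ * M))

/-- **The `∞`-place of `F_N` over `V_M`**: reduction `resM` on `V_M`, `j_N ↦ j̄_M(t)^ℓ`. -/
theorem nonempty_placeInfty (D : ModularPolynomialData ℓ)
    (hD : ∀ (k : Type) [Field k] (ζ : kˣ), IsPrimitiveRoot ζ ℓ → RootsAt k ℓ ζ D.Φ) :
    letI := degAlgebra L₁ M (ℓ * M) (dvd_level M)
    letI := algebraVMFN M hℓM A hA
    haveI := isDiscreteValuationRing_VM M hℓM A hA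
    Nonempty (CA.H99.PlaceOver (L := FN) ((ℓ : ℕ) : V) (S18.H16.jNK L₁ (ℓ * M))
      (resM M hℓM A hA) (resM M hℓM A hA (jMV M hℓM A hA) ^ ℓ)) := by
  letI := degAlgebra L₁ M (ℓ * M) (dvd_level M)
  letI := algebraVMFN M hℓM A hA
  haveI := isDiscreteValuationRing_VM M hℓM A hA
  haveI := charP_residueField_VM M hℓM A hA
  exact nonempty_placeOver_infty L₁ M (ℓ * M) (dvd_level M) ℓ hℓM rfl
    (natCast_level_ne_zero M) D hD (isScalarTower_VMFN M hℓM A hA) (phiV M hℓM A hA)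
    (algebraMap_phiV_X M hℓM A hA) (rhoV M hℓM A hA) (not_dvd_order_rhoV_jMV M hℓM A hA)
    (maximalIdeal_VM M hℓM A hA) (resM M hℓM A hA) (resM_natCast M hℓM A hA) _
    (by rw [phiV_X])

/-- **The `0`-place of `F_N` over `V_M`**: reduction `f ↦ (f mod ℓ)(t^ℓ)` on `V_M`,
`j_N ↦ j̄_M(t)`. -/
theorem nonempty_placeZero (D : ModularPolynomialData ℓ)
    (hD : ∀ (k : Type) [Field k] (ζ : kˣ), IsPrimitiveRoot ζ ℓ → RootsAt k ℓ ζ D.Φ) :
    letI := degAlgebra L₁ M (ℓ * M) (dvd_level M)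
    letI := algebraVMFN M hℓM A hA
    haveI := isDiscreteValuationRing_VM M hℓM A hA
    Nonempty (CA.H99.PlaceOver (L := FN) ((ℓ : ℕ) : V) (S18.H16.jNK L₁ (ℓ * M))
      (iotaZero M hℓM A hA) (resM M hℓM A hA (jMV M hℓM A hA))) := by
  letI := degAlgebra L₁ M (ℓ * M) (dvd_level M)
  letI := algebraVMFN M hℓM A hA
  haveI := isDiscreteValuationRing_VM M hℓM A hA
  haveI := charP_residueField_VM M hℓM A hA
  exact nonempty_placeOver_zero L₁ M (ℓ * M) (dvd_level M) ℓ hℓM rfl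
    (natCast_level_ne_zero M) D hD (isScalarTower_VMFN M hℓM A hA) (phiV M hℓM A hA)
    (algebraMap_phiV_X M hℓM A hA) (rhoV M hℓM A hA) (not_dvd_order_rhoV_jMV M hℓM A hA)
    (maximalIdeal_VM M hℓM A hA) (iotaZero M hℓM A hA) (iotaZero_natCast M hℓM A hA) _
    (by rw [phiV_X, iotaZero_apply, qExpand_resM_jMV])

end L0

end Fermat.Agent.S34.H16
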