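/-
S34 / L0 → L1 glue (helper55): **`H83.TwoComponents` from field-level facts**.

Input (all at the level of the ambient fields, no subtypes): a level-`M` Gauss model `M`, the two
degeneracy maps `ι V : F1 →+* F`, two subrings with reductions `(O∞, red∞ : O∞ → Fk)`,
`(O0, red0 : O0 → κ)`, an isomorphism `τ : Fk ≃ₐ[k] κ`, the substitution `Fr : Fk →ₐ[k] Fk`,
the four transport facts (= conclusions of `S18.H55T.transport_Pinf` / `exists_equiv_P0`),
chart coordinates `u : F`, `c : F1`, `w : Fk`, the lifting property (GR) at level `M`, and `hinf`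
in field form.  Output: the ring homomorphisms between the chart rings
`B = H40.chartB R0 u`, `BM = H40.chartB R0 c`, `R = integralClosure k[w] Fk` and
`H83.TwoComponents red1B red2B iotaB VB rbarB WR q ϖ`.
-/
import Fermat.Agent.S18.H55_GaussTransportCharts
import Fermat.Agent.S18.H40_CechFG
import Fermat.Agent.S34.H83_L0Target

set_option autoImplicit false
set_option linter.unusedSectionVars false

namespace Fermat.Agent.S34.H55

open Polynomial Fermat.Agent.S18 Fermat.Agent.S18.H55T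

section

variable {R0 k F1 Fk κ F : Type*} [CommRing R0] [Field k] [Field F1] [Algebra R0 F1]
  [Field Fk] [Algebra k Fk] [Field κ] [Algebra k κ] [Field F] [Algebra R0 F]
  {ϖ : R0} {π0 : R0 →+* k} {x1 θ : F1} {xb θb : Fk}

/-- a ring hom `F1 → F` which is `R0`-linear and sends the chart coordinate `c` to an element
integral over `R0[u]` maps the chart `R0[c]^int` into the chart `R0[u]^int`. -/
theorem map_mem_chartB (f : F1 →+* F) (hf : ∀ r : R0, f (algebraMap R0 F1 r) = algebraMap R0 F r)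
    {c : F1} {u : F} (hint : IsIntegral (Algebra.adjoin R0 {u}) (f c)) {b : F1}
    (hb : b ∈ H40.chartB R0 c) : f b ∈ H40.chartB R0 u :=
  isIntegral_adjoin_trans hint (isIntegral_adjoin_map_ringHom f hf hb)

/-- the restriction of `f : F1 →+* F` to the charts. -/
noncomputable def chartMap (f : F1 →+* F)
    (hf : ∀ r : R0, f (algebraMap R0 F1 r) = algebraMap R0 F r)
    {c : F1} {u : F} (hint : IsIntegral (Algebra.adjoin R0 {u}) (f c)) :
    ↥(H40.chartB R0 c) →+* ↥(H40.chartB R0 u) :=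
  (f.comp ((H40.chartB R0 c).val : ↥(H40.chartB R0 c) →+* F1)).codRestrict (H40.chartB R0 u)
    fun b => map_mem_chartB f hf hint b.2

@[simp] theorem coe_chartMap (f : F1 →+* F)
    (hf : ∀ r : R0, f (algebraMap R0 F1 r) = algebraMap R0 F r)
    {c : F1} {u : F} (hint : IsIntegral (Algebra.adjoin R0 {u}) (f c))
    (b : ↥(H40.chartB R0 c)) : ((chartMap f hf hint b : ↥(H40.chartB R0 u)) : F) = f b := rfl

/-- the chart `R0[c]^int` lies in the Gauss ring. -/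
theorem chart_le_O1 (M : H3.GaussModel ϖ π0 x1 θ xb θb) {c : F1} (hc : c ∈ M.O1) {b : F1}
    (hb : b ∈ H40.chartB R0 c) : b ∈ M.O1 :=
  M.mem_of_isIntegral_adjoin hc hb

/-- `res1` restricted to the chart, with values in the integral closure of `k[w]`. -/
noncomputable def rbarB (M : H3.GaussModel ϖ π0 x1 θ xb θb) {c : F1} (hc : c ∈ M.O1) {w : Fk}
    (hcw : M.res1 ⟨c, hc⟩ = w) :
    ↥(H40.chartB R0 c) →+* ↥(integralClosure (Algebra.adjoin k {w}) Fk) :=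
  (M.res1.comp ((((H40.chartB R0 c).val : ↥(H40.chartB R0 c) →+* F1)).codRestrict M.O1
      fun b => chart_le_O1 M hc b.2)).codRestrict (integralClosure (Algebra.adjoin k {w}) Fk)
    fun b => by
      have h := M.isIntegral_res1_adjoin hc b.2
      rw [hcw] at h
      exact h

theorem coe_rbarB (M : H3.GaussModel ϖ π0 x1 θ xb θb) {c : F1} (hc : c ∈ M.O1) {w : Fk}
    (hcw : M.res1 ⟨c, hc⟩ = w) (b : ↥(H40.chartB R0 c)) :
    ((rbarB M hc hcw b : ↥(integralClosure (Algebra.adjoin k {w}) Fk)) : Fk) =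
      M.res1 ⟨(b : F1), chart_le_O1 M hc b.2⟩ := rfl

/-- `τ⁻¹ ∘ red` restricted to the chart `R0[u]^int`, with values in the integral closure of
`k[w]`. -/
noncomputable def redB (τ : Fk ≃ₐ[k] κ) (O : Subring F) (red : O →+* κ)
    (hconst : ∀ r : R0, ∃ h : algebraMap R0 F r ∈ O, red ⟨_, h⟩ = algebraMap k κ (π0 r))
    (hOic : ∀ y : F, IsIntegral O y → y ∈ O) {u : F} (hu : u ∈ O) {w : Fk}
    (hw : IsIntegral (Algebra.adjoin k {w}) (τ.symm (red ⟨u, hu⟩))) :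
    ↥(H40.chartB R0 u) →+* ↥(integralClosure (Algebra.adjoin k {w}) Fk) :=
  (((τ.symm : κ →ₐ[k] Fk) : κ →+* Fk).comp
    (red.comp ((((H40.chartB R0 u).val : ↥(H40.chartB R0 u) →+* F)).codRestrict O
      fun b => mem_of_isIntegral_adjoin_of_closed O hOic (fun r => (hconst r).1) hu b.2))).codRestrict
    (integralClosure (Algebra.adjoin k {w}) Fk)
    fun b => (isIntegral_symm_red_of_coord (π0 := π0) τ O red hconst hOic hu hw b.2).2

theorem coe_redB (τ : Fk ≃ₐ[k] κ) (O : Subring F) (red : O →+* κ)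
    (hconst : ∀ r : R0, ∃ h : algebraMap R0 F r ∈ O, red ⟨_, h⟩ = algebraMap k κ (π0 r))
    (hOic : ∀ y : F, IsIntegral O y → y ∈ O) {u : F} (hu : u ∈ O) {w : Fk}
    (hw : IsIntegral (Algebra.adjoin k {w}) (τ.symm (red ⟨u, hu⟩)))
    (b : ↥(H40.chartB R0 u)) (hb : (b : F) ∈ O) :
    ((redB τ O red hconst hOic hu hw b : ↥(integralClosure (Algebra.adjoin k {w}) Fk)) : Fk) =
      τ.symm (red ⟨(b : F), hb⟩) := rfl

/-- the substitution `Fr` restricted to the integral closure of `k[w]` (`Fr w = w ^ q`). -/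
noncomputable def WR (Fr : Fk →ₐ[k] Fk) {w : Fk} (q : ℕ) (hFrw : Fr w = w ^ q) :
    ↥(integralClosure (Algebra.adjoin k {w}) Fk) →+*
      ↥(integralClosure (Algebra.adjoin k {w}) Fk) :=
  ((Fr : Fk →+* Fk).comp
    ((integralClosure (Algebra.adjoin k {w}) Fk).val :
      ↥(integralClosure (Algebra.adjoin k {w}) Fk) →+* Fk)).codRestrict
    (integralClosure (Algebra.adjoin k {w}) Fk)
    fun γ => by
      have h1 : IsIntegral (Algebra.adjoin k {Fr w}) (Fr (γ : Fk)) :=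
        isIntegral_adjoin_map Fr γ.2
      rw [hFrw] at h1
      exact isIntegral_adjoin_of_pow q h1

@[simp] theorem coe_WR (Fr : Fk →ₐ[k] Fk) {w : Fk} (q : ℕ) (hFrw : Fr w = w ^ q)
    (γ : ↥(integralClosure (Algebra.adjoin k {w}) Fk)) :
    ((WR Fr q hFrw γ : ↥(integralClosure (Algebra.adjoin k {w}) Fk)) : Fk) = Fr (γ : Fk) := rfl

/-- **The glue.** -/
theorem twoComponents (M : H3.GaussModel ϖ π0 x1 θ xb θb)
    (ι V : F1 →+* F)
    (hι : ∀ r : R0, ι (algebraMap R0 F1 r) = algebraMap R0 F r)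
    (hV : ∀ r : R0, V (algebraMap R0 F1 r) = algebraMap R0 F r)
    (Oi : Subring F) (redi : Oi →+* Fk) (O0 : Subring F) (red0 : O0 →+* κ)
    (hconsti : ∀ r : R0, ∃ h : algebraMap R0 F r ∈ Oi, redi ⟨_, h⟩ = algebraMap k Fk (π0 r))
    (hconst0 : ∀ r : R0, ∃ h : algebraMap R0 F r ∈ O0, red0 ⟨_, h⟩ = algebraMap k κ (π0 r))
    (hOici : ∀ y : F, IsIntegral Oi y → y ∈ Oi) (hOic0 : ∀ y : F, IsIntegral O0 y → y ∈ O0)
    (τ : Fk ≃ₐ[k] κ) (Fr : Fk →ₐ[k] Fk) (q : ℕ) (hq : 0 < q)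
    -- the four transport facts
    (Hiι : ∀ (y : F1) (hy : y ∈ M.O1), ∃ h : ι y ∈ Oi, redi ⟨ι y, h⟩ = M.res1 ⟨y, hy⟩)
    (HiV : ∀ (y : F1) (hy : y ∈ M.O1), ∃ h : V y ∈ Oi, redi ⟨V y, h⟩ = Fr (M.res1 ⟨y, hy⟩))
    (H0V : ∀ (y : F1) (hy : y ∈ M.O1), ∃ h : V y ∈ O0, red0 ⟨V y, h⟩ = τ (M.res1 ⟨y, hy⟩))
    (H0ι : ∀ (y : F1) (hy : y ∈ M.O1), ∃ h : ι y ∈ O0,
      red0 ⟨ι y, h⟩ = τ (Fr (M.res1 ⟨y, hy⟩)))
    -- the charts
    {c : F1} {u : F} {w : Fk} (hc : c ∈ M.O1) (hcw : M.res1 ⟨c, hc⟩ = w)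
    (hFrw : Fr w = w ^ q)
    (hιint : IsIntegral (Algebra.adjoin R0 {u}) (ι c))
    (hVint : IsIntegral (Algebra.adjoin R0 {u}) (V c))
    (hui : u ∈ Oi) (hu0 : u ∈ O0)
    (hwi : IsIntegral (Algebra.adjoin k {w}) ((AlgEquiv.refl : Fk ≃ₐ[k] Fk).symm (redi ⟨u, hui⟩)))
    (hw0 : IsIntegral (Algebra.adjoin k {w}) (τ.symm (red0 ⟨u, hu0⟩)))
    -- lifting at level `M`, `q`-th roots, `hinf`
    (hGR : ∀ γ : Fk, IsIntegral (Algebra.adjoin k {w}) γ →
      ∃ (b : F1) (hbO : b ∈ M.O1), IsIntegral (Algebra.adjoin R0 {c}) b ∧ M.res1 ⟨b, hbO⟩ = γ)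
    (hFrpow : ∀ γ : Fk, ∃ γ' : Fk, γ' ^ q = Fr γ)
    (hinfF : ∀ (z : F) (_ : IsIntegral (Algebra.adjoin R0 {u}) z) (h₁ : z ∈ Oi) (h₂ : z ∈ O0),
      redi ⟨z, h₁⟩ = 0 → red0 ⟨z, h₂⟩ = 0 →
        ∃ z' : F, IsIntegral (Algebra.adjoin R0 {u}) z' ∧ z = algebraMap R0 F ϖ * z') :
    H83.TwoComponents
      (redB (π0 := π0) (AlgEquiv.refl : Fk ≃ₐ[k] Fk) Oi redi hconsti hOici hui hwi)
      (redB (π0 := π0) τ O0 red0 hconst0 hOic0 hu0 hw0)
      (chartMap ι hι hιint) (chartMap V hV hVint) (rbarB M hc hcw) (WR Fr q hFrw) q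
      (algebraMap R0 ↥(H40.chartB R0 u) ϖ) := by
  have hrbar : Function.Surjective (rbarB M hc hcw) := by
    rintro ⟨γ, hγ⟩
    obtain ⟨b, hbO, hb, hres⟩ := hGR γ hγ
    refine ⟨⟨b, hb⟩, Subtype.ext ?_⟩
    rw [coe_rbarB]
    exact hres
  have h1ι : ∀ ψ, redB (π0 := π0) (AlgEquiv.refl : Fk ≃ₐ[k] Fk) Oi redi hconsti hOici hui hwi
      (chartMap ι hι hιint ψ) = rbarB M hc hcw ψ := by
    intro ψ
    apply Subtype.ext
    obtain ⟨h, hh⟩ := Hiι (ψ : F1) (chart_le_O1 M hc ψ.2)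
    rw [coe_redB _ _ _ _ _ _ _ _ h, coe_rbarB]
    exact hh
  have h1V : ∀ ψ, redB (π0 := π0) (AlgEquiv.refl : Fk ≃ₐ[k] Fk) Oi redi hconsti hOici hui hwi
      (chartMap V hV hVint ψ) = WR Fr q hFrw (rbarB M hc hcw ψ) := by
    intro ψ
    apply Subtype.ext
    obtain ⟨h, hh⟩ := HiV (ψ : F1) (chart_le_O1 M hc ψ.2)
    rw [coe_redB _ _ _ _ _ _ _ _ h, coe_WR, coe_rbarB]
    exact hh
  have h2ι : ∀ ψ, redB (π0 := π0) τ O0 red0 hconst0 hOic0 hu0 hw0
      (chartMap ι hι hιint ψ) = WR Fr q hFrw (rbarB M hc hcw ψ) := by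
    intro ψ
    apply Subtype.ext
    obtain ⟨h, hh⟩ := H0ι (ψ : F1) (chart_le_O1 M hc ψ.2)
    rw [coe_redB _ _ _ _ _ _ _ _ h, coe_WR, coe_rbarB]
    change τ.symm (red0 ⟨ι (ψ : F1), h⟩) = _
    rw [hh]
    exact τ.symm_apply_apply _
  have h2V : ∀ ψ, redB (π0 := π0) τ O0 red0 hconst0 hOic0 hu0 hw0
      (chartMap V hV hVint ψ) = rbarB M hc hcw ψ := by
    intro ψ
    apply Subtype.ext
    obtain ⟨h, hh⟩ := H0V (ψ : F1) (chart_le_O1 M hc ψ.2)
    rw [coe_redB _ _ _ _ _ _ _ _ h, coe_rbarB]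
    change τ.symm (red0 ⟨V (ψ : F1), h⟩) = _
    rw [hh]
    exact τ.symm_apply_apply _
  refine ⟨?_, h1ι, h1V, h2ι, h2V, hrbar, ?_, ?_, ?_⟩
  · -- hroot
    rintro ⟨γ, hγ⟩
    obtain ⟨γ', hγ'⟩ := hFrpow γ
    have hFrγ : IsIntegral (Algebra.adjoin k {w}) (Fr γ) :=
      (WR Fr q hFrw ⟨γ, hγ⟩).2
    have hγ'int : IsIntegral (Algebra.adjoin k {w}) γ' := by
      apply IsIntegral.of_pow hq
      rw [hγ']
      exact hFrγ
    exact ⟨⟨γ', hγ'int⟩, Subtype.ext (by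
      rw [coe_WR]
      exact hγ')⟩
  · -- hred₁
    intro r
    obtain ⟨ψ, hψ⟩ := hrbar r
    exact ⟨chartMap ι hι hιint ψ, (h1ι ψ).trans hψ⟩
  · -- hred₂
    intro r
    obtain ⟨ψ, hψ⟩ := hrbar r
    exact ⟨chartMap V hV hVint ψ, (h2V ψ).trans hψ⟩
  · -- hinf
    intro z hz1 hz2
    have hzi : (z : F) ∈ Oi :=
      mem_of_isIntegral_adjoin_of_closed Oi hOici (fun r => (hconsti r).1) hui z.2
    have hz0 : (z : F) ∈ O0 :=
      mem_of_isIntegral_adjoin_of_closed O0 hOic0 (fun r => (hconst0 r).1) hu0 z.2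
    have e1 : redi ⟨(z : F), hzi⟩ = 0 := by
      have := congrArg Subtype.val hz1
      rw [coe_redB _ _ _ _ _ _ _ _ hzi] at this
      exact this
    have e2 : red0 ⟨(z : F), hz0⟩ = 0 := by
      have := congrArg Subtype.val hz2
      rw [coe_redB _ _ _ _ _ _ _ _ hz0] at this
      have h3 : τ (τ.symm (red0 ⟨(z : F), hz0⟩)) = τ 0 := congrArg τ this
      rwa [τ.apply_symm_apply, map_zero] at h3
    obtain ⟨z', hz', hzz'⟩ := hinfF (z : F) z.2 hzi hz0 e1 e2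
    rw [Ideal.mem_span_singleton']
    refine ⟨⟨z', hz'⟩, Subtype.ext ?_⟩
    change z' * algebraMap R0 F ϖ = (z : F)
    rw [hzz', mul_comm]

end

end Fermat.Agent.S34.H55
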