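/-
S34 / L0 → L1 glue, second form (helper55): the two places carry reductions with values in a
COMMON BIG FIELD `κ` (e.g. `LaurentSeries kA`, as for `CA.H99.PlaceOver`) and `Fk` sits in `κ`
through `incl : Fk →ₐ[k] κ`.

* `transport_of_values` : (T1) + generators: if `red (V x1) = g xb`, `red (V θ) = g θb` for a
  `k`-embedding `g : Fk →ₐ[k] κ` then `red (V y) = g (res1 y)` on the whole Gauss ring;
* `PlaceOver.res1_mem_of_subfield` : the residues of a `PlaceOver` lie in any subfield containing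
  `ι O` and `θb`;
* `twoComponents_sym` : `H83.TwoComponents` with an isomorphism `τ` at BOTH places;
* `twoComponents_of_incl` : the same from reductions into `κ` with range in `incl Fk`.
-/
import Fermat.Agent.S34.H55_TwoComponentsGlue
import Fermat.Agent.CA.H99_TwoPlacesThm

set_option autoImplicit false
set_option linter.unusedSectionVars false

namespace Fermat.Agent.S34.H55

open Polynomial Fermat.Agent.S18 Fermat.Agent.S18.H55T

section Values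

variable {R0 k F1 Fk κ F : Type*} [CommRing R0] [Field k] [Field F1] [Algebra R0 F1]
  [Field Fk] [Algebra k Fk] [Field κ] [Algebra k κ] [Field F]
  {ϖ : R0} {π0 : R0 →+* k} {x1 θ : F1} {xb θb : Fk}

/-- **(T1) with prescribed values on the generators.** -/
theorem transport_of_values (M : H3.GaussModel ϖ π0 x1 θ xb θb)
    (hπ0 : Function.Surjective π0) (hπϖ : π0 ϖ = 0)
    (hgenk : ∀ γ : Fk, ∃ s : k[X], aeval xb s ≠ 0 ∧ ∃ g : k[X][X],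
      aeval xb s * γ = g.eval₂ ((aeval xb : k[X] →ₐ[k] Fk) : k[X] →+* Fk) θb)
    (hgen : IntermediateField.adjoin k {xb, θb} = ⊤)
    (V : F1 →+* F) (O : Subring F) (red : O →+* κ)
    (hconst : ∀ r : R0, ∃ h : V (algebraMap R0 F1 r) ∈ O,
      red ⟨_, h⟩ = algebraMap k κ (π0 r))
    (hx : V x1 ∈ O) (hθ : V θ ∈ O)
    (hinv : ∀ (u : F) (hu : u ∈ O), red ⟨u, hu⟩ ≠ 0 → u⁻¹ ∈ O)
    (g : Fk →ₐ[k] κ) (hgx : red ⟨V x1, hx⟩ = g xb) (hgθ : red ⟨V θ, hθ⟩ = g θb)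
    (htr : Transcendental k (g xb)) :
    ∀ (y : F1) (hy : y ∈ M.O1), ∃ h : V y ∈ O, red ⟨V y, h⟩ = g (M.res1 ⟨y, hy⟩) := by
  obtain ⟨τ, hτx, hτθ, hτ⟩ :=
    exists_transport_algHom M hπ0 hπϖ hgenk V O red hconst hx hθ (by rw [hgx]; exact htr) hinv
  have hτg : τ = g :=
    algHom_eq_of_adjoin_pair τ g xb θb hgen (hτx.trans hgx) (hτθ.trans hgθ)
  intro y hy
  obtain ⟨h, hh⟩ := hτ y hy
  exact ⟨h, by rw [hh, hτg]⟩

end Values

section Place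

open Fermat.Agent.CA.H99

variable {O : Type*} [CommRing O] {L : Type*} [Field L] [Algebra O L] {Fk : Type*} [Field Fk]
  {ϖ : O} {θ : L} {ι : O →+* Fk} {θb : Fk}

/-- the residues of a `PlaceOver` lie in every subfield containing `ι O` and `θb`. -/
theorem PlaceOver.res1_mem_of_subfield (P : PlaceOver ϖ θ ι θb) (S : Subfield Fk)
    (hι : ∀ a : O, ι a ∈ S) (hθb : θb ∈ S) (y : L) (hy : y ∈ P.O1) : P.res1 ⟨y, hy⟩ ∈ S := by
  obtain ⟨a, s, hs, hys⟩ := P.exists_repr y hy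
  have hev : ∀ p : O[X], p.eval₂ ι θb ∈ S := by
    intro p
    rw [eval₂_eq_sum_range]
    exact S.sum_mem fun i _ => S.mul_mem (hι _) (S.pow_mem hθb i)
  have h1 : (⟨y, hy⟩ : P.O1) * ⟨aeval θ s, P.aeval_mem s⟩ = ⟨aeval θ a, P.aeval_mem a⟩ :=
    Subtype.ext hys
  have h2 := congrArg P.res1 h1
  rw [map_mul, P.res1_aeval, P.res1_aeval] at h2
  have h3 : P.res1 ⟨y, hy⟩ = a.eval₂ ι θb / s.eval₂ ι θb := by
    rw [eq_div_iff hs]
    exact h2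
  rw [h3]
  exact S.div_mem (hev a) (hev s)

end Place

section Sym

variable {R0 k F1 Fk κi κ0 F : Type*} [CommRing R0] [Field k] [Field F1] [Algebra R0 F1]
  [Field Fk] [Algebra k Fk] [Field κi] [Algebra k κi] [Field κ0] [Algebra k κ0] [Field F]
  [Algebra R0 F] {ϖ : R0} {π0 : R0 →+* k} {x1 θ : F1} {xb θb : Fk}

/-- **The glue, symmetric form** (an isomorphism `τ` at both places). -/
theorem twoComponents_sym (M : H3.GaussModel ϖ π0 x1 θ xb θb)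
    (ι V : F1 →+* F)
    (hι : ∀ r : R0, ι (algebraMap R0 F1 r) = algebraMap R0 F r)
    (hV : ∀ r : R0, V (algebraMap R0 F1 r) = algebraMap R0 F r)
    (Oi : Subring F) (redi : Oi →+* κi) (O0 : Subring F) (red0 : O0 →+* κ0)
    (hconsti : ∀ r : R0, ∃ h : algebraMap R0 F r ∈ Oi, redi ⟨_, h⟩ = algebraMap k κi (π0 r))
    (hconst0 : ∀ r : R0, ∃ h : algebraMap R0 F r ∈ O0, red0 ⟨_, h⟩ = algebraMap k κ0 (π0 r))
    (hOici : ∀ y : F, IsIntegral Oi y → y ∈ Oi) (hOic0 : ∀ y : F, IsIntegral O0 y → y ∈ O0)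
    (τi : Fk ≃ₐ[k] κi) (τ0 : Fk ≃ₐ[k] κ0) (Fr : Fk →ₐ[k] Fk) (q : ℕ) (hq : 0 < q)
    (Hiι : ∀ (y : F1) (hy : y ∈ M.O1), ∃ h : ι y ∈ Oi, redi ⟨ι y, h⟩ = τi (M.res1 ⟨y, hy⟩))
    (HiV : ∀ (y : F1) (hy : y ∈ M.O1), ∃ h : V y ∈ Oi,
      redi ⟨V y, h⟩ = τi (Fr (M.res1 ⟨y, hy⟩)))
    (H0V : ∀ (y : F1) (hy : y ∈ M.O1), ∃ h : V y ∈ O0, red0 ⟨V y, h⟩ = τ0 (M.res1 ⟨y, hy⟩))
    (H0ι : ∀ (y : F1) (hy : y ∈ M.O1), ∃ h : ι y ∈ O0,
      red0 ⟨ι y, h⟩ = τ0 (Fr (M.res1 ⟨y, hy⟩)))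
    {c : F1} {u : F} {w : Fk} (hc : c ∈ M.O1) (hcw : M.res1 ⟨c, hc⟩ = w)
    (hFrw : Fr w = w ^ q)
    (hιint : IsIntegral (Algebra.adjoin R0 {u}) (ι c))
    (hVint : IsIntegral (Algebra.adjoin R0 {u}) (V c))
    (hui : u ∈ Oi) (hu0 : u ∈ O0)
    (hwi : IsIntegral (Algebra.adjoin k {w}) (τi.symm (redi ⟨u, hui⟩)))
    (hw0 : IsIntegral (Algebra.adjoin k {w}) (τ0.symm (red0 ⟨u, hu0⟩)))
    (hGR : ∀ γ : Fk, IsIntegral (Algebra.adjoin k {w}) γ →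
      ∃ (b : F1) (hbO : b ∈ M.O1), IsIntegral (Algebra.adjoin R0 {c}) b ∧ M.res1 ⟨b, hbO⟩ = γ)
    (hFrpow : ∀ γ : Fk, ∃ γ' : Fk, γ' ^ q = Fr γ)
    (hinfF : ∀ (z : F) (_ : IsIntegral (Algebra.adjoin R0 {u}) z) (h₁ : z ∈ Oi) (h₂ : z ∈ O0),
      redi ⟨z, h₁⟩ = 0 → red0 ⟨z, h₂⟩ = 0 →
        ∃ z' : F, IsIntegral (Algebra.adjoin R0 {u}) z' ∧ z = algebraMap R0 F ϖ * z') :
    H83.TwoComponents
      (redB (π0 := π0) τi Oi redi hconsti hOici hui hwi)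
      (redB (π0 := π0) τ0 O0 red0 hconst0 hOic0 hu0 hw0)
      (chartMap ι hι hιint) (chartMap V hV hVint) (rbarB M hc hcw) (WR Fr q hFrw) q
      (algebraMap R0 ↥(H40.chartB R0 u) ϖ) := by
  have hrbar : Function.Surjective (rbarB M hc hcw) := by
    rintro ⟨γ, hγ⟩
    obtain ⟨b, hbO, hb, hres⟩ := hGR γ hγ
    refine ⟨⟨b, hb⟩, Subtype.ext ?_⟩
    rw [coe_rbarB]
    exact hres
  have h1ι : ∀ ψ, redB (π0 := π0) τi Oi redi hconsti hOici hui hwi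
      (chartMap ι hι hιint ψ) = rbarB M hc hcw ψ := by
    intro ψ
    apply Subtype.ext
    obtain ⟨h, hh⟩ := Hiι (ψ : F1) (chart_le_O1 M hc ψ.2)
    rw [coe_redB _ _ _ _ _ _ _ _ h, coe_rbarB]
    change τi.symm (redi ⟨ι (ψ : F1), h⟩) = _
    rw [hh]
    exact τi.symm_apply_apply _
  have h1V : ∀ ψ, redB (π0 := π0) τi Oi redi hconsti hOici hui hwi
      (chartMap V hV hVint ψ) = WR Fr q hFrw (rbarB M hc hcw ψ) := by
    intro ψ
    apply Subtype.ext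
    obtain ⟨h, hh⟩ := HiV (ψ : F1) (chart_le_O1 M hc ψ.2)
    rw [coe_redB _ _ _ _ _ _ _ _ h, coe_WR, coe_rbarB]
    change τi.symm (redi ⟨V (ψ : F1), h⟩) = _
    rw [hh]
    exact τi.symm_apply_apply _
  have h2ι : ∀ ψ, redB (π0 := π0) τ0 O0 red0 hconst0 hOic0 hu0 hw0
      (chartMap ι hι hιint ψ) = WR Fr q hFrw (rbarB M hc hcw ψ) := by
    intro ψ
    apply Subtype.ext
    obtain ⟨h, hh⟩ := H0ι (ψ : F1) (chart_le_O1 M hc ψ.2)
    rw [coe_redB _ _ _ _ _ _ _ _ h, coe_WR, coe_rbarB]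
    change τ0.symm (red0 ⟨ι (ψ : F1), h⟩) = _
    rw [hh]
    exact τ0.symm_apply_apply _
  have h2V : ∀ ψ, redB (π0 := π0) τ0 O0 red0 hconst0 hOic0 hu0 hw0
      (chartMap V hV hVint ψ) = rbarB M hc hcw ψ := by
    intro ψ
    apply Subtype.ext
    obtain ⟨h, hh⟩ := H0V (ψ : F1) (chart_le_O1 M hc ψ.2)
    rw [coe_redB _ _ _ _ _ _ _ _ h, coe_rbarB]
    change τ0.symm (red0 ⟨V (ψ : F1), h⟩) = _
    rw [hh]
    exact τ0.symm_apply_apply _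
  refine ⟨?_, h1ι, h1V, h2ι, h2V, hrbar, ?_, ?_, ?_⟩
  · rintro ⟨γ, hγ⟩
    obtain ⟨γ', hγ'⟩ := hFrpow γ
    have hFrγ : IsIntegral (Algebra.adjoin k {w}) (Fr γ) :=
      (WR Fr q hFrw ⟨γ, hγ⟩).2
    have hγ'int : IsIntegral (Algebra.adjoin k {w}) γ' := by
      apply IsIntegral.of_pow hq
      rw [hγ']
      exact hFrγ
    exact ⟨⟨γ', hγ'int⟩, Subtype.ext (by
      rw [coe_WR]
      exact hγ')⟩
  · intro r
    obtain ⟨ψ, hψ⟩ := hrbar r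
    exact ⟨chartMap ι hι hιint ψ, (h1ι ψ).trans hψ⟩
  · intro r
    obtain ⟨ψ, hψ⟩ := hrbar r
    exact ⟨chartMap V hV hVint ψ, (h2V ψ).trans hψ⟩
  · intro z hz1 hz2
    have hzi : (z : F) ∈ Oi :=
      mem_of_isIntegral_adjoin_of_closed Oi hOici (fun r => (hconsti r).1) hui z.2
    have hz0 : (z : F) ∈ O0 :=
      mem_of_isIntegral_adjoin_of_closed O0 hOic0 (fun r => (hconst0 r).1) hu0 z.2
    have e1 : redi ⟨(z : F), hzi⟩ = 0 := by
      have := congrArg Subtype.val hz1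
      rw [coe_redB _ _ _ _ _ _ _ _ hzi] at this
      have h3 : τi (τi.symm (redi ⟨(z : F), hzi⟩)) = τi 0 := congrArg τi this
      rwa [τi.apply_symm_apply, map_zero] at h3
    have e2 : red0 ⟨(z : F), hz0⟩ = 0 := by
      have := congrArg Subtype.val hz2
      rw [coe_redB _ _ _ _ _ _ _ _ hz0] at this
      have h3 : τ0 (τ0.symm (red0 ⟨(z : F), hz0⟩)) = τ0 0 := congrArg τ0 this
      rwa [τ0.apply_symm_apply, map_zero] at h3
    obtain ⟨z', hz', hzz'⟩ := hinfF (z : F) z.2 hzi hz0 e1 e2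
    rw [Ideal.mem_span_singleton']
    refine ⟨⟨z', hz'⟩, Subtype.ext ?_⟩
    change z' * algebraMap R0 F ϖ = (z : F)
    rw [hzz', mul_comm]

end Sym

section Incl

variable {k Fk κ F : Type*} [Field k] [Field Fk] [Algebra k Fk] [Field κ] [Algebra k κ] [Field F]

/-- corestriction of a reduction `O → κ` with range in `incl Fk` to the field range of `incl`. -/
noncomputable def redR (incl : Fk →ₐ[k] κ) (O : Subring F) (red : O →+* κ)
    (hrange : ∀ y : O, red y ∈ incl.fieldRange) : O →+* ↥incl.fieldRange :=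
  red.codRestrict incl.fieldRange hrange

@[simp] theorem coe_redR (incl : Fk →ₐ[k] κ) (O : Subring F) (red : O →+* κ)
    (hrange : ∀ y : O, red y ∈ incl.fieldRange) (y : O) :
    ((redR incl O red hrange y : ↥incl.fieldRange) : κ) = red y := rfl

theorem redR_eq_iff (incl : Fk →ₐ[k] κ) (O : Subring F) (red : O →+* κ)
    (hrange : ∀ y : O, red y ∈ incl.fieldRange) (y : O) (γ : Fk) :
    redR incl O red hrange y = incl.equivFieldRange γ ↔ red y = incl γ := by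
  constructor
  · intro h
    have := congrArg Subtype.val h
    rwa [coe_redR, AlgHom.equivFieldRange_apply_coe] at this
  · intro h
    apply Subtype.ext
    rw [coe_redR, AlgHom.equivFieldRange_apply_coe]
    exact h

theorem redR_eq_zero_iff (incl : Fk →ₐ[k] κ) (O : Subring F) (red : O →+* κ)
    (hrange : ∀ y : O, red y ∈ incl.fieldRange) (y : O) :
    redR incl O red hrange y = 0 ↔ red y = 0 := by
  constructor
  · intro h
    have := congrArg Subtype.val h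
    rwa [coe_redR] at this
  · intro h
    apply Subtype.ext
    rw [coe_redR]
    exact h

end Incl

section OfIncl

variable {R0 k F1 Fk κ F : Type*} [CommRing R0] [Field k] [Field F1] [Algebra R0 F1]
  [Field Fk] [Algebra k Fk] [Field κ] [Algebra k κ] [Field F]
  [Algebra R0 F] {ϖ : R0} {π0 : R0 →+* k} {x1 θ : F1} {xb θb : Fk}

/-- **The glue for reductions with values in a common big field `κ ⊇ incl Fk`**
(e.g. two `CA.H99.PlaceOver`s with values in `LaurentSeries kA`). -/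
theorem twoComponents_of_incl (M : H3.GaussModel ϖ π0 x1 θ xb θb)
    (ι V : F1 →+* F)
    (hι : ∀ r : R0, ι (algebraMap R0 F1 r) = algebraMap R0 F r)
    (hV : ∀ r : R0, V (algebraMap R0 F1 r) = algebraMap R0 F r)
    (incl : Fk →ₐ[k] κ)
    (Oi : Subring F) (redi : Oi →+* κ) (O0 : Subring F) (red0 : O0 →+* κ)
    (hri : ∀ y : Oi, redi y ∈ incl.fieldRange) (hr0 : ∀ y : O0, red0 y ∈ incl.fieldRange)
    (hconsti : ∀ r : R0, ∃ h : algebraMap R0 F r ∈ Oi, redi ⟨_, h⟩ = algebraMap k κ (π0 r))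
    (hconst0 : ∀ r : R0, ∃ h : algebraMap R0 F r ∈ O0, red0 ⟨_, h⟩ = algebraMap k κ (π0 r))
    (hOici : ∀ y : F, IsIntegral Oi y → y ∈ Oi) (hOic0 : ∀ y : F, IsIntegral O0 y → y ∈ O0)
    (Fr : Fk →ₐ[k] Fk) (q : ℕ) (hq : 0 < q)
    (Hiι : ∀ (y : F1) (hy : y ∈ M.O1), ∃ h : ι y ∈ Oi, redi ⟨ι y, h⟩ = incl (M.res1 ⟨y, hy⟩))
    (HiV : ∀ (y : F1) (hy : y ∈ M.O1), ∃ h : V y ∈ Oi,
      redi ⟨V y, h⟩ = incl (Fr (M.res1 ⟨y, hy⟩)))
    (H0V : ∀ (y : F1) (hy : y ∈ M.O1), ∃ h : V y ∈ O0, red0 ⟨V y, h⟩ = incl (M.res1 ⟨y, hy⟩))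
    (H0ι : ∀ (y : F1) (hy : y ∈ M.O1), ∃ h : ι y ∈ O0,
      red0 ⟨ι y, h⟩ = incl (Fr (M.res1 ⟨y, hy⟩)))
    {c : F1} {u : F} {w : Fk} (hc : c ∈ M.O1) (hcw : M.res1 ⟨c, hc⟩ = w)
    (hFrw : Fr w = w ^ q)
    (hιint : IsIntegral (Algebra.adjoin R0 {u}) (ι c))
    (hVint : IsIntegral (Algebra.adjoin R0 {u}) (V c))
    (hui : u ∈ Oi) (hu0 : u ∈ O0)
    (hwi : ∃ γ : Fk, IsIntegral (Algebra.adjoin k {w}) γ ∧ redi ⟨u, hui⟩ = incl γ)
    (hw0 : ∃ γ : Fk, IsIntegral (Algebra.adjoin k {w}) γ ∧ red0 ⟨u, hu0⟩ = incl γ)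
    (hGR : ∀ γ : Fk, IsIntegral (Algebra.adjoin k {w}) γ →
      ∃ (b : F1) (hbO : b ∈ M.O1), IsIntegral (Algebra.adjoin R0 {c}) b ∧ M.res1 ⟨b, hbO⟩ = γ)
    (hFrpow : ∀ γ : Fk, ∃ γ' : Fk, γ' ^ q = Fr γ)
    (hinfF : ∀ (z : F) (_ : IsIntegral (Algebra.adjoin R0 {u}) z) (h₁ : z ∈ Oi) (h₂ : z ∈ O0),
      redi ⟨z, h₁⟩ = 0 → red0 ⟨z, h₂⟩ = 0 →
        ∃ z' : F, IsIntegral (Algebra.adjoin R0 {u}) z' ∧ z = algebraMap R0 F ϖ * z') :
    ∃ red₁ red₂ : ↥(H40.chartB R0 u) →+* ↥(integralClosure (Algebra.adjoin k {w}) Fk),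
      (∀ (b : ↥(H40.chartB R0 u)) (h : (b : F) ∈ Oi),
        incl ((red₁ b : ↥(integralClosure (Algebra.adjoin k {w}) Fk)) : Fk) = redi ⟨b, h⟩) ∧
      (∀ (b : ↥(H40.chartB R0 u)) (h : (b : F) ∈ O0),
        incl ((red₂ b : ↥(integralClosure (Algebra.adjoin k {w}) Fk)) : Fk) = red0 ⟨b, h⟩) ∧
      H83.TwoComponents red₁ red₂ (chartMap ι hι hιint) (chartMap V hV hVint)
        (rbarB M hc hcw) (WR Fr q hFrw) q (algebraMap R0 ↥(H40.chartB R0 u) ϖ) := by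
  set τ : Fk ≃ₐ[k] ↥incl.fieldRange := incl.equivFieldRange with hτ
  have hτsymm : ∀ (O : Subring F) (red : O →+* κ) (hr : ∀ y : O, red y ∈ incl.fieldRange)
      (y : O) (γ : Fk), red y = incl γ → τ.symm (redR incl O red hr y) = γ := by
    intro O red hr y γ h
    rw [(redR_eq_iff incl O red hr y γ).mpr h]
    exact τ.symm_apply_apply γ
  have hci : ∀ r : R0, ∃ h : algebraMap R0 F r ∈ Oi,
      redR incl Oi redi hri ⟨_, h⟩ = algebraMap k ↥incl.fieldRange (π0 r) := by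
    intro r
    obtain ⟨h, hh⟩ := hconsti r
    exact ⟨h, Subtype.ext hh⟩
  have hc0 : ∀ r : R0, ∃ h : algebraMap R0 F r ∈ O0,
      redR incl O0 red0 hr0 ⟨_, h⟩ = algebraMap k ↥incl.fieldRange (π0 r) := by
    intro r
    obtain ⟨h, hh⟩ := hconst0 r
    exact ⟨h, Subtype.ext hh⟩
  have hwi' : IsIntegral (Algebra.adjoin k {w}) (τ.symm (redR incl Oi redi hri ⟨u, hui⟩)) := by
    obtain ⟨γ, hγ, hh⟩ := hwi
    rw [hτsymm Oi redi hri ⟨u, hui⟩ γ hh]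
    exact hγ
  have hw0' : IsIntegral (Algebra.adjoin k {w}) (τ.symm (redR incl O0 red0 hr0 ⟨u, hu0⟩)) := by
    obtain ⟨γ, hγ, hh⟩ := hw0
    rw [hτsymm O0 red0 hr0 ⟨u, hu0⟩ γ hh]
    exact hγ
  have key := twoComponents_sym (π0 := π0) M ι V hι hV Oi (redR incl Oi redi hri) O0
    (redR incl O0 red0 hr0) hci hc0 hOici hOic0 τ τ Fr q hq
    (fun y hy => by
      obtain ⟨h, hh⟩ := Hiι y hy
      exact ⟨h, (redR_eq_iff incl Oi redi hri ⟨ι y, h⟩ _).mpr hh⟩)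
    (fun y hy => by
      obtain ⟨h, hh⟩ := HiV y hy
      exact ⟨h, (redR_eq_iff incl Oi redi hri ⟨V y, h⟩ _).mpr hh⟩)
    (fun y hy => by
      obtain ⟨h, hh⟩ := H0V y hy
      exact ⟨h, (redR_eq_iff incl O0 red0 hr0 ⟨V y, h⟩ _).mpr hh⟩)
    (fun y hy => by
      obtain ⟨h, hh⟩ := H0ι y hy
      exact ⟨h, (redR_eq_iff incl O0 red0 hr0 ⟨ι y, h⟩ _).mpr hh⟩)
    hc hcw hFrw hιint hVint hui hu0 hwi' hw0' hGR hFrpow
    (fun z hz h₁ h₂ e₁ e₂ => hinfF z hz h₁ h₂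
      ((redR_eq_zero_iff incl Oi redi hri ⟨z, h₁⟩).mp e₁)
      ((redR_eq_zero_iff incl O0 red0 hr0 ⟨z, h₂⟩).mp e₂))
  refine ⟨_, _, ?_, ?_, key⟩
  · intro b h
    rw [coe_redB _ _ _ _ _ _ _ _ h]
    have h1 : ((τ (τ.symm (redR incl Oi redi hri ⟨(b : F), h⟩)) : ↥incl.fieldRange) : κ) =
        incl (τ.symm (redR incl Oi redi hri ⟨(b : F), h⟩)) :=
      AlgHom.equivFieldRange_apply_coe incl _
    rw [← h1, τ.apply_symm_apply, coe_redR]
  · intro b h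
    rw [coe_redB _ _ _ _ _ _ _ _ h]
    have h1 : ((τ (τ.symm (redR incl O0 red0 hr0 ⟨(b : F), h⟩)) : ↥incl.fieldRange) : κ) =
        incl (τ.symm (redR incl O0 red0 hr0 ⟨(b : F), h⟩)) :=
      AlgHom.equivFieldRange_apply_coe incl _
    rw [← h1, τ.apply_symm_apply, coe_redR]

end OfIncl

end Fermat.Agent.S34.H55
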