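import Mathlib
import Fermat.Agent.S34.H92_GaussLevelM
import Fermat.Agent.S18.H3_ChartRing

/-!
# S34 / L0 (T) wrapper (helper92): the level-`M` Gauss ring `V_M` as an `H3.GaussModel`

`gaussModelVM : H3.GaussModel (ℓ : A₁) (resA0) j j_M j̄ j̄_M` with `O1 = (VM).toSubring` and
`res1 = resMF` (so `(res1 y : LaurentSeries kA) = resM y`), for every `M` with `ℓ ∤ M`.
-/

set_option autoImplicit false
set_option synthInstance.maxHeartbeats 400000
set_option linter.unusedSectionVars false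

noncomputable section

namespace Fermat.Agent.S34.H92

open ModularCurve Polynomial AlgebraicCurve IsLocalRing
open Fermat.Agent.S18 Fermat.Agent.S18.H92 Fermat.Agent.S18.H45

local notation "Qbar" => AlgebraicClosure ℚ

variable (M : ℕ) [NeZero M] {ℓ : ℕ} [hℓ : Fact ℓ.Prime] (hℓM : ¬ ℓ ∣ M)
  (A : ValuationSubring Qbar) (hA : A.LiesOverPrime ℓ)

local notation "kA" => IsLocalRing.ResidueField A
local notation "A₁" => H45.A0 A ℓ
local notation "L₁" => H45.unrCyclo ℓ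
local notation "FM" => modularFunctionFieldFullC (H45.unrCyclo ℓ) M
local notation "FkM" => modularFunctionFieldFullC (IsLocalRing.ResidueField A) M

/-- `resMF` on the underlying subring of `V_M`. -/
def resSub : (VM M hℓM A hA).toSubring →+* FkM := resMF M hℓM A hA

theorem resSub_apply (y : FM) (hy : y ∈ (VM M hℓM A hA).toSubring) :
    resSub M hℓM A hA ⟨y, hy⟩ = resMF M hℓM A hA ⟨y, hy⟩ := rfl

theorem coe_resSub (y : FM) (hy : y ∈ (VM M hℓM A hA).toSubring) :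
    ((resSub M hℓM A hA ⟨y, hy⟩ : FkM) : LaurentSeries kA) = resM M hℓM A hA ⟨y, hy⟩ := rfl

theorem resMF_jK (h : H16.jK L₁ M ∈ VM M hℓM A hA) :
    resMF M hℓM A hA ⟨_, h⟩ = H16.jK kA M := by
  obtain ⟨hf, e⟩ := jK_mem_VM M hℓM A hA
  apply Subtype.ext
  rw [H16.coe_jK, ← e]
  rfl

theorem resMF_jNK (h : H16.jNK L₁ M ∈ VM M hℓM A hA) :
    resMF M hℓM A hA ⟨_, h⟩ = H16.jNK kA M := by
  obtain ⟨hf, e⟩ := jNK_mem_VM M hℓM A hA
  apply Subtype.ext
  rw [H16.coe_jNK, ← e]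
  rfl

theorem algebraMap_A0_mem_VM (a : A₁) : algebraMap A₁ FM a ∈ VM M hℓM A hA :=
  (const_mem_VM_iff M hℓM A hA (a : L₁)).2 a.2

theorem resMF_algebraMap_A0 (a : A₁) :
    resMF M hℓM A hA ⟨algebraMap A₁ FM a, algebraMap_A0_mem_VM M hℓM A hA a⟩ =
      algebraMap kA FkM (H45.resA0 A ℓ a) :=
  resMF_const M hℓM A hA a

/-- polynomial expressions in `j` lie in `V_M` and reduce coefficientwise. -/
theorem aeval_jK_mem_VM (s : A₁[X]) :
    ∃ h : Polynomial.aeval (H16.jK L₁ M) s ∈ (VM M hℓM A hA).toSubring,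
      resSub M hℓM A hA ⟨_, h⟩ = Polynomial.aeval (H16.jK kA M) (s.map (H45.resA0 A ℓ)) := by
  obtain ⟨hj, -⟩ := jK_mem_VM M hℓM A hA
  obtain ⟨h, hh⟩ := H3.eval₂_mem_res (VM M hℓM A hA).toSubring (resSub M hℓM A hA)
    (algebraMap A₁ FM) ((algebraMap kA FkM).comp (H45.resA0 A ℓ))
    (fun a => ⟨algebraMap_A0_mem_VM M hℓM A hA a, resMF_algebraMap_A0 M hℓM A hA a⟩)
    (H16.jK L₁ M) hj s
  have e : Polynomial.aeval (H16.jK L₁ M) s = s.eval₂ (algebraMap A₁ FM) (H16.jK L₁ M) :=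
    Polynomial.aeval_def _ s
  have hmem : Polynomial.aeval (H16.jK L₁ M) s ∈ (VM M hℓM A hA).toSubring := e ▸ h
  refine ⟨hmem, ?_⟩
  have e2 : (⟨Polynomial.aeval (H16.jK L₁ M) s, hmem⟩ : (VM M hℓM A hA).toSubring) =
      ⟨s.eval₂ (algebraMap A₁ FM) (H16.jK L₁ M), h⟩ := Subtype.ext e
  rw [e2, hh, resSub_apply, resMF_jK, Polynomial.aeval_def, Polynomial.eval₂_map]

/-- **The level-`M` Gauss ring as an `H3.GaussModel`** (`O1 = V_M`, `res1 = resMF`). -/
def gaussModelVM :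
    H3.GaussModel (((ℓ : ℕ) : A₁)) (H45.resA0 A ℓ) (H16.jK L₁ M) (H16.jNK L₁ M)
      (H16.jK kA M) (H16.jNK kA M) where
  O1 := (VM M hℓM A hA).toSubring
  res1 := resSub M hℓM A hA
  aeval_mem := fun s => (aeval_jK_mem_VM M hℓM A hA s).1
  res1_aeval := fun s => (aeval_jK_mem_VM M hℓM A hA s).2
  θ_mem := (jNK_mem_VM M hℓM A hA).1
  res1_θ := resMF_jNK M hℓM A hA _
  res1_eq_zero_iff := by
    intro y hy
    rw [resSub_apply, resMF_eq_zero_iff]
    have hℓF : ((((ℓ : ℕ) : VM M hℓM A hA)) : FM) = algebraMap A₁ FM ((ℓ : ℕ) : A₁) := by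
      rw [map_natCast]; rfl
    constructor
    · rintro ⟨z, hz⟩
      refine ⟨z.1, z.2, ?_⟩
      have := congrArg (fun w : VM M hℓM A hA => (w : FM)) hz
      simp only at this
      rw [this, ← hℓF]
      rfl
    · rintro ⟨z, hz, e⟩
      refine ⟨⟨z, hz⟩, ?_⟩
      apply Subtype.ext
      show y = ((((ℓ : ℕ) : VM M hℓM A hA)) : FM) * z
      rw [hℓF]
      exact e
  inv_mem := by
    intro y hy h
    have hu : IsUnit (⟨y, hy⟩ : VM M hℓM A hA) := by
      by_contra hn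
      apply h
      have := (resM_eq_zero_iff_not_isUnit M hℓM A hA ⟨y, hy⟩).2 hn
      rw [resM_apply] at this
      exact Subtype.ext this
    obtain ⟨u, hu⟩ := hu
    have h0 : (↑(u⁻¹) : VM M hℓM A hA) * ⟨y, hy⟩ = 1 := by
      rw [← hu]; exact u.inv_mul
    have h1 : ((↑(u⁻¹) : VM M hℓM A hA) : FM) * y = 1 :=
      congrArg (fun w : VM M hℓM A hA => (w : FM)) h0
    have h2 : y⁻¹ = ((↑(u⁻¹) : VM M hℓM A hA) : FM) := (eq_inv_of_mul_eq_one_left h1).symm
    rw [h2]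
    exact (↑(u⁻¹) : VM M hℓM A hA).2
  mem_of_isIntegral := by
    intro y hy
    have hy' : IsIntegral (VM M hℓM A hA) y := hy
    obtain ⟨z, hz⟩ := (IsIntegrallyClosed.isIntegral_iff
      (R := VM M hℓM A hA) (K := FM)).1 hy'
    rw [← hz]
    exact z.2
  exists_repr := by
    intro y hy
    obtain ⟨s, g, hs, -, h⟩ := exists_repr_VM M hℓM A hA y hy
    exact ⟨s, hs, g, h⟩

theorem gaussModelVM_O1 : (gaussModelVM M hℓM A hA).O1 = (VM M hℓM A hA).toSubring := rfl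

theorem gaussModelVM_res1 (y : FM) (hy : y ∈ (gaussModelVM M hℓM A hA).O1) :
    (((gaussModelVM M hℓM A hA).res1 ⟨y, hy⟩ : FkM) : LaurentSeries kA) =
      resM M hℓM A hA ⟨y, hy⟩ := rfl

theorem gaussModelVM_res1' (y : FM) (hy : y ∈ (gaussModelVM M hℓM A hA).O1) :
    (gaussModelVM M hℓM A hA).res1 ⟨y, hy⟩ = resMF M hℓM A hA ⟨y, hy⟩ := rfl

end Fermat.Agent.S34.H92
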