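/-
helper95 — S34: the chart coordinate `J = j · j_q` of the function field
`FK = modularFunctionFieldFullC K N` (`q ∣ N`), as a coordinate:

* `JK K N q hq`            : `J = jK * jdK q`;
* `order_JK`               : its `t`-order is `-(1 + q)`;
* `transcendental_JK`, `transcendental_JK_inv` : `J`, `J⁻¹` are transcendental over `K`;
* `finiteDimensional_JK`, `finiteDimensional_JK_inv` : `FK / K(J)`, `FK / K(J⁻¹)` are finite
  (`N ≠ 0` in `K`);
* `isSeparable_JK`, `isSeparable_JK_inv` : and separable in characteristic zero;
* `isNoetherianRing_chartB` : the chart `chartB R j` over a noetherian normal base is noetherian.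
-/
import Fermat.Agent.CA.H95_FinDimCoord
import Fermat.Agent.S18.H99_F1Basics
import Fermat.Agent.S18.H40_CechFG

set_option autoImplicit false

noncomputable section

namespace Fermat.Agent.S34.H95

open ModularCurve HahnSeries IntermediateField Fermat.Agent.S28 Fermat.Agent.S18

section Coord

variable (K : Type) [Field K] (N : ℕ) [NeZero N] (q : ℕ) [NeZero q] (hq : q ∣ N)

/-- The chart coordinate `J = j · j_q`. -/
def JK : modularFunctionFieldFullC K N := H16.jK K N * H99.jdK K N q hq

@[simp]
theorem coe_JK : ((JK K N q hq : modularFunctionFieldFullC K N) : LaurentSeries K) =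
    jqModC K * qExpand K q (jqModC K) := rfl

theorem order_JK :
    ((JK K N q hq : modularFunctionFieldFullC K N) : LaurentSeries K).order = -(1 + (q : ℤ)) := by
  have h1 : jqModC K ≠ 0 := fun h => by
    have := H39.order_jqModC (R := K)
    rw [h, HahnSeries.order_zero] at this
    omega
  have h2 : qExpand K q (jqModC K) ≠ 0 := (H39.qExpand_eq_zero_iff q (jqModC K)).not.2 h1
  rw [coe_JK, H39.order_mul' h1 h2, H39.order_qExpand, H39.order_jqModC]
  ring

theorem JK_ne_zero : JK K N q hq ≠ 0 := by
  intro h
  have := order_JK K N q hq
  rw [h] at this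
  simp at this
  omega

/-- `J` is transcendental over `K`. -/
theorem transcendental_JK : Transcendental K (JK K N q hq) := by
  have hlt : ((JK K N q hq : modularFunctionFieldFullC K N) : LaurentSeries K).order < 0 := by
    rw [order_JK]
    have : (0 : ℤ) ≤ q := Int.natCast_nonneg q
    omega
  have h : Transcendental K
      (algebraMap (modularFunctionFieldFullC K N) (LaurentSeries K) (JK K N q hq)) :=
    H39.transcendental_of_order_neg hlt
  exact (transcendental_algebraMap_iff
    (algebraMap (modularFunctionFieldFullC K N) (LaurentSeries K)).injective).1 h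

/-- `J⁻¹` is transcendental over `K`. -/
theorem transcendental_JK_inv : Transcendental K (JK K N q hq)⁻¹ := by
  intro h
  exact transcendental_JK K N q hq (by simpa using h.inv)

variable (hNK : ((N : ℕ) : K) ≠ 0)

include hNK in
/-- `FK / K(J)` is finite. -/
theorem finiteDimensional_JK :
    FiniteDimensional K⟮JK K N q hq⟯ (modularFunctionFieldFullC K N) := by
  haveI := H16.finiteDimensional_fullC_gen N K hNK
  exact CA.H95.finiteDimensional_adjoin_simple_of_transcendental (H16.jK K N)
    (transcendental_JK K N q hq)

include hNK in
/-- `FK / K(J⁻¹)` is finite. -/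
theorem finiteDimensional_JK_inv :
    FiniteDimensional K⟮(JK K N q hq)⁻¹⟯ (modularFunctionFieldFullC K N) := by
  haveI := H16.finiteDimensional_fullC_gen N K hNK
  exact CA.H95.finiteDimensional_adjoin_simple_of_transcendental (H16.jK K N)
    (transcendental_JK_inv K N q hq)

/-- `FK / K(J)` is separable in characteristic zero. -/
theorem isSeparable_JK [CharZero K] :
    Algebra.IsSeparable K⟮JK K N q hq⟯ (modularFunctionFieldFullC K N) := by
  haveI := finiteDimensional_JK K N q hq (H99.natCast_ne_zero₀ N K)
  infer_instance

/-- `FK / K(J⁻¹)` is separable in characteristic zero. -/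
theorem isSeparable_JK_inv [CharZero K] :
    Algebra.IsSeparable K⟮(JK K N q hq)⁻¹⟯ (modularFunctionFieldFullC K N) := by
  haveI := finiteDimensional_JK_inv K N q hq (H99.natCast_ne_zero₀ N K)
  infer_instance

end Coord

section Noeth

variable {R : Type*} [CommRing R] {K : Type*} [Field K] [Algebra R K]
  {F : Type*} [Field F] [Algebra R F] [Algebra K F] [IsScalarTower R K F]

/-- The chart `chartB R j` (integral closure of `R[j]` in `F`) is noetherian, for `R` a noetherian
integrally closed domain with fraction field `K`, `j` transcendental over `K` and `F / K(j)`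
finite separable. -/
theorem isNoetherianRing_chartB [IsDomain R] [IsNoetherianRing R] [IsIntegrallyClosed R]
    [IsFractionRing R K] (j : F) (htr : Transcendental K j)
    [FiniteDimensional K⟮j⟯ F] [Algebra.IsSeparable K⟮j⟯ F] :
    IsNoetherianRing ↥(H40.chartB R j) := by
  have hfin : Module.Finite (Algebra.adjoin R {j}) (integralClosure (Algebra.adjoin R {j}) F) :=
    H40.module_finite_integralClosure_adjoin j htr
  have hA1 : IsNoetherianRing (Algebra.adjoin R {j}) :=
    isNoetherianRing_of_ringEquiv (Polynomial R)
      (Polynomial.algEquivOfTranscendental R j (H40.transcendental_of_tower j htr)).toRingEquiv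
  have h : IsNoetherianRing ↥(integralClosure (Algebra.adjoin R {j}) F) :=
    IsNoetherianRing.of_finite (Algebra.adjoin R {j}) _
  exact h

end Noeth

end Fermat.Agent.S34.H95
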