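/-
S34 / L0, BASE LAYER of the final instance (helper55): the concrete data for
`H55.twoComponents_of_incl` at the real types: `F_N = FullC L₁ (ℓ * M)`, `F_M = FullC L₁ M` over
`A₁ = H45.A0 A ℓ`; the ring homs `iotaMN` (level inclusion) and `VMN` (`t ↦ t ^ ℓ`), helper16's
concrete places (`CA.H99.PlaceOver`, values in `LaurentSeries kA`) wrapped as `PlaceInf` /
`PlaceZero` with `PO1` / `Pres1`, helper92's level-`M` Gauss model `Mod`, helper36's `frobLin` as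
`FrM`, and the hypotheses `Hiι H0ι hri hr0 hconsti hconst0 hgenk hgen hFrx hFrθ hGRfin hGRinf`.
-/
import Fermat.Agent.S34.H55_TwoComponentsIncl
import Fermat.Agent.S34.H16_L0Places
import Fermat.Agent.S34.H92_GaussModelWrap
import Fermat.Agent.S34.H36_VSub
import Fermat.Agent.S34.H36_FrobLin
import Fermat.Agent.S34.H95_CoordJ
import Fermat.Agent.S18.H13_RExistInst

set_option autoImplicit false
set_option linter.unusedSectionVars false
set_option linter.style.haveILetI false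
set_option synthInstance.maxHeartbeats 400000

noncomputable section

namespace Fermat.Agent.S34.H55

open ModularCurve Polynomial IsLocalRing
open Fermat.Agent.S18 Fermat.Agent.S34.H92 Fermat.Agent.S34.H16

local notation "Qbar" => AlgebraicClosure ℚ


section L0

variable (M : ℕ) [NeZero M] {ℓ : ℕ} [hℓ : Fact ℓ.Prime] (hℓM : ¬ ℓ ∣ M)
  (A : ValuationSubring Qbar) (hA : A.LiesOverPrime ℓ)

local notation "kA" => IsLocalRing.ResidueField A
local notation "A₁" => H45.A0 A ℓ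
local notation "L₁" => H45.unrCyclo ℓ
local notation "FM" => modularFunctionFieldFullC (H45.unrCyclo ℓ) M
local notation "FN" => modularFunctionFieldFullC (H45.unrCyclo ℓ) (ℓ * M)
local notation "FkM" => modularFunctionFieldFullC (IsLocalRing.ResidueField A) M
local notation "V" => VM M hℓM A hA

/-- the degeneracy inclusion `F_M ⊆ F_N` as a ring hom. -/
def iotaMN : FM →+* FN :=
  @algebraMap FM FN _ _ (degAlgebra L₁ M (ℓ * M) (dvd_level M))

theorem coe_iotaMN (x : FM) : ((iotaMN M (ℓ := ℓ) x : FN) : LaurentSeries L₁) = x :=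
  degAlgebra_algebraMap_coe L₁ M (ℓ * M) (dvd_level M) x

/-- the substitution `t ↦ t ^ ℓ`, `F_M → F_N`, as a ring hom. -/
def VMN : FM →+* FN := (H36.vSub L₁ ℓ M (ℓ * M) dvd_rfl : FM →ₐ[L₁] FN)

theorem coe_VMN (x : FM) :
    ((VMN M (ℓ := ℓ) x : FN) : LaurentSeries L₁) = qExpand L₁ ℓ (x : LaurentSeries L₁) :=
  H36.coe_vSub L₁ ℓ M (ℓ * M) dvd_rfl x

theorem iotaMN_algebraMap (r : A₁) :
    iotaMN M (ℓ := ℓ) (algebraMap A₁ FM r) = algebraMap A₁ FN r := by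
  apply Subtype.ext
  rw [coe_iotaMN]
  rfl

theorem VMN_algebraMap (r : A₁) :
    VMN M (ℓ := ℓ) (algebraMap A₁ FM r) = algebraMap A₁ FN r :=
  (H36.vSub L₁ ℓ M (ℓ * M) dvd_rfl).commutes (r : L₁)

/-! ### Shortcut instances (the generic searches take seconds each) -/

/-- shortcut instance: `A₁`-algebra structure of `FullC L₁ N`. -/
instance (priority := 2000) algebraA0FullC (ℓ : ℕ) (A : ValuationSubring Qbar) (N : ℕ) :
    Algebra ↥(H45.A0 A ℓ) ↥(modularFunctionFieldFullC ↥(H45.unrCyclo ℓ) N) := inferInstance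

/-- shortcut instance. -/
instance (priority := 2000) algebraResFullC (A : ValuationSubring Qbar) (N : ℕ) :
    Algebra (IsLocalRing.ResidueField A)
      ↥(modularFunctionFieldFullC (IsLocalRing.ResidueField A) N) := inferInstance

/-- shortcut instance. -/
instance (priority := 2000) algebraResLaurent (A : ValuationSubring Qbar) :
    Algebra (IsLocalRing.ResidueField A) (LaurentSeries (IsLocalRing.ResidueField A)) :=
  inferInstance

/-! ### The two places, wrapped (no `Algebra V F_N` instance leaks out of this section) -/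

section Wrap

attribute [local instance] Fermat.Agent.S34.H16.algebraVMFN

/-- a place of `F_N` over `V_M` with arbitrary reduction data (`CA.H99.PlaceOver` for the algebra
structure `H16.algebraVMFN`). -/
abbrev PlaceGen (ι' : ↥V →+* LaurentSeries kA) (θb : LaurentSeries kA) : Type :=
  @CA.H99.PlaceOver ↥V _ ↥FN _ (algebraVMFN M hℓM A hA) (LaurentSeries kA) _
    ((ℓ : ℕ) : V) (S18.H16.jNK L₁ (ℓ * M)) ι' θb

/-- the valuation ring of a place, as a subring of `F_N`. -/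
def PO1 {ι' : ↥V →+* LaurentSeries kA} {θb : LaurentSeries kA}
    (P : PlaceGen M hℓM A hA ι' θb) : Subring ↥FN := P.O1

/-- the reduction map of a place. -/
def Pres1 {ι' : ↥V →+* LaurentSeries kA} {θb : LaurentSeries kA}
    (P : PlaceGen M hℓM A hA ι' θb) : PO1 M hℓM A hA P →+* LaurentSeries kA := P.res1

/-- elements of `V_M`, pushed to `F_N` by the inclusion, lie in the place ring, with residue
`ι'`. -/
theorem iotaMN_mem {ι' : ↥V →+* LaurentSeries kA} {θb : LaurentSeries kA}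
    (P : PlaceGen M hℓM A hA ι' θb) (y : FM) (hy : y ∈ V) :
    ∃ h : iotaMN M (ℓ := ℓ) y ∈ PO1 M hℓM A hA P, Pres1 M hℓM A hA P ⟨_, h⟩ = ι' ⟨y, hy⟩ :=
  ⟨P.algebraMap_mem ⟨y, hy⟩, P.res1_algebraMap ⟨y, hy⟩⟩

theorem jN_mem {ι' : ↥V →+* LaurentSeries kA} {θb : LaurentSeries kA}
    (P : PlaceGen M hℓM A hA ι' θb) :
    ∃ h : S18.H16.jNK L₁ (ℓ * M) ∈ PO1 M hℓM A hA P, Pres1 M hℓM A hA P ⟨_, h⟩ = θb :=
  ⟨P.θ_mem, P.res1_θ⟩

theorem Pinv_mem {ι' : ↥V →+* LaurentSeries kA} {θb : LaurentSeries kA}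
    (P : PlaceGen M hℓM A hA ι' θb) (u : FN) (hu : u ∈ PO1 M hℓM A hA P)
    (h : Pres1 M hℓM A hA P ⟨u, hu⟩ ≠ 0) : u⁻¹ ∈ PO1 M hℓM A hA P :=
  P.inv_mem u hu h

theorem Pmem_or_inv_mem {ι' : ↥V →+* LaurentSeries kA} {θb : LaurentSeries kA}
    (P : PlaceGen M hℓM A hA ι' θb) (u : FN) :
    u ∈ PO1 M hℓM A hA P ∨ u⁻¹ ∈ PO1 M hℓM A hA P :=
  P.mem_or_inv_mem u

/-- the place ring is integrally closed in `F_N`. -/
theorem PO1_closed {ι' : ↥V →+* LaurentSeries kA} {θb : LaurentSeries kA}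
    (P : PlaceGen M hℓM A hA ι' θb) (y : FN)
    (hy : IsIntegral (PO1 M hℓM A hA P) y) : y ∈ PO1 M hℓM A hA P := by
  obtain ⟨p, hp, hpy⟩ := hy
  let W : ValuationSubring ↥FN := P.toValuationSubring
  have hW : ∀ a : ↥(PO1 M hℓM A hA P), (a : FN) ∈ W := fun a => a.2
  let f : ↥(PO1 M hℓM A hA P) →+* ↥W := (Subring.subtype _).codRestrict W hW
  have hint : IsIntegral ↥W y := by
    refine ⟨p.map f, hp.map _, ?_⟩
    rw [eval₂_map]
    exact hpy
  obtain ⟨z, hz⟩ := IsIntegrallyClosed.isIntegral_iff.mp hint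
  rw [← hz]
  exact z.2

/-- the residues of a place over `V_M` lie in `Fk(M)` as soon as `ι'` and `θb` do. -/
theorem Pres1_mem {ι' : ↥V →+* LaurentSeries kA} {θb : LaurentSeries kA}
    (P : PlaceGen M hℓM A hA ι' θb)
    (hι' : ∀ a : ↥V, ι' a ∈ modularFunctionFieldFullC kA M)
    (hθb : θb ∈ modularFunctionFieldFullC kA M) (y : PO1 M hℓM A hA P) :
    Pres1 M hℓM A hA P y ∈ modularFunctionFieldFullC kA M :=
  PlaceOver.res1_mem_of_subfield P (modularFunctionFieldFullC kA M).toSubfield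
    hι' hθb y.1 y.2

end Wrap

/-- the type of `∞`-places of `F_N` over `V_M` (helper16's `nonempty_placeInfty`). -/
abbrev PlaceInf : Type :=
  PlaceGen M hℓM A hA (resM M hℓM A hA) (resM M hℓM A hA (jMV M hℓM A hA) ^ ℓ)

/-- the type of `0`-places of `F_N` over `V_M` (helper16's `nonempty_placeZero`). -/
abbrev PlaceZero : Type :=
  PlaceGen M hℓM A hA (iotaZero M hℓM A hA) (resM M hℓM A hA (jMV M hℓM A hA))

/-- the inclusion `Fk(M) ⊆ kA((t))`. -/
abbrev inclk : FkM →ₐ[kA] LaurentSeries kA := (modularFunctionFieldFullC kA M).val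

theorem mem_fieldRange_inclk {x : LaurentSeries kA} :
    x ∈ (inclk M A).fieldRange ↔ x ∈ modularFunctionFieldFullC kA M := by
  constructor
  · rintro ⟨z, rfl⟩
    exact z.2
  · intro h
    exact ⟨⟨x, h⟩, rfl⟩

/-- the `kA`-linear substitution `t ↦ t ^ ℓ` of `Fk(M)` (helper36's `frobLin`). -/
def FrM : FkM →ₐ[kA] FkM :=
  @H36.frobLin kA _ ℓ hℓ (S18.H92.charP_residueField A hA) M _

theorem coe_FrM (x : FkM) :
    ((FrM M A hA x : FkM) : LaurentSeries kA) = qExpand kA ℓ (x : LaurentSeries kA) := rfl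

theorem resM_mem (a : ↥V) : resM M hℓM A hA a ∈ modularFunctionFieldFullC kA M := by
  rw [resM_apply]
  exact (resMF M hℓM A hA a).2

theorem iotaZero_mem (a : ↥V) : iotaZero M hℓM A hA a ∈ modularFunctionFieldFullC kA M := by
  rw [iotaZero_apply, resM_apply]
  exact (FrM M A hA (resMF M hℓM A hA a)).2

/-! ### The transport facts for `ι` and the constants -/

/-- the level-`M` Gauss model (helper92). -/
abbrev Mod := gaussModelVM M hℓM A hA

theorem mem_V_of_mem_O1 {y : FM} (hy : y ∈ (Mod M hℓM A hA).O1) : y ∈ V := by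
  rw [gaussModelVM_O1] at hy
  exact hy

theorem inclk_res1 (y : FM) (hy : y ∈ (Mod M hℓM A hA).O1) :
    inclk M A ((Mod M hℓM A hA).res1 ⟨y, hy⟩) =
      resM M hℓM A hA ⟨y, mem_V_of_mem_O1 M hℓM A hA hy⟩ :=
  gaussModelVM_res1 M hℓM A hA y hy


theorem Hiι (Pi : PlaceInf M hℓM A hA) (y : FM) (hy : y ∈ (Mod M hℓM A hA).O1) :
    ∃ h : iotaMN M (ℓ := ℓ) y ∈ PO1 M hℓM A hA Pi,
      Pres1 M hℓM A hA Pi ⟨_, h⟩ = inclk M A ((Mod M hℓM A hA).res1 ⟨y, hy⟩) := by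
  obtain ⟨h, hh⟩ := iotaMN_mem M hℓM A hA Pi y (mem_V_of_mem_O1 M hℓM A hA hy)
  refine ⟨h, ?_⟩
  rw [hh]
  exact (inclk_res1 M hℓM A hA y hy).symm

theorem H0ι (P0 : PlaceZero M hℓM A hA) (y : FM) (hy : y ∈ (Mod M hℓM A hA).O1) :
    ∃ h : iotaMN M (ℓ := ℓ) y ∈ PO1 M hℓM A hA P0,
      Pres1 M hℓM A hA P0 ⟨_, h⟩ =
        inclk M A (FrM M A hA ((Mod M hℓM A hA).res1 ⟨y, hy⟩)) := by
  obtain ⟨h, hh⟩ := iotaMN_mem M hℓM A hA P0 y (mem_V_of_mem_O1 M hℓM A hA hy)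
  refine ⟨h, ?_⟩
  rw [hh, iotaZero_apply]
  have e : inclk M A (FrM M A hA ((Mod M hℓM A hA).res1 ⟨y, hy⟩)) =
      qExpand kA ℓ (inclk M A ((Mod M hℓM A hA).res1 ⟨y, hy⟩)) :=
    coe_FrM M A hA _
  rw [e, inclk_res1]

theorem hri (Pi : PlaceInf M hℓM A hA) (y : PO1 M hℓM A hA Pi) :
    Pres1 M hℓM A hA Pi y ∈ (inclk M A).fieldRange :=
  (mem_fieldRange_inclk M A).2 (Pres1_mem M hℓM A hA Pi (resM_mem M hℓM A hA)
    (pow_mem (resM_mem M hℓM A hA _) ℓ) y)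

theorem hr0 (P0 : PlaceZero M hℓM A hA) (y : PO1 M hℓM A hA P0) :
    Pres1 M hℓM A hA P0 y ∈ (inclk M A).fieldRange :=
  (mem_fieldRange_inclk M A).2 (Pres1_mem M hℓM A hA P0 (iotaZero_mem M hℓM A hA)
    (resM_mem M hℓM A hA _) y)

theorem algebraMap_laurent_eq_C {K : Type*} [Field K] (c : K) :
    algebraMap K (LaurentSeries K) c = HahnSeries.C c := by
  have h1 : algebraMap K (PowerSeries K) c = PowerSeries.C c := by simp
  rw [HahnSeries.algebraMap_apply', h1, HahnSeries.ofPowerSeries_C]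

/-- constants: generic place whose `ι'` is `C ∘ resA0` on constants. -/
theorem hconst_gen {ι' : ↥V →+* LaurentSeries kA} {θb : LaurentSeries kA}
    (P : PlaceGen M hℓM A hA ι' θb)
    (hι'c : ∀ a : A₁, ι' (constVM M hℓM A hA a) = HahnSeries.C (H45.resA0 A ℓ a)) (r : A₁) :
    ∃ h : algebraMap A₁ FN r ∈ PO1 M hℓM A hA P,
      Pres1 M hℓM A hA P ⟨_, h⟩ = algebraMap kA (LaurentSeries kA) (H45.resA0 A ℓ r) := by
  have hmem : algebraMap A₁ FM r ∈ V := algebraMap_A0_mem_VM M hℓM A hA r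
  obtain ⟨h, hh⟩ := iotaMN_mem M hℓM A hA P (algebraMap A₁ FM r) hmem
  have e : iotaMN M (ℓ := ℓ) (algebraMap A₁ FM r) = algebraMap A₁ FN r := iotaMN_algebraMap M A r
  have hmem' : algebraMap A₁ FN r ∈ PO1 M hℓM A hA P := e ▸ h
  refine ⟨hmem', ?_⟩
  have e2 : (⟨algebraMap A₁ FN r, hmem'⟩ : PO1 M hℓM A hA P) =
      ⟨iotaMN M (ℓ := ℓ) (algebraMap A₁ FM r), h⟩ := Subtype.ext e.symm
  have e3 : (⟨algebraMap A₁ FM r, hmem⟩ : ↥V) = constVM M hℓM A hA r :=
    Subtype.ext (coe_constVM M hℓM A hA r).symm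
  rw [e2, hh, e3, hι'c, algebraMap_laurent_eq_C]

theorem hconsti (Pi : PlaceInf M hℓM A hA) (r : A₁) :
    ∃ h : algebraMap A₁ FN r ∈ PO1 M hℓM A hA Pi,
      Pres1 M hℓM A hA Pi ⟨_, h⟩ = algebraMap kA (LaurentSeries kA) (H45.resA0 A ℓ r) :=
  hconst_gen M hℓM A hA Pi (resM_const M hℓM A hA) r

theorem hconst0 (P0 : PlaceZero M hℓM A hA) (r : A₁) :
    ∃ h : algebraMap A₁ FN r ∈ PO1 M hℓM A hA P0,
      Pres1 M hℓM A hA P0 ⟨_, h⟩ = algebraMap kA (LaurentSeries kA) (H45.resA0 A ℓ r) :=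
  hconst_gen M hℓM A hA P0 (fun a => by
    rw [iotaZero_apply, resM_const, qExpand_C]) r

/-! ### Level-`M` facts -/

include hℓM hA in
theorem hNk : ((M : ℕ) : kA) ≠ 0 := H45.natCast_ne_zero_residueField hℓ.out hA hℓM

include hℓM hA in
theorem hgenk (γ : FkM) : ∃ s : kA[X], aeval (S18.H16.jK kA M) s ≠ 0 ∧ ∃ g : kA[X][X],
    aeval (S18.H16.jK kA M) s * γ =
      g.eval₂ ((aeval (S18.H16.jK kA M) : kA[X] →ₐ[kA] FkM) : kA[X] →+* FkM)
        (S18.H16.jNK kA M) :=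
  H67.exists_repr_of_adjoin_eq_top (S18.H16.jK kA M) (S18.H16.jNK kA M)
    (S18.H16.isIntegral_jNK_gen M kA (hNk M hℓM A hA))
    (S18.H16.adjoin_jNK_eq_top_gen M kA (hNk M hℓM A hA)) γ

include hℓM hA in
theorem hgen : IntermediateField.adjoin kA {S18.H16.jK kA M, S18.H16.jNK kA M} = ⊤ :=
  S18.H16.adjoin_pair_eq_top_gen M kA (hNk M hℓM A hA)

theorem hFrx : FrM M A hA (S18.H16.jK kA M) = S18.H16.jK kA M ^ ℓ :=
  @H36.frobLin_jK kA _ ℓ hℓ (S18.H92.charP_residueField A hA) M _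

theorem hFrθ : FrM M A hA (S18.H16.jNK kA M) = S18.H16.jNK kA M ^ ℓ :=
  @H36.frobLin_jNK kA _ ℓ hℓ (S18.H92.charP_residueField A hA) M _

/-- lifting (GR) at level `M`, chart `j`. -/
theorem hGRfin (γ : FkM) (hγ : IsIntegral (Algebra.adjoin kA {S18.H16.jK kA M}) γ) :
    ∃ (b : FM) (hbO : b ∈ (Mod M hℓM A hA).O1),
      IsIntegral (Algebra.adjoin A₁ {S18.H16.jK L₁ M}) b ∧
        (Mod M hℓM A hA).res1 ⟨b, hbO⟩ = γ := by
  obtain ⟨b, hb, h⟩ := (S18.H13.hGR_std M hℓM A hA (Mod M hℓM A hA)).1 γ hγ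
  exact ⟨b, _, hb, h⟩

/-- lifting (GR) at level `M`, chart `j⁻¹`. -/
theorem hGRinf (γ : FkM) (hγ : IsIntegral (Algebra.adjoin kA {(S18.H16.jK kA M)⁻¹}) γ) :
    ∃ (b : FM) (hbO : b ∈ (Mod M hℓM A hA).O1),
      IsIntegral (Algebra.adjoin A₁ {(S18.H16.jK L₁ M)⁻¹}) b ∧
        (Mod M hℓM A hA).res1 ⟨b, hbO⟩ = γ := by
  obtain ⟨b, hb, h⟩ := (S18.H13.hGR_std M hℓM A hA (Mod M hℓM A hA)).2 γ hγ
  exact ⟨b, _, hb, h⟩

end L0

end Fermat.Agent.S34.H55
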