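import Fermat.Agent.S16.H36_DeltaUnit

/-!
# S34 (L0, cut (I1)): the universal property of `K(j, j_N)`  (helper36)

`modularFunctionFieldFullC K N = K(j)[Y]/(Φ_N(j, Y))` (for `N ≠ 0` in `K`): for every field
extension `B/K` and every pair `x, y : B` with `x` transcendental over `K` and `Φ_N(x, y) = 0`
there is a `K`-algebra homomorphism `τ : K(j, j_N) → B` with `τ j = x`, `τ j_N = y`.

The relation is stated with the evaluation hom `(Polynomial.aeval (R := ℤ) x).toRingHom : ℤ[X] →+* B`
(for `B = LaurentSeries k` this is `S28.evalJ x` up to `eval₂_hom_congr`).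

* `univHom`, `univHom_jK`, `univHom_jNK` : for a modular polynomial datum `D` with
  `Irreducible (redModPoly K D.Φ)`;
* `exists_algHom_of_root` : existential form;
* `exists_algHom_of_root_of_rootsAt` : for every `D` with the S28 `RootsAt` property
  (irreducibility from `S28.H16.IrrAll`), any `K : Type` with `N ≠ 0`.
-/

set_option autoImplicit false
set_option linter.unusedSectionVars false
set_option synthInstance.maxHeartbeats 400000

noncomputable section

namespace Fermat.Agent.S34.H36

open ModularCurve HahnSeries Polynomial IntermediateField Fermat.Agent.S28 Fermat.Agent.S18.H16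
open Fermat.Agent.S16.H36

section Univ

variable (N : ℕ) [NeZero N] (K : Type) [Field K]
variable {B : Type*} [Field B] [Algebra K B]

local notation "FK" => modularFunctionFieldFullC K N

/-- `K(j) → B`, `j ↦ x`. -/
def univBase (x : B) (hx : Transcendental K x) : K⟮jK K N⟯ →+* B :=
  (S28.H50.ratFuncHom x hx).comp
    (((ratEquiv K N).symm : K⟮jK K N⟯ ≃+* RatFunc K) : K⟮jK K N⟯ →+* RatFunc K)

theorem univBase_comp_ratEquiv (x : B) (hx : Transcendental K x) :
    (univBase N K x hx).comp
        ((ratEquiv K N : RatFunc K ≃+* K⟮jK K N⟯) : RatFunc K →+* K⟮jK K N⟯) =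
      S28.H50.ratFuncHom x hx := by
  ext r
  simp [univBase]

theorem univBase_algebraMap (x : B) (hx : Transcendental K x) (c : K) :
    univBase N K x hx (algebraMap K K⟮jK K N⟯ c) = algebraMap K B c := by
  have h : (ratEquiv K N).symm (algebraMap K K⟮jK K N⟯ c) = algebraMap K (RatFunc K) c :=
    (ratEquiv K N).symm.commutes c
  show S28.H50.ratFuncHom x hx ((ratEquiv K N).symm (algebraMap K K⟮jK K N⟯ c)) = _
  rw [h, RatFunc.algebraMap_eq_C, S28.H50.ratFuncHom_C]

theorem univBase_gen (x : B) (hx : Transcendental K x) :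
    univBase N K x hx (AdjoinSimple.gen K (jK K N)) = x := by
  show S28.H50.ratFuncHom x hx ((ratEquiv K N).symm (AdjoinSimple.gen K (jK K N))) = _
  rw [ratEquiv, RatFunc.algEquivOfTranscendental_symm_gen, S28.H50.ratFuncHom_X]

/-- `minpoly K(j) j_N` transported along `j ↦ x` vanishes at `y`. -/
theorem eval₂_univBase_minpoly (D : ModularPolynomialData N)
    (hirr : Irreducible (redModPoly K D.Φ)) (x y : B) (hx : Transcendental K x)
    (hxy : D.Φ.eval₂ (Polynomial.aeval (R := ℤ) x).toRingHom y = 0) :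
    (minpoly K⟮jK K N⟯ (jNK K N)).eval₂ (univBase N K x hx) y = 0 := by
  rw [minpoly_jNK K N D hirr, modPolyK, Polynomial.eval₂_map, univBase_comp_ratEquiv,
    ← Polynomial.eval_map, S28.H50.eval_map_redModPoly]
  exact hxy

/-- The homomorphism `K(j, j_N) → B`, `j ↦ x`, `j_N ↦ y`, as a ring homomorphism. -/
def univRingHom (hNK : ((N : ℕ) : K) ≠ 0) (D : ModularPolynomialData N)
    (hirr : Irreducible (redModPoly K D.Φ)) (x y : B) (hx : Transcendental K x)
    (hxy : D.Φ.eval₂ (Polynomial.aeval (R := ℤ) x).toRingHom y = 0) : FK →+* B :=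
  (AdjoinRoot.lift (univBase N K x hx) y (eval₂_univBase_minpoly N K D hirr x y hx hxy)).comp
    ((((adjoinRootEquivAdjoin K⟮jK K N⟯ (isIntegral_jNK_gen N K hNK)).symm :
        K⟮jK K N⟯⟮jNK K N⟯ ≃+* AdjoinRoot (minpoly K⟮jK K N⟯ (jNK K N))) :
        K⟮jK K N⟯⟮jNK K N⟯ →+* AdjoinRoot (minpoly K⟮jK K N⟯ (jNK K N))).comp
      (toAdjoin N K hNK))

variable (hNK : ((N : ℕ) : K) ≠ 0) (D : ModularPolynomialData N)
  (hirr : Irreducible (redModPoly K D.Φ)) (x y : B) (hx : Transcendental K x)
  (hxy : D.Φ.eval₂ (Polynomial.aeval (R := ℤ) x).toRingHom y = 0)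

theorem univRingHom_apply (z : FK) :
    univRingHom N K hNK D hirr x y hx hxy z =
      AdjoinRoot.lift (univBase N K x hx) y (eval₂_univBase_minpoly N K D hirr x y hx hxy)
        ((adjoinRootEquivAdjoin K⟮jK K N⟯ (isIntegral_jNK_gen N K hNK)).symm
          (toAdjoin N K hNK z)) := rfl

theorem univRingHom_algebraMap_base (a : K⟮jK K N⟯) :
    univRingHom N K hNK D hirr x y hx hxy (algebraMap K⟮jK K N⟯ FK a) = univBase N K x hx a := by
  have h1 : toAdjoin N K hNK (algebraMap K⟮jK K N⟯ FK a) =
      algebraMap K⟮jK K N⟯ K⟮jK K N⟯⟮jNK K N⟯ a := rfl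
  rw [univRingHom_apply, h1, AlgEquiv.commutes, AdjoinRoot.algebraMap_eq, AdjoinRoot.lift_of]

theorem univRingHom_jNK : univRingHom N K hNK D hirr x y hx hxy (jNK K N) = y := by
  have h1 : toAdjoin N K hNK (jNK K N) = AdjoinSimple.gen K⟮jK K N⟯ (jNK K N) := rfl
  rw [univRingHom_apply, h1, adjoinRootEquivAdjoin_symm_apply_gen, AdjoinRoot.lift_root]

theorem univRingHom_jK : univRingHom N K hNK D hirr x y hx hxy (jK K N) = x := by
  have h1 : jK K N = algebraMap K⟮jK K N⟯ FK (AdjoinSimple.gen K (jK K N)) := rfl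
  rw [h1, univRingHom_algebraMap_base, univBase_gen]

theorem univRingHom_algebraMap (c : K) :
    univRingHom N K hNK D hirr x y hx hxy (algebraMap K FK c) = algebraMap K B c := by
  have h1 : algebraMap K FK c = algebraMap K⟮jK K N⟯ FK (algebraMap K K⟮jK K N⟯ c) := rfl
  rw [h1, univRingHom_algebraMap_base, univBase_algebraMap]

/-- **Universal property of `K(j, j_N)`**: the `K`-algebra hom `j ↦ x`, `j_N ↦ y`. -/
def univHom : FK →ₐ[K] B where
  __ := univRingHom N K hNK D hirr x y hx hxy
  commutes' c := univRingHom_algebraMap N K hNK D hirr x y hx hxy c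

@[simp] theorem univHom_jK : univHom N K hNK D hirr x y hx hxy (jK K N) = x :=
  univRingHom_jK N K hNK D hirr x y hx hxy

@[simp] theorem univHom_jNK : univHom N K hNK D hirr x y hx hxy (jNK K N) = y :=
  univRingHom_jNK N K hNK D hirr x y hx hxy

end Univ

section Exists

variable (N : ℕ) [NeZero N] (K : Type) [Field K]
variable {B : Type*} [Field B] [Algebra K B]

/-- **(I1), existential form**, for a datum `D` irreducible over `K(Y)`. -/
theorem exists_algHom_of_root (hNK : ((N : ℕ) : K) ≠ 0) (D : ModularPolynomialData N)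
    (hirr : Irreducible (redModPoly K D.Φ)) (x y : B) (hx : Transcendental K x)
    (hxy : D.Φ.eval₂ (Polynomial.aeval (R := ℤ) x).toRingHom y = 0) :
    ∃ τ : modularFunctionFieldFullC K N →ₐ[K] B, τ (jK K N) = x ∧ τ (jNK K N) = y :=
  ⟨univHom N K hNK D hirr x y hx hxy, univHom_jK N K hNK D hirr x y hx hxy,
    univHom_jNK N K hNK D hirr x y hx hxy⟩

/-- Irreducibility of `Φ_N` over `K(Y)` for EVERY datum with the `RootsAt` property
(`N ≠ 0` in `K`). -/
theorem irreducible_redModPoly_of_rootsAt (hNK : ((N : ℕ) : K) ≠ 0)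
    (D : ModularPolynomialData N)
    (hD : ∀ (k : Type) [Field k] (ζ : kˣ), IsPrimitiveRoot ζ N → RootsAt k N ζ D.Φ) :
    Irreducible (redModPoly K D.Φ) := by
  have hN : ((N : ℕ) : AlgebraicClosure K) ≠ 0 := by
    intro h
    apply hNK
    apply (algebraMap K (AlgebraicClosure K)).injective
    rw [map_natCast, h, map_zero]
  have h1 : S28.H16.IrrAll (AlgebraicClosure K) N :=
    S28.H16.irrAll_of_step (AlgebraicClosure K)
      (S28.H50.stepStatement (AlgebraicClosure K) (fun m _ => S28.H16.hasModPoly m)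
        (fun p _ hp => S28.H9.exists_deltaQuotPoly p hp)) N
      (Nat.pos_of_ne_zero (NeZero.ne N)) hN
  have h2 : Irreducible (redModPoly (AlgebraicClosure K) D.Φ) := h1 inferInstance D hD
  rw [← S28.H16.redModPoly_map K (AlgebraicClosure K)] at h2
  exact Polynomial.Monic.irreducible_of_irreducible_map _ _ (S28.H16.redModPoly_monic K D.monic) h2

/-- **(I1)** for every datum `D` with the S28 `RootsAt` property. -/
theorem exists_algHom_of_root_of_rootsAt (hNK : ((N : ℕ) : K) ≠ 0)
    (D : ModularPolynomialData N)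
    (hD : ∀ (k : Type) [Field k] (ζ : kˣ), IsPrimitiveRoot ζ N → RootsAt k N ζ D.Φ)
    (x y : B) (hx : Transcendental K x)
    (hxy : D.Φ.eval₂ (Polynomial.aeval (R := ℤ) x).toRingHom y = 0) :
    ∃ τ : modularFunctionFieldFullC K N →ₐ[K] B, τ (jK K N) = x ∧ τ (jNK K N) = y :=
  exists_algHom_of_root N K hNK D (irreducible_redModPoly_of_rootsAt N K hNK D hD) x y hx hxy

/-- The relation itself in `K(j, j_N)`, in the `aeval` shape: `Φ_N(j, j_N) = 0`. -/
theorem eval₂_aeval_jK_jNK (D : ModularPolynomialData N) :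
    D.Φ.eval₂ (Polynomial.aeval (R := ℤ) (jK K N)).toRingHom (jNK K N) = 0 := by
  apply (algebraMap (modularFunctionFieldFullC K N) (LaurentSeries K)).injective
  rw [map_zero, Polynomial.hom_eval₂]
  rw [← modPoly_root N D K]
  exact S28.H50.eval₂_hom_congr (by simp [evalJ]) D.Φ _

end Exists

end Fermat.Agent.S34.H36
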