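import Mathlib
import Fermat.Agent.S18.H16_FKGen
import Fermat.Agent.CA.H90_RootIter

/-!
# S34 / L0, cuts (I1) + (I2) (helper90)

* (I1) `exists_algHom_fullC` : the universal property of `F_K(N) = K(j, j_N)`
  (`modularFunctionFieldFullC K N`) for any field `K` with `N ≠ 0`: for a field `B ⊇ K`,
  `x y : B`, `x` transcendental over `K` and `Φ_N(x, y) = 0` there is a `K`-algebra map
  `F_K(N) → B`, `j ↦ x`, `j_N ↦ y`.  (helper36's `alRingHom` pattern with target `B`.)
* (I2) `eval₂_pow_jK_ne_zero` : for `Q ≥ 2`, `Φ_N(j^Q, j_N) ≠ 0` in `K((t))`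
  (`j = jqModC K`, `j_N = qExpand K N (jqModC K)`), by `CA.H90.false_of_iter`.
-/

set_option autoImplicit false
set_option linter.unusedSectionVars false
set_option linter.style.haveILetI false
set_option synthInstance.maxHeartbeats 400000

noncomputable section

namespace Fermat.Agent.S34.H90

open ModularCurve HahnSeries Polynomial IntermediateField Fermat.Agent.S28 Fermat.Agent.S18.H16

section UP

variable (N : ℕ) [NeZero N] (K : Type) [Field K] {B : Type*} [Field B] [Algebra K B]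

local notation "FK" => modularFunctionFieldFullC K N

/-- `K(Y) → B`, `Y ↦ x`. -/
def upRat (x : B) (hx : Transcendental K x) : RatFunc K →+* B := S28.H50.ratFuncHom x hx

/-- `K(j) → B`, `j ↦ x`. -/
def upBase (x : B) (hx : Transcendental K x) : K⟮jK K N⟯ →+* B :=
  (upRat K x hx).comp (((ratEquiv K N).symm : K⟮jK K N⟯ ≃+* RatFunc K) : K⟮jK K N⟯ →+* RatFunc K)

theorem upBase_comp_ratEquiv (x : B) (hx : Transcendental K x) :
    (upBase N K x hx).comp ((ratEquiv K N : RatFunc K ≃+* K⟮jK K N⟯) : RatFunc K →+* K⟮jK K N⟯) =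
      upRat K x hx := by
  ext z
  simp [upBase]

theorem upBase_algebraMap (x : B) (hx : Transcendental K x) (c : K) :
    upBase N K x hx (algebraMap K K⟮jK K N⟯ c) = algebraMap K B c := by
  have h : (ratEquiv K N).symm (algebraMap K K⟮jK K N⟯ c) = algebraMap K (RatFunc K) c :=
    (ratEquiv K N).symm.commutes c
  show upRat K x hx ((ratEquiv K N).symm (algebraMap K K⟮jK K N⟯ c)) = _
  rw [h, RatFunc.algebraMap_eq_C, upRat, S28.H50.ratFuncHom_C]

theorem upBase_gen (x : B) (hx : Transcendental K x) :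
    upBase N K x hx (AdjoinSimple.gen K (jK K N)) = x := by
  show upRat K x hx ((ratEquiv K N).symm (AdjoinSimple.gen K (jK K N))) = _
  rw [ratEquiv, RatFunc.algEquivOfTranscendental_symm_gen, upRat, S28.H50.ratFuncHom_X]

/-- `(minpoly K(j) j_N)` transported along `j ↦ x` vanishes at `y`. -/
theorem eval₂_upBase_minpoly (D : ModularPolynomialData N)
    (hirr : Irreducible (redModPoly K D.Φ)) (x y : B) (hx : Transcendental K x)
    (hxy : D.Φ.eval₂ ((Polynomial.aeval (R := ℤ) x).toRingHom) y = 0) :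
    (minpoly K⟮jK K N⟯ (jNK K N)).eval₂ (upBase N K x hx) y = 0 := by
  rw [minpoly_jNK K N D hirr, modPolyK, Polynomial.eval₂_map, upBase_comp_ratEquiv,
    ← Polynomial.eval_map, upRat, S28.H50.eval_map_redModPoly]
  exact hxy

/-- `K(j, j_N) → K(j)(j_N)` (the latter is everything). -/
def toAdjoin' (hNK : ((N : ℕ) : K) ≠ 0) : FK →+* K⟮jK K N⟯⟮jNK K N⟯ where
  toFun z := ⟨z, by rw [adjoin_jNK_eq_top_gen N K hNK]; exact IntermediateField.mem_top⟩
  map_one' := rfl
  map_mul' _ _ := rfl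
  map_zero' := rfl
  map_add' _ _ := rfl

/-- The ring homomorphism `K(j, j_N) → B`, `j ↦ x`, `j_N ↦ y`. -/
def upRingHom (hNK : ((N : ℕ) : K) ≠ 0) (D : ModularPolynomialData N)
    (hirr : Irreducible (redModPoly K D.Φ)) (x y : B) (hx : Transcendental K x)
    (hxy : D.Φ.eval₂ ((Polynomial.aeval (R := ℤ) x).toRingHom) y = 0) : FK →+* B :=
  (AdjoinRoot.lift (upBase N K x hx) y (eval₂_upBase_minpoly N K D hirr x y hx hxy)).comp
    ((((adjoinRootEquivAdjoin K⟮jK K N⟯ (isIntegral_jNK_gen N K hNK)).symm :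
        K⟮jK K N⟯⟮jNK K N⟯ ≃+* AdjoinRoot (minpoly K⟮jK K N⟯ (jNK K N))) :
        K⟮jK K N⟯⟮jNK K N⟯ →+* AdjoinRoot (minpoly K⟮jK K N⟯ (jNK K N))).comp
      (toAdjoin' N K hNK))

variable (hNK : ((N : ℕ) : K) ≠ 0) (D : ModularPolynomialData N)
  (hirr : Irreducible (redModPoly K D.Φ)) (x y : B) (hx : Transcendental K x)
  (hxy : D.Φ.eval₂ ((Polynomial.aeval (R := ℤ) x).toRingHom) y = 0)

theorem upRingHom_apply (z : FK) :
    upRingHom N K hNK D hirr x y hx hxy z =
      AdjoinRoot.lift (upBase N K x hx) y (eval₂_upBase_minpoly N K D hirr x y hx hxy)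
        ((adjoinRootEquivAdjoin K⟮jK K N⟯ (isIntegral_jNK_gen N K hNK)).symm
          (toAdjoin' N K hNK z)) := rfl

theorem upRingHom_algebraMap_base (a : K⟮jK K N⟯) :
    upRingHom N K hNK D hirr x y hx hxy (algebraMap K⟮jK K N⟯ FK a) = upBase N K x hx a := by
  have h1 : toAdjoin' N K hNK (algebraMap K⟮jK K N⟯ FK a) =
      algebraMap K⟮jK K N⟯ K⟮jK K N⟯⟮jNK K N⟯ a := rfl
  rw [upRingHom_apply, h1, AlgEquiv.commutes, AdjoinRoot.algebraMap_eq, AdjoinRoot.lift_of]

theorem upRingHom_jNK : upRingHom N K hNK D hirr x y hx hxy (jNK K N) = y := by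
  have h1 : toAdjoin' N K hNK (jNK K N) = AdjoinSimple.gen K⟮jK K N⟯ (jNK K N) := rfl
  rw [upRingHom_apply, h1, adjoinRootEquivAdjoin_symm_apply_gen, AdjoinRoot.lift_root]

theorem upRingHom_jK : upRingHom N K hNK D hirr x y hx hxy (jK K N) = x := by
  have h1 : jK K N = algebraMap K⟮jK K N⟯ FK (AdjoinSimple.gen K (jK K N)) := rfl
  rw [h1, upRingHom_algebraMap_base, upBase_gen]

theorem upRingHom_algebraMap (c : K) :
    upRingHom N K hNK D hirr x y hx hxy (algebraMap K FK c) = algebraMap K B c := by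
  have h1 : algebraMap K FK c = algebraMap K⟮jK K N⟯ FK (algebraMap K K⟮jK K N⟯ c) := rfl
  rw [h1, upRingHom_algebraMap_base, upBase_algebraMap]

/-- **(I1) Universal property of `K(j, j_N)`.** -/
theorem exists_algHom_fullC (hNK : ((N : ℕ) : K) ≠ 0) (D : ModularPolynomialData N)
    (hirr : Irreducible (redModPoly K D.Φ)) (x y : B) (hx : Transcendental K x)
    (hxy : D.Φ.eval₂ ((Polynomial.aeval (R := ℤ) x).toRingHom) y = 0) :
    ∃ τ : FK →ₐ[K] B, τ (jK K N) = x ∧ τ (jNK K N) = y :=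
  ⟨{ __ := upRingHom N K hNK D hirr x y hx hxy
     commutes' := fun c => upRingHom_algebraMap N K hNK D hirr x y hx hxy c },
    upRingHom_jK N K hNK D hirr x y hx hxy, upRingHom_jNK N K hNK D hirr x y hx hxy⟩

end UP

section I2

variable (N : ℕ) [NeZero N] (K : Type) [Field K]

/-- **(I2)** For `Q ≥ 2`: `Φ_N(j^Q, j_N) ≠ 0` in `K((t))`, `j = j(t)`, `j_N = j(t^N)`. -/
theorem eval₂_pow_jK_ne_zero (hNK : ((N : ℕ) : K) ≠ 0) (D : ModularPolynomialData N)
    (hirr : Irreducible (redModPoly K D.Φ)) (Q : ℕ) (hQ : 2 ≤ Q) :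
    D.Φ.eval₂ (evalJ (jqModC K ^ Q)) (qExpand K N (jqModC K)) ≠ 0 := by
  intro h
  refine CA.H90.false_of_iter (K := K) (F := modularFunctionFieldFullC K N)
    (B := LaurentSeries K) D.Φ D.monic
    (IsScalarTower.toAlgHom K (modularFunctionFieldFullC K N) (LaurentSeries K))
    (jK K N) (jNK K N) (transcendental_jK K N) ?_ ?_ Q hQ ?_
  · have h1 : Transcendental K (algebraMap (modularFunctionFieldFullC K N) (LaurentSeries K)
        (jNK K N)) := S28.H50.transcendental_qExpand_jqModC (k := K) N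
    exact (transcendental_algebraMap_iff
      (algebraMap (modularFunctionFieldFullC K N) (LaurentSeries K)).injective).1 h1
  · intro x y hx hxy
    exact exists_algHom_fullC N K hNK D hirr x y hx hxy
  · refine (S28.H50.eval₂_hom_congr ?_ D.Φ _).trans h
    simp [evalJ]

/-- (I2) with the modular polynomial of `exists_modPoly_gen` (no irreducibility hypothesis). -/
theorem exists_modPoly_eval₂_pow_ne_zero (hNK : ((N : ℕ) : K) ≠ 0) :
    ∃ D : ModularPolynomialData N,
      (∀ (k : Type) [Field k] (ζ : kˣ), IsPrimitiveRoot ζ N → RootsAt k N ζ D.Φ) ∧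
      Irreducible (redModPoly K D.Φ) ∧
      ∀ Q : ℕ, 2 ≤ Q → D.Φ.eval₂ (evalJ (jqModC K ^ Q)) (qExpand K N (jqModC K)) ≠ 0 := by
  obtain ⟨D, hD, hirr⟩ := exists_modPoly_gen N
  exact ⟨D, hD, hirr K hNK, fun Q hQ => eval₂_pow_jK_ne_zero N K hNK D (hirr K hNK) Q hQ⟩

end I2

end Fermat.Agent.S34.H90
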