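import Mathlib
import Fermat.Agent.S34.H6_KroneckerAt
import Fermat.Agent.S34.H90_I2
import Fermat.Agent.S34.H36_FullCUniv
import Fermat.Agent.S37.H50_Frobenius

/-!
# "The one real point" of S34/L0: the residue of `j_q` at the place of type `0` is `j̄` (helper6)

Setting (helper99 #2609): `k` a field of characteristic `q`, `q ∤ M`.  Let `x : k((t))` with

* (a) `Φ̄_q(j̄(t^q), x) = 0`   [reduction of `Φ_q(j, j_q) = 0` at the place `res_0`, where
  `res_0 j = j̄(t^q)`],
* (b) `Φ̄_M(x, j̄_M) = 0`      [reduction of `Φ_M(j_q, j_N) = 0`, `res_0 j_N = j̄_M(t)`].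

Then `x = j̄`.  By Kronecker (`kronecker_poly_at`) and `j̄(t^q) = j̄^q`, (a) gives `x = j̄` or
`x = j̄^(q²)`; helper90's (I2) `S34.H90.eval₂_pow_jK_ne_zero` excludes the second with (b).
-/

set_option autoImplicit false
set_option linter.unusedSectionVars false
set_option linter.style.haveILetI false

noncomputable section

namespace Fermat.Agent.S34.H6

open Polynomial ModularCurve Fermat.Agent.S28

/-- Laurent series over a ring of characteristic `q` have characteristic `q`. -/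
theorem charP_laurentSeries (k : Type*) [CommRing k] (q : ℕ) [CharP k q] :
    CharP (LaurentSeries k) q :=
  charP_of_injective_ringHom (f := (HahnSeries.C : k →+* LaurentSeries k))
    HahnSeries.C_injective q

section Dichotomy

variable (q : ℕ) [Fact q.Prime] [NeZero q] (D : ModularPolynomialData q)
  (hD : ∀ (k : Type) [Field k] (ζ : kˣ), IsPrimitiveRoot ζ q → RootsAt k q ζ D.Φ)

include hD in
/-- **Kronecker dichotomy** in a domain of characteristic `q`: `Φ_q(y, x) = 0` forces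
`x = y^q` or `x^q = y` (`y = φ X`). -/
theorem eq_pow_or_pow_eq_of_eval₂ (κ : Type*) [CommRing κ] [IsDomain κ] [CharP κ q]
    (φ : ℤ[X] →+* κ) (x : κ) (h : D.Φ.eval₂ φ x = 0) : x = φ X ^ q ∨ x ^ q = φ X := by
  rw [← Polynomial.eval_map, kronecker_poly_at q D hD κ φ, eval_mul, eval_sub, eval_sub,
    eval_pow, eval_X, eval_C, eval_C] at h
  rcases mul_eq_zero.1 h with h1 | h1
  · exact Or.inl (sub_eq_zero.1 h1)
  · exact Or.inr (sub_eq_zero.1 h1)

include hD in
/-- Laurent-series form, for a series `y` with `y(t^q) = y^q` (coefficients in `𝔽_q`):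
`Φ̄_q(y(t^q), x) = 0` forces `x = y` or `x = y^(q²)`. -/
theorem eq_or_eq_pow_of_eval₂_qExpand (k : Type*) [Field k] [CharP k q] (y x : LaurentSeries k)
    (hy : qExpand k q y = y ^ q) (h : D.Φ.eval₂ (evalJ (qExpand k q y)) x = 0) :
    x = y ∨ x = y ^ (q * q) := by
  haveI := charP_laurentSeries k q
  rcases eq_pow_or_pow_eq_of_eval₂ q D hD (LaurentSeries k) (evalJ (qExpand k q y)) x h with h1 | h1
  · right
    rw [h1, evalJ_X, hy, ← pow_mul]
  · left
    rw [evalJ_X, hy] at h1
    exact frobenius_inj (LaurentSeries k) q h1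

include hD in
/-- (a) alone: `Φ̄_q(j̄(t^q), x) = 0` forces `x = j̄` or `x = j̄^(q²)`. -/
theorem eq_jqModC_or_eq_pow (k : Type*) [Field k] [CharP k q] (x : LaurentSeries k)
    (h : D.Φ.eval₂ (evalJ (qExpand k q (jqModC k))) x = 0) :
    x = jqModC k ∨ x = jqModC k ^ (q * q) := by
  haveI : ExpChar k q := ExpChar.prime (Fact.out : q.Prime)
  exact eq_or_eq_pow_of_eval₂_qExpand q D hD k (jqModC k) x
    (Fermat.Agent.S37.H50.qExpand_jqModC_char k q) h

/-- The same for every level `d`: `Φ̄_q(j̄_d(t^q), x) = 0` forces `x = j̄_d` or `x = j̄_d^(q²)`. -/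
theorem qExpand_qExpand_jqModC_char (k : Type*) [Field k] [CharP k q] (d : ℕ) [NeZero d] :
    qExpand k q (qExpand k d (jqModC k)) = qExpand k d (jqModC k) ^ q := by
  haveI : ExpChar k q := ExpChar.prime (Fact.out : q.Prime)
  have h1 := Fermat.Agent.S37.H50.qExpand_frobHom k q (qExpand k d (jqModC k))
  rwa [Fermat.Agent.S37.H50.frobHom_qExpand_comm, Fermat.Agent.S37.H50.frobHom_jqModC] at h1

end Dichotomy

section Point

variable (q : ℕ) [Fact q.Prime] [NeZero q] (M : ℕ) [NeZero M]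

/-- **The residue of `j_q` at the type-`0` place is `j̄`.**  `x : k((t))` with
(a) `Φ̄_q(j̄(t^q), x) = 0` and (b) `Φ̄_M(x, j̄_M) = 0` is `j̄`. -/
theorem eq_jqModC_of_relations (k : Type) [Field k] [CharP k q] (hMk : ((M : ℕ) : k) ≠ 0)
    (Dq : ModularPolynomialData q)
    (hDq : ∀ (k : Type) [Field k] (ζ : kˣ), IsPrimitiveRoot ζ q → RootsAt k q ζ Dq.Φ)
    (DM : ModularPolynomialData M)
    (hDM : ∀ (k : Type) [Field k] (ζ : kˣ), IsPrimitiveRoot ζ M → RootsAt k M ζ DM.Φ)
    (x : LaurentSeries k)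
    (ha : Dq.Φ.eval₂ (evalJ (qExpand k q (jqModC k))) x = 0)
    (hb : DM.Φ.eval₂ (evalJ x) (qExpand k M (jqModC k)) = 0) : x = jqModC k := by
  rcases eq_jqModC_or_eq_pow q Dq hDq k x ha with h | h
  · exact h
  · exfalso
    have hirr := Fermat.Agent.S34.H36.irreducible_redModPoly_of_rootsAt M k hMk DM hDM
    have hq2 : 2 ≤ q * q := by
      have := (Fact.out : q.Prime).two_le
      nlinarith
    refine Fermat.Agent.S34.H90.eval₂_pow_jK_ne_zero M k hMk DM hirr (q * q) hq2 ?_
    rw [← h]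
    exact hb

/-- Variant with `q ∤ M` instead of `(M : k) ≠ 0`. -/
theorem eq_jqModC_of_relations' (hqM : ¬ q ∣ M) (k : Type) [Field k] [CharP k q]
    (Dq : ModularPolynomialData q)
    (hDq : ∀ (k : Type) [Field k] (ζ : kˣ), IsPrimitiveRoot ζ q → RootsAt k q ζ Dq.Φ)
    (DM : ModularPolynomialData M)
    (hDM : ∀ (k : Type) [Field k] (ζ : kˣ), IsPrimitiveRoot ζ M → RootsAt k M ζ DM.Φ)
    (x : LaurentSeries k)
    (ha : Dq.Φ.eval₂ (evalJ (qExpand k q (jqModC k))) x = 0)
    (hb : DM.Φ.eval₂ (evalJ x) (qExpand k M (jqModC k)) = 0) : x = jqModC k := by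
  refine eq_jqModC_of_relations q M k ?_ Dq hDq DM hDM x ha hb
  rw [Ne, CharP.cast_eq_zero_iff k q]
  exact hqM

end Point

end Fermat.Agent.S34.H6
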