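import Mathlib
import Fermat.Agent.CA.H99_TwoPlacesThm
import Fermat.Agent.S34.H6_ResidueDichotomy

/-!
# S34 / L0: residues of `j_q` at the two places over `q`, and transport along `V` (helper6)

Part (A), abstract over a place `P : CA.H99.PlaceOver ϖ θ ι θb` with residue field inside
`k((t))`, `char k = q`:

* `eval₂_res_eq_zero` : a ring hom out of a subring commutes with `Φ.eval₂` (`Φ : ℤ[X][X]`).
* `PlaceOver.mem_of_isIntegral` : elements integral over `O` lie in `P.O1`.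
* `res1_jq_zero` : if `res j = j̄(t^q)`, `θb = j̄_M`, `Φ_q(j, j_q) = 0`, `Φ_M(j_q, θ) = 0` then
  `res j_q = j̄`.
* `res1_jq_infty` : if `res j = j̄`, `Φ_q(j, j_q) = 0` then `res j_q = j̄^q`.
-/

set_option autoImplicit false
set_option linter.unusedSectionVars false
set_option linter.style.haveILetI false

noncomputable section

namespace Fermat.Agent.S34.H6

open Polynomial ModularCurve Fermat.Agent.S28 Fermat.Agent.CA.H99

section Generic

variable {L Fk : Type*} [CommRing L] [CommRing Fk]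

/-- A ring hom `r : S →+* Fk` out of a subring `S ⊆ L` commutes with `Φ.eval₂` for
`Φ : ℤ[X][X]`: if `Φ(u, v) = 0` in `L` with `u, v ∈ S` then `Φ(r u, r v) = 0`.  The evaluation
homs `φ`, `ψ` are arbitrary ring homs `ℤ[X] → _` (determined by the image of `X`). -/
theorem eval₂_res_eq_zero (S : Subring L) (r : S →+* Fk) (Φ : ℤ[X][X]) (φ : ℤ[X] →+* L)
    (ψ : ℤ[X] →+* Fk) {v : L} (hu : φ X ∈ S) (hv : v ∈ S) (hψ : ψ X = r ⟨φ X, hu⟩)
    (h : Φ.eval₂ φ v = 0) : Φ.eval₂ ψ (r ⟨v, hv⟩) = 0 := by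
  set φ' : ℤ[X] →+* S := eval₂RingHom (Int.castRingHom S) ⟨φ X, hu⟩ with hφ'
  have h1 : S.subtype.comp φ' = φ := by
    apply Polynomial.ringHom_ext'
    · exact RingHom.ext_int _ _
    · simp [hφ']
  have h2 : r.comp φ' = ψ := by
    apply Polynomial.ringHom_ext'
    · exact RingHom.ext_int _ _
    · simp [hφ', hψ]
  have h3 : S.subtype (Φ.eval₂ φ' ⟨v, hv⟩) = 0 := by
    rw [Polynomial.hom_eval₂, h1]
    exact h
  have h4 : Φ.eval₂ φ' (⟨v, hv⟩ : S) = 0 := Subtype.ext h3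
  have h5 := congrArg r h4
  rwa [Polynomial.hom_eval₂, h2, map_zero] at h5

end Generic

section Place

variable {O : Type*} [CommRing O] {L : Type*} [Field L] [Algebra O L] {Fk : Type*} [Field Fk]
  {ϖ : O} {θ : L} {ι : O →+* Fk} {θb : Fk} (P : PlaceOver ϖ θ ι θb)

/-- elements integral over `O` lie in the valuation ring of a place over `O`. -/
theorem mem_O1_of_isIntegral {x : L} (hx : IsIntegral O x) : x ∈ P.O1 :=
  mem_valuationSubring_of_isIntegral P.toValuationSubring P.algebraMap_mem hx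

/-- roots of monic polynomials with coefficients in `P.O1` lie in `P.O1`. -/
theorem mem_O1_of_isIntegral_O1 {x : L} (hx : IsIntegral P.O1 x) : x ∈ P.O1 := by
  have h : IsIntegral P.toValuationSubring x := hx
  obtain ⟨y, hy⟩ := IsIntegrallyClosed.isIntegral_iff.mp h
  rw [← hy]
  exact y.2

/-- `Φ(u, v) = 0` reduces to `Φ̄(res u, res v) = 0`. -/
theorem res1_eval₂_eq_zero (Φ : ℤ[X][X]) (φ : ℤ[X] →+* L) (ψ : ℤ[X] →+* Fk) {v : L}
    (hu : φ X ∈ P.O1) (hv : v ∈ P.O1) (hψ : ψ X = P.res1 ⟨φ X, hu⟩) (h : Φ.eval₂ φ v = 0) :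
    Φ.eval₂ ψ (P.res1 ⟨v, hv⟩) = 0 :=
  eval₂_res_eq_zero P.O1 P.res1 Φ φ ψ hu hv hψ h

end Place


section Integral

variable {L : Type*} [Field L]

/-- A subring `S` of a field with `y ∈ S ∨ y⁻¹ ∈ S` (a valuation ring) contains every `v` with
`Φ(u, v) = 0`, `Φ : ℤ[X][X]` monic, `u ∈ S`. -/
theorem mem_of_monic_eval₂_eq_zero (S : Subring L) (hval : ∀ y : L, y ∈ S ∨ y⁻¹ ∈ S)
    (Φ : ℤ[X][X]) (hΦ : Φ.Monic) (φ : ℤ[X] →+* L) (hu : φ X ∈ S) {v : L}
    (h : Φ.eval₂ φ v = 0) : v ∈ S := by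
  let Vs : ValuationSubring L := { S with mem_or_inv_mem' := hval }
  set φ' : ℤ[X] →+* S := eval₂RingHom (Int.castRingHom S) ⟨φ X, hu⟩ with hφ'
  have h1 : S.subtype.comp φ' = φ := by
    apply Polynomial.ringHom_ext'
    · exact RingHom.ext_int _ _
    · simp [hφ']
  have hint : IsIntegral Vs v := by
    refine ⟨Φ.map φ', hΦ.map _, ?_⟩
    rw [eval₂_map]
    have : (algebraMap ↥Vs L).comp φ' = φ := h1
    rw [this]
    exact h
  obtain ⟨y, hy⟩ := IsIntegrallyClosed.isIntegral_iff.mp hint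
  rw [← hy]
  exact y.2

end Integral

section Residues

variable (q : ℕ) [Fact q.Prime] [NeZero q] (k : Type) [Field k] [CharP k q]
  (Dq : ModularPolynomialData q)
  (hDq : ∀ (k : Type) [Field k] (ζ : kˣ), IsPrimitiveRoot ζ q → RootsAt k q ζ Dq.Φ)

section Subring

variable {L : Type*} [CommRing L] (S : Subring L) (rS : S →+* LaurentSeries k)

include hDq in
/-- **Residue of `j_q` at the place of type `0`** (subring form): `res j = j̄(t^q)`,
`res θ = j̄_M`, `Φ_q(j, j_q) = 0` and `Φ_M(j_q, θ) = 0` force `res j_q = j̄`. -/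
theorem res_jq_zero (M : ℕ) [NeZero M] (hqM : ¬ q ∣ M) (DM : ModularPolynomialData M)
    (hDM : ∀ (k : Type) [Field k] (ζ : kˣ), IsPrimitiveRoot ζ M → RootsAt k M ζ DM.Φ)
    (φj φjq : ℤ[X] →+* L) {θ : L} (hj : φj X ∈ S) (hjq : φjq X ∈ S) (hθ : θ ∈ S)
    (hrel1 : Dq.Φ.eval₂ φj (φjq X) = 0) (hrel2 : DM.Φ.eval₂ φjq θ = 0)
    (hresj : rS ⟨φj X, hj⟩ = qExpand k q (jqModC k))
    (hresθ : rS ⟨θ, hθ⟩ = qExpand k M (jqModC k)) :
    rS ⟨φjq X, hjq⟩ = jqModC k := by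
  refine eq_jqModC_of_relations' q M hqM k Dq hDq DM hDM _ ?_ ?_
  · exact eval₂_res_eq_zero S rS Dq.Φ φj _ hj hjq (by rw [evalJ_X, hresj]) hrel1
  · have h := eval₂_res_eq_zero S rS DM.Φ φjq (evalJ (rS ⟨φjq X, hjq⟩)) hjq hθ
      (by rw [evalJ_X]) hrel2
    rwa [hresθ] at h

include hDq in
/-- **Residue of `j_q` at the place of type `∞`** (subring form): `res j = j̄` and
`Φ_q(j, j_q) = 0` force `res j_q = j̄^q` (`j̄` has order `-1`, so is not a `q`-th power). -/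
theorem res_jq_infty (φj φjq : ℤ[X] →+* L) (hj : φj X ∈ S) (hjq : φjq X ∈ S)
    (hrel1 : Dq.Φ.eval₂ φj (φjq X) = 0) (hresj : rS ⟨φj X, hj⟩ = jqModC k) :
    rS ⟨φjq X, hjq⟩ = jqModC k ^ q := by
  haveI := charP_laurentSeries k q
  have h := eval₂_res_eq_zero S rS Dq.Φ φj (evalJ (jqModC k)) hj hjq (by rw [evalJ_X, hresj]) hrel1
  rcases eq_pow_or_pow_eq_of_eval₂ q Dq hDq (LaurentSeries k) (evalJ (jqModC k)) _ h with h1 | h1
  · rw [h1, evalJ_X]
  · exfalso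
    rw [evalJ_X] at h1
    have h2 := congrArg HahnSeries.order h1
    rw [HahnSeries.order_pow, Fermat.Agent.S28.H39.order_jqModC, nsmul_eq_mul] at h2
    have hq2 : (2 : ℤ) ≤ q := by exact_mod_cast (Fact.out : q.Prime).two_le
    have h3 : (q : ℤ) ∣ -1 := ⟨_, h2.symm⟩
    have h4 : (q : ℤ) ∣ 1 := (dvd_neg.1 h3)
    have := Int.le_of_dvd one_pos h4
    omega

end Subring

variable {O : Type*} [CommRing O] {L : Type*} [Field L] [Algebra O L]
  {ϖ : O} {θ : L} {ι : O →+* LaurentSeries k} {θb : LaurentSeries k} (P : PlaceOver ϖ θ ι θb)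

include hDq in
/-- `res_jq_zero` for a `PlaceOver`. -/
theorem res1_jq_zero (M : ℕ) [NeZero M] (hqM : ¬ q ∣ M) (DM : ModularPolynomialData M)
    (hDM : ∀ (k : Type) [Field k] (ζ : kˣ), IsPrimitiveRoot ζ M → RootsAt k M ζ DM.Φ)
    (φj φjq : ℤ[X] →+* L) (hj : φj X ∈ P.O1) (hjq : φjq X ∈ P.O1)
    (hrel1 : Dq.Φ.eval₂ φj (φjq X) = 0) (hrel2 : DM.Φ.eval₂ φjq θ = 0)
    (hresj : P.res1 ⟨φj X, hj⟩ = qExpand k q (jqModC k))
    (hθb : θb = qExpand k M (jqModC k)) :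
    P.res1 ⟨φjq X, hjq⟩ = jqModC k :=
  res_jq_zero q k Dq hDq P.O1 P.res1 M hqM DM hDM φj φjq hj hjq P.θ_mem hrel1 hrel2 hresj
    (P.res1_θ.trans hθb)

include hDq in
/-- `res_jq_infty` for a `PlaceOver`. -/
theorem res1_jq_infty (φj φjq : ℤ[X] →+* L) (hj : φj X ∈ P.O1) (hjq : φjq X ∈ P.O1)
    (hrel1 : Dq.Φ.eval₂ φj (φjq X) = 0) (hresj : P.res1 ⟨φj X, hj⟩ = jqModC k) :
    P.res1 ⟨φjq X, hjq⟩ = jqModC k ^ q :=
  res_jq_infty q k Dq hDq P.O1 P.res1 φj φjq hj hjq hrel1 hresj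

end Residues

end Fermat.Agent.S34.H6
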