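import Mathlib

/-!
# S34 / L0, part (B): transport of a reduction map along a ring hom `V`, from generators (helper6)

Abstract (Mathlib only).  `O` a ring with an injective ring hom `incl : O →+* FM` into a field and
a reduction `rO : O →+* Fk` (instance: the level-`M` Gauss ring `V_M` with `resM`), generated
"up to denominators with non-zero residue" by constants `constO : R0 →+* O`, `xO` and `θO`
(`hrepr`, instance: helper92's `exists_repr_VM`).
`S ⊆ L` a subring of a field with a reduction `rS : S →+* Fk'` in which elements with non-zero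
residue are invertible (instance: `P.O1`, `P.res1` of a place of `F_N`).  `V : FM →+* L`,
`ρ : Fk →+* Fk'` ring homs with `rS ∘ V ∘ incl = ρ ∘ rO` on the constants, on `xO` and on `θO`.
Then `V (incl O) ⊆ S` and `rS ∘ V ∘ incl = ρ ∘ rO` on all of `O`.
-/

set_option autoImplicit false
set_option linter.unusedSectionVars false

noncomputable section

namespace Fermat.Agent.S34.H6

open Polynomial

section Transport

variable {R0 O FM L Fk Fk' : Type*} [CommRing R0] [CommRing O] [Field FM] [Algebra R0 FM]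
  [Field L] [Field Fk] [Field Fk']

/-- the two-variable evaluation `R0[X][Y] → FM`, `X ↦ x1`, `Y ↦ θ1`. -/
def ev2 (x1 θ1 : FM) : R0[X][X] →+* FM :=
  eval₂RingHom ((aeval x1 : R0[X] →ₐ[R0] FM) : R0[X] →+* FM) θ1

theorem ev2_apply (x1 θ1 : FM) (g : R0[X][X]) :
    ev2 x1 θ1 g = g.eval₂ ((aeval x1 : R0[X] →ₐ[R0] FM) : R0[X] →+* FM) θ1 := rfl

@[simp] theorem ev2_C_C (x1 θ1 : FM) (a : R0) : ev2 x1 θ1 (C (C a)) = algebraMap R0 FM a := by
  simp [ev2]

@[simp] theorem ev2_C_X (x1 θ1 : FM) : ev2 (R0 := R0) x1 θ1 (C X) = x1 := by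
  simp [ev2]

@[simp] theorem ev2_X (x1 θ1 : FM) : ev2 (R0 := R0) x1 θ1 X = θ1 := by
  simp [ev2]

@[simp] theorem ev2_C (x1 θ1 : FM) (s : R0[X]) : ev2 x1 θ1 (C s) = aeval x1 s := by
  simp [ev2]

/-- the two-variable evaluation `R0[X][Y] → O` through a ring hom `constO : R0 →+* O`. -/
def ev2O (constO : R0 →+* O) (xO θO : O) : R0[X][X] →+* O :=
  eval₂RingHom (eval₂RingHom constO xO) θO

@[simp] theorem ev2O_C_C (constO : R0 →+* O) (xO θO : O) (a : R0) :
    ev2O constO xO θO (C (C a)) = constO a := by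
  simp [ev2O]

@[simp] theorem ev2O_C_X (constO : R0 →+* O) (xO θO : O) : ev2O constO xO θO (C X) = xO := by
  simp [ev2O]

@[simp] theorem ev2O_X (constO : R0 →+* O) (xO θO : O) : ev2O constO xO θO X = θO := by
  simp [ev2O]

theorem ev2O_C (constO : R0 →+* O) (xO θO : O) (s : R0[X]) :
    ev2O constO xO θO (C s) = s.eval₂ constO xO := by
  simp [ev2O]

/-- two ring homs out of `R0[X][Y]` agreeing on the generators are equal. -/
theorem ringHom_ext_gens {T : Type*} [Semiring T] (f g : R0[X][X] →+* T)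
    (hc : ∀ a : R0, f (C (C a)) = g (C (C a))) (hx : f (C X) = g (C X)) (hy : f X = g X) :
    f = g := by
  apply Polynomial.ringHom_ext
  · have : f.comp C = g.comp C := by
      apply Polynomial.ringHom_ext
      · exact hc
      · exact hx
    intro s
    exact congrFun (congrArg DFunLike.coe this) s
  · exact hy

/-- a ring hom out of `R0[X][Y]` lands in a subring as soon as the generators do. -/
theorem ringHom_mem_of_gens {T : Type*} [CommRing T] (f : R0[X][X] →+* T) (S : Subring T)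
    (hc : ∀ a : R0, f (C (C a)) ∈ S) (hx : f (C X) ∈ S) (hy : f X ∈ S) (g : R0[X][X]) :
    f g ∈ S := by
  have h1 : ∀ s : R0[X], f (C s) ∈ S := by
    intro s
    induction s using Polynomial.induction_on' with
    | add p r hp hr => rw [C_add, map_add]; exact S.add_mem hp hr
    | monomial n a =>
      rw [← C_mul_X_pow_eq_monomial, C_mul, C_pow, map_mul, map_pow]
      exact S.mul_mem (hc a) (S.pow_mem hx n)
  induction g using Polynomial.induction_on' with
  | add p r hp hr => rw [map_add]; exact S.add_mem hp hr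
  | monomial n s =>
    rw [← C_mul_X_pow_eq_monomial, map_mul, map_pow]
    exact S.mul_mem (h1 s) (S.pow_mem hy n)

variable (incl : O →+* FM) (rO : O →+* Fk) (constO : R0 →+* O) (xO θO : O)
  (S : Subring L) (rS : S →+* Fk') (V : FM →+* L) (ρ : Fk →+* Fk')

/-- **Transport.**  See the module doc. -/
theorem transport_of_gens (hincl : Function.Injective incl)
    (hconst : ∀ a : R0, incl (constO a) = algebraMap R0 FM a)
    (hinv : ∀ (y : L) (hy : y ∈ S), rS ⟨y, hy⟩ ≠ 0 → y⁻¹ ∈ S)
    (hcS : ∀ a : R0, ∃ h : V (incl (constO a)) ∈ S, rS ⟨_, h⟩ = ρ (rO (constO a)))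
    (hxS : ∃ h : V (incl xO) ∈ S, rS ⟨_, h⟩ = ρ (rO xO))
    (hθS : ∃ h : V (incl θO) ∈ S, rS ⟨_, h⟩ = ρ (rO θO))
    (hrepr : ∀ y : O, ∃ (s : R0[X]) (g : R0[X][X]), rO (s.eval₂ constO xO) ≠ 0 ∧
      aeval (incl xO) s * incl y = ev2 (incl xO) (incl θO) g)
    (y : O) : ∃ h : V (incl y) ∈ S, rS ⟨V (incl y), h⟩ = ρ (rO y) := by
  set eO : R0[X][X] →+* O := ev2O constO xO θO with heO
  have hie : incl.comp eO = ev2 (incl xO) (incl θO) :=
    ringHom_ext_gens _ _
      (fun a => by rw [RingHom.comp_apply, heO, ev2O_C_C, ev2_C_C, hconst])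
      (by rw [RingHom.comp_apply, heO, ev2O_C_X, ev2_C_X])
      (by rw [RingHom.comp_apply, heO, ev2O_X, ev2_X])
  have hie' : ∀ g, incl (eO g) = ev2 (incl xO) (incl θO) g :=
    fun g => congrFun (congrArg DFunLike.coe hie) g
  have hS : ∀ g : R0[X][X], V (incl (eO g)) ∈ S :=
    ringHom_mem_of_gens ((V.comp incl).comp eO) S
      (fun a => by
        rw [RingHom.comp_apply, RingHom.comp_apply, heO, ev2O_C_C]; exact (hcS a).1)
      (by rw [RingHom.comp_apply, RingHom.comp_apply, heO, ev2O_C_X]; exact hxS.1)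
      (by rw [RingHom.comp_apply, RingHom.comp_apply, heO, ev2O_X]; exact hθS.1)
  let eS : R0[X][X] →+* S := ((V.comp incl).comp eO).codRestrict S hS
  have hcomp : rS.comp eS = (ρ.comp rO).comp eO := by
    refine ringHom_ext_gens _ _ (fun a => ?_) ?_ ?_
    · obtain ⟨h, hh⟩ := hcS a
      change rS ⟨V (incl (eO (C (C a)))), _⟩ = ρ (rO (eO (C (C a))))
      simp only [heO, ev2O_C_C]
      exact hh
    · obtain ⟨h, hh⟩ := hxS
      change rS ⟨V (incl (eO (C X))), _⟩ = ρ (rO (eO (C X)))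
      simp only [heO, ev2O_C_X]
      exact hh
    · obtain ⟨h, hh⟩ := hθS
      change rS ⟨V (incl (eO X)), _⟩ = ρ (rO (eO X))
      simp only [heO, ev2O_X]
      exact hh
  have hcomp' : ∀ g : R0[X][X], rS ⟨V (incl (eO g)), hS g⟩ = ρ (rO (eO g)) :=
    fun g => congrFun (congrArg DFunLike.coe hcomp) g
  obtain ⟨s, g, hs0, hrel⟩ := hrepr y
  -- `σ = s(x)`
  set σ : O := eO (C s) with hσ
  have hσeq : σ = s.eval₂ constO xO := by rw [hσ, heO, ev2O_C]
  have hiσ : incl σ = aeval (incl xO) s := by rw [hσ, hie', ev2_C]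
  have hrelO : σ * y = eO g := by
    apply hincl
    rw [map_mul, hiσ, hrel, hie']
  have hσne : rS ⟨V (incl σ), hS (C s)⟩ ≠ 0 := by
    rw [hcomp' (C s)]
    intro h0
    apply hs0
    rw [← hσeq]
    exact ρ.injective (by rw [h0, map_zero])
  have hσinv : (V (incl σ))⁻¹ ∈ S := hinv _ (hS (C s)) hσne
  have hVσ0 : V (incl σ) ≠ 0 := by
    intro h0
    apply hσne
    have : (⟨V (incl σ), hS (C s)⟩ : S) = 0 := Subtype.ext h0
    rw [this, map_zero]
  have hVrel : V (incl σ) * V (incl y) = V (incl (eO g)) := by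
    rw [← map_mul, ← map_mul, hrelO]
  have hVy : V (incl y) = (V (incl σ))⁻¹ * V (incl (eO g)) := by
    rw [← hVrel, ← mul_assoc, inv_mul_cancel₀ hVσ0, one_mul]
  have hyS : V (incl y) ∈ S := by rw [hVy]; exact S.mul_mem hσinv (hS g)
  refine ⟨hyS, ?_⟩
  have h1 : rS ⟨V (incl σ), hS (C s)⟩ * rS ⟨V (incl y), hyS⟩ = rS ⟨V (incl (eO g)), hS g⟩ := by
    rw [← map_mul]
    congr 1
    exact Subtype.ext hVrel
  rw [hcomp' g, ← hrelO, map_mul, map_mul, hcomp' (C s)] at h1
  refine mul_left_cancel₀ ?_ h1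
  rw [← hcomp' (C s)]
  exact hσne

end Transport

end Fermat.Agent.S34.H6
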