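import Mathlib
import Fermat.Agent.S34.H6_L0Transport
import Fermat.Agent.S34.H6_L0TransportB
import Fermat.Agent.S34.H92_GaussLevelM
import Fermat.Agent.S34.H16_RelDeg
import Fermat.Agent.S34.H36_VSub

/-!
# S34 / L0: the transport facts `HiV`, `H0V` at the real types (helper6)

`N = ℓ M`, `ℓ ∤ M`; `V_M` helper92's level-`M` Gauss ring of `F_M = fullC L₁ M`; `(S, rS)` a
valuation subring of `F_N = fullC L₁ N` with a reduction map into `kA((t))` (instance: `P.O1`,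
`P.res1` of a place `P : CA.H99.PlaceOver (ℓ : V_M) j_N ι θb`), given through the four facts
`hval`, `hinv`, `hS` (`S ⊇ V_M` with `rS = ι` there) and `hθ` (`j_N ∈ S`, `rS j_N = θb`).

* `jq_mem` : `j_q = j(t^ℓ) ∈ S`.
* `res_jq_of_zero` : if `ι = V_ℓ ∘ resM` and `θb = j̄_M` then `rS j_q = j̄`.
* `res_jq_of_infty` : if `ι = resM` then `rS j_q = j̄^ℓ`.
* `transport_vSub` : for a ring endomorphism `ρ` of `kA((t))` with `ι c = ρ c̄` on constants,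
  `rS j_q = ρ j̄`, `θb = ρ j̄_M`: `∀ y ∈ V_M, V_ℓ y ∈ S ∧ rS (V_ℓ y) = ρ (resM y)`.
* `transport_vSub_zero` (`ρ = id`; `H0V`: `res_0 ∘ V_ℓ = res_M`) and `transport_vSub_infty`
  (`ρ = t ↦ t^ℓ`; `HiV`).
-/

set_option autoImplicit false
set_option synthInstance.maxHeartbeats 400000
set_option linter.unusedSectionVars false
set_option linter.style.haveILetI false

noncomputable section

namespace Fermat.Agent.S34.H6

open ModularCurve Polynomial IsLocalRing Fermat.Agent.S28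
open Fermat.Agent.S18 Fermat.Agent.S34.H92

local notation "Qbar" => AlgebraicClosure ℚ

variable (M N : ℕ) [NeZero M] [NeZero N] {ℓ : ℕ} [hℓ : Fact ℓ.Prime] [NeZero ℓ] (hℓM : ¬ ℓ ∣ M)
  (hN : N = ℓ * M)
  (A : ValuationSubring Qbar) (hA : A.LiesOverPrime ℓ)

local notation "kA" => IsLocalRing.ResidueField A
local notation "A₁" => H45.A0 A ℓ
local notation "L₁" => H45.unrCyclo ℓ
local notation "FM" => modularFunctionFieldFullC (H45.unrCyclo ℓ) M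
local notation "FN" => modularFunctionFieldFullC (H45.unrCyclo ℓ) N

include hN in
theorem dvd_N_of_eq : ℓ ∣ N := ⟨M, hN⟩

include hN in
theorem mul_dvd_N_of_eq : ℓ * M ∣ N := hN ▸ dvd_rfl

variable (S : Subring ↥(modularFunctionFieldFullC (H45.unrCyclo ℓ) N))
  (rS : ↥S →+* LaurentSeries (IsLocalRing.ResidueField A))
  (ι : ↥(VM M hℓM A hA) →+* LaurentSeries (IsLocalRing.ResidueField A))
  (θb : LaurentSeries (IsLocalRing.ResidueField A))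

/-- `j_q ∈ S`: it is a root of the monic `Φ_ℓ(j, Y)`, `j ∈ S`. -/
theorem jq_mem (hval : ∀ y : ↥FN, y ∈ S ∨ y⁻¹ ∈ S) (hj : H16.jK L₁ N ∈ S) :
    H99.jdK L₁ N ℓ (dvd_N_of_eq M N hN) ∈ S := by
  obtain ⟨Dq, -⟩ := S28.H16.hasModPoly ℓ
  have hrel := S34.H16.relFK L₁ N ℓ Dq 1 ℓ (one_mul ℓ).symm (one_dvd N) (dvd_N_of_eq M N hN)
  rw [H99.jdK_one] at hrel
  exact mem_of_monic_eval₂_eq_zero S hval Dq.Φ Dq.monic (S34.H16.evalF L₁ N (H16.jK L₁ N))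
    (by rw [S34.H16.evalF_X]; exact hj) hrel

/-- the four facts describing `(S, rS)` as a place over `(V_M, ι)` with `rS j_N = θb`. -/
structure IsPlaceData : Prop where
  hval : ∀ y : ↥FN, y ∈ S ∨ y⁻¹ ∈ S
  hinv : ∀ (y : ↥FN) (hy : y ∈ S), rS ⟨y, hy⟩ ≠ 0 → y⁻¹ ∈ S
  hS : ∀ (x : ↥(VM M hℓM A hA)) (z : ↥FN),
    (z : LaurentSeries L₁) = ((x : ↥FM) : LaurentSeries L₁) → ∃ hz : z ∈ S, rS ⟨z, hz⟩ = ι x
  hθ : ∃ hθ : H16.jNK L₁ N ∈ S, rS ⟨_, hθ⟩ = θb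

variable {M N hℓM A hA S rS ι θb}

/-- `j ∈ S` with residue `ι j`. -/
theorem IsPlaceData.jK_mem (H : IsPlaceData M N hℓM A hA S rS ι θb) :
    ∃ hj : H16.jK L₁ N ∈ S, rS ⟨_, hj⟩ = ι ⟨H16.jK L₁ M, (jK_mem_VM M hℓM A hA).1⟩ :=
  H.hS ⟨H16.jK L₁ M, (jK_mem_VM M hℓM A hA).1⟩ (H16.jK L₁ N) (by rw [H16.coe_jK, H16.coe_jK])

include hN in
/-- **Residue of `j_q` at the place of type `0`.** -/
theorem IsPlaceData.res_jq_of_zero (H : IsPlaceData M N hℓM A hA S rS ι θb)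
    (hι : ι = (qExpand kA ℓ).comp (resM M hℓM A hA))
    (hθb : θb = qExpand kA M (jqModC kA)) :
    ∃ hjq : H99.jdK L₁ N ℓ (dvd_N_of_eq M N hN) ∈ S, rS ⟨_, hjq⟩ = jqModC kA := by
  haveI : CharP kA ℓ := H45.charP_residueField hℓ.out hA
  obtain ⟨Dq, hDq⟩ := S28.H16.hasModPoly ℓ
  obtain ⟨DM, hDM⟩ := S28.H16.hasModPoly M
  obtain ⟨hj, hjres⟩ := H.jK_mem
  obtain ⟨hθ, hθres⟩ := H.hθ
  have hjq := jq_mem M N hN S H.hval hj
  refine ⟨hjq, ?_⟩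
  have hrel1 := S34.H16.relFK L₁ N ℓ Dq 1 ℓ (one_mul ℓ).symm (one_dvd N) (dvd_N_of_eq M N hN)
  rw [H99.jdK_one] at hrel1
  have hrel2 := S34.H16.relFK L₁ N M DM ℓ N hN (dvd_N_of_eq M N hN) dvd_rfl
  rw [H99.jdK_self] at hrel2
  have hresj : rS ⟨S34.H16.evalF L₁ N (H16.jK L₁ N) X, by rw [S34.H16.evalF_X]; exact hj⟩ =
      qExpand kA ℓ (jqModC kA) := by
    have e : (⟨S34.H16.evalF L₁ N (H16.jK L₁ N) X, by rw [S34.H16.evalF_X]; exact hj⟩ : ↥S) =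
        ⟨H16.jK L₁ N, hj⟩ := Subtype.ext (S34.H16.evalF_X L₁ N _)
    rw [e, hjres, hι, RingHom.comp_apply, (jK_mem_VM M hℓM A hA).2]
  have key := res_jq_zero ℓ kA Dq hDq S rS M hℓM DM hDM
    (S34.H16.evalF L₁ N (H16.jK L₁ N))
    (S34.H16.evalF L₁ N (H99.jdK L₁ N ℓ (dvd_N_of_eq M N hN)))
    (by rw [S34.H16.evalF_X]; exact hj) (by rw [S34.H16.evalF_X]; exact hjq) hθ
    (by rw [S34.H16.evalF_X]; exact hrel1) hrel2 hresj (hθres.trans hθb)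
  have e2 : (⟨S34.H16.evalF L₁ N (H99.jdK L₁ N ℓ (dvd_N_of_eq M N hN)) X,
      by rw [S34.H16.evalF_X]; exact hjq⟩ : ↥S) = ⟨H99.jdK L₁ N ℓ (dvd_N_of_eq M N hN), hjq⟩ :=
    Subtype.ext (S34.H16.evalF_X L₁ N _)
  rw [← e2]
  exact key

include hN in
/-- **Residue of `j_q` at the place of type `∞`.** -/
theorem IsPlaceData.res_jq_of_infty (H : IsPlaceData M N hℓM A hA S rS ι θb)
    (hι : ι = resM M hℓM A hA) :
    ∃ hjq : H99.jdK L₁ N ℓ (dvd_N_of_eq M N hN) ∈ S, rS ⟨_, hjq⟩ = jqModC kA ^ ℓ := by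
  haveI : CharP kA ℓ := H45.charP_residueField hℓ.out hA
  obtain ⟨Dq, hDq⟩ := S28.H16.hasModPoly ℓ
  obtain ⟨hj, hjres⟩ := H.jK_mem
  have hjq := jq_mem M N hN S H.hval hj
  refine ⟨hjq, ?_⟩
  have hrel1 := S34.H16.relFK L₁ N ℓ Dq 1 ℓ (one_mul ℓ).symm (one_dvd N) (dvd_N_of_eq M N hN)
  rw [H99.jdK_one] at hrel1
  have hresj : rS ⟨S34.H16.evalF L₁ N (H16.jK L₁ N) X, by rw [S34.H16.evalF_X]; exact hj⟩ =
      jqModC kA := by
    have e : (⟨S34.H16.evalF L₁ N (H16.jK L₁ N) X, by rw [S34.H16.evalF_X]; exact hj⟩ : ↥S) =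
        ⟨H16.jK L₁ N, hj⟩ := Subtype.ext (S34.H16.evalF_X L₁ N _)
    rw [e, hjres, hι, (jK_mem_VM M hℓM A hA).2]
  have key := res_jq_infty ℓ kA Dq hDq S rS
    (S34.H16.evalF L₁ N (H16.jK L₁ N))
    (S34.H16.evalF L₁ N (H99.jdK L₁ N ℓ (dvd_N_of_eq M N hN)))
    (by rw [S34.H16.evalF_X]; exact hj) (by rw [S34.H16.evalF_X]; exact hjq)
    (by rw [S34.H16.evalF_X]; exact hrel1) hresj
  have e2 : (⟨S34.H16.evalF L₁ N (H99.jdK L₁ N ℓ (dvd_N_of_eq M N hN)) X,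
      by rw [S34.H16.evalF_X]; exact hjq⟩ : ↥S) = ⟨H99.jdK L₁ N ℓ (dvd_N_of_eq M N hN), hjq⟩ :=
    Subtype.ext (S34.H16.evalF_X L₁ N _)
  rw [← e2]
  exact key

/-! ### The transport along `V_ℓ` -/

include hN in
/-- `V_ℓ (j_M) = j_N` for `N = ℓ M`. -/
theorem vSub_jNK_eq (K : Type*) [Field K] :
    S34.H36.vSub K ℓ M N (mul_dvd_N_of_eq M N hN) (H16.jNK K M) = H16.jNK K N := by
  subst hN
  apply Subtype.ext
  rw [S34.H36.coe_vSub, H16.coe_jNK, H16.coe_jNK, qExpand_qExpand]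

/-- `V_ℓ` fixes the constants (on `q`-expansions). -/
theorem coe_vSub_algebraMap (h : ℓ * M ∣ N) (K : Type*) [Field K] (c : K) :
    ((S34.H36.vSub K ℓ M N h (algebraMap K _ c) : modularFunctionFieldFullC K N) :
      LaurentSeries K) =
      ((algebraMap K (modularFunctionFieldFullC K M) c : modularFunctionFieldFullC K M) :
        LaurentSeries K) := by
  rw [AlgHom.commutes]
  rfl

/-- the reduction of a polynomial in `j` with `A₁`-coefficients. -/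
theorem resM_eval₂_const (s : (↥(H45.A0 A ℓ))[X]) :
    resM M hℓM A hA (s.eval₂ (constVM M hℓM A hA) ⟨H16.jK L₁ M, (jK_mem_VM M hℓM A hA).1⟩) =
      Polynomial.aeval (jqModC kA) (s.map (H45.resA0 A ℓ)) := by
  rw [Polynomial.hom_eval₂, (jK_mem_VM M hℓM A hA).2, Polynomial.aeval_def,
    Polynomial.eval₂_map]
  congr 1
  refine RingHom.ext fun a => ?_
  rw [RingHom.comp_apply, resM_const, RingHom.comp_apply, S18.H92.algebraMap_eq_single]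
  rfl

include hN in
/-- **Transport along `V_ℓ`.**  For a ring endomorphism `ρ` of `kA((t))` with `ι c = ρ c̄` on
constants, `rS j_q = ρ j̄` and `θb = ρ j̄_M`: `V_ℓ (V_M) ⊆ S` and `rS ∘ V_ℓ = ρ ∘ resM` on `V_M`. -/
theorem IsPlaceData.transport_vSub (H : IsPlaceData M N hℓM A hA S rS ι θb)
    (ρ : LaurentSeries kA →+* LaurentSeries kA)
    (hιc : ∀ a : A₁, ι (constVM M hℓM A hA a) = ρ (HahnSeries.C (H45.resA0 A ℓ a)))
    (hjq : ∃ hjq : H99.jdK L₁ N ℓ (dvd_N_of_eq M N hN) ∈ S, rS ⟨_, hjq⟩ = ρ (jqModC kA))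
    (hθb : θb = ρ (qExpand kA M (jqModC kA)))
    (y : ↥(VM M hℓM A hA)) :
    ∃ h : S34.H36.vSub L₁ ℓ M N (mul_dvd_N_of_eq M N hN) (y : ↥FM) ∈ S,
      rS ⟨_, h⟩ = ρ (resM M hℓM A hA y) := by
  haveI : CharP kA ℓ := H45.charP_residueField hℓ.out hA
  have hmain := transport_of_gens (R0 := A₁) (O := ↥(VM M hℓM A hA)) (L := ↥FN)
    (Fk := LaurentSeries kA) (Fk' := LaurentSeries kA)
    (VM M hℓM A hA).subtype (resM M hℓM A hA) (constVM M hℓM A hA)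
    ⟨H16.jK L₁ M, (jK_mem_VM M hℓM A hA).1⟩ ⟨H16.jNK L₁ M, (jNK_mem_VM M hℓM A hA).1⟩
    S rS ((S34.H36.vSub L₁ ℓ M N (mul_dvd_N_of_eq M N hN) : ↥FM →ₐ[L₁] ↥FN) : ↥FM →+* ↥FN) ρ
    Subtype.val_injective (fun a => rfl) H.hinv ?_ ?_ ?_ ?_ y
  · exact hmain
  · -- constants
    intro a
    obtain ⟨hz, hzres⟩ := H.hS (constVM M hℓM A hA a)
      (S34.H36.vSub L₁ ℓ M N (mul_dvd_N_of_eq M N hN) ((constVM M hℓM A hA a : ↥(VM M hℓM A hA)) : ↥FM))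
      (by rw [coe_constVM]; exact coe_vSub_algebraMap _ L₁ _)
    refine ⟨hz, ?_⟩
    rw [resM_const, ← hιc]
    exact hzres
  · -- `j ↦ j_q`
    obtain ⟨h1, h2⟩ := hjq
    have e : S34.H36.vSub L₁ ℓ M N (mul_dvd_N_of_eq M N hN) (H16.jK L₁ M) =
        H99.jdK L₁ N ℓ (dvd_N_of_eq M N hN) := S34.H36.vSub_jK L₁ ℓ M N _
    refine ⟨?_, ?_⟩
    · show S34.H36.vSub L₁ ℓ M N (mul_dvd_N_of_eq M N hN) (H16.jK L₁ M) ∈ S
      rw [e]; exact h1
    · rw [(jK_mem_VM M hℓM A hA).2, ← h2]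
      exact congrArg rS (Subtype.ext e)
  · -- `j_M ↦ j_N`
    obtain ⟨h1, h2⟩ := H.hθ
    have e := vSub_jNK_eq hN L₁
    refine ⟨?_, ?_⟩
    · show S34.H36.vSub L₁ ℓ M N (mul_dvd_N_of_eq M N hN) (H16.jNK L₁ M) ∈ S
      rw [e]; exact h1
    · rw [(jNK_mem_VM M hℓM A hA).2, ← hθb, ← h2]
      exact congrArg rS (Subtype.ext e)
  · -- representation
    intro y
    obtain ⟨s, g, hs, -, hrel⟩ := exists_repr_VM M hℓM A hA (y : ↥FM) y.2
    refine ⟨s, g, ?_, hrel⟩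
    rw [resM_eval₂_const]
    intro h0
    exact hs ((transcendental_iff.1 (S28.H39.transcendental_jqModC (k := kA))) _ h0)

include hN in
/-- **`H0V`**: at the place of type `0` (`ι = V_ℓ ∘ resM`, `θb = j̄_M`): `res_0 ∘ V_ℓ = res_M`. -/
theorem IsPlaceData.transport_vSub_zero (H : IsPlaceData M N hℓM A hA S rS ι θb)
    (hι : ι = (qExpand kA ℓ).comp (resM M hℓM A hA))
    (hθb : θb = qExpand kA M (jqModC kA)) (y : ↥(VM M hℓM A hA)) :
    ∃ h : S34.H36.vSub L₁ ℓ M N (mul_dvd_N_of_eq M N hN) (y : ↥FM) ∈ S,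
      rS ⟨_, h⟩ = resM M hℓM A hA y := by
  refine H.transport_vSub hN (RingHom.id _) ?_ ?_ ?_ y
  · intro a
    rw [hι, RingHom.comp_apply, resM_const, qExpand_C]
    rfl
  · exact H.res_jq_of_zero hN hι hθb
  · exact hθb

include hN in
/-- **`HiV`**: at the place of type `∞` (`ι = resM`, `θb = j̄_M^ℓ`): `res_∞ ∘ V_ℓ = V_ℓ ∘ res_M`
(`V_ℓ` on the right is the substitution `t ↦ t^ℓ` of `kA((t))`). -/
theorem IsPlaceData.transport_vSub_infty (H : IsPlaceData M N hℓM A hA S rS ι θb)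
    (hι : ι = resM M hℓM A hA)
    (hθb : θb = qExpand kA M (jqModC kA) ^ ℓ) (y : ↥(VM M hℓM A hA)) :
    ∃ h : S34.H36.vSub L₁ ℓ M N (mul_dvd_N_of_eq M N hN) (y : ↥FM) ∈ S,
      rS ⟨_, h⟩ = qExpand kA ℓ (resM M hℓM A hA y) := by
  haveI : CharP kA ℓ := H45.charP_residueField hℓ.out hA
  haveI : ExpChar kA ℓ := ExpChar.prime hℓ.out
  refine H.transport_vSub hN (qExpand kA ℓ) ?_ ?_ ?_ y
  · intro a
    rw [hι, resM_const, qExpand_C]
  · obtain ⟨h1, h2⟩ := H.res_jq_of_infty hN hι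
    exact ⟨h1, by rw [h2, Fermat.Agent.S37.H50.qExpand_jqModC_char kA ℓ]⟩
  · rw [hθb, qExpand_qExpand_jqModC_char ℓ kA M]

/-! ### From a `CA.H99.PlaceOver` -/

section OfPlaceOver

open Fermat.Agent.CA.H99

variable (M N hℓM A hA)
variable (h : M ∣ N)
  [Algebra ↥(VM M hℓM A hA) ↥(modularFunctionFieldFullC (H45.unrCyclo ℓ) N)]
  (htower : letI := S34.H16.degAlgebra (H45.unrCyclo ℓ) M N h
    IsScalarTower ↥(VM M hℓM A hA) ↥(modularFunctionFieldFullC (H45.unrCyclo ℓ) M)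
      ↥(modularFunctionFieldFullC (H45.unrCyclo ℓ) N))
  {ι' : ↥(VM M hℓM A hA) →+* LaurentSeries (IsLocalRing.ResidueField A)}
  {θb' : LaurentSeries (IsLocalRing.ResidueField A)}
  (P : PlaceOver (L := ↥(modularFunctionFieldFullC (H45.unrCyclo ℓ) N))
    (((ℓ : ℕ) : ↥(VM M hℓM A hA))) (H16.jNK (H45.unrCyclo ℓ) N) ι' θb')

include htower in
/-- the algebra map `V_M → F_N` is the inclusion (on `q`-expansions). -/
theorem coe_algebraMap_VM (x : ↥(VM M hℓM A hA)) :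
    ((algebraMap ↥(VM M hℓM A hA) ↥FN x : ↥FN) : LaurentSeries L₁) =
      ((x : ↥FM) : LaurentSeries L₁) := by
  letI := S34.H16.degAlgebra L₁ M N h
  haveI := htower
  rw [IsScalarTower.algebraMap_apply ↥(VM M hℓM A hA) ↥FM ↥FN,
    S34.H16.degAlgebra_algebraMap_coe]
  rfl

include htower in
/-- **A place `P : PlaceOver (ℓ : V_M) j_N ι θb` gives the four facts.** -/
theorem isPlaceData_of_placeOver : IsPlaceData M N hℓM A hA P.O1 P.res1 ι' θb' where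
  hval := P.mem_or_inv_mem
  hinv := P.inv_mem
  hS := by
    intro x z hz
    have e : z = algebraMap ↥(VM M hℓM A hA) ↥FN x := by
      apply Subtype.ext
      rw [hz, coe_algebraMap_VM M N hℓM A hA h htower]
    subst e
    exact ⟨P.algebraMap_mem x, P.res1_algebraMap x⟩
  hθ := ⟨P.θ_mem, P.res1_θ⟩

end OfPlaceOver

end Fermat.Agent.S34.H6
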