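import Mathlib
import Fermat.Agent.S34.H6_L0TransportInst
import Fermat.Agent.S34.H16_L0Places
import Fermat.Agent.S34.H92_GaussModelWrap
import Fermat.Agent.S34.H36_FrobLin

/-!
# S34 / L0: the four transport facts `Hiι HiV H0V H0ι` in the shape of
`S34.H55.twoComponents_of_incl`, for helper16's two places (helper6)

Fixed data (helper99 #2702): `M := H92.gaussModelVM` (level-`M` Gauss model, `O1 = V_M`,
`res1 = resMF`), `V := H36.vSub L₁ ℓ M (ℓ * M)`, `incl := (FullC kA M).val`,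
`Fr := H36.frobLin kA ℓ M`, `P∞`, `P₀` any places of the types produced by
`S34.H16.nonempty_placeInfty` / `nonempty_placeZero`.  All statements are under
`letI := H16.algebraVMFN M hℓM A hA` and `haveI : CharP kA ℓ := S18.H92.charP_residueField A hA`.
-/

set_option autoImplicit false
set_option synthInstance.maxHeartbeats 400000
set_option linter.unusedSectionVars false
set_option linter.style.haveILetI false

noncomputable section

namespace Fermat.Agent.S34.H6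

open ModularCurve Polynomial IsLocalRing Fermat.Agent.S28
open Fermat.Agent.S18 Fermat.Agent.S34.H92 Fermat.Agent.S34.H16

local notation "Qbar" => AlgebraicClosure ℚ

variable (M : ℕ) [NeZero M] {ℓ : ℕ} [hℓ : Fact ℓ.Prime] (hℓM : ¬ ℓ ∣ M)
  (A : ValuationSubring Qbar) (hA : A.LiesOverPrime ℓ)

local notation "kA" => IsLocalRing.ResidueField A
local notation "L₁" => H45.unrCyclo ℓ
local notation "FM" => modularFunctionFieldFullC (H45.unrCyclo ℓ) M
local notation "FN" => modularFunctionFieldFullC (H45.unrCyclo ℓ) (ℓ * M)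
local notation "FkM" => modularFunctionFieldFullC (IsLocalRing.ResidueField A) M

/-- the place data of a place of `F_N` over `V_M` for helper16's algebra structure. -/
theorem isPlaceData_of_placeOver' {ι' : ↥(VM M hℓM A hA) →+* LaurentSeries kA}
    {θb' : LaurentSeries kA} :
    letI := algebraVMFN M hℓM A hA
    ∀ P : CA.H99.PlaceOver (L := ↥FN) (((ℓ : ℕ) : ↥(VM M hℓM A hA))) (H16.jNK L₁ (ℓ * M)) ι' θb',
      IsPlaceData M (ℓ * M) hℓM A hA P.O1 P.res1 ι' θb' := by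
  letI := algebraVMFN M hℓM A hA
  intro P
  exact isPlaceData_of_placeOver M (ℓ * M) hℓM A hA (dvd_level M) (isScalarTower_VMFN M hℓM A hA) P

/-- **`HiV`**. -/
theorem HiV :
    letI := algebraVMFN M hℓM A hA
    haveI : CharP kA ℓ := S18.H92.charP_residueField A hA
    ∀ (P : CA.H99.PlaceOver (L := ↥FN) (((ℓ : ℕ) : ↥(VM M hℓM A hA))) (H16.jNK L₁ (ℓ * M))
        (resM M hℓM A hA) (resM M hℓM A hA (jMV M hℓM A hA) ^ ℓ))
      (y : ↥FM) (hy : y ∈ (gaussModelVM M hℓM A hA).O1),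
      ∃ h : S34.H36.vSub L₁ ℓ M (ℓ * M) dvd_rfl y ∈ P.O1,
        P.res1 ⟨_, h⟩ =
          (modularFunctionFieldFullC kA M).val
            (S34.H36.frobLin kA ℓ M ((gaussModelVM M hℓM A hA).res1 ⟨y, hy⟩)) := by
  letI := algebraVMFN M hℓM A hA
  haveI : CharP kA ℓ := S18.H92.charP_residueField A hA
  intro P y hy
  have H := isPlaceData_of_placeOver' M hℓM A hA P
  exact H.transport_vSub_infty rfl rfl (by rw [resM_jMV]) ⟨y, hy⟩

/-- **`Hiι`** for any ring hom `ι : F_M → F_N` which is the identity on `q`-expansions. -/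
theorem Hiι :
    letI := algebraVMFN M hℓM A hA
    ∀ (P : CA.H99.PlaceOver (L := ↥FN) (((ℓ : ℕ) : ↥(VM M hℓM A hA))) (H16.jNK L₁ (ℓ * M))
        (resM M hℓM A hA) (resM M hℓM A hA (jMV M hℓM A hA) ^ ℓ))
      (ι : ↥FM →+* ↥FN)
      (_ : ∀ y : ↥FM, ((ι y : ↥FN) : LaurentSeries L₁) = (y : LaurentSeries L₁))
      (y : ↥FM) (hy : y ∈ (gaussModelVM M hℓM A hA).O1),
      ∃ h : ι y ∈ P.O1,
        P.res1 ⟨_, h⟩ =
          (modularFunctionFieldFullC kA M).val ((gaussModelVM M hℓM A hA).res1 ⟨y, hy⟩) := by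
  letI := algebraVMFN M hℓM A hA
  intro P ι hι y hy
  exact (isPlaceData_of_placeOver' M hℓM A hA P).hS ⟨y, hy⟩ (ι y) (hι y)

/-- the value of `j_ℓ` at `P∞`. -/
theorem res_jq_infty' :
    letI := algebraVMFN M hℓM A hA
    ∀ (P : CA.H99.PlaceOver (L := ↥FN) (((ℓ : ℕ) : ↥(VM M hℓM A hA))) (H16.jNK L₁ (ℓ * M))
        (resM M hℓM A hA) (resM M hℓM A hA (jMV M hℓM A hA) ^ ℓ)),
      ∃ hjq : H99.jdK L₁ (ℓ * M) ℓ (Dvd.intro M rfl) ∈ P.O1,
        P.res1 ⟨_, hjq⟩ = jqModC kA ^ ℓ := by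
  letI := algebraVMFN M hℓM A hA
  intro P
  exact (isPlaceData_of_placeOver' M hℓM A hA P).res_jq_of_infty rfl rfl

/-- **`H0V`**. -/
theorem H0V :
    letI := algebraVMFN M hℓM A hA
    ∀ (P : CA.H99.PlaceOver (L := ↥FN) (((ℓ : ℕ) : ↥(VM M hℓM A hA))) (H16.jNK L₁ (ℓ * M))
        (iotaZero M hℓM A hA) (resM M hℓM A hA (jMV M hℓM A hA)))
      (y : ↥FM) (hy : y ∈ (gaussModelVM M hℓM A hA).O1),
      ∃ h : S34.H36.vSub L₁ ℓ M (ℓ * M) dvd_rfl y ∈ P.O1,
        P.res1 ⟨_, h⟩ =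
          (modularFunctionFieldFullC kA M).val ((gaussModelVM M hℓM A hA).res1 ⟨y, hy⟩) := by
  letI := algebraVMFN M hℓM A hA
  intro P y hy
  have H := isPlaceData_of_placeOver' M hℓM A hA P
  exact H.transport_vSub_zero rfl rfl (resM_jMV M hℓM A hA) ⟨y, hy⟩

/-- **`H0ι`** for any ring hom `ι : F_M → F_N` which is the identity on `q`-expansions. -/
theorem H0ι :
    letI := algebraVMFN M hℓM A hA
    haveI : CharP kA ℓ := S18.H92.charP_residueField A hA
    ∀ (P : CA.H99.PlaceOver (L := ↥FN) (((ℓ : ℕ) : ↥(VM M hℓM A hA))) (H16.jNK L₁ (ℓ * M))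
        (iotaZero M hℓM A hA) (resM M hℓM A hA (jMV M hℓM A hA)))
      (ι : ↥FM →+* ↥FN)
      (_ : ∀ y : ↥FM, ((ι y : ↥FN) : LaurentSeries L₁) = (y : LaurentSeries L₁))
      (y : ↥FM) (hy : y ∈ (gaussModelVM M hℓM A hA).O1),
      ∃ h : ι y ∈ P.O1,
        P.res1 ⟨_, h⟩ =
          (modularFunctionFieldFullC kA M).val
            (S34.H36.frobLin kA ℓ M ((gaussModelVM M hℓM A hA).res1 ⟨y, hy⟩)) := by
  letI := algebraVMFN M hℓM A hA
  haveI : CharP kA ℓ := S18.H92.charP_residueField A hA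
  intro P ι hι y hy
  exact (isPlaceData_of_placeOver' M hℓM A hA P).hS ⟨y, hy⟩ (ι y) (hι y)

/-- the value of `j_ℓ` at `P₀`. -/
theorem res_jq_zero' :
    letI := algebraVMFN M hℓM A hA
    ∀ (P : CA.H99.PlaceOver (L := ↥FN) (((ℓ : ℕ) : ↥(VM M hℓM A hA))) (H16.jNK L₁ (ℓ * M))
        (iotaZero M hℓM A hA) (resM M hℓM A hA (jMV M hℓM A hA))),
      ∃ hjq : H99.jdK L₁ (ℓ * M) ℓ (Dvd.intro M rfl) ∈ P.O1,
        P.res1 ⟨_, hjq⟩ = jqModC kA := by
  letI := algebraVMFN M hℓM A hA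
  intro P
  exact (isPlaceData_of_placeOver' M hℓM A hA P).res_jq_of_zero rfl rfl (resM_jMV M hℓM A hA)

end Fermat.Agent.S34.H6
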