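import Mathlib
import Fermat.Agent.S18.H1_Sat

/-!
# S34 / L0 cut (H): saturation for two places, abstract (helper35)

`R` an integrally closed domain (the ring `A₁[j]`), `π` a prime of `R` (the uniformiser `q`),
`L` an algebraic extension of `Frac R` (the function field of level `qM`).

* `satRing π` : the subring of all `z ∈ L` with `f • z` integral over `R` for some `f ∉ (π)`
  (the integral closure of the localisation of `R` at `(π)`, without localisations);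
* `isIntegral_of_mem_satRing` : **(SAT)** `z ∈ satRing π`, `π • z` integral ⟹ `z` integral;
* `aeval_mem_satRing` : `V[θ] ⊆ satRing π` as soon as `V ⊆ satRing π` and `θ ∈ satRing π`;
* `exists_smul_of_res_eq_zero` : **(hinf)** for two subrings `O₁ O₂ ⊆ L` with reductions whose
  kernels are `π O_i` and `O₁ ∩ O₂ ⊆ satRing π`: an integral `b` whose two reductions vanish is
  `π • b'` with `b'` integral (`P_∞ ∩ P_0 = π B`);
* `exists_smul_of_pow` : the quotient `B / π B` is reduced.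
-/

set_option autoImplicit false
set_option linter.unusedSectionVars false

noncomputable section

open Polynomial

namespace Fermat.Agent.S34.H35

open Fermat.Agent.S18

variable {R K L : Type*} [CommRing R] [IsDomain R] [IsIntegrallyClosed R] [Field K] [Algebra R K]
  [IsFractionRing R K] [Field L] [Algebra K L] [Algebra R L] [IsScalarTower R K L]

/-- The subring of `L` of all `z` with `f • z` integral over `R` for some `f` prime to `π`. -/
def satRing {π : R} (hπ : Prime π) : Subring L where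
  carrier := {z | ∃ f : R, ¬ π ∣ f ∧ IsIntegral R (f • z)}
  mul_mem' := by
    rintro a b ⟨f, hf, hfa⟩ ⟨g, hg, hgb⟩
    refine ⟨f * g, fun h => (hπ.dvd_or_dvd h).elim hf hg, ?_⟩
    have : (f * g) • (a * b) = (f • a) * (g • b) := by
      rw [smul_mul_smul_comm]
    rw [this]
    exact hfa.mul hgb
  one_mem' := ⟨1, hπ.not_dvd_one, by rw [one_smul]; exact isIntegral_one⟩
  add_mem' := by
    rintro a b ⟨f, hf, hfa⟩ ⟨g, hg, hgb⟩
    refine ⟨f * g, fun h => (hπ.dvd_or_dvd h).elim hf hg, ?_⟩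
    have : (f * g) • (a + b) = g • (f • a) + f • (g • b) := by
      rw [smul_add, ← mul_smul g f a, ← mul_smul f g b, mul_comm g f]
    rw [this]
    exact (hfa.smul g).add (hgb.smul f)
  zero_mem' := ⟨1, hπ.not_dvd_one, by rw [smul_zero]; exact isIntegral_zero⟩
  neg_mem' := by
    rintro a ⟨f, hf, hfa⟩
    exact ⟨f, hf, by rw [smul_neg]; exact hfa.neg⟩

theorem mem_satRing {π : R} (hπ : Prime π) {z : L} :
    z ∈ satRing (L := L) hπ ↔ ∃ f : R, ¬ π ∣ f ∧ IsIntegral R (f • z) := Iff.rfl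

theorem mem_satRing_of_isIntegral {π : R} (hπ : Prime π) {z : L} (hz : IsIntegral R z) :
    z ∈ satRing (L := L) hπ :=
  ⟨1, hπ.not_dvd_one, by rw [one_smul]; exact hz⟩

/-- **(SAT)**: an element of `satRing π` whose `π`-multiple is integral is integral. -/
theorem isIntegral_of_mem_satRing [Algebra.IsAlgebraic K L] {π : R} (hπ : Prime π) {z : L}
    (hz : z ∈ satRing (L := L) hπ) (h : IsIntegral R (π • z)) : IsIntegral R z := by
  obtain ⟨f, hf, hfz⟩ := hz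
  exact H1.isIntegral_of_isIntegral_smul_smul (K := K) hπ hf h hfz

/-- `V[θ] ⊆ satRing π` as soon as `V ⊆ satRing π` and `θ ∈ satRing π`. -/
theorem aeval_mem_satRing {π : R} (hπ : Prime π) (V : Subring L)
    (hV : V ≤ satRing (L := L) hπ) {θ : L} (hθ : θ ∈ satRing (L := L) hπ) (p : (↥V)[X]) :
    p.eval₂ V.subtype θ ∈ satRing (L := L) hπ := by
  rw [eval₂_eq_sum_range]
  refine Subring.sum_mem _ fun i _ => ?_
  exact Subring.mul_mem _ (hV (p.coeff i).2) (Subring.pow_mem _ hθ i)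

section TwoPlaces

variable {π : R} (hπ : Prime π)
  (O₁ O₂ : Subring L) {κ₁ κ₂ : Type*} [CommRing κ₁] [CommRing κ₂]
  (res₁ : ↥O₁ →+* κ₁) (res₂ : ↥O₂ →+* κ₂)

include hπ in
/-- **(hinf)**: `P_∞ ∩ P_0 = π B`.  If the kernels of the two reductions are `π O_i` and
`O₁ ∩ O₂ ⊆ satRing π`, an integral element with both reductions zero is `π` times an integral
element. -/
theorem exists_smul_of_res_eq_zero [Algebra.IsAlgebraic K L]
    (hO : ∀ z : L, z ∈ O₁ → z ∈ O₂ → z ∈ satRing (L := L) hπ)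
    (hker₁ : ∀ (y : L) (hy : y ∈ O₁), res₁ ⟨y, hy⟩ = 0 → ∃ z ∈ O₁, y = π • z)
    (hker₂ : ∀ (y : L) (hy : y ∈ O₂), res₂ ⟨y, hy⟩ = 0 → ∃ z ∈ O₂, y = π • z)
    {b : L} (hb : IsIntegral R b) (hb₁ : b ∈ O₁) (hb₂ : b ∈ O₂)
    (h₁ : res₁ ⟨b, hb₁⟩ = 0) (h₂ : res₂ ⟨b, hb₂⟩ = 0) :
    ∃ b' : L, IsIntegral R b' ∧ b' ∈ O₁ ∧ b' ∈ O₂ ∧ b = π • b' := by
  obtain ⟨z₁, hz₁, hbz₁⟩ := hker₁ b hb₁ h₁
  obtain ⟨z₂, hz₂, hbz₂⟩ := hker₂ b hb₂ h₂
  have hinj : Function.Injective (algebraMap R L) := by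
    rw [IsScalarTower.algebraMap_eq R K L]
    exact (algebraMap K L).injective.comp (IsFractionRing.injective R K)
  have hπL : algebraMap R L π ≠ 0 := (map_ne_zero_iff _ hinj).mpr hπ.ne_zero
  have hz : z₁ = z₂ := by
    have h := hbz₁.symm.trans hbz₂
    rw [Algebra.smul_def, Algebra.smul_def] at h
    exact mul_left_cancel₀ hπL h
  subst hz
  refine ⟨z₁, ?_, hz₁, hz₂, hbz₁⟩
  exact isIntegral_of_mem_satRing (K := K) hπ (hO z₁ hz₁ hz₂) (hbz₁ ▸ hb)

include hπ in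
/-- `B / π B` is reduced: if a power of an integral `b` is `π` times an element of `O₁ ∩ O₂`
then so is `b` (residue rings reduced). -/
theorem exists_smul_of_pow [Algebra.IsAlgebraic K L] [IsReduced κ₁] [IsReduced κ₂]
    (hO : ∀ z : L, z ∈ O₁ → z ∈ O₂ → z ∈ satRing (L := L) hπ)
    (hker₁ : ∀ (y : L) (hy : y ∈ O₁), res₁ ⟨y, hy⟩ = 0 ↔ ∃ z ∈ O₁, y = π • z)
    (hker₂ : ∀ (y : L) (hy : y ∈ O₂), res₂ ⟨y, hy⟩ = 0 ↔ ∃ z ∈ O₂, y = π • z)
    {b : L} (hb : IsIntegral R b) (hb₁ : b ∈ O₁) (hb₂ : b ∈ O₂) (n : ℕ)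
    (hpow : ∃ c : L, c ∈ O₁ ∧ c ∈ O₂ ∧ b ^ n = π • c) :
    ∃ b' : L, IsIntegral R b' ∧ b' ∈ O₁ ∧ b' ∈ O₂ ∧ b = π • b' := by
  obtain ⟨c, hc₁, hc₂, hbc⟩ := hpow
  have h₁ : res₁ ⟨b, hb₁⟩ = 0 := by
    have h : res₁ (⟨b, hb₁⟩ ^ n) = 0 := by
      have hmem : b ^ n ∈ O₁ := Subring.pow_mem _ hb₁ n
      have : (⟨b, hb₁⟩ : ↥O₁) ^ n = ⟨b ^ n, hmem⟩ := Subtype.ext (by simp)
      rw [this]
      exact (hker₁ _ hmem).mpr ⟨c, hc₁, hbc⟩
    rw [map_pow] at h
    exact (IsReduced.eq_zero _ ⟨n, h⟩)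
  have h₂ : res₂ ⟨b, hb₂⟩ = 0 := by
    have h : res₂ (⟨b, hb₂⟩ ^ n) = 0 := by
      have hmem : b ^ n ∈ O₂ := Subring.pow_mem _ hb₂ n
      have : (⟨b, hb₂⟩ : ↥O₂) ^ n = ⟨b ^ n, hmem⟩ := Subtype.ext (by simp)
      rw [this]
      exact (hker₂ _ hmem).mpr ⟨c, hc₂, hbc⟩
    rw [map_pow] at h
    exact (IsReduced.eq_zero _ ⟨n, h⟩)
  exact exists_smul_of_res_eq_zero (K := K) hπ O₁ O₂ res₁ res₂ hO
    (fun y hy h => (hker₁ y hy).mp h) (fun y hy h => (hker₂ y hy).mp h) hb hb₁ hb₂ h₁ h₂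

end TwoPlaces

end Fermat.Agent.S34.H35
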