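import Mathlib
import Fermat.Agent.S34.H35_SatTwo
import Fermat.Agent.CA.H99_TwoPlacesThm

/-!
# S34 / L0 cut (H): saturation for the two Kummer–Dedekind places (helper35)

Glue of `CA.H99_TwoPlacesThm` (helper99: `O` a DVR, `L = K(θ)`, two places `P₁ P₂ : PlaceOver` with
`P₁.O1 ∩ P₂.O1 = O[θ]`) with `S34.H35_SatTwo` (saturation over an integrally closed domain `R`).

Setting: `R` integrally closed domain (`= A₁[j]`), `π : R` prime (`= q`), `Kr = Frac R`,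
`L` algebraic over `Kr`; `O` a DVR (`= ` the level-`M` Gauss ring) with uniformiser `ϖ`,
`algebraMap R L π = algebraMap O L ϖ`; every element of `O` lies in `satRing π` (i.e. is integral
over `R` after multiplication by some `f ∉ (π)`), `θ` integral over `R`.

* `mem_satRing_of_mem_of_mem` : `P₁.O1 ∩ P₂.O1 ⊆ satRing π`;
* `isIntegral_of_mem_of_mem` : **(SAT)** `z ∈ P₁.O1 ∩ P₂.O1`, `π • z` integral over `R` ⟹ `z`
  integral over `R`;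
* `exists_smul_of_res1_eq_zero` : **(hinf)** `b` integral over `R` with `P₁.res1 b = 0 = P₂.res1 b`
  is `π • b'` with `b'` integral over `R`;
* `exists_smul_of_pow_eq` : `B/πB` is reduced.
-/

set_option autoImplicit false
set_option linter.unusedSectionVars false

noncomputable section

open Polynomial IsLocalRing

namespace Fermat.Agent.S34.H35

open Fermat.Agent.CA.H99

variable {R Kr L : Type*} [CommRing R] [IsDomain R] [IsIntegrallyClosed R] [Field Kr]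
  [Algebra R Kr] [IsFractionRing R Kr] [Field L] [Algebra Kr L] [Algebra R L]
  [IsScalarTower R Kr L]
variable {O : Type*} [CommRing O] [IsDomain O] [IsDiscreteValuationRing O]
variable {K : Type*} [Field K] [Algebra O K] [IsFractionRing O K] [Algebra O L] [Algebra K L]
  [IsScalarTower O K L]
variable {Fk₁ Fk₂ : Type*} [Field Fk₁] [Field Fk₂]

/-- `O[θ] ⊆ satRing π`. -/
theorem aeval_mem_satRing' {π : R} (hπ : Prime π)
    (hV : ∀ c : O, algebraMap O L c ∈ satRing (R := R) (L := L) hπ) {θ : L}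
    (hθ : IsIntegral R θ) (p : O[X]) : aeval θ p ∈ satRing (R := R) (L := L) hπ := by
  rw [aeval_def, eval₂_eq_sum_range]
  refine Subring.sum_mem _ fun i _ => ?_
  exact Subring.mul_mem _ (hV _) (Subring.pow_mem _ (mem_satRing_of_isIntegral hπ hθ) i)

section Two

variable {π : R} (hπ : Prime π) {f g₁ g₂ : O[X]}
  (hfac : f.map (residue O) = g₁.map (residue O) * g₂.map (residue O))
  (hirr₁ : Irreducible (g₁.map (residue O))) (hirr₂ : Irreducible (g₂.map (residue O)))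
  (hcop : IsCoprime (g₁.map (residue O)) (g₂.map (residue O)))
  {ϖ : O} (hϖ : maximalIdeal O = Ideal.span {ϖ})
  (θ : L) (hθ : aeval θ f = 0) (hgen : Algebra.adjoin K {θ} = ⊤)
  {ι₁ : O →+* Fk₁} (hι₁ : ι₁ ϖ = 0) {θb₁ : Fk₁} (hθb₁ : g₁.eval₂ ι₁ θb₁ = 0)
  {ι₂ : O →+* Fk₂} (hι₂ : ι₂ ϖ = 0) {θb₂ : Fk₂} (hθb₂ : g₂.eval₂ ι₂ θb₂ = 0)
  (P₁ : PlaceOver ϖ θ ι₁ θb₁) (P₂ : PlaceOver ϖ θ ι₂ θb₂)
  (hV : ∀ c : O, algebraMap O L c ∈ satRing (R := R) (L := L) hπ)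
  (hθint : IsIntegral R θ)

include hfac hirr₁ hirr₂ hcop hϖ hθ hgen hι₁ hθb₁ hι₂ hθb₂ hV hθint in
/-- `P₁.O1 ∩ P₂.O1 ⊆ satRing π`. -/
theorem mem_satRing_of_mem_of_mem {z : L} (h₁ : z ∈ P₁.O1) (h₂ : z ∈ P₂.O1) :
    z ∈ satRing (R := R) (L := L) hπ := by
  obtain ⟨p, rfl⟩ := exists_eq_aeval_of_mem_of_mem (K := K) hfac hirr₁ hirr₂ hcop hϖ θ hθ hgen
    hι₁ hθb₁ hι₂ hθb₂ P₁ P₂ h₁ h₂
  exact aeval_mem_satRing' hπ hV hθint p

include hfac hirr₁ hirr₂ hcop hϖ hθ hgen hι₁ hθb₁ hι₂ hθb₂ hV hθint in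
/-- **(SAT)** for the two places. -/
theorem isIntegral_of_mem_of_mem [Algebra.IsAlgebraic Kr L] {z : L} (h₁ : z ∈ P₁.O1)
    (h₂ : z ∈ P₂.O1) (h : IsIntegral R (π • z)) : IsIntegral R z :=
  isIntegral_of_mem_satRing (K := Kr) hπ
    (mem_satRing_of_mem_of_mem hπ hfac hirr₁ hirr₂ hcop hϖ θ hθ hgen hι₁ hθb₁ hι₂ hθb₂ P₁ P₂ hV
      hθint h₁ h₂) h

include hfac hirr₁ hirr₂ hcop hϖ hθ hgen hι₁ hθb₁ hι₂ hθb₂ hV hθint in
/-- **(hinf)**: `P_∞ ∩ P_0 = π B`. -/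
theorem exists_smul_of_res1_eq_zero [Algebra.IsAlgebraic Kr L]
    (hπϖ : algebraMap R L π = algebraMap O L ϖ)
    {b : L} (hb : IsIntegral R b) (hb₁ : b ∈ P₁.O1) (hb₂ : b ∈ P₂.O1)
    (e₁ : P₁.res1 ⟨b, hb₁⟩ = 0) (e₂ : P₂.res1 ⟨b, hb₂⟩ = 0) :
    ∃ b' : L, IsIntegral R b' ∧ b' ∈ P₁.O1 ∧ b' ∈ P₂.O1 ∧ b = π • b' := by
  refine exists_smul_of_res_eq_zero (K := Kr) hπ P₁.O1 P₂.O1 P₁.res1 P₂.res1
    (fun z h₁ h₂ => mem_satRing_of_mem_of_mem hπ hfac hirr₁ hirr₂ hcop hϖ θ hθ hgen hι₁ hθb₁ hι₂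
      hθb₂ P₁ P₂ hV hθint h₁ h₂) ?_ ?_ hb hb₁ hb₂ e₁ e₂
  · intro y hy h
    obtain ⟨z, hz, e⟩ := (P₁.res1_eq_zero_iff y hy).1 h
    exact ⟨z, hz, by rw [e, Algebra.smul_def, hπϖ]⟩
  · intro y hy h
    obtain ⟨z, hz, e⟩ := (P₂.res1_eq_zero_iff y hy).1 h
    exact ⟨z, hz, by rw [e, Algebra.smul_def, hπϖ]⟩

include hfac hirr₁ hirr₂ hcop hϖ hθ hgen hι₁ hθb₁ hι₂ hθb₂ hV hθint in
/-- `B/πB` is reduced. -/
theorem exists_smul_of_pow_eq [Algebra.IsAlgebraic Kr L]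
    (hπϖ : algebraMap R L π = algebraMap O L ϖ)
    {b : L} (hb : IsIntegral R b) (hb₁ : b ∈ P₁.O1) (hb₂ : b ∈ P₂.O1) (n : ℕ)
    (hpow : ∃ c : L, c ∈ P₁.O1 ∧ c ∈ P₂.O1 ∧ b ^ n = π • c) :
    ∃ b' : L, IsIntegral R b' ∧ b' ∈ P₁.O1 ∧ b' ∈ P₂.O1 ∧ b = π • b' := by
  refine exists_smul_of_pow (K := Kr) hπ P₁.O1 P₂.O1 P₁.res1 P₂.res1
    (fun z h₁ h₂ => mem_satRing_of_mem_of_mem hπ hfac hirr₁ hirr₂ hcop hϖ θ hθ hgen hι₁ hθb₁ hι₂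
      hθb₂ P₁ P₂ hV hθint h₁ h₂) ?_ ?_ hb hb₁ hb₂ n hpow
  · intro y hy
    rw [P₁.res1_eq_zero_iff y hy]
    constructor
    · rintro ⟨z, hz, e⟩
      exact ⟨z, hz, by rw [e, Algebra.smul_def, hπϖ]⟩
    · rintro ⟨z, hz, e⟩
      exact ⟨z, hz, by rw [e, Algebra.smul_def, hπϖ]⟩
  · intro y hy
    rw [P₂.res1_eq_zero_iff y hy]
    constructor
    · rintro ⟨z, hz, e⟩
      exact ⟨z, hz, by rw [e, Algebra.smul_def, hπϖ]⟩
    · rintro ⟨z, hz, e⟩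
      exact ⟨z, hz, by rw [e, Algebra.smul_def, hπϖ]⟩

end Two

end Fermat.Agent.S34.H35
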