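import Mathlib
import Fermat.Agent.S34.H35_SatPlaces
import Fermat.Agent.S18.H40_CechFG
import Fermat.Agent.S18.H26_ChartBase
import Fermat.Agent.S34.H3_GlueCharts

/-!
# S34 / L0 cut (H): saturation and change of the chart coordinate (helper35)

The level-`M` Gauss ring is described with the coordinate `j` (`s(j) • c` integral over `A₁[j]`,
`s̄ ≠ 0`), the charts of S34 use the coordinate `J = j · j_q` and `J⁻¹`.  This file moves the
saturation property between coordinates.

* `SatAt q x z` : `p(x) * z` is integral over `A₁[x]` for some `p ∈ A₁[X]`, `p ∉ (q)`;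
* `SatAt.inv` : `SatAt q x z → SatAt q x⁻¹ z`;
* `SatAt.change` : if `A₁[x]` and `A₁[x']` have the same integral closure then
  `SatAt q x z → SatAt q x' z`  (no norm computation: the constant coefficient of an integral
  equation of `p(x)` over `A₁[x']`, `q`-saturated by **(SAT)** over `A₁[x]`);
* `SatAt.isIntegral` : **(SAT)** `SatAt q x z`, `q * z` integral over `A₁[x]` ⟹ `z` integral.
-/

set_option autoImplicit false
set_option linter.unusedSectionVars false
set_option linter.style.haveILetI false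

noncomputable section

open Polynomial IntermediateField

namespace Fermat.Agent.S34.H35

open Fermat.Agent.S18

/-! ## Abstract transfer between two integrally closed domains with the same integral closure -/

section Abstract

/-- A nonzero integral element divides (by an integral cofactor) a nonzero element of the base. -/
theorem exists_mul_eq_algebraMap_of_isIntegral {R L : Type*} [CommRing R] [CommRing L]
    [IsDomain L] [Algebra R L] {s : L} (hs : IsIntegral R s) (hs0 : s ≠ 0) :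
    ∃ f : R, algebraMap R L f ≠ 0 ∧ ∃ a : L, IsIntegral R a ∧ a * s = algebraMap R L f := by
  obtain ⟨P, hP, hPs⟩ := hs
  have key : ∀ n : ℕ, ∀ P : R[X], P.Monic → P.natDegree = n → eval₂ (algebraMap R L) s P = 0 →
      ∃ f : R, algebraMap R L f ≠ 0 ∧ ∃ a : L, IsIntegral R a ∧ a * s = algebraMap R L f := by
    intro n
    induction n with
    | zero =>
      intro P hP hn h0
      rw [Polynomial.Monic.natDegree_eq_zero hP] at hn
      rw [hn, eval₂_one] at h0
      exact absurd h0 one_ne_zero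
    | succ n ih =>
      intro P hP hn h0
      have hdec : eval₂ (algebraMap R L) s P =
          s * eval₂ (algebraMap R L) s (divX P) + algebraMap R L (P.coeff 0) := by
        conv_lhs => rw [← X_mul_divX_add P]
        rw [eval₂_add, eval₂_mul, eval₂_X, eval₂_C]
      by_cases hc : algebraMap R L (P.coeff 0) = 0
      · rw [hdec, hc, add_zero] at h0
        have h1 : eval₂ (algebraMap R L) s (divX P) = 0 := by
          rcases mul_eq_zero.1 h0 with h | h
          · exact absurd h hs0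
          · exact h
        have hdeg : (divX P).natDegree = n := by
          rw [natDegree_divX_eq_natDegree_tsub_one, hn]; rfl
        have hmon : (divX P).Monic := by
          unfold Monic leadingCoeff
          rw [hdeg, coeff_divX, ← hn]
          exact hP
        exact ih (divX P) hmon hdeg h1
      · refine ⟨P.coeff 0, hc, -eval₂ (algebraMap R L) s (divX P), ?_, ?_⟩
        · refine IsIntegral.neg ?_
          have hmem : eval₂ (algebraMap R L) s (divX P) ∈ Algebra.adjoin R {s} := by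
            rw [← aeval_def]
            exact aeval_mem_adjoin_singleton R s
          have hle : Algebra.adjoin R {s} ≤ integralClosure R L :=
            Algebra.adjoin_le (Set.singleton_subset_iff.2 ⟨P, hP, by
              rw [hdec, hdec.symm.trans h0]⟩)
          exact hle hmem
        · rw [hdec] at h0
          linear_combination -h0
  exact key _ P hP rfl hPs

variable {R K L : Type*} [CommRing R] [IsDomain R] [IsIntegrallyClosed R] [Field K] [Algebra R K]
  [IsFractionRing R K] [Field L] [Algebra K L] [Algebra R L] [IsScalarTower R K L]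

/-- **(SAT)** iterated. -/
theorem isIntegral_of_pow_smul [Algebra.IsAlgebraic K L] {π f : R} (hπ : Prime π)
    (hf : ¬ π ∣ f) {u : L} (k : ℕ) (h1 : IsIntegral R (π ^ k • u)) (h2 : IsIntegral R (f • u)) :
    IsIntegral R u := by
  induction k with
  | zero => rwa [pow_zero, one_smul] at h1
  | succ k ih =>
    apply ih
    refine H1.isIntegral_of_isIntegral_smul_smul (K := K) hπ hf ?_ ?_
    · rwa [← mul_smul, ← pow_succ']
    · rw [smul_comm]
      exact h2.smul _

variable {R' K' : Type*} [CommRing R'] [IsDomain R'] [IsIntegrallyClosed R'] [Field K']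
  [Algebra R' K'] [IsFractionRing R' K'] [Algebra K' L] [Algebra R' L] [IsScalarTower R' K' L]

/-- If `R` and `R'` have the same integral closure in `L` and `π`, `π'` are the same element of
`L`, then `satRing π' ⊆ satRing π`. -/
theorem mem_satRing_of_mem_satRing [WfDvdMonoid R] [Algebra.IsAlgebraic K' L]
    {π : R} (hπ : Prime π) {π' : R'} (hπ' : Prime π')
    (hππ' : algebraMap R L π = algebraMap R' L π')
    (hIC : ∀ z : L, IsIntegral R z ↔ IsIntegral R' z) {c : L}
    (hc : c ∈ satRing (R := R') (L := L) hπ') : c ∈ satRing (R := R) (L := L) hπ := by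
  obtain ⟨s, hs, hsc⟩ := hc
  have hinj' : Function.Injective (algebraMap R' L) := by
    rw [IsScalarTower.algebraMap_eq R' K' L]
    exact (algebraMap K' L).injective.comp (IsFractionRing.injective R' K')
  have hs0 : s ≠ 0 := fun h => hs (h ▸ dvd_zero π')
  have hσ0 : algebraMap R' L s ≠ 0 := (map_ne_zero_iff _ hinj').mpr hs0
  have hσint : IsIntegral R (algebraMap R' L s) := (hIC _).2 isIntegral_algebraMap
  obtain ⟨f, hf0, a, ha, haσ⟩ := exists_mul_eq_algebraMap_of_isIntegral hσint hσ0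
  have hf0' : f ≠ 0 := fun h => hf0 (by rw [h, map_zero])
  obtain ⟨k, f₀, hf₀, rfl⟩ := WfDvdMonoid.max_power_factor hf0' hπ.irreducible
  set σ := algebraMap R' L s with hσ
  set u : L := algebraMap R L f₀ / σ with hu
  have e1 : s • u = algebraMap R L f₀ := by
    rw [Algebra.smul_def, hu, ← hσ]
    field_simp
  have e2 : π' ^ k • u = a := by
    rw [Algebra.smul_def, map_pow, ← hππ', hu]
    rw [map_mul, map_pow] at haσ
    field_simp
    rw [← haσ, mul_comm]
  have h1 : IsIntegral R' (s • u) := by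
    rw [e1]; exact (hIC _).1 isIntegral_algebraMap
  have h2 : IsIntegral R' (π' ^ k • u) := by
    rw [e2]; exact (hIC _).1 ha
  have hu' : IsIntegral R' u := isIntegral_of_pow_smul (K := K') hπ' hs k h2 h1
  refine ⟨f₀, hf₀, ?_⟩
  have e3 : f₀ • c = u * (s • c) := by
    rw [Algebra.smul_def, Algebra.smul_def, ← hσ, hu]
    field_simp
  rw [e3]
  exact (hIC _).2 (hu'.mul hsc)

end Abstract

/-! ## The polynomial form of saturation for a chart coordinate -/

section Coord

variable {A₁ : Type*} [CommRing A₁] {L : Type*} [Field L] [Algebra A₁ L]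

/-- `p(x) * z` is integral over `A₁[x]` for some `p ∈ A₁[X]` outside `(q)`. -/
def SatAt (q : A₁) (x z : L) : Prop :=
  ∃ p : A₁[X], ¬ C q ∣ p ∧ IsIntegral (Algebra.adjoin A₁ {x}) (aeval x p * z)

theorem SatAt.of_isIntegral {q : A₁} (hq : ¬ IsUnit q) {x z : L}
    (hz : IsIntegral (Algebra.adjoin A₁ {x}) z) : SatAt q x z := by
  refine ⟨1, fun h => hq ?_, by rwa [map_one, one_mul]⟩
  exact Polynomial.isUnit_C.1 (isUnit_of_dvd_one h)

theorem not_C_dvd_reflect {q : A₁} {p : A₁[X]} (n : ℕ) (h : ¬ C q ∣ p) :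
    ¬ C q ∣ reflect n p := by
  rw [C_dvd_iff_dvd_coeff] at h ⊢
  intro h'
  apply h
  intro i
  have := h' (revAt n i)
  rwa [coeff_reflect, revAt_invol] at this

/-- From the coordinate `x` to the coordinate `x⁻¹`. -/
theorem SatAt.inv {q : A₁} {x z : L} (hx : x ≠ 0) (h : SatAt q x z) : SatAt q x⁻¹ z := by
  obtain ⟨p, hp, hpz⟩ := h
  obtain ⟨m, hm⟩ := H40.exists_pow_mul_isIntegral (R := A₁) x hx hpz
  refine ⟨reflect (m + p.natDegree) p, not_C_dvd_reflect _ hp, ?_⟩
  have h1 := hm (m + p.natDegree) (Nat.le_add_right _ _)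
  have key : aeval x⁻¹ (reflect (m + p.natDegree) p) = x⁻¹ ^ (m + p.natDegree) * aeval x p := by
    letI : Invertible x := invertibleOfNonzero hx
    have h2 := eval₂_reflect_mul_pow (algebraMap A₁ L) x (m + p.natDegree) p
      (Nat.le_add_left _ _)
    rw [invOf_eq_inv] at h2
    rw [aeval_def, aeval_def, ← h2, inv_pow]
    field_simp
  rw [key, mul_assoc]
  exact h1

variable [IsDomain A₁]

theorem prime_algebraMap_adjoin {q : A₁} (hq : Prime q) {x : L} (htrA : Transcendental A₁ x) :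
    Prime (algebraMap A₁ ↥(Algebra.adjoin A₁ {x}) q) := by
  have h1 : Prime (C q : A₁[X]) := Polynomial.prime_C_iff.2 hq
  have h2 := (MulEquiv.prime_iff (H26.ChartBase.polyEquiv x htrA)).2 h1
  have h3 : (H26.ChartBase.polyEquiv x htrA) (C q) =
      algebraMap A₁ ↥(Algebra.adjoin A₁ {x}) q := (H26.ChartBase.polyEquiv x htrA).commutes q
  rwa [h3] at h2

theorem algebraMap_dvd_polyEquiv_iff {q : A₁} {x : L} (htrA : Transcendental A₁ x) (p : A₁[X]) :
    algebraMap A₁ ↥(Algebra.adjoin A₁ {x}) q ∣ H26.ChartBase.polyEquiv x htrA p ↔ C q ∣ p := by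
  rw [← (H26.ChartBase.polyEquiv x htrA).commutes q]
  exact map_dvd_iff (H26.ChartBase.polyEquiv x htrA)

/-- `satRing` of `A₁[x]` in polynomial form. -/
theorem mem_satRing_adjoin_iff {q : A₁} {x : L} (htrA : Transcendental A₁ x)
    [IsIntegrallyClosed ↥(Algebra.adjoin A₁ {x})]
    (hπ : Prime (algebraMap A₁ ↥(Algebra.adjoin A₁ {x}) q)) {z : L} :
    z ∈ satRing (R := ↥(Algebra.adjoin A₁ {x})) (L := L) hπ ↔ SatAt q x z := by
  constructor
  · rintro ⟨f, hf, hfz⟩
    obtain ⟨p, rfl⟩ := (H26.ChartBase.polyEquiv x htrA).surjective f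
    refine ⟨p, fun h => hf ((algebraMap_dvd_polyEquiv_iff htrA p).2 h), ?_⟩
    rw [Algebra.smul_def] at hfz
    rwa [← H26.ChartBase.coe_polyEquiv x htrA p]
  · rintro ⟨p, hp, hpz⟩
    refine ⟨H26.ChartBase.polyEquiv x htrA p,
      fun h => hp ((algebraMap_dvd_polyEquiv_iff htrA p).1 h), ?_⟩
    rw [Algebra.smul_def]
    rwa [← H26.ChartBase.coe_polyEquiv x htrA p] at hpz

variable {L₁ : Type*} [Field L₁] [Algebra A₁ L₁] [IsFractionRing A₁ L₁] [Algebra L₁ L]
  [IsScalarTower A₁ L₁ L] [IsIntegrallyClosed A₁]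

/-- **(SAT)** in polynomial form. -/
theorem SatAt.isIntegral {q : A₁} (hq : Prime q) {x : L} (htr : Transcendental L₁ x)
    [Algebra.IsAlgebraic L₁⟮x⟯ L] {z : L} (h : SatAt q x z)
    (hqz : IsIntegral (Algebra.adjoin A₁ {x}) (algebraMap A₁ L q * z)) :
    IsIntegral (Algebra.adjoin A₁ {x}) z := by
  have htrA : Transcendental A₁ x := H40.transcendental_of_tower (K := L₁) x htr
  haveI := H26.ChartBase.isIntegrallyClosed x htrA
  letI : Algebra (Algebra.adjoin A₁ {x}) L₁⟮x⟯ := (H40.adjoinToSimple (K := L₁) x).toAlgebra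
  haveI : IsScalarTower (Algebra.adjoin A₁ {x}) L₁⟮x⟯ L :=
    IsScalarTower.of_algebraMap_eq (fun a => rfl)
  haveI := H3.isFractionRing_adjoin_adjoinSimple (R := A₁) (K := L₁) x
  have hπ := prime_algebraMap_adjoin hq htrA
  have hz := (mem_satRing_adjoin_iff htrA hπ).2 h
  refine isIntegral_of_mem_satRing (K := L₁⟮x⟯) hπ hz ?_
  rw [Algebra.smul_def]
  exact hqz

/-- **Change of coordinate**: if `A₁[x]` and `A₁[x']` have the same integral closure in `L`,
saturation at `x` implies saturation at `x'`. -/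
theorem SatAt.change [IsNoetherianRing A₁] {q : A₁} (hq : Prime q) {x x' : L}
    (htr : Transcendental L₁ x) (htr' : Transcendental L₁ x') [Algebra.IsAlgebraic L₁⟮x⟯ L]
    (hIC : ∀ z : L, IsIntegral (Algebra.adjoin A₁ {x}) z ↔ IsIntegral (Algebra.adjoin A₁ {x'}) z)
    {z : L} (h : SatAt q x z) : SatAt q x' z := by
  have htrA : Transcendental A₁ x := H40.transcendental_of_tower (K := L₁) x htr
  have htrA' : Transcendental A₁ x' := H40.transcendental_of_tower (K := L₁) x' htr'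
  haveI := H26.ChartBase.isIntegrallyClosed x htrA
  haveI := H26.ChartBase.isIntegrallyClosed x' htrA'
  haveI := H26.ChartBase.isNoetherianRing x' htrA'
  letI : Algebra (Algebra.adjoin A₁ {x}) L₁⟮x⟯ := (H40.adjoinToSimple (K := L₁) x).toAlgebra
  haveI : IsScalarTower (Algebra.adjoin A₁ {x}) L₁⟮x⟯ L :=
    IsScalarTower.of_algebraMap_eq (fun a => rfl)
  haveI := H3.isFractionRing_adjoin_adjoinSimple (R := A₁) (K := L₁) x
  letI : Algebra (Algebra.adjoin A₁ {x'}) L₁⟮x'⟯ := (H40.adjoinToSimple (K := L₁) x').toAlgebra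
  haveI : IsScalarTower (Algebra.adjoin A₁ {x'}) L₁⟮x'⟯ L :=
    IsScalarTower.of_algebraMap_eq (fun a => rfl)
  haveI := H3.isFractionRing_adjoin_adjoinSimple (R := A₁) (K := L₁) x'
  have hπ := prime_algebraMap_adjoin hq htrA
  have hπ' := prime_algebraMap_adjoin hq htrA'
  have hz := (mem_satRing_adjoin_iff htrA hπ).2 h
  refine (mem_satRing_adjoin_iff htrA' hπ').1 ?_
  exact mem_satRing_of_mem_satRing (R := ↥(Algebra.adjoin A₁ {x'}))
    (R' := ↥(Algebra.adjoin A₁ {x})) (K' := L₁⟮x⟯) hπ' hπ rfl (fun z => (hIC z).symm) hz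

/-! ## (SAT), (hinf) and reducedness for two places, in chart form -/

section TwoPlacesChart

variable {q : A₁} (hq : Prime q) {x : L} (htr : Transcendental L₁ x)
  [Algebra.IsAlgebraic L₁⟮x⟯ L]
  {O : Type*} [CommRing O] [Algebra O L] (θ : L) (O₁ O₂ : Subring L)
  (hcap : ∀ z : L, z ∈ O₁ → z ∈ O₂ → ∃ p : O[X], z = aeval θ p)
  (hV : ∀ c : O, SatAt q x (algebraMap O L c)) (hθ : SatAt q x θ)

include hq htr hcap hV hθ in
/-- `O₁ ∩ O₂ = O[θ]` is saturated at the coordinate `x`. -/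
theorem satAt_of_mem_of_mem {z : L} (h₁ : z ∈ O₁) (h₂ : z ∈ O₂) : SatAt q x z := by
  have htrA : Transcendental A₁ x := H40.transcendental_of_tower (K := L₁) x htr
  haveI := H26.ChartBase.isIntegrallyClosed x htrA
  have hπ := prime_algebraMap_adjoin hq htrA
  obtain ⟨p, rfl⟩ := hcap z h₁ h₂
  rw [← mem_satRing_adjoin_iff htrA hπ]
  rw [aeval_def, eval₂_eq_sum_range]
  refine Subring.sum_mem _ fun i _ => ?_
  exact Subring.mul_mem _ ((mem_satRing_adjoin_iff htrA hπ).2 (hV _))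
    (Subring.pow_mem _ ((mem_satRing_adjoin_iff htrA hπ).2 hθ) i)

include hq htr hcap hV hθ in
/-- **(SAT)** in chart form. -/
theorem isIntegral_of_mem_of_mem_chart {z : L} (h₁ : z ∈ O₁) (h₂ : z ∈ O₂)
    (h : IsIntegral (Algebra.adjoin A₁ {x}) (algebraMap A₁ L q * z)) :
    IsIntegral (Algebra.adjoin A₁ {x}) z :=
  (satAt_of_mem_of_mem hq htr θ O₁ O₂ hcap hV hθ h₁ h₂).isIntegral (L₁ := L₁) hq htr h

variable {κ₁ κ₂ : Type*} [CommRing κ₁] [CommRing κ₂] (res₁ : ↥O₁ →+* κ₁) (res₂ : ↥O₂ →+* κ₂)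

include hq htr hcap hV hθ in
/-- **(hinf)** in chart form (the shape `hinfF` of `S34.H55.twoComponents`, plus the memberships
of the quotient). -/
theorem exists_eq_mul_of_res_eq_zero_chart
    (hker₁ : ∀ (y : L) (hy : y ∈ O₁), res₁ ⟨y, hy⟩ = 0 → ∃ z ∈ O₁, y = algebraMap A₁ L q * z)
    (hker₂ : ∀ (y : L) (hy : y ∈ O₂), res₂ ⟨y, hy⟩ = 0 → ∃ z ∈ O₂, y = algebraMap A₁ L q * z)
    (z : L) (hz : IsIntegral (Algebra.adjoin A₁ {x}) z) (h₁ : z ∈ O₁) (h₂ : z ∈ O₂)
    (e₁ : res₁ ⟨z, h₁⟩ = 0) (e₂ : res₂ ⟨z, h₂⟩ = 0) :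
    ∃ z' : L, IsIntegral (Algebra.adjoin A₁ {x}) z' ∧ z' ∈ O₁ ∧ z' ∈ O₂ ∧
      z = algebraMap A₁ L q * z' := by
  obtain ⟨z₁, hz₁, hzz₁⟩ := hker₁ z h₁ e₁
  obtain ⟨z₂, hz₂, hzz₂⟩ := hker₂ z h₂ e₂
  have hinj : Function.Injective (algebraMap A₁ L) := by
    rw [IsScalarTower.algebraMap_eq A₁ L₁ L]
    exact (algebraMap L₁ L).injective.comp (IsFractionRing.injective A₁ L₁)
  have hqL : algebraMap A₁ L q ≠ 0 := (map_ne_zero_iff _ hinj).mpr hq.ne_zero
  have hzz : z₁ = z₂ := mul_left_cancel₀ hqL (hzz₁.symm.trans hzz₂)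
  subst hzz
  exact ⟨z₁, isIntegral_of_mem_of_mem_chart hq htr θ O₁ O₂ hcap hV hθ hz₁ hz₂ (hzz₁ ▸ hz), hz₁,
    hz₂, hzz₁⟩

include hq htr hcap hV hθ in
/-- The special fibre of the chart is reduced, in chart form. -/
theorem exists_eq_mul_of_pow_chart [IsReduced κ₁] [IsReduced κ₂]
    (hker₁ : ∀ (y : L) (hy : y ∈ O₁), res₁ ⟨y, hy⟩ = 0 ↔ ∃ z ∈ O₁, y = algebraMap A₁ L q * z)
    (hker₂ : ∀ (y : L) (hy : y ∈ O₂), res₂ ⟨y, hy⟩ = 0 ↔ ∃ z ∈ O₂, y = algebraMap A₁ L q * z)
    (z : L) (hz : IsIntegral (Algebra.adjoin A₁ {x}) z) (h₁ : z ∈ O₁) (h₂ : z ∈ O₂) (n : ℕ)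
    (hpow : ∃ c : L, c ∈ O₁ ∧ c ∈ O₂ ∧ z ^ n = algebraMap A₁ L q * c) :
    ∃ z' : L, IsIntegral (Algebra.adjoin A₁ {x}) z' ∧ z' ∈ O₁ ∧ z' ∈ O₂ ∧
      z = algebraMap A₁ L q * z' := by
  obtain ⟨c, hc₁, hc₂, hzc⟩ := hpow
  have e₁ : res₁ ⟨z, h₁⟩ = 0 := by
    have hmem : z ^ n ∈ O₁ := Subring.pow_mem _ h₁ n
    have h : res₁ (⟨z, h₁⟩ ^ n) = 0 := by
      have : (⟨z, h₁⟩ : ↥O₁) ^ n = ⟨z ^ n, hmem⟩ := Subtype.ext (by simp)
      rw [this]
      exact (hker₁ _ hmem).mpr ⟨c, hc₁, hzc⟩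
    rw [map_pow] at h
    exact IsReduced.eq_zero _ ⟨n, h⟩
  have e₂ : res₂ ⟨z, h₂⟩ = 0 := by
    have hmem : z ^ n ∈ O₂ := Subring.pow_mem _ h₂ n
    have h : res₂ (⟨z, h₂⟩ ^ n) = 0 := by
      have : (⟨z, h₂⟩ : ↥O₂) ^ n = ⟨z ^ n, hmem⟩ := Subtype.ext (by simp)
      rw [this]
      exact (hker₂ _ hmem).mpr ⟨c, hc₂, hzc⟩
    rw [map_pow] at h
    exact IsReduced.eq_zero _ ⟨n, h⟩
  exact exists_eq_mul_of_res_eq_zero_chart hq htr θ O₁ O₂ hcap hV hθ res₁ res₂
    (fun y hy h => (hker₁ y hy).mp h) (fun y hy h => (hker₂ y hy).mp h) z hz h₁ h₂ e₁ e₂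

end TwoPlacesChart

end Coord

end Fermat.Agent.S34.H35
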