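/-
S34 / L0 (helper99): the `N`-level CHART FACTS needed by `S34.H55.twoComponents_of_incl`, in
`CA.H99.PlaceOver` vocabulary and at the real function-field types.

Part A (generic, for any `P : CA.H99.PlaceOver ϖ θ ι θb`):
* `PlaceOver.hconst`      : constants of a base ring `R0 → O` lie in `P.O1`, with residue `π0`;
* `PlaceOver.hOic`        : `P.O1` is integrally closed in `L`;
* `PlaceOver.exists_res1_mul`, `PlaceOver.exists_res1_mul_inv` : membership and residue of the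
  chart coordinates `u = x * y`, `u = (x * y)⁻¹` from the residues of `x`, `y`.

Part B (function field `FK = modularFunctionFieldFullC K N`, `q ∣ N`, `J = j * j_q`):
* `isIntegral_adjoin_JK_jK`, `isIntegral_adjoin_JK_jdK` : `j`, `j_q` are integral over `R0[J]`;
* `isIntegral_adjoin_JK_inv_jK_inv`, `isIntegral_adjoin_JK_inv_jdK_inv` : `j⁻¹`, `j_q⁻¹` are
  integral over `R0[J⁻¹]`.
-/
import Fermat.Agent.CA.H99_TwoPlacesThm
import Fermat.Agent.CA.H55_ProductCoord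
import Fermat.Agent.S34.H95_CoordJ
import Fermat.Agent.S34.H16_RelSwap

set_option autoImplicit false
set_option linter.unusedSectionVars false

noncomputable section

namespace Fermat.Agent.CA.H99

open Polynomial

/-! ### Part A: generic facts on a `PlaceOver` -/

section Generic

variable {O : Type*} [CommRing O] {L : Type*} [Field L] [Algebra O L] {Fk : Type*} [Field Fk]
  {ϖ : O} {θ : L} {ι : O →+* Fk} {θb : Fk}

/-- **(hconst)** constants of a base ring `R0 → O` lie in `P.O1` and reduce through `π0`. -/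
theorem PlaceOver.hconst (P : PlaceOver ϖ θ ι θb) {R0 : Type*} [CommRing R0] [Algebra R0 L]
    {k : Type*} [Field k] [Algebra k Fk] (π0 : R0 →+* k) (c0 : R0 →+* O)
    (hc0 : ∀ r : R0, algebraMap R0 L r = algebraMap O L (c0 r))
    (hι : ∀ r : R0, ι (c0 r) = algebraMap k Fk (π0 r)) :
    ∀ r : R0, ∃ h : algebraMap R0 L r ∈ P.O1, P.res1 ⟨_, h⟩ = algebraMap k Fk (π0 r) := by
  intro r
  have h : algebraMap R0 L r ∈ P.O1 := by
    rw [hc0 r]
    exact P.algebraMap_mem _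
  refine ⟨h, ?_⟩
  have h2 : (⟨algebraMap R0 L r, h⟩ : P.O1) =
      ⟨algebraMap O L (c0 r), P.algebraMap_mem (c0 r)⟩ := Subtype.ext (hc0 r)
  rw [h2, P.res1_algebraMap, hι]

/-- **(hOic)** the ring of a place is integrally closed in `L`. -/
theorem PlaceOver.hOic (P : PlaceOver ϖ θ ι θb) : ∀ y : L, IsIntegral P.O1 y → y ∈ P.O1 := by
  intro y hy
  exact mem_valuationSubring_of_isIntegral P.toValuationSubring (fun a => a.2) hy

/-- the residue of a product. -/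
theorem PlaceOver.res1_mul (P : PlaceOver ϖ θ ι θb) {x y : L} (hx : x ∈ P.O1) (hy : y ∈ P.O1) :
    P.res1 ⟨x * y, P.O1.mul_mem hx hy⟩ = P.res1 ⟨x, hx⟩ * P.res1 ⟨y, hy⟩ := by
  rw [← map_mul]
  rfl

/-- the residue of an inverse. -/
theorem PlaceOver.res1_inv (P : PlaceOver ϖ θ ι θb) {x : L} (hx : x ∈ P.O1)
    (hx0 : P.res1 ⟨x, hx⟩ ≠ 0) :
    P.res1 ⟨x⁻¹, P.inv_mem x hx hx0⟩ = (P.res1 ⟨x, hx⟩)⁻¹ := by
  have hxne : x ≠ 0 := by
    rintro rfl
    apply hx0
    have : (⟨(0 : L), hx⟩ : P.O1) = 0 := rfl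
    rw [this, map_zero]
  have h1 : (⟨x, hx⟩ : P.O1) * ⟨x⁻¹, P.inv_mem x hx hx0⟩ = 1 :=
    Subtype.ext (mul_inv_cancel₀ hxne)
  have h2 := congrArg P.res1 h1
  rw [map_mul, map_one] at h2
  exact eq_inv_of_mul_eq_one_right h2

/-- **(hu/hw, chart `J ≠ ∞`)**: `u = x * y ∈ P.O1` with residue `incl (w ^ (a + b))` when
`res x = incl w ^ a`, `res y = incl w ^ b`. -/
theorem PlaceOver.exists_res1_mul (P : PlaceOver ϖ θ ι θb) {k : Type*} [Field k]
    {Fk' : Type*} [Field Fk'] [Algebra k Fk'] (incl : Fk' →+* Fk) (w : Fk') {x y : L}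
    (hx : x ∈ P.O1) (hy : y ∈ P.O1) (a b : ℕ)
    (hxv : P.res1 ⟨x, hx⟩ = incl w ^ a) (hyv : P.res1 ⟨y, hy⟩ = incl w ^ b) :
    ∃ hu : x * y ∈ P.O1, ∃ γ : Fk', IsIntegral (Algebra.adjoin k {w}) γ ∧
      P.res1 ⟨x * y, hu⟩ = incl γ := by
  refine ⟨P.O1.mul_mem hx hy, w ^ (a + b), ?_, ?_⟩
  · have hmem : w ^ (a + b) ∈ Algebra.adjoin k {w} :=
      Subalgebra.pow_mem _ (Algebra.self_mem_adjoin_singleton k w) _
    exact isIntegral_algebraMap (R := Algebra.adjoin k {w}) (x := ⟨_, hmem⟩)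
  · rw [P.res1_mul hx hy, hxv, hyv, map_pow, pow_add]

/-- **(hu/hw, chart `J ≠ 0`)**: `u = (x * y)⁻¹ ∈ P.O1` with residue `incl (w⁻¹ ^ (a + b))` when
`res x = incl w ^ a`, `res y = incl w ^ b`, `w ≠ 0`. -/
theorem PlaceOver.exists_res1_mul_inv (P : PlaceOver ϖ θ ι θb) {k : Type*} [Field k]
    {Fk' : Type*} [Field Fk'] [Algebra k Fk'] (incl : Fk' →+* Fk) (w : Fk') (hw : w ≠ 0)
    {x y : L} (hx : x ∈ P.O1) (hy : y ∈ P.O1) (a b : ℕ)
    (hxv : P.res1 ⟨x, hx⟩ = incl w ^ a) (hyv : P.res1 ⟨y, hy⟩ = incl w ^ b) :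
    ∃ hu : (x * y)⁻¹ ∈ P.O1, ∃ γ : Fk', IsIntegral (Algebra.adjoin k {w⁻¹}) γ ∧
      P.res1 ⟨(x * y)⁻¹, hu⟩ = incl γ := by
  have hiw : incl w ≠ 0 := (map_ne_zero incl).2 hw
  have hres : P.res1 ⟨x * y, P.O1.mul_mem hx hy⟩ = incl w ^ (a + b) := by
    rw [P.res1_mul hx hy, hxv, hyv, pow_add]
  have hne : P.res1 ⟨x * y, P.O1.mul_mem hx hy⟩ ≠ 0 := by
    rw [hres]
    exact pow_ne_zero _ hiw
  refine ⟨P.inv_mem _ _ hne, w⁻¹ ^ (a + b), ?_, ?_⟩
  · have hmem : w⁻¹ ^ (a + b) ∈ Algebra.adjoin k {w⁻¹} :=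
      Subalgebra.pow_mem _ (Algebra.self_mem_adjoin_singleton k w⁻¹) _
    exact isIntegral_algebraMap (R := Algebra.adjoin k {w⁻¹}) (x := ⟨_, hmem⟩)
  · rw [P.res1_inv _ hne, hres, map_pow, map_inv₀, inv_pow]

end Generic

end Fermat.Agent.CA.H99

namespace Fermat.Agent.S34.H99

open Polynomial ModularCurve Fermat.Agent.S28 Fermat.Agent.S18 Fermat.Agent.CA.H99

/-! ### Part B: integrality of `j`, `j_q` over `R0[J]` and of `j⁻¹`, `j_q⁻¹` over `R0[J⁻¹]` -/

section Promote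

variable {R0 F : Type*} [CommRing R0] [Field F] [Algebra R0 F]

theorem adjoin_int_le (u : F) {x : F} (hx : x ∈ Algebra.adjoin ℤ {u}) :
    x ∈ Algebra.adjoin R0 {u} := by
  induction hx using Algebra.adjoin_induction with
  | mem y hy => exact Algebra.subset_adjoin hy
  | algebraMap r =>
    have : algebraMap ℤ F r = algebraMap R0 F (r : R0) := by simp
    rw [this]
    exact Subalgebra.algebraMap_mem _ _
  | add y z _ _ hy hz => exact Subalgebra.add_mem _ hy hz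
  | mul y z _ _ hy hz => exact Subalgebra.mul_mem _ hy hz

/-- integrality over `ℤ[u]` implies integrality over `R0[u]`. -/
theorem isIntegral_adjoin_of_int (u b : F) (h : IsIntegral (Algebra.adjoin ℤ {u}) b) :
    IsIntegral (Algebra.adjoin R0 {u}) b := by
  obtain ⟨p, hp, hpb⟩ := h
  let f : Algebra.adjoin ℤ {u} →+* Algebra.adjoin R0 {u} :=
    ((Algebra.adjoin ℤ {u}).val : Algebra.adjoin ℤ {u} →+* F).codRestrict
      (Algebra.adjoin R0 {u}).toSubring fun x => adjoin_int_le u x.2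
  refine ⟨p.map f, hp.map _, ?_⟩
  rw [eval₂_map]
  exact hpb

end Promote

section FunctionField

variable (K : Type) [Field K] (N : ℕ) [NeZero N] (q : ℕ) [NeZero q] (hq : q ∣ N)

/-- `Φ_q(j, j_q) = 0` in `aeval`-shape. -/
theorem rel_jK_jdK (D : ModularPolynomialData q) :
    D.Φ.eval₂ ((Polynomial.aeval (R := ℤ) (S18.H16.jK K N)).toRingHom)
      (S18.H99.jdK K N q hq) = 0 := by
  have h := S34.H16.relFK_aeval K N q D 1 q (one_mul q).symm (one_dvd N) hq
  rwa [S18.H99.jdK_one] at h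

/-- `Φ_q(j_q, j) = 0` in `aeval`-shape. -/
theorem rel_jdK_jK (D : ModularPolynomialData q)
    (hD : ∀ (k : Type) [Field k] (ζ : kˣ), IsPrimitiveRoot ζ q → RootsAt k q ζ D.Φ) :
    D.Φ.eval₂ ((Polynomial.aeval (R := ℤ) (S18.H99.jdK K N q hq)).toRingHom)
      (S18.H16.jK K N) = 0 := by
  have h := S34.H16.relFK_swap_aeval K N q D hD 1 q (one_mul q).symm (one_dvd N) hq
  rwa [S18.H99.jdK_one] at h

variable {R0 : Type*} [CommRing R0] [Algebra R0 (modularFunctionFieldFullC K N)]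

/-- **(hVint, chart `J ≠ ∞`)** `j_q` is integral over `R0[J]`. -/
theorem isIntegral_adjoin_JK_jdK (D : ModularPolynomialData q) :
    IsIntegral (Algebra.adjoin R0 {S34.H95.JK K N q hq}) (S18.H99.jdK K N q hq) :=
  isIntegral_adjoin_of_int _ _
    (CA.H55.isIntegral_adjoin_mul D.Φ D.monic _ _ (rel_jK_jdK K N q hq D))

/-- **(hιint, chart `J ≠ ∞`)** `j` is integral over `R0[J]`. -/
theorem isIntegral_adjoin_JK_jK (D : ModularPolynomialData q)
    (hD : ∀ (k : Type) [Field k] (ζ : kˣ), IsPrimitiveRoot ζ q → RootsAt k q ζ D.Φ) :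
    IsIntegral (Algebra.adjoin R0 {S34.H95.JK K N q hq}) (S18.H16.jK K N) := by
  have h := CA.H55.isIntegral_adjoin_mul D.Φ D.monic _ _ (rel_jdK_jK K N q hq D hD)
  rw [mul_comm] at h
  exact isIntegral_adjoin_of_int _ _ h

theorem jK_ne_zero : S18.H16.jK K N ≠ 0 := by
  intro h
  have h1 := congrArg (fun x : modularFunctionFieldFullC K N => (x : LaurentSeries K)) h
  have h2 : jqModC K = 0 := h1
  have := H39.order_jqModC (R := K)
  rw [h2, HahnSeries.order_zero] at this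
  omega

theorem jdK_ne_zero : S18.H99.jdK K N q hq ≠ 0 := by
  intro h
  have h1 := congrArg (fun x : modularFunctionFieldFullC K N => (x : LaurentSeries K)) h
  have h2 : qExpand K q (jqModC K) = 0 := h1
  have h3 : jqModC K = 0 := (H39.qExpand_eq_zero_iff q (jqModC K)).1 h2
  have := H39.order_jqModC (R := K)
  rw [h3, HahnSeries.order_zero] at this
  omega

/-- **(hιint, chart `J ≠ 0`)** `j⁻¹` is integral over `R0[J⁻¹]`. -/
theorem isIntegral_adjoin_JK_inv_jK_inv (D : ModularPolynomialData q) :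
    IsIntegral (Algebra.adjoin R0 {(S34.H95.JK K N q hq)⁻¹}) (S18.H16.jK K N)⁻¹ :=
  isIntegral_adjoin_of_int _ _
    (CA.H55.isIntegral_adjoin_mul_inv D.Φ D.monic _ _ (jK_ne_zero K N) (jdK_ne_zero K N q hq)
      (rel_jK_jdK K N q hq D))

/-- **(hVint, chart `J ≠ 0`)** `j_q⁻¹` is integral over `R0[J⁻¹]`. -/
theorem isIntegral_adjoin_JK_inv_jdK_inv (D : ModularPolynomialData q)
    (hD : ∀ (k : Type) [Field k] (ζ : kˣ), IsPrimitiveRoot ζ q → RootsAt k q ζ D.Φ) :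
    IsIntegral (Algebra.adjoin R0 {(S34.H95.JK K N q hq)⁻¹}) (S18.H99.jdK K N q hq)⁻¹ := by
  have h := CA.H55.isIntegral_adjoin_mul_inv D.Φ D.monic _ _ (jdK_ne_zero K N q hq)
    (jK_ne_zero K N) (rel_jdK_jK K N q hq D hD)
  rw [mul_comm] at h
  exact isIntegral_adjoin_of_int _ _ h

end FunctionField

end Fermat.Agent.S34.H99
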