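/-
S34 / L0 (helper99): `A₁[j]` and `A₁[J]` (`J = j * j_q`) have the same integral closure in the
function field `FK = modularFunctionFieldFullC K N` - the hypothesis `hIC` of
`S34.H35.SatAt.change`.
-/
import Fermat.Agent.S34.H99_L0Chart
import Fermat.Agent.S18.H55_GaussTransport

set_option autoImplicit false
set_option linter.unusedSectionVars false

noncomputable section

namespace Fermat.Agent.S34.H99

open Polynomial ModularCurve Fermat.Agent.S28 Fermat.Agent.S18

section FunctionField

variable (K : Type) [Field K] (N : ℕ) [NeZero N] (q : ℕ) [NeZero q] (hq : q ∣ N)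
  {R0 : Type*} [CommRing R0] [Algebra R0 (modularFunctionFieldFullC K N)]

/-- `j_q` is integral over `R0[j]`. -/
theorem isIntegral_adjoin_jK_jdK (D : ModularPolynomialData q) :
    IsIntegral (Algebra.adjoin R0 {S18.H16.jK K N}) (S18.H99.jdK K N q hq) :=
  isIntegral_adjoin_of_int _ _
    (CA.H55.isIntegral_adjoin_of_monic _ _ D.Φ D.monic (rel_jK_jdK K N q hq D))

/-- `J = j * j_q` is integral over `R0[j]`. -/
theorem isIntegral_adjoin_jK_JK (D : ModularPolynomialData q) :
    IsIntegral (Algebra.adjoin R0 {S18.H16.jK K N}) (S34.H95.JK K N q hq) := by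
  have h1 : IsIntegral (Algebra.adjoin R0 {S18.H16.jK K N}) (S18.H16.jK K N) :=
    isIntegral_algebraMap (R := Algebra.adjoin R0 {S18.H16.jK K N})
      (x := ⟨_, Algebra.self_mem_adjoin_singleton R0 _⟩)
  exact h1.mul (isIntegral_adjoin_jK_jdK K N q hq D)

/-- **(hIC)** `R0[j]` and `R0[J]` have the same integral closure in `FK`. -/
theorem isIntegral_adjoin_jK_iff_JK (D : ModularPolynomialData q)
    (hD : ∀ (k : Type) [Field k] (ζ : kˣ), IsPrimitiveRoot ζ q → RootsAt k q ζ D.Φ)
    (z : modularFunctionFieldFullC K N) :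
    IsIntegral (Algebra.adjoin R0 {S18.H16.jK K N}) z ↔
      IsIntegral (Algebra.adjoin R0 {S34.H95.JK K N q hq}) z :=
  ⟨fun h => S18.H55T.isIntegral_adjoin_trans (isIntegral_adjoin_JK_jK K N q hq D hD) h,
   fun h => S18.H55T.isIntegral_adjoin_trans (isIntegral_adjoin_jK_JK K N q hq D) h⟩

end FunctionField

end Fermat.Agent.S34.H99
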