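import Mathlib
import Fermat.Agent.S34.H16_L0Places
import Fermat.Agent.S34.H35_SatCoord
import Fermat.Agent.S34.H99_L0ChartIC
import Fermat.Agent.CA.H92_ChartInvSat

/-!
# S34 / L0 (helper92): `(T4)` in `SatAt` shape

For `c ∈ V_M` (the level-`M` Gauss ring, `ℓ ∤ M`), viewed in `F_N = FullC L₁ (ℓ * M)`:
`H35.SatAt (ℓ : A₁) (jK L₁ N) c`, i.e. `s(j) * c` is integral over `A₁[j]` for some `s ∈ A₁[X]`
with `ℓ ∤ s`.  This is `hV` of `H35.exists_eq_mul_of_res_eq_zero_chart` at the coordinate `j`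
(then `SatAt.change` to `J = j j_ℓ` and `SatAt.inv` to `J⁻¹`).
-/

set_option autoImplicit false
set_option linter.unusedSectionVars false
set_option linter.style.haveILetI false
set_option synthInstance.maxHeartbeats 400000

noncomputable section

namespace Fermat.Agent.S34.H92

open ModularCurve Polynomial IsLocalRing Fermat.Agent.S28
open Fermat.Agent.S18 Fermat.Agent.S34.H16

local notation "Qbar" => AlgebraicClosure ℚ

variable (M : ℕ) [NeZero M] {ℓ : ℕ} [hℓ : Fact ℓ.Prime] (hℓM : ¬ ℓ ∣ M)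
  (A : ValuationSubring Qbar) (hA : A.LiesOverPrime ℓ)

local notation "kA" => IsLocalRing.ResidueField A
local notation "A₁" => H45.A0 A ℓ
local notation "L₁" => H45.unrCyclo ℓ
local notation "FM" => modularFunctionFieldFullC (H45.unrCyclo ℓ) M
local notation "FN" => modularFunctionFieldFullC (H45.unrCyclo ℓ) (ℓ * M)

/-- the level inclusion `F_M → F_N` commutes with the `A₁`-constants. -/
theorem levelMap_algebraMap_A0 (a : A₁) :
    @algebraMap FM FN _ _ (degAlgebra L₁ M (ℓ * M) (dvd_level M)) (algebraMap A₁ FM a) =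
      algebraMap A₁ FN a := by
  apply Subtype.ext
  rw [degAlgebra_algebraMap_coe]
  rfl

/-- the level inclusion composed with `aeval j` at level `M` is `aeval j` at level `N`. -/
theorem levelMap_comp_aeval_jK :
    (@algebraMap FM FN _ _ (degAlgebra L₁ M (ℓ * M) (dvd_level M))).comp
      ((Polynomial.aeval (S18.H16.jK L₁ M) : A₁[X] →ₐ[A₁] FM) : A₁[X] →+* FM) =
    ((Polynomial.aeval (S18.H16.jK L₁ (ℓ * M)) : A₁[X] →ₐ[A₁] FN) : A₁[X] →+* FN) := by
  apply Polynomial.ringHom_ext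
  · intro a
    simp only [RingHom.comp_apply, RingHom.coe_coe, Polynomial.aeval_C]
    exact levelMap_algebraMap_A0 M A a
  · simp only [RingHom.comp_apply, RingHom.coe_coe, Polynomial.aeval_X]
    exact degAlgebra_algebraMap_jK L₁ M (ℓ * M) (dvd_level M)

include hA in
theorem not_C_dvd_of_map_ne_zero {s : A₁[X]} (hs : s.map (H45.resA0 A ℓ) ≠ 0) :
    ¬ Polynomial.C (((ℓ : ℕ) : A₁)) ∣ s := by
  rintro ⟨s', rfl⟩
  apply hs
  rw [Polynomial.map_mul, Polynomial.map_C, H45.resA0_natCast_eq_zero hℓ.out hA, Polynomial.C_0,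
    zero_mul]

/-- **(T4) in `SatAt` shape**: every element of `V_M` is saturated at the coordinate `j` of
`F_N`. -/
theorem satAt_jK_VM (c : VM M hℓM A hA) :
    letI := degAlgebra L₁ M (ℓ * M) (dvd_level M)
    letI := algebraVMFN M hℓM A hA
    H35.SatAt (((ℓ : ℕ) : A₁)) (S18.H16.jK L₁ (ℓ * M)) (algebraMap (VM M hℓM A hA) FN c) := by
  letI := degAlgebra L₁ M (ℓ * M) (dvd_level M)
  letI := algebraVMFN M hℓM A hA
  obtain ⟨s, g, hs, -, h⟩ := exists_repr_VM M hℓM A hA c.1 c.2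
  refine ⟨s, not_C_dvd_of_map_ne_zero A hA hs, ?_⟩
  have h2 := congrArg (algebraMap FM FN) h
  rw [map_mul, Polynomial.hom_eval₂, levelMap_comp_aeval_jK,
    degAlgebra_algebraMap_jNK L₁ M (ℓ * M) (dvd_level M)] at h2
  have h3 : algebraMap FM FN (Polynomial.aeval (S18.H16.jK L₁ M) s) =
      Polynomial.aeval (S18.H16.jK L₁ (ℓ * M)) s := by
    have := congrArg (fun φ : A₁[X] →+* FN => φ s) (levelMap_comp_aeval_jK M A (ℓ := ℓ))
    simpa only [RingHom.comp_apply, RingHom.coe_coe] using this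
  rw [h3] at h2
  have hc : algebraMap (VM M hℓM A hA) FN c = algebraMap FM FN (c : FM) := rfl
  rw [hc, h2, Polynomial.eval₂_eq_sum_range]
  obtain ⟨D, -⟩ := S28.H16.hasModPoly M
  have hθ : IsIntegral (Algebra.adjoin A₁ {S18.H16.jK L₁ (ℓ * M)})
      (S18.H99.jdK L₁ (ℓ * M) M (dvd_level M)) :=
    S34.H99.isIntegral_adjoin_jK_jdK L₁ (ℓ * M) M (dvd_level M) D
  refine IsIntegral.sum _ fun i _ => ?_
  exact (CA.H92.isIntegral_aeval_adjoin _ _).mul (hθ.pow i)

include hA in
/-- `A₁`-constants are saturated (trivially). -/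
theorem satAt_jK_algebraMap (a : A₁) :
    H35.SatAt (((ℓ : ℕ) : A₁)) (S18.H16.jK L₁ (ℓ * M)) (algebraMap A₁ FN a) := by
  refine H35.SatAt.of_isIntegral (H45.irreducible_natCast_A0 hℓ.out hA).not_isUnit ?_
  have : algebraMap A₁ FN a = Polynomial.aeval (S18.H16.jK L₁ (ℓ * M)) (Polynomial.C a) := by
    rw [Polynomial.aeval_C]
  rw [this]
  exact CA.H92.isIntegral_aeval_adjoin _ _

end Fermat.Agent.S34.H92
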