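/-
S34 / L0 (helper99): the CHART-SIDE hypotheses of `S34.H55.twoComponents_of_incl` at the REAL
places `P∞`, `P₀` of `F_N = FullC L₁ (ℓ * M)` over `V_M` (helper16's `H16_L0Places` types), for
the two pinned charts `(u, w) = (J, j̄)` and `(J⁻¹, j̄⁻¹)`, `J = j * j_ℓ`.

* `hconst_infty`, `hconst_zero`   : `hconsti`, `hconst0`;
* `res_jK_infty`, `res_jK_zero`   : the residues of `j` (`j̄`, resp. `j̄^ℓ`);
* `hu_hw_JK_infty`, `hu_hw_JK_zero`, `hu_hw_JK_inv_infty`, `hu_hw_JK_inv_zero` :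
  `(hui, hwi)`, `(hu0, hw0)` for both charts;
* `hιint_JK`, `hVint_JK`, `hιint_JK_inv`, `hVint_JK_inv` : `hιint`, `hVint` for both charts, for
  `ι :=` the level inclusion and `V := H36.vSub`.
(`hOici`, `hOic0` are `CA.H99.PlaceOver.hOic`.)
-/
import Fermat.Agent.S34.H6_L0HV
import Fermat.Agent.S34.H92_SatAtVM
import Fermat.Agent.S34.H99_L0Chart

set_option autoImplicit false
set_option synthInstance.maxHeartbeats 400000
set_option linter.unusedSectionVars false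
set_option linter.style.haveILetI false

noncomputable section

namespace Fermat.Agent.S34.H99

open ModularCurve Polynomial IsLocalRing Fermat.Agent.S28
open Fermat.Agent.S18 Fermat.Agent.S34.H92 Fermat.Agent.S34.H16

local notation "Qbar" => AlgebraicClosure ℚ

variable (M : ℕ) [NeZero M] {ℓ : ℕ} [hℓ : Fact ℓ.Prime] (hℓM : ¬ ℓ ∣ M)
  (A : ValuationSubring Qbar) (hA : A.LiesOverPrime ℓ)

local notation "kA" => IsLocalRing.ResidueField A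
local notation "A₁" => H45.A0 A ℓ
local notation "L₁" => H45.unrCyclo ℓ
local notation "FM" => modularFunctionFieldFullC (H45.unrCyclo ℓ) M
local notation "FN" => modularFunctionFieldFullC (H45.unrCyclo ℓ) (ℓ * M)
local notation "FkM" => modularFunctionFieldFullC (IsLocalRing.ResidueField A) M

/-- the inclusion `Fk(M) ⊆ kA((t))` as a ring homomorphism. -/
abbrev inclK : ↥FkM →+* LaurentSeries kA :=
  ((modularFunctionFieldFullC kA M).val : ↥FkM →ₐ[kA] LaurentSeries kA)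

theorem inclK_jK : inclK M A (S18.H16.jK kA M) = jqModC kA := rfl

/-! ### constants -/

/-- `A₁`-constants of `F_N` come from `V_M`. -/
theorem algebraMap_A0_eq_VMFN (r : A₁) :
    letI := algebraVMFN M hℓM A hA
    algebraMap A₁ FN r = algebraMap (VM M hℓM A hA) FN (constVM M hℓM A hA r) := by
  letI := algebraVMFN M hℓM A hA
  rw [← levelMap_algebraMap_A0 M A r]
  rfl

/-- **`hconsti`** at `P∞`. -/
theorem hconst_infty :
    letI := algebraVMFN M hℓM A hA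
    ∀ (P : CA.H99.PlaceOver (L := ↥FN) (((ℓ : ℕ) : ↥(VM M hℓM A hA))) (S18.H16.jNK L₁ (ℓ * M))
        (resM M hℓM A hA) (resM M hℓM A hA (jMV M hℓM A hA) ^ ℓ)) (r : A₁),
      ∃ h : algebraMap A₁ FN r ∈ P.O1,
        P.res1 ⟨_, h⟩ = algebraMap kA (LaurentSeries kA) (H45.resA0 A ℓ r) := by
  letI := algebraVMFN M hℓM A hA
  intro P
  refine P.hconst (H45.resA0 A ℓ) (constVM M hℓM A hA) (algebraMap_A0_eq_VMFN M hℓM A hA) ?_
  intro r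
  rw [resM_const, S28.H39.algebraMap_eq_C]

/-- **`hconst0`** at `P₀`. -/
theorem hconst_zero :
    letI := algebraVMFN M hℓM A hA
    ∀ (P : CA.H99.PlaceOver (L := ↥FN) (((ℓ : ℕ) : ↥(VM M hℓM A hA))) (S18.H16.jNK L₁ (ℓ * M))
        (iotaZero M hℓM A hA) (resM M hℓM A hA (jMV M hℓM A hA))) (r : A₁),
      ∃ h : algebraMap A₁ FN r ∈ P.O1,
        P.res1 ⟨_, h⟩ = algebraMap kA (LaurentSeries kA) (H45.resA0 A ℓ r) := by
  letI := algebraVMFN M hℓM A hA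
  intro P
  refine P.hconst (H45.resA0 A ℓ) (constVM M hℓM A hA) (algebraMap_A0_eq_VMFN M hℓM A hA) ?_
  intro r
  rw [iotaZero_apply, resM_const, ← S28.H39.algebraMap_eq_C]
  exact (qExpandAlgHomC kA ℓ).commutes (H45.resA0 A ℓ r)

/-! ### the residues of `j` -/

/-- `res_∞ j = j̄`. -/
theorem res_jK_infty :
    letI := algebraVMFN M hℓM A hA
    ∀ (P : CA.H99.PlaceOver (L := ↥FN) (((ℓ : ℕ) : ↥(VM M hℓM A hA))) (S18.H16.jNK L₁ (ℓ * M))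
        (resM M hℓM A hA) (resM M hℓM A hA (jMV M hℓM A hA) ^ ℓ)),
      ∃ hj : S18.H16.jK L₁ (ℓ * M) ∈ P.O1, P.res1 ⟨_, hj⟩ = jqModC kA := by
  letI := algebraVMFN M hℓM A hA
  intro P
  obtain ⟨hj, h⟩ := (S34.H6.isPlaceData_of_placeOver' M hℓM A hA P).jK_mem
  exact ⟨hj, h.trans (jK_mem_VM M hℓM A hA).2⟩

/-- `res_0 j = j̄(t^ℓ) = j̄^ℓ`. -/
theorem res_jK_zero :
    letI := algebraVMFN M hℓM A hA
    ∀ (P : CA.H99.PlaceOver (L := ↥FN) (((ℓ : ℕ) : ↥(VM M hℓM A hA))) (S18.H16.jNK L₁ (ℓ * M))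
        (iotaZero M hℓM A hA) (resM M hℓM A hA (jMV M hℓM A hA))),
      ∃ hj : S18.H16.jK L₁ (ℓ * M) ∈ P.O1, P.res1 ⟨_, hj⟩ = jqModC kA ^ ℓ := by
  letI := algebraVMFN M hℓM A hA
  haveI : CharP kA ℓ := S18.H92.charP_residueField A hA
  intro P
  obtain ⟨hj, h⟩ := (S34.H6.isPlaceData_of_placeOver' M hℓM A hA P).jK_mem
  refine ⟨hj, h.trans ?_⟩
  rw [iotaZero_apply, (jK_mem_VM M hℓM A hA).2]
  have h1 := S34.H36.qExpand_jd_char kA ℓ 1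
  rwa [qExpand_one_apply] at h1

/-! ### `(hu, hw)` for the two charts -/

/-- **`(hui, hwi)`, chart `J`**, at `P∞`. -/
theorem hu_hw_JK_infty :
    letI := algebraVMFN M hℓM A hA
    ∀ (P : CA.H99.PlaceOver (L := ↥FN) (((ℓ : ℕ) : ↥(VM M hℓM A hA))) (S18.H16.jNK L₁ (ℓ * M))
        (resM M hℓM A hA) (resM M hℓM A hA (jMV M hℓM A hA) ^ ℓ)),
      ∃ hu : S34.H95.JK L₁ (ℓ * M) ℓ (Dvd.intro M rfl) ∈ P.O1, ∃ γ : ↥FkM,
        IsIntegral (Algebra.adjoin kA {S18.H16.jK kA M}) γ ∧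
          P.res1 ⟨_, hu⟩ = (modularFunctionFieldFullC kA M).val γ := by
  letI := algebraVMFN M hℓM A hA
  intro P
  obtain ⟨hx, hxv⟩ := res_jK_infty M hℓM A hA P
  obtain ⟨hy, hyv⟩ := S34.H6.res_jq_infty' M hℓM A hA P
  exact P.exists_res1_mul (k := kA) (inclK M A) (S18.H16.jK kA M) hx hy 1 ℓ
    (by rw [hxv, pow_one]; rfl) (by rw [hyv]; rfl)

/-- **`(hu0, hw0)`, chart `J`**, at `P₀`. -/
theorem hu_hw_JK_zero :
    letI := algebraVMFN M hℓM A hA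
    ∀ (P : CA.H99.PlaceOver (L := ↥FN) (((ℓ : ℕ) : ↥(VM M hℓM A hA))) (S18.H16.jNK L₁ (ℓ * M))
        (iotaZero M hℓM A hA) (resM M hℓM A hA (jMV M hℓM A hA))),
      ∃ hu : S34.H95.JK L₁ (ℓ * M) ℓ (Dvd.intro M rfl) ∈ P.O1, ∃ γ : ↥FkM,
        IsIntegral (Algebra.adjoin kA {S18.H16.jK kA M}) γ ∧
          P.res1 ⟨_, hu⟩ = (modularFunctionFieldFullC kA M).val γ := by
  letI := algebraVMFN M hℓM A hA
  intro P
  obtain ⟨hx, hxv⟩ := res_jK_zero M hℓM A hA P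
  obtain ⟨hy, hyv⟩ := S34.H6.res_jq_zero' M hℓM A hA P
  exact P.exists_res1_mul (k := kA) (inclK M A) (S18.H16.jK kA M) hx hy ℓ 1
    (by rw [hxv]; rfl) (by rw [hyv, pow_one]; rfl)

theorem jK_kA_ne_zero : S18.H16.jK kA M ≠ 0 := S34.H99.jK_ne_zero kA M

/-- **`(hui, hwi)`, chart `J⁻¹`**, at `P∞`. -/
theorem hu_hw_JK_inv_infty :
    letI := algebraVMFN M hℓM A hA
    ∀ (P : CA.H99.PlaceOver (L := ↥FN) (((ℓ : ℕ) : ↥(VM M hℓM A hA))) (S18.H16.jNK L₁ (ℓ * M))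
        (resM M hℓM A hA) (resM M hℓM A hA (jMV M hℓM A hA) ^ ℓ)),
      ∃ hu : (S34.H95.JK L₁ (ℓ * M) ℓ (Dvd.intro M rfl))⁻¹ ∈ P.O1, ∃ γ : ↥FkM,
        IsIntegral (Algebra.adjoin kA {(S18.H16.jK kA M)⁻¹}) γ ∧
          P.res1 ⟨_, hu⟩ = (modularFunctionFieldFullC kA M).val γ := by
  letI := algebraVMFN M hℓM A hA
  intro P
  obtain ⟨hx, hxv⟩ := res_jK_infty M hℓM A hA P
  obtain ⟨hy, hyv⟩ := S34.H6.res_jq_infty' M hℓM A hA P
  exact P.exists_res1_mul_inv (k := kA) (inclK M A) (S18.H16.jK kA M) (jK_kA_ne_zero M A)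
    hx hy 1 ℓ (by rw [hxv, pow_one]; rfl) (by rw [hyv]; rfl)

/-- **`(hu0, hw0)`, chart `J⁻¹`**, at `P₀`. -/
theorem hu_hw_JK_inv_zero :
    letI := algebraVMFN M hℓM A hA
    ∀ (P : CA.H99.PlaceOver (L := ↥FN) (((ℓ : ℕ) : ↥(VM M hℓM A hA))) (S18.H16.jNK L₁ (ℓ * M))
        (iotaZero M hℓM A hA) (resM M hℓM A hA (jMV M hℓM A hA))),
      ∃ hu : (S34.H95.JK L₁ (ℓ * M) ℓ (Dvd.intro M rfl))⁻¹ ∈ P.O1, ∃ γ : ↥FkM,
        IsIntegral (Algebra.adjoin kA {(S18.H16.jK kA M)⁻¹}) γ ∧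
          P.res1 ⟨_, hu⟩ = (modularFunctionFieldFullC kA M).val γ := by
  letI := algebraVMFN M hℓM A hA
  intro P
  obtain ⟨hx, hxv⟩ := res_jK_zero M hℓM A hA P
  obtain ⟨hy, hyv⟩ := S34.H6.res_jq_zero' M hℓM A hA P
  exact P.exists_res1_mul_inv (k := kA) (inclK M A) (S18.H16.jK kA M) (jK_kA_ne_zero M A)
    hx hy ℓ 1 (by rw [hxv]; rfl) (by rw [hyv, pow_one]; rfl)

/-! ### `hιint`, `hVint` for the two charts -/

/-- **`hιint`, chart `J`**: `ι j` is integral over `A₁[J]`. -/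
theorem hιint_JK :
    IsIntegral (Algebra.adjoin A₁ {S34.H95.JK L₁ (ℓ * M) ℓ (Dvd.intro M rfl)})
      (@algebraMap FM FN _ _ (degAlgebra L₁ M (ℓ * M) (dvd_level M)) (S18.H16.jK L₁ M)) := by
  obtain ⟨D, hD⟩ := S28.H16.hasModPoly ℓ
  rw [degAlgebra_algebraMap_jK L₁ M (ℓ * M) (dvd_level M)]
  exact isIntegral_adjoin_JK_jK L₁ (ℓ * M) ℓ (Dvd.intro M rfl) D hD

/-- **`hVint`, chart `J`**: `V_ℓ j = j_ℓ` is integral over `A₁[J]`. -/
theorem hVint_JK :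
    IsIntegral (Algebra.adjoin A₁ {S34.H95.JK L₁ (ℓ * M) ℓ (Dvd.intro M rfl)})
      (S34.H36.vSub L₁ ℓ M (ℓ * M) dvd_rfl (S18.H16.jK L₁ M)) := by
  obtain ⟨D, -⟩ := S28.H16.hasModPoly ℓ
  rw [S34.H36.vSub_jK]
  exact isIntegral_adjoin_JK_jdK L₁ (ℓ * M) ℓ (Dvd.intro M rfl) D

/-- **`hιint`, chart `J⁻¹`**: `ι j⁻¹` is integral over `A₁[J⁻¹]`. -/
theorem hιint_JK_inv :
    IsIntegral (Algebra.adjoin A₁ {(S34.H95.JK L₁ (ℓ * M) ℓ (Dvd.intro M rfl))⁻¹})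
      (@algebraMap FM FN _ _ (degAlgebra L₁ M (ℓ * M) (dvd_level M)) (S18.H16.jK L₁ M)⁻¹) := by
  obtain ⟨D, -⟩ := S28.H16.hasModPoly ℓ
  rw [map_inv₀, degAlgebra_algebraMap_jK L₁ M (ℓ * M) (dvd_level M)]
  exact isIntegral_adjoin_JK_inv_jK_inv L₁ (ℓ * M) ℓ (Dvd.intro M rfl) D

/-- **`hVint`, chart `J⁻¹`**: `V_ℓ j⁻¹ = j_ℓ⁻¹` is integral over `A₁[J⁻¹]`. -/
theorem hVint_JK_inv :
    IsIntegral (Algebra.adjoin A₁ {(S34.H95.JK L₁ (ℓ * M) ℓ (Dvd.intro M rfl))⁻¹})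
      (S34.H36.vSub L₁ ℓ M (ℓ * M) dvd_rfl (S18.H16.jK L₁ M)⁻¹) := by
  obtain ⟨D, hD⟩ := S28.H16.hasModPoly ℓ
  rw [map_inv₀, S34.H36.vSub_jK]
  exact isIntegral_adjoin_JK_inv_jdK_inv L₁ (ℓ * M) ℓ (Dvd.intro M rfl) D hD

end Fermat.Agent.S34.H99
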