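/-
S34 / L0, FINAL INSTANCE (helper55): `H83.TwoComponents` between the REAL chart rings
`B₁ = chartB A₁ J`, `B₂ = chartB A₁ J⁻¹` (`J = j * j_ℓ`) of `F_N = FullC L₁ (ℓ * M)` and the chart
rings of `F_M = FullC L₁ M` over `A₁ = H45.A0 A ℓ`, with branch rings the integral closures of
`kA[j̄]`, `kA[j̄⁻¹]` in `Fk(M) = FullC kA M`.

Pure application of `H55.twoComponents_of_incl` to
* helper16's places `H16.nonempty_placeInfty / nonempty_placeZero` (`S34.H16_L0Places`),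
* helper92's level-`M` Gauss model `H92.gaussModelVM`,
* helper6's transport facts `H6.HiV / H6.H0V` (`S34.H6_L0HV`),
* helper99's chart-side facts (`S34.H99_L0ChartInst`),
* helper35's `hinfF_JK / hinfF_JK_inv` (`S34.H35_SatInst`),
* helper13's lifting `(GR)` (`S18.H13_RExistInst`), helper36's `vSub / frobLin`.
-/
import Fermat.Agent.S34.H55_L0Base
import Fermat.Agent.S34.H6_L0HV
import Fermat.Agent.S34.H99_L0ChartInst
import Fermat.Agent.S34.H35_SatInst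

set_option autoImplicit false
set_option linter.unusedSectionVars false
set_option linter.style.haveILetI false
set_option synthInstance.maxHeartbeats 400000

noncomputable section

namespace Fermat.Agent.S34.H55

open ModularCurve Polynomial IsLocalRing Fermat.Agent.S28
open Fermat.Agent.S18 Fermat.Agent.S34.H92 Fermat.Agent.S34.H16

local notation "Qbar" => AlgebraicClosure ℚ

section L0Final

variable (M : ℕ) [NeZero M] {ℓ : ℕ} [hℓ : Fact ℓ.Prime] (hℓM : ¬ ℓ ∣ M)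
  (A : ValuationSubring Qbar) (hA : A.LiesOverPrime ℓ)

local notation "kA" => IsLocalRing.ResidueField A
local notation "A₁" => H45.A0 A ℓ
local notation "L₁" => H45.unrCyclo ℓ
local notation "FM" => modularFunctionFieldFullC (H45.unrCyclo ℓ) M
local notation "FN" => modularFunctionFieldFullC (H45.unrCyclo ℓ) (ℓ * M)
local notation "FkM" => modularFunctionFieldFullC (IsLocalRing.ResidueField A) M

/-- the chart coordinate `J = j * j_ℓ` of `F_N` (helper95). -/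
abbrev JN : FN := S34.H95.JK L₁ (ℓ * M) ℓ (Dvd.intro M rfl)

/-! ### The transport facts for `V` (helper6) -/

theorem HiV (Pi : PlaceInf M hℓM A hA) (y : FM) (hy : y ∈ (Mod M hℓM A hA).O1) :
    ∃ h : VMN M (ℓ := ℓ) y ∈ PO1 M hℓM A hA Pi,
      Pres1 M hℓM A hA Pi ⟨_, h⟩ =
        inclk M A (FrM M A hA ((Mod M hℓM A hA).res1 ⟨y, hy⟩)) :=
  S34.H6.HiV M hℓM A hA Pi y hy

theorem H0V (P0 : PlaceZero M hℓM A hA) (y : FM) (hy : y ∈ (Mod M hℓM A hA).O1) :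
    ∃ h : VMN M (ℓ := ℓ) y ∈ PO1 M hℓM A hA P0,
      Pres1 M hℓM A hA P0 ⟨_, h⟩ = inclk M A ((Mod M hℓM A hA).res1 ⟨y, hy⟩) :=
  S34.H6.H0V M hℓM A hA P0 y hy

/-! ### Frobenius roots -/

theorem hFrpow (γ : FkM) : ∃ γ' : FkM, γ' ^ ℓ = FrM M A hA γ := by
  haveI : CharP kA ℓ := S18.H92.charP_residueField A hA
  haveI : PerfectRing kA ℓ := inferInstance
  exact ⟨_, (H36.frobLin_eq_pow_fullCMap kA ℓ M γ).symm⟩

/-! ### Chart 1: `(c, u, w) = (j, J, j̄)` -/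

theorem hιint1 : IsIntegral (Algebra.adjoin A₁ {JN M (ℓ := ℓ)})
    (iotaMN M (ℓ := ℓ) (S18.H16.jK L₁ M)) :=
  S34.H99.hιint_JK M A

theorem hVint1 : IsIntegral (Algebra.adjoin A₁ {JN M (ℓ := ℓ)})
    (VMN M (ℓ := ℓ) (S18.H16.jK L₁ M)) :=
  S34.H99.hVint_JK M A

/-- **L0, chart 1**: the two-component structure of the special fibre of `B₁ = chartB A₁ J`. -/
theorem twoComponents_JK (Pi : PlaceInf M hℓM A hA) (P0 : PlaceZero M hℓM A hA) :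
    ∃ red₁ red₂ : ↥(H40.chartB A₁ (JN M (ℓ := ℓ))) →+*
        ↥(integralClosure (Algebra.adjoin kA {S18.H16.jK kA M}) FkM),
      (∀ (b : ↥(H40.chartB A₁ (JN M (ℓ := ℓ)))) (h : (b : FN) ∈ PO1 M hℓM A hA Pi),
        inclk M A ((red₁ b : ↥(integralClosure (Algebra.adjoin kA {S18.H16.jK kA M}) FkM)) : FkM)
          = Pres1 M hℓM A hA Pi ⟨b, h⟩) ∧
      (∀ (b : ↥(H40.chartB A₁ (JN M (ℓ := ℓ)))) (h : (b : FN) ∈ PO1 M hℓM A hA P0),
        inclk M A ((red₂ b : ↥(integralClosure (Algebra.adjoin kA {S18.H16.jK kA M}) FkM)) : FkM)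
          = Pres1 M hℓM A hA P0 ⟨b, h⟩) ∧
      H83.TwoComponents red₁ red₂
        (chartMap (iotaMN M (ℓ := ℓ)) (iotaMN_algebraMap M A) (hιint1 M A))
        (chartMap (VMN M (ℓ := ℓ)) (VMN_algebraMap M A) (hVint1 M A))
        (rbarB (Mod M hℓM A hA) (Mod M hℓM A hA).x_mem (Mod M hℓM A hA).res1_x)
        (WR (FrM M A hA) ℓ (hFrx M A hA)) ℓ
        (algebraMap A₁ ↥(H40.chartB A₁ (JN M (ℓ := ℓ))) ((ℓ : ℕ) : A₁)) := by
  obtain ⟨hui, hwi⟩ := S34.H99.hu_hw_JK_infty M hℓM A hA Pi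
  obtain ⟨hu0, hw0⟩ := S34.H99.hu_hw_JK_zero M hℓM A hA P0
  exact twoComponents_of_incl (Mod M hℓM A hA) (iotaMN M (ℓ := ℓ)) (VMN M (ℓ := ℓ))
    (iotaMN_algebraMap M A) (VMN_algebraMap M A) (inclk M A)
    (PO1 M hℓM A hA Pi) (Pres1 M hℓM A hA Pi) (PO1 M hℓM A hA P0) (Pres1 M hℓM A hA P0)
    (hri M hℓM A hA Pi) (hr0 M hℓM A hA P0) (hconsti M hℓM A hA Pi) (hconst0 M hℓM A hA P0)
    (PO1_closed M hℓM A hA Pi) (PO1_closed M hℓM A hA P0) (FrM M A hA) ℓ hℓ.out.pos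
    (Hiι M hℓM A hA Pi) (HiV M hℓM A hA Pi) (H0V M hℓM A hA P0) (H0ι M hℓM A hA P0)
    (Mod M hℓM A hA).x_mem (Mod M hℓM A hA).res1_x (hFrx M A hA) (hιint1 M A) (hVint1 M A)
    hui hu0 hwi hw0 (hGRfin M hℓM A hA) (hFrpow M A hA)
    (S34.H35.hinfF_JK M hℓM A hA Pi P0)

/-! ### Chart 2: `(c, u, w) = (j⁻¹, J⁻¹, j̄⁻¹)` -/

theorem hc2 : (S18.H16.jK L₁ M)⁻¹ ∈ (Mod M hℓM A hA).O1 :=
  (Mod M hℓM A hA).x_inv_mem (S34.H99.jK_kA_ne_zero M A)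

theorem hcw2 : (Mod M hℓM A hA).res1 ⟨(S18.H16.jK L₁ M)⁻¹, hc2 M hℓM A hA⟩ =
    (S18.H16.jK kA M)⁻¹ :=
  (Mod M hℓM A hA).res1_x_inv (S34.H99.jK_kA_ne_zero M A)

theorem hFrx_inv : FrM M A hA (S18.H16.jK kA M)⁻¹ = ((S18.H16.jK kA M)⁻¹) ^ ℓ := by
  rw [map_inv₀, hFrx, inv_pow]

theorem hιint2 : IsIntegral (Algebra.adjoin A₁ {(JN M (ℓ := ℓ))⁻¹})
    (iotaMN M (ℓ := ℓ) (S18.H16.jK L₁ M)⁻¹) :=
  S34.H99.hιint_JK_inv M A

theorem hVint2 : IsIntegral (Algebra.adjoin A₁ {(JN M (ℓ := ℓ))⁻¹})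
    (VMN M (ℓ := ℓ) (S18.H16.jK L₁ M)⁻¹) :=
  S34.H99.hVint_JK_inv M A

/-- **L0, chart 2**: the two-component structure of the special fibre of `B₂ = chartB A₁ J⁻¹`. -/
theorem twoComponents_JK_inv (Pi : PlaceInf M hℓM A hA) (P0 : PlaceZero M hℓM A hA) :
    ∃ red₁ red₂ : ↥(H40.chartB A₁ (JN M (ℓ := ℓ))⁻¹) →+*
        ↥(integralClosure (Algebra.adjoin kA {(S18.H16.jK kA M)⁻¹}) FkM),
      (∀ (b : ↥(H40.chartB A₁ (JN M (ℓ := ℓ))⁻¹)) (h : (b : FN) ∈ PO1 M hℓM A hA Pi),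
        inclk M A
          ((red₁ b : ↥(integralClosure (Algebra.adjoin kA {(S18.H16.jK kA M)⁻¹}) FkM)) : FkM)
          = Pres1 M hℓM A hA Pi ⟨b, h⟩) ∧
      (∀ (b : ↥(H40.chartB A₁ (JN M (ℓ := ℓ))⁻¹)) (h : (b : FN) ∈ PO1 M hℓM A hA P0),
        inclk M A
          ((red₂ b : ↥(integralClosure (Algebra.adjoin kA {(S18.H16.jK kA M)⁻¹}) FkM)) : FkM)
          = Pres1 M hℓM A hA P0 ⟨b, h⟩) ∧
      H83.TwoComponents red₁ red₂
        (chartMap (iotaMN M (ℓ := ℓ)) (iotaMN_algebraMap M A) (hιint2 M A))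
        (chartMap (VMN M (ℓ := ℓ)) (VMN_algebraMap M A) (hVint2 M A))
        (rbarB (Mod M hℓM A hA) (hc2 M hℓM A hA) (hcw2 M hℓM A hA))
        (WR (FrM M A hA) ℓ (hFrx_inv M A hA)) ℓ
        (algebraMap A₁ ↥(H40.chartB A₁ (JN M (ℓ := ℓ))⁻¹) ((ℓ : ℕ) : A₁)) := by
  obtain ⟨hui, hwi⟩ := S34.H99.hu_hw_JK_inv_infty M hℓM A hA Pi
  obtain ⟨hu0, hw0⟩ := S34.H99.hu_hw_JK_inv_zero M hℓM A hA P0
  exact twoComponents_of_incl (Mod M hℓM A hA) (iotaMN M (ℓ := ℓ)) (VMN M (ℓ := ℓ))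
    (iotaMN_algebraMap M A) (VMN_algebraMap M A) (inclk M A)
    (PO1 M hℓM A hA Pi) (Pres1 M hℓM A hA Pi) (PO1 M hℓM A hA P0) (Pres1 M hℓM A hA P0)
    (hri M hℓM A hA Pi) (hr0 M hℓM A hA P0) (hconsti M hℓM A hA Pi) (hconst0 M hℓM A hA P0)
    (PO1_closed M hℓM A hA Pi) (PO1_closed M hℓM A hA P0) (FrM M A hA) ℓ hℓ.out.pos
    (Hiι M hℓM A hA Pi) (HiV M hℓM A hA Pi) (H0V M hℓM A hA P0) (H0ι M hℓM A hA P0)
    (hc2 M hℓM A hA) (hcw2 M hℓM A hA) (hFrx_inv M A hA) (hιint2 M A) (hVint2 M A)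
    hui hu0 hwi hw0 (hGRinf M hℓM A hA) (hFrpow M A hA)
    (S34.H35.hinfF_JK_inv M hℓM A hA Pi P0)

/-! ### Existence (places from helper16's `nonempty_placeInfty / nonempty_placeZero`) -/

/-- **L0, both charts, with the SAME pair of places**: there are places `P∞`, `P₀` of `F_N` over
`V_M` and two-component structures on both charts whose reductions are the restrictions of the
two place reductions. -/
theorem exists_twoComponents (D : ModularPolynomialData ℓ)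
    (hD : ∀ (k : Type) [Field k] (ζ : kˣ), IsPrimitiveRoot ζ ℓ → RootsAt k ℓ ζ D.Φ) :
    ∃ (Pi : PlaceInf M hℓM A hA) (P0 : PlaceZero M hℓM A hA),
      (∃ red₁ red₂ : ↥(H40.chartB A₁ (JN M (ℓ := ℓ))) →+*
          ↥(integralClosure (Algebra.adjoin kA {S18.H16.jK kA M}) FkM),
        (∀ (b : ↥(H40.chartB A₁ (JN M (ℓ := ℓ)))) (h : (b : FN) ∈ PO1 M hℓM A hA Pi),
          inclk M A
            ((red₁ b : ↥(integralClosure (Algebra.adjoin kA {S18.H16.jK kA M}) FkM)) : FkM)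
            = Pres1 M hℓM A hA Pi ⟨b, h⟩) ∧
        (∀ (b : ↥(H40.chartB A₁ (JN M (ℓ := ℓ)))) (h : (b : FN) ∈ PO1 M hℓM A hA P0),
          inclk M A
            ((red₂ b : ↥(integralClosure (Algebra.adjoin kA {S18.H16.jK kA M}) FkM)) : FkM)
            = Pres1 M hℓM A hA P0 ⟨b, h⟩) ∧
        H83.TwoComponents red₁ red₂
          (chartMap (iotaMN M (ℓ := ℓ)) (iotaMN_algebraMap M A) (hιint1 M A))
          (chartMap (VMN M (ℓ := ℓ)) (VMN_algebraMap M A) (hVint1 M A))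
          (rbarB (Mod M hℓM A hA) (Mod M hℓM A hA).x_mem (Mod M hℓM A hA).res1_x)
          (WR (FrM M A hA) ℓ (hFrx M A hA)) ℓ
          (algebraMap A₁ ↥(H40.chartB A₁ (JN M (ℓ := ℓ))) ((ℓ : ℕ) : A₁))) ∧
      (∃ red₁ red₂ : ↥(H40.chartB A₁ (JN M (ℓ := ℓ))⁻¹) →+*
          ↥(integralClosure (Algebra.adjoin kA {(S18.H16.jK kA M)⁻¹}) FkM),
        (∀ (b : ↥(H40.chartB A₁ (JN M (ℓ := ℓ))⁻¹)) (h : (b : FN) ∈ PO1 M hℓM A hA Pi),
          inclk M A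
            ((red₁ b : ↥(integralClosure (Algebra.adjoin kA {(S18.H16.jK kA M)⁻¹}) FkM)) : FkM)
            = Pres1 M hℓM A hA Pi ⟨b, h⟩) ∧
        (∀ (b : ↥(H40.chartB A₁ (JN M (ℓ := ℓ))⁻¹)) (h : (b : FN) ∈ PO1 M hℓM A hA P0),
          inclk M A
            ((red₂ b : ↥(integralClosure (Algebra.adjoin kA {(S18.H16.jK kA M)⁻¹}) FkM)) : FkM)
            = Pres1 M hℓM A hA P0 ⟨b, h⟩) ∧
        H83.TwoComponents red₁ red₂
          (chartMap (iotaMN M (ℓ := ℓ)) (iotaMN_algebraMap M A) (hιint2 M A))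
          (chartMap (VMN M (ℓ := ℓ)) (VMN_algebraMap M A) (hVint2 M A))
          (rbarB (Mod M hℓM A hA) (hc2 M hℓM A hA) (hcw2 M hℓM A hA))
          (WR (FrM M A hA) ℓ (hFrx_inv M A hA)) ℓ
          (algebraMap A₁ ↥(H40.chartB A₁ (JN M (ℓ := ℓ))⁻¹) ((ℓ : ℕ) : A₁))) := by
  obtain ⟨Pi⟩ := nonempty_placeInfty M hℓM A hA D hD
  obtain ⟨P0⟩ := nonempty_placeZero M hℓM A hA D hD
  exact ⟨Pi, P0, twoComponents_JK M hℓM A hA Pi P0, twoComponents_JK_inv M hℓM A hA Pi P0⟩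

/-- **L0, chart 1** in existential form (the only input is the modular polynomial data). -/
theorem exists_twoComponents_JK (D : ModularPolynomialData ℓ)
    (hD : ∀ (k : Type) [Field k] (ζ : kˣ), IsPrimitiveRoot ζ ℓ → RootsAt k ℓ ζ D.Φ) :
    ∃ red₁ red₂ : ↥(H40.chartB A₁ (JN M (ℓ := ℓ))) →+*
        ↥(integralClosure (Algebra.adjoin kA {S18.H16.jK kA M}) FkM),
      H83.TwoComponents red₁ red₂
        (chartMap (iotaMN M (ℓ := ℓ)) (iotaMN_algebraMap M A) (hιint1 M A))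
        (chartMap (VMN M (ℓ := ℓ)) (VMN_algebraMap M A) (hVint1 M A))
        (rbarB (Mod M hℓM A hA) (Mod M hℓM A hA).x_mem (Mod M hℓM A hA).res1_x)
        (WR (FrM M A hA) ℓ (hFrx M A hA)) ℓ
        (algebraMap A₁ ↥(H40.chartB A₁ (JN M (ℓ := ℓ))) ((ℓ : ℕ) : A₁)) := by
  obtain ⟨Pi, P0, ⟨red₁, red₂, -, -, h⟩, -⟩ := exists_twoComponents M hℓM A hA D hD
  exact ⟨red₁, red₂, h⟩

/-- **L0, chart 2** in existential form. -/
theorem exists_twoComponents_JK_inv (D : ModularPolynomialData ℓ)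
    (hD : ∀ (k : Type) [Field k] (ζ : kˣ), IsPrimitiveRoot ζ ℓ → RootsAt k ℓ ζ D.Φ) :
    ∃ red₁ red₂ : ↥(H40.chartB A₁ (JN M (ℓ := ℓ))⁻¹) →+*
        ↥(integralClosure (Algebra.adjoin kA {(S18.H16.jK kA M)⁻¹}) FkM),
      H83.TwoComponents red₁ red₂
        (chartMap (iotaMN M (ℓ := ℓ)) (iotaMN_algebraMap M A) (hιint2 M A))
        (chartMap (VMN M (ℓ := ℓ)) (VMN_algebraMap M A) (hVint2 M A))
        (rbarB (Mod M hℓM A hA) (hc2 M hℓM A hA) (hcw2 M hℓM A hA))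
        (WR (FrM M A hA) ℓ (hFrx_inv M A hA)) ℓ
        (algebraMap A₁ ↥(H40.chartB A₁ (JN M (ℓ := ℓ))⁻¹) ((ℓ : ℕ) : A₁)) := by
  obtain ⟨Pi, P0, -, ⟨red₁, red₂, -, -, h⟩⟩ := exists_twoComponents M hℓM A hA D hD
  exact ⟨red₁, red₂, h⟩

end L0Final

end Fermat.Agent.S34.H55
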