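/-
S34 / L0 → consumers (helper55): the FOUR L0-shaped inputs of `H34.isUnipotentOnInertiaAt_of_L0`
(`hradB₁ hradB₂ hL1₁ hL1₂`, verbatim), hypothesis-free: `H55.exists_twoComponents_JK(_inv)` at the
modular polynomial datum of `S18.H16.exists_modPoly_gen`, fed into helper40's `H40.hradB_JK`,
`H40.hradB_JK_inv`, `H40.hL1_JK`, `H40.hL1_JK_inv`.
-/
import Fermat.Agent.S34.H55_L0Final
import Fermat.Agent.S34.H40_L0Consumers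
import Fermat.Agent.S18.H16_FKGen

set_option autoImplicit false
set_option linter.unusedSectionVars false
set_option linter.style.haveILetI false
set_option synthInstance.maxHeartbeats 400000

noncomputable section

namespace Fermat.Agent.S34.H55

open ModularCurve Polynomial IsLocalRing Fermat.Agent.S28
open Fermat.Agent.S18 Fermat.Agent.S34.H92 Fermat.Agent.S34.H16

local notation "Qbar" => AlgebraicClosure ℚ

section Consumed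

variable (M : ℕ) [NeZero M] {ℓ : ℕ} [hℓ : Fact ℓ.Prime] (hℓM : ¬ ℓ ∣ M)
  (A : ValuationSubring Qbar) (hA : A.LiesOverPrime ℓ)

local notation "kA" => IsLocalRing.ResidueField A
local notation "A₁" => H45.A0 A ℓ
local notation "L₁" => H45.unrCyclo ℓ
local notation "FM" => modularFunctionFieldFullC (H45.unrCyclo ℓ) M
local notation "FN" => modularFunctionFieldFullC (H45.unrCyclo ℓ) (ℓ * M)
local notation "FkM" => modularFunctionFieldFullC (IsLocalRing.ResidueField A) M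

/-- **L0, chart 1, hypothesis-free.** -/
theorem exists_twoComponents_JK' :
    ∃ red₁ red₂ : ↥(H40.chartB A₁ (JN M (ℓ := ℓ))) →+*
        ↥(integralClosure (Algebra.adjoin kA {S18.H16.jK kA M}) FkM),
      H83.TwoComponents red₁ red₂
        (chartMap (iotaMN M (ℓ := ℓ)) (iotaMN_algebraMap M A) (hιint1 M A))
        (chartMap (VMN M (ℓ := ℓ)) (VMN_algebraMap M A) (hVint1 M A))
        (rbarB (Mod M hℓM A hA) (Mod M hℓM A hA).x_mem (Mod M hℓM A hA).res1_x)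
        (WR (FrM M A hA) ℓ (hFrx M A hA)) ℓ
        (algebraMap A₁ ↥(H40.chartB A₁ (JN M (ℓ := ℓ))) ((ℓ : ℕ) : A₁)) := by
  obtain ⟨D, hD, -⟩ := S18.H16.exists_modPoly_gen ℓ
  exact exists_twoComponents_JK M hℓM A hA D hD

/-- **L0, chart 2, hypothesis-free.** -/
theorem exists_twoComponents_JK_inv' :
    ∃ red₁ red₂ : ↥(H40.chartB A₁ (JN M (ℓ := ℓ))⁻¹) →+*
        ↥(integralClosure (Algebra.adjoin kA {(S18.H16.jK kA M)⁻¹}) FkM),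
      H83.TwoComponents red₁ red₂
        (chartMap (iotaMN M (ℓ := ℓ)) (iotaMN_algebraMap M A) (hιint2 M A))
        (chartMap (VMN M (ℓ := ℓ)) (VMN_algebraMap M A) (hVint2 M A))
        (rbarB (Mod M hℓM A hA) (hc2 M hℓM A hA) (hcw2 M hℓM A hA))
        (WR (FrM M A hA) ℓ (hFrx_inv M A hA)) ℓ
        (algebraMap A₁ ↥(H40.chartB A₁ (JN M (ℓ := ℓ))⁻¹) ((ℓ : ℕ) : A₁)) := by
  obtain ⟨D, hD, -⟩ := S18.H16.exists_modPoly_gen ℓ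
  exact exists_twoComponents_JK_inv M hℓM A hA D hD

end Consumed

/-! ### The four inputs of `H34.isUnipotentOnInertiaAt_of_L0`, verbatim -/

/-- `hradB₁`. -/
theorem hradB₁_final : ∀ (M : ℕ) [NeZero M] {ℓ : ℕ} [Fact ℓ.Prime] (_ : ¬ ℓ ∣ M)
    (A : ValuationSubring Qbar) (_ : A.LiesOverPrime ℓ)
    (b : ↥(H40.chartB (H45.A0 A ℓ) (H95.JK (H45.unrCyclo ℓ) (ℓ * M) ℓ (Dvd.intro M rfl)))),
    (∃ n : ℕ, algebraMap (H45.A0 A ℓ)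
      ↥(H40.chartB (H45.A0 A ℓ) (H95.JK (H45.unrCyclo ℓ) (ℓ * M) ℓ (Dvd.intro M rfl)))
        ((ℓ : ℕ) : H45.A0 A ℓ) ∣ b ^ n) →
    algebraMap (H45.A0 A ℓ)
      ↥(H40.chartB (H45.A0 A ℓ) (H95.JK (H45.unrCyclo ℓ) (ℓ * M) ℓ (Dvd.intro M rfl)))
        ((ℓ : ℕ) : H45.A0 A ℓ) ∣ b := by
  intro M _ ℓ _ hℓM A hA
  obtain ⟨red₁, red₂, hTC⟩ := exists_twoComponents_JK' M hℓM A hA
  exact H40.hradB_JK M A hA hTC

/-- `hradB₂`. -/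
theorem hradB₂_final : ∀ (M : ℕ) [NeZero M] {ℓ : ℕ} [Fact ℓ.Prime] (_ : ¬ ℓ ∣ M)
    (A : ValuationSubring Qbar) (_ : A.LiesOverPrime ℓ)
    (b : ↥(H40.chartB (H45.A0 A ℓ) (H95.JK (H45.unrCyclo ℓ) (ℓ * M) ℓ (Dvd.intro M rfl))⁻¹)),
    (∃ n : ℕ, algebraMap (H45.A0 A ℓ)
      ↥(H40.chartB (H45.A0 A ℓ) (H95.JK (H45.unrCyclo ℓ) (ℓ * M) ℓ (Dvd.intro M rfl))⁻¹)
        ((ℓ : ℕ) : H45.A0 A ℓ) ∣ b ^ n) →
    algebraMap (H45.A0 A ℓ)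
      ↥(H40.chartB (H45.A0 A ℓ) (H95.JK (H45.unrCyclo ℓ) (ℓ * M) ℓ (Dvd.intro M rfl))⁻¹)
        ((ℓ : ℕ) : H45.A0 A ℓ) ∣ b := by
  intro M _ ℓ _ hℓM A hA
  obtain ⟨red₁, red₂, hTC⟩ := exists_twoComponents_JK_inv' M hℓM A hA
  exact H40.hradB_JK_inv M A hA hTC

/-- `hL1₁`. -/
theorem hL1₁_final : ∀ (M : ℕ) [NeZero M] {ℓ : ℕ} [Fact ℓ.Prime] (_ : ¬ ℓ ∣ M)
    (A : ValuationSubring Qbar) (_ : A.LiesOverPrime ℓ)
    (n₁ : Ideal ↥(H40.chartB (H45.A0 A ℓ)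
      (H95.JK (H45.unrCyclo ℓ) (ℓ * M) ℓ (Dvd.intro M rfl)))) [n₁.IsMaximal],
    algebraMap (H45.A0 A ℓ)
      ↥(H40.chartB (H45.A0 A ℓ) (H95.JK (H45.unrCyclo ℓ) (ℓ * M) ℓ (Dvd.intro M rfl)))
        ((ℓ : ℕ) : H45.A0 A ℓ) ∈ n₁ →
    H61.L1At ((ℓ : ℕ) : H45.A0 A ℓ) n₁ := by
  intro M _ ℓ hℓ hℓM A hA n₁ _ hn
  obtain ⟨red₁, red₂, hTC⟩ := exists_twoComponents_JK' M hℓM A hA
  exact H40.hL1_JK M hℓM A hA hTC hℓ.out.two_le n₁ hn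

/-- `hL1₂`. -/
theorem hL1₂_final : ∀ (M : ℕ) [NeZero M] {ℓ : ℕ} [Fact ℓ.Prime] (_ : ¬ ℓ ∣ M)
    (A : ValuationSubring Qbar) (_ : A.LiesOverPrime ℓ)
    (n₁ : Ideal ↥(H40.chartB (H45.A0 A ℓ)
      (H95.JK (H45.unrCyclo ℓ) (ℓ * M) ℓ (Dvd.intro M rfl))⁻¹)) [n₁.IsMaximal],
    algebraMap (H45.A0 A ℓ)
      ↥(H40.chartB (H45.A0 A ℓ) (H95.JK (H45.unrCyclo ℓ) (ℓ * M) ℓ (Dvd.intro M rfl))⁻¹)
        ((ℓ : ℕ) : H45.A0 A ℓ) ∈ n₁ →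
    H61.L1At ((ℓ : ℕ) : H45.A0 A ℓ) n₁ := by
  intro M _ ℓ hℓ hℓM A hA n₁ _ hn
  obtain ⟨red₁, red₂, hTC⟩ := exists_twoComponents_JK_inv' M hℓM A hA
  exact H40.hL1_JK_inv M hℓM A hA hTC hℓ.out.two_le n₁ hn

end Fermat.Agent.S34.H55
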