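/-
helper83: S34, L1 instantiation, the instance facts which do not depend on the L0 instance:

* `finiteType_chartB` : the chart `chartB R j` is an `R`-algebra of finite type;
* `hres_of_residue` : closed points of the special fibre have residue field `k` (the residue
  field of the base, algebraically closed), in the form `B = A₁ + n`;
* `not_isField_integralClosure_adjoin` : the level-`M` special fibre ring is not a field;
* `TwoComponents.local_output_chart` : `TwoComponents.local_output` for a chart `B = chartB A₁ u`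
  with all these discharged.
-/
import Mathlib
import Fermat.Agent.S18.H40_CechFG
import Fermat.Agent.S18.H97_FibreInst
import Fermat.Agent.S34.H83_L0Target

set_option autoImplicit false

namespace Fermat.Agent.S34.H83

open Polynomial IntermediateField
open Fermat.Agent.S18

/-! ### The chart is of finite type -/

section FiniteType

variable {R : Type*} [CommRing R] [IsDomain R] [IsNoetherianRing R] [IsIntegrallyClosed R]
  {K : Type*} [Field K] [Algebra R K] [IsFractionRing R K]
  {F : Type*} [Field F] [Algebra R F] [Algebra K F] [IsScalarTower R K F]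

theorem fg_chartB (j : F) (htr : Transcendental K j)
    [FiniteDimensional K⟮j⟯ F] [Algebra.IsSeparable K⟮j⟯ F] : (H40.chartB R j).FG := by
  classical
  obtain ⟨ι, _, β, hβ, hgen⟩ := H40.exists_finite_generators_of_finite (R := R) (K := K) j htr
  rw [Subalgebra.fg_def]
  refine ⟨insert j (Set.range β), (Set.finite_range β).insert j, ?_⟩
  apply le_antisymm
  · rw [Algebra.adjoin_le_iff]
    rintro x (rfl | ⟨i, rfl⟩)
    · exact H40.self_mem_chartB (R := R) x
    · exact H40.mem_chartB.2 (hβ i)
  · intro b hb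
    obtain ⟨p, rfl⟩ := hgen b (H40.mem_chartB.1 hb)
    refine Subalgebra.sum_mem _ fun i _ => Subalgebra.mul_mem _ ?_ ?_
    · have h1 : Algebra.adjoin R {j} ≤ Algebra.adjoin R (insert j (Set.range β)) :=
        Algebra.adjoin_mono (by simp)
      apply h1
      rw [Algebra.adjoin_singleton_eq_range_aeval]
      exact ⟨p i, rfl⟩
    · exact Algebra.subset_adjoin (Set.mem_insert_of_mem _ ⟨i, rfl⟩)

theorem finiteType_chartB (j : F) (htr : Transcendental K j)
    [FiniteDimensional K⟮j⟯ F] [Algebra.IsSeparable K⟮j⟯ F] :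
    Algebra.FiniteType R ↥(H40.chartB R j) :=
  (Subalgebra.fg_iff_finiteType _).1 (fg_chartB (K := K) j htr)

end FiniteType

/-! ### Residue fields of closed points -/

section Residue

variable {A₁ B : Type*} [CommRing A₁] [CommRing B] [Algebra A₁ B]

/-- If `B` is of finite type over `A₁`, `res : A₁ → k` is onto an algebraically closed field and
`n` is a maximal ideal of `B` containing the image of `ker res`, then `B = A₁ + n`. -/
theorem hres_of_residue [Algebra.FiniteType A₁ B] {k : Type*} [Field k] [IsAlgClosed k]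
    (res : A₁ →+* k) (hsurj : Function.Surjective res)
    (n : Ideal B) [hn : n.IsMaximal]
    (hker : ∀ a : A₁, res a = 0 → algebraMap A₁ B a ∈ n) (b : B) :
    ∃ c : A₁, b - algebraMap A₁ B c ∈ n := by
  classical
  let _ : Field (B ⧸ n) := Ideal.Quotient.field _
  let g : A₁ →+* (B ⧸ n) := (Ideal.Quotient.mk n).comp (algebraMap A₁ B)
  have hg : ∀ a ∈ RingHom.ker res, g a = 0 := fun a ha =>
    Ideal.Quotient.eq_zero_iff_mem.2 (hker a ((RingHom.mem_ker).1 ha))
  let φ : k →+* (B ⧸ n) :=
    (Ideal.Quotient.lift (RingHom.ker res) g hg).comp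
      (RingHom.quotientKerEquivOfSurjective hsurj).symm.toRingHom
  have hφ : ∀ a : A₁, φ (res a) = g a := by
    intro a
    have : (RingHom.quotientKerEquivOfSurjective hsurj).symm (res a) =
        Ideal.Quotient.mk (RingHom.ker res) a := by
      rw [RingEquiv.symm_apply_eq]
      rfl
    simp only [φ, RingHom.comp_apply, RingEquiv.toRingHom_eq_coe, RingHom.coe_coe, this,
      Ideal.Quotient.lift_mk]
  let _ : Algebra k (B ⧸ n) := φ.toAlgebra
  have hft : Algebra.FiniteType k (B ⧸ n) := by
    have h1 : g.FiniteType :=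
      (RingHom.FiniteType.of_surjective _ Ideal.Quotient.mk_surjective).comp
        (RingHom.finiteType_algebraMap.2 inferInstance)
    have h2 : (φ.comp res).FiniteType := by
      have : φ.comp res = g := RingHom.ext hφ
      rw [this]; exact h1
    exact RingHom.FiniteType.of_comp_finiteType h2
  have : Module.Finite k (B ⧸ n) := finite_of_finite_type_of_isJacobsonRing _ _
  have hsurj' : Function.Surjective (algebraMap k (B ⧸ n)) :=
    (IsAlgClosed.algebraMap_bijective_of_isIntegral).2
  obtain ⟨cbar, hc⟩ := hsurj' (Ideal.Quotient.mk n b)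
  obtain ⟨c, rfl⟩ := hsurj cbar
  refine ⟨c, ?_⟩
  rw [← Ideal.Quotient.eq_zero_iff_mem, map_sub, ← hc]
  change φ (res c) - _ = 0
  rw [hφ]
  simp [g]

end Residue

/-! ### The special fibre ring at level `M` is not a field -/

section NotField

variable {k Fk : Type*} [Field k] [Field Fk] [Algebra k Fk]

theorem not_isField_integralClosure_adjoin (w : Fk) (hw : Transcendental k w) :
    ¬ IsField ↥(integralClosure (Algebra.adjoin k {w}) Fk) := by
  intro hF
  have hS : IsField ↥(Algebra.adjoin k {w}) :=
    isField_of_isIntegral_of_isField (R := ↥(Algebra.adjoin k {w}))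
      (S := ↥(integralClosure (Algebra.adjoin k {w}) Fk))
      (fun a b hab => Subtype.ext (congrArg (fun z : ↥(integralClosure (Algebra.adjoin k {w}) Fk)
        => (z : Fk)) hab)) hF
  have hP : IsField k[X] :=
    (Fermat.Agent.S24.H97.polyEquiv (K := k) w hw).toMulEquiv.isField hS
  exact Polynomial.not_isField k hP

end NotField

/-! ### L1 for a chart, all side conditions discharged -/

section Chart

variable {A₁ : Type*} [CommRing A₁] [IsDomain A₁] [IsNoetherianRing A₁] [IsIntegrallyClosed A₁]
  {K₁ : Type*} [Field K₁] [Algebra A₁ K₁] [IsFractionRing A₁ K₁]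
  {F : Type*} [Field F] [Algebra A₁ F] [Algebra K₁ F] [IsScalarTower A₁ K₁ F]
  {k Fk : Type*} [Field k] [IsAlgClosed k] [Field Fk] [Algebra k Fk]

/-- **L1 at a closed point of the special fibre of a chart.**  `B = chartB A₁ u` (chart of the
level-`N` curve over `A₁`), `R` the integral closure of `k[w]` in the level-`M` function field
`Fk` of the special fibre; `res : A₁ → k` the residue map, with kernel `(qA)`.  Given the L0
output `TwoComponents`, the local ring `O` of `B` at a maximal ideal `n ∋ q` is described by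
`TwoComponents.local_output`. -/
theorem TwoComponents.local_output_chart
    (u : F) (htr : Transcendental K₁ u) [FiniteDimensional K₁⟮u⟯ F] [Algebra.IsSeparable K₁⟮u⟯ F]
    (w : Fk) (hw : Transcendental k w) [FiniteDimensional k⟮w⟯ Fk] [Algebra.IsSeparable k⟮w⟯ Fk]
    (res : A₁ →+* k) (hsurj : Function.Surjective res) (qA : A₁)
    (hker : ∀ a : A₁, res a = 0 → qA ∣ a)
    {BM : Type*} [CommRing BM]
    {red₁ red₂ : ↥(H40.chartB A₁ u) →+* ↥(integralClosure (Algebra.adjoin k {w}) Fk)}
    {ι V : BM →+* ↥(H40.chartB A₁ u)}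
    {rbar : BM →+* ↥(integralClosure (Algebra.adjoin k {w}) Fk)}
    {W : ↥(integralClosure (Algebra.adjoin k {w}) Fk) →+*
      ↥(integralClosure (Algebra.adjoin k {w}) Fk)} {q : ℕ}
    (h : TwoComponents red₁ red₂ ι V rbar W q (algebraMap A₁ ↥(H40.chartB A₁ u) qA))
    (hq : 2 ≤ q)
    (n : Ideal ↥(H40.chartB A₁ u)) [hn : n.IsMaximal]
    (hqn : algebraMap A₁ ↥(H40.chartB A₁ u) qA ∈ n) :
    (∃ τ : ↥(H40.chartB A₁ u), τ ∈ n ∧
      IsLocalRing.maximalIdeal (Localization.AtPrime n) ≤
        Ideal.span {algebraMap ↥(H40.chartB A₁ u) (Localization.AtPrime n)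
            (algebraMap A₁ ↥(H40.chartB A₁ u) qA),
          algebraMap ↥(H40.chartB A₁ u) (Localization.AtPrime n) τ} ∧
      ∀ g : Localization.AtPrime n,
        ∃ c ∈ (algebraMap A₁ (Localization.AtPrime n)).range, ∃ a r : Localization.AtPrime n,
          g = c + algebraMap ↥(H40.chartB A₁ u) (Localization.AtPrime n) τ * a
            + algebraMap ↥(H40.chartB A₁ u) (Localization.AtPrime n)
              (algebraMap A₁ ↥(H40.chartB A₁ u) qA) * r) ∨
    (∃ x y : ↥(H40.chartB A₁ u), red₁ x = 0 ∧ red₂ y = 0 ∧ x ∈ n ∧ y ∈ n ∧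
      (∃ G : Localization.AtPrime n,
        algebraMap ↥(H40.chartB A₁ u) (Localization.AtPrime n) x
          * algebraMap ↥(H40.chartB A₁ u) (Localization.AtPrime n) y
          = algebraMap ↥(H40.chartB A₁ u) (Localization.AtPrime n)
              (algebraMap A₁ ↥(H40.chartB A₁ u) qA) * G) ∧
      IsLocalRing.maximalIdeal (Localization.AtPrime n) ≤
        Ideal.span {algebraMap ↥(H40.chartB A₁ u) (Localization.AtPrime n)
            (algebraMap A₁ ↥(H40.chartB A₁ u) qA),
          algebraMap ↥(H40.chartB A₁ u) (Localization.AtPrime n) x,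
          algebraMap ↥(H40.chartB A₁ u) (Localization.AtPrime n) y} ∧
      CA.H38.NodeDec (algebraMap A₁ (Localization.AtPrime n)).range
        (algebraMap ↥(H40.chartB A₁ u) (Localization.AtPrime n)
          (algebraMap A₁ ↥(H40.chartB A₁ u) qA))
        (algebraMap ↥(H40.chartB A₁ u) (Localization.AtPrime n) x)
        (algebraMap ↥(H40.chartB A₁ u) (Localization.AtPrime n) y)) := by
  have hDed : IsDedekindDomain ↥(integralClosure (Algebra.adjoin k {w}) Fk) :=
    S18.H97.isDedekindDomain_intRing_of_isSeparable w hw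
  have hft : Algebra.FiniteType A₁ ↥(H40.chartB A₁ u) := finiteType_chartB (K := K₁) u htr
  have hres : ∀ b : ↥(H40.chartB A₁ u), ∃ c : A₁,
      b - algebraMap A₁ ↥(H40.chartB A₁ u) c ∈ n :=
    hres_of_residue res hsurj n fun a ha => by
      obtain ⟨c, rfl⟩ := hker a ha
      rw [map_mul]
      exact Ideal.mul_mem_right _ _ hqn
  exact h.local_output hq (not_isField_integralClosure_adjoin w hw) n hqn
    (Localization.AtPrime n) A₁ hres

/-- **L1 in the exact shape of `H56.local_datum_of_L1`'s hypothesis `hL1`** (elements of the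
local ring `O₁ := Localization.AtPrime n`, the constant `q` pushed from `A₁`). -/
theorem TwoComponents.hL1_chart
    (u : F) (htr : Transcendental K₁ u) [FiniteDimensional K₁⟮u⟯ F] [Algebra.IsSeparable K₁⟮u⟯ F]
    (w : Fk) (hw : Transcendental k w) [FiniteDimensional k⟮w⟯ Fk] [Algebra.IsSeparable k⟮w⟯ Fk]
    (res : A₁ →+* k) (hsurj : Function.Surjective res) (qA : A₁)
    (hker : ∀ a : A₁, res a = 0 → qA ∣ a)
    {BM : Type*} [CommRing BM]
    {red₁ red₂ : ↥(H40.chartB A₁ u) →+* ↥(integralClosure (Algebra.adjoin k {w}) Fk)}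
    {ι V : BM →+* ↥(H40.chartB A₁ u)}
    {rbar : BM →+* ↥(integralClosure (Algebra.adjoin k {w}) Fk)}
    {W : ↥(integralClosure (Algebra.adjoin k {w}) Fk) →+*
      ↥(integralClosure (Algebra.adjoin k {w}) Fk)} {q : ℕ}
    (h : TwoComponents red₁ red₂ ι V rbar W q (algebraMap A₁ ↥(H40.chartB A₁ u) qA))
    (hq : 2 ≤ q)
    (n : Ideal ↥(H40.chartB A₁ u)) [hn : n.IsMaximal]
    (hqn : algebraMap A₁ ↥(H40.chartB A₁ u) qA ∈ n) :
    (∃ τ : Localization.AtPrime n, τ ∈ IsLocalRing.maximalIdeal (Localization.AtPrime n) ∧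
      IsLocalRing.maximalIdeal (Localization.AtPrime n) ≤
        Ideal.span {algebraMap A₁ (Localization.AtPrime n) qA, τ}) ∨
    (∃ x y : Localization.AtPrime n,
      (∃ G, x * y = algebraMap A₁ (Localization.AtPrime n) qA * G) ∧
      x ∈ IsLocalRing.maximalIdeal (Localization.AtPrime n) ∧
      y ∈ IsLocalRing.maximalIdeal (Localization.AtPrime n) ∧
      IsLocalRing.maximalIdeal (Localization.AtPrime n) ≤
        Ideal.span {algebraMap A₁ (Localization.AtPrime n) qA, x, y} ∧
      CA.H38.NodeDec (algebraMap A₁ (Localization.AtPrime n)).range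
        (algebraMap A₁ (Localization.AtPrime n) qA) x y) := by
  have hqO : algebraMap ↥(H40.chartB A₁ u) (Localization.AtPrime n)
      (algebraMap A₁ ↥(H40.chartB A₁ u) qA) = algebraMap A₁ (Localization.AtPrime n) qA :=
    (IsScalarTower.algebraMap_apply A₁ ↥(H40.chartB A₁ u) (Localization.AtPrime n) qA).symm
  have hmem : ∀ z ∈ n, algebraMap ↥(H40.chartB A₁ u) (Localization.AtPrime n) z ∈
      IsLocalRing.maximalIdeal (Localization.AtPrime n) := fun z hz =>
    (IsLocalization.AtPrime.to_map_mem_maximal_iff (Localization.AtPrime n) n z).2 hz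
  rcases h.local_output_chart (K₁ := K₁) u htr w hw res hsurj qA hker hq n hqn with
    ⟨τ, hτ, hmax, -⟩ | ⟨x, y, -, -, hx, hy, hxy, hmax, hdec⟩
  · rw [hqO] at hmax
    exact Or.inl ⟨_, hmem τ hτ, hmax⟩
  · rw [hqO] at hmax hxy hdec
    exact Or.inr ⟨_, _, hxy, hmem x hx, hmem y hy, hmax, hdec⟩

end Chart

end Fermat.Agent.S34.H83
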