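/-
S34 project, row (R-a3b), INSTANCE part 1 (helper70).

The hypotheses `h1 h2 h3 hLD` of helper79's `CA.H79_BaseChangeFibre` (special fibre of the base
change `B ⊗_{A₁} A₂` computed inside a field) at the concrete types of the S34 chain:
`A₁ = H45.A0 A q`, `A₂ = H45.cutOver A E`, `B` a subalgebra of `F1 = modularFunctionFieldFullC K1 N`
(e.g. a chart `H40.chartB A₁ J`), big ring `F_E = modularFunctionFieldFullC ↥E N`.

* `eq_zero_of_sum_coeffMap_mul_single`, `eq_zero_of_sum_map_mul_algebraMap` : linear disjointness of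
  `K((t))` and `E` over `K` inside `E((t))`, coefficientwise (no algebraic-closedness of constants,
  no primitive element);
* `linearIndependent_of_laurent` : the hypothesis `hLD` of `CA.H79` (ring form) in the Laurent model;
* the instance at `A0 / cutOver / fullC`.
-/
import Mathlib
import Fermat.Agent.CA.H79_BaseChangeFibre
import Fermat.Agent.S18.H45_CutOverField
import Fermat.Agent.S18.H40_CechFG

set_option autoImplicit false
set_option linter.unusedSectionVars false
set_option linter.style.haveILetI false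
set_option synthInstance.maxHeartbeats 400000

namespace Fermat.Agent.S34.H70

open ModularCurve HahnSeries

noncomputable section

/-! ### (G) linear disjointness in the Laurent model -/

section Generic

variable {K E : Type*} [Field K] [Field E] [Algebra K E]

/-- Coefficientwise linear disjointness: a `K`-linearly independent family of constants of `E`
stays linearly independent over `K((t))` inside `E((t))`. -/
theorem eq_zero_of_sum_coeffMap_mul_single {r : ℕ} {v : Fin r → E} (hv : LinearIndependent K v)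
    (f : Fin r → LaurentSeries K)
    (h : ∑ l, coeffMap (algebraMap K E) (f l) * HahnSeries.single (0 : ℤ) (v l) = 0)
    (l : Fin r) : f l = 0 := by
  ext n
  have hn := congrArg (fun z : LaurentSeries E => z.coeff n) h
  simp only [HahnSeries.coeff_sum, HahnSeries.coeff_mul_single_zero, coeffMap_coeff,
    HahnSeries.coeff_zero] at hn
  have h0 := Fintype.linearIndependent_iff.mp hv (fun l => (f l).coeff n)
    (by simpa [Algebra.smul_def] using hn)
  simpa using h0 l

/-- The same for intermediate fields `F1 ≤ K((t))`, `FE ≤ E((t))` and a ring homomorphism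
`φ : F1 → FE` which is the coefficientwise base change. -/
theorem eq_zero_of_sum_map_mul_algebraMap (F1 : IntermediateField K (LaurentSeries K))
    (FE : IntermediateField E (LaurentSeries E)) (φ : F1 →+* FE)
    (hφ : ∀ x : F1, ((φ x : FE) : LaurentSeries E) =
      coeffMap (algebraMap K E) (x : LaurentSeries K))
    {r : ℕ} {v : Fin r → E} (hv : LinearIndependent K v) (x : Fin r → F1)
    (h : ∑ l, φ (x l) * algebraMap E FE (v l) = 0) (l : Fin r) : x l = 0 := by
  have h1 := congrArg (fun z : FE => (z : LaurentSeries E)) h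
  simp only [IntermediateField.coe_sum, IntermediateField.coe_mul, hφ,
    IntermediateField.coe_zero] at h1
  have h2 : ∀ l, ((algebraMap E FE (v l) : FE) : LaurentSeries E) =
      HahnSeries.single (0 : ℤ) (v l) := fun l => by
    rw [← algebraMap_laurentSeries_eq_single]
    rfl
  simp only [h2] at h1
  exact Subtype.ext (eq_zero_of_sum_coeffMap_mul_single hv (fun l => (x l : LaurentSeries K)) h1 l)

end Generic

/-! ### the hypothesis `hLD` of `CA.H79_BaseChangeFibre` in the Laurent model -/

section RingForm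

variable {A₁ A₂ B K E : Type*} [CommRing A₁] [CommRing A₂] [Algebra A₁ A₂] [CommRing B]
  [Field K] [Field E] [Algebra K E] [Algebra A₁ K] [IsFractionRing A₁ K]
  [Algebra A₁ E] [Algebra A₂ E] [IsScalarTower A₁ A₂ E] [IsScalarTower A₁ K E]

/-- **`hLD` in the Laurent model** (ring form of `CA.H79.dvd_of_eq_mul_sum`): `A₁`-linearly
independent families of `A₂ ⊆ E` stay `B`-linearly independent in `FE ≤ E((t))`, for any ring `B`
mapping injectively to `F1 ≤ K((t))`, `K = Frac A₁`. -/
theorem linearIndependent_of_laurent (hinj : Function.Injective (algebraMap A₂ E))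
    (F1 : IntermediateField K (LaurentSeries K)) (FE : IntermediateField E (LaurentSeries E))
    (φ : F1 →+* FE)
    (hφ : ∀ x : F1, ((φ x : FE) : LaurentSeries E) =
      coeffMap (algebraMap K E) (x : LaurentSeries K))
    [Algebra B FE] [Algebra A₂ FE]
    (hA₂ : ∀ a : A₂, algebraMap A₂ FE a = algebraMap E FE (algebraMap A₂ E a))
    (ιB : B →+* F1) (hιB : Function.Injective ιB) (hB : ∀ b : B, algebraMap B FE b = φ (ιB b))
    (r : ℕ) (m : Fin r → A₂) (hm : LinearIndependent A₁ m) :
    LinearIndependent B (fun l => algebraMap A₂ FE (m l)) := by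
  have h1 : LinearIndependent A₁ (fun l => algebraMap A₂ E (m l)) :=
    hm.map' (IsScalarTower.toAlgHom A₁ A₂ E).toLinearMap
      (LinearMap.ker_eq_bot.mpr hinj)
  have h2 : LinearIndependent K (fun l => algebraMap A₂ E (m l)) :=
    (LinearIndependent.iff_fractionRing A₁ K).mp h1
  rw [Fintype.linearIndependent_iff]
  intro g hg l
  have h3 : ∑ l, φ (ιB (g l)) * algebraMap E FE (algebraMap A₂ E (m l)) = 0 := by
    rw [← hg]
    refine Finset.sum_congr rfl fun l _ => ?_
    rw [Algebra.smul_def, hB, hA₂]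
  exact hιB (by
    rw [eq_zero_of_sum_map_mul_algebraMap F1 FE φ hφ h2 (fun l => ιB (g l)) h3 l, map_zero])

end RingForm

/-! ### (I) the instance at `A0 / cutOver / fullC` -/

section Concrete

open IsLocalRing Fermat.Agent.S18

local notation "Qbar" => AlgebraicClosure ℚ

variable {A : ValuationSubring Qbar} {q : ℕ} (hq : q.Prime) (hA : A.LiesOverPrime q)
variable (E : IntermediateField (H45.unrCyclo q) Qbar) (N : ℕ) [NeZero N]

/-- `F_E = modularFunctionFieldFullC ↥E N` as an `A₁ = A0 A q`-algebra, through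
`A₁ → K1 → E → F_E`.  (Not found by instance synthesis; use with `letI`.) -/
@[reducible] def algA0FE :
    Algebra ↥(H45.A0 A q) ↥(modularFunctionFieldFullC ↥E N) :=
  ((algebraMap ↥E ↥(modularFunctionFieldFullC ↥E N)).comp
    ((algebraMap ↥(H45.unrCyclo q) ↥E).comp
      (algebraMap ↥(H45.A0 A q) ↥(H45.unrCyclo q)))).toAlgebra

/-- `F_E` as an algebra over a subalgebra `B` of `F1 = modularFunctionFieldFullC K1 N`, through
the coefficientwise base change `H45.baseChangeE`. -/
@[reducible] def algSubFE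
    (B : Subalgebra ↥(H45.A0 A q) ↥(modularFunctionFieldFullC ↥(H45.unrCyclo q) N)) :
    Algebra ↥B ↥(modularFunctionFieldFullC ↥E N) :=
  ((H45.baseChangeE E N).comp B.val.toRingHom).toAlgebra

set_option maxHeartbeats 1600000 in
theorem isScalarTower_A0_cutOver_FE :
    letI := algA0FE (A := A) E N
    IsScalarTower ↥(H45.A0 A q) ↥(H45.cutOver A E) ↥(modularFunctionFieldFullC ↥E N) := by
  letI := algA0FE (A := A) E N
  exact IsScalarTower.of_algebraMap_eq fun _ => rfl

set_option maxHeartbeats 1600000 in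
theorem isScalarTower_A0_sub_FE
    (B : Subalgebra ↥(H45.A0 A q) ↥(modularFunctionFieldFullC ↥(H45.unrCyclo q) N)) :
    letI := algA0FE (A := A) E N
    letI := algSubFE (A := A) E N B
    IsScalarTower ↥(H45.A0 A q) ↥B ↥(modularFunctionFieldFullC ↥E N) := by
  letI := algA0FE (A := A) E N
  letI := algSubFE (A := A) E N B
  refine IsScalarTower.of_algebraMap_eq fun a => ?_
  exact (H45.baseChangeE_algebraMap E N (a : ↥(H45.unrCyclo q))).symm

include hq hA in
/-- `h1` of `CA.H79`: `A'' = A₁ + π A''`. -/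
theorem h1_inst (π : ↥(H45.cutOver A E))
    (hπ : maximalIdeal ↥(H45.cutOver A E) = Ideal.span {π}) (a : ↥(H45.cutOver A E)) :
    ∃ c : ↥(H45.A0 A q), ∃ a' : ↥(H45.cutOver A E),
      a = algebraMap ↥(H45.A0 A q) ↥(H45.cutOver A E) c + π * a' := by
  obtain ⟨c, hc⟩ := H45.exists_A0_sub_mem hq hA E a
  rw [hπ, Ideal.mem_span_singleton] at hc
  obtain ⟨a', ha'⟩ := hc
  refine ⟨c, a', ?_⟩
  rw [← ha']
  show a = H45.inclA0CutOver A E c + (a - H45.inclA0CutOver A E c)
  ring

include hq hA in
/-- `h2` of `CA.H79`: `π A'' ∩ A₁ = q A₁`. -/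
theorem h2_inst (π : ↥(H45.cutOver A E))
    (hπ : maximalIdeal ↥(H45.cutOver A E) = Ideal.span {π}) (c : ↥(H45.A0 A q))
    (hc : π ∣ algebraMap ↥(H45.A0 A q) ↥(H45.cutOver A E) c) :
    ((q : ℕ) : ↥(H45.A0 A q)) ∣ c := by
  have h1 : algebraMap ↥(H45.A0 A q) ↥(H45.cutOver A E) c ∈ maximalIdeal ↥(H45.cutOver A E) := by
    rw [hπ, Ideal.mem_span_singleton]
    exact hc
  have h2 : c ∈ maximalIdeal ↥(H45.A0 A q) := by
    rw [mem_maximalIdeal, mem_nonunits_iff] at h1 ⊢
    exact fun hu => h1 (hu.map _)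
  rw [H45.maximalIdeal_A0_eq hq hA, Ideal.mem_span_singleton] at h2
  exact h2

include hq hA in
/-- `h3` of `CA.H79`: `π ∣ q`. -/
theorem h3_inst (π : ↥(H45.cutOver A E))
    (hπ : maximalIdeal ↥(H45.cutOver A E) = Ideal.span {π}) :
    π ∣ algebraMap ↥(H45.A0 A q) ↥(H45.cutOver A E) ((q : ℕ) : ↥(H45.A0 A q)) := by
  rw [map_natCast, ← Ideal.mem_span_singleton, ← hπ]
  exact H45.natCast_mem_maximalIdeal_cutOver hq hA E

set_option maxHeartbeats 1600000 in
/-- `hLD` of `CA.H79` at the concrete types: linear disjointness of `F1` and `E` over `K1`,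
ring form, for ANY subalgebra `B` of `F1` (e.g. a chart). -/
theorem hLD_inst
    (B : Subalgebra ↥(H45.A0 A q) ↥(modularFunctionFieldFullC ↥(H45.unrCyclo q) N))
    (r : ℕ) (m : Fin r → ↥(H45.cutOver A E)) (hm : LinearIndependent ↥(H45.A0 A q) m) :
    letI := algSubFE (A := A) E N B
    LinearIndependent ↥B
      (fun l => algebraMap ↥(H45.cutOver A E) ↥(modularFunctionFieldFullC ↥E N) (m l)) := by
  letI := algSubFE (A := A) E N B
  have hinj : Function.Injective (algebraMap ↥(H45.cutOver A E) ↥E) := Subtype.val_injective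
  have hφ : ∀ x : ↥(modularFunctionFieldFullC ↥(H45.unrCyclo q) N),
      ((H45.baseChangeE E N x : ↥(modularFunctionFieldFullC ↥E N)) : LaurentSeries ↥E) =
        coeffMap (algebraMap ↥(H45.unrCyclo q) ↥E) (x : LaurentSeries ↥(H45.unrCyclo q)) :=
    fun _ => rfl
  have hA₂ : ∀ a : ↥(H45.cutOver A E),
      algebraMap ↥(H45.cutOver A E) ↥(modularFunctionFieldFullC ↥E N) a =
        algebraMap ↥E ↥(modularFunctionFieldFullC ↥E N)
          (algebraMap ↥(H45.cutOver A E) ↥E a) := fun _ => rfl
  have hιB : Function.Injective (B.val.toRingHom) := Subtype.val_injective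
  have hB : ∀ b : ↥B, algebraMap ↥B ↥(modularFunctionFieldFullC ↥E N) b =
      H45.baseChangeE E N (B.val.toRingHom b) := fun _ => rfl
  exact linearIndependent_of_laurent (A₁ := ↥(H45.A0 A q)) (A₂ := ↥(H45.cutOver A E)) (B := ↥B)
    (K := ↥(H45.unrCyclo q)) (E := ↥E) hinj
    (modularFunctionFieldFullC ↥(H45.unrCyclo q) N) (modularFunctionFieldFullC ↥E N)
    (H45.baseChangeE E N) hφ hA₂ B.val.toRingHom hιB hB r m hm

/-! ### `CA.H79_BaseChangeFibre` at the concrete types -/

open Fermat.Agent.CA in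
set_option maxHeartbeats 3200000 in
include hq hA in
/-- **`B ∩ π''·R = qB` at the concrete types** (`R = B·A''` the ring generated by `B` and
`A'' = cutOver A E` inside `F_E`): the kernel of `B → R/π''R` is `qB`. -/
theorem dvd_of_eq_mul_of_mem_genRing_inst
    (B : Subalgebra ↥(H45.A0 A q) ↥(modularFunctionFieldFullC ↥(H45.unrCyclo q) N))
    (π : ↥(H45.cutOver A E)) (hπ : maximalIdeal ↥(H45.cutOver A E) = Ideal.span {π})
    (b : ↥B) {r : ↥(modularFunctionFieldFullC ↥E N)} :
    letI := algA0FE (A := A) E N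
    letI := algSubFE (A := A) E N B
    r ∈ H79.genRing ↥(H45.cutOver A E) ↥B ↥(modularFunctionFieldFullC ↥E N) →
    algebraMap ↥B ↥(modularFunctionFieldFullC ↥E N) b =
      algebraMap ↥(H45.cutOver A E) ↥(modularFunctionFieldFullC ↥E N) π * r →
    algebraMap ↥(H45.A0 A q) ↥B ((q : ℕ) : ↥(H45.A0 A q)) ∣ b := by
  letI := algA0FE (A := A) E N
  letI := algSubFE (A := A) E N B
  haveI := isScalarTower_A0_cutOver_FE (A := A) (q := q) E N
  haveI := isScalarTower_A0_sub_FE (A := A) (q := q) E N B
  haveI := H45.isDiscreteValuationRing_A0 hq hA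
  intro hr h
  exact H79.dvd_of_eq_mul_of_mem_genRing (E := ↥(modularFunctionFieldFullC ↥E N))
    ((q : ℕ) : ↥(H45.A0 A q)) π
    (h1_inst hq hA E π hπ) (h2_inst hq hA E π hπ) (hLD_inst (A := A) (q := q) E N B) b hr h

open Fermat.Agent.CA in
set_option maxHeartbeats 3200000 in
include hq hA in
/-- **`n'' = (n, π'')` is maximal at the concrete types.** -/
theorem isMaximal_extIdeal_inst
    (B : Subalgebra ↥(H45.A0 A q) ↥(modularFunctionFieldFullC ↥(H45.unrCyclo q) N))
    (π : ↥(H45.cutOver A E)) (hπ : maximalIdeal ↥(H45.cutOver A E) = Ideal.span {π})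
    (n : Ideal ↥B) [n.IsMaximal]
    (hqn : algebraMap ↥(H45.A0 A q) ↥B ((q : ℕ) : ↥(H45.A0 A q)) ∈ n) :
    letI := algA0FE (A := A) E N
    letI := algSubFE (A := A) E N B
    (H79.extIdeal ↥(modularFunctionFieldFullC ↥E N) π n).IsMaximal := by
  letI := algA0FE (A := A) E N
  letI := algSubFE (A := A) E N B
  haveI := isScalarTower_A0_cutOver_FE (A := A) (q := q) E N
  haveI := isScalarTower_A0_sub_FE (A := A) (q := q) E N B
  haveI := H45.isDiscreteValuationRing_A0 hq hA
  exact H79.isMaximal_extIdeal (E := ↥(modularFunctionFieldFullC ↥E N))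
    ((q : ℕ) : ↥(H45.A0 A q)) π
    (h1_inst hq hA E π hπ) (h2_inst hq hA E π hπ) (hLD_inst (A := A) (q := q) E N B) n hqn

end Concrete

end

end Fermat.Agent.S34.H70
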