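/-
S34 project, row (R-a3b), INSTANCE layer (helper70): the remaining local `Algebra` / `IsScalarTower`
terms of the tower `A₁ → K1 → F1 → F_E ← E ← A''` at the concrete types, completing
`H70_BaseChangeInst` (`algA0FE`, `algSubFE`) to the whole binder block of helper79's
`CA.H79_BaseChangeNormal` (`[Algebra F₁ E] [Algebra K₁ E] [IsScalarTower B F₁ E]
[IsScalarTower K₁ F₁ E] [IsScalarTower A₁ K₁ E]`).  All `@[reducible] def`s: use with `letI`.
-/
import Mathlib
import Fermat.Agent.S34.H70_BaseChangeInst

set_option autoImplicit false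
set_option linter.unusedSectionVars false
set_option linter.style.haveILetI false
set_option synthInstance.maxHeartbeats 400000

namespace Fermat.Agent.S34.H70

open ModularCurve HahnSeries IsLocalRing Fermat.Agent.S18

noncomputable section

local notation "Qbar" => AlgebraicClosure ℚ

variable {A : ValuationSubring Qbar} {q : ℕ}
variable (E : IntermediateField (H45.unrCyclo q) Qbar) (N : ℕ) [NeZero N]

/-- `F_E` as an `F1`-algebra through the coefficientwise base change. -/
@[reducible] def algF1FE :
    Algebra ↥(modularFunctionFieldFullC ↥(H45.unrCyclo q) N) ↥(modularFunctionFieldFullC ↥E N) :=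
  (H45.baseChangeE E N).toAlgebra

/-- `F_E` as a `K1`-algebra through `K1 → E → F_E`. -/
@[reducible] def algK1FE :
    Algebra ↥(H45.unrCyclo q) ↥(modularFunctionFieldFullC ↥E N) :=
  ((algebraMap ↥E ↥(modularFunctionFieldFullC ↥E N)).comp
    (algebraMap ↥(H45.unrCyclo q) ↥E)).toAlgebra

set_option maxHeartbeats 1600000 in
theorem isScalarTower_K1_F1_FE :
    letI := algF1FE (q := q) E N
    letI := algK1FE (q := q) E N
    IsScalarTower ↥(H45.unrCyclo q) ↥(modularFunctionFieldFullC ↥(H45.unrCyclo q) N)
      ↥(modularFunctionFieldFullC ↥E N) := by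
  letI := algF1FE (q := q) E N
  letI := algK1FE (q := q) E N
  refine IsScalarTower.of_algebraMap_eq fun c => ?_
  exact (H45.baseChangeE_algebraMap E N c).symm

set_option maxHeartbeats 1600000 in
theorem isScalarTower_K1_E_FE :
    letI := algK1FE (q := q) E N
    IsScalarTower ↥(H45.unrCyclo q) ↥E ↥(modularFunctionFieldFullC ↥E N) := by
  letI := algK1FE (q := q) E N
  exact IsScalarTower.of_algebraMap_eq fun _ => rfl

set_option maxHeartbeats 1600000 in
theorem isScalarTower_A0_K1_FE :
    letI := algA0FE (A := A) E N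
    letI := algK1FE (q := q) E N
    IsScalarTower ↥(H45.A0 A q) ↥(H45.unrCyclo q) ↥(modularFunctionFieldFullC ↥E N) := by
  letI := algA0FE (A := A) E N
  letI := algK1FE (q := q) E N
  exact IsScalarTower.of_algebraMap_eq fun _ => rfl

set_option maxHeartbeats 1600000 in
theorem isScalarTower_sub_F1_FE
    (B : Subalgebra ↥(H45.A0 A q) ↥(modularFunctionFieldFullC ↥(H45.unrCyclo q) N)) :
    letI := algF1FE (q := q) E N
    letI := algSubFE (A := A) E N B
    IsScalarTower ↥B ↥(modularFunctionFieldFullC ↥(H45.unrCyclo q) N)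
      ↥(modularFunctionFieldFullC ↥E N) := by
  letI := algF1FE (q := q) E N
  letI := algSubFE (A := A) E N B
  exact IsScalarTower.of_algebraMap_eq fun _ => rfl

set_option maxHeartbeats 1600000 in
theorem isScalarTower_A0_F1_FE :
    letI := algA0FE (A := A) E N
    letI := algF1FE (q := q) E N
    IsScalarTower ↥(H45.A0 A q) ↥(modularFunctionFieldFullC ↥(H45.unrCyclo q) N)
      ↥(modularFunctionFieldFullC ↥E N) := by
  letI := algA0FE (A := A) E N
  letI := algF1FE (q := q) E N
  refine IsScalarTower.of_algebraMap_eq fun a => ?_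
  exact (H45.baseChangeE_algebraMap E N (a : ↥(H45.unrCyclo q))).symm

set_option maxHeartbeats 1600000 in
theorem isScalarTower_A0_E_FE :
    letI := algA0FE (A := A) E N
    IsScalarTower ↥(H45.A0 A q) ↥E ↥(modularFunctionFieldFullC ↥E N) := by
  letI := algA0FE (A := A) E N
  exact IsScalarTower.of_algebraMap_eq fun _ => rfl

theorem algebraMap_F1_FE_apply (x : ↥(modularFunctionFieldFullC ↥(H45.unrCyclo q) N)) :
    letI := algF1FE (q := q) E N
    algebraMap ↥(modularFunctionFieldFullC ↥(H45.unrCyclo q) N)
      ↥(modularFunctionFieldFullC ↥E N) x = H45.baseChangeE E N x := rfl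

theorem algebraMap_sub_FE_apply
    (B : Subalgebra ↥(H45.A0 A q) ↥(modularFunctionFieldFullC ↥(H45.unrCyclo q) N)) (b : ↥B) :
    letI := algSubFE (A := A) E N B
    algebraMap ↥B ↥(modularFunctionFieldFullC ↥E N) b =
      H45.baseChangeE E N (b : ↥(modularFunctionFieldFullC ↥(H45.unrCyclo q) N)) := rfl

end

end Fermat.Agent.S34.H70
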