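/-
S34 project, row (R-a3b) -> `H61.ChartPkg` glue (helper70).

* generic: from `hgenR : Algebra.adjoin B₁ (range (algebraMap R B)) = ⊤` (the chart over `A''` is
  generated by the chart over `A₁` and `A''`) and `h1 : A'' = A₁ + π A''`:
  `B = B₁ + πB`, the fields `hnn`, `hmax` of `H61.ChartPkg`;
* concrete: the ring homomorphism `chartB A₁ J → chartB A'' (baseChangeE J)` and its compatibilities
  (`hcomp`), and `hgenR` from the set-level description of `chartB A'' J` (helper40's (a)').
-/
import Mathlib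
import Fermat.Agent.S34.H70_BaseChangeLayer

set_option autoImplicit false
set_option linter.unusedSectionVars false
set_option linter.style.haveILetI false
set_option synthInstance.maxHeartbeats 400000

namespace Fermat.Agent.S34.H70

open ModularCurve HahnSeries IsLocalRing Fermat.Agent.S18

noncomputable section

/-! ### generic: consequences of `B = B₁·A''` -/

section Generic

variable {A₁ R B₁ B : Type*} [CommRing A₁] [CommRing R] [CommRing B₁] [CommRing B]
  [Algebra A₁ R] [Algebra A₁ B₁] [Algebra R B] [Algebra B₁ B]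

/-- `B = B₁ + πB` when `B` is generated by `B₁` and `R`, and `R = A₁ + πR`. -/
theorem exists_add_mul_of_adjoin_eq_top (π : R)
    (hcomp : ∀ a : A₁, algebraMap B₁ B (algebraMap A₁ B₁ a) = algebraMap R B (algebraMap A₁ R a))
    (h1 : ∀ a : R, ∃ c : A₁, ∃ a' : R, a = algebraMap A₁ R c + π * a')
    (hgenR : Algebra.adjoin B₁ (Set.range (algebraMap R B)) = ⊤) (z : B) :
    ∃ b : B₁, ∃ z' : B, z = algebraMap B₁ B b + algebraMap R B π * z' := by
  have hz : z ∈ Algebra.adjoin B₁ (Set.range (algebraMap R B)) := by rw [hgenR]; trivial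
  induction hz using Algebra.adjoin_induction with
  | mem x hx =>
      obtain ⟨a, rfl⟩ := hx
      obtain ⟨c, a', rfl⟩ := h1 a
      exact ⟨algebraMap A₁ B₁ c, algebraMap R B a', by rw [map_add, map_mul, hcomp]⟩
  | algebraMap b => exact ⟨b, 0, by rw [mul_zero, add_zero]⟩
  | add x y _ _ hx hy =>
      obtain ⟨b, x', rfl⟩ := hx
      obtain ⟨c, y', rfl⟩ := hy
      exact ⟨b + c, x' + y', by rw [map_add]; ring⟩
  | mul x y _ _ hx hy =>
      obtain ⟨b, x', rfl⟩ := hx
      obtain ⟨c, y', rfl⟩ := hy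
      exact ⟨b * c, algebraMap B₁ B b * y' + x' * algebraMap B₁ B c +
        algebraMap R B π * x' * y', by rw [map_mul]; ring⟩

/-- Field `hnn` of `H61.ChartPkg`: every ideal of `B` through `π` is `(n ∩ B₁, π)`. -/
theorem le_map_comap_sup_span (π : R)
    (hcomp : ∀ a : A₁, algebraMap B₁ B (algebraMap A₁ B₁ a) = algebraMap R B (algebraMap A₁ R a))
    (h1 : ∀ a : R, ∃ c : A₁, ∃ a' : R, a = algebraMap A₁ R c + π * a')
    (hgenR : Algebra.adjoin B₁ (Set.range (algebraMap R B)) = ⊤)
    (n : Ideal B) (hπn : algebraMap R B π ∈ n) :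
    n ≤ Ideal.map (algebraMap B₁ B) (n.comap (algebraMap B₁ B)) ⊔
      Ideal.span {algebraMap R B π} := by
  intro z hz
  obtain ⟨b, z', rfl⟩ := exists_add_mul_of_adjoin_eq_top π hcomp h1 hgenR z
  have hb : algebraMap B₁ B b ∈ n := by
    have := n.sub_mem hz (n.mul_mem_right z' hπn)
    rwa [add_sub_cancel_right] at this
  exact Ideal.add_mem _ (Ideal.mem_sup_left (Ideal.mem_map_of_mem _ (Ideal.mem_comap.mpr hb)))
    (Ideal.mem_sup_right (Ideal.mul_mem_right _ _ (Ideal.mem_span_singleton_self _)))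

/-- Field `hmax` of `H61.ChartPkg`: the contraction to `B₁` of a maximal ideal through `π` is
maximal (`B₁/n₁ = B/n`). -/
theorem isMaximal_comap_of_adjoin_eq_top (π : R)
    (hcomp : ∀ a : A₁, algebraMap B₁ B (algebraMap A₁ B₁ a) = algebraMap R B (algebraMap A₁ R a))
    (h1 : ∀ a : R, ∃ c : A₁, ∃ a' : R, a = algebraMap A₁ R c + π * a')
    (hgenR : Algebra.adjoin B₁ (Set.range (algebraMap R B)) = ⊤)
    (n : Ideal B) [hn : n.IsMaximal] (hπn : algebraMap R B π ∈ n) :
    (n.comap (algebraMap B₁ B)).IsMaximal := by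
  set f : B₁ →+* B ⧸ n := (Ideal.Quotient.mk n).comp (algebraMap B₁ B) with hf
  have hsurj : Function.Surjective f := by
    intro x
    obtain ⟨z, rfl⟩ := Ideal.Quotient.mk_surjective x
    obtain ⟨b, z', rfl⟩ := exists_add_mul_of_adjoin_eq_top π hcomp h1 hgenR z
    refine ⟨b, ?_⟩
    rw [hf, RingHom.comp_apply, Ideal.Quotient.eq]
    have : algebraMap B₁ B b - (algebraMap B₁ B b + algebraMap R B π * z') =
        algebraMap R B π * (-z') := by ring
    rw [this]
    exact n.mul_mem_right _ hπn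
  have hker : RingHom.ker f = n.comap (algebraMap B₁ B) := by
    ext b
    rw [RingHom.mem_ker, hf, RingHom.comp_apply, Ideal.Quotient.eq_zero_iff_mem, Ideal.mem_comap]
  rw [← hker]
  letI : Field (B ⧸ n) := Ideal.Quotient.field n
  exact RingHom.ker_isMaximal_of_surjective f hsurj

/-- A subalgebra `S` of `FE` all of whose elements lie in the subring generated by the image of a
ring `B₁` (mapping into `S`) and the constants `R` is generated, as a `B₁`-algebra, by `R`. -/
theorem adjoin_eq_top_of_forall_mem_closure {R' B' FE : Type*} [CommRing R'] [CommRing B']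
    [CommRing FE] [Algebra R' FE] (S : Subalgebra R' FE) (φ : B' →+* FE) (hφ : ∀ b, φ b ∈ S)
    (hS : ∀ z : FE, z ∈ S → z ∈ Subring.closure (Set.range φ ∪ Set.range (algebraMap R' FE))) :
    letI : Algebra B' ↥S := (φ.codRestrict S hφ).toAlgebra
    Algebra.adjoin B' (Set.range (algebraMap R' ↥S)) = ⊤ := by
  letI : Algebra B' ↥S := (φ.codRestrict S hφ).toAlgebra
  rw [eq_top_iff]
  rintro ⟨z, hz⟩ -
  have key : ∀ y ∈ Subring.closure (Set.range φ ∪ Set.range (algebraMap R' FE)),
      ∃ hy : y ∈ S, (⟨y, hy⟩ : ↥S) ∈ Algebra.adjoin B' (Set.range (algebraMap R' ↥S)) := by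
    intro y hy
    induction hy using Subring.closure_induction with
    | mem x hx =>
        rcases hx with ⟨b, rfl⟩ | ⟨a, rfl⟩
        · exact ⟨hφ b, Subalgebra.algebraMap_mem _ b⟩
        · exact ⟨Subalgebra.algebraMap_mem _ a, Algebra.subset_adjoin ⟨a, rfl⟩⟩
    | zero => exact ⟨zero_mem _, zero_mem _⟩
    | one => exact ⟨one_mem _, one_mem _⟩
    | add x y _ _ hx hy =>
        obtain ⟨hx1, hx2⟩ := hx
        obtain ⟨hy1, hy2⟩ := hy
        exact ⟨add_mem hx1 hy1, add_mem hx2 hy2⟩
    | neg x _ hx =>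
        obtain ⟨hx1, hx2⟩ := hx
        exact ⟨neg_mem hx1, neg_mem hx2⟩
    | mul x y _ _ hx hy =>
        obtain ⟨hx1, hx2⟩ := hx
        obtain ⟨hy1, hy2⟩ := hy
        exact ⟨mul_mem hx1 hy1, mul_mem hx2 hy2⟩
  obtain ⟨_, h⟩ := key z (hS z hz)
  exact h

end Generic

/-! ### concrete: the map of charts `chartB A₁ J → chartB A'' (baseChangeE J)` -/

section Concrete

local notation "Qbar" => AlgebraicClosure ℚ

variable {A : ValuationSubring Qbar} {q : ℕ}
variable (E : IntermediateField (H45.unrCyclo q) Qbar) (N : ℕ) [NeZero N]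

set_option maxHeartbeats 1600000 in
/-- Constants: `baseChangeE` on the image of `A₁` is the image of `A₁ → A''`. -/
theorem baseChangeE_algebraMap_A0 (a : ↥(H45.A0 A q)) :
    H45.baseChangeE E N
        (algebraMap ↥(H45.A0 A q) ↥(modularFunctionFieldFullC ↥(H45.unrCyclo q) N) a) =
      algebraMap ↥(H45.cutOver A E) ↥(modularFunctionFieldFullC ↥E N)
        (algebraMap ↥(H45.A0 A q) ↥(H45.cutOver A E) a) :=
  H45.baseChangeE_algebraMap E N (a : ↥(H45.unrCyclo q))

set_option maxHeartbeats 1600000 in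
/-- `baseChangeE` maps `A₁[J]` into `A''[baseChangeE J]`. -/
theorem baseChangeE_mem_adjoin (J : ↥(modularFunctionFieldFullC ↥(H45.unrCyclo q) N))
    {x : ↥(modularFunctionFieldFullC ↥(H45.unrCyclo q) N)}
    (hx : x ∈ Algebra.adjoin ↥(H45.A0 A q) {J}) :
    H45.baseChangeE E N x ∈ Algebra.adjoin ↥(H45.cutOver A E) {H45.baseChangeE E N J} := by
  induction hx using Algebra.adjoin_induction with
  | mem y hy =>
      rw [Set.mem_singleton_iff] at hy
      rw [hy]
      exact Algebra.subset_adjoin (Set.mem_singleton _)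
  | algebraMap a =>
      rw [baseChangeE_algebraMap_A0]
      exact Subalgebra.algebraMap_mem _ _
  | add y z _ _ hy hz => rw [map_add]; exact add_mem hy hz
  | mul y z _ _ hy hz => rw [map_mul]; exact mul_mem hy hz

/-- `baseChangeE` restricted to `A₁[J] → A''[baseChangeE J]`. -/
def adjoinMapE (J : ↥(modularFunctionFieldFullC ↥(H45.unrCyclo q) N)) :
    ↥(Algebra.adjoin ↥(H45.A0 A q) {J}) →+*
      ↥(Algebra.adjoin ↥(H45.cutOver A E) {H45.baseChangeE E N J}) :=
  ((H45.baseChangeE E N).comp (Algebra.adjoin ↥(H45.A0 A q) {J}).val.toRingHom).codRestrict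
    (Algebra.adjoin ↥(H45.cutOver A E) {H45.baseChangeE E N J})
    (fun x => baseChangeE_mem_adjoin (A := A) E N J x.2)

set_option maxHeartbeats 1600000 in
/-- `baseChangeE` maps the chart over `A₁` into the chart over `A''`. -/
theorem baseChangeE_mem_chartB (J : ↥(modularFunctionFieldFullC ↥(H45.unrCyclo q) N))
    {x : ↥(modularFunctionFieldFullC ↥(H45.unrCyclo q) N)}
    (hx : x ∈ H40.chartB ↥(H45.A0 A q) J) :
    H45.baseChangeE E N x ∈ H40.chartB ↥(H45.cutOver A E) (H45.baseChangeE E N J) := by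
  rw [H40.mem_chartB] at hx ⊢
  exact IsIntegral.map_of_comp_eq (adjoinMapE (A := A) E N J) (H45.baseChangeE E N)
    (RingHom.ext fun _ => rfl) hx

/-- The ring homomorphism of charts `chartB A₁ J → chartB A'' (baseChangeE J)`. -/
def chartMapE (J : ↥(modularFunctionFieldFullC ↥(H45.unrCyclo q) N)) :
    ↥(H40.chartB ↥(H45.A0 A q) J) →+*
      ↥(H40.chartB ↥(H45.cutOver A E) (H45.baseChangeE E N J)) :=
  ((H45.baseChangeE E N).comp (H40.chartB ↥(H45.A0 A q) J).val.toRingHom).codRestrict
    (H40.chartB ↥(H45.cutOver A E) (H45.baseChangeE E N J))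
    (fun x => baseChangeE_mem_chartB (A := A) E N J x.2)

@[simp] theorem coe_chartMapE (J : ↥(modularFunctionFieldFullC ↥(H45.unrCyclo q) N))
    (x : ↥(H40.chartB ↥(H45.A0 A q) J)) :
    ((chartMapE (A := A) E N J x : ↥(H40.chartB ↥(H45.cutOver A E) (H45.baseChangeE E N J))) :
      ↥(modularFunctionFieldFullC ↥E N)) =
      H45.baseChangeE E N (x : ↥(modularFunctionFieldFullC ↥(H45.unrCyclo q) N)) := rfl

theorem chartMapE_injective (J : ↥(modularFunctionFieldFullC ↥(H45.unrCyclo q) N)) :
    Function.Injective (chartMapE (A := A) E N J) := by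
  intro x y hxy
  have := congrArg (fun z : ↥(H40.chartB ↥(H45.cutOver A E) (H45.baseChangeE E N J)) =>
    (z : ↥(modularFunctionFieldFullC ↥E N))) hxy
  simp only [coe_chartMapE] at this
  exact Subtype.ext (H45.baseChangeE_injective E N this)

/-- The chart over `A''` as an algebra over the chart over `A₁` (use with `letI`). -/
@[reducible] def algChartE (J : ↥(modularFunctionFieldFullC ↥(H45.unrCyclo q) N)) :
    Algebra ↥(H40.chartB ↥(H45.A0 A q) J)
      ↥(H40.chartB ↥(H45.cutOver A E) (H45.baseChangeE E N J)) :=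
  (chartMapE (A := A) E N J).toAlgebra

set_option maxHeartbeats 1600000 in
/-- Field `hcomp` of `H61.ChartPkg` at the concrete types. -/
theorem hcomp_inst (J : ↥(modularFunctionFieldFullC ↥(H45.unrCyclo q) N)) (a : ↥(H45.A0 A q)) :
    letI := algChartE (A := A) E N J
    algebraMap ↥(H40.chartB ↥(H45.A0 A q) J)
        ↥(H40.chartB ↥(H45.cutOver A E) (H45.baseChangeE E N J))
        (algebraMap ↥(H45.A0 A q) ↥(H40.chartB ↥(H45.A0 A q) J) a) =
      algebraMap ↥(H45.cutOver A E) ↥(H40.chartB ↥(H45.cutOver A E) (H45.baseChangeE E N J))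
        (algebraMap ↥(H45.A0 A q) ↥(H45.cutOver A E) a) := by
  letI := algChartE (A := A) E N J
  apply Subtype.ext
  exact baseChangeE_algebraMap_A0 (A := A) E N a

set_option maxHeartbeats 1600000 in
/-- Field `hgenR` of `H61.ChartPkg` from the set-level description of the chart over `A''`
(helper40's (a)'): `chartB A'' J` is generated by the image of `chartB A₁ J` and `A''`. -/
theorem hgenR_of_forall_mem_closure (J : ↥(modularFunctionFieldFullC ↥(H45.unrCyclo q) N))
    (hS : ∀ z : ↥(modularFunctionFieldFullC ↥E N),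
      z ∈ H40.chartB ↥(H45.cutOver A E) (H45.baseChangeE E N J) →
      z ∈ Subring.closure
        (Set.range (fun b : ↥(H40.chartB ↥(H45.A0 A q) J) =>
            H45.baseChangeE E N (b : ↥(modularFunctionFieldFullC ↥(H45.unrCyclo q) N))) ∪
          Set.range (algebraMap ↥(H45.cutOver A E) ↥(modularFunctionFieldFullC ↥E N)))) :
    letI := algChartE (A := A) E N J
    Algebra.adjoin ↥(H40.chartB ↥(H45.A0 A q) J)
      (Set.range (algebraMap ↥(H45.cutOver A E)
        ↥(H40.chartB ↥(H45.cutOver A E) (H45.baseChangeE E N J)))) = ⊤ := by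
  exact adjoin_eq_top_of_forall_mem_closure
    (H40.chartB ↥(H45.cutOver A E) (H45.baseChangeE E N J))
    ((H45.baseChangeE E N).comp (H40.chartB ↥(H45.A0 A q) J).val.toRingHom)
    (fun x => baseChangeE_mem_chartB (A := A) E N J x.2) hS

variable (hq : q.Prime) (hA : A.LiesOverPrime q)

set_option maxHeartbeats 3200000 in
include hq hA in
/-- Field `hnn` of `H61.ChartPkg` at the concrete types, from `hgenR`. -/
theorem hnn_inst (J : ↥(modularFunctionFieldFullC ↥(H45.unrCyclo q) N))
    (π : ↥(H45.cutOver A E)) (hπ : maximalIdeal ↥(H45.cutOver A E) = Ideal.span {π}) :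
    letI := algChartE (A := A) E N J
    Algebra.adjoin ↥(H40.chartB ↥(H45.A0 A q) J)
      (Set.range (algebraMap ↥(H45.cutOver A E)
        ↥(H40.chartB ↥(H45.cutOver A E) (H45.baseChangeE E N J)))) = ⊤ →
    ∀ n : Ideal ↥(H40.chartB ↥(H45.cutOver A E) (H45.baseChangeE E N J)),
      algebraMap ↥(H45.cutOver A E)
        ↥(H40.chartB ↥(H45.cutOver A E) (H45.baseChangeE E N J)) π ∈ n →
      n ≤ Ideal.map (algebraMap ↥(H40.chartB ↥(H45.A0 A q) J)
            ↥(H40.chartB ↥(H45.cutOver A E) (H45.baseChangeE E N J)))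
          (n.comap (algebraMap ↥(H40.chartB ↥(H45.A0 A q) J)
            ↥(H40.chartB ↥(H45.cutOver A E) (H45.baseChangeE E N J)))) ⊔
        Ideal.span {algebraMap ↥(H45.cutOver A E)
          ↥(H40.chartB ↥(H45.cutOver A E) (H45.baseChangeE E N J)) π} := by
  letI := algChartE (A := A) E N J
  intro hgenR n hπn
  exact le_map_comap_sup_span (A₁ := ↥(H45.A0 A q)) π (hcomp_inst (A := A) E N J)
    (h1_inst hq hA E π hπ) hgenR n hπn

set_option maxHeartbeats 3200000 in
include hq hA in
/-- Field `hmax` of `H61.ChartPkg` at the concrete types, from `hgenR`. -/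
theorem hmax_inst (J : ↥(modularFunctionFieldFullC ↥(H45.unrCyclo q) N))
    (π : ↥(H45.cutOver A E)) (hπ : maximalIdeal ↥(H45.cutOver A E) = Ideal.span {π}) :
    letI := algChartE (A := A) E N J
    Algebra.adjoin ↥(H40.chartB ↥(H45.A0 A q) J)
      (Set.range (algebraMap ↥(H45.cutOver A E)
        ↥(H40.chartB ↥(H45.cutOver A E) (H45.baseChangeE E N J)))) = ⊤ →
    ∀ n : Ideal ↥(H40.chartB ↥(H45.cutOver A E) (H45.baseChangeE E N J)), n.IsMaximal →
      algebraMap ↥(H45.cutOver A E)
        ↥(H40.chartB ↥(H45.cutOver A E) (H45.baseChangeE E N J)) π ∈ n →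
      (n.comap (algebraMap ↥(H40.chartB ↥(H45.A0 A q) J)
        ↥(H40.chartB ↥(H45.cutOver A E) (H45.baseChangeE E N J)))).IsMaximal := by
  letI := algChartE (A := A) E N J
  intro hgenR n hn hπn
  exact isMaximal_comap_of_adjoin_eq_top (A₁ := ↥(H45.A0 A q)) π (hcomp_inst (A := A) E N J)
    (h1_inst hq hA E π hπ) hgenR n hπn

end Concrete

end

end Fermat.Agent.S34.H70
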