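import Mathlib
import Fermat.Agent.S31.H81_Unramified

/-!
# S34, abstract form (helper47): elements acting unipotently on torsion points and trivially on
`p`-power roots of unity have characteristic polynomial `(X - 1)²` in a Hecke–Galois representation

Same abstract setting as helper81's `S31/H81_TraceCongr` (`𝕋` acting faithfully on a lattice `Lat`,
`r : G_ℚ →* M₂(T)` with Frobenius traces `π (Tℓ ℓ)` and determinants `ℓ`, a `G_ℚ`-module `J` with
the Eichler–Shimura relation on `p`-power torsion, Kummer maps `lam : Lat → J[p^M]`).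

* `exists_hecke_trace_det` : helper81's `exists_hecke_trace` with the determinant added:
  `det (r g) ≡ e`, where `g ζ = ζ ^ e`.
* `trace_det_of_unipotent` : if `(s - 1)² = 0` on the `p`-power torsion of `J` and `s` fixes the
  `p`-power roots of unity, then `trace (r s) = 2` and `det (r s) = 1`.
* `charpoly_of_unipotent` : hence `(r s).charpoly = (X - 1) ^ 2`.

No residual irreducibility is needed.
-/

set_option autoImplicit false

namespace Fermat.Agent.S34.H47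

open IsLocalRing Matrix Fermat.Agent.S31.H81

local notation "Qb" => AlgebraicClosure ℚ
local notation "GQ" => (AlgebraicClosure ℚ ≃ₐ[ℚ] AlgebraicClosure ℚ)
local notation "M2" => Matrix (Fin 2) (Fin 2)

/-- `det (1 + Y) ≡ 1` modulo an ideal containing the entries of `Y`. -/
lemma det_sub_one_mem {A : Type*} [CommRing A] (I : Ideal A) (X : M2 A)
    (hX : ∀ i j, (X - 1) i j ∈ I) : X.det - 1 ∈ I := by
  have h00 := hX 0 0
  have h01 := hX 0 1
  have h10 := hX 1 0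
  have h11 := hX 1 1
  simp only [Matrix.sub_apply, Matrix.one_apply_eq, Matrix.one_apply_ne, ne_eq, zero_ne_one,
    one_ne_zero, not_false_eq_true, sub_zero] at h00 h01 h10 h11
  rw [Matrix.det_fin_two]
  have : X 0 0 * X 1 1 - X 0 1 * X 1 0 - 1
      = (X 0 0 - 1) * X 1 1 + (X 1 1 - 1) - X 0 1 * X 1 0 := by ring
  rw [this]
  exact I.sub_mem (I.add_mem (I.mul_mem_right _ h00) h11) (I.mul_mem_right _ h01)

section Main

variable {p : ℕ} [hp : Fact p.Prime]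
  {𝕋 : Type*} [CommRing 𝕋] {Lat : Type*} [AddCommGroup Lat] [Module.Finite ℤ Lat]
  {R : 𝕋 →+* Module.End ℤ Lat} {Tℓ : ℕ → 𝕋}
  {T : Type*} [CommRing T] [IsLocalRing T] {π : 𝕋 →+* T}
  {r : GQ →* M2 T} {S : Finset ℕ}
  {J : Type*} [AddCommGroup J] [DistribMulAction GQ J] {TJ : ℕ → J →+ J}

/-- helper81's `exists_hecke_trace`, with the determinant. -/
theorem exists_hecke_trace_det (hpS : p ∈ S) (hcont : MatAdicCont r)
    (hchar : FrobTraceDet Tℓ π r S) (hFrob : FrobQuadOn p S TJ) (hOpen : OpenStab J)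
    (n M : ℕ) (lam : Lat →+ J) (hlamM : ∀ x, p ^ M • lam x = 0)
    (hlamT : ∀ ℓ : ℕ, ℓ.Prime → ℓ ∉ S → ∀ x, lam (R (Tℓ ℓ) x) = TJ ℓ (lam x))
    (ζ : Qb) (hζ : IsPrimitiveRoot ζ (p ^ M)) (g : GQ) :
    ∃ (t : 𝕋) (e : ℕ), (r g).trace - π t ∈ maximalIdeal T ^ n ∧
      (r g).det - (e : T) ∈ maximalIdeal T ^ n ∧ g ζ = ζ ^ e ∧
      ∀ x, lam (R t x) = g • lam x + (e : ℤ) • g⁻¹ • lam x := by
  classical
  obtain ⟨L₁, hL₁fin, hL₁⟩ := hcont n
  obtain ⟨FY, hFYfin, hFY⟩ := exists_field_fixing_range hOpen lam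
  have hpM : 0 < p ^ M := pow_pos hp.out.pos M
  have hζint : IsIntegral ℚ ζ := (hζ.isIntegral hpM).tower_top
  have : FiniteDimensional ℚ (IntermediateField.adjoin ℚ {ζ}) :=
    IntermediateField.adjoin.finiteDimensional hζint
  have := hL₁fin
  have := hFYfin
  let F₀ : IntermediateField ℚ Qb := L₁ ⊔ FY ⊔ IntermediateField.adjoin ℚ {ζ}
  have : FiniteDimensional ℚ ↥(L₁ ⊔ FY) := IntermediateField.finiteDimensional_sup _ _
  have : FiniteDimensional ℚ ↥F₀ := IntermediateField.finiteDimensional_sup _ _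
  have hQalg : Algebra.IsAlgebraic ℚ Qb := AlgebraicClosure.isAlgebraic ℚ
  have hQcl : IsAlgClosure ℚ Qb := ⟨inferInstance, hQalg⟩
  have : Normal ℚ Qb := IsAlgClosure.normal ℚ Qb
  let Fn : IntermediateField ℚ Qb := IntermediateField.normalClosure ℚ ↥F₀ Qb
  have : Normal ℚ ↥Fn := normalClosure.normal ℚ ↥F₀ Qb
  have : FiniteDimensional ℚ ↥Fn := normalClosure.is_finiteDimensional ℚ ↥F₀ Qb
  have hF₀Fn : F₀ ≤ Fn := IntermediateField.le_normalClosure F₀
  let ρ' : GQ →* (↥Fn ≃ₐ[ℚ] ↥Fn) := AlgEquiv.restrictNormalHom ↥Fn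
  have hker : ρ'.ker = Fn.fixingSubgroup := IntermediateField.restrictNormalHom_ker Fn
  obtain ⟨ℓ, A, φ, j, k', hℓ, hℓS, hA, hφ, -, hgφ⟩ :=
    Fermat.Agent.S14.H31.exists_isFrobeniusAt_map_eq_zpow Fn ρ' hker.ge g S
  obtain ⟨j', hj'⟩ : ∃ j' : ℕ, ρ' φ ^ j = ρ' φ ^ j' := by
    have ho : 0 < orderOf (ρ' φ) := orderOf_pos (ρ' φ)
    refine ⟨(j % (orderOf (ρ' φ) : ℤ)).toNat, ?_⟩
    rw [← zpow_natCast, Int.toNat_of_nonneg (Int.emod_nonneg _ (by exact_mod_cast ho.ne')),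
      zpow_mod_orderOf]
  set τ : GQ := (φ ^ j')⁻¹ * g with hτ
  have hτker : τ ∈ Fn.fixingSubgroup := by
    rw [← hker, MonoidHom.mem_ker, hτ, map_mul, map_inv, map_pow, hgφ, hj', inv_mul_cancel]
  have hfix : ∀ u : GQ, u ∈ Fn.fixingSubgroup → ∀ a ∈ F₀, u a = a := by
    intro u hu a ha
    exact (IntermediateField.mem_fixingSubgroup_iff Fn u).mp hu a (hF₀Fn ha)
  have hg : g = φ ^ j' * τ := by rw [hτ, mul_inv_cancel_left]
  have hnormal : (Fn.fixingSubgroup).Normal := by rw [← hker]; infer_instance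
  have hfixL : ∀ u : GQ, u ∈ Fn.fixingSubgroup → ∀ i j, (r u - 1) i j ∈ maximalIdeal T ^ n :=
    fun u hu => hL₁ u fun a ha =>
      hfix u hu a ((le_sup_left : L₁ ≤ L₁ ⊔ FY).trans le_sup_left ha)
  have hfixY : ∀ u : GQ, u ∈ Fn.fixingSubgroup → ∀ x, u • lam x = lam x :=
    fun u hu => hFY u fun a ha =>
      hfix u hu a ((le_sup_right : FY ≤ L₁ ⊔ FY).trans le_sup_left ha)
  have hfixζ : ∀ u : GQ, u ∈ Fn.fixingSubgroup → u ζ = ζ :=
    fun u hu => hfix u hu ζ ((le_sup_right : _ ≤ F₀)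
      (IntermediateField.mem_adjoin_simple_self ℚ ζ))
  have hℓp : ℓ ≠ p := by rintro rfl; exact hℓS hpS
  have hcop : ℓ.Coprime (p ^ M) :=
    Nat.Coprime.pow_right M ((Nat.coprime_primes hℓ hp.out).mpr hℓp)
  obtain ⟨htr, hdet⟩ := hchar ℓ hℓ hℓS A hA φ hφ
  refine ⟨psum (Tℓ ℓ) (((ℓ : ℤ) : 𝕋)) j', ℓ ^ j', ?_, ?_, ?_, ?_⟩
  · have h1 : (r g).trace - ((r φ) ^ j').trace = ((r φ) ^ j' * (r τ - 1)).trace := by
      rw [hg, map_mul, map_pow, Matrix.mul_sub, Matrix.mul_one, Matrix.trace_sub]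
    have h2 : ((r φ) ^ j').trace = π (psum (Tℓ ℓ) (((ℓ : ℤ) : 𝕋)) j') := by
      rw [trace_pow_eq_psum, htr, hdet, map_psum]
      congr 1
      simp
    rw [← h2, h1]
    exact trace_mul_mem _ _ _ (hfixL τ hτker)
  · -- determinant congruence
    have h1 : (r g).det = ((ℓ ^ j' : ℕ) : T) * (r τ).det := by
      rw [hg, map_mul, map_pow, Matrix.det_mul, Matrix.det_pow, hdet]
      push_cast
      rfl
    have h2 : (r τ).det - 1 ∈ maximalIdeal T ^ n := det_sub_one_mem _ _ (hfixL τ hτker)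
    have h3 : (r g).det - ((ℓ ^ j' : ℕ) : T) = ((ℓ ^ j' : ℕ) : T) * ((r τ).det - 1) := by
      rw [h1]; ring
    rw [h3]
    exact Ideal.mul_mem_left _ _ h2
  · have h1 : φ ζ = ζ ^ ℓ :=
      Fermat.Agent.S14.H31.map_primitiveRoot_of_isFrobeniusAt hA hφ hζ hcop
    have h2 := pow_apply_of_apply_eq_pow φ ζ ℓ h1 j'
    rw [hg, AlgEquiv.mul_apply, hfixζ τ hτker, h2]
  · intro x
    have hP : ∀ z : J, (∃ n : ℕ, p ^ n • z = 0) → ∀ u : GQ, ∃ n : ℕ, p ^ n • (u • z) = 0 := by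
      rintro z ⟨m, hm⟩ u
      exact ⟨m, by rw [← smul_comm, hm, smul_zero]⟩
    have hquad : ∀ z : J, (∃ n : ℕ, p ^ n • z = 0) → TJ ℓ z = φ • z + (ℓ : ℤ) • φ⁻¹ • z := by
      intro z hz
      have h := hFrob ℓ hℓ hℓS A hA φ hφ (φ⁻¹ • z) (hP z hz φ⁻¹)
      rw [smul_inv_smul] at h
      rw [natCast_zsmul]
      have h' : φ • z + ℓ • φ⁻¹ • z - TJ ℓ z = 0 := by rw [← h]; abel
      exact (sub_eq_zero.mp h').symm
    have hy : ∃ n : ℕ, p ^ n • lam x = 0 := ⟨M, hlamM x⟩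
    have e1 := map_psum_apply R lam (Tℓ ℓ) (TJ ℓ) (ℓ : ℤ) (hlamT ℓ hℓ hℓS) j' x
    rw [e1, psumEnd_apply_of_quadratic (TJ ℓ) (ℓ : ℤ) φ (fun z => ∃ n : ℕ, p ^ n • z = 0)
      (fun z hz => hP z hz φ) (fun z hz => hP z hz φ⁻¹) hquad j' (lam x) hy]
    have hφj : φ ^ j' = g * τ⁻¹ := by rw [hg, mul_inv_cancel_right]
    have hτinv : τ⁻¹ ∈ Fn.fixingSubgroup := Subgroup.inv_mem _ hτker
    have hconj : g * τ * g⁻¹ ∈ Fn.fixingSubgroup := hnormal.conj_mem τ hτker g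
    have e2 : φ ^ j' • lam x = g • lam x := by
      rw [hφj, mul_smul, hfixY τ⁻¹ hτinv]
    have e3 : (φ ^ j')⁻¹ • lam x = g⁻¹ • lam x := by
      have : (φ ^ j')⁻¹ = g⁻¹ * (g * τ * g⁻¹) := by
        rw [hφj, _root_.mul_inv_rev, inv_inv]; group
      rw [this, mul_smul, hfixY _ hconj]
    rw [e2, e3]
    push_cast
    rfl

variable [Module.Free ℤ Lat]

/-- **S34, abstract form**: unipotent on `p`-power torsion, trivial on `p`-power roots of unity
⟹ trace `2`, determinant `1`. -/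
theorem trace_det_of_unipotent (hR : Function.Injective R)
    (hpT : (p : T) ∈ maximalIdeal T)
    (hHaus : ∀ x : T, (∀ n : ℕ, x ∈ maximalIdeal T ^ n) → x = 0)
    (hpS : p ∈ S) (hcont : MatAdicCont r)
    (hchar : FrobTraceDet Tℓ π r S) (hFrob : FrobQuadOn p S TJ) (hOpen : OpenStab J)
    (hKum : KummerInput p R Tℓ S TJ)
    (s : GQ)
    (hs_unip : ∀ x : J, (∃ n : ℕ, p ^ n • x = 0) → s • s • x - 2 • s • x + x = 0)
    (hs_cyc : ∀ (M : ℕ) (ζ : Qb), IsPrimitiveRoot ζ (p ^ M) → s ζ = ζ) :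
    (r s).trace = 2 ∧ (r s).det = 1 := by
  obtain ⟨c, hc⟩ := exists_saturation_exponent R hR p
  have key : ∀ n : ℕ, (r s).trace - 2 ∈ maximalIdeal T ^ n ∧
      (r s).det - 1 ∈ maximalIdeal T ^ n := by
    intro n
    obtain ⟨lam, hlamM, hlamK, hlamT⟩ := hKum (n + c)
    have hpM : 0 < p ^ (n + c) := pow_pos hp.out.pos _
    obtain ⟨ζ, hζ⟩ : ∃ ζ : Qb, IsPrimitiveRoot ζ (p ^ (n + c)) := by
      have : NeZero ((p ^ (n + c) : ℕ) : Qb) := ⟨by exact_mod_cast hpM.ne'⟩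
      exact HasEnoughRootsOfUnity.exists_primitiveRoot Qb (p ^ (n + c))
    obtain ⟨t, e, h1, h1d, h2, h3⟩ :=
      exists_hecke_trace_det hpS hcont hchar hFrob hOpen n (n + c) lam hlamM hlamT ζ hζ s
    -- `e ≡ 1` modulo `p ^ (n + c)`
    have hee : ((p ^ (n + c) : ℕ) : ℤ) ∣ (e : ℤ) - 1 := by
      have hpow : ζ ^ e = ζ ^ 1 := by rw [pow_one, ← h2, hs_cyc _ ζ hζ]
      have hζ0 : ζ ≠ 0 := hζ.ne_zero hpM.ne'
      rw [← hζ.zpow_eq_one_iff_dvd, zpow_sub₀ hζ0, zpow_natCast, zpow_one, hpow, pow_one,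
        div_self hζ0]
    obtain ⟨k, hk⟩ := hee
    -- `R (t - 2)` maps into `p ^ (n + c) • Lat`
    have hdiv : ∀ x, ∃ y, R (t - 2) x = ((p : ℤ) ^ (n + c)) • y := by
      intro x
      apply hlamK
      have hy : ∃ m : ℕ, p ^ m • lam x = 0 := ⟨n + c, hlamM x⟩
      have hsy : ∃ m : ℕ, p ^ m • (s⁻¹ • lam x) = 0 :=
        ⟨n + c, by rw [← smul_comm, hlamM x, smul_zero]⟩
      have hu := hs_unip (s⁻¹ • lam x) hsy
      rw [smul_inv_smul] at hu
      -- `s y + s⁻¹ y = 2 y`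
      have hz : p ^ (n + c) • (s⁻¹ • lam x) = 0 := by rw [← smul_comm, hlamM x, smul_zero]
      have he1 : (e : ℤ) • s⁻¹ • lam x = s⁻¹ • lam x := by
        have : (e : ℤ) = 1 + ((p ^ (n + c) : ℕ) : ℤ) * k := by linarith
        rw [this, add_smul, one_smul, mul_smul, natCast_zsmul, smul_comm, hz, smul_zero,
          add_zero]
      have h2R : R (2 : 𝕋) x = (2 : ℤ) • x := by
        have : (2 : 𝕋) = ((2 : ℤ) : 𝕋) := by norm_cast
        rw [this, map_intCast]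
        rfl
      rw [map_sub, LinearMap.sub_apply, map_sub, h3, he1, h2R, map_zsmul]
      have : s • lam x + s⁻¹ • lam x - (2 : ℤ) • lam x
          = s • lam x - 2 • lam x + s⁻¹ • lam x := by
        rw [ofNat_zsmul]; abel
      rw [this]
      exact hu
    have htf : ∀ (m : ℤ) (y : Lat), m ≠ 0 → m • y = 0 → y = 0 :=
      fun m y hm h => (smul_eq_zero.mp h).resolve_left hm
    have hp0 : ((p : ℤ) ^ (n + c)) ≠ 0 := pow_ne_zero _ (by exact_mod_cast hp.out.ne_zero)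
    obtain ⟨e₀, he₀⟩ := exists_end_of_forall_exists_smul htf (R (t - 2)) _ hp0 hdiv
    obtain ⟨t'', ht''⟩ := hc n (t - 2) ⟨e₀, he₀⟩
    have hπ : π t - 2 ∈ maximalIdeal T ^ n := by
      have : π t - 2 = π (t - 2) := by rw [map_sub, map_ofNat]
      rw [this, ht'', map_zsmul, zsmul_eq_mul]
      push_cast
      exact Ideal.mul_mem_right _ _ (Ideal.pow_mem_pow hpT n)
    refine ⟨?_, ?_⟩
    · have : (r s).trace - 2 = ((r s).trace - π t) + (π t - 2) := by ring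
      rw [this]
      exact Ideal.add_mem _ h1 hπ
    · have he : (e : T) - 1 ∈ maximalIdeal T ^ n := by
        have hcast : (e : T) - 1 = (((e : ℤ) - 1 : ℤ) : T) := by push_cast; ring
        rw [hcast, hk]
        push_cast
        refine Ideal.mul_mem_right _ _ ?_
        rw [pow_add]
        exact Ideal.mul_mem_right _ _ (Ideal.pow_mem_pow hpT n)
      have : (r s).det - 1 = ((r s).det - (e : T)) + ((e : T) - 1) := by ring
      rw [this]
      exact Ideal.add_mem _ h1d he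
  exact ⟨sub_eq_zero.mp (hHaus _ fun n => (key n).1), sub_eq_zero.mp (hHaus _ fun n => (key n).2)⟩

/-- The characteristic polynomial version. -/
theorem charpoly_of_unipotent (hR : Function.Injective R)
    (hpT : (p : T) ∈ maximalIdeal T)
    (hHaus : ∀ x : T, (∀ n : ℕ, x ∈ maximalIdeal T ^ n) → x = 0)
    (hpS : p ∈ S) (hcont : MatAdicCont r)
    (hchar : FrobTraceDet Tℓ π r S) (hFrob : FrobQuadOn p S TJ) (hOpen : OpenStab J)
    (hKum : KummerInput p R Tℓ S TJ)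
    (s : GQ)
    (hs_unip : ∀ x : J, (∃ n : ℕ, p ^ n • x = 0) → s • s • x - 2 • s • x + x = 0)
    (hs_cyc : ∀ (M : ℕ) (ζ : Qb), IsPrimitiveRoot ζ (p ^ M) → s ζ = ζ) :
    (r s).charpoly = (Polynomial.X - 1) ^ 2 := by
  obtain ⟨h1, h2⟩ := trace_det_of_unipotent hR hpT hHaus hpS hcont hchar hFrob hOpen hKum s
    hs_unip hs_cyc
  rw [Matrix.charpoly_fin_two, h1, h2]
  simp only [map_ofNat, map_one]
  ring

end Main

end Fermat.Agent.S34.H47
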