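import Mathlib
import Fermat.Agent.S34.H47_UnipotentAbs
import Fermat.Agent.S31.H81_S31FromStages
import Fermat.Agent.S29.H80_KummerPoincare
import Fermat.Agent.S29.H80_T0

/-!
# S34 from one geometric input (helper47)

The frozen S34 conclusion `H.ρ.IsUnipotentOnInertiaAt q` from the Stage-2/Stage-3 exports (exactly
those consumed by helper81's S31 chain) and the single geometric input

`(U)` : every inertia element `σ` at `q` satisfies `(σ - 1)² = 0` on the `p`-power torsion of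
`JZero N`.

* `isUnipotentOnInertiaAt_of_inputs` : abstract `G_ℚ`-module `J`;
* `isUnipotentOnInertiaAt_of_jzero`  : `J = JZero N`, prelude vocabulary;
* `isUnipotentOnInertiaAt_of_stages` : from the frozen S37 conclusion + `(U)` (Kummer–Poincaré and
  base-change descent are discharged from main).

Note that `q ∣ N`, `¬ q² ∣ N` are not used here: they are what makes `(U)` true.
-/

set_option autoImplicit false

namespace Fermat.Agent.S34.H47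

open IsLocalRing Matrix Polynomial CongruenceSubgroup ModularCurve ModularCurve.Period
open Fermat.Agent.S41.H85 Fermat.Agent.S31.H81 Fermat.Agent.S29

local notation "Qb" => AlgebraicClosure ℚ
local notation "GQ" => (AlgebraicClosure ℚ ≃ₐ[ℚ] AlgebraicClosure ℚ)
local notation "M2" => Matrix (Fin 2) (Fin 2)

variable {p : ℕ} {N : ℕ} [NeZero N] {S : Finset ℕ}
  {𝒪 : Type} [CommRing 𝒪] [IsDomain 𝒪] [IsDiscreteValuationRing 𝒪]
  [IsAdicComplete (IsLocalRing.maximalIdeal 𝒪) 𝒪]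
  {θ : CuspForm.heckeAlgebra N 2 (↑S : Set ℕ) →+* IsLocalRing.ResidueField 𝒪}
  {T : Type} [CommRing T] [IsLocalRing T] [IsNoetherianRing T]
  [IsAdicComplete (IsLocalRing.maximalIdeal T) T] [Algebra 𝒪 T] [IsLocalHom (algebraMap 𝒪 T)]
  [Module.Finite 𝒪 T] [Module.Free 𝒪 T]

/-- **S34 from Stage-2/Stage-3 inputs and `(U)`**, abstract `G_ℚ`-module `J`. -/
theorem isUnipotentOnInertiaAt_of_inputs (hp : p.Prime)
    (hp𝒪 : (p : 𝒪) ∈ IsLocalRing.maximalIdeal 𝒪) (hpS : p ∈ S)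
    (hNS : ∀ q : ℕ, q.Prime → q ∣ N → q ∈ S)
    (H : CuspForm.HeckeGaloisRepDatum N (↑S : Set ℕ) 𝒪 θ T)
    {J : Type*} [AddCommGroup J] [DistribMulAction GQ J] (TJ : ℕ → J →+ J)
    (hFrob : ∀ ℓ : ℕ, ℓ.Prime → ¬ ℓ ∣ N * p → ∀ A : ValuationSubring Qb, A.LiesOverPrime ℓ →
      ∀ σ : GQ, A.IsFrobeniusAt σ ℓ → ∀ x : J, (∃ n : ℕ, p ^ n • x = 0) →
        σ • σ • x - TJ ℓ (σ • x) + ℓ • x = 0)
    (hKum : ∀ M : ℕ, ∃ lam : parabolicHoms ℤ (Gamma0 N) ℤ →+ J, (∀ x, p ^ M • lam x = 0) ∧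
      (∀ x, lam x = 0 → ∃ y, x = ((p : ℤ) ^ M) • y) ∧
      ∀ (ℓ : ℕ) (hℓ : ℓ.Prime) (hℓN : ¬ ℓ ∣ N) (x : parabolicHoms ℤ (Gamma0 N) ℤ),
        lam (heckeTPar ℤ ℤ hℓ hℓN x) = TJ ℓ (lam x))
    (hOpen : OpenStab J)
    (q : ℕ) (hq : q.Prime) (hqp : q ≠ p)
    (hU : ∀ A : ValuationSubring Qb, A.LiesOverPrime q → ∀ σ ∈ A.inertiaSubgroupIn ℚ,
      ∀ x : J, (∃ n : ℕ, p ^ n • x = 0) → σ • σ • x - 2 • σ • x + x = 0) :
    H.ρ.IsUnipotentOnInertiaAt q := by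
  classical
  have : Fact p.Prime := ⟨hp⟩
  intro P hP σ hσ
  let b : Module.Basis (Fin 2) T H.ρ.V := Module.finBasisOfFinrankEq T H.ρ.V H.ρ.finrank_eq
  have hgoodN : ∀ ℓ : ℕ, ℓ.Prime → ℓ ∉ S → ¬ ℓ ∣ N :=
    fun ℓ hℓ hℓS hdvd => hℓS (hNS ℓ hℓ hdvd)
  have hgoodNp : ∀ ℓ : ℕ, ℓ.Prime → ℓ ∉ S → ¬ ℓ ∣ N * p := by
    intro ℓ hℓ hℓS hdvd
    rcases (Nat.Prime.dvd_mul hℓ).mp hdvd with h | h
    · exact hgoodN ℓ hℓ hℓS h
    · exact hℓS (by rw [(Nat.prime_dvd_prime_iff_eq hℓ hp).mp h]; exact hpS)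
  have hcoe : ∀ ℓ : ℕ, ℓ ∉ S → ℓ ∉ (↑S : Set ℕ) := fun ℓ h => by simpa using h
  let Tℓ : ℕ → CuspForm.heckeAlgebra N 2 (↑S : Set ℕ) := fun ℓ =>
    if h : ℓ.Prime ∧ ℓ ∉ S then
      CuspForm.heckeAlgebra.T h.1 (hgoodN ℓ h.1 h.2) (hcoe ℓ h.2) else 0
  have hTℓ : ∀ (ℓ : ℕ) (hℓ : ℓ.Prime) (hℓS : ℓ ∉ S),
      Tℓ ℓ = CuspForm.heckeAlgebra.T hℓ (hgoodN ℓ hℓ hℓS) (hcoe ℓ hℓS) :=
    fun ℓ hℓ hℓS => dif_pos ⟨hℓ, hℓS⟩
  have hmain : (matRep H.ρ b σ).charpoly = (X - 1) ^ 2 := by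
    refine charpoly_of_unipotent (p := p) (R := cohHeckeRep N (↑S : Set ℕ)) (Tℓ := Tℓ) (π := H.π)
      (S := S) (TJ := TJ) cohHeckeRep_injective ?_ ?_ hpS
      (matAdicCont_matRep H.ρ b) ?_ ?_ hOpen ?_ σ ?_ ?_
    · have h1 : (p : T) = algebraMap 𝒪 T (p : 𝒪) := (map_natCast _ p).symm
      rw [h1, mem_maximalIdeal, mem_nonunits_iff]
      intro hu
      exact (mem_nonunits_iff.mp ((mem_maximalIdeal _).mp hp𝒪)) (isUnit_of_map_unit _ _ hu)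
    · intro x hx
      refine IsHausdorff.haus' (I := maximalIdeal T) x fun n => ?_
      rw [smul_eq_mul, Ideal.mul_top, SModEq.zero]
      exact hx n
    · intro ℓ hℓ hℓS A hA φ hφ
      rw [hTℓ ℓ hℓ hℓS]
      exact trace_det_of_charpoly H.ρ b φ _ _
        (H.charpoly_frob ℓ hℓ (hgoodN ℓ hℓ hℓS) (hcoe ℓ hℓS) A hA φ hφ)
    · intro ℓ hℓ hℓS A hA φ hφ x hx
      exact hFrob ℓ hℓ (hgoodNp ℓ hℓ hℓS) A hA φ hφ x hx
    · intro M
      obtain ⟨lam, h1, h2, h3⟩ := hKum M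
      refine ⟨lam, h1, h2, fun ℓ hℓ hℓS x => ?_⟩
      rw [hTℓ ℓ hℓ hℓS, cohHeckeRep_T]
      exact h3 ℓ hℓ _ x
    · intro x hx
      exact hU P hP σ hσ x hx
    · intro M ζ hζ
      have hcop : q.Coprime (p ^ M) :=
        Nat.Coprime.pow_right M ((Nat.coprime_primes hq hp).mpr hqp)
      exact Fermat.Agent.S29.H29.map_primitiveRoot_of_mem_inertia hP hcop hσ hζ
  rw [← hmain, matRep_apply, LinearMap.charpoly_toMatrix]

/-- **S34 from the Eichler–Shimura data of `JZero N` and `(U)`.** -/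
theorem isUnipotentOnInertiaAt_of_jzero (hp : p.Prime)
    (hp𝒪 : (p : 𝒪) ∈ IsLocalRing.maximalIdeal 𝒪) (hpS : p ∈ S)
    (hNS : ∀ q : ℕ, q.Prime → q ∣ N → q ∈ S)
    (H : CuspForm.HeckeGaloisRepDatum N (↑S : Set ℕ) 𝒪 θ T)
    (hcomm : HeckeOperatorsCommuteBar N)
    (hES : letI := heckeModuleBar N
      ∀ [SMulCommClass GQ HeckeAlg (JZero N)],
        FrobeniusQuadratic (K := ℚ) (L := Qb) N p (JZero N))
    (hsmul : letI := heckeModuleBar N; SMulCommClass GQ HeckeAlg (JZero N))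
    (hKum : ∀ M : ℕ, ∃ lam : parabolicHoms ℤ (Gamma0 N) ℤ →+ JZero N,
      (∀ x, p ^ M • lam x = 0) ∧
      (∀ x, lam x = 0 → ∃ y, x = ((p : ℤ) ^ M) • y) ∧
      ∀ (ℓ : ℕ) (hℓ : ℓ.Prime) (hℓN : ¬ ℓ ∣ N) (x : parabolicHoms ℤ (Gamma0 N) ℤ),
        lam (heckeTPar ℤ ℤ hℓ hℓN x) = heckeOperatorBar N ⟨ℓ, hℓ⟩ (lam x))
    (hOpen : OpenStab (JZero N))
    (q : ℕ) (hq : q.Prime) (hqp : q ≠ p)
    (hU : ∀ A : ValuationSubring Qb, A.LiesOverPrime q → ∀ σ ∈ A.inertiaSubgroupIn ℚ,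
      ∀ x : JZero N, (∃ n : ℕ, p ^ n • x = 0) → σ • σ • x - 2 • σ • x + x = 0) :
    H.ρ.IsUnipotentOnInertiaAt q := by
  classical
  let _ := heckeModuleBar N
  have := hsmul
  have hFrob := hES
  let TJ : ℕ → JZero N →+ JZero N := fun ℓ =>
    if h : ℓ.Prime then (heckeOperatorBar N ⟨ℓ, h⟩).toAddMonoidHom else 0
  have hTJ : ∀ (ℓ : ℕ) (hℓ : ℓ.Prime) (x : JZero N),
      TJ ℓ x = heckeOperatorBar N ⟨ℓ, hℓ⟩ x := by
    intro ℓ hℓ x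
    show (if h : ℓ.Prime then (heckeOperatorBar N ⟨ℓ, h⟩).toAddMonoidHom else 0) x = _
    rw [dif_pos hℓ]; rfl
  refine isUnipotentOnInertiaAt_of_inputs hp hp𝒪 hpS hNS H TJ ?_ ?_ hOpen q hq hqp hU
  · intro ℓ hℓ hℓNp A hA σ hσ x hx
    have h := hFrob ℓ hℓ hℓNp A hA σ hσ x hx
    have e : (heckeGen ⟨ℓ, hℓ⟩ : HeckeAlg) • (σ • x) = heckeOperatorBar N ⟨ℓ, hℓ⟩ (σ • x) :=
      heckeModuleBar_heckeGen_smul hcomm ⟨ℓ, hℓ⟩ (σ • x)
    rw [e] at h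
    rw [hTJ ℓ hℓ]
    exact h
  · intro M
    obtain ⟨lam, h1, h2, h3⟩ := hKum M
    refine ⟨lam, h1, h2, fun ℓ hℓ hℓN x => ?_⟩
    rw [hTJ ℓ hℓ]
    exact h3 ℓ hℓ hℓN x

/-- **S34 from the frozen S37 conclusion and `(U)`**: everything else is on main. -/
theorem isUnipotentOnInertiaAt_of_stages (hp : p.Prime)
    (hp𝒪 : (p : 𝒪) ∈ IsLocalRing.maximalIdeal 𝒪) (hpS : p ∈ S)
    (hNS : ∀ q : ℕ, q.Prime → q ∣ N → q ∈ S)
    (H : CuspForm.HeckeGaloisRepDatum N (↑S : Set ℕ) 𝒪 θ T)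
    (hS37 : ModularCurve.HeckeOperatorsCommuteBar N →
      letI := ModularCurve.heckeModuleBar N
      ∀ (_ : SMulCommClass GQ ModularCurve.HeckeAlg (ModularCurve.JZero N)),
        ModularCurve.SpecializationExists (K := ℚ) (L := Qb) N p (ModularCurve.JZero N))
    (q : ℕ) (hq : q.Prime) (hqp : q ≠ p)
    (hU : ∀ A : ValuationSubring Qb, A.LiesOverPrime q → ∀ σ ∈ A.inertiaSubgroupIn ℚ,
      ∀ x : JZero N, (∃ n : ℕ, p ^ n • x = 0) → σ • σ • x - 2 • σ • x + x = 0) :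
    H.ρ.IsUnipotentOnInertiaAt q := by
  have hcomm : HeckeOperatorsCommuteBar N := H87.heckeOperatorsCommuteBar N
  refine isUnipotentOnInertiaAt_of_jzero hp hp𝒪 hpS hNS H hcomm ?_
    (H28.smulCommClass_heckeModuleBar N) ?_ (fun x => H46.exists_finite_fixing N x) q hq hqp hU
  · intro inst
    let _ := heckeModuleBar N
    exact H66.frobeniusQuadratic_of_specializationExists (hS37 hcomm inst)
  · intro M
    obtain ⟨lam, h1, h2, h3⟩ := exists_lam_of_packages N (p ^ M)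
      (H80.kummerPoincare N (pow_pos hp.pos M)) (H80.baseChangeDescent N (pow_pos hp.pos M))
    refine ⟨lam, fun x => ?_, fun x hx => ?_, h3⟩
    · have := h1 x
      rwa [Nat.cast_pow, ← natCast_zsmul] at *
    · obtain ⟨y, hy⟩ := h2 x hx
      exact ⟨y, by rw [hy, Nat.cast_pow]⟩

end Fermat.Agent.S34.H47
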