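/-
helper56 — S34: the CONCRETE instances of helper61's `H61.ChartPkg` (one per chart) at
`A₁ = A0 A ℓ`, `R = A'' = cutOver A E`, `k = E`, `F = F_E = fullC ↥E N`,
`B₁ = chartB A₁ J₁`, `B = chartB A'' J_E` (`J_E = bc J₁`), `s = inertiaActFullC`.

Hypotheses left (each in its producer's shape):
* `hcl`  — helper40 `(a)'`: `chartB A'' J_E ⊆ closure (bc (chartB A₁ J₁) ∪ A'')`;
* `sB hsB hsπ` — helper40 `(c)`: the restriction of the inertia action to the chart;
* `hL1` — helper83 `hL1_chart` (from helper55's `TwoComponents`).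
Everything else is discharged from helper95's `H95_ChartBC(+Gen)`, helper45's `H45` and
`CA.H56_BaseChangeIdeal`.
-/
import Mathlib
import Fermat.Agent.CA.H56_BaseChangeIdeal
import Fermat.Agent.S34.H95_ChartBCGen
import Fermat.Agent.S34.H61_ChainSkeleton

set_option autoImplicit false
set_option linter.unusedSectionVars false
set_option linter.style.haveILetI false
set_option synthInstance.maxHeartbeats 400000

noncomputable section

namespace Fermat.Agent.S34.H56

open Polynomial ModularCurve HahnSeries IntermediateField IsLocalRing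
open Fermat.Agent.S18 Fermat.Agent.S18.H45 Fermat.Agent.S34.H95

local notation "Qbar" => AlgebraicClosure ℚ

variable {A : ValuationSubring Qbar} {ℓ : ℕ} (hℓ : ℓ.Prime) (hA : A.LiesOverPrime ℓ)
variable (E : IntermediateField (unrCyclo ℓ) Qbar) (N : ℕ) [NeZero N]
variable (J₁ : modularFunctionFieldFullC (unrCyclo ℓ) N)
  (J_E : modularFunctionFieldFullC ↥E N) (h : baseChangeE E N J₁ = J_E)

include hℓ hA in
theorem natCast_A0_cutOver_ne_zero :
    algebraMap (A0 A ℓ) (cutOver A E) ((ℓ : ℕ) : A0 A ℓ) ≠ 0 := by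
  rw [map_natCast]
  intro h0
  have h1 := congrArg (fun z : cutOver A E => ((z : E) : Qbar)) h0
  have h2 : ((((ℓ : ℕ) : cutOver A E) : E) : Qbar) = (ℓ : Qbar) := by
    push_cast
    rfl
  simp only [h2] at h1
  have h3 : ((ℓ : ℕ) : Qbar) ≠ 0 := Nat.cast_ne_zero.mpr hℓ.ne_zero
  exact h3 (by simpa using h1)

include hℓ hA in
theorem dvd_natCast_A0_cutOver (π : cutOver A E)
    (hmax : maximalIdeal (cutOver A E) = Ideal.span {π}) :
    π ∣ algebraMap (A0 A ℓ) (cutOver A E) ((ℓ : ℕ) : A0 A ℓ) := by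
  rw [map_natCast]
  have := natCast_mem_maximalIdeal_cutOver hℓ hA E
  rwa [hmax, Ideal.mem_span_singleton] at this

/-- **The chart package at the concrete types.** -/
theorem chartPkg_of_chartBC [FiniteDimensional (unrCyclo ℓ) E] [Normal (unrCyclo ℓ) E]
    [IsNoetherianRing ↥(H40.chartB (cutOver A E) J_E)]
    [IsIntegrallyClosed ↥(H40.chartB (cutOver A E) J_E)]
    [IsFractionRing ↥(H40.chartB (cutOver A E) J_E) (modularFunctionFieldFullC ↥E N)]
    (σ : Qbar ≃ₐ[ℚ] Qbar) (hσ : σ ∈ A.inertiaSubgroupIn ℚ)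
    (π : cutOver A E) (hmax : maximalIdeal (cutOver A E) = Ideal.span {π})
    (hcl : ∀ z : modularFunctionFieldFullC ↥E N, z ∈ H40.chartB (cutOver A E) J_E →
      z ∈ Subring.closure
        (Set.range (fun b : ↥(H40.chartB (A0 A ℓ) J₁) =>
            baseChangeE E N (b : modularFunctionFieldFullC (unrCyclo ℓ) N)) ∪
          Set.range (algebraMap (cutOver A E) (modularFunctionFieldFullC ↥E N))))
    (sB : ↥(H40.chartB (cutOver A E) J_E) ≃+* ↥(H40.chartB (cutOver A E) J_E))
    (hsB : ∀ x : ↥(H40.chartB (cutOver A E) J_E),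
      inertiaActFullC hℓ hA E N σ hσ (x : modularFunctionFieldFullC ↥E N) =
        (sB x : modularFunctionFieldFullC ↥E N))
    (hsπ : ∀ x : ↥(H40.chartB (cutOver A E) J_E),
      sB x - x ∈ Ideal.span {algebraMap (cutOver A E) ↥(H40.chartB (cutOver A E) J_E) π})
    (hL1 : ∀ (n₁ : Ideal ↥(H40.chartB (A0 A ℓ) J₁)) [n₁.IsMaximal],
      algebraMap (A0 A ℓ) ↥(H40.chartB (A0 A ℓ) J₁) ((ℓ : ℕ) : A0 A ℓ) ∈ n₁ →
        H61.L1At ((ℓ : ℕ) : A0 A ℓ) n₁) :
    letI := (chartBC (A := A) E N J₁ J_E h).toAlgebra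
    H61.ChartPkg ↥E ↥(H40.chartB (A0 A ℓ) J₁) π ((ℓ : ℕ) : A0 A ℓ) (coordB (R := cutOver A E) J_E)
      (inertiaActCutOver hℓ hA E σ hσ) sB (inertiaActFullC hℓ hA E N σ hσ) := by
  letI := (chartBC (A := A) E N J₁ J_E h).toAlgebra
  have hcomp : ∀ a : A0 A ℓ,
      algebraMap ↥(H40.chartB (A0 A ℓ) J₁) ↥(H40.chartB (cutOver A E) J_E)
        (algebraMap (A0 A ℓ) ↥(H40.chartB (A0 A ℓ) J₁) a) =
      algebraMap (cutOver A E) ↥(H40.chartB (cutOver A E) J_E)
        (algebraMap (A0 A ℓ) (cutOver A E) a) := chartBC_algebraMap E N J₁ J_E h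
  have hgenR := adjoin_chartBC_eq_top (A := A) E N J₁ J_E h hcl
  have h1 := exists_A0_add_mul hℓ hA E π hmax
  refine
    { hint := hint_chartB J_E
      hq0 := natCast_A0_cutOver_ne_zero hℓ hA E
      hπq := dvd_natCast_A0_cutOver hℓ hA E π hmax
      hcomp := hcomp
      hgenR := hgenR
      hnn := fun n _ hπn => CA.H56.le_map_comap_sup_span π hcomp hgenR h1 n hπn
      hmax := fun n hn hπn => by
        haveI := hn
        exact CA.H56.comap_isMaximal π hcomp hgenR h1 n hπn
      hσ := inertiaActCutOver_algebraMap_A0 hℓ hA E σ hσ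
      hsB := fun b => ?_
      hsA := fun a => ?_
      hs := fun b => hsB b
      hsπ := hsπ
      hL1 := hL1 }
  · apply Subtype.ext
    rw [← hsB]
    exact inertiaActFullC_chartBC hℓ hA E N J₁ J_E h σ hσ b
  · apply Subtype.ext
    rw [← hsB]
    exact inertiaActFullC_algebraMap_cutOver hℓ hA E N σ hσ a

end Fermat.Agent.S34.H56
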