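import Fermat.Agent.S34.H3_VerticalPrimes
import Fermat.Agent.S18.H40_CechFG

/-!
# S34 seam: the coordinate does not vanish identically on a vertical component

`R` an integrally closed domain, `π : R` prime, `J : F` transcendental over `R`.  Then no minimal
prime over `π` of the chart `chartB R J` (the integral closure of `R[J]` in `F`) contains `J`:
going-down for the integral extension `R[J] ⊆ chartB R J` of the normal domain `R[J]`
(Mathlib's `Algebra.HasGoingDown` instance) applied to `(π) < (π, J)`.
-/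

set_option autoImplicit false

open Polynomial Fermat.Agent.S18

namespace Fermat.Agent.S34.H3

section Abstract

variable {R : Type*} [CommRing R] {F : Type*} [Field F] [Algebra R F]

/-- Going-down, abstract subalgebra form: `A ≤ C` subalgebras of a field, `C` integral over the
integrally closed `A`; `p₀` a prime of `A`, `P` a prime of `C` minimal over some ideal `I` with
`I ≤ Q` for every prime `Q` of `C` over `p₀`.  If `p₀ ≤ P ∩ A` then `P ∩ A = p₀`. -/
theorem under_eq_of_minimal {A C : Subalgebra R F} (hAC : A ≤ C)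
    [IsIntegrallyClosed ↥A]
    (hint : ∀ x : ↥C, IsIntegral ↥A (x : F))
    (p₀ : Ideal ↥A) [p₀.IsPrime] (I : Ideal ↥C) (P : Ideal ↥C) (hP : P ∈ I.minimalPrimes)
    (hI : ∀ Q : Ideal ↥C, Q.IsPrime → p₀ ≤ Q.comap (Subalgebra.inclusion hAC) → I ≤ Q)
    (hle : p₀ ≤ P.comap (Subalgebra.inclusion hAC)) :
    P.comap (Subalgebra.inclusion hAC) = p₀ := by
  let _ : Algebra ↥A ↥C := (Subalgebra.inclusion hAC).toRingHom.toAlgebra
  have hst : IsScalarTower ↥A ↥C F := IsScalarTower.of_algebraMap_eq fun _ => rfl
  have hinjC : Function.Injective (algebraMap ↥C F) := Subtype.val_injective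
  have hinj : Function.Injective (algebraMap ↥A ↥C) := Subalgebra.inclusion_injective hAC
  have hfs : FaithfulSMul ↥A ↥C := (faithfulSMul_iff_algebraMap_injective _ _).2 hinj
  have hIC : Algebra.IsIntegral ↥A ↥C :=
    ⟨fun x => (isIntegral_algebraMap_iff hinjC).1 (hint x)⟩
  have hPp : P.IsPrime := hP.1.1
  by_contra hne
  have hlt : p₀ < P.under ↥A := lt_of_le_of_ne hle (fun h => hne h.symm)
  obtain ⟨Q, hQP, hQp, hQo⟩ := Algebra.HasGoingDown.exists_ideal_le_liesOver_of_lt P hlt
  have hQle : p₀ ≤ Q.comap (Subalgebra.inclusion hAC) := by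
    have := hQo.over
    intro x hx
    rw [this] at hx
    exact hx
  have hIQ : I ≤ Q := hI Q hQp hQle
  have hPQ : P ≤ Q := hP.2 ⟨hQp, hIQ⟩ hQP
  have hQeq : Q = P := le_antisymm hQP hPQ
  apply hne
  have := hQo.over
  rw [hQeq] at this
  exact this.symm

end Abstract

section Chart

variable {R : Type*} [CommRing R] [IsDomain R] [IsIntegrallyClosed R]
  {F : Type*} [Field F] [Algebra R F]

/-- **The coordinate does not vanish identically on a vertical component.** -/
theorem coord_notMem_vert (J : F) (htr : Transcendental R J) (π : R) (hπ : Prime π)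
    (P : Vert (algebraMap R ↥(H40.chartB R J) π)) :
    (⟨J, H40.self_mem_chartB J⟩ : ↥(H40.chartB R J)) ∉ (P : Ideal ↥(H40.chartB R J)) := by
  set A : Subalgebra R F := Algebra.adjoin R {J} with hA
  have hAC : A ≤ H40.chartB R J := H40.adjoin_le_chartB J
  let e : R[X] ≃ₐ[R] ↥A := Polynomial.algEquivOfTranscendental R J htr
  have hA2 : IsIntegrallyClosed ↥A := IsIntegrallyClosed.of_equiv e.toRingEquiv
  have heX : e X = ⟨J, Algebra.self_mem_adjoin_singleton R J⟩ := by
    apply Subtype.ext
    simp [e, Polynomial.algEquivOfTranscendental]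
  have heC : e (C π) = algebraMap R ↥A π := by
    have : (C π : R[X]) = algebraMap R R[X] π := rfl
    rw [this, AlgEquiv.commutes]
  -- the prime `p₀ = (π)` of `R[J]`
  have hπA : Prime (algebraMap R ↥A π) := by
    rw [← heC]
    exact (MulEquiv.prime_iff e.toMulEquiv).2 (Polynomial.prime_C_iff.2 hπ)
  have hp₀ : (Ideal.span {algebraMap R ↥A π} : Ideal ↥A).IsPrime :=
    (Ideal.span_singleton_prime hπA.ne_zero).2 hπA
  -- `J ∉ (π)`
  have hJ₀ : (⟨J, Algebra.self_mem_adjoin_singleton R J⟩ : ↥A) ∉
      (Ideal.span {algebraMap R ↥A π} : Ideal ↥A) := by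
    rw [Ideal.mem_span_singleton]
    rintro ⟨a, ha⟩
    have h1 : (X : R[X]) = C π * e.symm a := by
      apply e.injective
      rw [map_mul, heX, heC, AlgEquiv.apply_symm_apply, ha]
    have h2 := congrArg (fun f : R[X] => f.coeff 1) h1
    simp only [coeff_X_one, coeff_C_mul] at h2
    exact hπ.not_isUnit (IsUnit.of_mul_eq_one _ h2.symm)
  have hint : ∀ x : ↥(H40.chartB R J), IsIntegral ↥A (x : F) := fun x => H40.mem_chartB.1 x.2
  have hPmem : algebraMap R ↥(H40.chartB R J) π ∈ (P : Ideal ↥(H40.chartB R J)) := P.mem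
  have hcomm : ∀ r : R, Subalgebra.inclusion hAC (algebraMap R ↥A r) =
      algebraMap R ↥(H40.chartB R J) r := fun r => (Subalgebra.inclusion hAC).commutes r
  have hunder := under_eq_of_minimal hAC hint (Ideal.span {algebraMap R ↥A π})
    (Ideal.span {algebraMap R ↥(H40.chartB R J) π}) (P : Ideal ↥(H40.chartB R J)) P.2
    (fun Q _ hQ => by
      rw [Ideal.span_singleton_le_iff_mem, ← hcomm]
      exact hQ (Ideal.mem_span_singleton_self _))
    (by
      rw [Ideal.span_singleton_le_iff_mem, Ideal.mem_comap, hcomm]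
      exact hPmem)
  intro hJP
  apply hJ₀
  rw [← hunder, Ideal.mem_comap]
  exact hJP

end Chart

end Fermat.Agent.S34.H3
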