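import Fermat.Agent.S34.H3_VertPkg
import Fermat.Agent.S34.H3_CoordNotMemVert

/-!
# S34 seam: the vertical package from reducedness of the two special fibres ALONE

`vertPkg_of_hrad` / `exists_const_mul_pow_of_hrad` = `vertPkg_of_reduced` /
`exists_const_mul_pow_of_reduced` with the hypotheses `hJ₁ hJ₂` discharged by going-down
(`coord_notMem_vert`).
-/

set_option autoImplicit false
set_option linter.unusedSectionVars false

open Polynomial IntermediateField Fermat.Agent.S18 Fermat.Agent.CA.H69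

namespace Fermat.Agent.S34.H3

universe v

variable {R : Type*} [CommRing R] [IsDomain R] [IsDiscreteValuationRing R]
  {K : Type*} [Field K] [Algebra R K] [IsFractionRing R K]
  {F : Type v} [Field F] [Algebra R F] [Algebra K F] [IsScalarTower R K F]
  (J : F) (htr : Transcendental K J) [FiniteDimensional K⟮J⟯ F]
  [Algebra.IsSeparable K⟮J⟯ F] (π : R) (hπ : Irreducible π)

include htr hπ in
theorem hJ₁_of_transcendental (P : Vert (algebraMap R ↥(H40.chartB R J) π)) :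
    (⟨J, H40.self_mem_chartB J⟩ : ↥(H40.chartB R J)) ∉ (P : Ideal ↥(H40.chartB R J)) :=
  coord_notMem_vert J (H40.transcendental_of_tower J htr) π hπ.prime P

include htr hπ in
theorem hJ₂_of_transcendental (P : Vert (algebraMap R ↥(H40.chartB R J⁻¹) π)) :
    (⟨J⁻¹, H40.self_mem_chartB J⁻¹⟩ : ↥(H40.chartB R J⁻¹)) ∉
      (P : Ideal ↥(H40.chartB R J⁻¹)) :=
  coord_notMem_vert J⁻¹
    (H40.transcendental_of_tower J⁻¹ (fun h => htr (by simpa using h.inv))) π hπ.prime P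

include htr hπ in
/-- **Producer of `H61.VertPkg`**: only the reducedness of the two special fibres is needed. -/
theorem vertPkg_of_hrad
    (hcl : ∀ z : F, IsAlgebraic K z → z ∈ (algebraMap K F).range)
    {l : ℕ} (hl : l.Prime) (hlu : IsUnit ((l : ℕ) : R)) {ζ : R} (hζ : IsPrimitiveRoot ζ l)
    (hroot : ∀ r : R, IsUnit r → ∃ γ : R, IsUnit γ ∧ π ∣ γ ^ l * r - 1)
    (hrad₁ : ∀ b : ↥(H40.chartB R J),
      (∃ n : ℕ, algebraMap R ↥(H40.chartB R J) π ∣ b ^ n) →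
        algebraMap R ↥(H40.chartB R J) π ∣ b)
    (hrad₂ : ∀ b : ↥(H40.chartB R J⁻¹),
      (∃ n : ℕ, algebraMap R ↥(H40.chartB R J⁻¹) π ∣ b ^ n) →
        algebraMap R ↥(H40.chartB R J⁻¹) π ∣ b) :
    H61.VertPkg (K := K) J π l ζ (vertP₁ J π) (vertP₂ J π)
      (fun k : VertIdx (R := R) J π => (k : Ideal ↥(H83.chart12 R J))) :=
  vertPkg_of_reduced J htr π hπ hcl hl hlu hζ hroot hrad₁ hrad₂
    (hJ₁_of_transcendental J htr π hπ) (hJ₂_of_transcendental J htr π hπ)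

include htr hπ in
/-- **MIDDLE theorem of `H61_ChainSkeleton`, vertical side = two reducedness hypotheses.** -/
theorem exists_const_mul_pow_of_hrad
    {A₁ : Type*} [CommRing A₁] [Algebra A₁ R]
    [IsFractionRing ↥(H40.chartB R J) F] [IsFractionRing ↥(H40.chartB R J⁻¹) F]
    [IsNoetherianRing ↥(H40.chartB R J)] [IsIntegrallyClosed ↥(H40.chartB R J)]
    [IsNoetherianRing ↥(H40.chartB R J⁻¹)] [IsIntegrallyClosed ↥(H40.chartB R J⁻¹)]
    (hcl : ∀ z : F, IsAlgebraic K z → z ∈ (algebraMap K F).range)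
    {l : ℕ} (hl : l.Prime) (hlu : IsUnit ((l : ℕ) : R)) {ζ : R} (hζ : IsPrimitiveRoot ζ l)
    (hroot : ∀ r : R, IsUnit r → ∃ γ : R, IsUnit γ ∧ π ∣ γ ^ l * r - 1)
    (hrad₁ : ∀ b : ↥(H40.chartB R J),
      (∃ n : ℕ, algebraMap R ↥(H40.chartB R J) π ∣ b ^ n) →
        algebraMap R ↥(H40.chartB R J) π ∣ b)
    (hrad₂ : ∀ b : ↥(H40.chartB R J⁻¹),
      (∃ n : ℕ, algebraMap R ↥(H40.chartB R J⁻¹) π ∣ b ^ n) →
        algebraMap R ↥(H40.chartB R J⁻¹) π ∣ b)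
    (q : A₁) (σ : R ≃+* R) (s : F ≃+* F)
    {B₁₁ : Type*} [CommRing B₁₁] [Algebra A₁ B₁₁] [Algebra B₁₁ ↥(H40.chartB R J)]
    (J₁ : ↥(H40.chartB R J)) (sB₁ : ↥(H40.chartB R J) ≃+* ↥(H40.chartB R J))
    (C₁ : H61.ChartPkg K B₁₁ π q J₁ σ sB₁ s)
    {B₁₂ : Type*} [CommRing B₁₂] [Algebra A₁ B₁₂] [Algebra B₁₂ ↥(H40.chartB R J⁻¹)]
    (J₂ : ↥(H40.chartB R J⁻¹)) (sB₂ : ↥(H40.chartB R J⁻¹) ≃+* ↥(H40.chartB R J⁻¹))
    (C₂ : H61.ChartPkg K B₁₂ π q J₂ σ sB₂ s) :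
    ∀ (k : ℕ) (f : F), H61.Admissible K f (l ^ k) →
      ∃ (c : K) (g : F), c ≠ 0 ∧ g ≠ 0 ∧
        s (s f / f) / (s f / f) = algebraMap K F c * g ^ (l ^ k) :=
  exists_const_mul_pow_of_reduced J htr π hπ hcl hl hlu hζ hroot hrad₁ hrad₂
    (hJ₁_of_transcendental J htr π hπ) (hJ₂_of_transcendental J htr π hπ)
    q σ s J₁ sB₁ C₁ J₂ sB₂ C₂

end Fermat.Agent.S34.H3
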