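import Fermat.Agent.S34.H3_RadTransfer
import Fermat.Agent.CA.H79_BaseChangeFibre

/-!
# S34 seam: `hrad` over `A''` from `hrad` over `A₁`

`hrad_of_fibre` : in the binder block of helper79's `CA.H79.isReduced_fibre`
(`A₁ → A₂`, `B` an `A₁`-algebra, `E` a field containing `B` and `A₂`, hypotheses `h1 h2 h3 hLD`),
if the special fibre `B / q` is reduced (`hradB`), then for every subring-like `s ⊆ E` with the
same carrier as `genRing A₂ B E = B · A₂` (e.g. `s := H40.chartB A'' J''`, by helper40's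
`mem_chartB_cutOver_iff` / helper79's `isIntegral_iff_mem_genRing`) and `p : s` with
`(p : E) = π`, the special fibre `s / p` is reduced.
-/

set_option autoImplicit false

namespace Fermat.Agent.S34.H3

open Fermat.Agent.CA.H79

variable {A₁ A₂ B E : Type*} [CommRing A₁] [IsDomain A₁] [IsPrincipalIdealRing A₁]
  [CommRing A₂] [Algebra A₁ A₂] [Module.IsTorsionFree A₁ A₂]
  [CommRing B] [Algebra A₁ B]
  [Field E] [Algebra A₁ E] [Algebra A₂ E] [Algebra B E]
  [IsScalarTower A₁ A₂ E] [IsScalarTower A₁ B E]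

/-- **Reducedness of the special fibre passes from the `A₁`-chart to the `A''`-chart.** -/
theorem hrad_of_fibre (q : A₁) (π : A₂)
    (h1 : ∀ a : A₂, ∃ c : A₁, ∃ a' : A₂, a = algebraMap A₁ A₂ c + π * a')
    (h2 : ∀ c : A₁, π ∣ algebraMap A₁ A₂ c → q ∣ c)
    (h3 : π ∣ algebraMap A₁ A₂ q)
    (hLD : ∀ (r : ℕ) (m : Fin r → A₂), LinearIndependent A₁ m →
      LinearIndependent B (fun l => algebraMap A₂ E (m l)))
    (hradB : ∀ b : B, (∃ n : ℕ, algebraMap A₁ B q ∣ b ^ n) → algebraMap A₁ B q ∣ b)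
    {S : Type*} [SetLike S E] [SubringClass S E] (s : S)
    (hs : ∀ z : E, z ∈ s ↔ z ∈ genRing A₂ B E)
    (p : ↥s) (hp : (p : E) = algebraMap A₂ E π) :
    ∀ b : ↥s, (∃ n : ℕ, p ∣ b ^ n) → p ∣ b := by
  have : IsReduced (B ⧸ Ideal.span {algebraMap A₁ B q}) := isReduced_of_hrad hradB
  have hred : IsReduced (genRing A₂ B E ⧸ Ideal.span {piGen B E π}) :=
    isReduced_fibre (E := E) q π h1 h2 h3 hLD
  refine hrad_of_carrier_eq (genRing A₂ B E) s ?_ (piGen B E π) p ?_ hrad_of_isReduced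
  · ext z; exact (hs z).symm
  · rw [hp]; rfl

end Fermat.Agent.S34.H3
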