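import Mathlib
import Fermat.Agent.S34.H3_RadBaseChange
import Fermat.Agent.S34.H70_BaseChangeInst
import Fermat.Agent.CA.H79_GenTopBridge

/-!
# S34, MIDDLE layer (helper61): reducedness of the special fibre of the `A''`-charts

`hrad_chartB_cutOver` : helper3's `H3.hrad_of_fibre` at the concrete types
`A₁ := A0 A ℓ`, `A₂ := A'' = cutOver A E`, `B := chartB A₁ J₁ ⊆ F1`, `E := F_E = fullC ↥E N`
(helper70's instance layer `algA0FE`, `algSubFE`, `h1_inst`, `h2_inst`, `h3_inst`, `hLD_inst`):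
if the special fibre of the `A₁`-chart is reduced (`hradB`, from L0 via
`H3.hrad_of_twoComponents`) and the `A''`-chart is generated by the `A₁`-chart and `A''`
(`hmem`, helper40's (a)' `mem_chartB_cutOver_iff`), then the special fibre of the `A''`-chart is
reduced, in the `hrad` shape of `H61.middle_cutOver` / `H3.vertPkg_of_hrad`.
-/

set_option autoImplicit false
set_option linter.unusedSectionVars false
set_option linter.style.haveILetI false
set_option synthInstance.maxHeartbeats 400000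
set_option maxHeartbeats 3200000

noncomputable section

namespace Fermat.Agent.S34.H61

open ModularCurve HahnSeries IntermediateField IsLocalRing
open Fermat.Agent.S18 Fermat.Agent.S18.H45 Fermat.Agent.CA

local notation "Qbar" => AlgebraicClosure ℚ

variable {A : ValuationSubring Qbar} {ℓ : ℕ} (hℓ : ℓ.Prime) (hA : A.LiesOverPrime ℓ)
variable (E : IntermediateField (unrCyclo ℓ) Qbar) (N : ℕ) [NeZero N]

include hℓ hA in
/-- **Reducedness of the special fibre of an `A''`-chart** from the `A₁`-chart. -/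
theorem hrad_chartB_cutOver
    (J₁ : modularFunctionFieldFullC (unrCyclo ℓ) N) (J_E : modularFunctionFieldFullC ↥E N)
    (π : cutOver A E) (hπ : maximalIdeal (cutOver A E) = Ideal.span {π})
    (hmem : ∀ z : modularFunctionFieldFullC ↥E N, z ∈ H40.chartB (cutOver A E) J_E ↔
      z ∈ Subring.closure
        (Set.range (fun b : ↥(H40.chartB (A0 A ℓ) J₁) =>
            baseChangeE E N (b : modularFunctionFieldFullC (unrCyclo ℓ) N)) ∪
          Set.range (algebraMap (cutOver A E) (modularFunctionFieldFullC ↥E N))))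
    (hradB : ∀ b : ↥(H40.chartB (A0 A ℓ) J₁),
      (∃ n : ℕ, algebraMap (A0 A ℓ) ↥(H40.chartB (A0 A ℓ) J₁) ((ℓ : ℕ) : A0 A ℓ) ∣ b ^ n) →
        algebraMap (A0 A ℓ) ↥(H40.chartB (A0 A ℓ) J₁) ((ℓ : ℕ) : A0 A ℓ) ∣ b) :
    ∀ b : ↥(H40.chartB (cutOver A E) J_E),
      (∃ n : ℕ, algebraMap (cutOver A E) ↥(H40.chartB (cutOver A E) J_E) π ∣ b ^ n) →
        algebraMap (cutOver A E) ↥(H40.chartB (cutOver A E) J_E) π ∣ b := by
  letI := H70.algA0FE (A := A) E N
  letI := H70.algSubFE (A := A) E N (H40.chartB (A0 A ℓ) J₁)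
  haveI := H70.isScalarTower_A0_cutOver_FE (A := A) (q := ℓ) E N
  haveI := H70.isScalarTower_A0_sub_FE (A := A) (q := ℓ) E N (H40.chartB (A0 A ℓ) J₁)
  haveI := isDiscreteValuationRing_A0 hℓ hA
  refine H3.hrad_of_fibre (A₁ := A0 A ℓ) (A₂ := cutOver A E) (B := ↥(H40.chartB (A0 A ℓ) J₁))
    (E := modularFunctionFieldFullC ↥E N) ((ℓ : ℕ) : A0 A ℓ) π
    (H70.h1_inst hℓ hA E π hπ) (H70.h2_inst hℓ hA E π hπ) (H70.h3_inst hℓ hA E π hπ)
    (H70.hLD_inst (A := A) (q := ℓ) E N (H40.chartB (A0 A ℓ) J₁)) hradB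
    (H40.chartB (cutOver A E) J_E) (fun z => ?_)
    (algebraMap (cutOver A E) ↥(H40.chartB (cutOver A E) J_E) π) rfl
  rw [hmem z, H79.mem_genRing_iff_mem_closure]
  rfl

end Fermat.Agent.S34.H61
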