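import Mathlib
import Fermat.Agent.S34.H61_MiddleCutOver
import Fermat.Agent.S34.H61_RadCutOver
import Fermat.Agent.S34.H3_VertPkgFinal

/-!
# S34, MIDDLE layer (helper61): the final MIDDLE theorem at the concrete types

`middle_of_chartPkg` : at `R := A'' = cutOver A E`, `K := ↥E`, `F := F_E = fullC ↥E N`,
`J := H95.JK ↥E N q hq`, for `p ≠ ℓ`:

* the two chart packages `H61.ChartPkg` (helper56's `H56_ChartPkgInst`),
* reducedness of the special fibres of the two `A₁`-charts (`hradB₁ hradB₂`, L0 via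
  `H3.hrad_of_twoComponents`),
* helper40's (a)' for the two charts (`hmem₁ hmem₂`),

give, for every admissible `f` (helper11's `UFnE` hypotheses at `m = p ^ k`),
`s (s f / f) / (s f / f) = c * g ^ (p ^ k)` with `c : ↥E`, `g : F_E`.
-/

set_option autoImplicit false
set_option linter.unusedSectionVars false
set_option linter.style.haveILetI false
set_option synthInstance.maxHeartbeats 400000
set_option maxHeartbeats 3200000

noncomputable section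

namespace Fermat.Agent.S34.H61

open ModularCurve HahnSeries IntermediateField IsLocalRing
open Fermat.Agent.S18 Fermat.Agent.S18.H45

local notation "Qbar" => AlgebraicClosure ℚ

variable {A : ValuationSubring Qbar} {ℓ : ℕ} (hℓ : ℓ.Prime) (hA : A.LiesOverPrime ℓ)
variable (E : IntermediateField (unrCyclo ℓ) Qbar) [FiniteDimensional (unrCyclo ℓ) E]
variable (N : ℕ) [NeZero N] (q : ℕ) [NeZero q] (hq : q ∣ N)

include hℓ hA in
/-- **MIDDLE at the concrete types, vertical side = two reducedness hypotheses over `A''`,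
horizontal side = two chart packages.** -/
theorem middle_of_chartPkg_hrad {p : ℕ} (hp : p.Prime) (hpℓ : p ≠ ℓ)
    (s : modularFunctionFieldFullC ↥E N ≃+* modularFunctionFieldFullC ↥E N)
    (π : cutOver A E) (hmax : maximalIdeal (cutOver A E) = Ideal.span {π})
    (hrad₁ : ∀ b : ↥(H40.chartB (cutOver A E) (H95.JK ↥E N q hq)),
      (∃ n : ℕ, algebraMap (cutOver A E) ↥(H40.chartB (cutOver A E) (H95.JK ↥E N q hq)) π ∣ b ^ n) →
        algebraMap (cutOver A E) ↥(H40.chartB (cutOver A E) (H95.JK ↥E N q hq)) π ∣ b)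
    (hrad₂ : ∀ b : ↥(H40.chartB (cutOver A E) (H95.JK ↥E N q hq)⁻¹),
      (∃ n : ℕ,
        algebraMap (cutOver A E) ↥(H40.chartB (cutOver A E) (H95.JK ↥E N q hq)⁻¹) π ∣ b ^ n) →
        algebraMap (cutOver A E) ↥(H40.chartB (cutOver A E) (H95.JK ↥E N q hq)⁻¹) π ∣ b)
    {A₁ : Type*} [CommRing A₁] [Algebra A₁ (cutOver A E)] (qA : A₁)
    (σR : cutOver A E ≃+* cutOver A E)
    {B₁₁ : Type*} [CommRing B₁₁] [Algebra A₁ B₁₁]
    [Algebra B₁₁ ↥(H40.chartB (cutOver A E) (H95.JK ↥E N q hq))]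
    (Jc₁ : ↥(H40.chartB (cutOver A E) (H95.JK ↥E N q hq)))
    (sB₁ : ↥(H40.chartB (cutOver A E) (H95.JK ↥E N q hq)) ≃+*
      ↥(H40.chartB (cutOver A E) (H95.JK ↥E N q hq)))
    (C₁ : ChartPkg ↥E B₁₁ π qA Jc₁ σR sB₁ s)
    {B₁₂ : Type*} [CommRing B₁₂] [Algebra A₁ B₁₂]
    [Algebra B₁₂ ↥(H40.chartB (cutOver A E) (H95.JK ↥E N q hq)⁻¹)]
    (Jc₂ : ↥(H40.chartB (cutOver A E) (H95.JK ↥E N q hq)⁻¹))
    (sB₂ : ↥(H40.chartB (cutOver A E) (H95.JK ↥E N q hq)⁻¹) ≃+*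
      ↥(H40.chartB (cutOver A E) (H95.JK ↥E N q hq)⁻¹))
    (C₂ : ChartPkg ↥E B₁₂ π qA Jc₂ σR sB₂ s) :
    ∀ (k : ℕ) (f : modularFunctionFieldFullC ↥E N), Admissible ↥E f (p ^ k) →
      ∃ (c : ↥E) (g : modularFunctionFieldFullC ↥E N), c ≠ 0 ∧ g ≠ 0 ∧
        s (s f / f) / (s f / f) =
          algebraMap ↥E (modularFunctionFieldFullC ↥E N) c * g ^ (p ^ k) := by
  haveI := isDiscreteValuationRing_cutOver hℓ hA E
  haveI := H95.finiteDimensional_JK ↥E N q hq (H99.natCast_ne_zero₀ N ↥E)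
  haveI := H95.isSeparable_JK ↥E N q hq
  haveI := H95.isFractionRing_chartB_JK (A := A) E N q hq
  haveI := H95.isFractionRing_chartB_JK_inv (A := A) E N q hq
  haveI := H95.isNoetherianRing_chartB_JK hℓ hA E N q hq
  haveI := H95.isNoetherianRing_chartB_JK_inv hℓ hA E N q hq
  haveI := H95.isIntegrallyClosed_chartB_JK (A := A) E N q hq
  haveI := H95.isIntegrallyClosed_chartB_JK_inv (A := A) E N q hq
  have hπ : Irreducible π := irreducible_of_maximalIdeal_cutOver_eq hℓ hA E hmax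
  have htr := H95.transcendental_JK ↥E N q hq
  exact middle_cutOver hℓ hA E N q hq hp hpℓ s π hmax hrad₁ hrad₂
    (H3.hJ₁_of_transcendental (R := cutOver A E) (K := ↥E) (H95.JK ↥E N q hq) htr π hπ)
    (H3.hJ₂_of_transcendental (R := cutOver A E) (K := ↥E) (H95.JK ↥E N q hq) htr π hπ)
    (C₁.chartDatum hπ) (C₂.chartDatum hπ)

include hℓ hA in
/-- **MIDDLE at the concrete types, final form**: vertical side = reducedness of the special
fibres of the two `A₁`-charts (L0) + helper40's (a)' for the two charts. -/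
theorem middle_of_chartPkg {p : ℕ} (hp : p.Prime) (hpℓ : p ≠ ℓ)
    (s : modularFunctionFieldFullC ↥E N ≃+* modularFunctionFieldFullC ↥E N)
    (π : cutOver A E) (hmax : maximalIdeal (cutOver A E) = Ideal.span {π})
    (hmem₁ : ∀ z : modularFunctionFieldFullC ↥E N,
      z ∈ H40.chartB (cutOver A E) (H95.JK ↥E N q hq) ↔
      z ∈ Subring.closure
        (Set.range (fun b : ↥(H40.chartB (A0 A ℓ) (H95.JK (unrCyclo ℓ) N q hq)) =>
            baseChangeE E N (b : modularFunctionFieldFullC (unrCyclo ℓ) N)) ∪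
          Set.range (algebraMap (cutOver A E) (modularFunctionFieldFullC ↥E N))))
    (hmem₂ : ∀ z : modularFunctionFieldFullC ↥E N,
      z ∈ H40.chartB (cutOver A E) (H95.JK ↥E N q hq)⁻¹ ↔
      z ∈ Subring.closure
        (Set.range (fun b : ↥(H40.chartB (A0 A ℓ) (H95.JK (unrCyclo ℓ) N q hq)⁻¹) =>
            baseChangeE E N (b : modularFunctionFieldFullC (unrCyclo ℓ) N)) ∪
          Set.range (algebraMap (cutOver A E) (modularFunctionFieldFullC ↥E N))))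
    (hradB₁ : ∀ b : ↥(H40.chartB (A0 A ℓ) (H95.JK (unrCyclo ℓ) N q hq)),
      (∃ n : ℕ, algebraMap (A0 A ℓ) ↥(H40.chartB (A0 A ℓ) (H95.JK (unrCyclo ℓ) N q hq))
          ((ℓ : ℕ) : A0 A ℓ) ∣ b ^ n) →
        algebraMap (A0 A ℓ) ↥(H40.chartB (A0 A ℓ) (H95.JK (unrCyclo ℓ) N q hq))
          ((ℓ : ℕ) : A0 A ℓ) ∣ b)
    (hradB₂ : ∀ b : ↥(H40.chartB (A0 A ℓ) (H95.JK (unrCyclo ℓ) N q hq)⁻¹),
      (∃ n : ℕ, algebraMap (A0 A ℓ) ↥(H40.chartB (A0 A ℓ) (H95.JK (unrCyclo ℓ) N q hq)⁻¹)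
          ((ℓ : ℕ) : A0 A ℓ) ∣ b ^ n) →
        algebraMap (A0 A ℓ) ↥(H40.chartB (A0 A ℓ) (H95.JK (unrCyclo ℓ) N q hq)⁻¹)
          ((ℓ : ℕ) : A0 A ℓ) ∣ b)
    {A₁ : Type*} [CommRing A₁] [Algebra A₁ (cutOver A E)] (qA : A₁)
    (σR : cutOver A E ≃+* cutOver A E)
    {B₁₁ : Type*} [CommRing B₁₁] [Algebra A₁ B₁₁]
    [Algebra B₁₁ ↥(H40.chartB (cutOver A E) (H95.JK ↥E N q hq))]
    (Jc₁ : ↥(H40.chartB (cutOver A E) (H95.JK ↥E N q hq)))
    (sB₁ : ↥(H40.chartB (cutOver A E) (H95.JK ↥E N q hq)) ≃+*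
      ↥(H40.chartB (cutOver A E) (H95.JK ↥E N q hq)))
    (C₁ : ChartPkg ↥E B₁₁ π qA Jc₁ σR sB₁ s)
    {B₁₂ : Type*} [CommRing B₁₂] [Algebra A₁ B₁₂]
    [Algebra B₁₂ ↥(H40.chartB (cutOver A E) (H95.JK ↥E N q hq)⁻¹)]
    (Jc₂ : ↥(H40.chartB (cutOver A E) (H95.JK ↥E N q hq)⁻¹))
    (sB₂ : ↥(H40.chartB (cutOver A E) (H95.JK ↥E N q hq)⁻¹) ≃+*
      ↥(H40.chartB (cutOver A E) (H95.JK ↥E N q hq)⁻¹))
    (C₂ : ChartPkg ↥E B₁₂ π qA Jc₂ σR sB₂ s) :
    ∀ (k : ℕ) (f : modularFunctionFieldFullC ↥E N), Admissible ↥E f (p ^ k) →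
      ∃ (c : ↥E) (g : modularFunctionFieldFullC ↥E N), c ≠ 0 ∧ g ≠ 0 ∧
        s (s f / f) / (s f / f) =
          algebraMap ↥E (modularFunctionFieldFullC ↥E N) c * g ^ (p ^ k) :=
  middle_of_chartPkg_hrad hℓ hA E N q hq hp hpℓ s π hmax
    (hrad_chartB_cutOver hℓ hA E N _ _ π hmax hmem₁ hradB₁)
    (hrad_chartB_cutOver hℓ hA E N _ _ π hmax hmem₂ hradB₂)
    qA σR Jc₁ sB₁ C₁ Jc₂ sB₂ C₂

end Fermat.Agent.S34.H61
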