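import Mathlib
import Fermat.Agent.S34.H61_MiddleFinal
import Fermat.Agent.S34.H56_ChartPkgInst
import Fermat.Agent.S34.H40_BaseChangeAut
import Fermat.Agent.S34.H34_DescTwin

/-!
# S34, MIDDLE layer (helper61): the MIDDLE with L0 / L1 as the ONLY inputs

`middle_of_L0` : at `R := A'' = cutOver A E` (`E / K1` finite normal), `F := F_E`,
`J := H95.JK ↥E N q hq`, `s := H45.inertiaActFullC hℓ hA E N σ hσ`, `p ≠ ℓ`.  The inputs are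
statements about the two `A₁`-charts `chartB (A0 A ℓ) J₁^(±1)` (`J₁ := H95.JK K1 N q hq`) ONLY:

* `hradB₁ hradB₂` : their special fibres are reduced (L0, `H3.hrad_of_twoComponents`),
* `hL1₁ hL1₂`   : the L1 output at every closed point of their special fibres
  (helper83 `TwoComponents.hL1_chart`).

Everything else is wired from main: helper40's (a)' / (c) (`S34.H40.mem_chartB_cutOver_iff`,
`exists_inertiaAct_chartB`), helper56's `H56.chartPkg_of_chartBC`, `H61.middle_of_chartPkg`.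

`uFnE_of_L0` : the same conclusion in helper34's `H34.UFnE` shape (input of `H34.uFn_of_uFnE`).
-/

set_option autoImplicit false
set_option linter.unusedSectionVars false
set_option linter.style.haveILetI false
set_option synthInstance.maxHeartbeats 400000
set_option maxHeartbeats 3200000

noncomputable section

namespace Fermat.Agent.S34.H61

open ModularCurve HahnSeries IntermediateField IsLocalRing AlgebraicCurve
open Fermat.Agent.S18 Fermat.Agent.S18.H45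

local notation "Qbar" => AlgebraicClosure ℚ

variable {A : ValuationSubring Qbar} {ℓ : ℕ} (hℓ : ℓ.Prime) (hA : A.LiesOverPrime ℓ)
variable (E : IntermediateField (unrCyclo ℓ) Qbar) [FiniteDimensional (unrCyclo ℓ) E]
  [Normal (unrCyclo ℓ) E]
variable (N : ℕ) [NeZero N] (q : ℕ) [NeZero q] (hq : q ∣ N)

section Primed

variable (J₁ : modularFunctionFieldFullC (unrCyclo ℓ) N) (J_E : modularFunctionFieldFullC ↥E N)
  (h : baseChangeE E N J₁ = J_E)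
  [FiniteDimensional (unrCyclo ℓ)⟮J₁⟯ (modularFunctionFieldFullC (unrCyclo ℓ) N)]
  [IsReduced (↥(H40.chartB (A0 A ℓ) J₁) ⧸
    Ideal.span {algebraMap (A0 A ℓ) ↥(H40.chartB (A0 A ℓ) J₁) ((ℓ : ℕ) : A0 A ℓ)})]

include hℓ hA h in
omit [Normal (unrCyclo ℓ) E] in
/-- helper40's (a)' with the chart coordinate of `F_E` named. -/
theorem mem_chartB_cutOver_iff' (z : modularFunctionFieldFullC ↥E N) :
    z ∈ H40.chartB (cutOver A E) J_E ↔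
      z ∈ Subring.closure
        (Set.range (fun b : ↥(H40.chartB (A0 A ℓ) J₁) =>
            baseChangeE E N (b : modularFunctionFieldFullC (unrCyclo ℓ) N)) ∪
          Set.range (algebraMap (cutOver A E) (modularFunctionFieldFullC ↥E N))) := by
  subst h
  exact S34.H40.mem_chartB_cutOver_iff hℓ hA E N J₁ z

include hℓ hA h in
/-- helper40's (c) with the chart coordinate of `F_E` named. -/
theorem exists_inertiaAct_chartB' (σ : Qbar ≃ₐ[ℚ] Qbar) (hσ : σ ∈ A.inertiaSubgroupIn ℚ)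
    (π : cutOver A E) (hπ : maximalIdeal (cutOver A E) = Ideal.span {π}) :
    ∃ sS : ↥(H40.chartB (cutOver A E) J_E) ≃+* ↥(H40.chartB (cutOver A E) J_E),
      (∀ x : ↥(H40.chartB (cutOver A E) J_E),
        inertiaActFullC hℓ hA E N σ hσ (x : modularFunctionFieldFullC ↥E N) =
          (sS x : modularFunctionFieldFullC ↥E N)) ∧
      ∀ x : ↥(H40.chartB (cutOver A E) J_E),
        sS x - x ∈ Ideal.span {algebraMap (cutOver A E) ↥(H40.chartB (cutOver A E) J_E) π} := by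
  subst h
  exact S34.H40.exists_inertiaAct_chartB hℓ hA E N J₁ σ hσ π hπ

end Primed

include hℓ hA in
/-- **MIDDLE with L0 / L1 over `A₁` as the only inputs.** -/
theorem middle_of_L0 {p : ℕ} (hp : p.Prime) (hpℓ : p ≠ ℓ)
    (σ : Qbar ≃ₐ[ℚ] Qbar) (hσ : σ ∈ A.inertiaSubgroupIn ℚ)
    (hradB₁ : ∀ b : ↥(H40.chartB (A0 A ℓ) (H95.JK (unrCyclo ℓ) N q hq)),
      (∃ n : ℕ, algebraMap (A0 A ℓ) ↥(H40.chartB (A0 A ℓ) (H95.JK (unrCyclo ℓ) N q hq))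
          ((ℓ : ℕ) : A0 A ℓ) ∣ b ^ n) →
        algebraMap (A0 A ℓ) ↥(H40.chartB (A0 A ℓ) (H95.JK (unrCyclo ℓ) N q hq))
          ((ℓ : ℕ) : A0 A ℓ) ∣ b)
    (hradB₂ : ∀ b : ↥(H40.chartB (A0 A ℓ) (H95.JK (unrCyclo ℓ) N q hq)⁻¹),
      (∃ n : ℕ, algebraMap (A0 A ℓ) ↥(H40.chartB (A0 A ℓ) (H95.JK (unrCyclo ℓ) N q hq)⁻¹)
          ((ℓ : ℕ) : A0 A ℓ) ∣ b ^ n) →
        algebraMap (A0 A ℓ) ↥(H40.chartB (A0 A ℓ) (H95.JK (unrCyclo ℓ) N q hq)⁻¹)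
          ((ℓ : ℕ) : A0 A ℓ) ∣ b)
    (hL1₁ : ∀ (n₁ : Ideal ↥(H40.chartB (A0 A ℓ) (H95.JK (unrCyclo ℓ) N q hq))) [n₁.IsMaximal],
      algebraMap (A0 A ℓ) ↥(H40.chartB (A0 A ℓ) (H95.JK (unrCyclo ℓ) N q hq))
          ((ℓ : ℕ) : A0 A ℓ) ∈ n₁ →
        L1At ((ℓ : ℕ) : A0 A ℓ) n₁)
    (hL1₂ : ∀ (n₁ : Ideal ↥(H40.chartB (A0 A ℓ) (H95.JK (unrCyclo ℓ) N q hq)⁻¹)) [n₁.IsMaximal],
      algebraMap (A0 A ℓ) ↥(H40.chartB (A0 A ℓ) (H95.JK (unrCyclo ℓ) N q hq)⁻¹)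
          ((ℓ : ℕ) : A0 A ℓ) ∈ n₁ →
        L1At ((ℓ : ℕ) : A0 A ℓ) n₁) :
    ∀ (k : ℕ) (f : modularFunctionFieldFullC ↥E N), Admissible ↥E f (p ^ k) →
      ∃ (c : ↥E) (g : modularFunctionFieldFullC ↥E N), c ≠ 0 ∧ g ≠ 0 ∧
        inertiaActFullC hℓ hA E N σ hσ (inertiaActFullC hℓ hA E N σ hσ f / f) /
            (inertiaActFullC hℓ hA E N σ hσ f / f) =
          algebraMap ↥E (modularFunctionFieldFullC ↥E N) c * g ^ (p ^ k) := by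
  haveI := isDiscreteValuationRing_cutOver hℓ hA E
  obtain ⟨π, -, -, -, -, -, hmax⟩ := exists_uniformizer_cutOver hℓ hA E
  -- the two coordinates
  have hbc₁ : baseChangeE E N (H95.JK (unrCyclo ℓ) N q hq) = H95.JK ↥E N q hq :=
    H95.baseChangeE_JK E N q hq
  have hbc₂ : baseChangeE E N (H95.JK (unrCyclo ℓ) N q hq)⁻¹ = (H95.JK ↥E N q hq)⁻¹ := by
    rw [map_inv₀, hbc₁]
  -- instances over `A₁`
  haveI := H95.finiteDimensional_JK (unrCyclo ℓ) N q hq (H99.natCast_ne_zero₀ N (unrCyclo ℓ))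
  haveI := H95.finiteDimensional_JK_inv (unrCyclo ℓ) N q hq (H99.natCast_ne_zero₀ N (unrCyclo ℓ))
  haveI hR₁ : IsReduced (↥(H40.chartB (A0 A ℓ) (H95.JK (unrCyclo ℓ) N q hq)) ⧸
      Ideal.span {algebraMap (A0 A ℓ) ↥(H40.chartB (A0 A ℓ) (H95.JK (unrCyclo ℓ) N q hq))
        ((ℓ : ℕ) : A0 A ℓ)}) := H3.isReduced_of_hrad hradB₁
  haveI hR₂ : IsReduced (↥(H40.chartB (A0 A ℓ) (H95.JK (unrCyclo ℓ) N q hq)⁻¹) ⧸
      Ideal.span {algebraMap (A0 A ℓ) ↥(H40.chartB (A0 A ℓ) (H95.JK (unrCyclo ℓ) N q hq)⁻¹)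
        ((ℓ : ℕ) : A0 A ℓ)}) := H3.isReduced_of_hrad hradB₂
  -- instances over `A''`
  haveI := H95.finiteDimensional_JK ↥E N q hq (H99.natCast_ne_zero₀ N ↥E)
  haveI := H95.isFractionRing_chartB_JK (A := A) E N q hq
  haveI := H95.isFractionRing_chartB_JK_inv (A := A) E N q hq
  haveI := H95.isNoetherianRing_chartB_JK hℓ hA E N q hq
  haveI := H95.isNoetherianRing_chartB_JK_inv hℓ hA E N q hq
  haveI := H95.isIntegrallyClosed_chartB_JK (A := A) E N q hq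
  haveI := H95.isIntegrallyClosed_chartB_JK_inv (A := A) E N q hq
  -- helper40 (a)'
  have hmem₁ := mem_chartB_cutOver_iff' hℓ hA E N (H95.JK (unrCyclo ℓ) N q hq)
    (H95.JK ↥E N q hq) hbc₁
  have hmem₂ := mem_chartB_cutOver_iff' hℓ hA E N (H95.JK (unrCyclo ℓ) N q hq)⁻¹
    (H95.JK ↥E N q hq)⁻¹ hbc₂
  -- helper40 (c)
  obtain ⟨sB₁, hsB₁, hsπ₁⟩ := exists_inertiaAct_chartB' hℓ hA E N (H95.JK (unrCyclo ℓ) N q hq)
    (H95.JK ↥E N q hq) hbc₁ σ hσ π hmax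
  obtain ⟨sB₂, hsB₂, hsπ₂⟩ := exists_inertiaAct_chartB' hℓ hA E N (H95.JK (unrCyclo ℓ) N q hq)⁻¹
    (H95.JK ↥E N q hq)⁻¹ hbc₂ σ hσ π hmax
  -- helper56: the two chart packages
  letI alg₁ : Algebra ↥(H40.chartB (A0 A ℓ) (H95.JK (unrCyclo ℓ) N q hq))
      ↥(H40.chartB (cutOver A E) (H95.JK ↥E N q hq)) :=
    (H95.chartBC (A := A) E N (H95.JK (unrCyclo ℓ) N q hq) (H95.JK ↥E N q hq) hbc₁).toAlgebra
  letI alg₂ : Algebra ↥(H40.chartB (A0 A ℓ) (H95.JK (unrCyclo ℓ) N q hq)⁻¹)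
      ↥(H40.chartB (cutOver A E) (H95.JK ↥E N q hq)⁻¹) :=
    (H95.chartBC (A := A) E N (H95.JK (unrCyclo ℓ) N q hq)⁻¹ (H95.JK ↥E N q hq)⁻¹ hbc₂).toAlgebra
  have C₁ := H56.chartPkg_of_chartBC hℓ hA E N (H95.JK (unrCyclo ℓ) N q hq) (H95.JK ↥E N q hq)
    hbc₁ σ hσ π hmax (fun z hz => (hmem₁ z).1 hz) sB₁ hsB₁ hsπ₁ hL1₁
  have C₂ := H56.chartPkg_of_chartBC hℓ hA E N (H95.JK (unrCyclo ℓ) N q hq)⁻¹
    (H95.JK ↥E N q hq)⁻¹ hbc₂ σ hσ π hmax (fun z hz => (hmem₂ z).1 hz) sB₂ hsB₂ hsπ₂ hL1₂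
  exact middle_of_chartPkg hℓ hA E N q hq hp hpℓ (inertiaActFullC hℓ hA E N σ hσ) π hmax
    hmem₁ hmem₂ hradB₁ hradB₂ ((ℓ : ℕ) : A0 A ℓ) (inertiaActCutOver hℓ hA E σ hσ)
    _ sB₁ C₁ _ sB₂ C₂

include hℓ hA in
/-- **The same in helper34's `UFnE` shape** (input of `H34.uFn_of_uFnE`). -/
theorem uFnE_of_L0 {p : ℕ} (hp : p.Prime) (hpℓ : p ≠ ℓ)
    (σ : Qbar ≃ₐ[ℚ] Qbar) (hσ : σ ∈ A.inertiaSubgroupIn ℚ)
    (hradB₁ : ∀ b : ↥(H40.chartB (A0 A ℓ) (H95.JK (unrCyclo ℓ) N q hq)),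
      (∃ n : ℕ, algebraMap (A0 A ℓ) ↥(H40.chartB (A0 A ℓ) (H95.JK (unrCyclo ℓ) N q hq))
          ((ℓ : ℕ) : A0 A ℓ) ∣ b ^ n) →
        algebraMap (A0 A ℓ) ↥(H40.chartB (A0 A ℓ) (H95.JK (unrCyclo ℓ) N q hq))
          ((ℓ : ℕ) : A0 A ℓ) ∣ b)
    (hradB₂ : ∀ b : ↥(H40.chartB (A0 A ℓ) (H95.JK (unrCyclo ℓ) N q hq)⁻¹),
      (∃ n : ℕ, algebraMap (A0 A ℓ) ↥(H40.chartB (A0 A ℓ) (H95.JK (unrCyclo ℓ) N q hq)⁻¹)
          ((ℓ : ℕ) : A0 A ℓ) ∣ b ^ n) →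
        algebraMap (A0 A ℓ) ↥(H40.chartB (A0 A ℓ) (H95.JK (unrCyclo ℓ) N q hq)⁻¹)
          ((ℓ : ℕ) : A0 A ℓ) ∣ b)
    (hL1₁ : ∀ (n₁ : Ideal ↥(H40.chartB (A0 A ℓ) (H95.JK (unrCyclo ℓ) N q hq))) [n₁.IsMaximal],
      algebraMap (A0 A ℓ) ↥(H40.chartB (A0 A ℓ) (H95.JK (unrCyclo ℓ) N q hq))
          ((ℓ : ℕ) : A0 A ℓ) ∈ n₁ →
        L1At ((ℓ : ℕ) : A0 A ℓ) n₁)
    (hL1₂ : ∀ (n₁ : Ideal ↥(H40.chartB (A0 A ℓ) (H95.JK (unrCyclo ℓ) N q hq)⁻¹)) [n₁.IsMaximal],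
      algebraMap (A0 A ℓ) ↥(H40.chartB (A0 A ℓ) (H95.JK (unrCyclo ℓ) N q hq)⁻¹)
          ((ℓ : ℕ) : A0 A ℓ) ∈ n₁ →
        L1At ((ℓ : ℕ) : A0 A ℓ) n₁)
    (k : ℕ) :
    H34.UFnE N hℓ hA σ hσ (p ^ k) E := by
  intro f hf hdvd hdeg hfin
  obtain ⟨c, g, -, hg, h⟩ := middle_of_L0 hℓ hA E N q hq hp hpℓ σ hσ hradB₁ hradB₂ hL1₁ hL1₂ k f
    ⟨hf, hdvd, hdeg, hfin⟩
  exact ⟨c, g, hg, h⟩

end Fermat.Agent.S34.H61
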