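/-
S34 project, final seam (helper34): **the frozen S34 conclusion from the four L0 consumer outputs**
(`H40.hradB_JK`, `H40.hradB_JK_inv`, `H40.hL1_JK`, `H40.hL1_JK_inv` of `S34/H40_L0Consumers`,
stated at level `ℓ * M` with `ℓ ∤ M`).

It closes the level seam `N = q * M` (`obtain ⟨M, rfl⟩ := hqN`; `¬ q ∣ M` from `¬ q ^ 2 ∣ N`;
`NeZero M` from `NeZero N`) and chains
`H61.uFnE_of_L0` → `H34.uFn_of_uFnE` (DESC) → `H47.hU_of_uFn` →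
`H47.isUnipotentOnInertiaAt_of_stages` (+ `Fermat.Agent.S37.result`).
-/
import Mathlib
import Fermat.Agent.S37
import Fermat.Agent.S34.H47_S34OfU
import Fermat.Agent.S34.H34_DescTwin
import Fermat.Agent.S34.H61_MiddleL0

set_option autoImplicit false
set_option linter.unusedSectionVars false
set_option linter.style.haveILetI false
set_option synthInstance.maxHeartbeats 400000
set_option maxHeartbeats 3200000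

namespace Fermat.Agent.S34.H34

open IsLocalRing AlgebraicCurve ModularCurve IntermediateField
open Fermat.Agent.S18 Fermat.Agent.S24

local notation "Qbar" => AlgebraicClosure ℚ

variable {𝒪 : Type} [CommRing 𝒪] [IsDomain 𝒪] [IsDiscreteValuationRing 𝒪]
  [IsAdicComplete (maximalIdeal 𝒪) 𝒪]
  {p : ℕ} {N : ℕ} [NeZero N] {S : Finset ℕ}
  {θ : CuspForm.heckeAlgebra N 2 (↑S : Set ℕ) →+* ResidueField 𝒪}
  {T : Type} [CommRing T] [IsLocalRing T] [IsNoetherianRing T]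
  [IsAdicComplete (maximalIdeal T) T] [Algebra 𝒪 T] [IsLocalHom (algebraMap 𝒪 T)]
  [Module.Finite 𝒪 T] [Module.Free 𝒪 T]

/-- The arithmetic of the level seam: `¬ q ^ 2 ∣ q * M → ¬ q ∣ M`. -/
theorem not_dvd_of_not_sq_dvd {q M : ℕ} (h : ¬ q ^ 2 ∣ q * M) : ¬ q ∣ M := by
  rintro ⟨c, rfl⟩
  exact h ⟨c, by ring⟩

/-- **Final seam.**  The frozen S34 conclusion from the four L0 consumer outputs at every level
`ℓ * M`, `ℓ ∤ M` (the conclusions of `H40.hradB_JK`, `H40.hradB_JK_inv`, `H40.hL1_JK`,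
`H40.hL1_JK_inv`, verbatim). -/
theorem isUnipotentOnInertiaAt_of_L0 (hp : p.Prime)
    (hp𝒪 : (p : 𝒪) ∈ maximalIdeal 𝒪) (hpS : p ∈ S)
    (hNS : ∀ q : ℕ, q.Prime → q ∣ N → q ∈ S)
    (H : CuspForm.HeckeGaloisRepDatum N (↑S : Set ℕ) 𝒪 θ T)
    (q : ℕ) (hq : q.Prime) (hqp : q ≠ p) (hqN : q ∣ N) (hq2 : ¬ q ^ 2 ∣ N)
    (hradB₁ : ∀ (M : ℕ) [NeZero M] {ℓ : ℕ} [Fact ℓ.Prime] (_ : ¬ ℓ ∣ M)
      (A : ValuationSubring Qbar) (_ : A.LiesOverPrime ℓ)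
      (b : ↥(H40.chartB (H45.A0 A ℓ) (H95.JK (H45.unrCyclo ℓ) (ℓ * M) ℓ (Dvd.intro M rfl)))),
      (∃ n : ℕ, algebraMap (H45.A0 A ℓ)
        ↥(H40.chartB (H45.A0 A ℓ) (H95.JK (H45.unrCyclo ℓ) (ℓ * M) ℓ (Dvd.intro M rfl)))
          ((ℓ : ℕ) : H45.A0 A ℓ) ∣ b ^ n) →
      algebraMap (H45.A0 A ℓ)
        ↥(H40.chartB (H45.A0 A ℓ) (H95.JK (H45.unrCyclo ℓ) (ℓ * M) ℓ (Dvd.intro M rfl)))
          ((ℓ : ℕ) : H45.A0 A ℓ) ∣ b)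
    (hradB₂ : ∀ (M : ℕ) [NeZero M] {ℓ : ℕ} [Fact ℓ.Prime] (_ : ¬ ℓ ∣ M)
      (A : ValuationSubring Qbar) (_ : A.LiesOverPrime ℓ)
      (b : ↥(H40.chartB (H45.A0 A ℓ) (H95.JK (H45.unrCyclo ℓ) (ℓ * M) ℓ (Dvd.intro M rfl))⁻¹)),
      (∃ n : ℕ, algebraMap (H45.A0 A ℓ)
        ↥(H40.chartB (H45.A0 A ℓ) (H95.JK (H45.unrCyclo ℓ) (ℓ * M) ℓ (Dvd.intro M rfl))⁻¹)
          ((ℓ : ℕ) : H45.A0 A ℓ) ∣ b ^ n) →
      algebraMap (H45.A0 A ℓ)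
        ↥(H40.chartB (H45.A0 A ℓ) (H95.JK (H45.unrCyclo ℓ) (ℓ * M) ℓ (Dvd.intro M rfl))⁻¹)
          ((ℓ : ℕ) : H45.A0 A ℓ) ∣ b)
    (hL1₁ : ∀ (M : ℕ) [NeZero M] {ℓ : ℕ} [Fact ℓ.Prime] (_ : ¬ ℓ ∣ M)
      (A : ValuationSubring Qbar) (_ : A.LiesOverPrime ℓ)
      (n₁ : Ideal ↥(H40.chartB (H45.A0 A ℓ)
        (H95.JK (H45.unrCyclo ℓ) (ℓ * M) ℓ (Dvd.intro M rfl)))) [n₁.IsMaximal],
      algebraMap (H45.A0 A ℓ)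
        ↥(H40.chartB (H45.A0 A ℓ) (H95.JK (H45.unrCyclo ℓ) (ℓ * M) ℓ (Dvd.intro M rfl)))
          ((ℓ : ℕ) : H45.A0 A ℓ) ∈ n₁ →
      H61.L1At ((ℓ : ℕ) : H45.A0 A ℓ) n₁)
    (hL1₂ : ∀ (M : ℕ) [NeZero M] {ℓ : ℕ} [Fact ℓ.Prime] (_ : ¬ ℓ ∣ M)
      (A : ValuationSubring Qbar) (_ : A.LiesOverPrime ℓ)
      (n₁ : Ideal ↥(H40.chartB (H45.A0 A ℓ)
        (H95.JK (H45.unrCyclo ℓ) (ℓ * M) ℓ (Dvd.intro M rfl))⁻¹)) [n₁.IsMaximal],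
      algebraMap (H45.A0 A ℓ)
        ↥(H40.chartB (H45.A0 A ℓ) (H95.JK (H45.unrCyclo ℓ) (ℓ * M) ℓ (Dvd.intro M rfl))⁻¹)
          ((ℓ : ℕ) : H45.A0 A ℓ) ∈ n₁ →
      H61.L1At ((ℓ : ℕ) : H45.A0 A ℓ) n₁) :
    H.ρ.IsUnipotentOnInertiaAt q := by
  obtain ⟨M, rfl⟩ := hqN
  haveI : Fact q.Prime := ⟨hq⟩
  haveI : NeZero q := ⟨hq.ne_zero⟩
  haveI : NeZero M := ⟨fun h => NeZero.ne (q * M) (by rw [h, mul_zero])⟩
  have hqM : ¬ q ∣ M := not_dvd_of_not_sq_dvd hq2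
  refine H47.isUnipotentOnInertiaAt_of_stages hp hp𝒪 hpS hNS H
    (fun hcomm => Fermat.Agent.S37.result (q * M) p hcomm) q hq hqp ?_
  refine H47.hU_of_uFn (q * M) p q hp (fun A hA σ hσ n => ?_)
  refine uFn_of_uFnE (q * M) hq hA σ hσ (p ^ n) (fun E _ _ => ?_)
  exact H61.uFnE_of_L0 hq hA E (q * M) q (Dvd.intro M rfl) hp hqp.symm σ hσ
    (hradB₁ M hqM A hA) (hradB₂ M hqM A hA)
    (fun n₁ _ hn => hL1₁ M hqM A hA n₁ hn) (fun n₁ _ hn => hL1₂ M hqM A hA n₁ hn) n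

end Fermat.Agent.S34.H34
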