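import Mathlib
import Fermat.Agent.S18.H16_FkInst
import Fermat.Agent.S18.H45_A0Instances
import Fermat.Agent.S34.H83_L1Inst
import Fermat.Agent.S34.H3_RadTransfer
import Fermat.Agent.S34.H61_ChainSkeleton
import Fermat.Agent.S34.H95_CoordJ

/-!
# S34: the two consumers of the L0 output at the real types (helper40)

For the two pinned `A₁`-charts `chartB A₁ J` and `chartB A₁ J⁻¹` (`A₁ = A0 A ℓ`,
`J = j · j_ℓ ∈ F_N = FullC L₁ (ℓ * M)`), with special-fibre ring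
`R = integralClosure kA[w] Fk(M)` (`w = j̄` resp. `j̄⁻¹`), the L0 output
`hTC : H83.TwoComponents red₁ red₂ ι V rbar W q' (ℓ : chartB A₁ J^(±1))` gives

* `hL1_JK`, `hL1_JK_inv` : helper83's L1 output at every closed point of the special fibre, in the
  shape `H61.L1At` (= the `hL1` hypothesis of `H56.chartPkg_of_chartBC`);
* `hradB_JK`, `hradB_JK_inv` : the special fibre of the `A₁`-chart is reduced, in the elementwise
  shape of `H61.middle_of_chartPkg` / `H40.mem_chartB_cutOver_iff_of_hrad`.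

`BM`, `ι`, `V`, `rbar`, `W`, `q'`, `red₁`, `red₂` are arbitrary, so the statements apply to the
conclusion of `H55.twoComponents_of_incl` whatever its final instantiation is.
-/

set_option autoImplicit false
set_option linter.unusedSectionVars false
set_option linter.style.haveILetI false
set_option synthInstance.maxHeartbeats 400000
set_option maxHeartbeats 4000000

noncomputable section

namespace Fermat.Agent.S34.H40

open ModularCurve Polynomial IsLocalRing IntermediateField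
open Fermat.Agent.S18

local notation "Qbar" => AlgebraicClosure ℚ

variable (M : ℕ) [NeZero M] {ℓ : ℕ} [hℓ : Fact ℓ.Prime] (hℓM : ¬ ℓ ∣ M)
  (A : ValuationSubring Qbar) (hA : A.LiesOverPrime ℓ)

local notation "kA" => IsLocalRing.ResidueField A
local notation "A₁" => H45.A0 A ℓ
local notation "L₁" => H45.unrCyclo ℓ
local notation "JN" => S34.H95.JK (H45.unrCyclo ℓ) (ℓ * M) ℓ (Dvd.intro M rfl)
local notation "RM" => integralClosure
  (Algebra.adjoin (IsLocalRing.ResidueField A) {H16.jK (IsLocalRing.ResidueField A) M})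
  (modularFunctionFieldFullC (IsLocalRing.ResidueField A) M)
local notation "RM'" => integralClosure
  (Algebra.adjoin (IsLocalRing.ResidueField A) {(H16.jK (IsLocalRing.ResidueField A) M)⁻¹})
  (modularFunctionFieldFullC (IsLocalRing.ResidueField A) M)

include hA in
/-- `ker (resA0) = (ℓ)`, divisibility form (`hker` of `TwoComponents.hL1_chart`). -/
theorem hker_resA0 (a : A₁) (ha : H45.resA0 A ℓ a = 0) : ((ℓ : ℕ) : A₁) ∣ a :=
  (H45.resA0_eq_zero_iff_dvd hℓ.out hA a).mp ha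

/-! ### chart `J` -/

include hℓM hA in
/-- **L1 at every closed point of the special fibre of `chartB A₁ J`**, from the L0 output. -/
theorem hL1_JK {BM : Type*} [CommRing BM]
    {red₁ red₂ : ↥(H40.chartB A₁ JN) →+* ↥RM} {ι V : BM →+* ↥(H40.chartB A₁ JN)}
    {rbar : BM →+* ↥RM} {W : ↥RM →+* ↥RM} {q' : ℕ}
    (hTC : H83.TwoComponents (B := ↥(H40.chartB A₁ JN)) (R := ↥RM) (BM := BM)
      red₁ red₂ ι V rbar W q' (algebraMap A₁ ↥(H40.chartB A₁ JN) ((ℓ : ℕ) : A₁)))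
    (hq' : 2 ≤ q')
    (n₁ : Ideal ↥(H40.chartB A₁ JN)) [n₁.IsMaximal]
    (hn : algebraMap A₁ ↥(H40.chartB A₁ JN) ((ℓ : ℕ) : A₁) ∈ n₁) :
    H61.L1At ((ℓ : ℕ) : A₁) n₁ := by
  haveI := H45.isDiscreteValuationRing_A0 hℓ.out hA
  haveI := S34.H95.finiteDimensional_JK L₁ (ℓ * M) ℓ (Dvd.intro M rfl)
    (H99.natCast_ne_zero₀ (ℓ * M) L₁)
  haveI := S34.H95.isSeparable_JK L₁ (ℓ * M) ℓ (Dvd.intro M rfl)
  haveI := H16.isAlgClosed_k A
  haveI := H16.finiteDimensional_Fk M hℓM A hA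
  haveI := H16.isSeparable_Fk M hℓM A hA
  exact hTC.hL1_chart (K₁ := L₁) JN
    (S34.H95.transcendental_JK L₁ (ℓ * M) ℓ (Dvd.intro M rfl))
    (H16.jK kA M) (H16.transcendental_jk M A)
    (H45.resA0 A ℓ) (H45.resA0_surjective hℓ.out hA) ((ℓ : ℕ) : A₁)
    (hker_resA0 A hA) hq' n₁ hn

include hA in
/-- `ℓ = 0` in any subring-like object of the special-fibre function field. -/
theorem natCast_eq_zero_of_subalgebra {S : Type*} [SetLike S (modularFunctionFieldFullC kA M)]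
    [SubringClass S (modularFunctionFieldFullC kA M)] (R : S) : ((ℓ : ℕ) : ↥R) = 0 := by
  haveI := H16.charP_k A hA
  haveI : CharP (modularFunctionFieldFullC kA M) ℓ :=
    charP_of_injective_algebraMap (algebraMap kA (modularFunctionFieldFullC kA M)).injective ℓ
  apply Subtype.ext
  push_cast
  exact CharP.cast_eq_zero _ ℓ

include hA in
/-- **The special fibre of `chartB A₁ J` is reduced**, from the L0 output. -/
theorem hradB_JK {BM : Type*} [CommRing BM]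
    {red₁ red₂ : ↥(H40.chartB A₁ JN) →+* ↥RM} {ι V : BM →+* ↥(H40.chartB A₁ JN)}
    {rbar : BM →+* ↥RM} {W : ↥RM →+* ↥RM} {q' : ℕ}
    (hTC : H83.TwoComponents (B := ↥(H40.chartB A₁ JN)) (R := ↥RM) (BM := BM)
      red₁ red₂ ι V rbar W q' (algebraMap A₁ ↥(H40.chartB A₁ JN) ((ℓ : ℕ) : A₁))) :
    ∀ b : ↥(H40.chartB A₁ JN),
      (∃ n : ℕ, algebraMap A₁ ↥(H40.chartB A₁ JN) ((ℓ : ℕ) : A₁) ∣ b ^ n) →
        algebraMap A₁ ↥(H40.chartB A₁ JN) ((ℓ : ℕ) : A₁) ∣ b := by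
  have hred : ∀ red : ↥(H40.chartB A₁ JN) →+* ↥RM,
      red (algebraMap A₁ ↥(H40.chartB A₁ JN) ((ℓ : ℕ) : A₁)) = 0 := fun red => by
    rw [map_natCast, map_natCast]
    exact natCast_eq_zero_of_subalgebra M A hA RM
  exact H3.hrad_of_twoComponents hTC (hred red₁) (hred red₂)

/-! ### chart `J⁻¹` -/

include hℓM hA in
/-- **L1 at every closed point of the special fibre of `chartB A₁ J⁻¹`**, from the L0 output. -/
theorem hL1_JK_inv {BM : Type*} [CommRing BM]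
    {red₁ red₂ : ↥(H40.chartB A₁ JN⁻¹) →+* ↥RM'} {ι V : BM →+* ↥(H40.chartB A₁ JN⁻¹)}
    {rbar : BM →+* ↥RM'} {W : ↥RM' →+* ↥RM'} {q' : ℕ}
    (hTC : H83.TwoComponents (B := ↥(H40.chartB A₁ JN⁻¹)) (R := ↥RM') (BM := BM)
      red₁ red₂ ι V rbar W q' (algebraMap A₁ ↥(H40.chartB A₁ JN⁻¹) ((ℓ : ℕ) : A₁)))
    (hq' : 2 ≤ q')
    (n₁ : Ideal ↥(H40.chartB A₁ JN⁻¹)) [n₁.IsMaximal]
    (hn : algebraMap A₁ ↥(H40.chartB A₁ JN⁻¹) ((ℓ : ℕ) : A₁) ∈ n₁) :
    H61.L1At ((ℓ : ℕ) : A₁) n₁ := by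
  haveI := H45.isDiscreteValuationRing_A0 hℓ.out hA
  haveI := S34.H95.finiteDimensional_JK_inv L₁ (ℓ * M) ℓ (Dvd.intro M rfl)
    (H99.natCast_ne_zero₀ (ℓ * M) L₁)
  haveI := S34.H95.isSeparable_JK_inv L₁ (ℓ * M) ℓ (Dvd.intro M rfl)
  haveI := H16.isAlgClosed_k A
  haveI := H16.finiteDimensional_Fk M hℓM A hA
  haveI := H16.isSeparable_Fk M hℓM A hA
  haveI := S18.H97.finiteDimensional_adjoin_inv (k := kA) (H16.jK kA M)
  haveI := S18.H97.isSeparable_adjoin_inv (k := kA) (H16.jK kA M)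
  exact hTC.hL1_chart (K₁ := L₁) JN⁻¹
    (S34.H95.transcendental_JK_inv L₁ (ℓ * M) ℓ (Dvd.intro M rfl))
    (H16.jK kA M)⁻¹ (S18.H97.transcendental_inv (H16.transcendental_jk M A))
    (H45.resA0 A ℓ) (H45.resA0_surjective hℓ.out hA) ((ℓ : ℕ) : A₁)
    (hker_resA0 A hA) hq' n₁ hn

include hA in
/-- **The special fibre of `chartB A₁ J⁻¹` is reduced**, from the L0 output. -/
theorem hradB_JK_inv {BM : Type*} [CommRing BM]
    {red₁ red₂ : ↥(H40.chartB A₁ JN⁻¹) →+* ↥RM'} {ι V : BM →+* ↥(H40.chartB A₁ JN⁻¹)}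
    {rbar : BM →+* ↥RM'} {W : ↥RM' →+* ↥RM'} {q' : ℕ}
    (hTC : H83.TwoComponents (B := ↥(H40.chartB A₁ JN⁻¹)) (R := ↥RM') (BM := BM)
      red₁ red₂ ι V rbar W q' (algebraMap A₁ ↥(H40.chartB A₁ JN⁻¹) ((ℓ : ℕ) : A₁))) :
    ∀ b : ↥(H40.chartB A₁ JN⁻¹),
      (∃ n : ℕ, algebraMap A₁ ↥(H40.chartB A₁ JN⁻¹) ((ℓ : ℕ) : A₁) ∣ b ^ n) →
        algebraMap A₁ ↥(H40.chartB A₁ JN⁻¹) ((ℓ : ℕ) : A₁) ∣ b := by
  have hred : ∀ red : ↥(H40.chartB A₁ JN⁻¹) →+* ↥RM',
      red (algebraMap A₁ ↥(H40.chartB A₁ JN⁻¹) ((ℓ : ℕ) : A₁)) = 0 := fun red => by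
    rw [map_natCast, map_natCast]
    exact natCast_eq_zero_of_subalgebra M A hA RM'
  exact H3.hrad_of_twoComponents hTC (hred red₁) (hred red₂)

end Fermat.Agent.S34.H40
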