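import Mathlib
import Fermat.Agent.S34.H92_GaussLevelM
import Fermat.Agent.S18.H13_RExistInst
import Fermat.Agent.S18.H13_ChartReduction

/-!
# S34 / L0 cut (H), ONTONESS part (a) (helper13): helper92's level-`M` Gauss ring `V_M` IS a Gauss
model in the sense of helper3's `H3.GaussModel`, hence (GR) at level `M`

* `gaussModelVM M hℓM A hA : H3.GaussModel (ℓ : A₁) (resA0) j j_M j̄ j̄_M` with
  `O1 = (H92.VM ..).toSubring` and `res1 = H92.resMF ..` (definitionally);
* `hGR_VM` : both liftings of `H13.hGR_std` for this model — every element of `Fk(M)` integral over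
  `kA[j̄]` (resp. `kA[j̄⁻¹]`) is the reduction of an element of `V_M` integral over `A₁[j]`
  (resp. `A₁[j⁻¹]`);
* `rbarFin`, `rbarInf` : the reduction maps of the two level-`M` chart rings, ONTO
  (`rbarFin_surjective`, `rbarInf_surjective`), kernel of `rbarFin` `= (ℓ)`.
-/

set_option autoImplicit false
set_option linter.unusedSectionVars false
set_option linter.style.haveILetI false
set_option synthInstance.maxHeartbeats 400000
set_option maxHeartbeats 3200000

open Polynomial IntermediateField AlgebraicCurve ModularCurve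

namespace Fermat.Agent.S34.H13

open Fermat.Agent.S18 Fermat.Agent.S34

noncomputable section

variable (M : ℕ) [NeZero M] {ℓ : ℕ} [hℓ : Fact ℓ.Prime] (hℓM : ¬ ℓ ∣ M)
  (A : ValuationSubring (AlgebraicClosure ℚ)) (hA : A.LiesOverPrime ℓ)

local notation "kA" => IsLocalRing.ResidueField A
local notation "A₁" => H45.A0 A ℓ
local notation "L₁" => H45.unrCyclo ℓ
local notation "FM" => modularFunctionFieldFullC (H45.unrCyclo ℓ) M
local notation "FkM" => modularFunctionFieldFullC (IsLocalRing.ResidueField A) M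

/-- `j ∈ V_M` -/
theorem jK_mem : H16.jK L₁ M ∈ H92.VM M hℓM A hA := (H92.jK_mem_VM M hℓM A hA).1

/-- `j_M ∈ V_M` -/
theorem jNK_mem : H16.jNK L₁ M ∈ H92.VM M hℓM A hA := (H92.jNK_mem_VM M hℓM A hA).1

theorem resMF_jK :
    H92.resMF M hℓM A hA ⟨H16.jK L₁ M, jK_mem M hℓM A hA⟩ = H16.jK kA M := by
  apply Subtype.ext
  have h := (H92.jK_mem_VM M hℓM A hA).2
  rw [H92.resM_apply] at h
  rw [h, H16.coe_jK]

theorem resMF_jNK :
    H92.resMF M hℓM A hA ⟨H16.jNK L₁ M, jNK_mem M hℓM A hA⟩ = H16.jNK kA M := by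
  apply Subtype.ext
  have h := (H92.jNK_mem_VM M hℓM A hA).2
  rw [H92.resM_apply] at h
  rw [h, H16.coe_jNK]

/-- `A₁[X] → V_M`, `X ↦ j`. -/
def aevalVM : A₁[X] →+* H92.VM M hℓM A hA :=
  Polynomial.eval₂RingHom (H92.constVM M hℓM A hA) ⟨H16.jK L₁ M, jK_mem M hℓM A hA⟩

theorem coe_aevalVM (s : A₁[X]) :
    ((aevalVM M hℓM A hA s : H92.VM M hℓM A hA) : FM) = aeval (H16.jK L₁ M) s := by
  have h : ((H92.VM M hℓM A hA).subtype).comp (aevalVM M hℓM A hA) =
      ((aeval (H16.jK L₁ M) : A₁[X] →ₐ[A₁] FM) : A₁[X] →+* FM) := by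
    apply Polynomial.ringHom_ext
    · intro a
      simp only [RingHom.comp_apply, aevalVM, Polynomial.coe_eval₂RingHom, Polynomial.eval₂_C]
      rw [RingHom.coe_coe, aeval_C]
      rfl
    · simp only [RingHom.comp_apply, aevalVM, Polynomial.coe_eval₂RingHom, Polynomial.eval₂_X]
      rw [RingHom.coe_coe, aeval_X]
      rfl
  exact congrFun (congrArg DFunLike.coe h) s

theorem resMF_aevalVM (s : A₁[X]) :
    H92.resMF M hℓM A hA (aevalVM M hℓM A hA s) =
      aeval (H16.jK kA M) (s.map (H45.resA0 A ℓ)) := by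
  have h : (H92.resMF M hℓM A hA).comp (aevalVM M hℓM A hA) =
      ((aeval (H16.jK kA M) : kA[X] →ₐ[kA] FkM) : kA[X] →+* FkM).comp
        (mapRingHom (H45.resA0 A ℓ)) := by
    apply Polynomial.ringHom_ext
    · intro a
      simp only [RingHom.comp_apply, aevalVM, Polynomial.coe_eval₂RingHom, Polynomial.eval₂_C,
        coe_mapRingHom, Polynomial.map_C]
      rw [RingHom.coe_coe, aeval_C]
      exact H92.resMF_const M hℓM A hA a
    · simp only [RingHom.comp_apply, aevalVM, Polynomial.coe_eval₂RingHom, Polynomial.eval₂_X,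
        coe_mapRingHom, Polynomial.map_X]
      rw [RingHom.coe_coe, aeval_X]
      exact resMF_jK M hℓM A hA
  exact congrFun (congrArg DFunLike.coe h) s

include hA in
/-- **helper92's `V_M` as a Gauss model** (helper3's structure), so that every `H3.GaussModel`
consumer — in particular `H13.hGR_std` — applies to it. -/
def gaussModelVM :
    H3.GaussModel (R0 := A₁) (k := kA) (F1 := FM) (Fk := FkM)
      ((ℓ : ℕ) : A₁) (H45.resA0 A ℓ) (H16.jK L₁ M) (H16.jNK L₁ M) (H16.jK kA M) (H16.jNK kA M) where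
  O1 := (H92.VM M hℓM A hA).toSubring
  res1 := H92.resMF M hℓM A hA
  aeval_mem s := by
    rw [← coe_aevalVM M hℓM A hA s]
    exact (aevalVM M hℓM A hA s).2
  res1_aeval s := by
    rw [← resMF_aevalVM M hℓM A hA s]
    congr 1
    exact Subtype.ext (coe_aevalVM M hℓM A hA s).symm
  θ_mem := jNK_mem M hℓM A hA
  res1_θ := resMF_jNK M hℓM A hA
  res1_eq_zero_iff y hy := by
    have h := H92.resMF_eq_zero_iff M hℓM A hA ⟨y, hy⟩
    refine h.trans ?_
    have hcast : algebraMap A₁ FM ((ℓ : ℕ) : A₁) = ((ℓ : ℕ) : FM) := map_natCast _ _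
    have hcoe : ∀ z : H92.VM M hℓM A hA,
        (((ℓ : ℕ) : H92.VM M hℓM A hA) * z : H92.VM M hℓM A hA).1 = ((ℓ : ℕ) : FM) * z.1 := by
      intro z
      rfl
    constructor
    · rintro ⟨z, hz⟩
      refine ⟨(z : FM), z.2, ?_⟩
      have h1 : y = (((ℓ : ℕ) : H92.VM M hℓM A hA) * z : H92.VM M hℓM A hA).1 :=
        congrArg Subtype.val hz
      rw [h1, hcoe, hcast]
    · rintro ⟨z, hz, hyz⟩
      refine ⟨⟨z, hz⟩, Subtype.ext ?_⟩
      show y = _
      rw [hcoe, hyz, hcast]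
  inv_mem y hy hres := by
    have hu : IsUnit (⟨y, hy⟩ : H92.VM M hℓM A hA) := by
      by_contra hnu
      apply hres
      have h0 := (H92.resM_eq_zero_iff_not_isUnit M hℓM A hA ⟨y, hy⟩).2 hnu
      rw [H92.resM_apply] at h0
      exact Subtype.ext h0
    obtain ⟨u, hu⟩ := hu
    have h1 : ((u⁻¹ : (H92.VM M hℓM A hA)ˣ) : H92.VM M hℓM A hA) * ⟨y, hy⟩ = 1 := by
      rw [← hu]; exact u.inv_mul
    have h2 : (((u⁻¹ : (H92.VM M hℓM A hA)ˣ) : H92.VM M hℓM A hA) : FM) * y = 1 := by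
      have := congrArg (fun w : H92.VM M hℓM A hA => (w : FM)) h1
      simpa using this
    have h3 : y⁻¹ = (((u⁻¹ : (H92.VM M hℓM A hA)ˣ) : H92.VM M hℓM A hA) : FM) :=
      (eq_inv_of_mul_eq_one_left h2).symm ▸ rfl
    rw [h3]
    exact ((u⁻¹ : (H92.VM M hℓM A hA)ˣ) : H92.VM M hℓM A hA).2
  mem_of_isIntegral y hy := by
    have hint : IsIntegral (H92.VM M hℓM A hA) y := hy
    obtain ⟨w, hw⟩ := (IsIntegrallyClosed.isIntegral_iff
      (R := H92.VM M hℓM A hA) (K := FM)).1 hint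
    rw [← hw]
    exact w.2
  exists_repr y hy := by
    obtain ⟨s, g, hs, -, h⟩ := H92.exists_repr_VM M hℓM A hA y hy
    exact ⟨s, hs, g, h⟩

theorem gaussModelVM_O1 :
    (gaussModelVM M hℓM A hA).O1 = (H92.VM M hℓM A hA).toSubring := rfl

theorem gaussModelVM_res1 (y : FM) (hy : y ∈ (gaussModelVM M hℓM A hA).O1) :
    (gaussModelVM M hℓM A hA).res1 ⟨y, hy⟩ = H92.resMF M hℓM A hA ⟨y, hy⟩ := rfl

theorem jK_residueField_ne_zero : H16.jK kA M ≠ 0 :=
  fun h0 => H16.transcendental_jK kA M (h0 ▸ isAlgebraic_zero)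

include hℓM hA in
/-- **(GR) at level `M` for `V_M`, finite chart** (`c = j`, `w = j̄`), in the field-level shape of
helper55's `exists_symm_red_eq_of_coord` / `H55.twoComponents` binder `hGR`. -/
theorem hGR_VM_fin (γ : FkM) (hγ : IsIntegral (Algebra.adjoin kA {H16.jK kA M}) γ) :
    ∃ (b : FM) (hbO : b ∈ (gaussModelVM M hℓM A hA).O1),
      IsIntegral (Algebra.adjoin A₁ {H16.jK L₁ M}) b ∧
        (gaussModelVM M hℓM A hA).res1 ⟨b, hbO⟩ = γ := by
  obtain ⟨b, hb, h⟩ := (S18.H13.hGR_std M hℓM A hA (gaussModelVM M hℓM A hA)).1 γ hγ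
  exact ⟨b, _, hb, h⟩

include hℓM hA in
/-- **(GR) at level `M` for `V_M`, chart at infinity** (`c = j⁻¹`, `w = j̄⁻¹`). -/
theorem hGR_VM_inf (γ : FkM) (hγ : IsIntegral (Algebra.adjoin kA {(H16.jK kA M)⁻¹}) γ) :
    ∃ (b : FM) (hbO : b ∈ (gaussModelVM M hℓM A hA).O1),
      IsIntegral (Algebra.adjoin A₁ {(H16.jK L₁ M)⁻¹}) b ∧
        (gaussModelVM M hℓM A hA).res1 ⟨b, hbO⟩ = γ := by
  obtain ⟨b, hb, h⟩ := (S18.H13.hGR_std M hℓM A hA (gaussModelVM M hℓM A hA)).2 γ hγ
  exact ⟨b, _, hb, h⟩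

include hℓM hA in
/-- the same in terms of helper92's names only: lifting to `V_M` through `resMF`. -/
theorem exists_resMF_eq_fin (γ : FkM) (hγ : IsIntegral (Algebra.adjoin kA {H16.jK kA M}) γ) :
    ∃ (b : FM) (hb : b ∈ H92.VM M hℓM A hA), IsIntegral (Algebra.adjoin A₁ {H16.jK L₁ M}) b ∧
      H92.resMF M hℓM A hA ⟨b, hb⟩ = γ :=
  hGR_VM_fin M hℓM A hA γ hγ

include hℓM hA in
theorem exists_resMF_eq_inf (γ : FkM)
    (hγ : IsIntegral (Algebra.adjoin kA {(H16.jK kA M)⁻¹}) γ) :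
    ∃ (b : FM) (hb : b ∈ H92.VM M hℓM A hA),
      IsIntegral (Algebra.adjoin A₁ {(H16.jK L₁ M)⁻¹}) b ∧ H92.resMF M hℓM A hA ⟨b, hb⟩ = γ :=
  hGR_VM_inf M hℓM A hA γ hγ

/-! ### The reduction maps of the level-`M` chart rings (`rbar` of `H83.locGen`) -/

/-- `rbar` on the finite chart: `integralClosure A₁[j] F_M →+* integralClosure kA[j̄] Fk(M)`. -/
def rbarFin : integralClosure (Algebra.adjoin A₁ {H16.jK L₁ M}) FM →+*
    integralClosure (Algebra.adjoin kA {H16.jK kA M}) FkM :=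
  (gaussModelVM M hℓM A hA).chartRed

theorem coe_rbarFin (b : integralClosure (Algebra.adjoin A₁ {H16.jK L₁ M}) FM) :
    ((rbarFin M hℓM A hA b : integralClosure (Algebra.adjoin kA {H16.jK kA M}) FkM) : FkM) =
      H92.resMF M hℓM A hA ⟨(b : FM), (gaussModelVM M hℓM A hA).hBO b b.2⟩ := rfl

include hℓM hA in
/-- **ONTONESS at level `M`, finite chart.** -/
theorem rbarFin_surjective : Function.Surjective (rbarFin M hℓM A hA) :=
  (gaussModelVM M hℓM A hA).chartRed_surjective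
    (S18.H13.hGR_std M hℓM A hA (gaussModelVM M hℓM A hA)).1

include hℓM hA in
/-- the kernel of `rbarFin` is `(ℓ)`. -/
theorem ker_rbarFin :
    RingHom.ker (rbarFin M hℓM A hA) =
      Ideal.span {algebraMap (Algebra.adjoin A₁ {H16.jK L₁ M})
        (integralClosure (Algebra.adjoin A₁ {H16.jK L₁ M}) FM)
        (algebraMap A₁ (Algebra.adjoin A₁ {H16.jK L₁ M}) ((ℓ : ℕ) : A₁))} :=
  (gaussModelVM M hℓM A hA).ker_chartRed (H3.hsat_inst M A hA (gaussModelVM M hℓM A hA))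

/-- `rbar` on the chart at infinity:
`integralClosure A₁[j⁻¹] F_M →+* integralClosure kA[j̄⁻¹] Fk(M)`. -/
def rbarInf : integralClosure (Algebra.adjoin A₁ {(H16.jK L₁ M)⁻¹}) FM →+*
    integralClosure (Algebra.adjoin kA {(H16.jK kA M)⁻¹}) FkM :=
  (gaussModelVM M hℓM A hA).chartRedInf (jK_residueField_ne_zero M A)

theorem coe_rbarInf (b : integralClosure (Algebra.adjoin A₁ {(H16.jK L₁ M)⁻¹}) FM) :
    ((rbarInf M hℓM A hA b : integralClosure (Algebra.adjoin kA {(H16.jK kA M)⁻¹}) FkM) : FkM) =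
      H92.resMF M hℓM A hA ⟨(b : FM),
        (gaussModelVM M hℓM A hA).hBinfO (jK_residueField_ne_zero M A) b b.2⟩ := rfl

include hℓM hA in
/-- **ONTONESS at level `M`, chart at infinity.** -/
theorem rbarInf_surjective : Function.Surjective (rbarInf M hℓM A hA) :=
  (gaussModelVM M hℓM A hA).chartRedInf_surjective (jK_residueField_ne_zero M A)
    (S18.H13.hGR_std M hℓM A hA (gaussModelVM M hℓM A hA)).2

end

end Fermat.Agent.S34.H13
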