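import Mathlib
import Fermat.Agent.S34.H92_GaussModelWrap
import Fermat.Agent.S18.H13_RExistInst

/-!
# S34 / L0 (helper13): the binder `hGR` of `H55.twoComponents_of_incl` at the level-`M` model
`H92.gaussModelVM` (helper92's wrapper), both charts

`hGR_wrap_fin` : `(c, w) = (j, j̄)`;  `hGR_wrap_inf` : `(c, w) = (j⁻¹, j̄⁻¹)`.
Both are `H13.hGR_std` (S18, (GR) for every Gauss model) applied to `H92.gaussModelVM`.
-/

set_option autoImplicit false
set_option linter.unusedSectionVars false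
set_option linter.style.haveILetI false
set_option synthInstance.maxHeartbeats 400000
set_option maxHeartbeats 3200000

open Polynomial IntermediateField AlgebraicCurve ModularCurve

namespace Fermat.Agent.S34.H13

open Fermat.Agent.S18 Fermat.Agent.S34

section

variable (M : ℕ) [NeZero M] {ℓ : ℕ} [hℓ : Fact ℓ.Prime] (hℓM : ¬ ℓ ∣ M)
  (A : ValuationSubring (AlgebraicClosure ℚ)) (hA : A.LiesOverPrime ℓ)

local notation "kA" => IsLocalRing.ResidueField A
local notation "A₁" => H45.A0 A ℓ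
local notation "L₁" => H45.unrCyclo ℓ
local notation "FM" => modularFunctionFieldFullC (H45.unrCyclo ℓ) M
local notation "FkM" => modularFunctionFieldFullC (IsLocalRing.ResidueField A) M

include hℓM hA in
/-- **`hGR` for the finite chart** `(c, w) = (j, j̄)` at `H92.gaussModelVM`. -/
theorem hGR_wrap_fin (γ : FkM) (hγ : IsIntegral (Algebra.adjoin kA {H16.jK kA M}) γ) :
    ∃ (b : FM) (hbO : b ∈ (H92.gaussModelVM M hℓM A hA).O1),
      IsIntegral (Algebra.adjoin A₁ {H16.jK L₁ M}) b ∧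
        (H92.gaussModelVM M hℓM A hA).res1 ⟨b, hbO⟩ = γ := by
  obtain ⟨b, hb, h⟩ := (S18.H13.hGR_std M hℓM A hA (H92.gaussModelVM M hℓM A hA)).1 γ hγ
  exact ⟨b, _, hb, h⟩

include hℓM hA in
/-- **`hGR` for the chart at infinity** `(c, w) = (j⁻¹, j̄⁻¹)` at `H92.gaussModelVM`. -/
theorem hGR_wrap_inf (γ : FkM) (hγ : IsIntegral (Algebra.adjoin kA {(H16.jK kA M)⁻¹}) γ) :
    ∃ (b : FM) (hbO : b ∈ (H92.gaussModelVM M hℓM A hA).O1),
      IsIntegral (Algebra.adjoin A₁ {(H16.jK L₁ M)⁻¹}) b ∧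
        (H92.gaussModelVM M hℓM A hA).res1 ⟨b, hbO⟩ = γ := by
  obtain ⟨b, hb, h⟩ := (S18.H13.hGR_std M hℓM A hA (H92.gaussModelVM M hℓM A hA)).2 γ hγ
  exact ⟨b, _, hb, h⟩

end

end Fermat.Agent.S34.H13
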