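import Mathlib
import Fermat.Agent.CA.H99_TwoPlacesThm
import Fermat.Agent.CA.H13_ProdCoord

/-!
# S34 / L0 cut (H), ONTONESS part (c): the reduction of a place lands in the chart of the
special fibre (helper13; generic, Mathlib + `CA.H99` + `CA.H13_ProdCoord`)

`P : CA.H99.PlaceOver ϖ θ ι' θb'` a place of `L` over `O` with reduction into a field `Ω`;
`emb : Fk →+* Ω` a subfield of `Ω` containing `ι'(O)` and `θb'` (so the residue field of `P` is
inside `emb(Fk)`); `x ∈ P.O1` a coordinate with `P.res1 x = emb y`, `y` integral over `k[xb]`;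
constants `R0 → L` reduce to constants `k → Fk`.  Then every `b` integral over `R0[x]` lies in
`P.O1` and its reduction is `emb c` for a unique `c : Fk`, integral over `k[xb]`.

Packaged as ring homomorphisms `redHom` between arbitrary carriers (`B : Subring L` of elements
integral over `R0[x]`, `T : Subring Fk` containing the elements integral over `k[xb]`).
-/

set_option autoImplicit false
set_option linter.unusedSectionVars false
set_option linter.style.haveILetI false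

open Polynomial

namespace Fermat.Agent.S34.H13

open Fermat.Agent.CA

/-! ### Lifting a ring hom through an injective one -/

section Lift

variable {S T Ω : Type*} [CommRing S] [CommRing T] [CommRing Ω]

/-- `f : S → Ω` with values in the range of the injective `e : T → Ω`, read in `T`. -/
noncomputable def liftHom (f : S →+* Ω) (e : T →+* Ω) (he : Function.Injective e)
    (h : ∀ s, ∃ c, e c = f s) : S →+* T where
  toFun s := (h s).choose
  map_one' := he (by rw [(h 1).choose_spec, map_one, map_one])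
  map_mul' a b := he (by
    rw [(h (a * b)).choose_spec, map_mul, map_mul, (h a).choose_spec, (h b).choose_spec])
  map_zero' := he (by rw [(h 0).choose_spec, map_zero, map_zero])
  map_add' a b := he (by
    rw [(h (a + b)).choose_spec, map_add, map_add, (h a).choose_spec, (h b).choose_spec])

theorem liftHom_spec (f : S →+* Ω) (e : T →+* Ω) (he : Function.Injective e)
    (h : ∀ s, ∃ c, e c = f s) (s : S) : e (liftHom f e he h s) = f s :=
  (h s).choose_spec

theorem liftHom_eq_iff (f : S →+* Ω) (e : T →+* Ω) (he : Function.Injective e)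
    (h : ∀ s, ∃ c, e c = f s) (s : S) (c : T) : liftHom f e he h s = c ↔ f s = e c := by
  constructor
  · rintro rfl
    exact (liftHom_spec f e he h s).symm
  · intro hc
    exact he ((liftHom_spec f e he h s).trans hc)

theorem liftHom_surjective (f : S →+* Ω) (e : T →+* Ω) (he : Function.Injective e)
    (h : ∀ s, ∃ c, e c = f s) (hsurj : ∀ c : T, ∃ s, f s = e c) :
    Function.Surjective (liftHom f e he h) := by
  intro c
  obtain ⟨s, hs⟩ := hsurj c
  exact ⟨s, (liftHom_eq_iff f e he h s c).2 hs⟩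

end Lift

/-! ### The residue field of a place and integrality of reductions -/

section Place

variable {O : Type*} [CommRing O] {L : Type*} [Field L] [Algebra O L] {Ω : Type*} [Field Ω]
  {ϖ : O} {θ : L} {ι' : O →+* Ω} {θb' : Ω} (P : H99.PlaceOver ϖ θ ι' θb')
variable {R0 : Type*} [CommRing R0] [Algebra R0 L]
variable {k : Type*} [Field k] {Fk : Type*} [Field Fk] [Algebra k Fk]

/-- the chart of `x` lies in the valuation ring of a place containing the constants and `x`. -/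
theorem mem_O1_of_isIntegral_adjoin (hR0 : ∀ r : R0, algebraMap R0 L r ∈ P.O1) {x : L}
    (hx : x ∈ P.O1) {b : L} (hb : IsIntegral (Algebra.adjoin R0 {x}) b) : b ∈ P.O1 := by
  have h := H13.mem_valuationSubring_of_isIntegral_adjoin (R := R0) P.toValuationSubring
    (fun r => hR0 r) (s := {x}) (fun y hy => by rw [Set.mem_singleton_iff.1 hy]; exact hx) hb
  exact h

/-- values `p(θb')` of polynomials lie in the subfield `emb(Fk)`. -/
theorem eval₂_mem_fieldRange (emb : Fk →+* Ω) (hι' : ∀ a : O, ∃ c, emb c = ι' a)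
    (hθb' : ∃ c, emb c = θb') (p : O[X]) : p.eval₂ ι' θb' ∈ emb.fieldRange := by
  rw [eval₂_eq_sum_range]
  refine Subfield.sum_mem _ fun i _ => ?_
  obtain ⟨c, hc⟩ := hι' (p.coeff i)
  obtain ⟨d, hd⟩ := hθb'
  exact Subfield.mul_mem _ (RingHom.mem_fieldRange.2 ⟨c, hc⟩)
    (Subfield.pow_mem _ (RingHom.mem_fieldRange.2 ⟨d, hd⟩) i)

/-- **The residue field of the place is inside `emb(Fk)`.** -/
theorem exists_emb_eq_res1 (emb : Fk →+* Ω) (hι' : ∀ a : O, ∃ c, emb c = ι' a)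
    (hθb' : ∃ c, emb c = θb') {b : L} (hb : b ∈ P.O1) : ∃ c : Fk, emb c = P.res1 ⟨b, hb⟩ := by
  obtain ⟨a, s, hs, h⟩ := P.exists_repr b hb
  have h1 : P.res1 ⟨b, hb⟩ * s.eval₂ ι' θb' = a.eval₂ ι' θb' := by
    rw [← P.res1_aeval s, ← P.res1_aeval a, ← map_mul]
    exact P.res1_congr _ _ h
  have h2 : P.res1 ⟨b, hb⟩ = a.eval₂ ι' θb' / s.eval₂ ι' θb' := by
    rw [eq_div_iff hs, h1]
  have h3 : P.res1 ⟨b, hb⟩ ∈ emb.fieldRange := by
    rw [h2]
    exact Subfield.div_mem _ (eval₂_mem_fieldRange emb hι' hθb' a)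
      (eval₂_mem_fieldRange emb hι' hθb' s)
  obtain ⟨c, hc⟩ := h3
  exact ⟨c, hc⟩

variable (π0 : R0 →+* k) (emb : Fk →+* Ω)

/-- reductions of elements of `R0[x]` are `emb` of elements of `k[y]`. -/
theorem exists_mem_adjoin_emb_eq_res1
    (hR0 : ∀ r : R0, ∃ h : algebraMap R0 L r ∈ P.O1,
      P.res1 ⟨_, h⟩ = emb (algebraMap k Fk (π0 r)))
    {x : L} (hx : x ∈ P.O1) {y : Fk} (hxy : P.res1 ⟨x, hx⟩ = emb y) {w : L}
    (hw : w ∈ Algebra.adjoin R0 {x}) :
    ∃ (h : w ∈ P.O1) (c : Fk), c ∈ Algebra.adjoin k {y} ∧ emb c = P.res1 ⟨w, h⟩ := by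
  induction hw using Algebra.adjoin_induction with
  | mem w hw =>
    rw [Set.mem_singleton_iff] at hw
    subst hw
    exact ⟨hx, y, Algebra.self_mem_adjoin_singleton k y, hxy.symm⟩
  | algebraMap r =>
    obtain ⟨h, hr⟩ := hR0 r
    exact ⟨h, _, Subalgebra.algebraMap_mem _ _, hr.symm⟩
  | add w₁ w₂ _ _ h₁ h₂ =>
    obtain ⟨m₁, c₁, hc₁, e₁⟩ := h₁
    obtain ⟨m₂, c₂, hc₂, e₂⟩ := h₂
    refine ⟨add_mem m₁ m₂, c₁ + c₂, add_mem hc₁ hc₂, ?_⟩
    rw [map_add, e₁, e₂, ← map_add]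
    rfl
  | mul w₁ w₂ _ _ h₁ h₂ =>
    obtain ⟨m₁, c₁, hc₁, e₁⟩ := h₁
    obtain ⟨m₂, c₂, hc₂, e₂⟩ := h₂
    refine ⟨mul_mem m₁ m₂, c₁ * c₂, mul_mem hc₁ hc₂, ?_⟩
    rw [map_mul, e₁, e₂, ← map_mul]
    rfl

/-- **Reductions of chart elements are integral over `k[xb]`.** -/
theorem exists_isIntegral_emb_eq_res1 (hι' : ∀ a : O, ∃ c, emb c = ι' a)
    (hθb' : ∃ c, emb c = θb')
    (hR0 : ∀ r : R0, ∃ h : algebraMap R0 L r ∈ P.O1,
      P.res1 ⟨_, h⟩ = emb (algebraMap k Fk (π0 r)))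
    {x : L} (hx : x ∈ P.O1) {y xb : Fk} (hxy : P.res1 ⟨x, hx⟩ = emb y)
    (hy : IsIntegral (Algebra.adjoin k {xb}) y)
    {b : L} (hb : IsIntegral (Algebra.adjoin R0 {x}) b) :
    ∃ (h : b ∈ P.O1) (c : Fk), IsIntegral (Algebra.adjoin k {xb}) c ∧ emb c = P.res1 ⟨b, h⟩ := by
  have hbO : b ∈ P.O1 := mem_O1_of_isIntegral_adjoin P (fun r => (hR0 r).1) hx hb
  obtain ⟨c, hc⟩ := exists_emb_eq_res1 P emb hι' hθb' hbO
  refine ⟨hbO, c, ?_, hc⟩
  -- the ring hom `R0[x] → k[y]`
  have hA : ∀ w : Algebra.adjoin R0 {x}, ∃ d : Algebra.adjoin k {y},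
      (emb.comp (Algebra.adjoin k {y}).val.toRingHom) d =
        (P.res1.comp (Subring.inclusion (show (Algebra.adjoin R0 {x}).toSubring ≤ P.O1 from
          fun w hw => (exists_mem_adjoin_emb_eq_res1 P π0 emb hR0 hx hxy hw).1))) w := by
    rintro ⟨w, hw⟩
    obtain ⟨h, d, hd, e⟩ := exists_mem_adjoin_emb_eq_res1 P π0 emb hR0 hx hxy hw
    exact ⟨⟨d, hd⟩, e⟩
  have hinj : Function.Injective (emb.comp (Algebra.adjoin k {y}).val.toRingHom) :=
    emb.injective.comp Subtype.val_injective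
  set ρ : Algebra.adjoin R0 {x} →+* Algebra.adjoin k {y} := liftHom _ _ hinj hA with hρ
  have hρspec : ∀ w : Algebra.adjoin R0 {x},
      emb ((ρ w : Fk)) = P.res1 ⟨w.1, (exists_mem_adjoin_emb_eq_res1 P π0 emb hR0 hx hxy w.2).1⟩ :=
    fun w => liftHom_spec _ _ hinj hA w
  obtain ⟨p, hp, hpb⟩ := hb
  -- `c` is a root of `p.map ρ`
  have hroot : (p.map ρ).eval₂ (algebraMap (Algebra.adjoin k {y}) Fk) c = 0 := by
    apply emb.injective
    rw [map_zero, hom_eval₂, eval₂_map, hc]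
    -- compare with `P.res1` applied to `p(b) = 0`
    have h0 : P.res1 ⟨p.eval₂ (algebraMap (Algebra.adjoin R0 {x}) L) b, by
        rw [hpb]; exact Subring.zero_mem _⟩ = 0 := by
      rw [P.res1_congr _ (Subring.zero_mem _) hpb]
      exact map_zero _
    rw [← h0]
    -- expand both sides as sums
    have hmemc : ∀ i, algebraMap (Algebra.adjoin R0 {x}) L (p.coeff i) * b ^ i ∈ P.O1 := fun i =>
      Subring.mul_mem _ (exists_mem_adjoin_emb_eq_res1 P π0 emb hR0 hx hxy (p.coeff i).2).1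
        (Subring.pow_mem _ hbO i)
    have hsum : (⟨p.eval₂ (algebraMap (Algebra.adjoin R0 {x}) L) b, by
        rw [hpb]; exact Subring.zero_mem _⟩ : P.O1) =
        ∑ i ∈ Finset.range (p.natDegree + 1),
          (⟨algebraMap (Algebra.adjoin R0 {x}) L (p.coeff i) * b ^ i, hmemc i⟩ : P.O1) := by
      apply Subtype.ext
      show _ = P.O1.subtype _
      rw [map_sum]
      exact eval₂_eq_sum_range _ _
    rw [hsum, map_sum, eval₂_eq_sum_range]
    refine Finset.sum_congr rfl fun i _ => ?_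
    have hprod : (⟨algebraMap (Algebra.adjoin R0 {x}) L (p.coeff i) * b ^ i, hmemc i⟩ : P.O1) =
        ⟨(p.coeff i).1, (exists_mem_adjoin_emb_eq_res1 P π0 emb hR0 hx hxy (p.coeff i).2).1⟩ *
          ⟨b, hbO⟩ ^ i := by
      apply Subtype.ext
      rfl
    rw [hprod, map_mul, map_pow, ← hρspec]
    rfl
  have hcint : IsIntegral (Algebra.adjoin k {y}) c := ⟨p.map ρ, hp.map ρ, hroot⟩
  -- `k[y]` is integral over `k[xb]`
  exact H13.isIntegral_adjoin_trans (R := k) (s := {y}) (t := {xb})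
    (fun z hz => by rw [Set.mem_singleton_iff.1 hz]; exact hy) hcint

end Place

/-! ### The reduction ring homomorphism between the charts -/

section RedHom

variable {O : Type*} [CommRing O] {L : Type*} [Field L] [Algebra O L] {Ω : Type*} [Field Ω]
  {ϖ : O} {θ : L} {ι' : O →+* Ω} {θb' : Ω} (P : H99.PlaceOver ϖ θ ι' θb')
variable {R0 : Type*} [CommRing R0] [Algebra R0 L]
variable {k : Type*} [Field k] {Fk : Type*} [Field Fk] [Algebra k Fk]
variable (π0 : R0 →+* k) (emb : Fk →+* Ω)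

/-- **The reduction `B → T`** of a place between chart rings: `B` any subring of `L` of elements
integral over `R0[x]`, `T` any subring of `Fk` containing the elements integral over `k[xb]`. -/
noncomputable def redHom (hι' : ∀ a : O, ∃ c, emb c = ι' a) (hθb' : ∃ c, emb c = θb')
    (hR0 : ∀ r : R0, ∃ h : algebraMap R0 L r ∈ P.O1,
      P.res1 ⟨_, h⟩ = emb (algebraMap k Fk (π0 r)))
    {x : L} (hx : x ∈ P.O1) {y xb : Fk} (hxy : P.res1 ⟨x, hx⟩ = emb y)
    (hy : IsIntegral (Algebra.adjoin k {xb}) y)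
    (B : Subring L) (hB : ∀ b ∈ B, IsIntegral (Algebra.adjoin R0 {x}) b)
    (T : Subring Fk) (hT : ∀ c : Fk, IsIntegral (Algebra.adjoin k {xb}) c → c ∈ T) : B →+* T :=
  liftHom (P.res1.comp (Subring.inclusion (show B ≤ P.O1 from fun b hb =>
      (exists_isIntegral_emb_eq_res1 P π0 emb hι' hθb' hR0 hx hxy hy (hB b hb)).1)))
    (emb.comp T.subtype) (emb.injective.comp Subtype.val_injective)
    (fun b => by
      obtain ⟨h, c, hc, e⟩ :=
        exists_isIntegral_emb_eq_res1 P π0 emb hι' hθb' hR0 hx hxy hy (hB b.1 b.2)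
      exact ⟨⟨c, hT c hc⟩, e⟩)

theorem emb_redHom (hι' : ∀ a : O, ∃ c, emb c = ι' a) (hθb' : ∃ c, emb c = θb')
    (hR0 : ∀ r : R0, ∃ h : algebraMap R0 L r ∈ P.O1,
      P.res1 ⟨_, h⟩ = emb (algebraMap k Fk (π0 r)))
    {x : L} (hx : x ∈ P.O1) {y xb : Fk} (hxy : P.res1 ⟨x, hx⟩ = emb y)
    (hy : IsIntegral (Algebra.adjoin k {xb}) y)
    (B : Subring L) (hB : ∀ b ∈ B, IsIntegral (Algebra.adjoin R0 {x}) b)
    (T : Subring Fk) (hT : ∀ c : Fk, IsIntegral (Algebra.adjoin k {xb}) c → c ∈ T)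
    (b : B) (hb : (b : L) ∈ P.O1) :
    emb ((redHom P π0 emb hι' hθb' hR0 hx hxy hy B hB T hT b : T) : Fk) = P.res1 ⟨b, hb⟩ := by
  unfold redHom
  exact liftHom_spec (P.res1.comp (Subring.inclusion _)) (emb.comp T.subtype) _ _ b

/-- `redHom b = c` as soon as `P.res1 b = emb c`. -/
theorem redHom_eq_of_res1_eq (hι' : ∀ a : O, ∃ c, emb c = ι' a) (hθb' : ∃ c, emb c = θb')
    (hR0 : ∀ r : R0, ∃ h : algebraMap R0 L r ∈ P.O1,
      P.res1 ⟨_, h⟩ = emb (algebraMap k Fk (π0 r)))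
    {x : L} (hx : x ∈ P.O1) {y xb : Fk} (hxy : P.res1 ⟨x, hx⟩ = emb y)
    (hy : IsIntegral (Algebra.adjoin k {xb}) y)
    (B : Subring L) (hB : ∀ b ∈ B, IsIntegral (Algebra.adjoin R0 {x}) b)
    (T : Subring Fk) (hT : ∀ c : Fk, IsIntegral (Algebra.adjoin k {xb}) c → c ∈ T)
    (b : B) (hb : (b : L) ∈ P.O1) (c : T) (h : P.res1 ⟨b, hb⟩ = emb (c : Fk)) :
    redHom P π0 emb hι' hθb' hR0 hx hxy hy B hB T hT b = c := by
  unfold redHom
  exact (liftHom_eq_iff (P.res1.comp (Subring.inclusion _)) (emb.comp T.subtype) _ _ b c).2 h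

/-- `redHom b = 0 ↔ P.res1 b = 0`. -/
theorem redHom_eq_zero_iff (hι' : ∀ a : O, ∃ c, emb c = ι' a) (hθb' : ∃ c, emb c = θb')
    (hR0 : ∀ r : R0, ∃ h : algebraMap R0 L r ∈ P.O1,
      P.res1 ⟨_, h⟩ = emb (algebraMap k Fk (π0 r)))
    {x : L} (hx : x ∈ P.O1) {y xb : Fk} (hxy : P.res1 ⟨x, hx⟩ = emb y)
    (hy : IsIntegral (Algebra.adjoin k {xb}) y)
    (B : Subring L) (hB : ∀ b ∈ B, IsIntegral (Algebra.adjoin R0 {x}) b)
    (T : Subring Fk) (hT : ∀ c : Fk, IsIntegral (Algebra.adjoin k {xb}) c → c ∈ T)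
    (b : B) (hb : (b : L) ∈ P.O1) :
    redHom P π0 emb hι' hθb' hR0 hx hxy hy B hB T hT b = 0 ↔ P.res1 ⟨b, hb⟩ = 0 := by
  rw [← emb_redHom P π0 emb hι' hθb' hR0 hx hxy hy B hB T hT b hb]
  constructor
  · intro h
    rw [h]
    exact map_zero _
  · intro h
    have h1 : ((redHom P π0 emb hι' hθb' hR0 hx hxy hy B hB T hT b : T) : Fk) = 0 :=
      emb.injective (h.trans (map_zero emb).symm)
    exact Subtype.ext h1

end RedHom

end Fermat.Agent.S34.H13
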