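import Mathlib
import Fermat.Agent.S18.H99_F1Basics
import Fermat.Agent.S16.H36_DeltaUnit

/-!
S34 / L0 (helper16): SYMMETRY of the modular polynomial up to sign and the bound on its degree in
the inner variable: for `D : ModularPolynomialData N` with the `RootsAt` property,

* `swap_modPoly`  : `swap D.Φ = D.Φ ∨ swap D.Φ = - D.Φ`  (`Φ_N(X, Y) = ± Φ_N(Y, X)`);
* `natDegree_swap_modPoly` : `(swap D.Φ).natDegree = dedekindPsi N`;
* `natDegree_coeff_modPoly_le` : `(D.Φ.coeff i).natDegree ≤ dedekindPsi N` for all `i`.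
-/

set_option autoImplicit false
set_option linter.unusedSectionVars false
set_option linter.style.haveILetI false
set_option synthInstance.maxHeartbeats 400000

noncomputable section

namespace Fermat.Agent.S34.H16

open ModularCurve HahnSeries Polynomial Polynomial.Bivariate Fermat.Agent.S28

/-! ### 0. Generalities on `ℤ[X][Y]` -/

/-- `aevalAeval x y` is `eval₂ (evalJ x) y` on `ℤ[X][Y]`. -/
theorem aevalAeval_eq_eval₂_evalJ {R : Type*} [CommRing R] (x y : LaurentSeries R)
    (P : Polynomial ℤ[X]) :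
    aevalAeval (R := ℤ) x y P = P.eval₂ (evalJ x) y := by
  have h : ((aevalAeval (R := ℤ) x y : Polynomial ℤ[X] →ₐ[ℤ] LaurentSeries R) :
      Polynomial ℤ[X] →+* LaurentSeries R) = Polynomial.eval₂RingHom (evalJ x) y := by
    apply Polynomial.ringHom_ext'
    · apply S28.H50.ringHom_X_ext
      simp [evalJ]
    · simp
  exact congrArg (fun f : Polynomial ℤ[X] →+* LaurentSeries R => f P) h

/-- evaluating `swap P` at `(x, y)` is evaluating `P` at `(y, x)`. -/
theorem eval₂_evalJ_swap {R : Type*} [CommRing R] (x y : LaurentSeries R) (P : Polynomial ℤ[X]) :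
    (swap P).eval₂ (evalJ x) y = P.eval₂ (evalJ y) x := by
  rw [← aevalAeval_eq_eval₂_evalJ, ← aevalAeval_eq_eval₂_evalJ, aevalAeval_swap]

/-- coefficients of `swap P`. -/
theorem coeff_coeff_swap {R : Type*} [CommSemiring R] (P : Polynomial (Polynomial R)) (i j : ℕ) :
    ((swap P).coeff j).coeff i = (P.coeff i).coeff j := by
  induction P using Polynomial.induction_on' with
  | add p q hp hq =>
    rw [map_add, Polynomial.coeff_add, Polynomial.coeff_add, hp, hq, Polynomial.coeff_add,
      Polynomial.coeff_add]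
  | monomial n a =>
    induction a using Polynomial.induction_on' with
    | add p q hp hq =>
      rw [map_add, map_add, Polynomial.coeff_add, Polynomial.coeff_add, hp, hq,
        Polynomial.coeff_add, Polynomial.coeff_add]
    | monomial m r =>
      rw [swap_monomial_monomial]
      simp only [Polynomial.coeff_monomial]
      by_cases h1 : m = j <;> by_cases h2 : n = i <;> simp [h1, h2, Polynomial.coeff_monomial]

/-- the inner degrees of `P` are bounded by the outer degree of `swap P`. -/
theorem natDegree_coeff_le_natDegree_swap {R : Type*} [CommSemiring R]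
    (P : Polynomial (Polynomial R)) (i : ℕ) : (P.coeff i).natDegree ≤ (swap P).natDegree := by
  rw [Polynomial.natDegree_le_iff_coeff_eq_zero]
  intro j hj
  rw [← coeff_coeff_swap, Polynomial.coeff_eq_zero_of_natDegree_lt hj, Polynomial.coeff_zero]

/-! ### 1. The modular polynomial -/

section Main

variable (N : ℕ) [NeZero N] (D : ModularPolynomialData N)
  (hD : ∀ (k : Type) [Field k] (ζ : kˣ), IsPrimitiveRoot ζ N → RootsAt k N ζ D.Φ)

include hD

/-- a polynomial of `Y`-degree `< ψ(N)` vanishing at `(j, j_N)` over `ℚ` is zero. -/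
theorem eq_zero_of_eval₂_eq_zero {g : Polynomial ℤ[X]} (hdeg : g.degree < D.Φ.degree)
    (h : g.eval₂ (evalJ (jqModC ℚ)) (qExpand ℚ N (jqModC ℚ)) = 0) : g = 0 := by
  by_contra hg
  have hirr := S18.H99.irreducible_redModPoly_charZero N D hD ℚ
  refine S18.H16.eval₂_ne_zero_of_degree_lt D.monic hirr (S18.H16.modPoly_root N D ℚ) hdeg ?_ h
  intro h0
  apply hg
  have hinj : Function.Injective ((algebraMap ℚ[X] (RatFunc ℚ)).comp
      (Polynomial.mapRingHom (Int.castRingHom ℚ))) :=
    (IsFractionRing.injective ℚ[X] (RatFunc ℚ)).comp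
      (Polynomial.map_injective _ Int.cast_injective)
  exact Polynomial.map_injective _ hinj (by rw [Polynomial.map_zero]; exact h0)

/-- `Φ_N(Y, X)` is a multiple of `Φ_N(X, Y)` in `ℤ[X][Y]`. -/
theorem exists_swap_eq_mul : ∃ C : Polynomial ℤ[X], swap D.Φ = D.Φ * C := by
  refine ⟨swap D.Φ /ₘ D.Φ, ?_⟩
  have h1 := Polynomial.modByMonic_add_div (swap D.Φ) D.Φ
  have hmod : swap D.Φ %ₘ D.Φ = 0 := by
    apply eq_zero_of_eval₂_eq_zero N D hD (Polynomial.degree_modByMonic_lt _ D.monic)
    have h2 := congrArg (Polynomial.eval₂ (evalJ (jqModC ℚ)) (qExpand ℚ N (jqModC ℚ))) h1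
    rw [eval₂_add, eval₂_mul, S18.H16.modPoly_root N D ℚ, zero_mul, add_zero, eval₂_evalJ_swap,
      S16.H36.modPoly_root_swap N D hD ℚ] at h2
    exact h2
  rw [hmod, zero_add] at h1
  exact h1.symm

theorem swap_ne_zero {P : Polynomial ℤ[X]} (hP : P ≠ 0) : swap P ≠ 0 :=
  (map_ne_zero_iff _ (swap (R := ℤ)).injective).2 hP

/-- the degree of `Φ_N` in the inner variable is `ψ(N)`. -/
theorem natDegree_swap_modPoly : (swap D.Φ).natDegree = dedekindPsi N := by
  obtain ⟨C, hC⟩ := exists_swap_eq_mul N D hD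
  have hΦ0 : D.Φ ≠ 0 := D.monic.ne_zero
  have hS0 : swap D.Φ ≠ 0 := swap_ne_zero N D hD hΦ0
  have hC0 : C ≠ 0 := by
    rintro rfl
    rw [mul_zero] at hC
    exact hS0 hC
  have h1 : (swap D.Φ).natDegree = D.Φ.natDegree + C.natDegree := by
    rw [hC, Polynomial.natDegree_mul hΦ0 hC0]
  have hC' : D.Φ = swap D.Φ * swap C := by
    have := congrArg swap hC
    rwa [swap_swap_apply, map_mul] at this
  have h2 : D.Φ.natDegree = (swap D.Φ).natDegree + (swap C).natDegree := by
    conv_lhs => rw [hC']
    exact Polynomial.natDegree_mul hS0 (swap_ne_zero N D hD hC0)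
  rw [← D.natDegree_eq]
  omega

/-- **Inner degree bound**: every coefficient of `Φ_N ∈ ℤ[X][Y]` has degree `≤ ψ(N)`. -/
theorem natDegree_coeff_modPoly_le (i : ℕ) : (D.Φ.coeff i).natDegree ≤ dedekindPsi N := by
  rw [← natDegree_swap_modPoly N D hD]
  exact natDegree_coeff_le_natDegree_swap D.Φ i

end Main

end Fermat.Agent.S34.H16
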