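import Mathlib
import Fermat.Agent.S18.H95_PlaceExt

/-!
# S34, DESC, generic piece (D-c) (helper65): orders and supports along a constant field extension

Setting of `S18.H95` (`Extend` section): `F / K` and `F' / K'` function fields, `K' / K` algebraic,
`F → F'` compatible with `K → K'` (instance: `K = E`, `F = F_E`, `K' = Qbar`, `F' = FN N`,
`algebraMap F F' = toBar`).  Let `f : F`, and let `S` be a finite set of places of `F' / K'`
containing the support of `f` (read in `F'`), every place of which has a uniformiser coming from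
`F`.  Then

* `exists_place_above_of_ord_ne_zero` : every place `w` of `F / K` in the support of `f` lies under
  a place `v ∈ S` with `ord_v = ord_w` on `F` (ramification index one);
* `ord_eq_zero_or_exists_above`, `dvd_ord_of_dvd_ord_above` : divisibility of all orders descends;
* `finite_support_of_above` : the support of `f` on `F / K` is finite;
* `deg_eq_one_of_residue` : a place whose residue classes are all represented by constants has
  degree one.
-/

set_option autoImplicit false
set_option linter.unusedSectionVars false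

noncomputable section

namespace Fermat.Agent.S34.H65

open AlgebraicCurve
open scoped IntermediateField
open Fermat.Agent.S24 Fermat.Agent.S18

section DescOrd

variable {K F K' F' : Type*} [Field K] [Field F] [Algebra K F] [Field K'] [Field F']
  [Algebra K' F'] [Algebra K K'] [Algebra F F'] [Algebra K F'] [IsScalarTower K F F']
  [IsScalarTower K K' F']

/-- Every place `w` of `F / K` in the support of `f` lies under a place `v ∈ S`, unramified. -/
theorem exists_place_above_of_ord_ne_zero [Algebra.IsAlgebraic K K'] (t' : F')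
    (ht' : Transcendental K' t') [FiniteDimensional K'⟮t'⟯ F'] [CharZero K'] (f : F)
    (S : Finset (Place K' F'))
    (hS : ∀ v : Place K' F', v.ord (algebraMap F F' f) ≠ 0 → v ∈ S)
    (hunif : ∀ v ∈ S, ∃ t : F, v.ord (algebraMap F F' t) = 1)
    (w : Place K F) (hw : w.ord f ≠ 0) :
    ∃ v ∈ S, (∀ x : F, v.ord (algebraMap F F' x) = w.ord x) ∧
      (∀ x : F, x ∈ w.toValuationSubring ↔ algebraMap F F' x ∈ v.toValuationSubring) := by
  obtain ⟨v, e, he, hord, hmem⟩ := H95.exists_place_extension (K := K) (F := F) t' ht' w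
  have he0 : ((e : ℕ) : ℤ) ≠ 0 := by exact_mod_cast he.ne'
  have hvS : v ∈ S := by
    apply hS
    rw [hord]
    exact mul_ne_zero he0 hw
  obtain ⟨t, ht⟩ := hunif v hvS
  have he1 : ((e : ℕ) : ℤ) = 1 := by
    rw [hord] at ht
    exact Int.eq_one_of_mul_eq_one_right (by positivity) ht
  refine ⟨v, hvS, fun x => ?_, hmem⟩
  rw [hord, he1, one_mul]

/-- A place of `F / K` is outside the support of `f`, or lies (unramified) under a place of `S`. -/
theorem ord_eq_zero_or_exists_above [Algebra.IsAlgebraic K K'] (t' : F')
    (ht' : Transcendental K' t') [FiniteDimensional K'⟮t'⟯ F'] [CharZero K'] (f : F)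
    (S : Finset (Place K' F'))
    (hS : ∀ v : Place K' F', v.ord (algebraMap F F' f) ≠ 0 → v ∈ S)
    (hunif : ∀ v ∈ S, ∃ t : F, v.ord (algebraMap F F' t) = 1)
    (w : Place K F) :
    w.ord f = 0 ∨ ∃ v ∈ S, w.ord f = v.ord (algebraMap F F' f) := by
  by_cases hw : w.ord f = 0
  · exact Or.inl hw
  · obtain ⟨v, hvS, hord, -⟩ := exists_place_above_of_ord_ne_zero t' ht' f S hS hunif w hw
    exact Or.inr ⟨v, hvS, (hord f).symm⟩

/-- Divisibility of all orders descends from `F' / K'` to `F / K`. -/
theorem dvd_ord_of_dvd_ord_above [Algebra.IsAlgebraic K K'] (t' : F')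
    (ht' : Transcendental K' t') [FiniteDimensional K'⟮t'⟯ F'] [CharZero K'] (f : F)
    (S : Finset (Place K' F'))
    (hS : ∀ v : Place K' F', v.ord (algebraMap F F' f) ≠ 0 → v ∈ S)
    (hunif : ∀ v ∈ S, ∃ t : F, v.ord (algebraMap F F' t) = 1)
    (m : ℤ) (hm : ∀ v : Place K' F', m ∣ v.ord (algebraMap F F' f)) (w : Place K F) :
    m ∣ w.ord f := by
  rcases ord_eq_zero_or_exists_above t' ht' f S hS hunif w with h | ⟨v, -, h⟩
  · rw [h]; exact dvd_zero m
  · rw [h]; exact hm v

/-- The support of `f` on `F / K` is finite. -/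
theorem finite_support_of_above [Algebra.IsAlgebraic K K'] (t' : F')
    (ht' : Transcendental K' t') [FiniteDimensional K'⟮t'⟯ F'] [CharZero K'] (f : F)
    (S : Finset (Place K' F'))
    (hS : ∀ v : Place K' F', v.ord (algebraMap F F' f) ≠ 0 → v ∈ S)
    (hunif : ∀ v ∈ S, ∃ t : F, v.ord (algebraMap F F' t) = 1) :
    {w : Place K F | w.ord f ≠ 0}.Finite := by
  classical
  have hex : ∀ w : {w : Place K F | w.ord f ≠ 0}, ∃ v : S, ∀ x : F,
      x ∈ w.1.toValuationSubring ↔ algebraMap F F' x ∈ v.1.toValuationSubring := by
    rintro ⟨w, hw⟩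
    obtain ⟨v, hvS, -, hmem⟩ := exists_place_above_of_ord_ne_zero t' ht' f S hS hunif w hw
    exact ⟨⟨v, hvS⟩, hmem⟩
  choose φ hφ using hex
  have hinj : Function.Injective φ := by
    intro w₁ w₂ h
    apply Subtype.ext
    apply H27.eq_of_toValuationSubring_le
    intro x hx
    rw [hφ w₂, ← h, ← hφ w₁]
    exact hx
  exact Set.finite_coe_iff.mp (Finite.of_injective φ hinj)

end DescOrd

section Deg

variable {K F : Type*} [Field K] [Field F] [Algebra K F]

/-- A place all of whose residue classes are represented by constants has degree one. -/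
theorem deg_eq_one_of_residue (w : Place K F)
    (h : ∀ x : F, x ∈ w.toValuationSubring →
      ∃ c : K, x = algebraMap K F c ∨ 0 < w.ord (x - algebraMap K F c)) : w.deg = 1 := by
  show Module.finrank K w.ResidueField = 1
  rw [finrank_eq_one_iff_of_nonzero' (1 : w.ResidueField) one_ne_zero]
  intro y
  obtain ⟨⟨x, hx⟩, rfl⟩ := IsLocalRing.residue_surjective (R := w.toValuationSubring) y
  obtain ⟨c, hc⟩ := h x hx
  refine ⟨c, ?_⟩
  rw [Algebra.smul_def, mul_one]
  show IsLocalRing.residue w.toValuationSubring (algebraMap K w.toValuationSubring c) = _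
  rw [eq_comm, ← sub_eq_zero, ← map_sub, IsLocalRing.residue_eq_zero_iff]
  rcases hc with hc | hc
  · have : (⟨x, hx⟩ : w.toValuationSubring) - algebraMap K w.toValuationSubring c = 0 :=
      Subtype.ext (by simp [hc])
    rw [this]
    exact zero_mem _
  · have hmem : x - algebraMap K F c ∈ w.toValuationSubring := sub_mem hx (w.algebraMap_mem' c)
    have hne : (⟨x - algebraMap K F c, hmem⟩ : w.toValuationSubring) ≠ 0 := by
      intro h0
      have : x - algebraMap K F c = 0 := congrArg Subtype.val h0
      rw [this, Place.ord_zero] at hc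
      exact lt_irrefl _ hc
    have h2 : (⟨x, hx⟩ : w.toValuationSubring) - algebraMap K w.toValuationSubring c
        = ⟨x - algebraMap K F c, hmem⟩ := Subtype.ext rfl
    rw [h2, ← H27.ord_pos_iff_mem_maximalIdeal w ⟨_, hmem⟩ hne]
    exact hc

end Deg

end Fermat.Agent.S34.H65
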