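import Mathlib
import Fermat.Agent.S34.H65_DescOrd

/-!
# S34, DESC, generic piece (D-d) (helper65): a Galois-fixed place lies over a place of degree one

Setting of `H65_DescOrd`.  Let `v` be a place of `F' / K'` whose residue classes are represented by
constants of `K'` (e.g. `deg v = 1`), `w` a place of `F / K` under `v` (membership and positivity
of orders transfer), and `(τF i, τK i)` a family of automorphisms of `F'` which fix the image of
`F` pointwise, act on the constants through `τK i`, and preserve the maximal ideal of `v`.  If the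
constants fixed by all `τK i` come from `K`, then the residue classes of `w` are represented by
constants of `K`, hence `deg w = 1`.
-/

set_option autoImplicit false
set_option linter.unusedSectionVars false

noncomputable section

namespace Fermat.Agent.S34.H65

open AlgebraicCurve
open Fermat.Agent.S24 Fermat.Agent.S18

section DescDeg

variable {K F K' F' : Type*} [Field K] [Field F] [Algebra K F] [Field K'] [Field F']
  [Algebra K' F'] [Algebra K K'] [Algebra F F'] [Algebra K F'] [IsScalarTower K F F']
  [IsScalarTower K K' F']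

/-- the order of a nonzero constant is zero. -/
theorem ord_algebraMap_eq_zero (v : Place K' F') {c : K'} (hc : c ≠ 0) :
    v.ord (algebraMap K' F' c) = 0 :=
  (H27.isOrdFunction_ord v).map_algebraMap c hc

/-- **Residue constants descend.** -/
theorem resTriv_of_fixed {ι : Type*} (v : Place K' F') (w : Place K F)
    (hv : ∀ y : F', y ∈ v.toValuationSubring →
      ∃ b : K', y = algebraMap K' F' b ∨ 0 < v.ord (y - algebraMap K' F' b))
    (hmem : ∀ x : F, x ∈ w.toValuationSubring → algebraMap F F' x ∈ v.toValuationSubring)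
    (hpos : ∀ x : F, 0 < v.ord (algebraMap F F' x) → 0 < w.ord x)
    (τF : ι → F' ≃+* F') (τK : ι → K' →+* K')
    (hτK : ∀ i (b : K'), τF i (algebraMap K' F' b) = algebraMap K' F' (τK i b))
    (hτF : ∀ i (x : F), τF i (algebraMap F F' x) = algebraMap F F' x)
    (hτv : ∀ i (y : F'), 0 < v.ord y → 0 < v.ord (τF i y))
    (hfix : ∀ b : K', (∀ i, τK i b = b) → b ∈ Set.range (algebraMap K K'))
    (x : F) (hx : x ∈ w.toValuationSubring) :
    ∃ c : K, x = algebraMap K F c ∨ 0 < w.ord (x - algebraMap K F c) := by
  obtain ⟨b, hb⟩ := hv _ (hmem x hx)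
  -- `b` is fixed by every `τK i`
  have hbfix : ∀ i, τK i b = b := by
    intro i
    rcases hb with hb | hb
    · have h1 : τF i (algebraMap F F' x) = algebraMap K' F' (τK i b) := by rw [hb, hτK]
      rw [hτF, hb] at h1
      exact ((algebraMap K' F').injective h1).symm
    · have h1 : 0 < v.ord (algebraMap F F' x - algebraMap K' F' (τK i b)) := by
        have := hτv i _ hb
        rwa [map_sub, hτF, hτK] at this
      by_contra hne
      have hne' : b - τK i b ≠ 0 := fun h => hne (sub_eq_zero.mp h).symm
      have h0 : v.ord (algebraMap K' F' (b - τK i b)) = 0 := ord_algebraMap_eq_zero v hne'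
      have hne'' : algebraMap K' F' (b - τK i b) ≠ 0 := (map_ne_zero _).mpr hne'
      have hsum : algebraMap K' F' (b - τK i b) =
          (algebraMap F F' x - algebraMap K' F' (τK i b)) +
            (-(algebraMap F F' x - algebraMap K' F' b)) := by
        rw [map_sub]; ring
      have hmin := H27.min_ord_le_ord_add v (f := algebraMap F F' x - algebraMap K' F' (τK i b))
        (g := -(algebraMap F F' x - algebraMap K' F' b)) (by rw [← hsum]; exact hne'')
      rw [← hsum, h0, H27.ord_neg] at hmin
      have := lt_min h1 hb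
      omega
  obtain ⟨c, hc⟩ := hfix b hbfix
  refine ⟨c, ?_⟩
  have hcb : algebraMap K' F' b = algebraMap F F' (algebraMap K F c) := by
    rw [← hc, ← IsScalarTower.algebraMap_apply K K' F', IsScalarTower.algebraMap_apply K F F']
  rcases hb with hb | hb
  · left
    apply (algebraMap F F').injective
    rw [hb, hcb]
  · right
    apply hpos
    rw [map_sub, ← hcb]
    exact hb

/-- **(D-d), generic.**  A place under a place with constant residues, fixed by a family of
automorphisms whose fixed constants are `K`, has degree one. -/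
theorem deg_eq_one_of_fixed {ι : Type*} (v : Place K' F') (w : Place K F)
    (hv : ∀ y : F', y ∈ v.toValuationSubring →
      ∃ b : K', y = algebraMap K' F' b ∨ 0 < v.ord (y - algebraMap K' F' b))
    (hmem : ∀ x : F, x ∈ w.toValuationSubring → algebraMap F F' x ∈ v.toValuationSubring)
    (hpos : ∀ x : F, 0 < v.ord (algebraMap F F' x) → 0 < w.ord x)
    (τF : ι → F' ≃+* F') (τK : ι → K' →+* K')
    (hτK : ∀ i (b : K'), τF i (algebraMap K' F' b) = algebraMap K' F' (τK i b))
    (hτF : ∀ i (x : F), τF i (algebraMap F F' x) = algebraMap F F' x)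
    (hτv : ∀ i (y : F'), 0 < v.ord y → 0 < v.ord (τF i y))
    (hfix : ∀ b : K', (∀ i, τK i b = b) → b ∈ Set.range (algebraMap K K')) :
    w.deg = 1 :=
  deg_eq_one_of_residue w fun x hx =>
    resTriv_of_fixed v w hv hmem hpos τF τK hτK hτF hτv hfix x hx

/-- Variant with `deg v = 1` and the output of `exists_place_above_of_ord_ne_zero`. -/
theorem deg_eq_one_of_fixed' {ι : Type*} (v : Place K' F') (w : Place K F) (hdeg : v.deg = 1)
    (hord : ∀ x : F, v.ord (algebraMap F F' x) = w.ord x)
    (hmem : ∀ x : F, x ∈ w.toValuationSubring ↔ algebraMap F F' x ∈ v.toValuationSubring)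
    (τF : ι → F' ≃+* F') (τK : ι → K' →+* K')
    (hτK : ∀ i (b : K'), τF i (algebraMap K' F' b) = algebraMap K' F' (τK i b))
    (hτF : ∀ i (x : F), τF i (algebraMap F F' x) = algebraMap F F' x)
    (hτv : ∀ i (y : F'), 0 < v.ord y → 0 < v.ord (τF i y))
    (hfix : ∀ b : K', (∀ i, τK i b = b) → b ∈ Set.range (algebraMap K K')) :
    w.deg = 1 := by
  refine deg_eq_one_of_fixed v w ?_ (fun x hx => (hmem x).mp hx)
    (fun x hx => by rwa [hord] at hx) τF τK hτK hτF hτv hfix
  intro y hy
  have h1 : Module.finrank K' v.ResidueField = 1 := hdeg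
  obtain ⟨c, hc⟩ := (finrank_eq_one_iff_of_nonzero' (1 : v.ResidueField) one_ne_zero).mp h1
    (IsLocalRing.residue v.toValuationSubring ⟨y, hy⟩)
  refine ⟨c, ?_⟩
  by_cases heq : y = algebraMap K' F' c
  · exact Or.inl heq
  refine Or.inr ?_
  have hmem' : y - algebraMap K' F' c ∈ v.toValuationSubring := sub_mem hy (v.algebraMap_mem' c)
  have hne : (⟨y - algebraMap K' F' c, hmem'⟩ : v.toValuationSubring) ≠ 0 := fun h0 =>
    heq (sub_eq_zero.mp (congrArg Subtype.val h0))
  rw [H27.ord_pos_iff_mem_maximalIdeal v ⟨_, hmem'⟩ hne, ← IsLocalRing.residue_eq_zero_iff]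
  have h2 : (⟨y - algebraMap K' F' c, hmem'⟩ : v.toValuationSubring)
      = ⟨y, hy⟩ - algebraMap K' v.toValuationSubring c := Subtype.ext rfl
  rw [h2, map_sub, sub_eq_zero, ← hc, Algebra.smul_def, mul_one]
  rfl

end DescDeg

end Fermat.Agent.S34.H65
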