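/-
S34, DESC spare parts (helper31).

(D-a) Every element of the function field `FN N` of `X₀(N)` over `Qbar` is the coefficientwise
image of an element of `modularFunctionFieldFullC K N` for EVERY subfield `K` of `Qbar` containing
a suitable finite set of constants.

(D-d), concrete instance of `H65.deg_eq_one_of_fixed'`: a place `w` of `F_E / E` lying (unramified)
under a place `v` of `FN N` which is fixed by `Gal(Qbar / E)` has degree one.  Pieces:
`arithmeticGalois_smul_toBar` (elements coming from `F_E` are fixed by `Gal(Qbar / E)`),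
`ord_smul_of_smul_eq`, `mem_of_forall_fixing` (the fixed field of `Gal(Qbar / E)` is `E`).
-/
import Mathlib
import Fermat.Agent.S18.H8_FullCBridge
import Fermat.Agent.S18.H45_CutOverField
import Fermat.Agent.S24.H40_M123
import Fermat.Agent.S24.H97_Degree
import Fermat.Agent.S34.H65_DescDeg

set_option autoImplicit false

noncomputable section

namespace Fermat.Agent.S34.H31

open ModularCurve HahnSeries IntermediateField Fermat.Agent Fermat.Agent.S18

universe u

section Generic

variable {K' : Type*} [Field K'] (N : ℕ) [NeZero N]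

/-- **(D-a), generic form.** -/
theorem exists_finset_forall_exists_coeffMap_eq {x : LaurentSeries K'}
    (hx : x ∈ modularFunctionFieldFullC K' N) :
    ∃ S : Finset K', ∀ (K : Type u) [Field K] (φ : K →+* K'), (∀ a ∈ S, a ∈ Set.range φ) →
      ∃ y ∈ modularFunctionFieldFullC K N, coeffMap φ y = x := by
  classical
  rw [modularFunctionFieldFullC] at hx
  induction hx using IntermediateField.adjoin_induction with
  | mem y hy =>
      obtain ⟨d, hd, hdN, rfl⟩ := hy
      refine ⟨∅, fun K _ φ _ => ⟨qExpand K d (jqModC K), jqModCd_mem_full K N hdN, ?_⟩⟩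
      rw [coeffMap_qExpand, coeffMap_jqModC]
  | algebraMap r =>
      refine ⟨{r}, fun K _ φ h => ?_⟩
      obtain ⟨c, rfl⟩ := h r (Finset.mem_singleton_self r)
      exact ⟨algebraMap K (LaurentSeries K) c, IntermediateField.algebraMap_mem _ _,
        H8.coeffMap_algebraMap' φ c⟩
  | add y z _ _ hy hz =>
      obtain ⟨S₁, h₁⟩ := hy
      obtain ⟨S₂, h₂⟩ := hz
      refine ⟨S₁ ∪ S₂, fun K _ φ h => ?_⟩
      obtain ⟨y', hy', rfl⟩ := h₁ K φ fun a ha => h a (Finset.mem_union_left _ ha)
      obtain ⟨z', hz', rfl⟩ := h₂ K φ fun a ha => h a (Finset.mem_union_right _ ha)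
      exact ⟨y' + z', add_mem hy' hz', map_add _ _ _⟩
  | inv y _ hy =>
      obtain ⟨S₁, h₁⟩ := hy
      refine ⟨S₁, fun K _ φ h => ?_⟩
      obtain ⟨y', hy', rfl⟩ := h₁ K φ h
      exact ⟨y'⁻¹, inv_mem hy', map_inv₀ _ _⟩
  | mul y z _ _ hy hz =>
      obtain ⟨S₁, h₁⟩ := hy
      obtain ⟨S₂, h₂⟩ := hz
      refine ⟨S₁ ∪ S₂, fun K _ φ h => ?_⟩
      obtain ⟨y', hy', rfl⟩ := h₁ K φ fun a ha => h a (Finset.mem_union_left _ ha)
      obtain ⟨z', hz', rfl⟩ := h₂ K φ fun a ha => h a (Finset.mem_union_right _ ha)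
      exact ⟨y' * z', mul_mem hy' hz', map_mul _ _ _⟩

end Generic

section Bar

variable (N : ℕ) [NeZero N]

/-- **(D-a)** for `FN N` and `H8.toBar`. -/
theorem exists_finset_forall_mem_range_toBar (f : S24.FN N) :
    ∃ S : Finset S24.Qbar, ∀ (K : Type u) [Field K] [Algebra K S24.Qbar],
      (∀ a ∈ S, a ∈ Set.range (algebraMap K S24.Qbar)) → f ∈ Set.range (H8.toBar N K) := by
  have hf : (f : LaurentSeries S24.Qbar) ∈ modularFunctionFieldFullC S24.Qbar N := by
    rw [H8.fullC_eq_laurentBaseChange]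
    exact f.2
  obtain ⟨S, hS⟩ := exists_finset_forall_exists_coeffMap_eq.{u, 0} N hf
  refine ⟨S, fun K _ _ h => ?_⟩
  obtain ⟨y, hy, hyx⟩ := hS K (algebraMap K S24.Qbar) h
  exact ⟨⟨y, hy⟩, Subtype.ext hyx⟩

/-- **(D-a)** for intermediate fields of `Qbar / K₁`. -/
theorem exists_finset_forall_mem_range_toBar_intermediateField {K₁ : Type*} [Field K₁]
    [Algebra K₁ S24.Qbar] (f : S24.FN N) :
    ∃ S : Finset S24.Qbar, ∀ E : IntermediateField K₁ S24.Qbar, (∀ a ∈ S, a ∈ E) →
      f ∈ Set.range (H8.toBar N ↥E) := by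
  obtain ⟨S, hS⟩ := exists_finset_forall_mem_range_toBar.{0} N f
  exact ⟨S, fun E h => hS ↥E fun a ha => ⟨⟨a, h a ha⟩, rfl⟩⟩

end Bar

section DegOne

open AlgebraicCurve Fermat.Agent.S18.H45

local notation "Qbar" => AlgebraicClosure ℚ

variable (N : ℕ) [NeZero N]

/-- Elements of `FN N` coming from the function field over a subfield `K` of `Qbar` are fixed by
the automorphisms of `Qbar` fixing `K`. -/
theorem arithmeticGalois_smul_toBar {K : Type*} [Field K] [Algebra K Qbar] (τ : Qbar ≃ₐ[ℚ] Qbar)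
    (hτ : ∀ c : K, τ (algebraMap K Qbar c) = algebraMap K Qbar c)
    (x : modularFunctionFieldFullC K N) :
    arithmeticGalois (modularFunctionFieldFull N) τ • H8.toBar N K x = H8.toBar N K x := by
  apply Subtype.ext
  rw [coe_arithmeticGalois_smul, H8.coe_toBar, coeffMap_coeffMap]
  exact coeffMap_congr (RingHom.ext fun c => hτ c) _

/-- A semilinear automorphism fixing a place preserves its order function. -/
theorem ord_smul_of_smul_eq {K F : Type*} [Field K] [Field F] [Algebra K F]
    (g : SemilinearAut K F) (v : Place K F) (hv : g • v = v) (y : F) :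
    v.ord (g • y) = v.ord y := by
  conv_lhs => rw [← hv]
  exact SemilinearAut.ord_smul g v y

variable {ℓ : ℕ} (E : IntermediateField (unrCyclo ℓ) Qbar)

/-- The fixed field of `Gal(Qbar / E)` is `E`. -/
theorem mem_of_forall_fixing (b : Qbar)
    (h : ∀ τ : Qbar ≃ₐ[ℚ] Qbar, (∀ x ∈ E, τ x = x) → τ b = b) : b ∈ E := by
  haveI : IsGalois ↥E Qbar := IsAlgClosure.isGalois ↥E Qbar
  have h1 : b ∈ Set.range (algebraMap ↥E Qbar) := by
    rw [InfiniteGalois.mem_range_algebraMap_iff_fixed]
    intro f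
    exact h (f.restrictScalars ℚ) fun x hx => f.commutes ⟨x, hx⟩
  obtain ⟨c, rfl⟩ := h1
  exact c.2

/-- **(D-d), concrete.**  `w` a place of `F_E / E`, `v` a place of `FN N` above it with
ramification index one (the two outputs of `H65.exists_place_above_of_ord_ne_zero` at
`algebraMap := toBar`), `v` fixed by every automorphism of `Qbar` fixing `E`: then `deg w = 1`. -/
theorem deg_eq_one_of_fixing (v : Place Qbar (S24.FN N))
    (w : Place ↥E ↥(modularFunctionFieldFullC ↥E N))
    (hord : ∀ x : ↥(modularFunctionFieldFullC ↥E N), v.ord (H8.toBar N ↥E x) = w.ord x)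
    (hmem : ∀ x : ↥(modularFunctionFieldFullC ↥E N),
      x ∈ w.toValuationSubring ↔ H8.toBar N ↥E x ∈ v.toValuationSubring)
    (hv : ∀ τ : Qbar ≃ₐ[ℚ] Qbar, (∀ x ∈ E, τ x = x) →
      arithmeticGalois (modularFunctionFieldFull N) τ • v = v) :
    w.deg = 1 := by
  letI : Algebra ↥(modularFunctionFieldFullC ↥E N) (S24.FN N) := (H8.toBar N ↥E).toAlgebra
  haveI : IsScalarTower ↥E ↥(modularFunctionFieldFullC ↥E N) (S24.FN N) :=
    IsScalarTower.of_algebraMap_eq fun c => (H8.toBar_algebraMap N ↥E c).symm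
  haveI : FiniteDimensional (IntermediateField.adjoin Qbar {S24.jBar N}) (S24.FN N) :=
    S24.H40.finiteDimensional_FN N
  have hdeg : v.deg = 1 :=
    S24.H97.deg_eq_one (K := Qbar) (F := S24.FN N) (S24.jBar N) (S24.H40.transcendental_jBar N) v
  refine H65.deg_eq_one_of_fixed' (ι := {τ : Qbar ≃ₐ[ℚ] Qbar // ∀ x ∈ E, τ x = x}) v w hdeg
    hord hmem
    (fun τ => SemilinearAut.toRingAut (arithmeticGalois (modularFunctionFieldFull N) τ.1))
    (fun τ => (τ.1 : Qbar →+* Qbar)) ?_ ?_ ?_ ?_
  · intro τ b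
    exact SemilinearAut.commutes _ b
  · intro τ x
    exact arithmeticGalois_smul_toBar (K := ↥E) N τ.1 (fun c => τ.2 (c : Qbar) c.2) x
  · intro τ y hy
    have := ord_smul_of_smul_eq (arithmeticGalois (modularFunctionFieldFull N) τ.1) v
      (hv τ.1 τ.2) y
    rw [SemilinearAut.smul_def] at this
    rw [this]
    exact hy
  · intro b hb
    exact ⟨⟨b, mem_of_forall_fixing E b fun τ hτ => hb ⟨τ, hτ⟩⟩, rfl⟩

end DegOne

end Fermat.Agent.S34.H31
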