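/-
S34 project, [TOP] (helper34; hedge twin): **the frozen S34 conclusion from the E-level chain.**

* `isUnipotentOnInertiaAt_of_middle` : the frozen conclusion `H.ρ.IsUnipotentOnInertiaAt q` from the
  conclusion of MIDDLE (`H61.middle_cutOver`) at every finite Galois level `E / K1`,
  `K1 = H45.unrCyclo q`, with `s = H45.inertiaActFullC hq hA E N σ hσ`.  Uses: the frozen S37
  conclusion (`Fermat.Agent.S37.result`), `H47.isUnipotentOnInertiaAt_of_stages`, `H47.hU_of_uFn`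
  and the descent `H34.uFn_of_uFnE`.
* `isUnipotentOnInertiaAt_of_chartData` : the same from the model hypotheses of
  `H61.middle_cutOver` (`hmax hrad₁ hrad₂ hJ₁ hJ₂ hD₁ hD₂`) at every finite Galois level.
-/
import Mathlib
import Fermat.Agent.S37
import Fermat.Agent.S34.H47_S34OfU
import Fermat.Agent.S34.H34_DescTwin
import Fermat.Agent.S34.H61_MiddleCutOver

set_option autoImplicit false
set_option linter.unusedSectionVars false
set_option linter.style.haveILetI false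
set_option synthInstance.maxHeartbeats 400000

namespace Fermat.Agent.S34.H34

open IsLocalRing AlgebraicCurve ModularCurve IntermediateField
open Fermat.Agent.S18 Fermat.Agent.S24

local notation "Qbar" => AlgebraicClosure ℚ

variable {𝒪 : Type} [CommRing 𝒪] [IsDomain 𝒪] [IsDiscreteValuationRing 𝒪]
  [IsAdicComplete (maximalIdeal 𝒪) 𝒪]
  {p : ℕ} {N : ℕ} [NeZero N] {S : Finset ℕ}
  {θ : CuspForm.heckeAlgebra N 2 (↑S : Set ℕ) →+* ResidueField 𝒪}
  {T : Type} [CommRing T] [IsLocalRing T] [IsNoetherianRing T]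
  [IsAdicComplete (maximalIdeal T) T] [Algebra 𝒪 T] [IsLocalHom (algebraMap 𝒪 T)]
  [Module.Finite 𝒪 T] [Module.Free 𝒪 T]

/-- **[TOP], first form.**  The frozen S34 conclusion from the conclusion of MIDDLE at every finite
Galois level `E / K1`. -/
theorem isUnipotentOnInertiaAt_of_middle (hp : p.Prime)
    (hp𝒪 : (p : 𝒪) ∈ maximalIdeal 𝒪) (hpS : p ∈ S)
    (hNS : ∀ q : ℕ, q.Prime → q ∣ N → q ∈ S)
    (H : CuspForm.HeckeGaloisRepDatum N (↑S : Set ℕ) 𝒪 θ T)
    (q : ℕ) (hq : q.Prime) (hqp : q ≠ p)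
    (hMid : ∀ (A : ValuationSubring Qbar) (hA : A.LiesOverPrime q) (σ : Qbar ≃ₐ[ℚ] Qbar)
      (hσ : σ ∈ A.inertiaSubgroupIn ℚ) (E : IntermediateField (H45.unrCyclo q) Qbar)
      [FiniteDimensional (H45.unrCyclo q) E] [IsGalois (H45.unrCyclo q) E]
      (k : ℕ) (f : modularFunctionFieldFullC ↥E N), H61.Admissible ↥E f (p ^ k) →
      ∃ (c : ↥E) (g : modularFunctionFieldFullC ↥E N), c ≠ 0 ∧ g ≠ 0 ∧
        H45.inertiaActFullC hq hA E N σ hσ (H45.inertiaActFullC hq hA E N σ hσ f / f) /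
            (H45.inertiaActFullC hq hA E N σ hσ f / f) =
          algebraMap ↥E (modularFunctionFieldFullC ↥E N) c * g ^ (p ^ k)) :
    H.ρ.IsUnipotentOnInertiaAt q := by
  refine H47.isUnipotentOnInertiaAt_of_stages hp hp𝒪 hpS hNS H
    (fun hcomm => Fermat.Agent.S37.result N p hcomm) q hq hqp ?_
  refine H47.hU_of_uFn N p q hp (fun A hA σ hσ n => ?_)
  refine uFn_of_uFnE N hq hA σ hσ (p ^ n) (fun E _ _ => ?_)
  intro f hf hdvd hdeg hfin
  obtain ⟨c, g, -, hg, hrel⟩ := hMid A hA σ hσ E n f ⟨hf, hdvd, hdeg, hfin⟩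
  exact ⟨c, g, hg, hrel⟩

/-- **[TOP], second form.**  The frozen S34 conclusion from the model hypotheses of
`H61.middle_cutOver` at every finite Galois level `E / K1`. -/
theorem isUnipotentOnInertiaAt_of_chartData (hp : p.Prime)
    (hp𝒪 : (p : 𝒪) ∈ maximalIdeal 𝒪) (hpS : p ∈ S)
    (hNS : ∀ q : ℕ, q.Prime → q ∣ N → q ∈ S)
    (H : CuspForm.HeckeGaloisRepDatum N (↑S : Set ℕ) 𝒪 θ T)
    (q : ℕ) [NeZero q] (hq : q.Prime) (hqp : q ≠ p) (hqN : q ∣ N)
    (hModel : ∀ (A : ValuationSubring Qbar) (hA : A.LiesOverPrime q) (σ : Qbar ≃ₐ[ℚ] Qbar)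
      (hσ : σ ∈ A.inertiaSubgroupIn ℚ) (E : IntermediateField (H45.unrCyclo q) Qbar)
      [FiniteDimensional (H45.unrCyclo q) E] [IsGalois (H45.unrCyclo q) E],
      ∃ π : H45.cutOver A E, maximalIdeal (H45.cutOver A E) = Ideal.span {π} ∧
        (∀ b : ↥(H40.chartB (H45.cutOver A E) (H95.JK ↥E N q hqN)),
          (∃ n : ℕ, algebraMap (H45.cutOver A E)
            ↥(H40.chartB (H45.cutOver A E) (H95.JK ↥E N q hqN)) π ∣ b ^ n) →
          algebraMap (H45.cutOver A E)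
            ↥(H40.chartB (H45.cutOver A E) (H95.JK ↥E N q hqN)) π ∣ b) ∧
        (∀ b : ↥(H40.chartB (H45.cutOver A E) (H95.JK ↥E N q hqN)⁻¹),
          (∃ n : ℕ, algebraMap (H45.cutOver A E)
            ↥(H40.chartB (H45.cutOver A E) (H95.JK ↥E N q hqN)⁻¹) π ∣ b ^ n) →
          algebraMap (H45.cutOver A E)
            ↥(H40.chartB (H45.cutOver A E) (H95.JK ↥E N q hqN)⁻¹) π ∣ b) ∧
        (∀ P : H3.Vert (algebraMap (H45.cutOver A E)
            ↥(H40.chartB (H45.cutOver A E) (H95.JK ↥E N q hqN)) π),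
          (⟨H95.JK ↥E N q hqN, H40.self_mem_chartB _⟩ :
              ↥(H40.chartB (H45.cutOver A E) (H95.JK ↥E N q hqN))) ∉
            (P : Ideal ↥(H40.chartB (H45.cutOver A E) (H95.JK ↥E N q hqN)))) ∧
        (∀ P : H3.Vert (algebraMap (H45.cutOver A E)
            ↥(H40.chartB (H45.cutOver A E) (H95.JK ↥E N q hqN)⁻¹) π),
          (⟨(H95.JK ↥E N q hqN)⁻¹, H40.self_mem_chartB _⟩ :
              ↥(H40.chartB (H45.cutOver A E) (H95.JK ↥E N q hqN)⁻¹)) ∉
            (P : Ideal ↥(H40.chartB (H45.cutOver A E) (H95.JK ↥E N q hqN)⁻¹))) ∧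
        H61.ChartDatum (B := ↥(H40.chartB (H45.cutOver A E) (H95.JK ↥E N q hqN))) ↥E π
          (H45.inertiaActFullC hq hA E N σ hσ) ∧
        H61.ChartDatum (B := ↥(H40.chartB (H45.cutOver A E) (H95.JK ↥E N q hqN)⁻¹)) ↥E π
          (H45.inertiaActFullC hq hA E N σ hσ)) :
    H.ρ.IsUnipotentOnInertiaAt q := by
  refine isUnipotentOnInertiaAt_of_middle hp hp𝒪 hpS hNS H q hq hqp ?_
  intro A hA σ hσ E _ _ k f hadm
  obtain ⟨π, hmax, hrad₁, hrad₂, hJ₁, hJ₂, hD₁, hD₂⟩ := hModel A hA σ hσ E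
  exact H61.middle_cutOver hq hA E N q hqN hp hqp.symm (H45.inertiaActFullC hq hA E N σ hσ)
    π hmax hrad₁ hrad₂ hJ₁ hJ₂ hD₁ hD₂ k f hadm

end Fermat.Agent.S34.H34
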