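import Mathlib
import Fermat.Agent.S34.H35_SatCoord
import Fermat.Agent.S34.H16_L0Places
import Fermat.Agent.S34.H16_RelSwap
import Fermat.Agent.S34.H95_CoordJ
import Fermat.Agent.CA.H55_ProductCoord
import Fermat.Agent.S18.H55_GaussTransport

/-!
# S34 / L0 cut (H): (SAT), (hinf), reducedness for the two charts `J`, `J⁻¹` at the real types
(helper35)

`A₁ = H45.A0 A ℓ`, `L₁ = H45.unrCyclo ℓ`, `F_N = FullC L₁ (ℓ * M)`, `V = H92.VM` the level-`M`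
Gauss ring, `P∞`, `P₀` ANY two places of `F_N` over `V` of the Kummer–Dedekind types of
`S34.H16_L0Places` (`nonempty_placeInfty`, `nonempty_placeZero`), `J = H95.JK L₁ (ℓ * M) ℓ _`.
-/

set_option autoImplicit false
set_option linter.unusedSectionVars false
set_option linter.style.haveILetI false
set_option synthInstance.maxHeartbeats 400000

noncomputable section

open Polynomial IntermediateField

namespace Fermat.Agent.S34.H35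

open ModularCurve IsLocalRing Fermat.Agent.S28 Fermat.Agent.S18

/-! ## Generic glue -/

section Generic

variable {A₁ F : Type*} [CommRing A₁] [Field F] [Algebra A₁ F]

theorem eval₂_map_intCast (Φ : Polynomial ℤ[X]) (u v : F) :
    (Φ.map (Polynomial.mapRingHom (Int.castRingHom A₁))).eval₂
      ((aeval u : A₁[X] →ₐ[A₁] F) : A₁[X] →+* F) v =
    Φ.eval₂ (Polynomial.aeval (R := ℤ) u).toRingHom v := by
  rw [Polynomial.eval₂_map]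
  congr 1
  apply Polynomial.ringHom_ext
  · intro a
    simp
  · simp

theorem isIntegral_adjoin_self (x : F) : IsIntegral (Algebra.adjoin A₁ {x}) x := by
  have : x = algebraMap (Algebra.adjoin A₁ {x}) F ⟨x, Algebra.self_mem_adjoin_singleton A₁ x⟩ :=
    rfl
  rw [this]
  exact isIntegral_algebraMap

/-- Two coordinates related by a monic symmetric-root relation: `A₁[x]` and `A₁[x y]` have the same
integral closure. -/
theorem isIntegral_adjoin_iff_mul (Φ : Polynomial ℤ[X]) (hΦ : Φ.Monic) (x y : F)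
    (h0 : Φ.eval₂ (Polynomial.aeval (R := ℤ) x).toRingHom y = 0)
    (h0' : Φ.eval₂ (Polynomial.aeval (R := ℤ) y).toRingHom x = 0) (z : F) :
    IsIntegral (Algebra.adjoin A₁ {x}) z ↔ IsIntegral (Algebra.adjoin A₁ {x * y}) z := by
  have hΦ' : (Φ.map (Polynomial.mapRingHom (Int.castRingHom A₁))).Monic := hΦ.map _
  have hx : IsIntegral (Algebra.adjoin A₁ {x * y}) x := by
    have := CA.H55.isIntegral_adjoin_mul _ hΦ' y x (by rw [eval₂_map_intCast]; exact h0')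
    rwa [mul_comm] at this
  have hyx : IsIntegral (Algebra.adjoin A₁ {x}) y :=
    CA.H55.isIntegral_adjoin_of_monic x y _ hΦ' (by rw [eval₂_map_intCast]; exact h0)
  have hJ : IsIntegral (Algebra.adjoin A₁ {x}) (x * y) := (isIntegral_adjoin_self x).mul hyx
  exact ⟨fun hz => H55T.isIntegral_adjoin_trans hx hz,
    fun hz => H55T.isIntegral_adjoin_trans hJ hz⟩

/-- saturation from a representation `s(x) * c = g(x, w)` with `w` integral over `A₁[x]`. -/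
theorem satAt_of_eval₂ {q : A₁} {x w c : F} {s : A₁[X]} {g : A₁[X][X]} (hs : ¬ C q ∣ s)
    (hw : IsIntegral (Algebra.adjoin A₁ {x}) w)
    (h : aeval x s * c = g.eval₂ ((aeval x : A₁[X] →ₐ[A₁] F) : A₁[X] →+* F) w) :
    SatAt q x c := by
  refine ⟨s, hs, ?_⟩
  rw [h, eval₂_eq_sum_range]
  refine IsIntegral.sum _ fun i _ => ?_
  refine IsIntegral.mul ?_ (hw.pow i)
  have : (((aeval x : A₁[X] →ₐ[A₁] F) : A₁[X] →+* F) (g.coeff i)) =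
      algebraMap (Algebra.adjoin A₁ {x}) F ⟨aeval x (g.coeff i), aeval_mem_adjoin_singleton A₁ x⟩ :=
    rfl
  rw [this]
  exact isIntegral_algebraMap

theorem not_C_dvd_of_map_ne_zero {k : Type*} [CommRing k] (res : A₁ →+* k) {q : A₁}
    (hq : res q = 0) {s : A₁[X]} (hs : s.map res ≠ 0) : ¬ C q ∣ s := by
  rintro ⟨t, rfl⟩
  apply hs
  rw [Polynomial.map_mul, Polynomial.map_C, hq, map_zero, zero_mul]

end Generic

/-! ## `O∞ ∩ O₀ = O[j_N]` in helper16's binder block -/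

section Cap

variable (K : Type) [Field K] (M N : ℕ) [NeZero M] [NeZero N] (h : M ∣ N)
  (q : ℕ) [Fact q.Prime] [NeZero q] (hqM : ¬ q ∣ M) (hN : N = q * M) (hNK : ((N : ℕ) : K) ≠ 0)
  (D : ModularPolynomialData q)
  (hD : ∀ (k : Type) [Field k] (ζ : kˣ), IsPrimitiveRoot ζ q → RootsAt k q ζ D.Φ)
  {O : Type*} [CommRing O] [IsDomain O] [IsDiscreteValuationRing O]
  [CharP (ResidueField O) q]
  [Algebra O (modularFunctionFieldFullC K M)] [IsFractionRing O (modularFunctionFieldFullC K M)]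
  [Algebra O (modularFunctionFieldFullC K N)]
  (htower : letI := H16.degAlgebra K M N h
    IsScalarTower O (modularFunctionFieldFullC K M) (modularFunctionFieldFullC K N))
  (φ : ℤ[X] →+* O)
  (hφ : algebraMap O (modularFunctionFieldFullC K M) (φ X) = S18.H16.jNK K M)
  {k : Type*} [CommRing k] [IsDomain k] (ρ : ResidueField O →+* LaurentSeries k)
  (hord : ¬ (q : ℤ) ∣ (ρ (residue O (φ X))).order)
  {ϖ : O} (hϖ : maximalIdeal O = Ideal.span {ϖ})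
  {Fk₁ Fk₂ : Type*} [Field Fk₁] [Field Fk₂] (ι₁ : O →+* Fk₁) (hι₁ : ι₁ ϖ = 0)
  (ι₂ : O →+* Fk₂) (hι₂ : ι₂ ϖ = 0)

include hqM hN hNK hD htower hφ hord hϖ hι₁ hι₂ in
/-- The intersection of the `∞`-place and the `0`-place of `F_N` over `O` is `O[j_N]`. -/
theorem exists_eq_aeval_jNK (θb₁ : Fk₁) (hθb₁ : θb₁ = ι₁ (φ X) ^ q) (θb₂ : Fk₂)
    (hθb₂ : θb₂ ^ q = ι₂ (φ X)) :
    letI := H16.degAlgebra K M N h
    ∀ (P₁ : CA.H99.PlaceOver (L := modularFunctionFieldFullC K N) ϖ (S18.H16.jNK K N) ι₁ θb₁)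
      (P₂ : CA.H99.PlaceOver (L := modularFunctionFieldFullC K N) ϖ (S18.H16.jNK K N) ι₂ θb₂)
      (z : modularFunctionFieldFullC K N), z ∈ P₁.O1 → z ∈ P₂.O1 →
      ∃ p : O[X], z = aeval (S18.H16.jNK K N) p := by
  letI := H16.degAlgebra K M N h
  haveI := htower
  intro P₁ P₂ z h₁ h₂
  have hq : q.Prime := Fact.out
  refine CA.H99.exists_eq_aeval_of_mem_of_mem (K := modularFunctionFieldFullC K M)
    (f := D.Φ.map φ) (g₁ := X - C (φ X ^ q)) (g₂ := X ^ q - C (φ X))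
    (S34.H6.map_map_kronecker q D hD φ (residue O))
    (S34.H6.irreducible_map_X_sub_C (residue O) _)
    (S34.H6.irreducible_map_X_pow_sub_C_of_order (residue O) q hq ρ (φ X) hord)
    (S34.H6.isCoprime_map_of_ne (residue O) q (φ X)
      (H16.residue_pow_ne_self K M N h q hqM hN hNK D hD htower φ hφ ρ hord hϖ ι₁ hι₁))
    hϖ (S18.H16.jNK K N)
    (H16.aeval_jNK_map_eq_zero K M N h q hN D φ hφ htower)
    (H16.algebra_adjoin_jNK_over_eq_top K M N h q hN hNK)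
    hι₁ ?_ hι₂ ?_ P₁ P₂ h₁ h₂
  · rw [eval₂_sub, eval₂_X, eval₂_C, hθb₁, map_pow, sub_self]
  · rw [eval₂_sub, eval₂_pow, eval₂_X, eval₂_C, hθb₂, sub_self]

end Cap

/-! ## The real types -/

section Real

local notation "Qbar" => AlgebraicClosure ℚ

variable (M : ℕ) [NeZero M] {ℓ : ℕ} [hℓ : Fact ℓ.Prime] (hℓM : ¬ ℓ ∣ M)
  (A : ValuationSubring Qbar) (hA : A.LiesOverPrime ℓ)

local notation "kA" => IsLocalRing.ResidueField A
local notation "A₁" => H45.A0 A ℓ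
local notation "L₁" => H45.unrCyclo ℓ
local notation "FM" => modularFunctionFieldFullC (H45.unrCyclo ℓ) M
local notation "FN" => modularFunctionFieldFullC (H45.unrCyclo ℓ) (ℓ * M)
local notation "V" => H92.VM M hℓM A hA

/-- `j_M` (as an element of `F_N`) is integral over `A₁[j]`. -/
theorem isIntegral_jdK_level :
    IsIntegral (Algebra.adjoin A₁ {S18.H16.jK L₁ (ℓ * M)})
      (S18.H99.jdK L₁ (ℓ * M) M (H16.dvd_level M)) := by
  obtain ⟨D, -, -⟩ := S18.H16.exists_modPoly_gen M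
  have h0 := H16.relFK_aeval L₁ (ℓ * M) M D 1 M (one_mul M).symm (one_dvd _) (H16.dvd_level M)
  rw [S18.H99.jdK_one] at h0
  exact CA.H55.isIntegral_adjoin_of_monic _ _
    (D.Φ.map (Polynomial.mapRingHom (Int.castRingHom A₁))) (D.monic.map _)
    (by rw [eval₂_map_intCast]; exact h0)

include hA in
set_option maxHeartbeats 4000000 in
/-- **`hV` at the coordinate `j`**: every element of the level-`M` Gauss ring is saturated at `j`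
in `F_N`. -/
theorem satAt_jK_of_mem_VM (c : V) :
    letI := H16.degAlgebra L₁ M (ℓ * M) (H16.dvd_level M)
    letI := H16.algebraVMFN M hℓM A hA
    SatAt (((ℓ : ℕ) : A₁)) (S18.H16.jK L₁ (ℓ * M)) (algebraMap V FN c) := by
  letI := H16.degAlgebra L₁ M (ℓ * M) (H16.dvd_level M)
  letI := H16.algebraVMFN M hℓM A hA
  haveI : IsScalarTower L₁ FM FN := H16.degAlgebra_isScalarTower L₁ M (ℓ * M) (H16.dvd_level M)
  obtain ⟨s, g, hs, -, hrepr⟩ := H92.exists_repr_VM M hℓM A hA (c : FM) c.2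
  let ψ : FM →ₐ[A₁] FN := (IsScalarTower.toAlgHom L₁ FM FN).restrictScalars A₁
  have hψ : ∀ y : FM, ψ y = algebraMap FM FN y := fun y => rfl
  have hψj : ψ (S18.H16.jK L₁ M) = S18.H16.jK L₁ (ℓ * M) :=
    H16.degAlgebra_algebraMap_jK L₁ M (ℓ * M) (H16.dvd_level M)
  have hψjM : ψ (S18.H16.jNK L₁ M) = S18.H99.jdK L₁ (ℓ * M) M (H16.dvd_level M) :=
    H16.degAlgebra_algebraMap_jNK L₁ M (ℓ * M) (H16.dvd_level M)
  have h1 := congrArg ψ hrepr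
  rw [map_mul, ← Polynomial.aeval_algHom_apply, hψj] at h1
  have h2 : ψ (g.eval₂ ((Polynomial.aeval (S18.H16.jK L₁ M) : A₁[X] →ₐ[A₁] FM) : A₁[X] →+* FM)
      (S18.H16.jNK L₁ M)) =
      g.eval₂ ((Polynomial.aeval (S18.H16.jK L₁ (ℓ * M)) : A₁[X] →ₐ[A₁] FN) : A₁[X] →+* FN)
        (S18.H99.jdK L₁ (ℓ * M) M (H16.dvd_level M)) := by
    have := Polynomial.hom_eval₂ g
      ((Polynomial.aeval (S18.H16.jK L₁ M) : A₁[X] →ₐ[A₁] FM) : A₁[X] →+* FM)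
      (ψ : FM →+* FN) (S18.H16.jNK L₁ M)
    rw [RingHom.coe_coe, hψjM] at this
    rw [this]
    congr 1
    apply Polynomial.ringHom_ext
    · intro a
      simp
    · simp [hψj]
  rw [h2] at h1
  have hs' : ¬ C (((ℓ : ℕ) : A₁)) ∣ s :=
    not_C_dvd_of_map_ne_zero (H45.resA0 A ℓ) (H45.resA0_natCast_eq_zero hℓ.out hA) hs
  exact satAt_of_eval₂ hs' (isIntegral_jdK_level M A) h1

/-- `A₁[j]` and `A₁[J]`, `J = j · j_ℓ`, have the same integral closure in `F_N`. -/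
theorem isIntegral_adjoin_jK_iff_JK (z : FN) :
    IsIntegral (Algebra.adjoin A₁ {S18.H16.jK L₁ (ℓ * M)}) z ↔
      IsIntegral (Algebra.adjoin A₁ {H95.JK L₁ (ℓ * M) ℓ (Dvd.intro M rfl)}) z := by
  obtain ⟨D, hD, -⟩ := S34.H6.exists_modPoly_kronecker ℓ
  have h0 := H16.relFK_aeval L₁ (ℓ * M) ℓ D 1 ℓ (one_mul ℓ).symm (one_dvd _) (Dvd.intro M rfl)
  have h0' := H16.relFK_swap_aeval L₁ (ℓ * M) ℓ D hD 1 ℓ (one_mul ℓ).symm (one_dvd _)
    (Dvd.intro M rfl)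
  rw [S18.H99.jdK_one] at h0 h0'
  exact isIntegral_adjoin_iff_mul D.Φ D.monic _ _ h0 h0' z

/-- `j_N` is integral over `A₁[j]`. -/
theorem isIntegral_jNK_level :
    IsIntegral (Algebra.adjoin A₁ {S18.H16.jK L₁ (ℓ * M)}) (S18.H16.jNK L₁ (ℓ * M)) := by
  obtain ⟨D, -, -⟩ := S18.H16.exists_modPoly_gen (ℓ * M)
  have h0 := H16.relFK_aeval L₁ (ℓ * M) (ℓ * M) D 1 (ℓ * M) (one_mul _).symm (one_dvd _) dvd_rfl
  rw [S18.H99.jdK_one, S18.H99.jdK_self] at h0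
  exact CA.H55.isIntegral_adjoin_of_monic _ _
    (D.Φ.map (Polynomial.mapRingHom (Int.castRingHom A₁))) (D.monic.map _)
    (by rw [eval₂_map_intCast]; exact h0)

include hA in
set_option maxHeartbeats 4000000 in
/-- **`hV`, `hθ` at the chart coordinates `J` and `J⁻¹`.** -/
theorem satAt_JK :
    letI := H16.degAlgebra L₁ M (ℓ * M) (H16.dvd_level M)
    letI := H16.algebraVMFN M hℓM A hA
    (∀ c : V, SatAt (((ℓ : ℕ) : A₁)) (H95.JK L₁ (ℓ * M) ℓ (Dvd.intro M rfl))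
      (algebraMap V FN c)) ∧
    SatAt (((ℓ : ℕ) : A₁)) (H95.JK L₁ (ℓ * M) ℓ (Dvd.intro M rfl)) (S18.H16.jNK L₁ (ℓ * M)) ∧
    (∀ c : V, SatAt (((ℓ : ℕ) : A₁)) (H95.JK L₁ (ℓ * M) ℓ (Dvd.intro M rfl))⁻¹
      (algebraMap V FN c)) ∧
    SatAt (((ℓ : ℕ) : A₁)) (H95.JK L₁ (ℓ * M) ℓ (Dvd.intro M rfl))⁻¹
      (S18.H16.jNK L₁ (ℓ * M)) := by
  letI := H16.degAlgebra L₁ M (ℓ * M) (H16.dvd_level M)
  letI := H16.algebraVMFN M hℓM A hA
  haveI hdvr : IsDiscreteValuationRing A₁ := H45.isDiscreteValuationRing_A0 hℓ.out hA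
  have hq : Prime (((ℓ : ℕ) : A₁)) := H45.prime_natCast_A0 hℓ.out hA
  have hNK : (((ℓ * M : ℕ) : ℕ) : L₁) ≠ 0 := H16.natCast_level_ne_zero M
  haveI : FiniteDimensional L₁⟮S18.H16.jK L₁ (ℓ * M)⟯ FN :=
    S18.H16.finiteDimensional_fullC_gen (ℓ * M) L₁ hNK
  have htrj : Transcendental L₁ (S18.H16.jK L₁ (ℓ * M)) := S18.H16.transcendental_jK L₁ (ℓ * M)
  have htrJ := H95.transcendental_JK L₁ (ℓ * M) ℓ (Dvd.intro M rfl)
  have hJ0 := H95.JK_ne_zero L₁ (ℓ * M) ℓ (Dvd.intro M rfl)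
  have h1 : ∀ c : V, SatAt (((ℓ : ℕ) : A₁)) (H95.JK L₁ (ℓ * M) ℓ (Dvd.intro M rfl))
      (algebraMap V FN c) := fun c =>
    (satAt_jK_of_mem_VM M hℓM A hA c).change hq htrj htrJ
      (isIntegral_adjoin_jK_iff_JK M A)
  have h2 : SatAt (((ℓ : ℕ) : A₁)) (H95.JK L₁ (ℓ * M) ℓ (Dvd.intro M rfl))
      (S18.H16.jNK L₁ (ℓ * M)) :=
    (SatAt.of_isIntegral hq.not_unit (isIntegral_jNK_level M A)).change hq htrj htrJ
      (isIntegral_adjoin_jK_iff_JK M A)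
  exact ⟨h1, h2, fun c => (h1 c).inv hJ0, h2.inv hJ0⟩

include hA in
set_option maxHeartbeats 4000000 in
/-- **`O∞ ∩ O₀ = V_M[j_N]`** for any two places of the types of `S34.H16_L0Places`. -/
theorem exists_eq_aeval_of_mem_places :
    letI := H16.degAlgebra L₁ M (ℓ * M) (H16.dvd_level M)
    letI := H16.algebraVMFN M hℓM A hA
    haveI := H92.isDiscreteValuationRing_VM M hℓM A hA
    ∀ (P₁ : CA.H99.PlaceOver (L := FN) ((ℓ : ℕ) : V) (S18.H16.jNK L₁ (ℓ * M))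
        (H92.resM M hℓM A hA) (H92.resM M hℓM A hA (H16.jMV M hℓM A hA) ^ ℓ))
      (P₂ : CA.H99.PlaceOver (L := FN) ((ℓ : ℕ) : V) (S18.H16.jNK L₁ (ℓ * M))
        (H16.iotaZero M hℓM A hA) (H92.resM M hℓM A hA (H16.jMV M hℓM A hA)))
      (z : FN), z ∈ P₁.O1 → z ∈ P₂.O1 →
      ∃ p : (V)[X], z = aeval (S18.H16.jNK L₁ (ℓ * M)) p := by
  letI := H16.degAlgebra L₁ M (ℓ * M) (H16.dvd_level M)
  letI := H16.algebraVMFN M hℓM A hA
  haveI := H92.isDiscreteValuationRing_VM M hℓM A hA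
  haveI := H16.charP_residueField_VM M hℓM A hA
  obtain ⟨D, hD, -⟩ := S34.H6.exists_modPoly_kronecker ℓ
  exact exists_eq_aeval_jNK L₁ M (ℓ * M) (H16.dvd_level M) ℓ hℓM rfl
    (H16.natCast_level_ne_zero M) D hD (H16.isScalarTower_VMFN M hℓM A hA) (H16.phiV M hℓM A hA)
    (H16.algebraMap_phiV_X M hℓM A hA) (H16.rhoV M hℓM A hA)
    (H16.not_dvd_order_rhoV_jMV M hℓM A hA) (H92.maximalIdeal_VM M hℓM A hA)
    (H92.resM M hℓM A hA) (H92.resM_natCast M hℓM A hA)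
    (H16.iotaZero M hℓM A hA) (H16.iotaZero_natCast M hℓM A hA) _
    (by rw [H16.phiV_X]) _
    (by rw [H16.phiV_X, H16.iotaZero_apply, H16.qExpand_resM_jMV])

theorem algebraMap_VM_natCast_eq :
    letI := H16.degAlgebra L₁ M (ℓ * M) (H16.dvd_level M)
    letI := H16.algebraVMFN M hℓM A hA
    algebraMap V FN ((ℓ : ℕ) : V) = algebraMap A₁ FN (((ℓ : ℕ) : A₁)) := by
  letI := H16.degAlgebra L₁ M (ℓ * M) (H16.dvd_level M)
  letI := H16.algebraVMFN M hℓM A hA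
  rw [map_natCast, map_natCast]

include hA in
set_option maxHeartbeats 4000000 in
/-- **Core**: (SAT), (hinf), reducedness at any chart coordinate `x` of `F_N` at which `V_M` and
`j_N` are saturated, for any two places of the types of `S34.H16_L0Places`. -/
theorem places_chart_core :
    letI := H16.degAlgebra L₁ M (ℓ * M) (H16.dvd_level M)
    letI := H16.algebraVMFN M hℓM A hA
    haveI := H92.isDiscreteValuationRing_VM M hℓM A hA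
    ∀ (x : FN) (_ : Transcendental L₁ x) (_ : Algebra.IsAlgebraic L₁⟮x⟯ FN)
      (_ : ∀ c : V, SatAt (((ℓ : ℕ) : A₁)) x (algebraMap V FN c))
      (_ : SatAt (((ℓ : ℕ) : A₁)) x (S18.H16.jNK L₁ (ℓ * M)))
      (P₁ : CA.H99.PlaceOver (L := FN) ((ℓ : ℕ) : V) (S18.H16.jNK L₁ (ℓ * M))
        (H92.resM M hℓM A hA) (H92.resM M hℓM A hA (H16.jMV M hℓM A hA) ^ ℓ))
      (P₂ : CA.H99.PlaceOver (L := FN) ((ℓ : ℕ) : V) (S18.H16.jNK L₁ (ℓ * M))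
        (H16.iotaZero M hℓM A hA) (H92.resM M hℓM A hA (H16.jMV M hℓM A hA))),
      (∀ z : FN, z ∈ P₁.O1 → z ∈ P₂.O1 →
        IsIntegral (Algebra.adjoin A₁ {x}) (algebraMap A₁ FN (((ℓ : ℕ) : A₁)) * z) →
        IsIntegral (Algebra.adjoin A₁ {x}) z) ∧
      (∀ (z : FN) (_ : IsIntegral (Algebra.adjoin A₁ {x}) z) (h₁ : z ∈ P₁.O1) (h₂ : z ∈ P₂.O1),
        P₁.res1 ⟨z, h₁⟩ = 0 → P₂.res1 ⟨z, h₂⟩ = 0 →
        ∃ z' : FN, IsIntegral (Algebra.adjoin A₁ {x}) z' ∧ z' ∈ P₁.O1 ∧ z' ∈ P₂.O1 ∧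
          z = algebraMap A₁ FN (((ℓ : ℕ) : A₁)) * z') ∧
      (∀ (z : FN) (_ : IsIntegral (Algebra.adjoin A₁ {x}) z) (_ : z ∈ P₁.O1) (_ : z ∈ P₂.O1)
        (n : ℕ), (∃ c : FN, c ∈ P₁.O1 ∧ c ∈ P₂.O1 ∧
          z ^ n = algebraMap A₁ FN (((ℓ : ℕ) : A₁)) * c) →
        ∃ z' : FN, IsIntegral (Algebra.adjoin A₁ {x}) z' ∧ z' ∈ P₁.O1 ∧ z' ∈ P₂.O1 ∧
          z = algebraMap A₁ FN (((ℓ : ℕ) : A₁)) * z') := by
  letI := H16.degAlgebra L₁ M (ℓ * M) (H16.dvd_level M)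
  letI := H16.algebraVMFN M hℓM A hA
  haveI := H92.isDiscreteValuationRing_VM M hℓM A hA
  intro x htr halg hV hθ P₁ P₂
  haveI := halg
  haveI hdvr : IsDiscreteValuationRing A₁ := H45.isDiscreteValuationRing_A0 hℓ.out hA
  have hq : Prime (((ℓ : ℕ) : A₁)) := H45.prime_natCast_A0 hℓ.out hA
  have hcap := exists_eq_aeval_of_mem_places M hℓM A hA P₁ P₂
  have heq := algebraMap_VM_natCast_eq M hℓM A
  have hker₁ : ∀ (y : FN) (hy : y ∈ P₁.O1), P₁.res1 ⟨y, hy⟩ = 0 ↔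
      ∃ z ∈ P₁.O1, y = algebraMap A₁ FN (((ℓ : ℕ) : A₁)) * z := by
    intro y hy
    rw [P₁.res1_eq_zero_iff y hy, heq]
  have hker₂ : ∀ (y : FN) (hy : y ∈ P₂.O1), P₂.res1 ⟨y, hy⟩ = 0 ↔
      ∃ z ∈ P₂.O1, y = algebraMap A₁ FN (((ℓ : ℕ) : A₁)) * z := by
    intro y hy
    rw [P₂.res1_eq_zero_iff y hy, heq]
  refine ⟨fun z h₁ h₂ h => ?_, fun z hz h₁ h₂ e₁ e₂ => ?_, fun z hz h₁ h₂ n hpow => ?_⟩
  · exact isIntegral_of_mem_of_mem_chart hq htr (S18.H16.jNK L₁ (ℓ * M)) P₁.O1 P₂.O1 hcap hV hθ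
      h₁ h₂ h
  · exact exists_eq_mul_of_res_eq_zero_chart hq htr (S18.H16.jNK L₁ (ℓ * M)) P₁.O1 P₂.O1 hcap hV
      hθ P₁.res1 P₂.res1 (fun y hy h => (hker₁ y hy).mp h) (fun y hy h => (hker₂ y hy).mp h)
      z hz h₁ h₂ e₁ e₂
  · exact exists_eq_mul_of_pow_chart hq htr (S18.H16.jNK L₁ (ℓ * M)) P₁.O1 P₂.O1 hcap hV hθ
      P₁.res1 P₂.res1 hker₁ hker₂ z hz h₁ h₂ n hpow

include hA in
set_option maxHeartbeats 4000000 in
/-- **Chart 1** (`B₁ = chartB A₁ J`): (SAT), (hinf) `P∞ ∩ P₀ = ℓ B₁`, `B₁/ℓ` reduced. -/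
theorem chart_JK :
    letI := H16.degAlgebra L₁ M (ℓ * M) (H16.dvd_level M)
    letI := H16.algebraVMFN M hℓM A hA
    haveI := H92.isDiscreteValuationRing_VM M hℓM A hA
    ∀ (P₁ : CA.H99.PlaceOver (L := FN) ((ℓ : ℕ) : V) (S18.H16.jNK L₁ (ℓ * M))
        (H92.resM M hℓM A hA) (H92.resM M hℓM A hA (H16.jMV M hℓM A hA) ^ ℓ))
      (P₂ : CA.H99.PlaceOver (L := FN) ((ℓ : ℕ) : V) (S18.H16.jNK L₁ (ℓ * M))
        (H16.iotaZero M hℓM A hA) (H92.resM M hℓM A hA (H16.jMV M hℓM A hA))),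
      (∀ z : FN, z ∈ P₁.O1 → z ∈ P₂.O1 →
        IsIntegral (Algebra.adjoin A₁ {H95.JK L₁ (ℓ * M) ℓ (Dvd.intro M rfl)})
          (algebraMap A₁ FN (((ℓ : ℕ) : A₁)) * z) →
        IsIntegral (Algebra.adjoin A₁ {H95.JK L₁ (ℓ * M) ℓ (Dvd.intro M rfl)}) z) ∧
      (∀ (z : FN) (_ : IsIntegral (Algebra.adjoin A₁ {H95.JK L₁ (ℓ * M) ℓ (Dvd.intro M rfl)}) z)
        (h₁ : z ∈ P₁.O1) (h₂ : z ∈ P₂.O1), P₁.res1 ⟨z, h₁⟩ = 0 → P₂.res1 ⟨z, h₂⟩ = 0 →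
        ∃ z' : FN, IsIntegral (Algebra.adjoin A₁ {H95.JK L₁ (ℓ * M) ℓ (Dvd.intro M rfl)}) z' ∧
          z' ∈ P₁.O1 ∧ z' ∈ P₂.O1 ∧ z = algebraMap A₁ FN (((ℓ : ℕ) : A₁)) * z') ∧
      (∀ (z : FN) (_ : IsIntegral (Algebra.adjoin A₁ {H95.JK L₁ (ℓ * M) ℓ (Dvd.intro M rfl)}) z)
        (_ : z ∈ P₁.O1) (_ : z ∈ P₂.O1) (n : ℕ), (∃ c : FN, c ∈ P₁.O1 ∧ c ∈ P₂.O1 ∧
          z ^ n = algebraMap A₁ FN (((ℓ : ℕ) : A₁)) * c) →
        ∃ z' : FN, IsIntegral (Algebra.adjoin A₁ {H95.JK L₁ (ℓ * M) ℓ (Dvd.intro M rfl)}) z' ∧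
          z' ∈ P₁.O1 ∧ z' ∈ P₂.O1 ∧ z = algebraMap A₁ FN (((ℓ : ℕ) : A₁)) * z') := by
  letI := H16.degAlgebra L₁ M (ℓ * M) (H16.dvd_level M)
  letI := H16.algebraVMFN M hℓM A hA
  haveI := H92.isDiscreteValuationRing_VM M hℓM A hA
  intro P₁ P₂
  obtain ⟨hV, hθ, -, -⟩ := satAt_JK M hℓM A hA
  haveI : FiniteDimensional L₁⟮H95.JK L₁ (ℓ * M) ℓ (Dvd.intro M rfl)⟯ FN :=
    H95.finiteDimensional_JK L₁ (ℓ * M) ℓ (Dvd.intro M rfl) (H16.natCast_level_ne_zero M)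
  exact places_chart_core M hℓM A hA _ (H95.transcendental_JK L₁ (ℓ * M) ℓ (Dvd.intro M rfl))
    inferInstance hV hθ P₁ P₂

include hA in
set_option maxHeartbeats 4000000 in
/-- **Chart 2** (`B₂ = chartB A₁ J⁻¹`): (SAT), (hinf) `P∞ ∩ P₀ = ℓ B₂`, `B₂/ℓ` reduced. -/
theorem chart_JK_inv :
    letI := H16.degAlgebra L₁ M (ℓ * M) (H16.dvd_level M)
    letI := H16.algebraVMFN M hℓM A hA
    haveI := H92.isDiscreteValuationRing_VM M hℓM A hA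
    ∀ (P₁ : CA.H99.PlaceOver (L := FN) ((ℓ : ℕ) : V) (S18.H16.jNK L₁ (ℓ * M))
        (H92.resM M hℓM A hA) (H92.resM M hℓM A hA (H16.jMV M hℓM A hA) ^ ℓ))
      (P₂ : CA.H99.PlaceOver (L := FN) ((ℓ : ℕ) : V) (S18.H16.jNK L₁ (ℓ * M))
        (H16.iotaZero M hℓM A hA) (H92.resM M hℓM A hA (H16.jMV M hℓM A hA))),
      (∀ z : FN, z ∈ P₁.O1 → z ∈ P₂.O1 →
        IsIntegral (Algebra.adjoin A₁ {(H95.JK L₁ (ℓ * M) ℓ (Dvd.intro M rfl))⁻¹})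
          (algebraMap A₁ FN (((ℓ : ℕ) : A₁)) * z) →
        IsIntegral (Algebra.adjoin A₁ {(H95.JK L₁ (ℓ * M) ℓ (Dvd.intro M rfl))⁻¹}) z) ∧
      (∀ (z : FN)
        (_ : IsIntegral (Algebra.adjoin A₁ {(H95.JK L₁ (ℓ * M) ℓ (Dvd.intro M rfl))⁻¹}) z)
        (h₁ : z ∈ P₁.O1) (h₂ : z ∈ P₂.O1), P₁.res1 ⟨z, h₁⟩ = 0 → P₂.res1 ⟨z, h₂⟩ = 0 →
        ∃ z' : FN, IsIntegral (Algebra.adjoin A₁ {(H95.JK L₁ (ℓ * M) ℓ (Dvd.intro M rfl))⁻¹}) z' ∧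
          z' ∈ P₁.O1 ∧ z' ∈ P₂.O1 ∧ z = algebraMap A₁ FN (((ℓ : ℕ) : A₁)) * z') ∧
      (∀ (z : FN)
        (_ : IsIntegral (Algebra.adjoin A₁ {(H95.JK L₁ (ℓ * M) ℓ (Dvd.intro M rfl))⁻¹}) z)
        (_ : z ∈ P₁.O1) (_ : z ∈ P₂.O1) (n : ℕ), (∃ c : FN, c ∈ P₁.O1 ∧ c ∈ P₂.O1 ∧
          z ^ n = algebraMap A₁ FN (((ℓ : ℕ) : A₁)) * c) →
        ∃ z' : FN, IsIntegral (Algebra.adjoin A₁ {(H95.JK L₁ (ℓ * M) ℓ (Dvd.intro M rfl))⁻¹}) z' ∧
          z' ∈ P₁.O1 ∧ z' ∈ P₂.O1 ∧ z = algebraMap A₁ FN (((ℓ : ℕ) : A₁)) * z') := by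
  letI := H16.degAlgebra L₁ M (ℓ * M) (H16.dvd_level M)
  letI := H16.algebraVMFN M hℓM A hA
  haveI := H92.isDiscreteValuationRing_VM M hℓM A hA
  intro P₁ P₂
  obtain ⟨-, -, hV, hθ⟩ := satAt_JK M hℓM A hA
  haveI : FiniteDimensional L₁⟮(H95.JK L₁ (ℓ * M) ℓ (Dvd.intro M rfl))⁻¹⟯ FN :=
    H95.finiteDimensional_JK_inv L₁ (ℓ * M) ℓ (Dvd.intro M rfl) (H16.natCast_level_ne_zero M)
  exact places_chart_core M hℓM A hA _
    (H95.transcendental_JK_inv L₁ (ℓ * M) ℓ (Dvd.intro M rfl)) inferInstance hV hθ P₁ P₂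

include hA in
set_option maxHeartbeats 4000000 in
/-- `hinfF` of `S34.H55.twoComponents` for chart 1, verbatim. -/
theorem hinfF_JK :
    letI := H16.degAlgebra L₁ M (ℓ * M) (H16.dvd_level M)
    letI := H16.algebraVMFN M hℓM A hA
    haveI := H92.isDiscreteValuationRing_VM M hℓM A hA
    ∀ (P₁ : CA.H99.PlaceOver (L := FN) ((ℓ : ℕ) : V) (S18.H16.jNK L₁ (ℓ * M))
        (H92.resM M hℓM A hA) (H92.resM M hℓM A hA (H16.jMV M hℓM A hA) ^ ℓ))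
      (P₂ : CA.H99.PlaceOver (L := FN) ((ℓ : ℕ) : V) (S18.H16.jNK L₁ (ℓ * M))
        (H16.iotaZero M hℓM A hA) (H92.resM M hℓM A hA (H16.jMV M hℓM A hA)))
      (z : FN) (_ : IsIntegral (Algebra.adjoin A₁ {H95.JK L₁ (ℓ * M) ℓ (Dvd.intro M rfl)}) z)
      (h₁ : z ∈ P₁.O1) (h₂ : z ∈ P₂.O1), P₁.res1 ⟨z, h₁⟩ = 0 → P₂.res1 ⟨z, h₂⟩ = 0 →
      ∃ z' : FN, IsIntegral (Algebra.adjoin A₁ {H95.JK L₁ (ℓ * M) ℓ (Dvd.intro M rfl)}) z' ∧
        z = algebraMap A₁ FN (((ℓ : ℕ) : A₁)) * z' := by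
  letI := H16.degAlgebra L₁ M (ℓ * M) (H16.dvd_level M)
  letI := H16.algebraVMFN M hℓM A hA
  haveI := H92.isDiscreteValuationRing_VM M hℓM A hA
  intro P₁ P₂ z hz h₁ h₂ e₁ e₂
  obtain ⟨z', hz', -, -, e⟩ := (chart_JK M hℓM A hA P₁ P₂).2.1 z hz h₁ h₂ e₁ e₂
  exact ⟨z', hz', e⟩

include hA in
set_option maxHeartbeats 4000000 in
/-- `hinfF` of `S34.H55.twoComponents` for chart 2, verbatim. -/
theorem hinfF_JK_inv :
    letI := H16.degAlgebra L₁ M (ℓ * M) (H16.dvd_level M)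
    letI := H16.algebraVMFN M hℓM A hA
    haveI := H92.isDiscreteValuationRing_VM M hℓM A hA
    ∀ (P₁ : CA.H99.PlaceOver (L := FN) ((ℓ : ℕ) : V) (S18.H16.jNK L₁ (ℓ * M))
        (H92.resM M hℓM A hA) (H92.resM M hℓM A hA (H16.jMV M hℓM A hA) ^ ℓ))
      (P₂ : CA.H99.PlaceOver (L := FN) ((ℓ : ℕ) : V) (S18.H16.jNK L₁ (ℓ * M))
        (H16.iotaZero M hℓM A hA) (H92.resM M hℓM A hA (H16.jMV M hℓM A hA)))
      (z : FN)
      (_ : IsIntegral (Algebra.adjoin A₁ {(H95.JK L₁ (ℓ * M) ℓ (Dvd.intro M rfl))⁻¹}) z)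
      (h₁ : z ∈ P₁.O1) (h₂ : z ∈ P₂.O1), P₁.res1 ⟨z, h₁⟩ = 0 → P₂.res1 ⟨z, h₂⟩ = 0 →
      ∃ z' : FN, IsIntegral (Algebra.adjoin A₁ {(H95.JK L₁ (ℓ * M) ℓ (Dvd.intro M rfl))⁻¹}) z' ∧
        z = algebraMap A₁ FN (((ℓ : ℕ) : A₁)) * z' := by
  letI := H16.degAlgebra L₁ M (ℓ * M) (H16.dvd_level M)
  letI := H16.algebraVMFN M hℓM A hA
  haveI := H92.isDiscreteValuationRing_VM M hℓM A hA
  intro P₁ P₂ z hz h₁ h₂ e₁ e₂
  obtain ⟨z', hz', -, -, e⟩ := (chart_JK_inv M hℓM A hA P₁ P₂).2.1 z hz h₁ h₂ e₁ e₂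
  exact ⟨z', hz', e⟩

end Real

end Fermat.Agent.S34.H35
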