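import Mathlib
import Fermat.Agent.S34.H16_L0Places
import Fermat.Agent.S34.H92_GaussModelWrap
import Fermat.Agent.S34.H36_FrobLin
import Fermat.Agent.S34.H55_TwoComponentsIncl
import Fermat.Agent.S18.H11_IfaceMain

/-!
# S34 / L0 final instance, small inputs (helper36)

The level-`M` / Frobenius-side hypotheses of `S34.H55.twoComponents_of_incl` at the real types
(helper16's two places over `H92.VM`, `M := H92.gaussModelVM`, `incl := (FullC kA M).val`,
`Fr := H36.frobLin kA ℓ M`):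

* `hFrpow`, `hFrw_jK`, `hFrw_jK_inv`;
* `hc_jK`/`hcw_jK`, `hc_jK_inv`/`hcw_jK_inv`;
* `hri`, `hr0` : the residues of both places lie in `incl.fieldRange`.
-/

set_option autoImplicit false
set_option synthInstance.maxHeartbeats 400000
set_option linter.unusedSectionVars false
set_option linter.style.haveILetI false

noncomputable section

namespace Fermat.Agent.S34.H36

open ModularCurve Polynomial IsLocalRing
open Fermat.Agent.S18 Fermat.Agent.S34.H92 Fermat.Agent.S34.H16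

local notation "Qbar" => AlgebraicClosure ℚ

variable (M : ℕ) [NeZero M] {ℓ : ℕ} [hℓ : Fact ℓ.Prime] (hℓM : ¬ ℓ ∣ M)
  (A : ValuationSubring Qbar) (hA : A.LiesOverPrime ℓ)

local notation "kA" => IsLocalRing.ResidueField A
local notation "L₁" => H45.unrCyclo ℓ
local notation "FM" => modularFunctionFieldFullC (H45.unrCyclo ℓ) M
local notation "FN" => modularFunctionFieldFullC (H45.unrCyclo ℓ) (ℓ * M)
local notation "FkM" => modularFunctionFieldFullC (IsLocalRing.ResidueField A) M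

/-! ### Frobenius side -/

include hA in
/-- **`hFrpow`**: every value of `Fr` is an `ℓ`-th power (`kA` is perfect). -/
theorem hFrpow :
    haveI : CharP kA ℓ := S18.H92.charP_residueField A hA
    ∀ γ : FkM, ∃ γ' : FkM, γ' ^ ℓ = frobLin kA ℓ M γ := by
  haveI : CharP kA ℓ := S18.H92.charP_residueField A hA
  haveI : IsAlgClosed kA := S18.H11.isAlgClosed_residueField A
  haveI : PerfectRing kA ℓ := inferInstance
  intro γ
  exact ⟨_, (frobLin_eq_pow_fullCMap kA ℓ M γ).symm⟩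

include hA in
/-- **`hFrw`** for `w = j̄`. -/
theorem hFrw_jK :
    haveI : CharP kA ℓ := S18.H92.charP_residueField A hA
    frobLin kA ℓ M (S18.H16.jK kA M) = S18.H16.jK kA M ^ ℓ := by
  haveI : CharP kA ℓ := S18.H92.charP_residueField A hA
  exact frobLin_jK kA ℓ M

include hA in
/-- **`hFrw`** for `w = j̄⁻¹`. -/
theorem hFrw_jK_inv :
    haveI : CharP kA ℓ := S18.H92.charP_residueField A hA
    frobLin kA ℓ M (S18.H16.jK kA M)⁻¹ = (S18.H16.jK kA M)⁻¹ ^ ℓ := by
  haveI : CharP kA ℓ := S18.H92.charP_residueField A hA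
  rw [map_inv₀, frobLin_jK, inv_pow]

/-! ### level-`M` chart coordinates -/

/-- **`hc`** for `c = j`. -/
theorem hc_jK : S18.H16.jK L₁ M ∈ (gaussModelVM M hℓM A hA).O1 :=
  (jK_mem_VM M hℓM A hA).1

/-- **`hcw`** for `(c, w) = (j, j̄)`. -/
theorem hcw_jK :
    (gaussModelVM M hℓM A hA).res1 ⟨S18.H16.jK L₁ M, hc_jK M hℓM A hA⟩ = S18.H16.jK kA M :=
  resMF_jK M hℓM A hA _

theorem jK_residue_ne_zero : S18.H16.jK kA M ≠ 0 := fun h0 =>
  S18.H16.transcendental_jK kA M (h0 ▸ isAlgebraic_zero)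

/-- **`hc`** for `c = j⁻¹`. -/
theorem hc_jK_inv : (S18.H16.jK L₁ M)⁻¹ ∈ (gaussModelVM M hℓM A hA).O1 := by
  refine (gaussModelVM M hℓM A hA).inv_mem _ (hc_jK M hℓM A hA) ?_
  rw [hcw_jK]
  exact jK_residue_ne_zero M A

set_option maxHeartbeats 1600000 in
/-- **`hcw`** for `(c, w) = (j⁻¹, j̄⁻¹)`. -/
theorem hcw_jK_inv :
    (gaussModelVM M hℓM A hA).res1 ⟨(S18.H16.jK L₁ M)⁻¹, hc_jK_inv M hℓM A hA⟩ =
      (S18.H16.jK kA M)⁻¹ := by
  have hne : S18.H16.jK L₁ M ≠ 0 := fun h0 =>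
    S18.H16.transcendental_jK L₁ M (h0 ▸ isAlgebraic_zero)
  have h1 : (⟨(S18.H16.jK L₁ M)⁻¹, hc_jK_inv M hℓM A hA⟩ : (gaussModelVM M hℓM A hA).O1) *
      ⟨S18.H16.jK L₁ M, hc_jK M hℓM A hA⟩ = 1 := Subtype.ext (inv_mul_cancel₀ hne)
  have h2 := congrArg (gaussModelVM M hℓM A hA).res1 h1
  rw [map_mul, map_one, hcw_jK] at h2
  exact eq_inv_of_mul_eq_one_left h2

/-! ### the residues of the two places lie in `F_k(M)` -/

/-- the subfield `F_k(M) ⊆ kA((t))` -/
abbrev inclFkM : FkM →ₐ[kA] LaurentSeries kA := (modularFunctionFieldFullC kA M).val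

theorem resM_mem_fieldRange (a : ↥(VM M hℓM A hA)) :
    resM M hℓM A hA a ∈ (inclFkM M A).fieldRange :=
  ⟨resMF M hℓM A hA a, rfl⟩

include hA in
theorem iotaZero_mem_fieldRange (a : ↥(VM M hℓM A hA)) :
    iotaZero M hℓM A hA a ∈ (inclFkM M A).fieldRange := by
  haveI : CharP kA ℓ := S18.H92.charP_residueField A hA
  exact ⟨frobLin kA ℓ M (resMF M hℓM A hA a), rfl⟩

/-- **`hri`**: the residues of `P_∞` lie in `F_k(M)`. -/
theorem hri :
    letI := algebraVMFN M hℓM A hA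
    ∀ (P : CA.H99.PlaceOver (L := ↥FN) (((ℓ : ℕ) : ↥(VM M hℓM A hA))) (S18.H16.jNK L₁ (ℓ * M))
        (resM M hℓM A hA) (resM M hℓM A hA (jMV M hℓM A hA) ^ ℓ))
      (y : P.O1), P.res1 y ∈ (inclFkM M A).fieldRange := by
  letI := algebraVMFN M hℓM A hA
  intro P y
  exact S34.H55.PlaceOver.res1_mem_of_subfield P (inclFkM M A).fieldRange.toSubfield
    (fun a => resM_mem_fieldRange M hℓM A hA a)
    (pow_mem (resM_mem_fieldRange M hℓM A hA _) ℓ) y.1 y.2

include hA in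
/-- **`hr0`**: the residues of `P_0` lie in `F_k(M)`. -/
theorem hr0 :
    letI := algebraVMFN M hℓM A hA
    ∀ (P : CA.H99.PlaceOver (L := ↥FN) (((ℓ : ℕ) : ↥(VM M hℓM A hA))) (S18.H16.jNK L₁ (ℓ * M))
        (iotaZero M hℓM A hA) (resM M hℓM A hA (jMV M hℓM A hA)))
      (y : P.O1), P.res1 y ∈ (inclFkM M A).fieldRange := by
  letI := algebraVMFN M hℓM A hA
  intro P y
  exact S34.H55.PlaceOver.res1_mem_of_subfield P (inclFkM M A).fieldRange.toSubfield
    (fun a => iotaZero_mem_fieldRange M hℓM A hA a)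
    (resM_mem_fieldRange M hℓM A hA _) y.1 y.2

end Fermat.Agent.S34.H36
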