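import Mathlib
import Fermat.Agent.S34.H16_TwoPlacesJN
import Fermat.Agent.S34.H92_GaussLevelM
import Fermat.Agent.S34.H36_FrobLin
import Fermat.Agent.S34.H90_I2
import Fermat.Agent.CA.H92_JNotPow

/-!
# S34 / L0 instance (helper36): the two places of `F_N` (`N = q M`, `q ∤ M`) over the level-`M`
Gauss ring `V_M`, with residue maps into `FkM = FullC kA M`
-/

set_option autoImplicit false
set_option synthInstance.maxHeartbeats 400000
set_option linter.unusedSectionVars false
set_option linter.style.haveILetI false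

noncomputable section

namespace Fermat.Agent.S34.H36

open ModularCurve Polynomial IsLocalRing
open Fermat.Agent.S18 Fermat.Agent.S28

local notation "Qbar" => AlgebraicClosure ℚ

variable (M N : ℕ) [NeZero M] [NeZero N] {q : ℕ} [hq : Fact q.Prime] (hqM : ¬ q ∣ M)
  (hMN : M ∣ N) (A : ValuationSubring Qbar) (hA : A.LiesOverPrime q)

local notation "kA" => IsLocalRing.ResidueField A
local notation "L₁" => H45.unrCyclo q
local notation "FM" => modularFunctionFieldFullC (H45.unrCyclo q) M
local notation "FN" => modularFunctionFieldFullC (H45.unrCyclo q) N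
local notation "FkM" => modularFunctionFieldFullC (IsLocalRing.ResidueField A) M
local notation "VM" => H92.VM M hqM A hA

/-- `V_M → F_M → F_N`. -/
abbrev algVMFN : Algebra VM FN :=
  letI := S34.H16.degAlgebra L₁ M N hMN
  ((algebraMap FM FN).comp (algebraMap VM FM)).toAlgebra

theorem isScalarTower_VM :
    letI := S34.H16.degAlgebra L₁ M N hMN
    letI := algVMFN M N hqM hMN A hA
    IsScalarTower VM FM FN := by
  letI := S34.H16.degAlgebra L₁ M N hMN
  letI := algVMFN M N hqM hMN A hA
  exact IsScalarTower.of_algebraMap_eq (fun _ => rfl)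

instance charP_residueField_VM : CharP (ResidueField VM) q := by
  haveI := H92.isDiscreteValuationRing_VM M hqM A hA
  rw [CharP.charP_iff_prime_eq_zero hq.out]
  have h : ((q : ℕ) : VM) ∈ maximalIdeal VM := by
    rw [H92.maximalIdeal_VM]; exact Ideal.mem_span_singleton_self _
  have := (residue_eq_zero_iff _).2 h
  rwa [map_natCast] at this

/-! ### the data of the two places -/

include hA in
theorem charP_kA : CharP kA q := H45.charP_residueField hq.out hA

/-- `j_M` as an element of `V_M`. -/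
def jNKV : VM := ⟨S18.H16.jNK L₁ M, (H92.jNK_mem_VM M hqM A hA).choose⟩

/-- `j` as an element of `V_M`. -/
def jKV : VM := ⟨S18.H16.jK L₁ M, (H92.jK_mem_VM M hqM A hA).choose⟩

theorem resM_jNKV : H92.resM M hqM A hA (jNKV M hqM A hA) = qExpand kA M (jqModC kA) :=
  (H92.jNK_mem_VM M hqM A hA).choose_spec

theorem resM_jKV : H92.resM M hqM A hA (jKV M hqM A hA) = jqModC kA :=
  (H92.jK_mem_VM M hqM A hA).choose_spec

theorem resMF_jNKV : H92.resMF M hqM A hA (jNKV M hqM A hA) = S18.H16.jNK kA M := by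
  apply Subtype.ext
  rw [S18.H16.coe_jNK]
  exact resM_jNKV M hqM A hA

theorem resMF_jKV : H92.resMF M hqM A hA (jKV M hqM A hA) = S18.H16.jK kA M := by
  apply Subtype.ext
  rw [S18.H16.coe_jK]
  exact resM_jKV M hqM A hA

theorem resMF_natCast : H92.resMF M hqM A hA ((q : ℕ) : VM) = 0 :=
  (H92.resMF_eq_zero_iff M hqM A hA _).2 dvd_rfl

/-- the reduction map of the place `P_∞` on `V_M`: coefficientwise reduction. -/
def iotaInf : VM →+* FkM := H92.resMF M hqM A hA

/-- the reduction map of the place `P_0` on `V_M`: reduction followed by `t ↦ t^q`. -/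
def iotaZero : VM →+* FkM :=
  haveI := charP_kA A hA
  ((frobLin kA q M : FkM →ₐ[kA] FkM) : FkM →+* FkM).comp (H92.resMF M hqM A hA)

theorem iotaZero_apply (x : VM) :
    iotaZero M hqM A hA x =
      (haveI := charP_kA A hA; frobLin kA q M (H92.resMF M hqM A hA x)) := rfl

theorem iotaInf_natCast : iotaInf M hqM A hA ((q : ℕ) : VM) = 0 := resMF_natCast M hqM A hA

theorem iotaZero_natCast : iotaZero M hqM A hA ((q : ℕ) : VM) = 0 := by
  rw [iotaZero_apply, resMF_natCast, map_zero]

/-- `ℤ[X] → V_M`, `X ↦ j_M`. -/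
def phiV : ℤ[X] →+* VM := (aeval (R := ℤ) (jNKV M hqM A hA)).toRingHom

theorem phiV_X : phiV M hqM A hA X = jNKV M hqM A hA := by
  simp [phiV]

/-- the residue field of `V_M` inside `kA((t))`. -/
def rhoV : ResidueField VM →+* LaurentSeries kA :=
  haveI := H92.isDiscreteValuationRing_VM M hqM A hA
  CA.H99.resLift (H92.maximalIdeal_VM M hqM A hA) (H92.resM M hqM A hA)
    (H92.resM_natCast M hqM A hA)

theorem rhoV_residue (x : VM) : rhoV M hqM A hA (residue VM x) = H92.resM M hqM A hA x := rfl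

theorem not_dvd_order_rhoV :
    ¬ (q : ℤ) ∣ (rhoV M hqM A hA (residue VM (phiV M hqM A hA X))).order := by
  rw [phiV_X, rhoV_residue, resM_jNKV, order_qExpand, S28.H39.order_jqModC]
  intro h
  apply hqM
  have h2 : (q : ℤ) ∣ (M : ℤ) := by
    have := (dvd_neg (a := (q : ℤ)) (b := (M : ℤ) * 1)).1 (by simpa using h)
    simpa using this
  exact_mod_cast h2

/-! ### the two places -/

theorem algebraMap_phiV_X :
    algebraMap VM FM (phiV M hqM A hA X) = S18.H16.jNK L₁ M := by
  rw [phiV_X]; rfl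

/-- **The place `P_∞`** of `F_N` over `V_M`: `res j_N = j̄_M ^ q`, reduction on `V_M` = `resMF`. -/
theorem nonempty_placeInf (hN : N = q * M) :
    letI := algVMFN M N hqM hMN A hA
    Nonempty (CA.H99.PlaceOver (L := FN) ((q : ℕ) : VM) (S18.H16.jNK L₁ N)
      (iotaInf M hqM A hA) (S18.H16.jNK kA M ^ q)) := by
  letI := S34.H16.degAlgebra L₁ M N hMN
  letI := algVMFN M N hqM hMN A hA
  haveI := H92.isDiscreteValuationRing_VM M hqM A hA
  haveI : NeZero q := ⟨hq.out.ne_zero⟩
  obtain ⟨D, hD⟩ := S28.H16.hasModPoly q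
  have hNK : ((N : ℕ) : L₁) ≠ 0 := Nat.cast_ne_zero.2 (NeZero.ne N)
  refine S34.H16.nonempty_placeOver_infty L₁ M N hMN q hqM hN hNK D hD
    (isScalarTower_VM M N hqM hMN A hA) (phiV M hqM A hA) (algebraMap_phiV_X M hqM A hA)
    (rhoV M hqM A hA) (not_dvd_order_rhoV M hqM A hA) (H92.maximalIdeal_VM M hqM A hA)
    (iotaInf M hqM A hA) (iotaInf_natCast M hqM A hA) _ ?_
  rw [phiV_X]
  show _ = H92.resMF M hqM A hA (jNKV M hqM A hA) ^ q
  rw [resMF_jNKV]

/-- **The place `P_0`** of `F_N` over `V_M`: `res j_N = j̄_M`, reduction on `V_M` = `resMF`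
followed by `t ↦ t^q`. -/
theorem nonempty_placeZero (hN : N = q * M) :
    letI := algVMFN M N hqM hMN A hA
    Nonempty (CA.H99.PlaceOver (L := FN) ((q : ℕ) : VM) (S18.H16.jNK L₁ N)
      (iotaZero M hqM A hA) (S18.H16.jNK kA M)) := by
  letI := S34.H16.degAlgebra L₁ M N hMN
  letI := algVMFN M N hqM hMN A hA
  haveI := H92.isDiscreteValuationRing_VM M hqM A hA
  haveI : NeZero q := ⟨hq.out.ne_zero⟩
  haveI := charP_kA A hA
  obtain ⟨D, hD⟩ := S28.H16.hasModPoly q
  have hNK : ((N : ℕ) : L₁) ≠ 0 := Nat.cast_ne_zero.2 (NeZero.ne N)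
  refine S34.H16.nonempty_placeOver_zero L₁ M N hMN q hqM hN hNK D hD
    (isScalarTower_VM M N hqM hMN A hA) (phiV M hqM A hA) (algebraMap_phiV_X M hqM A hA)
    (rhoV M hqM A hA) (not_dvd_order_rhoV M hqM A hA) (H92.maximalIdeal_VM M hqM A hA)
    (iotaZero M hqM A hA) (iotaZero_natCast M hqM A hA) _ ?_
  rw [phiV_X, iotaZero_apply, resMF_jNKV, frobLin_jNK]

end Fermat.Agent.S34.H36
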