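import Mathlib

/-!
# S34, STEP 4 (global half): gluing local idempotents of a cover chart

Everything happens inside a field `L` (the cover field).  `B` is the chart ring of the base
model, `C : Subalgebra B L` the chart ring of the cover, `π : B` the uniformiser and
`P : ι → Ideal B` a finite family of primes (the vertical primes).

* `LocMem C P x`   : `x ∈ C_P`   (`∃ s ∉ P, s • x ∈ C`)
* `LocDvd C π P x` : `x ∈ π C_P` (`∃ s ∉ P, ∃ c ∈ C, s • x = π • c`)

Main results: `exists_glue` (G1), `sat_lift` (SAT-lift), `glue_idempotent` (G2),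
`glue_two_charts` (G3).
-/

namespace Fermat.Agent.S34.H3

open Polynomial

section Defs

variable {B : Type*} [CommRing B] {L : Type*} [Field L] [Algebra B L]

/-- `x ∈ C_P`. -/
def LocMem (C : Subalgebra B L) (P : Ideal B) (x : L) : Prop :=
  ∃ s : B, s ∉ P ∧ s • x ∈ C

/-- `x ∈ π C_P`. -/
def LocDvd (C : Subalgebra B L) (π : B) (P : Ideal B) (x : L) : Prop :=
  ∃ s : B, s ∉ P ∧ ∃ c ∈ C, s • x = π • c

variable {C : Subalgebra B L} {π : B} {P : Ideal B}

theorem LocMem.of_mem (hP : P ≠ ⊤) {x : L} (hx : x ∈ C) : LocMem C P x :=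
  ⟨1, fun h => hP ((Ideal.eq_top_iff_one P).2 h), by rwa [one_smul]⟩

theorem LocMem.mono {n : Ideal B} (h : P ≤ n) {x : L} (hx : LocMem C n x) : LocMem C P x := by
  obtain ⟨s, hs, hsx⟩ := hx
  exact ⟨s, fun h' => hs (h h'), hsx⟩

theorem LocMem.add [P.IsPrime] {x y : L} (hx : LocMem C P x) (hy : LocMem C P y) :
    LocMem C P (x + y) := by
  obtain ⟨s, hs, hsx⟩ := hx
  obtain ⟨t, ht, hty⟩ := hy
  refine ⟨s * t, fun h => (Ideal.IsPrime.mem_or_mem ‹_› h).elim hs ht, ?_⟩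
  have : (s * t) • (x + y) = t • (s • x) + s • (t • y) := by
    simp only [smul_add, smul_smul]; rw [mul_comm t s]
  rw [this]
  exact C.add_mem (C.smul_mem hsx t) (C.smul_mem hty s)

theorem LocMem.neg {x : L} (hx : LocMem C P x) : LocMem C P (-x) := by
  obtain ⟨s, hs, hsx⟩ := hx
  exact ⟨s, hs, by rw [smul_neg]; exact C.neg_mem hsx⟩

theorem LocMem.sub [P.IsPrime] {x y : L} (hx : LocMem C P x) (hy : LocMem C P y) :
    LocMem C P (x - y) := by
  rw [sub_eq_add_neg]; exact hx.add hy.neg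

theorem LocMem.smul {x : L} (hx : LocMem C P x) (b : B) : LocMem C P (b • x) := by
  obtain ⟨s, hs, hsx⟩ := hx
  exact ⟨s, hs, by rw [smul_comm]; exact C.smul_mem hsx b⟩

theorem LocMem.mul [P.IsPrime] {x y : L} (hx : LocMem C P x) (hy : LocMem C P y) :
    LocMem C P (x * y) := by
  obtain ⟨s, hs, hsx⟩ := hx
  obtain ⟨t, ht, hty⟩ := hy
  refine ⟨s * t, fun h => (Ideal.IsPrime.mem_or_mem ‹_› h).elim hs ht, ?_⟩
  have : (s * t) • (x * y) = (s • x) * (t • y) := by
    rw [smul_mul_smul_comm]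
  rw [this]
  exact C.mul_mem hsx hty

theorem LocDvd.locMem {x : L} (hx : LocDvd C π P x) : LocMem C P x := by
  obtain ⟨s, hs, c, hc, h⟩ := hx
  exact ⟨s, hs, by rw [h]; exact C.smul_mem hc π⟩

theorem LocDvd.of_dvd (hP : P ≠ ⊤) {x c : L} (hc : c ∈ C) (h : x = π • c) : LocDvd C π P x :=
  ⟨1, fun h' => hP ((Ideal.eq_top_iff_one P).2 h'), c, hc, by rw [one_smul, h]⟩

theorem LocDvd.zero (hP : P ≠ ⊤) : LocDvd C π P (0 : L) :=
  LocDvd.of_dvd hP C.zero_mem (by rw [smul_zero])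

theorem LocDvd.mono {n : Ideal B} (h : P ≤ n) {x : L} (hx : LocDvd C π n x) :
    LocDvd C π P x := by
  obtain ⟨s, hs, c, hc, hsx⟩ := hx
  exact ⟨s, fun h' => hs (h h'), c, hc, hsx⟩

theorem LocDvd.add [P.IsPrime] {x y : L} (hx : LocDvd C π P x) (hy : LocDvd C π P y) :
    LocDvd C π P (x + y) := by
  obtain ⟨s, hs, c, hc, hsx⟩ := hx
  obtain ⟨t, ht, d, hd, hty⟩ := hy
  refine ⟨s * t, fun h => (Ideal.IsPrime.mem_or_mem ‹_› h).elim hs ht,
    t • c + s • d, C.add_mem (C.smul_mem hc t) (C.smul_mem hd s), ?_⟩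
  have : (s * t) • (x + y) = t • (s • x) + s • (t • y) := by
    simp only [smul_add, smul_smul]; rw [mul_comm t s]
  rw [this, hsx, hty, smul_add, smul_comm t π c, smul_comm s π d]

theorem LocDvd.neg {x : L} (hx : LocDvd C π P x) : LocDvd C π P (-x) := by
  obtain ⟨s, hs, c, hc, hsx⟩ := hx
  exact ⟨s, hs, -c, C.neg_mem hc, by rw [smul_neg, hsx, smul_neg]⟩

theorem LocDvd.sub [P.IsPrime] {x y : L} (hx : LocDvd C π P x) (hy : LocDvd C π P y) :
    LocDvd C π P (x - y) := by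
  rw [sub_eq_add_neg]; exact hx.add hy.neg

theorem LocDvd.smul {x : L} (hx : LocDvd C π P x) (b : B) : LocDvd C π P (b • x) := by
  obtain ⟨s, hs, c, hc, hsx⟩ := hx
  exact ⟨s, hs, b • c, C.smul_mem hc b, by rw [smul_comm s b x, hsx, smul_comm b π c]⟩

theorem LocDvd.mul_locMem [P.IsPrime] {x y : L} (hx : LocDvd C π P x) (hy : LocMem C P y) :
    LocDvd C π P (x * y) := by
  obtain ⟨s, hs, c, hc, hsx⟩ := hx
  obtain ⟨t, ht, hty⟩ := hy
  refine ⟨s * t, fun h => (Ideal.IsPrime.mem_or_mem ‹_› h).elim hs ht,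
    c * (t • y), C.mul_mem hc hty, ?_⟩
  rw [← smul_mul_smul_comm, hsx, smul_mul_assoc]

/-- If the special fibre is reduced at `P` (`P B_P = π B_P`), then `P · C_P ⊆ π C_P`. -/
theorem LocDvd.of_mem_smul_locMem [P.IsPrime]
    (hred : ∀ b ∈ P, ∃ s, s ∉ P ∧ π ∣ s * b) {b : B} (hb : b ∈ P) {y : L}
    (hy : LocMem C P y) : LocDvd C π P (b • y) := by
  obtain ⟨s, hs, d, hd⟩ := hred b hb
  obtain ⟨t, ht, hty⟩ := hy
  refine ⟨s * t, fun h => (Ideal.IsPrime.mem_or_mem ‹_› h).elim hs ht,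
    d • (t • y), C.smul_mem hty d, ?_⟩
  rw [smul_smul, smul_smul, smul_smul]
  congr 1
  calc s * t * b = (s * b) * t := by ring
    _ = π * d * t := by rw [hd]

end Defs

/-! ## (G1) the gluing lemma -/

section Glue

variable {B : Type*} [CommRing B] {L : Type*} [Field L] [Algebra B L]

theorem exists_glue {ι : Type*} [Finite ι] (P : ι → Ideal B) (hP : ∀ i, (P i).IsPrime)
    (C : Subalgebra B L) (π : B) (hπP : ∀ i, π ∈ P i)
    (hred : ∀ i, ∀ b ∈ P i, ∃ s, s ∉ P i ∧ π ∣ s * b)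
    (g : L)
    (hloc : ∀ n : Ideal B, n.IsMaximal → π ∈ n → ∃ e : L, LocMem C n e ∧
      ∀ i, P i ≤ n → LocDvd C π (P i) (e - g)) :
    ∃ e ∈ C, ∀ i, LocDvd C π (P i) (e - g) := by
  classical
  cases nonempty_fintype ι
  have hPne : ∀ i, P i ≠ ⊤ := fun i => (hP i).ne_top
  -- `g` is integral at every vertical prime
  have hgen : ∀ i, LocMem C (P i) g := by
    intro i
    have := hP i
    obtain ⟨n, hn, hPn⟩ := Ideal.exists_le_maximal (P i) (hPne i)
    obtain ⟨e, he, hd⟩ := hloc n hn (hPn (hπP i))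
    have h1 : LocMem C (P i) e := he.mono hPn
    have h2 : LocMem C (P i) (e - g) := (hd i hPn).locMem
    have : g = e - (e - g) := by ring
    rw [this]
    exact h1.sub h2
  -- the ideal of denominators
  let I : Ideal B :=
    { carrier := {r | ∃ c ∈ C, ∀ i, LocDvd C π (P i) (r • g - c)}
      zero_mem' := ⟨0, C.zero_mem, fun i => by
        rw [zero_smul, sub_zero]; exact LocDvd.zero (hPne i)⟩
      add_mem' := by
        rintro r₁ r₂ ⟨c₁, hc₁, h₁⟩ ⟨c₂, hc₂, h₂⟩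
        refine ⟨c₁ + c₂, C.add_mem hc₁ hc₂, fun i => ?_⟩
        have := hP i
        have : (r₁ + r₂) • g - (c₁ + c₂) = (r₁ • g - c₁) + (r₂ • g - c₂) := by
          rw [add_smul]; ring
        rw [this]
        exact (h₁ i).add (h₂ i)
      smul_mem' := by
        rintro b r ⟨c, hc, h⟩
        refine ⟨b • c, C.smul_mem hc b, fun i => ?_⟩
        have : (b • r) • g - b • c = b • (r • g - c) := by
          rw [smul_sub, smul_assoc]
        rw [this]
        exact (h i).smul b }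
  have hI : I = ⊤ := by
    by_contra hne
    obtain ⟨n, hn, hIn⟩ := Ideal.exists_le_maximal I hne
    have := hn.isPrime
    by_cases hπn : π ∈ n
    · obtain ⟨e, ⟨r, hr, hre⟩, hd⟩ := hloc n hn hπn
      -- choose `t i ∈ P i \ n` when `P i` is not contained in `n`
      have hex : ∀ i, ∃ t : B, t ∉ n ∧ (¬ P i ≤ n → t ∈ P i) := by
        intro i
        by_cases h : P i ≤ n
        · exact ⟨1, fun h1 => hn.ne_top ((Ideal.eq_top_iff_one n).2 h1), fun h' => (h' h).elim⟩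
        · obtain ⟨t, htP, htn⟩ := Set.not_subset.1 h
          exact ⟨t, htn, fun _ => htP⟩
      choose t htn htP using hex
      set r₀ : B := ∏ i, t i with hr₀
      have hr₀n : r₀ ∉ n := by
        rw [hr₀, Ideal.IsPrime.prod_mem_iff]
        rintro ⟨i, -, hi⟩
        exact htn i hi
      have hr₀P : ∀ i, ¬ P i ≤ n → r₀ ∈ P i := by
        intro i hi
        rw [hr₀]
        exact Ideal.mul_mem_left _ _ (htP i hi) |> fun h => by
          rw [← Finset.prod_erase_mul _ _ (Finset.mem_univ i)]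
          exact h
      have hmem : r₀ * r ∈ I := by
        refine ⟨(r₀ * r) • e, ?_, fun i => ?_⟩
        · rw [mul_smul]; exact C.smul_mem hre r₀
        · have := hP i
          by_cases hi : P i ≤ n
          · have : (r₀ * r) • g - (r₀ * r) • e = -((r₀ * r) • (e - g)) := by
              rw [smul_sub]; ring
            rw [this]
            exact ((hd i hi).smul _).neg
          · have : (r₀ * r) • g - (r₀ * r) • e = r₀ • (r • g - r • e) := by
              rw [smul_sub, mul_smul, mul_smul]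
            rw [this]
            refine LocDvd.of_mem_smul_locMem (hred i) (hr₀P i hi) ?_
            exact ((hgen i).smul r).sub (LocMem.of_mem (hPne i) hre)
      exact (Ideal.IsPrime.mem_or_mem ‹_› (hIn hmem)).elim hr₀n hr
    · apply hπn
      apply hIn
      refine ⟨0, C.zero_mem, fun i => ?_⟩
      rw [sub_zero]
      obtain ⟨s, hs, hsg⟩ := hgen i
      exact ⟨s, hs, s • g, hsg, smul_comm s π g⟩
  have h1 : (1 : B) ∈ I := by rw [hI]; trivial
  obtain ⟨c, hc, h⟩ := h1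
  refine ⟨c, hc, fun i => ?_⟩
  have : c - g = -((1 : B) • g - c) := by rw [one_smul]; ring
  rw [this]
  exact (h i).neg

end Glue

/-! ## (SAT-lift) saturation passes to the integral closure in a field extension -/

section Sat

variable {B : Type*} [CommRing B] [IsDomain B]

/-- Iterated saturation. -/
theorem pow_dvd_of_sat {ι : Type*} (P : ι → Ideal B) (π : B) (hπ : π ≠ 0)
    (hsatB : ∀ b : B, (∀ i, ∃ s, s ∉ P i ∧ π ∣ s * b) → π ∣ b) :
    ∀ (N : ℕ) (b : B), (∀ i, ∃ s, s ∉ P i ∧ π ^ N ∣ s * b) → π ^ N ∣ b := by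
  intro N
  induction N with
  | zero => intro b _; simp
  | succ N ih =>
    intro b hb
    have h1 : π ∣ b := by
      apply hsatB
      intro i
      obtain ⟨s, hs, hd⟩ := hb i
      exact ⟨s, hs, dvd_trans (dvd_pow_self π (Nat.succ_ne_zero N)) hd⟩
    obtain ⟨b', rfl⟩ := h1
    rw [pow_succ']
    apply mul_dvd_mul_left
    apply ih
    intro i
    obtain ⟨s, hs, hd⟩ := hb i
    refine ⟨s, hs, ?_⟩
    have : s * (π * b') = π * (s * b') := by ring
    rw [this, pow_succ'] at hd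
    exact (mul_dvd_mul_iff_left hπ).1 hd

variable [IsIntegrallyClosed B]
  {K : Type*} [Field K] [Algebra B K] [IsFractionRing B K]
  {L : Type*} [Field L] [Algebra K L] [Algebra B L] [IsScalarTower B K L]

theorem coeff_mul_pow_mem_of_smul_integral {y : L} (hy : IsIntegral K y) {s : B} (hs : s ≠ 0)
    (hsy : IsIntegral B (s • y)) (i : ℕ) :
    ∃ b : B, algebraMap B K b =
      (minpoly K y).coeff i * (algebraMap B K s) ^ ((minpoly K y).natDegree - i) := by
  have h1 : minpoly K (s • y) = (minpoly B (s • y)).map (algebraMap B K) :=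
    minpoly.isIntegrallyClosed_eq_field_fractions' K hsy
  have hs' : algebraMap B K s ≠ 0 := by
    rwa [Ne, FaithfulSMul.algebraMap_eq_zero_iff]
  have h2 : minpoly K ((algebraMap B K s) • y) = (minpoly K y).scaleRoots (algebraMap B K s) :=
    IsIntegrallyClosed.minpoly_smul hs' hy
  rw [algebraMap_smul] at h2
  refine ⟨(minpoly B (s • y)).coeff i, ?_⟩
  rw [← Polynomial.coeff_map, ← h1, h2, Polynomial.coeff_scaleRoots]

variable (K) in
include K in
theorem sat_lift {ι : Type*} (P : ι → Ideal B) (hP : ∀ i, (P i).IsPrime) (π : B) (hπ : π ≠ 0)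
    (hsatB : ∀ b : B, (∀ i, ∃ s, s ∉ P i ∧ π ∣ s * b) → π ∣ b)
    {x : L} (hx : IsIntegral B x)
    (hloc : ∀ i, LocDvd (integralClosure B L) π (P i) x) :
    ∃ c ∈ integralClosure B L, x = π • c := by
  have hinjK : Function.Injective (algebraMap B K) := IsFractionRing.injective B K
  have hinjL : Function.Injective (algebraMap B L) := by
    rw [IsScalarTower.algebraMap_eq B K L]
    exact (algebraMap K L).injective.comp hinjK
  have hπK : algebraMap B K π ≠ 0 := fun h => hπ (hinjK (by rw [h, map_zero]))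
  have hπL : algebraMap B L π ≠ 0 := fun h => hπ (hinjL (by rw [h, map_zero]))
  set y : L := (algebraMap B L π)⁻¹ * x with hy
  have hxy : π • y = x := by
    rw [hy, Algebra.smul_def, mul_inv_cancel_left₀ hπL]
  have hyK : IsIntegral K y := by
    have : y = algebraMap K L ((algebraMap B K π)⁻¹) * x := by
      rw [hy, map_inv₀, ← IsScalarTower.algebraMap_apply]
    rw [this]
    exact isIntegral_algebraMap.mul hx.tower_top
  have hπy : IsIntegral B (π • y) := by rw [hxy]; exact hx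
  -- local integrality of `y`
  have hsy : ∀ i, ∃ s : B, s ∉ P i ∧ IsIntegral B (s • y) := by
    intro i
    obtain ⟨s, hs, c, hc, hsx⟩ := hloc i
    refine ⟨s, hs, ?_⟩
    have : s • y = c := by
      have h3 : π • (s • y) = π • c := by rw [smul_comm, hxy, hsx]
      rw [Algebra.smul_def π, Algebra.smul_def π] at h3
      exact mul_left_cancel₀ hπL h3
    rw [this]; exact hc
  choose s hsP hsint using hsy
  have hs0 : ∀ i, s i ≠ 0 := fun i h => hsP i (by rw [h]; exact (P i).zero_mem)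
  -- all coefficients of the minimal polynomial lie in `B`
  have hcoeff : ∀ k, (minpoly K y).coeff k ∈ (algebraMap B K).rangeS := by
    intro k
    set a := (minpoly K y).coeff k with ha
    set N := (minpoly K y).natDegree - k with hN
    obtain ⟨b, hb⟩ := coeff_mul_pow_mem_of_smul_integral hyK hπ hπy k
    have hdvd : π ^ N ∣ b := by
      apply pow_dvd_of_sat P π hπ hsatB N b
      intro i
      have := hP i
      obtain ⟨bi, hbi⟩ := coeff_mul_pow_mem_of_smul_integral hyK (hs0 i) (hsint i) k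
      refine ⟨s i ^ N, fun h => hsP i (Ideal.IsPrime.mem_of_pow_mem ‹_› N h), bi, ?_⟩
      apply hinjK
      rw [map_mul, map_mul, map_pow, map_pow, hb, hbi]
      ring
    obtain ⟨b', rfl⟩ := hdvd
    refine ⟨b', ?_⟩
    rw [map_mul, map_pow] at hb
    have hne : (algebraMap B K π) ^ N ≠ 0 := pow_ne_zero _ hπK
    have : algebraMap B K b' * (algebraMap B K π) ^ N = a * (algebraMap B K π) ^ N := by
      rw [← hb]; ring
    exact mul_right_cancel₀ hne this
  have hlift : minpoly K y ∈ Polynomial.lifts (algebraMap B K) :=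
    (Polynomial.lifts_iff_coeff_lifts _).2 fun k => by
      obtain ⟨b, hb⟩ := hcoeff k
      exact ⟨b, hb⟩
  obtain ⟨q, hq, -, hqm⟩ :=
    Polynomial.lifts_and_degree_eq_and_monic hlift (minpoly.monic hyK)
  have hyB : IsIntegral B y := by
    refine ⟨q, hqm, ?_⟩
    have : Polynomial.aeval y (q.map (algebraMap B K)) = 0 := by
      rw [hq]; exact minpoly.aeval K y
    rwa [Polynomial.aeval_map_algebraMap, Polynomial.aeval_def] at this
  exact ⟨y, hyB, hxy.symm⟩

end Sat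

/-! ## (G2) the glued element is a nontrivial idempotent modulo `π` -/

section Idem

variable {B : Type*} [CommRing B] {L : Type*} [Field L] [Algebra B L]
  {ι : Type*} (P : ι → Ideal B) (hP : ∀ i, (P i).IsPrime) (C : Subalgebra B L) (π : B)

include hP in
theorem glue_idempotent
    (hsatC : ∀ x ∈ C, (∀ i, LocDvd C π (P i) x) → ∃ c ∈ C, x = π • c)
    {g : L} (hg2 : ∀ i, LocDvd C π (P i) (g ^ 2 - g))
    {e : L} (he : e ∈ C) (heg : ∀ i, LocDvd C π (P i) (e - g)) :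
    ∃ a ∈ C, e ^ 2 - e = π • a := by
  apply hsatC _ (C.sub_mem (C.pow_mem he 2) he)
  intro i
  have := hP i
  have hPne : P i ≠ ⊤ := (hP i).ne_top
  have heC : LocMem C (P i) e := LocMem.of_mem hPne he
  have hgC : LocMem C (P i) g := by
    have : g = e - (e - g) := by ring
    rw [this]; exact heC.sub (heg i).locMem
  have h1C : LocMem C (P i) (1 : L) := LocMem.of_mem hPne C.one_mem
  have : e ^ 2 - e = (g ^ 2 - g) + (e - g) * (e + g - 1) := by ring
  rw [this]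
  exact (hg2 i).add ((heg i).mul_locMem ((heC.add hgC).sub h1C))

include hP in
theorem glue_not_dvd {g : L} (hg : ∃ i, ¬ LocDvd C π (P i) g)
    {e : L} (heg : ∀ i, LocDvd C π (P i) (e - g)) :
    ¬ ∃ a ∈ C, e = π • a := by
  rintro ⟨a, ha, hea⟩
  obtain ⟨i, hi⟩ := hg
  have := hP i
  apply hi
  have h1 : LocDvd C π (P i) e := LocDvd.of_dvd (hP i).ne_top ha hea
  have : g = e - (e - g) := by ring
  rw [this]
  exact h1.sub (heg i)

include hP in
theorem glue_sub_one_not_dvd {g : L} (hg : ∃ i, ¬ LocDvd C π (P i) (g - 1))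
    {e : L} (heg : ∀ i, LocDvd C π (P i) (e - g)) :
    ¬ ∃ a ∈ C, e - 1 = π • a := by
  rintro ⟨a, ha, hea⟩
  obtain ⟨i, hi⟩ := hg
  have := hP i
  apply hi
  have h1 : LocDvd C π (P i) (e - 1) := LocDvd.of_dvd (hP i).ne_top ha hea
  have : g - 1 = (e - 1) - (e - g) := by ring
  rw [this]
  exact h1.sub (heg i)

end Idem

/-! ## (G3) two charts -/

section TwoCharts

variable {L : Type*} [Field L]
  {B₁ B₁₂ : Type*} [CommRing B₁] [CommRing B₁₂] [Algebra B₁ L] [Algebra B₁₂ L]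

/-- Transport of `x ∈ π C_P` along a chart inclusion `B₁ → B₁₂`, `C₁ ⊆ C₁₂`. -/
theorem LocDvd.transfer (φ : B₁ →+* B₁₂) (hφ : ∀ b, algebraMap B₁₂ L (φ b) = algebraMap B₁ L b)
    {C₁ : Subalgebra B₁ L} {C₁₂ : Subalgebra B₁₂ L} (hC : ∀ x ∈ C₁, x ∈ C₁₂)
    {π₁ : B₁} {Q₁ : Ideal B₁} {Q₁₂ : Ideal B₁₂} (hQ : ∀ s, s ∉ Q₁ → φ s ∉ Q₁₂) {x : L}
    (hx : LocDvd C₁ π₁ Q₁ x) : LocDvd C₁₂ (φ π₁) Q₁₂ x := by
  obtain ⟨s, hs, c, hc, hsx⟩ := hx
  refine ⟨φ s, hQ s hs, c, hC c hc, ?_⟩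
  rw [Algebra.smul_def, Algebra.smul_def, hφ, hφ, ← Algebra.smul_def, ← Algebra.smul_def, hsx]

variable {B₂ : Type*} [CommRing B₂] [Algebra B₂ L]

/-- (G3): the glued elements of the two charts agree modulo `π` on the overlap. -/
theorem glue_two_charts (φ₁ : B₁ →+* B₁₂) (φ₂ : B₂ →+* B₁₂)
    (hφ₁ : ∀ b, algebraMap B₁₂ L (φ₁ b) = algebraMap B₁ L b)
    (hφ₂ : ∀ b, algebraMap B₁₂ L (φ₂ b) = algebraMap B₂ L b)
    {ι₁ ι₂ ι₁₂ : Type*} (P₁ : ι₁ → Ideal B₁) (P₂ : ι₂ → Ideal B₂) (P₁₂ : ι₁₂ → Ideal B₁₂)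
    (hP₁₂ : ∀ k, (P₁₂ k).IsPrime)
    (hP₁ : ∀ k, ∃ i, ∀ s, s ∉ P₁ i → φ₁ s ∉ P₁₂ k)
    (hP₂ : ∀ k, ∃ i, ∀ s, s ∉ P₂ i → φ₂ s ∉ P₁₂ k)
    (C₁ : Subalgebra B₁ L) (C₂ : Subalgebra B₂ L) (C₁₂ : Subalgebra B₁₂ L)
    (hC₁ : ∀ x ∈ C₁, x ∈ C₁₂) (hC₂ : ∀ x ∈ C₂, x ∈ C₁₂)
    (π₁ : B₁) (π₂ : B₂) (π₁₂ : B₁₂) (hπ₁ : φ₁ π₁ = π₁₂) (hπ₂ : φ₂ π₂ = π₁₂)
    (hsat : ∀ x ∈ C₁₂, (∀ k, LocDvd C₁₂ π₁₂ (P₁₂ k) x) → ∃ c ∈ C₁₂, x = π₁₂ • c)
    {g e₁ e₂ : L} (he₁ : e₁ ∈ C₁) (he₂ : e₂ ∈ C₂)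
    (h₁ : ∀ i, LocDvd C₁ π₁ (P₁ i) (e₁ - g)) (h₂ : ∀ i, LocDvd C₂ π₂ (P₂ i) (e₂ - g)) :
    ∃ y ∈ C₁₂, e₁ - e₂ = π₁₂ • y := by
  apply hsat _ (C₁₂.sub_mem (hC₁ _ he₁) (hC₂ _ he₂))
  intro k
  have := hP₁₂ k
  obtain ⟨i₁, hi₁⟩ := hP₁ k
  obtain ⟨i₂, hi₂⟩ := hP₂ k
  have t₁ : LocDvd C₁₂ π₁₂ (P₁₂ k) (e₁ - g) := by
    rw [← hπ₁]; exact (h₁ i₁).transfer φ₁ hφ₁ hC₁ hi₁
  have t₂ : LocDvd C₁₂ π₁₂ (P₁₂ k) (e₂ - g) := by
    rw [← hπ₂]; exact (h₂ i₂).transfer φ₂ hφ₂ hC₂ hi₂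
  have : e₁ - e₂ = (e₁ - g) - (e₂ - g) := by ring
  rw [this]
  exact t₁.sub t₂

end TwoCharts

/-! ## One chart, packaged: (G1) + (SAT-lift) + (G2) for `C = integralClosure B L` -/

section Chart

variable {B : Type*} [CommRing B] [IsDomain B] [IsIntegrallyClosed B]
  (K : Type*) [Field K] [Algebra B K] [IsFractionRing B K]
  {L : Type*} [Field L] [Algebra K L] [Algebra B L] [IsScalarTower B K L]

include K in
/-- The glued element of one chart: integral over `B`, congruent to the generic element `g`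
at every vertical prime, idempotent modulo `π`. -/
theorem exists_chart_idempotent' {ι : Type*} [Finite ι] (P : ι → Ideal B)
    (hP : ∀ i, (P i).IsPrime) (π : B) (hπ : π ≠ 0) (hπP : ∀ i, π ∈ P i)
    (hred : ∀ i, ∀ b ∈ P i, ∃ s, s ∉ P i ∧ π ∣ s * b)
    (hsatB : ∀ b : B, (∀ i, ∃ s, s ∉ P i ∧ π ∣ s * b) → π ∣ b)
    (g : L)
    (hloc : ∀ n : Ideal B, n.IsMaximal → π ∈ n → ∃ e : L, LocMem (integralClosure B L) n e ∧
      ∀ i, P i ≤ n → LocDvd (integralClosure B L) π (P i) (e - g))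
    (hg2 : ∀ i, LocDvd (integralClosure B L) π (P i) (g ^ 2 - g)) :
    ∃ e : L, IsIntegral B e ∧ (∀ i, LocDvd (integralClosure B L) π (P i) (e - g)) ∧
      ∃ a : L, IsIntegral B a ∧ e ^ 2 - e = π • a := by
  obtain ⟨e, he, heg⟩ := exists_glue P hP (integralClosure B L) π hπP hred g hloc
  have hsatC : ∀ x ∈ integralClosure B L,
      (∀ i, LocDvd (integralClosure B L) π (P i) x) → ∃ c ∈ integralClosure B L, x = π • c :=
    fun x hx hd => sat_lift K P hP π hπ hsatB hx hd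
  refine ⟨e, he, heg, ?_⟩
  obtain ⟨a, ha, h⟩ := glue_idempotent P hP (integralClosure B L) π hsatC hg2 he heg
  exact ⟨a, ha, h⟩

include K in
/-- The glued element of one chart: integral over `B`, congruent to the generic element `g`
at every vertical prime, idempotent modulo `π`, and neither `0` nor `1` modulo `π`. -/
theorem exists_chart_idempotent {ι : Type*} [Finite ι] (P : ι → Ideal B)
    (hP : ∀ i, (P i).IsPrime) (π : B) (hπ : π ≠ 0) (hπP : ∀ i, π ∈ P i)
    (hred : ∀ i, ∀ b ∈ P i, ∃ s, s ∉ P i ∧ π ∣ s * b)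
    (hsatB : ∀ b : B, (∀ i, ∃ s, s ∉ P i ∧ π ∣ s * b) → π ∣ b)
    (g : L)
    (hloc : ∀ n : Ideal B, n.IsMaximal → π ∈ n → ∃ e : L, LocMem (integralClosure B L) n e ∧
      ∀ i, P i ≤ n → LocDvd (integralClosure B L) π (P i) (e - g))
    (hg2 : ∀ i, LocDvd (integralClosure B L) π (P i) (g ^ 2 - g))
    (hg : ∃ i, ¬ LocDvd (integralClosure B L) π (P i) g)
    (hg1 : ∃ i, ¬ LocDvd (integralClosure B L) π (P i) (g - 1)) :
    ∃ e : L, IsIntegral B e ∧ (∀ i, LocDvd (integralClosure B L) π (P i) (e - g)) ∧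
      (∃ a : L, IsIntegral B a ∧ e ^ 2 - e = π • a) ∧
      (¬ ∃ a : L, IsIntegral B a ∧ e = π • a) ∧ ¬ ∃ a : L, IsIntegral B a ∧ e - 1 = π • a := by
  obtain ⟨e, he, heg, hi⟩ := exists_chart_idempotent' K P hP π hπ hπP hred hsatB g hloc hg2
  refine ⟨e, he, heg, hi, ?_, ?_⟩
  · rintro ⟨a, ha, h⟩
    exact glue_not_dvd P hP (integralClosure B L) π hg heg ⟨a, ha, h⟩
  · rintro ⟨a, ha, h⟩
    exact glue_sub_one_not_dvd P hP (integralClosure B L) π hg1 heg ⟨a, ha, h⟩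

end Chart

end Fermat.Agent.S34.H3
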