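import Fermat.Agent.S34.H3_RadTransfer

/-!
# S34 seam: `hradB` over `A₁` from helper83's `TwoComponents`, characteristic form

`hradB_of_twoComponents` : `H3.hrad_of_twoComponents` with the two side conditions
`red_i (ℓ) = 0` discharged from `[CharP R ℓ]` (`map_natCast`), in the exact `hradB` shape
consumed by `H61.hrad_chartB_cutOver` / `H61.middle_of_chartPkg` / `H40.…_of_hrad`.

`charP_integralClosure_adjoin` : the `CharP` instance for the target ring
`R = integralClosure (Algebra.adjoin k {w}) Fk` of the L0 output.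
-/

set_option autoImplicit false

namespace Fermat.Agent.S34.H3

/-- `red (ℓ) = 0` for any ring hom into a ring of characteristic `ℓ`. -/
theorem map_algebraMap_natCast_eq_zero {A₁ B R : Type*} [CommRing A₁] [CommRing B] [Algebra A₁ B]
    [CommRing R] (ℓ : ℕ) [CharP R ℓ] (red : B →+* R) :
    red (algebraMap A₁ B ((ℓ : ℕ) : A₁)) = 0 := by
  rw [map_natCast, map_natCast]
  exact CharP.cast_eq_zero R ℓ

/-- **`hradB` from the L0 interface** (`qB := algebraMap A₁ B ℓ`, target of characteristic `ℓ`). -/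
theorem hradB_of_twoComponents {A₁ B R BM : Type*} [CommRing A₁] [CommRing B] [Algebra A₁ B]
    [CommRing R] [CommRing BM] [IsReduced R] (ℓ : ℕ) [CharP R ℓ]
    {red₁ red₂ : B →+* R} {ι V : BM →+* B} {rbar : BM →+* R} {W : R →+* R} {q' : ℕ}
    (hTC : H83.TwoComponents red₁ red₂ ι V rbar W q' (algebraMap A₁ B ((ℓ : ℕ) : A₁))) :
    ∀ b : B, (∃ n : ℕ, algebraMap A₁ B ((ℓ : ℕ) : A₁) ∣ b ^ n) →
      algebraMap A₁ B ((ℓ : ℕ) : A₁) ∣ b :=
  hrad_of_twoComponents hTC (map_algebraMap_natCast_eq_zero ℓ red₁)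
    (map_algebraMap_natCast_eq_zero ℓ red₂)

/-- Existential form (the conclusion of `H55.twoComponents_of_incl` is existential over
`red₁ red₂`). -/
theorem hradB_of_exists_twoComponents {A₁ B R BM : Type*} [CommRing A₁] [CommRing B]
    [Algebra A₁ B] [CommRing R] [CommRing BM] [IsReduced R] (ℓ : ℕ) [CharP R ℓ]
    {ι V : BM →+* B} {rbar : BM →+* R} {W : R →+* R} {q' : ℕ}
    (hTC : ∃ red₁ red₂ : B →+* R,
      H83.TwoComponents red₁ red₂ ι V rbar W q' (algebraMap A₁ B ((ℓ : ℕ) : A₁))) :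
    ∀ b : B, (∃ n : ℕ, algebraMap A₁ B ((ℓ : ℕ) : A₁) ∣ b ^ n) →
      algebraMap A₁ B ((ℓ : ℕ) : A₁) ∣ b := by
  obtain ⟨red₁, red₂, h⟩ := hTC
  exact hradB_of_twoComponents ℓ h

/-- The target ring of L0 has the characteristic of the residue field. -/
theorem charP_integralClosure_adjoin {k Fk : Type*} [Field k] [Field Fk] [Algebra k Fk]
    (ℓ : ℕ) [CharP k ℓ] (w : Fk) :
    CharP ↥(integralClosure (Algebra.adjoin k {w}) Fk) ℓ :=
  charP_of_injective_algebraMap
    (FaithfulSMul.algebraMap_injective k ↥(integralClosure (Algebra.adjoin k {w}) Fk)) ℓ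

/-- Any subring-like `S` of a field of characteristic `ℓ` has characteristic `ℓ`. -/
theorem charP_of_subringClass {Fk : Type*} [Field Fk] (ℓ : ℕ) [CharP Fk ℓ]
    {S : Type*} [SetLike S Fk] [SubringClass S Fk] (s : S) : CharP ↥s ℓ :=
  RingHom.charP (SubringClass.subtype s) Subtype.val_injective ℓ

end Fermat.Agent.S34.H3
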