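import Fermat.Agent.S34.H3_RadBaseChange
import Fermat.Agent.S34.H70_BaseChangeInst
import Fermat.Agent.S34.H95_ChartBC
import Fermat.Agent.CA.H79_GenTopBridge

/-!
# S34 seam: `hrad` at the concrete chart `chartB (cutOver A E) J_E`

`hrad_chartB_cutOver` : the reducedness hypothesis `hrad₁ / hrad₂` of helper61's
`H61.middle_cutOver`, VERBATIM as conclusion, from

* `hradB` : the same statement for the chart `chartB (A0 A ℓ) J₁` over `A₁ = A0 A ℓ`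
  (L0: `H3.hrad_of_twoComponents`), and
* `hcl` : helper40's `(a)'` in the exact shape of `H95.adjoin_chartBC_eq_top`
  (`chartB A'' J_E` is generated by the image of `chartB A₁ J₁` and `A''`).

The base change step is `H3.hrad_of_fibre` (helper79's `CA.H79.isReduced_fibre`) at helper70's
instance layer (`H70.algA0FE`, `H70.algSubFE`, `H70.h1_inst … hLD_inst`).
-/

set_option autoImplicit false
set_option linter.unusedSectionVars false
set_option linter.style.haveILetI false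
set_option synthInstance.maxHeartbeats 400000
set_option maxHeartbeats 3200000

noncomputable section

namespace Fermat.Agent.S34.H3

open ModularCurve IsLocalRing
open Fermat.Agent.S18 Fermat.Agent.S18.H45 Fermat.Agent.CA

local notation "Qbar" => AlgebraicClosure ℚ

variable {A : ValuationSubring Qbar} {ℓ : ℕ} (hℓ : ℓ.Prime) (hA : A.LiesOverPrime ℓ)
variable (E : IntermediateField (unrCyclo ℓ) Qbar) (N : ℕ) [NeZero N]

include hℓ hA in
/-- **`hrad` passes from any `A₁`-subalgebra `B ⊆ F₁` to any subring-like `s ⊆ F_E` with the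
carrier of `B · A''`.** -/
theorem hrad_inst
    (B : Subalgebra ↥(A0 A ℓ) ↥(modularFunctionFieldFullC ↥(unrCyclo ℓ) N))
    (π : ↥(cutOver A E)) (hmax : maximalIdeal ↥(cutOver A E) = Ideal.span {π})
    (hradB : ∀ b : ↥B,
      (∃ n : ℕ, algebraMap ↥(A0 A ℓ) ↥B ((ℓ : ℕ) : ↥(A0 A ℓ)) ∣ b ^ n) →
        algebraMap ↥(A0 A ℓ) ↥B ((ℓ : ℕ) : ↥(A0 A ℓ)) ∣ b)
    {S : Type*} [SetLike S ↥(modularFunctionFieldFullC ↥E N)]
    [SubringClass S ↥(modularFunctionFieldFullC ↥E N)] (s : S)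
    (hs : ∀ z : ↥(modularFunctionFieldFullC ↥E N), z ∈ s ↔
      z ∈ Subring.closure
        (Set.range (fun b : ↥B =>
            baseChangeE E N (b : ↥(modularFunctionFieldFullC ↥(unrCyclo ℓ) N))) ∪
          Set.range (algebraMap ↥(cutOver A E) ↥(modularFunctionFieldFullC ↥E N))))
    (p : ↥s)
    (hp : (p : ↥(modularFunctionFieldFullC ↥E N)) =
      algebraMap ↥(cutOver A E) ↥(modularFunctionFieldFullC ↥E N) π) :
    ∀ b : ↥s, (∃ n : ℕ, p ∣ b ^ n) → p ∣ b := by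
  letI := H70.algA0FE (A := A) E N
  letI := H70.algSubFE (A := A) E N B
  haveI := H70.isScalarTower_A0_cutOver_FE (A := A) (q := ℓ) E N
  haveI := H70.isScalarTower_A0_sub_FE (A := A) (q := ℓ) E N B
  haveI := isDiscreteValuationRing_A0 hℓ hA
  refine hrad_of_fibre (A₁ := ↥(A0 A ℓ)) (A₂ := ↥(cutOver A E)) (B := ↥B)
    (E := ↥(modularFunctionFieldFullC ↥E N)) ((ℓ : ℕ) : ↥(A0 A ℓ)) π
    (H70.h1_inst hℓ hA E π hmax) (H70.h2_inst hℓ hA E π hmax) (H70.h3_inst hℓ hA E π hmax)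
    (H70.hLD_inst (A := A) (q := ℓ) E N B) hradB s ?_ p hp
  intro z
  rw [hs z, H79.mem_genRing_iff_mem_closure]
  rfl

variable (J₁ : ↥(modularFunctionFieldFullC ↥(unrCyclo ℓ) N))
  (J_E : ↥(modularFunctionFieldFullC ↥E N)) (h : baseChangeE E N J₁ = J_E)

include hℓ hA h in
/-- **`hrad₁ / hrad₂` of `H61.middle_cutOver`** (VERBATIM as conclusion) from `hrad` of the
chart over `A₁ = A0 A ℓ` and helper40's `(a)'` (shape of `H95.adjoin_chartBC_eq_top`). -/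
theorem hrad_chartB_cutOver
    (π : ↥(cutOver A E)) (hmax : maximalIdeal ↥(cutOver A E) = Ideal.span {π})
    (hradB : ∀ b : ↥(H40.chartB ↥(A0 A ℓ) J₁),
      (∃ n : ℕ, algebraMap ↥(A0 A ℓ) ↥(H40.chartB ↥(A0 A ℓ) J₁)
          ((ℓ : ℕ) : ↥(A0 A ℓ)) ∣ b ^ n) →
        algebraMap ↥(A0 A ℓ) ↥(H40.chartB ↥(A0 A ℓ) J₁) ((ℓ : ℕ) : ↥(A0 A ℓ)) ∣ b)
    (hcl : ∀ z : ↥(modularFunctionFieldFullC ↥E N), z ∈ H40.chartB ↥(cutOver A E) J_E →
      z ∈ Subring.closure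
        (Set.range (fun b : ↥(H40.chartB ↥(A0 A ℓ) J₁) =>
            baseChangeE E N (b : ↥(modularFunctionFieldFullC ↥(unrCyclo ℓ) N))) ∪
          Set.range (algebraMap ↥(cutOver A E) ↥(modularFunctionFieldFullC ↥E N)))) :
    ∀ b : ↥(H40.chartB ↥(cutOver A E) J_E),
      (∃ n : ℕ, algebraMap ↥(cutOver A E) ↥(H40.chartB ↥(cutOver A E) J_E) π ∣ b ^ n) →
        algebraMap ↥(cutOver A E) ↥(H40.chartB ↥(cutOver A E) J_E) π ∣ b := by
  refine hrad_inst hℓ hA E N (H40.chartB ↥(A0 A ℓ) J₁) π hmax hradB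
    (H40.chartB ↥(cutOver A E) J_E) (fun z => ⟨hcl z, fun hz => ?_⟩)
    (algebraMap ↥(cutOver A E) ↥(H40.chartB ↥(cutOver A E) J_E) π) rfl
  have hle : Subring.closure
      (Set.range (fun b : ↥(H40.chartB ↥(A0 A ℓ) J₁) =>
          baseChangeE E N (b : ↥(modularFunctionFieldFullC ↥(unrCyclo ℓ) N))) ∪
        Set.range (algebraMap ↥(cutOver A E) ↥(modularFunctionFieldFullC ↥E N))) ≤
      (H40.chartB ↥(cutOver A E) J_E).toSubring := by
    rw [Subring.closure_le]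
    rintro x (⟨b, rfl⟩ | ⟨a, rfl⟩)
    · exact (H95.chartBC (A := A) E N J₁ J_E h b).2
    · exact Subalgebra.algebraMap_mem _ a
  exact hle hz

include hℓ hA h in
/-- The same with the `A₁`-side given by helper83's L0 interface `TwoComponents` (target `R`
reduced of characteristic `ℓ`, e.g. the integral closure of `k[w]` in the function field of the
special fibre). -/
theorem hrad_chartB_cutOver_of_twoComponents
    (π : ↥(cutOver A E)) (hmax : maximalIdeal ↥(cutOver A E) = Ideal.span {π})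
    {R BM : Type*} [CommRing R] [CommRing BM] [IsReduced R] [CharP R ℓ]
    {red₁ red₂ : ↥(H40.chartB ↥(A0 A ℓ) J₁) →+* R} {ι V : BM →+* ↥(H40.chartB ↥(A0 A ℓ) J₁)}
    {rbar : BM →+* R} {W : R →+* R} {q' : ℕ}
    (hTC : H83.TwoComponents red₁ red₂ ι V rbar W q'
      (algebraMap ↥(A0 A ℓ) ↥(H40.chartB ↥(A0 A ℓ) J₁) ((ℓ : ℕ) : ↥(A0 A ℓ))))
    (hcl : ∀ z : ↥(modularFunctionFieldFullC ↥E N), z ∈ H40.chartB ↥(cutOver A E) J_E →
      z ∈ Subring.closure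
        (Set.range (fun b : ↥(H40.chartB ↥(A0 A ℓ) J₁) =>
            baseChangeE E N (b : ↥(modularFunctionFieldFullC ↥(unrCyclo ℓ) N))) ∪
          Set.range (algebraMap ↥(cutOver A E) ↥(modularFunctionFieldFullC ↥E N)))) :
    ∀ b : ↥(H40.chartB ↥(cutOver A E) J_E),
      (∃ n : ℕ, algebraMap ↥(cutOver A E) ↥(H40.chartB ↥(cutOver A E) J_E) π ∣ b ^ n) →
        algebraMap ↥(cutOver A E) ↥(H40.chartB ↥(cutOver A E) J_E) π ∣ b := by
  have hred : ∀ red : ↥(H40.chartB ↥(A0 A ℓ) J₁) →+* R,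
      red (algebraMap ↥(A0 A ℓ) ↥(H40.chartB ↥(A0 A ℓ) J₁) ((ℓ : ℕ) : ↥(A0 A ℓ))) = 0 := by
    intro red
    rw [map_natCast, map_natCast]
    exact CharP.cast_eq_zero R ℓ
  exact hrad_chartB_cutOver hℓ hA E N J₁ J_E h π hmax
    (hrad_of_twoComponents hTC (hred red₁) (hred red₂)) hcl

/-! ### At the pinned coordinate `J = j · j_q` and its inverse -/

variable (q : ℕ) [NeZero q] (hq : q ∣ N)

include hℓ hA in
/-- `hrad₁` of `H61.middle_cutOver`. -/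
theorem hrad_chartB_JK
    (π : ↥(cutOver A E)) (hmax : maximalIdeal ↥(cutOver A E) = Ideal.span {π})
    (hradB : ∀ b : ↥(H40.chartB ↥(A0 A ℓ) (H95.JK ↥(unrCyclo ℓ) N q hq)),
      (∃ n : ℕ, algebraMap ↥(A0 A ℓ) ↥(H40.chartB ↥(A0 A ℓ) (H95.JK ↥(unrCyclo ℓ) N q hq))
          ((ℓ : ℕ) : ↥(A0 A ℓ)) ∣ b ^ n) →
        algebraMap ↥(A0 A ℓ) ↥(H40.chartB ↥(A0 A ℓ) (H95.JK ↥(unrCyclo ℓ) N q hq))
          ((ℓ : ℕ) : ↥(A0 A ℓ)) ∣ b)
    (hcl : ∀ z : ↥(modularFunctionFieldFullC ↥E N),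
      z ∈ H40.chartB ↥(cutOver A E) (H95.JK ↥E N q hq) →
      z ∈ Subring.closure
        (Set.range (fun b : ↥(H40.chartB ↥(A0 A ℓ) (H95.JK ↥(unrCyclo ℓ) N q hq)) =>
            baseChangeE E N (b : ↥(modularFunctionFieldFullC ↥(unrCyclo ℓ) N))) ∪
          Set.range (algebraMap ↥(cutOver A E) ↥(modularFunctionFieldFullC ↥E N)))) :
    ∀ b : ↥(H40.chartB ↥(cutOver A E) (H95.JK ↥E N q hq)),
      (∃ n : ℕ, algebraMap ↥(cutOver A E) ↥(H40.chartB ↥(cutOver A E) (H95.JK ↥E N q hq)) π ∣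
          b ^ n) →
        algebraMap ↥(cutOver A E) ↥(H40.chartB ↥(cutOver A E) (H95.JK ↥E N q hq)) π ∣ b :=
  hrad_chartB_cutOver hℓ hA E N _ _ (H95.baseChangeE_JK E N q hq) π hmax hradB hcl

include hℓ hA in
/-- `hrad₂` of `H61.middle_cutOver`. -/
theorem hrad_chartB_JK_inv
    (π : ↥(cutOver A E)) (hmax : maximalIdeal ↥(cutOver A E) = Ideal.span {π})
    (hradB : ∀ b : ↥(H40.chartB ↥(A0 A ℓ) (H95.JK ↥(unrCyclo ℓ) N q hq)⁻¹),
      (∃ n : ℕ, algebraMap ↥(A0 A ℓ) ↥(H40.chartB ↥(A0 A ℓ) (H95.JK ↥(unrCyclo ℓ) N q hq)⁻¹)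
          ((ℓ : ℕ) : ↥(A0 A ℓ)) ∣ b ^ n) →
        algebraMap ↥(A0 A ℓ) ↥(H40.chartB ↥(A0 A ℓ) (H95.JK ↥(unrCyclo ℓ) N q hq)⁻¹)
          ((ℓ : ℕ) : ↥(A0 A ℓ)) ∣ b)
    (hcl : ∀ z : ↥(modularFunctionFieldFullC ↥E N),
      z ∈ H40.chartB ↥(cutOver A E) (H95.JK ↥E N q hq)⁻¹ →
      z ∈ Subring.closure
        (Set.range (fun b : ↥(H40.chartB ↥(A0 A ℓ) (H95.JK ↥(unrCyclo ℓ) N q hq)⁻¹) =>
            baseChangeE E N (b : ↥(modularFunctionFieldFullC ↥(unrCyclo ℓ) N))) ∪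
          Set.range (algebraMap ↥(cutOver A E) ↥(modularFunctionFieldFullC ↥E N)))) :
    ∀ b : ↥(H40.chartB ↥(cutOver A E) (H95.JK ↥E N q hq)⁻¹),
      (∃ n : ℕ, algebraMap ↥(cutOver A E) ↥(H40.chartB ↥(cutOver A E) (H95.JK ↥E N q hq)⁻¹) π ∣
          b ^ n) →
        algebraMap ↥(cutOver A E) ↥(H40.chartB ↥(cutOver A E) (H95.JK ↥E N q hq)⁻¹) π ∣ b :=
  hrad_chartB_cutOver hℓ hA E N _ _ (H95.baseChangeE_JK_inv E N q hq) π hmax hradB hcl

end Fermat.Agent.S34.H3
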