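import Fermat.Agent.S34.H3_HradInst
import Fermat.Agent.S34.H61_MiddleCutOver
import Fermat.Agent.S34.H3_VertPkgFinal

/-!
# S34: helper61's `H61.middle_cutOver` with the vertical side reduced to its two producers

`middle_cutOver_of_hradB` : `H61.middle_cutOver` with

* `hrad₁ hrad₂` replaced by `hrad` of the two charts over `A₁ = A0 A ℓ` (`hradB₁ hradB₂`, L0)
  and helper40's `(a)'` for the two charts (`hcl₁ hcl₂`, shape of `H95.adjoin_chartBC_eq_top`),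
  through `H3.hrad_chartB_JK / hrad_chartB_JK_inv`;
* `hJ₁ hJ₂` removed (`H3.hJ₁_of_transcendental / hJ₂_of_transcendental`).

`middle_cutOver_of_twoComponents` : the same with `hradB_i` given by helper83's `TwoComponents`.
-/

set_option autoImplicit false
set_option linter.unusedSectionVars false
set_option linter.style.haveILetI false
set_option synthInstance.maxHeartbeats 400000
set_option maxHeartbeats 3200000

noncomputable section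

namespace Fermat.Agent.S34.H3

open ModularCurve HahnSeries IntermediateField IsLocalRing
open Fermat.Agent.S18 Fermat.Agent.S18.H45

local notation "Qbar" => AlgebraicClosure ℚ

variable {A : ValuationSubring Qbar} {ℓ : ℕ} (hℓ : ℓ.Prime) (hA : A.LiesOverPrime ℓ)
variable (E : IntermediateField (unrCyclo ℓ) Qbar) [FiniteDimensional (unrCyclo ℓ) E]
variable (N : ℕ) [NeZero N] (q : ℕ) [NeZero q] (hq : q ∣ N)

include hℓ hA in
/-- **MIDDLE at the concrete types, vertical side = `hrad` over `A₁` + `(a)'`.** -/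
theorem middle_cutOver_of_hradB {p : ℕ} (hp : p.Prime) (hpℓ : p ≠ ℓ)
    (s : modularFunctionFieldFullC ↥E N ≃+* modularFunctionFieldFullC ↥E N)
    (π : cutOver A E) (hmax : maximalIdeal (cutOver A E) = Ideal.span {π})
    (hradB₁ : ∀ b : ↥(H40.chartB ↥(A0 A ℓ) (H95.JK ↥(unrCyclo ℓ) N q hq)),
      (∃ n : ℕ, algebraMap ↥(A0 A ℓ) ↥(H40.chartB ↥(A0 A ℓ) (H95.JK ↥(unrCyclo ℓ) N q hq))
          ((ℓ : ℕ) : ↥(A0 A ℓ)) ∣ b ^ n) →
        algebraMap ↥(A0 A ℓ) ↥(H40.chartB ↥(A0 A ℓ) (H95.JK ↥(unrCyclo ℓ) N q hq))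
          ((ℓ : ℕ) : ↥(A0 A ℓ)) ∣ b)
    (hcl₁ : ∀ z : ↥(modularFunctionFieldFullC ↥E N),
      z ∈ H40.chartB ↥(cutOver A E) (H95.JK ↥E N q hq) →
      z ∈ Subring.closure
        (Set.range (fun b : ↥(H40.chartB ↥(A0 A ℓ) (H95.JK ↥(unrCyclo ℓ) N q hq)) =>
            baseChangeE E N (b : ↥(modularFunctionFieldFullC ↥(unrCyclo ℓ) N))) ∪
          Set.range (algebraMap ↥(cutOver A E) ↥(modularFunctionFieldFullC ↥E N))))
    (hradB₂ : ∀ b : ↥(H40.chartB ↥(A0 A ℓ) (H95.JK ↥(unrCyclo ℓ) N q hq)⁻¹),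
      (∃ n : ℕ, algebraMap ↥(A0 A ℓ) ↥(H40.chartB ↥(A0 A ℓ) (H95.JK ↥(unrCyclo ℓ) N q hq)⁻¹)
          ((ℓ : ℕ) : ↥(A0 A ℓ)) ∣ b ^ n) →
        algebraMap ↥(A0 A ℓ) ↥(H40.chartB ↥(A0 A ℓ) (H95.JK ↥(unrCyclo ℓ) N q hq)⁻¹)
          ((ℓ : ℕ) : ↥(A0 A ℓ)) ∣ b)
    (hcl₂ : ∀ z : ↥(modularFunctionFieldFullC ↥E N),
      z ∈ H40.chartB ↥(cutOver A E) (H95.JK ↥E N q hq)⁻¹ →
      z ∈ Subring.closure
        (Set.range (fun b : ↥(H40.chartB ↥(A0 A ℓ) (H95.JK ↥(unrCyclo ℓ) N q hq)⁻¹) =>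
            baseChangeE E N (b : ↥(modularFunctionFieldFullC ↥(unrCyclo ℓ) N))) ∪
          Set.range (algebraMap ↥(cutOver A E) ↥(modularFunctionFieldFullC ↥E N))))
    (hD₁ : H61.ChartDatum (B := ↥(H40.chartB (cutOver A E) (H95.JK ↥E N q hq))) ↥E π s)
    (hD₂ : H61.ChartDatum (B := ↥(H40.chartB (cutOver A E) (H95.JK ↥E N q hq)⁻¹)) ↥E π s) :
    ∀ (k : ℕ) (f : modularFunctionFieldFullC ↥E N), H61.Admissible ↥E f (p ^ k) →
      ∃ (c : ↥E) (g : modularFunctionFieldFullC ↥E N), c ≠ 0 ∧ g ≠ 0 ∧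
        s (s f / f) / (s f / f) =
          algebraMap ↥E (modularFunctionFieldFullC ↥E N) c * g ^ (p ^ k) := by
  haveI := isDiscreteValuationRing_cutOver hℓ hA E
  haveI := H95.finiteDimensional_JK ↥E N q hq (H99.natCast_ne_zero₀ N ↥E)
  haveI := H95.isSeparable_JK ↥E N q hq
  have hπ : Irreducible π := irreducible_of_maximalIdeal_cutOver_eq hℓ hA E hmax
  exact H61.middle_cutOver hℓ hA E N q hq hp hpℓ s π hmax
    (hrad_chartB_JK hℓ hA E N q hq π hmax hradB₁ hcl₁)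
    (hrad_chartB_JK_inv hℓ hA E N q hq π hmax hradB₂ hcl₂)
    (hJ₁_of_transcendental (R := ↥(cutOver A E)) (K := ↥E) (H95.JK ↥E N q hq)
      (H95.transcendental_JK ↥E N q hq) π hπ)
    (hJ₂_of_transcendental (R := ↥(cutOver A E)) (K := ↥E) (H95.JK ↥E N q hq)
      (H95.transcendental_JK ↥E N q hq) π hπ) hD₁ hD₂

include hℓ hA in
/-- **MIDDLE at the concrete types, vertical side = helper83's `TwoComponents` for the two charts
over `A₁` + `(a)'`.** -/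
theorem middle_cutOver_of_twoComponents {p : ℕ} (hp : p.Prime) (hpℓ : p ≠ ℓ)
    (s : modularFunctionFieldFullC ↥E N ≃+* modularFunctionFieldFullC ↥E N)
    (π : cutOver A E) (hmax : maximalIdeal (cutOver A E) = Ideal.span {π})
    {R₁ BM₁ : Type*} [CommRing R₁] [CommRing BM₁] [IsReduced R₁] [CharP R₁ ℓ]
    {red₁ red₂ : ↥(H40.chartB ↥(A0 A ℓ) (H95.JK ↥(unrCyclo ℓ) N q hq)) →+* R₁}
    {ι V : BM₁ →+* ↥(H40.chartB ↥(A0 A ℓ) (H95.JK ↥(unrCyclo ℓ) N q hq))}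
    {rbar : BM₁ →+* R₁} {W : R₁ →+* R₁} {q₁ : ℕ}
    (hTC₁ : H83.TwoComponents red₁ red₂ ι V rbar W q₁
      (algebraMap ↥(A0 A ℓ) ↥(H40.chartB ↥(A0 A ℓ) (H95.JK ↥(unrCyclo ℓ) N q hq))
        ((ℓ : ℕ) : ↥(A0 A ℓ))))
    (hcl₁ : ∀ z : ↥(modularFunctionFieldFullC ↥E N),
      z ∈ H40.chartB ↥(cutOver A E) (H95.JK ↥E N q hq) →
      z ∈ Subring.closure
        (Set.range (fun b : ↥(H40.chartB ↥(A0 A ℓ) (H95.JK ↥(unrCyclo ℓ) N q hq)) =>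
            baseChangeE E N (b : ↥(modularFunctionFieldFullC ↥(unrCyclo ℓ) N))) ∪
          Set.range (algebraMap ↥(cutOver A E) ↥(modularFunctionFieldFullC ↥E N))))
    {R₂ BM₂ : Type*} [CommRing R₂] [CommRing BM₂] [IsReduced R₂] [CharP R₂ ℓ]
    {red₁' red₂' : ↥(H40.chartB ↥(A0 A ℓ) (H95.JK ↥(unrCyclo ℓ) N q hq)⁻¹) →+* R₂}
    {ι' V' : BM₂ →+* ↥(H40.chartB ↥(A0 A ℓ) (H95.JK ↥(unrCyclo ℓ) N q hq)⁻¹)}
    {rbar' : BM₂ →+* R₂} {W' : R₂ →+* R₂} {q₂ : ℕ}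
    (hTC₂ : H83.TwoComponents red₁' red₂' ι' V' rbar' W' q₂
      (algebraMap ↥(A0 A ℓ) ↥(H40.chartB ↥(A0 A ℓ) (H95.JK ↥(unrCyclo ℓ) N q hq)⁻¹)
        ((ℓ : ℕ) : ↥(A0 A ℓ))))
    (hcl₂ : ∀ z : ↥(modularFunctionFieldFullC ↥E N),
      z ∈ H40.chartB ↥(cutOver A E) (H95.JK ↥E N q hq)⁻¹ →
      z ∈ Subring.closure
        (Set.range (fun b : ↥(H40.chartB ↥(A0 A ℓ) (H95.JK ↥(unrCyclo ℓ) N q hq)⁻¹) =>
            baseChangeE E N (b : ↥(modularFunctionFieldFullC ↥(unrCyclo ℓ) N))) ∪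
          Set.range (algebraMap ↥(cutOver A E) ↥(modularFunctionFieldFullC ↥E N))))
    (hD₁ : H61.ChartDatum (B := ↥(H40.chartB (cutOver A E) (H95.JK ↥E N q hq))) ↥E π s)
    (hD₂ : H61.ChartDatum (B := ↥(H40.chartB (cutOver A E) (H95.JK ↥E N q hq)⁻¹)) ↥E π s) :
    ∀ (k : ℕ) (f : modularFunctionFieldFullC ↥E N), H61.Admissible ↥E f (p ^ k) →
      ∃ (c : ↥E) (g : modularFunctionFieldFullC ↥E N), c ≠ 0 ∧ g ≠ 0 ∧
        s (s f / f) / (s f / f) =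
          algebraMap ↥E (modularFunctionFieldFullC ↥E N) c * g ^ (p ^ k) := by
  have hz₁ : ∀ red : ↥(H40.chartB ↥(A0 A ℓ) (H95.JK ↥(unrCyclo ℓ) N q hq)) →+* R₁,
      red (algebraMap ↥(A0 A ℓ) ↥(H40.chartB ↥(A0 A ℓ) (H95.JK ↥(unrCyclo ℓ) N q hq))
        ((ℓ : ℕ) : ↥(A0 A ℓ))) = 0 := by
    intro red
    rw [map_natCast, map_natCast]
    exact CharP.cast_eq_zero R₁ ℓ
  have hz₂ : ∀ red : ↥(H40.chartB ↥(A0 A ℓ) (H95.JK ↥(unrCyclo ℓ) N q hq)⁻¹) →+* R₂,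
      red (algebraMap ↥(A0 A ℓ) ↥(H40.chartB ↥(A0 A ℓ) (H95.JK ↥(unrCyclo ℓ) N q hq)⁻¹)
        ((ℓ : ℕ) : ↥(A0 A ℓ))) = 0 := by
    intro red
    rw [map_natCast, map_natCast]
    exact CharP.cast_eq_zero R₂ ℓ
  exact middle_cutOver_of_hradB hℓ hA E N q hq hp hpℓ s π hmax
    (hrad_of_twoComponents hTC₁ (hz₁ red₁) (hz₁ red₂)) hcl₁
    (hrad_of_twoComponents hTC₂ (hz₂ red₁') (hz₂ red₂')) hcl₂ hD₁ hD₂

end Fermat.Agent.S34.H3
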