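import Mathlib
import Fermat.Prelude.Def_AlgebraicCurve_DivisorClassGroup
import Fermat.Agent.S18.H33_CechDict
import Fermat.Agent.S34.H56_PrimeVal

/-!
# S34 dictionary (D3-places): places of `F/k` with centre on a chart `B` ↔ height-one primes

`B` a noetherian integrally closed domain with fraction field `F`, `k` a field with `k → F`
(`B` is NOT assumed to be a `k`-algebra: in the application `B` is a chart over the DVR `A''`
and `k = K'' = Frac A''`).

* `placeOfPrime p h1 hk` : the place of a height-one prime `p` with `k ⊆ B_p`;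
  `ord_eq_zero_iff`, `ord_nonneg_iff`, `ord_pos_iff` translate `ord` into `IsUnitAt / MemAt / ∈ p`.
* `centre v hB` : the centre on `B` of a place `v` with `B ⊆ 𝒪_v`; `eq_placeOfPrime` :
  if the centre has height one, `v` is the place of its centre.
-/

set_option autoImplicit false

namespace Fermat.Agent.S34.H3

open Fermat.Agent.S34.H56 Fermat.Agent.CA.H42 Fermat.Agent.S18 AlgebraicCurve

variable {B F : Type*} [CommRing B] [IsDomain B] [Field F] [Algebra B F] [IsFractionRing B F]
variable {k : Type*} [Field k] [Algebra k F]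

/-! ### From primes to places -/

section PrimeToPlace

variable [IsNoetherianRing B] [IsIntegrallyClosed B]

omit [IsNoetherianRing B] [IsIntegrallyClosed B] in
theorem memAt_iff_mem_ofField (p : Ideal B) [p.IsPrime] (x : F) :
    MemAt p x ↔ x ∈ Localization.subalgebra.ofField F p.primeCompl
      p.primeCompl_le_nonZeroDivisors := by
  constructor
  · rintro ⟨a, b, hb, hab⟩
    have hb0 : algebraMap B F b ≠ 0 := fun h => hb (by
      have : b = 0 := IsFractionRing.injective B F (by rw [h, map_zero])
      rw [this]; exact p.zero_mem)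
    exact ⟨a, b, hb, by rw [← hab, mul_inv_cancel_right₀ hb0]⟩
  · rintro ⟨a, b, hb, hx⟩
    have hb0 : algebraMap B F b ≠ 0 := fun h => hb (by
      have : b = 0 := IsFractionRing.injective B F (by rw [h, map_zero])
      rw [this]; exact p.zero_mem)
    exact ⟨a, b, hb, by rw [hx, inv_mul_cancel_right₀ hb0]⟩

theorem isPrincipalIdealRing_valuationSubringAt (p : Ideal B) [p.IsPrime] (h1 : p.height = 1) :
    IsPrincipalIdealRing (valuationSubringAt (K := F) p h1) := by
  set S := Localization.subalgebra.ofField F p.primeCompl p.primeCompl_le_nonZeroDivisors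
    with hS
  have hloc : IsLocalization.AtPrime S p :=
    Localization.subalgebra.isLocalization_ofField F p.primeCompl _
  have hdvr : IsDiscreteValuationRing S := isDiscreteValuationRing_of_height_eq_one p h1 S
  let φ : S →+* valuationSubringAt (K := F) p h1 :=
    (S.val : S →+* F).codRestrict (valuationSubringAt (K := F) p h1).toSubring
      fun s => (memAt_iff_mem_ofField p s.1).2 s.2
  have hφ : Function.Surjective φ := by
    rintro ⟨x, hx⟩
    exact ⟨⟨x, (memAt_iff_mem_ofField p x).1 hx⟩, rfl⟩
  exact IsPrincipalIdealRing.of_surjective φ hφ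

theorem valuationSubringAt_ne_top (p : Ideal B) [p.IsPrime] (h1 : p.height = 1) :
    valuationSubringAt (K := F) p h1 ≠ ⊤ := by
  intro htop
  obtain ⟨b, hbp, hb0⟩ := Submodule.exists_mem_ne_zero_of_ne_bot (Ideal.ne_bot_of_height_eq_one h1)
  have hb0' : algebraMap B F b ≠ 0 := fun h => hb0 (IsFractionRing.injective B F (by
    rw [h, map_zero]))
  have hmem : (algebraMap B F b)⁻¹ ∈ valuationSubringAt (K := F) p h1 := by
    rw [htop]; exact ValuationSubring.mem_top _
  obtain ⟨a, c, hc, hac⟩ := hmem
  apply hc
  have : c = a * b := IsFractionRing.injective B F (by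
    rw [map_mul, ← hac]; field_simp)
  rw [this]
  exact Ideal.mul_mem_left _ _ hbp

/-- The place of a height-one prime `p` of the chart with `k ⊆ B_p`. -/
noncomputable def placeOfPrime (p : Ideal B) [p.IsPrime] (h1 : p.height = 1)
    (hk : ∀ c : k, MemAt p (algebraMap k F c)) : Place k F where
  toValuationSubring := valuationSubringAt p h1
  algebraMap_mem' := hk
  ne_top' := valuationSubringAt_ne_top p h1
  isPrincipalIdealRing' := isPrincipalIdealRing_valuationSubringAt p h1

@[simp]
theorem placeOfPrime_toValuationSubring (p : Ideal B) [p.IsPrime] (h1 : p.height = 1)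
    (hk : ∀ c : k, MemAt p (algebraMap k F c)) :
    (placeOfPrime p h1 hk).toValuationSubring = valuationSubringAt p h1 := rfl

theorem mem_placeOfPrime_iff (p : Ideal B) [p.IsPrime] (h1 : p.height = 1)
    (hk : ∀ c : k, MemAt p (algebraMap k F c)) (x : F) :
    x ∈ (placeOfPrime p h1 hk).toValuationSubring ↔ MemAt p x := Iff.rfl

end PrimeToPlace

/-! ### `ord` of a place in terms of its valuation ring -/

section Ord

omit [IsDomain B] [IsFractionRing B F] in
theorem ord_nonneg_iff_mem (v : Place k F) {x : F} (hx : x ≠ 0) :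
    0 ≤ v.ord x ↔ x ∈ v.toValuationSubring :=
  (H33.mem_place_iff_ord_nonneg v hx).symm

theorem ord_eq_zero_iff_mem_and_inv_mem (v : Place k F) {x : F} (hx : x ≠ 0) :
    v.ord x = 0 ↔ x ∈ v.toValuationSubring ∧ x⁻¹ ∈ v.toValuationSubring := by
  rw [H33.mem_place_iff_ord_nonneg v hx, H33.mem_place_iff_ord_nonneg v (inv_ne_zero hx),
    v.ord_inv]
  constructor
  · intro h; rw [h]; simp
  · rintro ⟨h1, h2⟩; omega

end Ord

section OrdPrime

variable [IsNoetherianRing B] [IsIntegrallyClosed B]
  (p : Ideal B) [p.IsPrime] (h1 : p.height = 1) (hk : ∀ c : k, MemAt p (algebraMap k F c))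

theorem ord_placeOfPrime_nonneg_iff {x : F} (hx : x ≠ 0) :
    0 ≤ (placeOfPrime p h1 hk).ord x ↔ MemAt p x :=
  ord_nonneg_iff_mem _ hx

theorem ord_placeOfPrime_eq_zero_iff {x : F} (hx : x ≠ 0) :
    (placeOfPrime p h1 hk).ord x = 0 ↔ IsUnitAt p x := by
  rw [ord_eq_zero_iff_mem_and_inv_mem _ hx, isUnitAt_iff_memAt]
  constructor
  · rintro ⟨h, h'⟩; exact ⟨hx, h, h'⟩
  · rintro ⟨-, h, h'⟩; exact ⟨h, h'⟩

theorem ord_placeOfPrime_algebraMap_pos_iff {b : B} (hb : b ≠ 0) :
    0 < (placeOfPrime p h1 hk).ord (algebraMap B F b) ↔ b ∈ p := by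
  have hb0 : algebraMap B F b ≠ 0 := fun h => hb (IsFractionRing.injective B F (by
    rw [h, map_zero]))
  have hnn : 0 ≤ (placeOfPrime p h1 hk).ord (algebraMap B F b) :=
    (ord_placeOfPrime_nonneg_iff p h1 hk hb0).2 (memAt_algebraMap p ‹p.IsPrime›.ne_top b)
  constructor
  · intro hpos
    by_contra hbp
    have : (placeOfPrime p h1 hk).ord (algebraMap B F b) = 0 :=
      (ord_placeOfPrime_eq_zero_iff p h1 hk hb0).2 (isUnitAt_algebraMap hbp ‹p.IsPrime›.ne_top)
    omega
  · intro hbp
    rcases hnn.lt_or_eq with h | h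
    · exact h
    · exfalso
      obtain ⟨a, c, ha, hc, hac⟩ := (ord_placeOfPrime_eq_zero_iff p h1 hk hb0).1 h.symm
      have : b * c = a := IsFractionRing.injective B F (by rw [map_mul, hac])
      exact ha (this ▸ Ideal.mul_mem_right _ _ hbp)

end OrdPrime

/-! ### From places to primes: the centre -/

section PlaceToPrime

/-- The centre on `B` of a valuation subring containing `B`. -/
def centre (V : ValuationSubring F) (hB : ∀ b : B, algebraMap B F b ∈ V) : Ideal B where
  carrier := {b | V.valuation (algebraMap B F b) < 1}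
  add_mem' := fun {a b} ha hb => by
    show V.valuation (algebraMap B F (a + b)) < 1
    rw [map_add]
    exact lt_of_le_of_lt (V.valuation.map_add _ _) (max_lt ha hb)
  zero_mem' := by
    show V.valuation (algebraMap B F 0) < 1
    rw [map_zero, map_zero]; exact zero_lt_one
  smul_mem' := fun c b hb => by
    show V.valuation (algebraMap B F (c • b)) < 1
    rw [smul_eq_mul, map_mul, map_mul]
    exact mul_lt_one_of_nonneg_of_lt_one_right ((V.valuation_le_one_iff _).2 (hB c))
      zero_le hb

omit [IsDomain B] [IsFractionRing B F] in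
theorem mem_centre {V : ValuationSubring F} {hB : ∀ b : B, algebraMap B F b ∈ V} {b : B} :
    b ∈ centre V hB ↔ V.valuation (algebraMap B F b) < 1 := Iff.rfl

omit [IsDomain B] [IsFractionRing B F] in
theorem centre_isPrime (V : ValuationSubring F) (hB : ∀ b : B, algebraMap B F b ∈ V) :
    (centre V hB).IsPrime := by
  refine ⟨fun h => ?_, fun {a b} hab => ?_⟩
  · have h1 : (1 : B) ∈ centre V hB := by rw [h]; trivial
    rw [mem_centre, map_one, map_one] at h1
    exact lt_irrefl _ h1
  · rw [mem_centre, map_mul, map_mul] at hab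
    by_contra hcon
    rw [not_or] at hcon
    have ha : V.valuation (algebraMap B F a) = 1 :=
      le_antisymm ((V.valuation_le_one_iff _).2 (hB a)) (not_lt.1 hcon.1)
    have hb : V.valuation (algebraMap B F b) = 1 :=
      le_antisymm ((V.valuation_le_one_iff _).2 (hB b)) (not_lt.1 hcon.2)
    rw [ha, hb, mul_one] at hab
    exact lt_irrefl _ hab

theorem centre_ne_bot (V : ValuationSubring F) (hB : ∀ b : B, algebraMap B F b ∈ V)
    (hV : V ≠ ⊤) : centre V hB ≠ ⊥ := by
  intro hbot
  apply hV
  refine SetLike.ext fun x => ⟨fun _ => ValuationSubring.mem_top x, fun _ => ?_⟩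
  obtain ⟨a, b, hb, rfl⟩ := IsFractionRing.div_surjective (A := B) x
  have hb0 : b ≠ 0 := nonZeroDivisors.ne_zero hb
  have hbu : V.valuation (algebraMap B F b) = 1 := by
    refine le_antisymm ((V.valuation_le_one_iff _).2 (hB b)) (not_lt.1 fun hlt => hb0 ?_)
    have : b ∈ centre V hB := hlt
    rw [hbot] at this
    exact this
  rw [← V.valuation_le_one_iff, map_div₀, hbu, div_one]
  exact (V.valuation_le_one_iff _).2 (hB a)

omit [IsDomain B] [IsFractionRing B F] in
/-- `B_p ⊆ V` for `p` the centre of `V`. -/
theorem mem_of_memAt_centre (V : ValuationSubring F) (hB : ∀ b : B, algebraMap B F b ∈ V)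
    {x : F} (hx : MemAt (centre V hB) x) : x ∈ V := by
  obtain ⟨a, b, hb, hab⟩ := hx
  have hbu : V.valuation (algebraMap B F b) = 1 :=
    le_antisymm ((V.valuation_le_one_iff _).2 (hB b)) (not_lt.1 hb)
  rw [← V.valuation_le_one_iff]
  have : V.valuation x = V.valuation (algebraMap B F a) := by
    rw [← hab, map_mul, hbu, mul_one]
  rw [this]
  exact (V.valuation_le_one_iff _).2 (hB a)

variable [IsNoetherianRing B] [IsIntegrallyClosed B]

/-- If the centre has height one, `V` is the localisation at its centre. -/
theorem eq_valuationSubringAt_centre (V : ValuationSubring F)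
    (hB : ∀ b : B, algebraMap B F b ∈ V)
    (h1 : (centre V hB).height = 1) :
    haveI := centre_isPrime V hB
    V = valuationSubringAt (K := F) (centre V hB) h1 := by
  have := centre_isPrime V hB
  refine SetLike.ext fun x => ⟨fun hx => ?_, fun hx => mem_of_memAt_centre V hB hx⟩
  by_contra hnot
  have hx0 : x ≠ 0 := by
    rintro rfl
    exact hnot (valuationSubringAt (K := F) (centre V hB) h1).zero_mem
  have hinv : MemAt (centre V hB) x⁻¹ :=
    ((valuationSubringAt (K := F) (centre V hB) h1).mem_or_inv_mem x).resolve_left hnot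
  obtain ⟨a, b, hb, hab⟩ := hinv
  -- `a ∈ centre`, otherwise `x ∈ B_p`
  have ha : a ∈ centre V hB := by
    by_contra ha
    apply hnot
    have ha0 : algebraMap B F a ≠ 0 := fun h => ha (by
      have : a = 0 := IsFractionRing.injective B F (by rw [h, map_zero])
      rw [this]; exact (centre V hB).zero_mem)
    refine ⟨b, a, ha, ?_⟩
    rw [← hab, ← mul_assoc, mul_inv_cancel₀ hx0, one_mul]
  have hbu : V.valuation (algebraMap B F b) = 1 :=
    le_antisymm ((V.valuation_le_one_iff _).2 (hB b)) (not_lt.1 hb)
  have hlt : V.valuation x⁻¹ < 1 := by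
    have : V.valuation x⁻¹ = V.valuation (algebraMap B F a) := by
      rw [← hab, map_mul, hbu, mul_one]
    rw [this]; exact ha
  have hle : V.valuation x ≤ 1 := (V.valuation_le_one_iff _).2 hx
  rw [map_inv₀] at hlt
  have hv0 : V.valuation x ≠ 0 := (Valuation.ne_zero_iff _).2 hx0
  have : 1 < V.valuation x := by
    rwa [inv_lt_one₀ (zero_lt_iff.2 hv0)] at hlt
  exact absurd hle (not_le.2 this)

/-- A place with centre of height one on the chart is the place of its centre. -/
theorem eq_placeOfPrime_centre (v : Place k F)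
    (hB : ∀ b : B, algebraMap B F b ∈ v.toValuationSubring)
    (h1 : (centre v.toValuationSubring hB).height = 1) :
    haveI := centre_isPrime v.toValuationSubring hB
    ∃ hk : ∀ c : k, MemAt (centre v.toValuationSubring hB) (algebraMap k F c),
      v = placeOfPrime (centre v.toValuationSubring hB) h1 hk := by
  have := centre_isPrime v.toValuationSubring hB
  have heq := eq_valuationSubringAt_centre v.toValuationSubring hB h1
  have hk : ∀ c : k, MemAt (centre v.toValuationSubring hB) (algebraMap k F c) := fun c => by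
    have := v.algebraMap_mem' c
    rw [heq] at this
    exact this
  exact ⟨hk, Place.ext heq⟩

/-- The centre of `placeOfPrime p` is `p`. -/
theorem centre_placeOfPrime (p : Ideal B) [p.IsPrime] (h1 : p.height = 1)
    (hk : ∀ c : k, MemAt p (algebraMap k F c)) :
    centre (placeOfPrime p h1 hk).toValuationSubring
      (fun b => algebraMap_mem_valuationSubringAt h1 b) = p := by
  ext b
  exact algebraMap_mem_nonunits_iff h1 b

/-- Distinct height-one primes give distinct places. -/
theorem placeOfPrime_injective {p q : Ideal B} [p.IsPrime] [q.IsPrime] (hp : p.height = 1)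
    (hq : q.height = 1) (hkp : ∀ c : k, MemAt p (algebraMap k F c))
    (hkq : ∀ c : k, MemAt q (algebraMap k F c))
    (h : placeOfPrime p hp hkp = placeOfPrime q hq hkq) : p = q := by
  ext b
  rw [← algebraMap_mem_nonunits_iff (K := F) hp b, ← algebraMap_mem_nonunits_iff (K := F) hq b]
  have := congrArg Place.toValuationSubring h
  simp only [placeOfPrime_toValuationSubring] at this
  rw [this]

end PlaceToPrime

end Fermat.Agent.S34.H3
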