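import Fermat.Agent.CA.H69_KummerChart
import Fermat.Agent.CA.H69_KummerTower
import Fermat.Agent.S34.H3_GlueCharts
import Fermat.Agent.S34.H83_NoSplitFinal

/-!
# S34, L6 + L7 wiring: a Kummer cover with everywhere-split special fibre is constant (helper69)

`kummer_descent`: `R` (= `A''`) a noetherian integrally closed domain with fraction field `K`
(= `K''`), `π : R` prime, `F` (= `F''`) a function field over `K` with coordinate `J`, `K`
algebraically closed in `F`, `l` a prime invertible in `R`, `ζ_l ∈ R`.  Let `u : F` be such that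
* `u ≡ 1` modulo `π` at every vertical prime of the two base charts,
* (local datum) for every maximal ideal `n ∋ π` of the chart `B_i` there is `ψ ≠ 0` in `F` with
  `u / ψ ^ l ∈ (B_i)_n` and `ψ ≡ 1` modulo `π` at the vertical primes through `n`.
Then `u = c * g ^ l` with `c : K`, `g : F`.
-/

set_option autoImplicit false

open Polynomial IntermediateField Fermat.Agent.S18 Fermat.Agent.CA.H69

namespace Fermat.Agent.S34.H69

universe v

section Bridge

variable {R : Type*} [CommRing R] {F0 L : Type*} [Field F0] [Field L]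
  [Algebra R F0] [Algebra F0 L] [Algebra R L] [IsScalarTower R F0 L]

theorem adjoin_pair_le_chart12 (j : F0) : Algebra.adjoin R {j, j⁻¹} ≤ H83.chart12 R j := by
  intro x hx
  exact (isIntegral_algebraMap (R := Algebra.adjoin R {j, j⁻¹}) (A := F0) (x := ⟨x, hx⟩))

/-- Integral over the chart ring `chart12` of the base field `↔` in `chart12` of the cover. -/
theorem isIntegral_chart12_iff (j : F0) (x : L) :
    IsIntegral ↥(H83.chart12 R j) x ↔ x ∈ H83.chart12 R (algebraMap F0 L j) := by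
  have hmem : x ∈ H83.chart12 R (algebraMap F0 L j) ↔
      IsIntegral (Algebra.adjoin R {algebraMap F0 L j, (algebraMap F0 L j)⁻¹}) x := Iff.rfl
  rw [hmem]
  have hmap : (Algebra.adjoin R {j, j⁻¹}).map (IsScalarTower.toAlgHom R F0 L) =
      Algebra.adjoin R {algebraMap F0 L j, (algebraMap F0 L j)⁻¹} := by
    rw [AlgHom.map_adjoin, Set.image_pair, ← map_inv₀]
    rfl
  rw [← H3.isIntegral_congr_subalgebra hmap, H3.isIntegral_map_iff]
  constructor
  · intro h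
    exact H3.isIntegral_of_isIntegral_of_le (adjoin_pair_le_chart12 j) (fun s hs => hs) h
  · intro h
    exact H3.isIntegral_of_le (adjoin_pair_le_chart12 j) h

end Bridge

section Chart12Instances

variable {R : Type*} [CommRing R] {K : Type*} [Field K] [Algebra R K]
  {F : Type*} [Field F] [Algebra R F] [Algebra K F] [IsScalarTower R K F]

theorem isFractionRing_chart12 [IsDomain R] [IsFractionRing R K] (j : F)
    [FiniteDimensional K⟮j⟯ F] : IsFractionRing ↥(H83.chart12 R j) F := by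
  have := H3.isFractionRing_chartB (R := R) (K := K) j
  have hfs : FaithfulSMul ↥(H83.chart12 R j) F :=
    (faithfulSMul_iff_algebraMap_injective _ _).2 (fun a b hab => Subtype.ext hab)
  refine IsFractionRing.of_field _ F fun z => ?_
  obtain ⟨x, y, _, h⟩ := IsFractionRing.div_surjective (A := ↥(H40.chartB R j)) z
  refine ⟨⟨x.1, H83.chartB_le_chart12 (R := R) j x.2⟩, ⟨y.1, H83.chartB_le_chart12 (R := R) j y.2⟩, ?_⟩
  rw [← h]
  rfl

theorem isIntegrallyClosed_chart12 [IsDomain R] [IsFractionRing R K] (j : F)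
    [FiniteDimensional K⟮j⟯ F] : IsIntegrallyClosed ↥(H83.chart12 R j) := by
  have := isFractionRing_chart12 (R := R) (K := K) j
  rw [isIntegrallyClosed_iff F]
  intro x hx
  have hx' : IsIntegral ↥(Algebra.adjoin R {j, j⁻¹}) x :=
    H3.isIntegral_of_isIntegral_of_le (L := F) (adjoin_pair_le_chart12 j) (fun s hs => hs) hx
  exact ⟨⟨x, hx'⟩, rfl⟩

end Chart12Instances

theorem kummer_descent
    {R : Type*} [CommRing R] [IsDomain R] [IsNoetherianRing R] [IsIntegrallyClosed R]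
    {K : Type*} [Field K] [Algebra R K] [IsFractionRing R K]
    {F : Type v} [Field F] [Algebra R F] [Algebra K F] [IsScalarTower R K F]
    (J : F) (htr : Transcendental K J) [FiniteDimensional K⟮J⟯ F] [Algebra.IsSeparable K⟮J⟯ F]
    (hcl : ∀ z : F, IsAlgebraic K z → z ∈ (algebraMap K F).range)
    (π : R) (hπ : Prime π)
    {l : ℕ} (hl : l.Prime) {rl w : R} (hrl : algebraMap R F rl * (l : F) = 1)
    (hw : IsPrimitiveRoot (algebraMap R F w) l)
    {ι₁ ι₂ ι₁₂ : Type*} [Finite ι₁] [Finite ι₂] [Nonempty ι₁]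
    (P₁ : ι₁ → Ideal ↥(H40.chartB R J)) (P₂ : ι₂ → Ideal ↥(H40.chartB R J⁻¹))
    (P₁₂ : ι₁₂ → Ideal ↥(H83.chart12 R J))
    (hP₁ : ∀ i, (P₁ i).IsPrime) (hP₂ : ∀ i, (P₂ i).IsPrime) (hP₁₂ : ∀ k, (P₁₂ k).IsPrime)
    (hπP₁ : ∀ i, algebraMap R ↥(H40.chartB R J) π ∈ P₁ i)
    (hπP₂ : ∀ i, algebraMap R ↥(H40.chartB R J⁻¹) π ∈ P₂ i)
    (hcomp₁ : ∀ k, ∃ i, ∀ s : ↥(H40.chartB R J), s ∉ P₁ i →
      Subalgebra.inclusion (H83.chartB_le_chart12 (R := R) J) s ∉ P₁₂ k)
    (hcomp₂ : ∀ k, ∃ i, ∀ s : ↥(H40.chartB R J⁻¹), s ∉ P₂ i →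
      Subalgebra.inclusion (H83.chartB_inv_le_chart12 (R := R) J) s ∉ P₁₂ k)
    (hred₁ : ∀ i, ∀ b ∈ P₁ i, ∃ s, s ∉ P₁ i ∧ algebraMap R ↥(H40.chartB R J) π ∣ s * b)
    (hred₂ : ∀ i, ∀ b ∈ P₂ i, ∃ s, s ∉ P₂ i ∧ algebraMap R ↥(H40.chartB R J⁻¹) π ∣ s * b)
    (hsat₁ : ∀ b : ↥(H40.chartB R J),
      (∀ i, ∃ s, s ∉ P₁ i ∧ algebraMap R ↥(H40.chartB R J) π ∣ s * b) →
      algebraMap R ↥(H40.chartB R J) π ∣ b)
    (hsat₂ : ∀ b : ↥(H40.chartB R J⁻¹),
      (∀ i, ∃ s, s ∉ P₂ i ∧ algebraMap R ↥(H40.chartB R J⁻¹) π ∣ s * b) →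
      algebraMap R ↥(H40.chartB R J⁻¹) π ∣ b)
    (hsat₁₂ : ∀ b : ↥(H83.chart12 R J),
      (∀ k, ∃ s, s ∉ P₁₂ k ∧ algebraMap R ↥(H83.chart12 R J) π ∣ s * b) →
      algebraMap R ↥(H83.chart12 R J) π ∣ b)
    (u : F)
    (hu₁ : ∀ i, InPiB (K := F) (algebraMap R ↥(H40.chartB R J) π) (P₁ i) (u - 1))
    (hu₂ : ∀ i, InPiB (K := F) (algebraMap R ↥(H40.chartB R J⁻¹) π) (P₂ i) (u - 1))
    (hloc₁ : ∀ n : Ideal ↥(H40.chartB R J), n.IsMaximal →
      algebraMap R ↥(H40.chartB R J) π ∈ n → ∃ ψ : F, ψ ≠ 0 ∧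
        (∃ a s : ↥(H40.chartB R J), s ∉ n ∧
          u * algebraMap ↥(H40.chartB R J) F s = ψ ^ l * algebraMap ↥(H40.chartB R J) F a) ∧
        ∀ i, P₁ i ≤ n → InPiB (K := F) (algebraMap R ↥(H40.chartB R J) π) (P₁ i) (ψ - 1))
    (hloc₂ : ∀ n : Ideal ↥(H40.chartB R J⁻¹), n.IsMaximal →
      algebraMap R ↥(H40.chartB R J⁻¹) π ∈ n → ∃ ψ : F, ψ ≠ 0 ∧
        (∃ a s : ↥(H40.chartB R J⁻¹), s ∉ n ∧
          u * algebraMap ↥(H40.chartB R J⁻¹) F s = ψ ^ l * algebraMap ↥(H40.chartB R J⁻¹) F a) ∧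
        ∀ i, P₂ i ≤ n → InPiB (K := F) (algebraMap R ↥(H40.chartB R J⁻¹) π) (P₂ i) (ψ - 1)) :
    ∃ (c : K) (g : F), u = algebraMap K F c * g ^ l := by
  by_contra hne
  push Not at hne
  have hu0 : u ≠ 0 := fun h0 => hne 0 0 (by rw [h0, map_zero, zero_mul])
  have hpow : ∀ b : F, b ^ l ≠ u := fun b hb => hne 1 b (by rw [map_one, one_mul, hb])
  have hl0 : (l : F) ≠ 0 := right_ne_zero_of_mul_eq_one hrl
  obtain ⟨L, _, _, pb, hdim, hgen⟩ := exists_cover hl hpow
  -- algebra structures on the cover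
  let _ : Algebra R L := ((algebraMap F L).comp (algebraMap R F)).toAlgebra
  let _ : Algebra K L := ((algebraMap F L).comp (algebraMap K F)).toAlgebra
  have : IsScalarTower R F L := IsScalarTower.of_algebraMap_eq fun _ => rfl
  have : IsScalarTower K F L := IsScalarTower.of_algebraMap_eq fun _ => rfl
  have : IsScalarTower R K L := IsScalarTower.of_algebraMap_eq fun r => by
    change algebraMap F L (algebraMap R F r) = algebraMap F L (algebraMap K F (algebraMap R K r))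
    rw [← IsScalarTower.algebraMap_apply R K F]
  have : FiniteDimensional F L := pb.finite
  have : Algebra.IsSeparable F L := isSeparable_of_kummer pb hdim hgen hl0 hu0
  have : FiniteDimensional K⟮algebraMap F L J⟯ L := finiteDimensional_adjoin_map J
  have : Algebra.IsSeparable K⟮algebraMap F L J⟯ L := isSeparable_adjoin_map J
  have htr' : Transcendental K (algebraMap F L J) := transcendental_algebraMap J htr
  have hconst : ∀ z : L, IsIntegral R z → ∃ r : R, algebraMap R L r = z :=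
    exists_algebraMap_eq_of_isIntegral pb hdim hgen (K₀ := K) (A := R) hl hl0 hw hcl hne
  -- the base charts
  have hfdinv : FiniteDimensional K⟮J⁻¹⟯ F := by
    have e : K⟮J⁻¹⟯ = K⟮J⟯ := by
      apply le_antisymm
      · rw [IntermediateField.adjoin_simple_le_iff]
        exact inv_mem (IntermediateField.mem_adjoin_simple_self K J)
      · rw [IntermediateField.adjoin_simple_le_iff]
        have := inv_mem (IntermediateField.mem_adjoin_simple_self K J⁻¹)
        rwa [inv_inv] at this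
    rw [e]
    infer_instance
  have := H3.isFractionRing_chartB (R := R) (K := K) J
  have := H3.isIntegrallyClosed_chartB (R := R) (K := K) J
  have := H3.isFractionRing_chartB (R := R) (K := K) J⁻¹
  have := H3.isIntegrallyClosed_chartB (R := R) (K := K) J⁻¹
  have := isFractionRing_chart12 (R := R) (K := K) J
  have := isIntegrallyClosed_chart12 (R := R) (K := K) J
  have hπF : algebraMap R F π ≠ 0 := by
    rw [IsScalarTower.algebraMap_apply R K F]
    intro h0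
    have h1 : algebraMap R K π = 0 := (algebraMap K F).injective (by rw [h0, map_zero])
    exact hπ.ne_zero ((IsFractionRing.injective R K) (by rw [h1, map_zero]))
  have hrl₁ : algebraMap ↥(H40.chartB R J) F (algebraMap R ↥(H40.chartB R J) rl) * (l : F) = 1 := by
    rw [← IsScalarTower.algebraMap_apply R ↥(H40.chartB R J) F]; exact hrl
  have hrl₂ : algebraMap ↥(H40.chartB R J⁻¹) F (algebraMap R ↥(H40.chartB R J⁻¹) rl) * (l : F)
      = 1 := by
    rw [← IsScalarTower.algebraMap_apply R ↥(H40.chartB R J⁻¹) F]; exact hrl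
  have hw₁ : IsPrimitiveRoot
      (algebraMap ↥(H40.chartB R J) F (algebraMap R ↥(H40.chartB R J) w)) l := by
    rw [← IsScalarTower.algebraMap_apply R ↥(H40.chartB R J) F]; exact hw
  obtain ⟨i₀⟩ := ‹Nonempty ι₁›
  obtain ⟨e₁, e₂, he₁, he₂, ⟨a₁, ha₁, hi₁⟩, ⟨a₂, ha₂, hi₂⟩, ⟨y, hy, h₁₂⟩, hn, hn'⟩ :=
    H3.two_chart_idempotents (L := L) π (H40.chartB R J) (H40.chartB R J⁻¹) (H83.chart12 R J)
      (H83.chartB_le_chart12 (R := R) J) (H83.chartB_inv_le_chart12 (R := R) J) hπF P₁ P₂ P₁₂ hP₁ hP₂ hP₁₂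
      hπP₁ hπP₂ hcomp₁ hcomp₂ hred₁ hred₂ hsat₁ hsat₂ hsat₁₂ (gGen pb l)
      (fun n hn hπn => by
        have := hn.isPrime
        obtain ⟨ψ, hψ, hε, hψ1⟩ := hloc₁ n hn hπn
        refine ⟨eLoc pb l ψ, eLoc_inLocC pb hdim hgen hrl₁ n hψ hε, fun i hi => ?_⟩
        have := hP₁ i
        exact eLoc_sub_gGen_inPiC pb hdim hgen hrl₁ (P₁ i) (hπP₁ i) (hu₁ i) (hψ1 i hi))
      (fun n hn hπn => by
        have := hn.isPrime
        obtain ⟨ψ, hψ, hε, hψ1⟩ := hloc₂ n hn hπn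
        refine ⟨eLoc pb l ψ, eLoc_inLocC pb hdim hgen hrl₂ n hψ hε, fun i hi => ?_⟩
        have := hP₂ i
        exact eLoc_sub_gGen_inPiC pb hdim hgen hrl₂ (P₂ i) (hπP₂ i) (hu₂ i) (hψ1 i hi))
      (fun i => by
        have := hP₁ i
        exact gGen_sq_sub_inPiC pb hdim hgen hrl₁ (P₁ i) (hπP₁ i) (hu₁ i))
      (fun i => by
        have := hP₂ i
        exact gGen_sq_sub_inPiC pb hdim hgen hrl₂ (P₂ i) (hπP₂ i) (hu₂ i))
      ⟨i₀, by
        have := hP₁ i₀
        exact not_inPiC_gGen pb hdim hgen hrl₁ hw₁ (P₁ i₀) (hπP₁ i₀) (hu₁ i₀)⟩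
      ⟨i₀, by
        have := hP₁ i₀
        exact not_inPiC_gGen_sub_one pb hdim hgen hrl₁ hw₁ (P₁ i₀) (hπP₁ i₀) hl.one_lt (hu₁ i₀)⟩
  -- bridge to the chart rings of the cover and conclude with STEP 5
  have h₁ : e₁ ∈ H40.chartB R (algebraMap F L J) := (H3.isIntegral_chartB_iff J e₁).mp he₁
  have h₂ : e₂ ∈ H40.chartB R (algebraMap F L J)⁻¹ := by
    rw [← map_inv₀]
    exact (H3.isIntegral_chartB_iff J⁻¹ e₂).mp he₂
  have hi₁' : ∃ a ∈ H40.chartB R (algebraMap F L J), e₁ ^ 2 - e₁ = π • a :=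
    ⟨a₁, (H3.isIntegral_chartB_iff J a₁).mp ha₁, hi₁⟩
  have hi₂' : ∃ a ∈ H40.chartB R (algebraMap F L J)⁻¹, e₂ ^ 2 - e₂ = π • a := by
    refine ⟨a₂, ?_, hi₂⟩
    rw [← map_inv₀]
    exact (H3.isIntegral_chartB_iff J⁻¹ a₂).mp ha₂
  have h₁₂' : ∃ y ∈ H83.chart12 R (algebraMap F L J), e₁ - e₂ = π • y :=
    ⟨y, (isIntegral_chart12_iff J y).mp hy, h₁₂⟩
  rcases H83.no_split_special_fibre' (algebraMap F L J) htr' π hπ hconst h₁ h₂ hi₁' hi₂' h₁₂'
    with ⟨a, ha, h⟩ | ⟨a, ha, h⟩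
  · exact hn ⟨a, (H3.isIntegral_chartB_iff J a).mpr ha, h⟩
  · exact hn' ⟨a, (H3.isIntegral_chartB_iff J a).mpr ha, h⟩

end Fermat.Agent.S34.H69
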