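import Fermat.Agent.S34.H3_VerticalPrimes
import Fermat.Agent.S34.H69_KummerDescent

/-!
# S34 seam: `kummer_descent` with the canonical vertical families

For the two charts `B₁ = chartB R J`, `B₂ = chartB R J⁻¹` and the overlap `B₁₂ = chart12 R J`
the families of *all* minimal primes over `π` satisfy every "vertical" hypothesis of
`S34.H69.kummer_descent` as soon as the two special fibres `B_i/π` are reduced:

* `isLocalization_chart12`, `isLocalization_chart12_inv` : `B₁₂ = B₁[1/J] = B₂[1/J⁻¹]`;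
* `not_isUnit_algebraMap_chartB` : `π` is not a unit of the chart;
* `isNoetherianRing_chartB'` : the chart is noetherian;
* `kummer_descent_of_reduced` : `kummer_descent` with `P₁ P₂ P₁₂ hP hπP hcomp hred hsat`
  replaced by the two hypotheses `hrad₁`, `hrad₂` (reducedness of the special fibres).
-/

set_option autoImplicit false

open Polynomial IntermediateField Fermat.Agent.S18 Fermat.Agent.CA.H69

namespace Fermat.Agent.S34.H3

universe v

section Chart12

variable {R : Type*} [CommRing R] {F : Type*} [Field F] [Algebra R F]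

theorem self_mem_chart12 (j : F) : j ∈ H83.chart12 R j :=
  H83.chartB_le_chart12 j (H40.self_mem_chartB j)

theorem inv_mem_chart12 (j : F) : j⁻¹ ∈ H83.chart12 R j :=
  H83.chartB_inv_le_chart12 j (H40.self_mem_chartB j⁻¹)

theorem chart12_inv (j : F) : H83.chart12 R j⁻¹ = H83.chart12 R j := by
  have h : ({j⁻¹, j⁻¹⁻¹} : Set F) = {j, j⁻¹} := by rw [inv_inv, Set.pair_comm]
  have h1 : Algebra.adjoin R ({j⁻¹, j⁻¹⁻¹} : Set F) = Algebra.adjoin R {j, j⁻¹} := by rw [h]
  ext x
  rw [H83.mem_chart12, H83.mem_chart12]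
  exact ⟨H83.isIntegral_of_le h1.le, H83.isIntegral_of_le h1.ge⟩

/-- The algebra structure of the overlap over the first chart. -/
@[reducible] def chart12Algebra (j : F) : Algebra ↥(H40.chartB R j) ↥(H83.chart12 R j) :=
  (Subalgebra.inclusion (H83.chartB_le_chart12 (R := R) j)).toRingHom.toAlgebra

/-- The algebra structure of the overlap over the second chart. -/
@[reducible] def chart12AlgebraInv (j : F) : Algebra ↥(H40.chartB R j⁻¹) ↥(H83.chart12 R j) :=
  (Subalgebra.inclusion (H83.chartB_inv_le_chart12 (R := R) j)).toRingHom.toAlgebra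

/-- Abstract criterion: a subalgebra `C ⊇ B` of a field with `u ∈ B`, `u⁻¹ ∈ C` and
`∀ z ∈ C, ∃ n, u ^ n * z ∈ B` is the localisation of `B` away from `u`. -/
theorem isLocalization_away_of_subalgebra {B C : Subalgebra R F} (hBC : B ≤ C) (u : F)
    (hu0 : u ≠ 0) (hu : u ∈ B) (hinv : u⁻¹ ∈ C) (hloc : ∀ z ∈ C, ∃ n : ℕ, u ^ n * z ∈ B) :
    @IsLocalization.Away ↥B _ ⟨u, hu⟩ ↥C _ (Subalgebra.inclusion hBC).toRingHom.toAlgebra := by
  let _ : Algebra ↥B ↥C := (Subalgebra.inclusion hBC).toRingHom.toAlgebra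
  have hcoe : ∀ x : ↥B, ((algebraMap ↥B ↥C x : ↥C) : F) = (x : F) := fun _ => rfl
  have hinj : Function.Injective (algebraMap ↥B ↥C) := fun x y h =>
    Subtype.ext (by rw [← hcoe x, ← hcoe y, h])
  rw [IsLocalization.Away, isLocalization_iff]
  refine ⟨?_, ?_, ?_⟩
  · rintro ⟨_, n, rfl⟩
    refine IsUnit.of_mul_eq_one ((⟨u⁻¹, hinv⟩ : ↥C) ^ n) ?_
    apply Subtype.ext
    rw [Subalgebra.coe_mul, hcoe, Subalgebra.coe_pow, Subalgebra.coe_pow, Subalgebra.coe_one,
      ← mul_pow, mul_inv_cancel₀ hu0, one_pow]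
  · intro z
    obtain ⟨n, hn⟩ := hloc z.1 z.2
    refine ⟨⟨⟨u ^ n * z.1, hn⟩, ⟨(⟨u, hu⟩ : ↥B) ^ n, n, rfl⟩⟩, ?_⟩
    apply Subtype.ext
    rw [Subalgebra.coe_mul, hcoe, hcoe, Subalgebra.coe_pow, mul_comm]
  · intro x y h
    exact ⟨1, by rw [hinj h]⟩

/-- `B₁₂ = B₁[1/j]`. -/
theorem isLocalization_chart12 (j : F) (hj : j ≠ 0) :
    @IsLocalization.Away ↥(H40.chartB R j) _ ⟨j, H40.self_mem_chartB j⟩ ↥(H83.chart12 R j) _
      (chart12Algebra (R := R) j) :=
  isLocalization_away_of_subalgebra (H83.chartB_le_chart12 (R := R) j) j hj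
    (H40.self_mem_chartB j) (inv_mem_chart12 j) (fun _ hz => H83.chart12_hloc j hj hz)

/-- `B₁₂ = B₂[1/j⁻¹]`. -/
theorem isLocalization_chart12_inv (j : F) (hj : j ≠ 0) :
    @IsLocalization.Away ↥(H40.chartB R j⁻¹) _ ⟨j⁻¹, H40.self_mem_chartB j⁻¹⟩
      ↥(H83.chart12 R j) _ (chart12AlgebraInv (R := R) j) :=
  isLocalization_away_of_subalgebra (H83.chartB_inv_le_chart12 (R := R) j) j⁻¹ (inv_ne_zero hj)
    (H40.self_mem_chartB j⁻¹) (by rw [inv_inv]; exact self_mem_chart12 j)
    (fun z hz => H83.chart12_hloc j⁻¹ (inv_ne_zero hj) (by rw [chart12_inv]; exact hz))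

end Chart12

section Away

variable {R : Type*} [CommRing R] {F : Type*} [Field F] [Algebra R F]

/-- `hcomp`: a vertical prime of a localisation `C = B[1/u]` contracts to a vertical prime. -/
theorem exists_vert_comap_of_away {B C : Subalgebra R F} (hBC : B ≤ C) (u : ↥B)
    (hloc : @IsLocalization.Away ↥B _ u ↥C _ (Subalgebra.inclusion hBC).toRingHom.toAlgebra)
    (π : R) (k : Vert (algebraMap R ↥C π)) :
    ∃ i : Vert (algebraMap R ↥B π), ∀ s : ↥B, s ∉ (i : Ideal ↥B) →
      Subalgebra.inclusion hBC s ∉ (k : Ideal ↥C) := by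
  let _ : Algebra ↥B ↥C := (Subalgebra.inclusion hBC).toRingHom.toAlgebra
  have hπ : algebraMap ↥B ↥C (algebraMap R ↥B π) = algebraMap R ↥C π :=
    (Subalgebra.inclusion hBC).commutes π
  obtain ⟨P, hP⟩ := k
  have hP' : P ∈ (Ideal.span {algebraMap ↥B ↥C (algebraMap R ↥B π)} : Ideal ↥C).minimalPrimes := by
    rw [hπ]; exact hP
  have hloc' : IsLocalization (Submonoid.powers u) ↥C := hloc
  exact ⟨⟨_, under_mem_vert (Submonoid.powers u) ⟨P, hP'⟩⟩, fun s hs h => hs h⟩

/-- Reducedness of the special fibre passes from `B` to `C = B[1/u]`. -/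
theorem hrad_of_away {B C : Subalgebra R F} (hBC : B ≤ C) (u : ↥B)
    (hloc : @IsLocalization.Away ↥B _ u ↥C _ (Subalgebra.inclusion hBC).toRingHom.toAlgebra)
    (π : R)
    (hrad : ∀ b : ↥B, (∃ n : ℕ, algebraMap R ↥B π ∣ b ^ n) → algebraMap R ↥B π ∣ b) :
    ∀ c : ↥C, (∃ n : ℕ, algebraMap R ↥C π ∣ c ^ n) → algebraMap R ↥C π ∣ c := by
  let _ : Algebra ↥B ↥C := (Subalgebra.inclusion hBC).toRingHom.toAlgebra
  have hπ : algebraMap ↥B ↥C (algebraMap R ↥B π) = algebraMap R ↥C π :=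
    (Subalgebra.inclusion hBC).commutes π
  have hloc' : IsLocalization (Submonoid.powers u) ↥C := hloc
  have := hrad_of_isLocalization (B' := ↥C) (Submonoid.powers u) hrad
  rw [hπ] at this
  exact this

end Away

section Descent

variable {R : Type*} [CommRing R] [IsDomain R] [IsNoetherianRing R] [IsIntegrallyClosed R]
  {K : Type*} [Field K] [Algebra R K] [IsFractionRing R K]
  {F : Type v} [Field F] [Algebra R F] [Algebra K F] [IsScalarTower R K F]

omit [IsDomain R] [IsNoetherianRing R] [IsIntegrallyClosed R] in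
/-- A prime of `R` is not a unit of the chart. -/
theorem not_isUnit_algebraMap_chartB (J : F) (htr : Transcendental K J) (π : R) (hπ : Prime π) :
    ¬ IsUnit (algebraMap R ↥(H40.chartB R J) π) := by
  intro hu
  obtain ⟨v, hv⟩ := hu.exists_right_inv
  have h1 : algebraMap R F 1 = π • (v : F) := by
    have := congrArg (fun x : ↥(H40.chartB R J) => (x : F)) hv
    simp only [Subalgebra.coe_mul, Subalgebra.coe_algebraMap, Subalgebra.coe_one] at this
    rw [map_one, Algebra.smul_def, this]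
  obtain ⟨s, hs⟩ := H83.hinj_of_prime J (H40.transcendental_of_tower J htr) π hπ 1
    ⟨(v : F), v.2, h1⟩
  exact hπ.not_isUnit (IsUnit.of_mul_eq_one s hs.symm)

/-- The chart is a noetherian ring. -/
theorem isNoetherianRing_chartB' (J : F) (htr : Transcendental K J) [FiniteDimensional K⟮J⟯ F]
    [Algebra.IsSeparable K⟮J⟯ F] : IsNoetherianRing ↥(H40.chartB R J) := by
  have hfin := H40.module_finite_integralClosure_adjoin (R := R) (K := K) J htr
  have h1 : IsNoetherianRing ↥(Algebra.adjoin R {J}) :=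
    isNoetherianRing_of_fg ⟨{J}, by rw [Finset.coe_singleton]⟩
  exact IsNoetherianRing.of_finite ↥(Algebra.adjoin R {J})
    ↥(integralClosure ↥(Algebra.adjoin R {J}) F)

/-- **`kummer_descent` with the canonical vertical families.**  The vertical hypotheses
`P₁ P₂ P₁₂ hP hπP hcomp hred hsat` of `S34.H69.kummer_descent` are replaced by the reducedness
of the two special fibres `chartB R J^{±1} / π`; the vertical primes are *all* minimal primes
over `π` (`Vert`). -/
theorem kummer_descent_of_reduced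
    (J : F) (htr : Transcendental K J) [FiniteDimensional K⟮J⟯ F] [Algebra.IsSeparable K⟮J⟯ F]
    (hcl : ∀ z : F, IsAlgebraic K z → z ∈ (algebraMap K F).range)
    (π : R) (hπ : Prime π)
    {l : ℕ} (hl : l.Prime) {rl w : R} (hrl : algebraMap R F rl * (l : F) = 1)
    (hw : IsPrimitiveRoot (algebraMap R F w) l)
    (hrad₁ : ∀ b : ↥(H40.chartB R J),
      (∃ n : ℕ, algebraMap R ↥(H40.chartB R J) π ∣ b ^ n) →
        algebraMap R ↥(H40.chartB R J) π ∣ b)
    (hrad₂ : ∀ b : ↥(H40.chartB R J⁻¹),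
      (∃ n : ℕ, algebraMap R ↥(H40.chartB R J⁻¹) π ∣ b ^ n) →
        algebraMap R ↥(H40.chartB R J⁻¹) π ∣ b)
    (u : F)
    (hu₁ : ∀ P : Vert (algebraMap R ↥(H40.chartB R J) π),
      InPiB (K := F) (algebraMap R ↥(H40.chartB R J) π) (P : Ideal ↥(H40.chartB R J)) (u - 1))
    (hu₂ : ∀ P : Vert (algebraMap R ↥(H40.chartB R J⁻¹) π),
      InPiB (K := F) (algebraMap R ↥(H40.chartB R J⁻¹) π) (P : Ideal ↥(H40.chartB R J⁻¹))
        (u - 1))
    (hloc₁ : ∀ n : Ideal ↥(H40.chartB R J), n.IsMaximal →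
      algebraMap R ↥(H40.chartB R J) π ∈ n → ∃ ψ : F, ψ ≠ 0 ∧
        (∃ a s : ↥(H40.chartB R J), s ∉ n ∧
          u * algebraMap ↥(H40.chartB R J) F s = ψ ^ l * algebraMap ↥(H40.chartB R J) F a) ∧
        ∀ P : Vert (algebraMap R ↥(H40.chartB R J) π), (P : Ideal ↥(H40.chartB R J)) ≤ n →
          InPiB (K := F) (algebraMap R ↥(H40.chartB R J) π) (P : Ideal ↥(H40.chartB R J))
            (ψ - 1))
    (hloc₂ : ∀ n : Ideal ↥(H40.chartB R J⁻¹), n.IsMaximal →
      algebraMap R ↥(H40.chartB R J⁻¹) π ∈ n → ∃ ψ : F, ψ ≠ 0 ∧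
        (∃ a s : ↥(H40.chartB R J⁻¹), s ∉ n ∧
          u * algebraMap ↥(H40.chartB R J⁻¹) F s =
            ψ ^ l * algebraMap ↥(H40.chartB R J⁻¹) F a) ∧
        ∀ P : Vert (algebraMap R ↥(H40.chartB R J⁻¹) π),
          (P : Ideal ↥(H40.chartB R J⁻¹)) ≤ n →
          InPiB (K := F) (algebraMap R ↥(H40.chartB R J⁻¹) π)
            (P : Ideal ↥(H40.chartB R J⁻¹)) (ψ - 1)) :
    ∃ (c : K) (g : F), u = algebraMap K F c * g ^ l := by
  have hJ0 : J ≠ 0 := fun h => htr (h ▸ isAlgebraic_zero)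
  have htr' : Transcendental K J⁻¹ := fun h => htr (by simpa using h.inv)
  have e : K⟮J⁻¹⟯ = K⟮J⟯ := by
    apply le_antisymm
    · rw [IntermediateField.adjoin_simple_le_iff]
      exact inv_mem (IntermediateField.mem_adjoin_simple_self K J)
    · rw [IntermediateField.adjoin_simple_le_iff]
      have := inv_mem (IntermediateField.mem_adjoin_simple_self K J⁻¹)
      rwa [inv_inv] at this
  have hfdinv : FiniteDimensional K⟮J⁻¹⟯ F := by rw [e]; infer_instance
  have hsepinv : Algebra.IsSeparable K⟮J⁻¹⟯ F := by rw [e]; infer_instance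
  have hN₁ := isNoetherianRing_chartB' (R := R) (K := K) J htr
  have hN₂ := isNoetherianRing_chartB' (R := R) (K := K) J⁻¹ htr'
  have hne : Nonempty (Vert (algebraMap R ↥(H40.chartB R J) π)) :=
    Vert.nonempty (not_isUnit_algebraMap_chartB J htr π hπ)
  have hloc12 := isLocalization_chart12 (R := R) J hJ0
  have hloc12' := isLocalization_chart12_inv (R := R) J hJ0
  have hrad₁₂ := hrad_of_away (H83.chartB_le_chart12 (R := R) J) _ hloc12 π hrad₁
  exact H69.kummer_descent J htr hcl π hπ hl hrl hw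
    (ι₁ := Vert (algebraMap R ↥(H40.chartB R J) π))
    (ι₂ := Vert (algebraMap R ↥(H40.chartB R J⁻¹) π))
    (ι₁₂ := Vert (algebraMap R ↥(H83.chart12 R J) π))
    (fun P => (P : Ideal ↥(H40.chartB R J))) (fun P => (P : Ideal ↥(H40.chartB R J⁻¹)))
    (fun P => (P : Ideal ↥(H83.chart12 R J)))
    (fun P => P.isPrime) (fun P => P.isPrime) (fun P => P.isPrime)
    (fun P => P.mem) (fun P => P.mem)
    (fun k => exists_vert_comap_of_away (H83.chartB_le_chart12 (R := R) J) _ hloc12 π k)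
    (fun k => exists_vert_comap_of_away (H83.chartB_inv_le_chart12 (R := R) J) _ hloc12' π k)
    (vert_hred hrad₁) (vert_hred hrad₂) (vert_hsat hrad₁) (vert_hsat hrad₂) (vert_hsat hrad₁₂)
    u hu₁ hu₂ hloc₁ hloc₂

end Descent

end Fermat.Agent.S34.H3
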