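import Mathlib

/-!
# S34 seam (L0 / (R-a)) → (L6)/(L8): the vertical primes of a chart with reduced special fibre

`B` a noetherian ring, `π ∈ B` with `B/πB` reduced (`hrad : ∀ b, (∃ n, π ∣ b ^ n) → π ∣ b`).
The *vertical primes* are the minimal primes over `(π)`; for this canonical (finite) family the
hypotheses `hred`, `hsat` of `S34.H3.exists_chart_idempotent` / `S34.H69.kummer_descent` hold,
every prime through `π` contains a vertical prime, and the family is compatible with
localisation (`hcomp`).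

* `hsat_of_iInf_le`, `hred_of_iInf_le` : family form (`⨅ Q i ≤ (π)`, pairwise incomparable).
* `Vert π` : the type of minimal primes over `(π)`; `Vert.finite`, `Vert.nonempty`.
* `hrad_of_isReduced` : `IsReduced (B ⧸ (π)) → hrad`.
* `vert_hsat`, `vert_hred`, `exists_vert_le`.
* `hrad_of_isLocalization`, `under_mem_vert` : passage to a localisation.
-/

set_option autoImplicit false

namespace Fermat.Agent.S34.H3

section Family

variable {B : Type*} [CommRing B] {ι : Type*} (Q : ι → Ideal B) (hQ : ∀ i, (Q i).IsPrime)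
  (π : B)

include hQ in
/-- `(SAT_B)` from `⨅ Q i ≤ (π)`. -/
theorem hsat_of_iInf_le (hinf : ∀ b : B, (∀ i, b ∈ Q i) → π ∣ b) (hπQ : ∀ i, π ∈ Q i) :
    ∀ b : B, (∀ i, ∃ s, s ∉ Q i ∧ π ∣ s * b) → π ∣ b := by
  intro b hb
  apply hinf
  intro i
  obtain ⟨s, hs, hd⟩ := hb i
  have h1 : s * b ∈ Q i := by
    obtain ⟨c, hc⟩ := hd
    rw [hc]; exact Ideal.mul_mem_right _ _ (hπQ i)
  exact ((hQ i).mem_or_mem h1).resolve_left hs

include hQ in
/-- `(hred)` from `⨅ Q i ≤ (π)` and incomparability. -/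
theorem hred_of_iInf_le [Finite ι] (hinf : ∀ b : B, (∀ i, b ∈ Q i) → π ∣ b)
    (hinc : ∀ i j, Q j ≤ Q i → j = i) :
    ∀ i, ∀ b ∈ Q i, ∃ s, s ∉ Q i ∧ π ∣ s * b := by
  classical
  cases nonempty_fintype ι
  intro i b hb
  have hex : ∀ j, ∃ t : B, t ∉ Q i ∧ (j ≠ i → t ∈ Q j) := by
    intro j
    by_cases hji : j = i
    · exact ⟨1, fun h => (hQ i).ne_top ((Ideal.eq_top_iff_one _).2 h), fun h => (h hji).elim⟩
    · have : ¬ Q j ≤ Q i := fun h => hji (hinc i j h)
      obtain ⟨t, htj, hti⟩ := Set.not_subset.1 this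
      exact ⟨t, hti, fun _ => htj⟩
  choose t hti htj using hex
  refine ⟨∏ j, t j, ?_, ?_⟩
  · have := hQ i
    rw [Ideal.IsPrime.prod_mem_iff]
    rintro ⟨j, -, hj⟩
    exact hti j hj
  · apply hinf
    intro j
    by_cases hji : j = i
    · subst hji
      exact Ideal.mul_mem_left _ _ hb
    · apply Ideal.mul_mem_right
      rw [← Finset.prod_erase_mul _ _ (Finset.mem_univ j)]
      exact Ideal.mul_mem_left _ _ (htj j hji)

end Family

section Vert

variable {B : Type*} [CommRing B] (π : B)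

/-- The vertical primes of `B`: the minimal primes over `(π)`. -/
abbrev Vert : Type _ := ↥(Ideal.span {π} : Ideal B).minimalPrimes

variable {π}

theorem Vert.isPrime (P : Vert π) : (P : Ideal B).IsPrime := P.2.1.1

theorem Vert.mem (P : Vert π) : π ∈ (P : Ideal B) :=
  P.2.1.2 (Ideal.mem_span_singleton_self π)

theorem Vert.eq_of_le {P Q : Vert π} (h : (Q : Ideal B) ≤ P) : Q = P :=
  Subtype.ext (le_antisymm h (P.2.2 Q.2.1 h))

instance Vert.finite [IsNoetherianRing B] : Finite (Vert π) :=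
  (Ideal.finite_minimalPrimes_of_isNoetherianRing B (Ideal.span {π})).to_subtype

/-- Every prime through `π` contains a vertical prime. -/
theorem exists_vert_le (n : Ideal B) [n.IsPrime] (hπn : π ∈ n) :
    ∃ P : Vert π, (P : Ideal B) ≤ n := by
  obtain ⟨P, hP, hle⟩ := Ideal.exists_minimalPrimes_le
    (I := Ideal.span {π}) (J := n) ((Ideal.span_singleton_le_iff_mem n).2 hπn)
  exact ⟨⟨P, hP⟩, hle⟩

theorem Vert.nonempty (hπ : ¬ IsUnit π) : Nonempty (Vert π) := by
  obtain ⟨m, hm, hle⟩ := Ideal.exists_le_maximal (Ideal.span {π})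
    (by rwa [Ne, Ideal.span_singleton_eq_top])
  have := hm.isPrime
  obtain ⟨P, -⟩ := exists_vert_le m ((Ideal.span_singleton_le_iff_mem m).1 hle)
  exact ⟨P⟩

/-- Every vertical prime lies under a maximal ideal (through `π`). -/
theorem Vert.exists_le_maximal (P : Vert π) :
    ∃ n : Ideal B, n.IsMaximal ∧ π ∈ n ∧ (P : Ideal B) ≤ n := by
  obtain ⟨n, hn, hle⟩ := Ideal.exists_le_maximal (P : Ideal B) P.isPrime.ne_top
  exact ⟨n, hn, hle P.mem, hle⟩

/-- An element lying in all vertical primes has a power divisible by `π`. -/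
theorem exists_pow_dvd_of_forall_mem_vert {b : B} (hb : ∀ P : Vert π, b ∈ (P : Ideal B)) :
    ∃ n : ℕ, π ∣ b ^ n := by
  have h1 : b ∈ (Ideal.span {π} : Ideal B).radical := by
    rw [← Ideal.sInf_minimalPrimes, Ideal.mem_sInf]
    intro P hP
    exact hb ⟨P, hP⟩
  obtain ⟨n, hn⟩ := h1
  exact ⟨n, Ideal.mem_span_singleton.1 hn⟩

/-- `B/πB` reduced, as a divisibility statement. -/
theorem hrad_of_isReduced [IsReduced (B ⧸ Ideal.span {π})] :
    ∀ b : B, (∃ n : ℕ, π ∣ b ^ n) → π ∣ b := by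
  rintro b ⟨n, hn⟩
  have h1 : IsNilpotent (Ideal.Quotient.mk (Ideal.span {π}) b) :=
    ⟨n, by rw [← map_pow, Ideal.Quotient.eq_zero_iff_mem, Ideal.mem_span_singleton]; exact hn⟩
  have h2 := h1.eq_zero
  rwa [Ideal.Quotient.eq_zero_iff_mem, Ideal.mem_span_singleton] at h2

theorem isReduced_of_hrad (hrad : ∀ b : B, (∃ n : ℕ, π ∣ b ^ n) → π ∣ b) :
    IsReduced (B ⧸ Ideal.span {π}) := by
  refine ⟨fun x hx => ?_⟩
  obtain ⟨b, rfl⟩ := Ideal.Quotient.mk_surjective x
  obtain ⟨n, hn⟩ := hx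
  rw [← map_pow, Ideal.Quotient.eq_zero_iff_mem, Ideal.mem_span_singleton] at hn
  rw [Ideal.Quotient.eq_zero_iff_mem, Ideal.mem_span_singleton]
  exact hrad b ⟨n, hn⟩

variable (hrad : ∀ b : B, (∃ n : ℕ, π ∣ b ^ n) → π ∣ b)

include hrad in
/-- `⨅ P = (π)` over the vertical primes. -/
theorem dvd_of_forall_mem_vert {b : B} (hb : ∀ P : Vert π, b ∈ (P : Ideal B)) : π ∣ b :=
  hrad b (exists_pow_dvd_of_forall_mem_vert hb)

include hrad in
/-- `(SAT)` for the canonical family of vertical primes. -/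
theorem vert_hsat :
    ∀ b : B, (∀ P : Vert π, ∃ s, s ∉ (P : Ideal B) ∧ π ∣ s * b) → π ∣ b :=
  hsat_of_iInf_le (fun P : Vert π => (P : Ideal B)) Vert.isPrime π
    (fun _ hb => dvd_of_forall_mem_vert hrad hb) Vert.mem

include hrad in
/-- `(hred)` for the canonical family of vertical primes: `P B_P = π B_P`. -/
theorem vert_hred [IsNoetherianRing B] :
    ∀ P : Vert π, ∀ b ∈ (P : Ideal B), ∃ s, s ∉ (P : Ideal B) ∧ π ∣ s * b :=
  hred_of_iInf_le (fun P : Vert π => (P : Ideal B)) Vert.isPrime π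
    (fun _ hb => dvd_of_forall_mem_vert hrad hb) (fun _ _ h => Vert.eq_of_le h)

end Vert

section Localization

variable {B B' : Type*} [CommRing B] [CommRing B'] [Algebra B B'] (S : Submonoid B)
  [IsLocalization S B'] {π : B}

include S in
/-- Reducedness of the special fibre passes to a localisation. -/
theorem hrad_of_isLocalization (hrad : ∀ b : B, (∃ n : ℕ, π ∣ b ^ n) → π ∣ b) :
    ∀ b' : B', (∃ n : ℕ, algebraMap B B' π ∣ b' ^ n) → algebraMap B B' π ∣ b' := by
  rintro b' ⟨n, c', hc'⟩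
  obtain ⟨⟨b, s⟩, hbs⟩ := IsLocalization.surj S b'
  obtain ⟨⟨c, t⟩, hct⟩ := IsLocalization.surj S c'
  simp only at hbs hct
  -- `b^n t = π c s^n` in `B'`
  have h1 : algebraMap B B' (b ^ n * t) = algebraMap B B' (π * c * s ^ n) := by
    rw [map_mul, map_pow, ← hbs, map_mul, map_mul, ← hct, map_pow, mul_pow, hc']
    ring
  obtain ⟨u, hu⟩ := (IsLocalization.eq_iff_exists S B').1 h1
  -- `(u t b)^n ∈ (π)` (for `n ≥ 1`; `n = 0` is harmless)
  have h2 : π ∣ ((u : B) * t * b) ^ (n + 1) := by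
    have : ((u : B) * t * b) ^ (n + 1) =
        ((u : B) * (b ^ n * t)) * ((u : B) ^ n * (t : B) ^ n * b) := by ring
    rw [this, hu]
    exact ⟨c * s ^ n * ((u : B) ^ n * (t : B) ^ n * b) * u, by ring⟩
  obtain ⟨d, hd⟩ := hrad _ ⟨n + 1, h2⟩
  have hunit : IsUnit (algebraMap B B' ((u : B) * t * s)) := by
    rw [map_mul, map_mul]
    exact ((IsLocalization.map_units B' u).mul (IsLocalization.map_units B' t)).mul
      (IsLocalization.map_units B' s)
  have h3 : algebraMap B B' ((u : B) * t * s) * b' = algebraMap B B' π * algebraMap B B' d := by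
    rw [← map_mul, ← hd, map_mul, map_mul, map_mul, map_mul, ← hbs]; ring
  obtain ⟨v, hv⟩ := hunit
  refine ⟨((v⁻¹ : B'ˣ) : B') * algebraMap B B' d, ?_⟩
  rw [← mul_assoc, mul_comm (algebraMap B B' π), mul_assoc, ← h3, ← hv, ← mul_assoc,
    Units.inv_mul, one_mul]

include S in
/-- The contraction of a vertical prime of a localisation is a vertical prime (`hcomp`). -/
theorem under_mem_vert (P' : Vert (algebraMap B B' π)) :
    (P' : Ideal B').comap (algebraMap B B') ∈ (Ideal.span {π} : Ideal B).minimalPrimes := by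
  obtain ⟨P, h⟩ := P'
  have h2 : (Ideal.span {algebraMap B B' π} : Ideal B') =
      (Ideal.span {π} : Ideal B).map (algebraMap B B') := by
    rw [Ideal.map_span, Set.image_singleton]
  rw [h2, IsLocalization.minimalPrimes_map S] at h
  exact h

end Localization

end Fermat.Agent.S34.H3
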