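/-
helper41: S34, L1 (LOCGEN) without a Frobenius LIFT.

helper83's abstract `H83.locGen` takes a ring endomorphism `s : BM →+* BM` lifting the coefficient
Frobenius (`hs : rbar (s ψ) = ρ.symm (rbar ψ)`).  Only the *values* `s ψ` are ever used, never the
ring-hom property, and `rbar` is surjective: so no lift is needed at all.  This file re-proves the
transversality lemma and `locGen` with the hypotheses `s`, `hs` removed (everything else verbatim),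
so that the instance does not have to construct a Frobenius automorphism of `unrCyclo q` / `A0 A q`
acting on the level-`M` chart.
-/
import Mathlib
import Fermat.Agent.S34.H83_LocGen

set_option autoImplicit false

namespace Fermat.Agent.S34.H41

open Fermat.Agent.S34

section Transversal

variable {B R BM : Type*} [CommRing B] [CommRing R] [CommRing BM]
  {red₁ red₂ : B →+* R} {ι V : BM →+* B} {rbar : BM →+* R} {ρ : R ≃+* R} {q : ℕ}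

/-- **Transversality, no Frobenius lift.**  At a point `n` lying on both components there is an
element of `ker red₁` restricting to a uniformiser of the second component at `n`. -/
theorem exists_mem_ker_uniformizer
    (h1ι : ∀ ψ, red₁ (ι ψ) = rbar ψ) (h1V : ∀ ψ, red₁ (V ψ) = ρ (rbar ψ) ^ q)
    (h2ι : ∀ ψ, red₂ (ι ψ) = ρ (rbar ψ) ^ q) (h2V : ∀ ψ, red₂ (V ψ) = rbar ψ)
    (hrbar : Function.Surjective rbar) (hq : 2 ≤ q)
    (n : Ideal B) (𝔞 𝔟 : Ideal R) (h𝔞 : 𝔞.IsPrime) (h𝔟 : 𝔟.IsPrime)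
    (hn₁ : ∀ z : B, z ∈ n ↔ red₁ z ∈ 𝔞) (hn₂ : ∀ z : B, z ∈ n ↔ red₂ z ∈ 𝔟)
    {θ : R} (hθ : θ ∈ 𝔟) (hθ2 : θ ∉ 𝔟 ^ 2) :
    ∃ x : B, red₁ x = 0 ∧ red₂ x ∈ 𝔟 ∧ red₂ x ∉ 𝔟 ^ 2 := by
  have hA : ∀ θ' : R, θ' ∈ 𝔞 → ρ θ' ∈ 𝔟 := by
    intro θ' h
    obtain ⟨ψ', rfl⟩ := hrbar θ'
    have h1 : ι ψ' ∈ n := (hn₁ _).2 (by rw [h1ι]; exact h)
    have h2 := (hn₂ _).1 h1
    rw [h2ι] at h2
    exact h𝔟.mem_of_pow_mem _ h2
  have hB : ∀ θ' : R, θ' ∈ 𝔟 → ρ θ' ∈ 𝔞 := by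
    intro θ' h
    obtain ⟨ψ', rfl⟩ := hrbar θ'
    have h1 : V ψ' ∈ n := (hn₂ _).2 (by rw [h2V]; exact h)
    have h2 := (hn₁ _).1 h1
    rw [h1V] at h2
    exact h𝔞.mem_of_pow_mem _ h2
  obtain ⟨ψ, hψ⟩ := hrbar (ρ θ)
  obtain ⟨ψ', hψ'⟩ := hrbar θ
  have hr1 : red₁ (ι ψ ^ q - V ψ') = 0 := by
    rw [map_sub, map_pow, h1ι, h1V, hψ, hψ', sub_self]
  have hr2 : red₂ (ι ψ ^ q - V ψ') = ρ (ρ θ) ^ (q * q) - θ := by
    rw [map_sub, map_pow, h2ι, h2V, hψ, hψ', ← pow_mul]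
  refine ⟨ι ψ ^ q - V ψ', hr1, ?_, ?_⟩
  · rw [hr2]
    exact sub_mem (Ideal.pow_mem_of_mem _ (hA _ (hB _ hθ)) _ (by positivity)) hθ
  · rw [hr2]
    intro hmem
    apply hθ2
    have h1 : ρ (ρ θ) ^ (q * q) ∈ 𝔟 ^ 2 := by
      have h2 : ρ (ρ θ) ^ 2 ∈ 𝔟 ^ 2 := Ideal.pow_mem_pow (hA _ (hB _ hθ)) 2
      have h4 : 2 ≤ q * q := by nlinarith
      have h3 : q * q = 2 + (q * q - 2) := by omega
      rw [h3, pow_add]
      exact Ideal.mul_mem_right _ _ h2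
    have := sub_mem h1 hmem
    simpa using this

end Transversal

section Assembly

variable {B R BM : Type*} [CommRing B] [CommRing R] [IsDedekindDomain R] [CommRing BM]
  {red₁ red₂ : B →+* R} {ι V : BM →+* B} {rbar : BM →+* R} {ρ : R ≃+* R}
  {q : ℕ} {qB : B}

/-- **L1 (LOCGEN), abstract, without a Frobenius lift.**  Same statement as `H83.locGen`
with the hypotheses `s`, `hs` removed. -/
theorem locGen
    (h1ι : ∀ ψ, red₁ (ι ψ) = rbar ψ) (h1V : ∀ ψ, red₁ (V ψ) = ρ (rbar ψ) ^ q)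
    (h2ι : ∀ ψ, red₂ (ι ψ) = ρ (rbar ψ) ^ q) (h2V : ∀ ψ, red₂ (V ψ) = rbar ψ)
    (hrbar : Function.Surjective rbar) (hq : 2 ≤ q)
    (hred₁ : Function.Surjective red₁) (hred₂ : Function.Surjective red₂)
    (hinf : ∀ z : B, red₁ z = 0 → red₂ z = 0 → z ∈ Ideal.span {qB})
    (hR : ¬ IsField R)
    (n : Ideal B) (hn : n.IsMaximal) (hqn : qB ∈ n) :
    (∃ τ ∈ n, ∀ z ∈ n, ∃ t : B, t ∉ n ∧ t * z ∈ Ideal.span {qB, τ}) ∨
    (∃ x y : B, red₁ x = 0 ∧ red₂ y = 0 ∧ x ∈ n ∧ y ∈ n ∧ x * y ∈ Ideal.span {qB} ∧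
      ∀ z ∈ n, ∃ t : B, t ∉ n ∧ t * z ∈ Ideal.span {qB, x, y}) := by
  classical
  have hnprime : n.IsPrime := hn.isPrime
  have hmax : ∀ (red : B →+* R), Function.Surjective red → (∀ z : B, red z = 0 → z ∈ n) →
      (Ideal.map red n).IsMaximal ∧ Ideal.map red n ≠ ⊥ := by
    intro red hred hker
    have h1 : (Ideal.map red n).IsMaximal := by
      rcases Ideal.map_eq_top_or_isMaximal_of_surjective red hred hn with h | h
      · exfalso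
        have : (1 : B) ∈ n := (H83.mem_iff_map_mem hred n hker 1).2 (by rw [h]; trivial)
        exact hnprime.ne_top ((Ideal.eq_top_iff_one n).2 this)
      · exact h
    exact ⟨h1, Ring.ne_bot_of_isMaximal_of_not_isField h1 hR⟩
  by_cases hk₁ : ∀ z : B, red₁ z = 0 → z ∈ n
  · obtain ⟨hm₁, h0₁⟩ := hmax red₁ hred₁ hk₁
    have hn₁ := H83.mem_iff_map_mem hred₁ n hk₁
    by_cases hk₂ : ∀ z : B, red₂ z = 0 → z ∈ n
    · obtain ⟨hm₂, h0₂⟩ := hmax red₂ hred₂ hk₂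
      have hn₂ := H83.mem_iff_map_mem hred₂ n hk₂
      obtain ⟨θ₂, hθ₂, hθ₂'⟩ := H83.exists_mem_not_mem_sq hm₂.isPrime h0₂
      obtain ⟨θ₁, hθ₁, hθ₁'⟩ := H83.exists_mem_not_mem_sq hm₁.isPrime h0₁
      obtain ⟨x, hx₁, hx₂, hx₂'⟩ := exists_mem_ker_uniformizer (red₁ := red₁) (red₂ := red₂)
        h1ι h1V h2ι h2V hrbar hq n _ _ hm₁.isPrime hm₂.isPrime hn₁ hn₂ hθ₂ hθ₂'
      obtain ⟨y, hy₂, hy₁, hy₁'⟩ := exists_mem_ker_uniformizer (red₁ := red₂) (red₂ := red₁)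
        (ι := V) (V := ι) h2V h2ι h1V h1ι hrbar hq n _ _ hm₂.isPrime hm₁.isPrime hn₂ hn₁
        hθ₁ hθ₁'
      obtain ⟨hxy, hxn, hyn, hgen⟩ := H83.locGen_node hred₁ hred₂ hinf n _ _ hm₁.isPrime
        hm₂.isPrime hn₁ hn₂ hx₁ hx₂ hx₂' hy₂ hy₁ hy₁'
      exact Or.inr ⟨x, y, hx₁, hy₂, hxn, hyn, hxy, hgen⟩
    · push Not at hk₂
      obtain ⟨p₂, hp₂0, hp₂n⟩ := hk₂
      exact Or.inl (H83.locGen_smooth hred₁ hinf n _ hm₁.isPrime h0₁ hn₁ ⟨p₂, hp₂0, hp₂n⟩)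
  · push Not at hk₁
    obtain ⟨p₁, hp₁0, hp₁n⟩ := hk₁
    have hk₂ : ∀ z : B, red₂ z = 0 → z ∈ n := by
      intro z hz
      have h1 : p₁ * z ∈ Ideal.span {qB} :=
        hinf _ (by rw [map_mul, hp₁0, zero_mul]) (by rw [map_mul, hz, mul_zero])
      have h2 : p₁ * z ∈ n := (Ideal.span_singleton_le_iff_mem n).2 hqn h1
      rcases hnprime.mem_or_mem h2 with h | h
      · exact absurd h hp₁n
      · exact h
    obtain ⟨hm₂, h0₂⟩ := hmax red₂ hred₂ hk₂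
    have hn₂ := H83.mem_iff_map_mem hred₂ n hk₂
    have hinf' : ∀ z : B, red₂ z = 0 → red₁ z = 0 → z ∈ Ideal.span {qB} :=
      fun z h2 h1 => hinf z h1 h2
    exact Or.inl (H83.locGen_smooth hred₂ hinf' n _ hm₂.isPrime h0₂ hn₂ ⟨p₁, hp₁0, hp₁n⟩)

end Assembly

end Fermat.Agent.S34.H41
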