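/-
S34, row (R-a3b)(c), twin (helper42, at helper47's request): the inertia action on the chart
`B'' = chartB A'' (bc J)` over `A'' = cutOver A E`, congruent to the identity modulo `π''`,
ASSUMING (a)' (`B''` is the ring generated by the image of `B = chartB A₁ J` and `A''`).

* `exists_ringEquiv_of_eq_closure` (Mathlib only): the generic statement, directly on
  `Subring.closure (G ∪ range (algebraMap A₂ FE))` (no local instances needed);
* `exists_inertiaAct_chartB` : the concrete statement in helper40's announced shape.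
-/
import Mathlib
import Fermat.Agent.S18.H45_CutOverField
import Fermat.Agent.S18.H40_CechFG

set_option autoImplicit false
set_option linter.unusedSectionVars false
set_option linter.style.haveILetI false

namespace Fermat.Agent.S34.H42

section Generic

variable {A₂ FE : Type*} [CommRing A₂] [CommRing FE] [Algebra A₂ FE]

/-- Key induction: on the subring generated by a set `G` of `σE`-fixed elements and the image of
`A₂` (on which `σE` acts through `σ₂ ≡ id mod π`), `σE` preserves the subring and is congruent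
to the identity modulo `π`. -/
theorem map_mem_closure_and_exists (G : Set FE) (σE : FE →+* FE) (σ₂ : A₂ →+* A₂) (π : A₂)
    (hG : ∀ g ∈ G, σE g = g)
    (hA : ∀ a : A₂, σE (algebraMap A₂ FE a) = algebraMap A₂ FE (σ₂ a))
    (hπ : ∀ a : A₂, π ∣ σ₂ a - a) {z : FE}
    (hz : z ∈ Subring.closure (G ∪ Set.range (algebraMap A₂ FE))) :
    σE z ∈ Subring.closure (G ∪ Set.range (algebraMap A₂ FE)) ∧
      ∃ r' ∈ Subring.closure (G ∪ Set.range (algebraMap A₂ FE)),
        σE z - z = algebraMap A₂ FE π * r' := by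
  set T := Subring.closure (G ∪ Set.range (algebraMap A₂ FE)) with hT
  have hAT : ∀ a : A₂, algebraMap A₂ FE a ∈ T := fun a =>
    Subring.subset_closure (Or.inr ⟨a, rfl⟩)
  induction hz using Subring.closure_induction with
  | mem x hx =>
    rcases hx with hx | ⟨a, rfl⟩
    · refine ⟨by rw [hG x hx]; exact Subring.subset_closure (Or.inl hx), 0, T.zero_mem, ?_⟩
      rw [hG x hx, sub_self, mul_zero]
    · obtain ⟨c, hc⟩ := hπ a
      refine ⟨by rw [hA]; exact hAT _, algebraMap A₂ FE c, hAT c, ?_⟩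
      rw [hA, ← map_sub, hc, map_mul]
  | zero => exact ⟨by rw [map_zero]; exact T.zero_mem, 0, T.zero_mem, by simp⟩
  | one => exact ⟨by rw [map_one]; exact T.one_mem, 0, T.zero_mem, by simp⟩
  | add x y hx hy ihx ihy =>
    obtain ⟨hx1, rx, hrx, hx2⟩ := ihx
    obtain ⟨hy1, ry, hry, hy2⟩ := ihy
    refine ⟨by rw [map_add]; exact T.add_mem hx1 hy1, rx + ry, T.add_mem hrx hry, ?_⟩
    rw [map_add, mul_add, ← hx2, ← hy2]; ring
  | neg x hx ihx =>
    obtain ⟨hx1, rx, hrx, hx2⟩ := ihx
    refine ⟨by rw [map_neg]; exact T.neg_mem hx1, -rx, T.neg_mem hrx, ?_⟩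
    rw [map_neg, mul_neg, ← hx2]; ring
  | mul x y hx hy ihx ihy =>
    obtain ⟨hx1, rx, hrx, hx2⟩ := ihx
    obtain ⟨hy1, ry, hry, hy2⟩ := ihy
    refine ⟨by rw [map_mul]; exact T.mul_mem hx1 hy1, rx * σE y + x * ry,
      T.add_mem (T.mul_mem hrx hy1) (T.mul_mem hx hry), ?_⟩
    have : σE (x * y) - x * y = (σE x - x) * σE y + x * (σE y - y) := by rw [map_mul]; ring
    rw [this, hx2, hy2]; ring

/-- **The induced automorphism of a subalgebra `S` of `FE` with the same elements as the subring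
generated by `G` and `A₂`**, together with `σ x ≡ x (mod π)`. -/
theorem exists_ringEquiv_of_eq_closure (S : Subalgebra A₂ FE) (G : Set FE)
    (hS : ∀ z : FE, z ∈ S ↔ z ∈ Subring.closure (G ∪ Set.range (algebraMap A₂ FE)))
    (σE : FE ≃+* FE) (σ₂ : A₂ ≃+* A₂) (π : A₂)
    (hG : ∀ g ∈ G, σE g = g)
    (hA : ∀ a : A₂, σE (algebraMap A₂ FE a) = algebraMap A₂ FE (σ₂ a))
    (hπ : ∀ a : A₂, π ∣ σ₂ a - a) :
    ∃ sS : S ≃+* S, (∀ x : S, σE (x : FE) = (sS x : FE)) ∧
      ∀ x : S, sS x - x ∈ Ideal.span {algebraMap A₂ S π} := by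
  have hG' : ∀ g ∈ G, σE.symm g = g := fun g hg => by
    rw [RingEquiv.symm_apply_eq, hG g hg]
  have hA' : ∀ a : A₂, σE.symm (algebraMap A₂ FE a) = algebraMap A₂ FE (σ₂.symm a) := fun a => by
    rw [RingEquiv.symm_apply_eq, hA, RingEquiv.apply_symm_apply]
  have hπ' : ∀ a : A₂, π ∣ σ₂.symm a - a := fun a => by
    obtain ⟨c, hc⟩ := hπ (σ₂.symm a)
    rw [RingEquiv.apply_symm_apply] at hc
    exact ⟨-c, by rw [mul_neg, ← hc]; ring⟩
  have hmem : ∀ x : FE, x ∈ S → σE x ∈ S := fun x hx =>
    (hS _).mpr (map_mem_closure_and_exists G (σE : FE →+* FE) (σ₂ : A₂ →+* A₂) π hG hA hπ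
      ((hS _).mp hx)).1
  have hmem' : ∀ x : FE, x ∈ S → σE.symm x ∈ S := fun x hx =>
    (hS _).mpr (map_mem_closure_and_exists G (σE.symm : FE →+* FE) (σ₂.symm : A₂ →+* A₂) π
      hG' hA' hπ' ((hS _).mp hx)).1
  let sS : S ≃+* S :=
    { toFun := fun x => ⟨σE x, hmem x x.2⟩
      invFun := fun x => ⟨σE.symm x, hmem' x x.2⟩
      left_inv := fun x => Subtype.ext (σE.symm_apply_apply x)
      right_inv := fun x => Subtype.ext (σE.apply_symm_apply x)
      map_mul' := fun x y => Subtype.ext (map_mul σE (x : FE) y)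
      map_add' := fun x y => Subtype.ext (map_add σE (x : FE) y) }
  refine ⟨sS, fun x => rfl, fun x => ?_⟩
  obtain ⟨-, r', hr', hrr⟩ := map_mem_closure_and_exists G (σE : FE →+* FE) (σ₂ : A₂ →+* A₂) π
    hG hA hπ ((hS _).mp x.2)
  rw [Ideal.mem_span_singleton]
  refine ⟨⟨r', (hS _).mpr hr'⟩, ?_⟩
  apply Subtype.ext
  simp only [Subalgebra.coe_sub, Subalgebra.coe_mul, Subalgebra.coe_algebraMap]
  exact hrr

end Generic

section Concrete

open IsLocalRing ModularCurve Fermat.Agent.S18

local notation "Qbar" => AlgebraicClosure ℚ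

set_option synthInstance.maxHeartbeats 400000
set_option maxHeartbeats 1600000

variable {A : ValuationSubring Qbar} {ℓ : ℕ} (hℓ : ℓ.Prime) (hA : A.LiesOverPrime ℓ)
variable (E : IntermediateField (H45.unrCyclo ℓ) Qbar) [Normal (H45.unrCyclo ℓ) E]
variable (N : ℕ) [NeZero N]

/-- **(R-a3b)(c) at the concrete types, assuming (a)'.**  `J : F1 = fullC K1 N` any coordinate,
`J_E : F_E = fullC ↥E N` any coordinate (`bc = H45.baseChangeE E N`; in practice `J_E = bc J`, or
`J = H95.JK K1 ..`, `J_E = H95.JK ↥E ..`, or their inverses; no relation between `J` and `J_E` is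
needed beyond `ha'`).  If the chart
`B'' = chartB A'' J_E` (`A'' = cutOver A E`) is the ring generated by `bc (chartB A₁ J)` and `A''`
(hypothesis `ha'` = helper40's `mem_chartB_cutOver_iff`), then the coefficientwise inertia action
`H45.inertiaActFullC` restricts to a ring automorphism `sS` of `B''` with
`sS x ≡ x (mod π'')`. -/
theorem exists_inertiaAct_chartB_of_eq
    (J : modularFunctionFieldFullC (H45.unrCyclo ℓ) N) (J_E : modularFunctionFieldFullC ↥E N)
    (ha' : ∀ z : modularFunctionFieldFullC ↥E N,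
      z ∈ H40.chartB (H45.cutOver A E) J_E ↔
        z ∈ Subring.closure
          (Set.range (fun b : ↥(H40.chartB (H45.A0 A ℓ) J) =>
              H45.baseChangeE E N (b : modularFunctionFieldFullC (H45.unrCyclo ℓ) N)) ∪
            Set.range (algebraMap (H45.cutOver A E) (modularFunctionFieldFullC ↥E N))))
    (σ : Qbar ≃ₐ[ℚ] Qbar) (hσ : σ ∈ A.inertiaSubgroupIn ℚ) (π : H45.cutOver A E)
    (hπ : maximalIdeal (H45.cutOver A E) = Ideal.span {π}) :
    ∃ sS : ↥(H40.chartB (H45.cutOver A E) J_E) ≃+* ↥(H40.chartB (H45.cutOver A E) J_E),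
      (∀ x : ↥(H40.chartB (H45.cutOver A E) J_E),
        H45.inertiaActFullC hℓ hA E N σ hσ (x : modularFunctionFieldFullC ↥E N) =
          ((sS x : ↥(H40.chartB (H45.cutOver A E) J_E)) : modularFunctionFieldFullC ↥E N)) ∧
      ∀ x : ↥(H40.chartB (H45.cutOver A E) J_E), sS x - x ∈
        Ideal.span {algebraMap (H45.cutOver A E) ↥(H40.chartB (H45.cutOver A E) J_E) π} := by
  refine exists_ringEquiv_of_eq_closure (H40.chartB (H45.cutOver A E) J_E)
    (Set.range (fun b : ↥(H40.chartB (H45.A0 A ℓ) J) =>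
      H45.baseChangeE E N (b : modularFunctionFieldFullC (H45.unrCyclo ℓ) N)))
    ha' (H45.inertiaActFullC hℓ hA E N σ hσ) (H45.inertiaActCutOver hℓ hA E σ hσ) π ?_ ?_ ?_
  · rintro g ⟨b, rfl⟩
    exact H45.inertiaActFullC_baseChangeE hℓ hA E N σ hσ _
  · intro a
    exact H45.inertiaActFullC_algebraMap hℓ hA E N σ hσ (a : ↥E)
  · intro a
    have := H45.inertiaActCutOver_sub_mem hℓ hA E σ hσ a
    rwa [hπ, Ideal.mem_span_singleton] at this

/-- The same with `J_E := bc J` (helper40's announced shape). -/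
theorem exists_inertiaAct_chartB
    (J : modularFunctionFieldFullC (H45.unrCyclo ℓ) N)
    (ha' : ∀ z : modularFunctionFieldFullC ↥E N,
      z ∈ H40.chartB (H45.cutOver A E) (H45.baseChangeE E N J) ↔
        z ∈ Subring.closure
          (Set.range (fun b : ↥(H40.chartB (H45.A0 A ℓ) J) =>
              H45.baseChangeE E N (b : modularFunctionFieldFullC (H45.unrCyclo ℓ) N)) ∪
            Set.range (algebraMap (H45.cutOver A E) (modularFunctionFieldFullC ↥E N))))
    (σ : Qbar ≃ₐ[ℚ] Qbar) (hσ : σ ∈ A.inertiaSubgroupIn ℚ) (π : H45.cutOver A E)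
    (hπ : maximalIdeal (H45.cutOver A E) = Ideal.span {π}) :
    ∃ sS : ↥(H40.chartB (H45.cutOver A E) (H45.baseChangeE E N J)) ≃+*
        ↥(H40.chartB (H45.cutOver A E) (H45.baseChangeE E N J)),
      (∀ x : ↥(H40.chartB (H45.cutOver A E) (H45.baseChangeE E N J)),
        H45.inertiaActFullC hℓ hA E N σ hσ (x : modularFunctionFieldFullC ↥E N) =
          ((sS x : ↥(H40.chartB (H45.cutOver A E) (H45.baseChangeE E N J))) :
            modularFunctionFieldFullC ↥E N)) ∧
      ∀ x : ↥(H40.chartB (H45.cutOver A E) (H45.baseChangeE E N J)), sS x - x ∈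
        Ideal.span {algebraMap (H45.cutOver A E)
          ↥(H40.chartB (H45.cutOver A E) (H45.baseChangeE E N J)) π} :=
  exists_inertiaAct_chartB_of_eq hℓ hA E N J (H45.baseChangeE E N J) ha' σ hσ π hπ

end Concrete

end Fermat.Agent.S34.H42
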