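/-
helper56 — S34: `local_datum_of_L1` in the shape closest to the concrete producers:
* `hnn` (`n = (n₁, π)`) and the maximality of `n₁ = n ∩ B₁` are derived from `B = B₁[R]`
  (`hgenR`) and `R = A₁ + π R` (`h1`, helper45 `exists_A0_sub_mem`) via `CA.H56_BaseChangeIdeal`;
* the automorphism hypotheses are field-level (`s` on `F`): `s = id` on the image of `B₁`,
  `s = σ` on the constants `R` (helper45 `inertiaActFullC_baseChangeE` / `_algebraMap`), and the
  chart automorphism `sB` is the one of helper40/helper79 (`∀ x, s x = sB x`, `sB x - x ∈ (π)`).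
-/
import Mathlib
import Fermat.Agent.CA.H56_BaseChangeIdeal
import Fermat.Agent.S34.H56_CoordGlue

set_option autoImplicit false
set_option linter.unusedSectionVars false
set_option linter.style.haveILetI false

namespace Fermat.Agent.S34.H56

open Polynomial IsLocalRing Fermat.Agent.S34.H3 Fermat.Agent.CA.H42 AlgebraicCurve
open Fermat.Agent.CA

variable {A₁ : Type*} [CommRing A₁]
variable {R k B F : Type*} [CommRing R] [IsDomain R] [Field k] [Algebra R k]
  [CommRing B] [IsDomain B] [Field F] [Algebra B F] [IsFractionRing B F]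
  [Algebra R B] [Algebra k F] [Algebra R F] [IsScalarTower R B F] [IsScalarTower R k F]
  [IsNoetherianRing B] [IsIntegrallyClosed B]
variable [Algebra A₁ R]
variable {B₁ : Type*} [CommRing B₁] [Algebra A₁ B₁] [Algebra B₁ B]
variable (n : Ideal B) [hn : n.IsMaximal]
variable [IsDiscreteValuationRing R] [IsFractionRing R k]

/-- The contraction `n ∩ B₁` of a closed point of the special fibre of `B = B₁[R]` is a closed
point of the special fibre of `B₁`. -/
theorem comap_isMaximal_and_mem (π : R) (q : A₁) (hπq : π ∣ algebraMap A₁ R q)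
    (hπn : algebraMap R B π ∈ n)
    (hcomp : ∀ a : A₁, algebraMap B₁ B (algebraMap A₁ B₁ a) = algebraMap R B (algebraMap A₁ R a))
    (hgenR : Algebra.adjoin B₁ (Set.range (algebraMap R B)) = ⊤)
    (h1 : ∀ a : R, ∃ c : A₁, ∃ a' : R, a = algebraMap A₁ R c + π * a') :
    (n.comap (algebraMap B₁ B)).IsMaximal ∧ algebraMap A₁ B₁ q ∈ n.comap (algebraMap B₁ B) := by
  refine ⟨H56.comap_isMaximal π hcomp hgenR h1 n hπn, ?_⟩
  show algebraMap B₁ B (algebraMap A₁ B₁ q) ∈ n
  rw [hcomp]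
  obtain ⟨d, hd⟩ := hπq
  rw [hd, map_mul]
  exact Ideal.mul_mem_right _ _ hπn

/-- **LOCAL DATUM at a closed point from the L1 output, producer-shaped.** -/
theorem local_datum_of_L1' (O₁ : Type*) [CommRing O₁] [Algebra B₁ O₁]
    [hO₁ : IsLocalization.AtPrime O₁ (n.comap (algebraMap B₁ B))] [Algebra A₁ O₁]
    [IsScalarTower A₁ B₁ O₁] [IsLocalRing O₁]
    (π : R) (hπ : Irreducible π) (J : B)
    (hint : ∀ b : B, (aeval (R := R) J : R[X] →ₐ[R] B).toRingHom.IsIntegralElem b)
    (q : A₁) (hq0 : algebraMap A₁ R q ≠ 0) (hπq : π ∣ algebraMap A₁ R q)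
    (hπn : algebraMap R B π ∈ n)
    (hcomp : ∀ a : A₁, algebraMap B₁ B (algebraMap A₁ B₁ a) = algebraMap R B (algebraMap A₁ R a))
    (hgenR : Algebra.adjoin B₁ (Set.range (algebraMap R B)) = ⊤)
    (h1 : ∀ a : R, ∃ c : A₁, ∃ a' : R, a = algebraMap A₁ R c + π * a')
    (σ : R ≃+* R) (hσ : ∀ a : A₁, σ (algebraMap A₁ R a) = algebraMap A₁ R a)
    (s : F ≃+* F)
    (hsB₁ : ∀ b : B₁, s (algebraMap B F (algebraMap B₁ B b)) = algebraMap B F (algebraMap B₁ B b))
    (hsR : ∀ a : R, s (algebraMap R F a) = algebraMap R F (σ a))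
    (sB : B ≃+* B) (hs : ∀ b, s (algebraMap B F b) = algebraMap B F (sB b))
    (hsπ : ∀ b, sB b - b ∈ Ideal.span {algebraMap R B π})
    (hL1 : (∃ τ : O₁, τ ∈ maximalIdeal O₁ ∧
        maximalIdeal O₁ ≤ Ideal.span {algebraMap A₁ O₁ q, τ}) ∨
      (∃ x y : O₁, (∃ G, x * y = algebraMap A₁ O₁ q * G) ∧ x ∈ maximalIdeal O₁ ∧
        y ∈ maximalIdeal O₁ ∧ maximalIdeal O₁ ≤ Ideal.span {algebraMap A₁ O₁ q, x, y} ∧
        H38.NodeDec (algebraMap A₁ O₁).range (algebraMap A₁ O₁ q) x y))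
    (f : F) (hf0 : f ≠ 0) (m : ℕ)
    (hdiv : ∀ w : Place k F, (m : ℤ) ∣ w.ord f)
    (hdeg : ∀ w : Place k F, w.ord f ≠ 0 → w.deg = 1)
    (hfin : {w : Place k F | w.ord f ≠ 0}.Finite) :
    ∃ ψ : F, ψ ≠ 0 ∧
      (∃ a b : B, b ∉ n ∧ a - b ∈ Ideal.span {algebraMap R B π} ∧
        s (s f / f) / (s f / f) * algebraMap B F b = ψ ^ m * algebraMap B F a) ∧
      (∀ P : Ideal B, P.IsPrime → P.height = 1 → algebraMap R B π ∈ P →
        ∃ a b : B, b ∉ P ∧ (ψ - 1) * algebraMap B F b = algebraMap B F (algebraMap R B π * a)) ∧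
      (∀ P : Ideal B, P.IsPrime → P.height = 1 → algebraMap R B π ∈ P →
        ∃ a b : B, b ∉ P ∧
          (s (s f / f) / (s f / f) - 1) * algebraMap B F b =
            algebraMap B F (algebraMap R B π * a)) := by
  have hinj := IsFractionRing.injective B F
  have hsB : ∀ b : B₁, sB (algebraMap B₁ B b) = algebraMap B₁ B b := fun b =>
    hinj (by rw [← hs, hsB₁])
  have hsA : ∀ a : R, sB (algebraMap R B a) = algebraMap R B (σ a) := fun a =>
    hinj (by rw [← hs, ← IsScalarTower.algebraMap_apply, hsR, ← IsScalarTower.algebraMap_apply])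
  have hnn := H56.le_map_comap_sup_span π hcomp hgenR h1 n hπn
  haveI := (comap_isMaximal_and_mem n π q hπq hπn hcomp hgenR h1).1
  exact local_datum_of_L1 (n.comap (algebraMap B₁ B)) O₁ n π hπ J hint q hq0 hπq hπn hcomp rfl hnn
    hgenR σ hσ sB hsB hsA hL1 s hs hsπ f hf0 m hdiv hdeg hfin

end Fermat.Agent.S34.H56
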