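/-
helper56 — S34: the MIDDLE at the concrete types with ONLY the two L0/L1 inputs per chart left:

  `hradB_i` : the special fibre of the `A₁`-chart `chartB A₁ J^(±1)` is reduced (divisibility form;
              helper3 `H3.hrad_of_twoComponents`),
  `hL1_i`   : helper83's L1 output at every closed point of that special fibre
              (`H61.L1At`, `H83.TwoComponents.hL1_chart`).

Wiring: helper61 `H61.middle_of_chartPkg` ∘ my `chartPkg_of_chartBC` (×2) ∘ helper40 `(a)'`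
(`mem_chartB_cutOver_iff`) + `(c)` (`exists_inertiaAct_chartB`).  `s := H45.inertiaActFullC`.
-/
import Mathlib
import Fermat.Agent.S34.H40_BaseChangeAut
import Fermat.Agent.S34.H56_ChartPkgInst
import Fermat.Agent.S34.H61_MiddleFinal

set_option autoImplicit false
set_option linter.unusedSectionVars false
set_option linter.style.haveILetI false
set_option synthInstance.maxHeartbeats 400000
set_option maxHeartbeats 4000000

noncomputable section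

namespace Fermat.Agent.S34.H56

open Polynomial ModularCurve HahnSeries IntermediateField IsLocalRing
open Fermat.Agent.S18 Fermat.Agent.S18.H45 Fermat.Agent.S34.H95

local notation "Qbar" => AlgebraicClosure ℚ

variable {A : ValuationSubring Qbar} {ℓ : ℕ} (hℓ : ℓ.Prime) (hA : A.LiesOverPrime ℓ)
variable (E : IntermediateField (unrCyclo ℓ) Qbar) (N : ℕ) [NeZero N]

section Transport

variable (J₁ : modularFunctionFieldFullC (unrCyclo ℓ) N)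
  (J_E : modularFunctionFieldFullC ↥E N) (h : baseChangeE E N J₁ = J_E)

include hℓ hA h in
/-- helper40's `(a)'` with the target coordinate named (`J_E = bc J₁`). -/
theorem mem_chartB_cutOver_iff' [FiniteDimensional (unrCyclo ℓ) E]
    [FiniteDimensional (unrCyclo ℓ)⟮J₁⟯ (modularFunctionFieldFullC (unrCyclo ℓ) N)]
    [IsReduced (↥(H40.chartB (A0 A ℓ) J₁) ⧸
      Ideal.span {algebraMap (A0 A ℓ) ↥(H40.chartB (A0 A ℓ) J₁) ((ℓ : ℕ) : A0 A ℓ)})]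
    (z : modularFunctionFieldFullC ↥E N) :
    z ∈ H40.chartB (cutOver A E) J_E ↔
      z ∈ Subring.closure
        (Set.range (fun b : ↥(H40.chartB (A0 A ℓ) J₁) =>
            baseChangeE E N (b : modularFunctionFieldFullC (unrCyclo ℓ) N)) ∪
          Set.range (algebraMap (cutOver A E) (modularFunctionFieldFullC ↥E N))) := by
  subst h
  exact Fermat.Agent.S34.H40.mem_chartB_cutOver_iff hℓ hA E N J₁ z

include hℓ hA h in
/-- helper40's `(c)` with the target coordinate named. -/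
theorem exists_inertiaAct_chartB' [FiniteDimensional (unrCyclo ℓ) E] [Normal (unrCyclo ℓ) E]
    [FiniteDimensional (unrCyclo ℓ)⟮J₁⟯ (modularFunctionFieldFullC (unrCyclo ℓ) N)]
    [IsReduced (↥(H40.chartB (A0 A ℓ) J₁) ⧸
      Ideal.span {algebraMap (A0 A ℓ) ↥(H40.chartB (A0 A ℓ) J₁) ((ℓ : ℕ) : A0 A ℓ)})]
    (σ : Qbar ≃ₐ[ℚ] Qbar) (hσ : σ ∈ A.inertiaSubgroupIn ℚ)
    (π : cutOver A E) (hπ : maximalIdeal (cutOver A E) = Ideal.span {π}) :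
    ∃ sS : ↥(H40.chartB (cutOver A E) J_E) ≃+* ↥(H40.chartB (cutOver A E) J_E),
      (∀ x : ↥(H40.chartB (cutOver A E) J_E),
        inertiaActFullC hℓ hA E N σ hσ (x : modularFunctionFieldFullC ↥E N) =
          (sS x : modularFunctionFieldFullC ↥E N)) ∧
      ∀ x : ↥(H40.chartB (cutOver A E) J_E),
        sS x - x ∈ Ideal.span {algebraMap (cutOver A E) ↥(H40.chartB (cutOver A E) J_E) π} := by
  subst h
  exact Fermat.Agent.S34.H40.exists_inertiaAct_chartB hℓ hA E N J₁ σ hσ π hπ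

end Transport

variable (q : ℕ) [NeZero q] (hq : q ∣ N)

include hℓ hA in
/-- **MIDDLE from the L0/L1 outputs.** -/
theorem middle_of_L1 [FiniteDimensional (unrCyclo ℓ) E] [Normal (unrCyclo ℓ) E]
    {p : ℕ} (hp : p.Prime) (hpℓ : p ≠ ℓ)
    (σ : Qbar ≃ₐ[ℚ] Qbar) (hσ : σ ∈ A.inertiaSubgroupIn ℚ)
    (hradB₁ : ∀ b : ↥(H40.chartB (A0 A ℓ) (JK (unrCyclo ℓ) N q hq)),
      (∃ n : ℕ, algebraMap (A0 A ℓ) ↥(H40.chartB (A0 A ℓ) (JK (unrCyclo ℓ) N q hq))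
          ((ℓ : ℕ) : A0 A ℓ) ∣ b ^ n) →
        algebraMap (A0 A ℓ) ↥(H40.chartB (A0 A ℓ) (JK (unrCyclo ℓ) N q hq))
          ((ℓ : ℕ) : A0 A ℓ) ∣ b)
    (hradB₂ : ∀ b : ↥(H40.chartB (A0 A ℓ) (JK (unrCyclo ℓ) N q hq)⁻¹),
      (∃ n : ℕ, algebraMap (A0 A ℓ) ↥(H40.chartB (A0 A ℓ) (JK (unrCyclo ℓ) N q hq)⁻¹)
          ((ℓ : ℕ) : A0 A ℓ) ∣ b ^ n) →
        algebraMap (A0 A ℓ) ↥(H40.chartB (A0 A ℓ) (JK (unrCyclo ℓ) N q hq)⁻¹)
          ((ℓ : ℕ) : A0 A ℓ) ∣ b)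
    (hL1₁ : ∀ (n₁ : Ideal ↥(H40.chartB (A0 A ℓ) (JK (unrCyclo ℓ) N q hq))) [n₁.IsMaximal],
      algebraMap (A0 A ℓ) ↥(H40.chartB (A0 A ℓ) (JK (unrCyclo ℓ) N q hq))
          ((ℓ : ℕ) : A0 A ℓ) ∈ n₁ → H61.L1At ((ℓ : ℕ) : A0 A ℓ) n₁)
    (hL1₂ : ∀ (n₁ : Ideal ↥(H40.chartB (A0 A ℓ) (JK (unrCyclo ℓ) N q hq)⁻¹)) [n₁.IsMaximal],
      algebraMap (A0 A ℓ) ↥(H40.chartB (A0 A ℓ) (JK (unrCyclo ℓ) N q hq)⁻¹)
          ((ℓ : ℕ) : A0 A ℓ) ∈ n₁ → H61.L1At ((ℓ : ℕ) : A0 A ℓ) n₁) :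
    ∀ (k : ℕ) (f : modularFunctionFieldFullC ↥E N), H61.Admissible ↥E f (p ^ k) →
      ∃ (c : ↥E) (g : modularFunctionFieldFullC ↥E N), c ≠ 0 ∧ g ≠ 0 ∧
        inertiaActFullC hℓ hA E N σ hσ (inertiaActFullC hℓ hA E N σ hσ f / f) /
            (inertiaActFullC hℓ hA E N σ hσ f / f) =
          algebraMap ↥E (modularFunctionFieldFullC ↥E N) c * g ^ (p ^ k) := by
  obtain ⟨π, -, -, -, -, -, hmax⟩ := exists_uniformizer_cutOver hℓ hA E
  -- instances over `A₁`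
  haveI hR₁ : IsReduced (↥(H40.chartB (A0 A ℓ) (JK (unrCyclo ℓ) N q hq)) ⧸
      Ideal.span {algebraMap (A0 A ℓ) ↥(H40.chartB (A0 A ℓ) (JK (unrCyclo ℓ) N q hq))
        ((ℓ : ℕ) : A0 A ℓ)}) := Fermat.Agent.S34.H3.isReduced_of_hrad hradB₁
  haveI hR₂ : IsReduced (↥(H40.chartB (A0 A ℓ) (JK (unrCyclo ℓ) N q hq)⁻¹) ⧸
      Ideal.span {algebraMap (A0 A ℓ) ↥(H40.chartB (A0 A ℓ) (JK (unrCyclo ℓ) N q hq)⁻¹)
        ((ℓ : ℕ) : A0 A ℓ)}) := Fermat.Agent.S34.H3.isReduced_of_hrad hradB₂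
  haveI := finiteDimensional_JK (unrCyclo ℓ) N q hq (H99.natCast_ne_zero₀ N (unrCyclo ℓ))
  haveI := finiteDimensional_JK_inv (unrCyclo ℓ) N q hq (H99.natCast_ne_zero₀ N (unrCyclo ℓ))
  -- instances over `A''`
  haveI := isFractionRing_chartB_JK (A := A) E N q hq
  haveI := isFractionRing_chartB_JK_inv (A := A) E N q hq
  haveI := isNoetherianRing_chartB_JK hℓ hA E N q hq
  haveI := isNoetherianRing_chartB_JK_inv hℓ hA E N q hq
  haveI := isIntegrallyClosed_chartB_JK (A := A) E N q hq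
  haveI := isIntegrallyClosed_chartB_JK_inv (A := A) E N q hq
  -- helper40's (a)' and (c) for the two charts
  have hmem₁ := mem_chartB_cutOver_iff' hℓ hA E N (JK (unrCyclo ℓ) N q hq) (JK ↥E N q hq)
    (baseChangeE_JK E N q hq)
  have hmem₂ := mem_chartB_cutOver_iff' hℓ hA E N (JK (unrCyclo ℓ) N q hq)⁻¹ (JK ↥E N q hq)⁻¹
    (baseChangeE_JK_inv E N q hq)
  obtain ⟨sB₁, hsB₁, hsπ₁⟩ := exists_inertiaAct_chartB' hℓ hA E N (JK (unrCyclo ℓ) N q hq)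
    (JK ↥E N q hq) (baseChangeE_JK E N q hq) σ hσ π hmax
  obtain ⟨sB₂, hsB₂, hsπ₂⟩ := exists_inertiaAct_chartB' hℓ hA E N (JK (unrCyclo ℓ) N q hq)⁻¹
    (JK ↥E N q hq)⁻¹ (baseChangeE_JK_inv E N q hq) σ hσ π hmax
  letI alg₁ : Algebra ↥(H40.chartB (A0 A ℓ) (JK (unrCyclo ℓ) N q hq))
      ↥(H40.chartB (cutOver A E) (JK ↥E N q hq)) :=
    (chartBC (A := A) E N _ _ (baseChangeE_JK E N q hq)).toAlgebra
  letI alg₂ : Algebra ↥(H40.chartB (A0 A ℓ) (JK (unrCyclo ℓ) N q hq)⁻¹)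
      ↥(H40.chartB (cutOver A E) (JK ↥E N q hq)⁻¹) :=
    (chartBC (A := A) E N _ _ (baseChangeE_JK_inv E N q hq)).toAlgebra
  have C₁ := chartPkg_of_chartBC hℓ hA E N (JK (unrCyclo ℓ) N q hq) (JK ↥E N q hq)
    (baseChangeE_JK E N q hq) σ hσ π hmax (fun z hz => (hmem₁ z).mp hz) sB₁ hsB₁ hsπ₁ hL1₁
  have C₂ := chartPkg_of_chartBC hℓ hA E N (JK (unrCyclo ℓ) N q hq)⁻¹ (JK ↥E N q hq)⁻¹
    (baseChangeE_JK_inv E N q hq) σ hσ π hmax (fun z hz => (hmem₂ z).mp hz) sB₂ hsB₂ hsπ₂ hL1₂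
  exact H61.middle_of_chartPkg hℓ hA E N q hq hp hpℓ (inertiaActFullC hℓ hA E N σ hσ) π hmax
    hmem₁ hmem₂ hradB₁ hradB₂ ((ℓ : ℕ) : A0 A ℓ) (inertiaActCutOver hℓ hA E σ hσ)
    (coordB (R := cutOver A E) (JK ↥E N q hq)) sB₁ C₁
    (coordB (R := cutOver A E) (JK ↥E N q hq)⁻¹) sB₂ C₂

end Fermat.Agent.S34.H56
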