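import Mathlib
import Fermat.Agent.S34.H61_MiddleL0
import Fermat.Agent.S34.H83_L1Inst
import Fermat.Agent.S34.H3_RadTransfer

/-!
# S34, MIDDLE layer (helper61): from the L0 interface `H83.TwoComponents` to `UFnE`

`uFnE_of_twoComponents` : `H61.uFnE_of_L0` with its four hypotheses produced from ONE
`H83.TwoComponents` per `A₁`-chart (`chartB (A0 A ℓ) J₁`, `chartB (A0 A ℓ) J₁⁻¹`,
`J₁ := H95.JK K1 N q hq`):

* `hradB_i := H3.hrad_of_twoComponents hTC_i ..` (`red (ℓ) = 0` because the targets have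
  characteristic `ℓ`),
* `hL1_i := hTC_i.hL1_chart ..` (helper83).

The special-fibre data (`k`, `Fk`, `w_i`, `res`) are binders in helper83's shape, to be
instantiated by `k := ResidueField A`, `Fk := fullC kA M`, `w₁ := jK kA M`, `w₂ := (jK kA M)⁻¹`,
`res := H45.resA0 A ℓ`.
-/

set_option autoImplicit false
set_option linter.unusedSectionVars false
set_option linter.style.haveILetI false
set_option synthInstance.maxHeartbeats 400000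
set_option maxHeartbeats 3200000

noncomputable section

namespace Fermat.Agent.S34.H61

open ModularCurve HahnSeries IntermediateField IsLocalRing AlgebraicCurve
open Fermat.Agent.S18 Fermat.Agent.S18.H45

local notation "Qbar" => AlgebraicClosure ℚ

section Generic

variable {B k Fk : Type*} [CommRing B] [Field k] [Field Fk] [Algebra k Fk]

/-- A ring hom into the ring of integers of a function field of characteristic `ℓ` kills `ℓ`. -/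
theorem map_natCast_eq_zero_of_charP (ℓ : ℕ) [CharP k ℓ] (w : Fk)
    (red : B →+* ↥(integralClosure (Algebra.adjoin k {w}) Fk)) : red ((ℓ : ℕ) : B) = 0 := by
  rw [map_natCast]
  apply Subtype.ext
  have h1 : ((ℓ : ℕ) : Fk) = 0 := by
    rw [← map_natCast (algebraMap k Fk), CharP.cast_eq_zero, map_zero]
  rw [ZeroMemClass.coe_zero, ← h1]
  exact map_natCast (integralClosure (Algebra.adjoin k {w}) Fk).val ℓ

end Generic

variable {A : ValuationSubring Qbar} {ℓ : ℕ} (hℓ : ℓ.Prime) (hA : A.LiesOverPrime ℓ)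
variable (E : IntermediateField (unrCyclo ℓ) Qbar) [FiniteDimensional (unrCyclo ℓ) E]
  [Normal (unrCyclo ℓ) E]
variable (N : ℕ) [NeZero N] (q : ℕ) [NeZero q] (hq : q ∣ N)

include hℓ hA in
/-- **`UFnE` from the L0 interface**: one `H83.TwoComponents` per `A₁`-chart. -/
theorem uFnE_of_twoComponents {p : ℕ} (hp : p.Prime) (hpℓ : p ≠ ℓ)
    (σ : Qbar ≃ₐ[ℚ] Qbar) (hσ : σ ∈ A.inertiaSubgroupIn ℚ)
    {k Fk : Type*} [Field k] [IsAlgClosed k] [CharP k ℓ] [Field Fk] [Algebra k Fk]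
    (res : A0 A ℓ →+* k) (hsurj : Function.Surjective res)
    (hker : ∀ a : A0 A ℓ, res a = 0 → ((ℓ : ℕ) : A0 A ℓ) ∣ a)
    -- chart 1
    (w₁ : Fk) (hw₁ : Transcendental k w₁) [FiniteDimensional k⟮w₁⟯ Fk]
    [Algebra.IsSeparable k⟮w₁⟯ Fk]
    {BM₁ : Type*} [CommRing BM₁]
    {red₁₁ red₂₁ : ↥(H40.chartB (A0 A ℓ) (H95.JK (unrCyclo ℓ) N q hq)) →+*
      ↥(integralClosure (Algebra.adjoin k {w₁}) Fk)}
    {ι₁ V₁ : BM₁ →+* ↥(H40.chartB (A0 A ℓ) (H95.JK (unrCyclo ℓ) N q hq))}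
    {rbar₁ : BM₁ →+* ↥(integralClosure (Algebra.adjoin k {w₁}) Fk)}
    {W₁ : ↥(integralClosure (Algebra.adjoin k {w₁}) Fk) →+*
      ↥(integralClosure (Algebra.adjoin k {w₁}) Fk)} {q₁ : ℕ}
    (hTC₁ : H83.TwoComponents red₁₁ red₂₁ ι₁ V₁ rbar₁ W₁ q₁
      (algebraMap (A0 A ℓ) ↥(H40.chartB (A0 A ℓ) (H95.JK (unrCyclo ℓ) N q hq))
        ((ℓ : ℕ) : A0 A ℓ)))
    (hq₁ : 2 ≤ q₁)
    -- chart 2
    (w₂ : Fk) (hw₂ : Transcendental k w₂) [FiniteDimensional k⟮w₂⟯ Fk]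
    [Algebra.IsSeparable k⟮w₂⟯ Fk]
    {BM₂ : Type*} [CommRing BM₂]
    {red₁₂ red₂₂ : ↥(H40.chartB (A0 A ℓ) (H95.JK (unrCyclo ℓ) N q hq)⁻¹) →+*
      ↥(integralClosure (Algebra.adjoin k {w₂}) Fk)}
    {ι₂ V₂ : BM₂ →+* ↥(H40.chartB (A0 A ℓ) (H95.JK (unrCyclo ℓ) N q hq)⁻¹)}
    {rbar₂ : BM₂ →+* ↥(integralClosure (Algebra.adjoin k {w₂}) Fk)}
    {W₂ : ↥(integralClosure (Algebra.adjoin k {w₂}) Fk) →+*
      ↥(integralClosure (Algebra.adjoin k {w₂}) Fk)} {q₂ : ℕ}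
    (hTC₂ : H83.TwoComponents red₁₂ red₂₂ ι₂ V₂ rbar₂ W₂ q₂
      (algebraMap (A0 A ℓ) ↥(H40.chartB (A0 A ℓ) (H95.JK (unrCyclo ℓ) N q hq)⁻¹)
        ((ℓ : ℕ) : A0 A ℓ)))
    (hq₂ : 2 ≤ q₂)
    (m : ℕ) :
    H34.UFnE N hℓ hA σ hσ (p ^ m) E := by
  haveI := isDiscreteValuationRing_A0 hℓ hA
  haveI := H95.finiteDimensional_JK (unrCyclo ℓ) N q hq (H99.natCast_ne_zero₀ N (unrCyclo ℓ))
  haveI := H95.finiteDimensional_JK_inv (unrCyclo ℓ) N q hq (H99.natCast_ne_zero₀ N (unrCyclo ℓ))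
  haveI := H95.isSeparable_JK (unrCyclo ℓ) N q hq
  haveI := H95.isSeparable_JK_inv (unrCyclo ℓ) N q hq
  have hℓ₁ : ∀ red : ↥(H40.chartB (A0 A ℓ) (H95.JK (unrCyclo ℓ) N q hq)) →+*
      ↥(integralClosure (Algebra.adjoin k {w₁}) Fk),
      red (algebraMap (A0 A ℓ) ↥(H40.chartB (A0 A ℓ) (H95.JK (unrCyclo ℓ) N q hq))
        ((ℓ : ℕ) : A0 A ℓ)) = 0 := fun red => by
    rw [map_natCast]; exact map_natCast_eq_zero_of_charP ℓ w₁ red
  have hℓ₂ : ∀ red : ↥(H40.chartB (A0 A ℓ) (H95.JK (unrCyclo ℓ) N q hq)⁻¹) →+*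
      ↥(integralClosure (Algebra.adjoin k {w₂}) Fk),
      red (algebraMap (A0 A ℓ) ↥(H40.chartB (A0 A ℓ) (H95.JK (unrCyclo ℓ) N q hq)⁻¹)
        ((ℓ : ℕ) : A0 A ℓ)) = 0 := fun red => by
    rw [map_natCast]; exact map_natCast_eq_zero_of_charP ℓ w₂ red
  exact uFnE_of_L0 hℓ hA E N q hq hp hpℓ σ hσ
    (H3.hrad_of_twoComponents hTC₁ (hℓ₁ _) (hℓ₁ _))
    (H3.hrad_of_twoComponents hTC₂ (hℓ₂ _) (hℓ₂ _))
    (fun n₁ _ hqn => hTC₁.hL1_chart (K₁ := unrCyclo ℓ) (H95.JK (unrCyclo ℓ) N q hq)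
      (H95.transcendental_JK (unrCyclo ℓ) N q hq) w₁ hw₁ res hsurj ((ℓ : ℕ) : A0 A ℓ) hker
      hq₁ n₁ hqn)
    (fun n₁ _ hqn => hTC₂.hL1_chart (K₁ := unrCyclo ℓ) (H95.JK (unrCyclo ℓ) N q hq)⁻¹
      (H95.transcendental_JK_inv (unrCyclo ℓ) N q hq) w₂ hw₂ res hsurj ((ℓ : ℕ) : A0 A ℓ) hker
      hq₂ n₁ hqn)
    m

end Fermat.Agent.S34.H61
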