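import Mathlib
import Fermat.Agent.S34.H65_DescDeg
import Fermat.Agent.S18.H99_F1Basics
import Fermat.Agent.S24.H25_Wire
import Fermat.Agent.S24.H40_M123
import Fermat.Prelude.Def_ModularCurve_ArithmeticGalois

/-!
# S34, DESC, the wiring (helper65): admissibility at a finite level `L` from a divisor over `Qbar`

`L` a subfield of `Qbar` (`[Algebra L Qbar]`, algebraic), `F_L = modularFunctionFieldFullC L N`,
`toBar : F_L → FN N`.  Let `f : F_L`, `f ≠ 0`, and `D` a divisor of `FN N / Qbar` with
`ord_v (toBar f) = m * D v` for all `v`.  If every `v` in the support of `D`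

* has a uniformiser in `toBar (F_L)`, and
* is fixed by every `τ ∈ Gal(Qbar / ℚ)` fixing `L`,

and `L` is the fixed field of these `τ`, then `f` satisfies the four admissibility clauses of
`S34.H61.Admissible L f m` (= the hypotheses of `UFnE`): `f ≠ 0`, `m ∣ ord_w f`, every `w` in the
support has degree one, finite support.
-/

set_option autoImplicit false
set_option linter.unusedSectionVars false
set_option linter.style.haveILetI false
set_option synthInstance.maxHeartbeats 400000

noncomputable section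

namespace Fermat.Agent.S34.H65

open AlgebraicCurve ModularCurve HahnSeries
open Fermat.Agent.S24 Fermat.Agent.S18

local notation "Qbar" => AlgebraicClosure ℚ

section Adm

variable (L : Type*) [Field L] [Algebra L Qbar] (N : ℕ) [NeZero N]

/-- An automorphism of `Qbar` fixing `L` fixes the image of `toBar`. -/
theorem arithmeticGalois_smul_toBar (τ : Qbar ≃ₐ[ℚ] Qbar)
    (hτ : ∀ c : L, τ (algebraMap L Qbar c) = algebraMap L Qbar c)
    (x : modularFunctionFieldFullC L N) :
    arithmeticGalois (modularFunctionFieldFull N) τ • (H99.toBar L N x) = H99.toBar L N x := by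
  apply Subtype.ext
  show ((arithmeticRingAut (modularFunctionFieldFull N) τ (H99.toBar L N x) : FN N) :
    LaurentSeries Qbar) = _
  rw [coe_arithmeticRingAut_apply, H99.coe_toBar, coeffMap_coeffMap]
  exact coeffMap_congr (RingHom.ext fun c => hτ c) _

variable [Algebra L (FN N)] [IsScalarTower L Qbar (FN N)] [Algebra.IsAlgebraic L Qbar]

/-- **DESC, wiring.**  The four admissibility clauses at level `L`. -/
theorem admissible_of_divisor
    (hfix : ∀ b : Qbar, (∀ τ : Qbar ≃ₐ[ℚ] Qbar,
      (∀ c : L, τ (algebraMap L Qbar c) = algebraMap L Qbar c) → τ b = b) →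
        b ∈ Set.range (algebraMap L Qbar))
    (f : modularFunctionFieldFullC L N) (hf : f ≠ 0) (m : ℕ)
    (D : Divisor Qbar (FN N))
    (hD : ∀ v : Place Qbar (FN N), v.ord (H99.toBar L N f) = (m : ℤ) * D v)
    (hunif : ∀ v ∈ D.support, ∃ t : modularFunctionFieldFullC L N,
      v.ord (H99.toBar L N t) = 1)
    (hstab : ∀ v ∈ D.support, ∀ τ : Qbar ≃ₐ[ℚ] Qbar,
      (∀ c : L, τ (algebraMap L Qbar c) = algebraMap L Qbar c) →
        arithmeticGalois (modularFunctionFieldFull N) τ • v = v) :
    f ≠ 0 ∧ (∀ w : Place L (modularFunctionFieldFullC L N), (m : ℤ) ∣ w.ord f) ∧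
      (∀ w : Place L (modularFunctionFieldFullC L N), w.ord f ≠ 0 → w.deg = 1) ∧
      {w : Place L (modularFunctionFieldFullC L N) | w.ord f ≠ 0}.Finite := by
  letI := H99.toBarAlgebra L N
  haveI := H99.isScalarTower_toBar L N
  haveI := H40.finiteDimensional_FN N
  have ht := H40.transcendental_jBar N
  have hS : ∀ v : Place Qbar (FN N),
      v.ord (algebraMap (modularFunctionFieldFullC L N) (FN N) f) ≠ 0 → v ∈ D.support := by
    intro v hv
    rw [Finsupp.mem_support_iff]
    intro h0
    apply hv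
    show v.ord (H99.toBar L N f) = 0
    rw [hD v, h0, mul_zero]
  have hunif' : ∀ v ∈ D.support, ∃ t : modularFunctionFieldFullC L N,
      v.ord (algebraMap (modularFunctionFieldFullC L N) (FN N) t) = 1 := hunif
  refine ⟨hf, fun w => ?_, fun w hw => ?_, ?_⟩
  · exact dvd_ord_of_dvd_ord_above (K := L) (jBar N) ht f D.support hS hunif' (m : ℤ)
      (fun v => ⟨D v, hD v⟩) w
  · obtain ⟨v, hvS, hord, hmem⟩ :=
      exists_place_above_of_ord_ne_zero (K := L) (jBar N) ht f D.support hS hunif' w hw
    refine deg_eq_one_of_fixed' (K := L) v w (H25.deg_eq_one (K := Qbar) (jBar N) ht v) hord hmem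
      (ι := {τ : Qbar ≃ₐ[ℚ] Qbar // ∀ c : L, τ (algebraMap L Qbar c) = algebraMap L Qbar c})
      (fun τ => SemilinearAut.toRingAut (arithmeticGalois (modularFunctionFieldFull N) τ.1))
      (fun τ => ((τ.1 : Qbar ≃ₐ[ℚ] Qbar) : Qbar →+* Qbar)) ?_ ?_ ?_ ?_
    · intro τ b
      exact SemilinearAut.commutes (arithmeticGalois (modularFunctionFieldFull N) τ.1) b
    · intro τ x
      exact arithmeticGalois_smul_toBar L N τ.1 τ.2 x
    · intro τ y hy
      have h1 := SemilinearAut.ord_smul (arithmeticGalois (modularFunctionFieldFull N) τ.1) v y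
      rw [hstab v hvS τ.1 τ.2] at h1
      show 0 < v.ord (arithmeticGalois (modularFunctionFieldFull N) τ.1 • y)
      rw [h1]
      exact hy
    · intro b hb
      exact hfix b fun τ hτ => hb ⟨τ, hτ⟩
  · exact finite_support_of_above (K := L) (jBar N) ht f D.support hS hunif'

end Adm

section FixedField

/-- The fixed-field hypothesis `hfix` of `admissible_of_divisor` for an intermediate field of
`Qbar / k`: an element fixed by all automorphisms of `Qbar` fixing `E` lies in `E`. -/
theorem mem_range_of_fixed {k : Type*} [Field k] [Algebra k Qbar]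
    (E : IntermediateField k Qbar) (b : Qbar)
    (hb : ∀ τ : Qbar ≃ₐ[ℚ] Qbar,
      (∀ c : ↥E, τ (algebraMap ↥E Qbar c) = algebraMap ↥E Qbar c) → τ b = b) :
    b ∈ Set.range (algebraMap ↥E Qbar) := by
  let E' : IntermediateField ℚ Qbar := (E.toSubfield).toIntermediateField (fun x => by
    rw [eq_ratCast]
    exact SubfieldClass.ratCast_mem _ x)
  haveI h1 : Algebra.IsAlgebraic ℚ Qbar := AlgebraicClosure.isAlgebraic ℚ
  haveI h2 : IsAlgClosure ℚ Qbar := ⟨inferInstance, inferInstance⟩
  haveI : IsGalois ℚ Qbar := IsAlgClosure.isGalois ℚ Qbar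
  have hmemE' : ∀ x : Qbar, x ∈ E' ↔ x ∈ E := fun x => Iff.rfl
  have hbE' : b ∈ E' := by
    rw [← InfiniteGalois.fixedField_fixingSubgroup E', IntermediateField.mem_fixedField_iff]
    intro τ hτ
    apply hb τ
    intro c
    exact (IntermediateField.mem_fixingSubgroup_iff E' τ).mp hτ (c : Qbar) ((hmemE' _).mpr c.2)
  exact ⟨⟨b, (hmemE' b).mp hbE'⟩, rfl⟩

end FixedField

section CutField

/-- **DESC, wiring, at an intermediate field `E` of `Qbar / k`** (`k = S18.H45.unrCyclo ℓ` in the
S34 chain): the fixed-field hypothesis is discharged. -/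
theorem admissible_of_divisor_intermediateField {k : Type*} [Field k] [Algebra k Qbar]
    (E : IntermediateField k Qbar) (N : ℕ) [NeZero N]
    (f : modularFunctionFieldFullC ↥E N) (hf : f ≠ 0) (m : ℕ)
    (D : Divisor Qbar (FN N))
    (hD : ∀ v : Place Qbar (FN N), v.ord (H99.toBar ↥E N f) = (m : ℤ) * D v)
    (hunif : ∀ v ∈ D.support, ∃ t : modularFunctionFieldFullC ↥E N,
      v.ord (H99.toBar ↥E N t) = 1)
    (hstab : ∀ v ∈ D.support, ∀ τ : Qbar ≃ₐ[ℚ] Qbar,
      (∀ c : ↥E, τ (algebraMap ↥E Qbar c) = algebraMap ↥E Qbar c) →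
        arithmeticGalois (modularFunctionFieldFull N) τ • v = v) :
    f ≠ 0 ∧ (∀ w : Place ↥E (modularFunctionFieldFullC ↥E N), (m : ℤ) ∣ w.ord f) ∧
      (∀ w : Place ↥E (modularFunctionFieldFullC ↥E N), w.ord f ≠ 0 → w.deg = 1) ∧
      {w : Place ↥E (modularFunctionFieldFullC ↥E N) | w.ord f ≠ 0}.Finite := by
  haveI : Algebra.IsAlgebraic ↥E Qbar := by
    haveI : Algebra.IsAlgebraic ℚ Qbar := AlgebraicClosure.isAlgebraic ℚ
    exact Algebra.IsAlgebraic.tower_top (K := ℚ) ↥E
  exact admissible_of_divisor ↥E N (mem_range_of_fixed E) f hf m D hD hunif hstab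

end CutField

end Fermat.Agent.S34.H65
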