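import Fermat.Agent.S34.H69_KummerDescent
import Fermat.Agent.S34.H47_KummerInduct
import Fermat.Agent.CA.H69_LocField

/-!
# S34, L8 bridge (b): the Kummer step `hK` of the induction from `kummer_descent` (helper69)

`hK_of_charts`: for any family `O : ν → Subring F` of local rings and `V : κ → ValuationSubring F`
of vertical valuation rings which *contains* the closed points of the two charts
(`pt₁`, `pt₂`) and the vertical primes (`vert`), a function with a local datum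
`H47.LocalDatum O V Thr π u l` is a constant times an `l`-th power.
-/

set_option autoImplicit false

open Polynomial IntermediateField Fermat.Agent.S18 Fermat.Agent.CA.H69

namespace Fermat.Agent.S34.H69

universe v

section Seam

variable {F : Type*} [Field F] {B : Type*} [CommRing B] [IsDomain B] [Algebra B F]
  [IsFractionRing B F] {R : Type*} [CommRing R] [Algebra R B] [Algebra R F] [IsScalarTower R B F]

/-- the chart form of the local datum at a prime `n` from the `H47` form. -/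
theorem chart_datum_of_piIn (π : R) (n : Ideal B) [n.IsPrime] (S : Subring F)
    (hS : ∀ x : F, x ∈ S → ∃ a s : B, s ∉ n ∧ x * algebraMap B F s = algebraMap B F a)
    {u ψ : F} {l : ℕ} (hψ0 : ψ ≠ 0) (h : H47.PiIn π S (u / ψ ^ l - 1)) :
    (∃ a s : B, s ∉ n ∧ u * algebraMap B F s = ψ ^ l * algebraMap B F a) ∧
      InPiB (K := F) (algebraMap R B π) n (u / ψ ^ l - 1) := by
  obtain ⟨y, hy, hxy⟩ := h
  obtain ⟨a, s, hs, hya⟩ := hS y hy
  have hymem : y ∈ locB (K := F) n := (mem_locB_iff n).mpr ⟨a, s, hs, hya⟩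
  have hπ : algebraMap R F π = algebraMap B F (algebraMap R B π) :=
    IsScalarTower.algebraMap_apply R B F π
  have hpi : InPiB (K := F) (algebraMap R B π) n (u / ψ ^ l - 1) :=
    (inPiB_iff n).mpr ⟨y, hymem, by rw [hxy, hπ]⟩
  refine ⟨?_, hpi⟩
  have hmem : u / ψ ^ l ∈ locB (K := F) n := by
    have : u / ψ ^ l = 1 + (u / ψ ^ l - 1) := by ring
    rw [this]
    exact Subalgebra.add_mem _ (Subalgebra.one_mem _) (hpi.mem_locB n)
  obtain ⟨a', s', hs', h'⟩ := (mem_locB_iff n).mp hmem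
  refine ⟨a', s', hs', ?_⟩
  have hψl : ψ ^ l ≠ 0 := pow_ne_zero _ hψ0
  rw [← h']
  field_simp

end Seam

/-- **(b)**: the Kummer step `hK` of `H47.exists_pow_of_localDatum`, from `kummer_descent`. -/
theorem hK_of_charts
    {R : Type*} [CommRing R] [IsDomain R] [IsNoetherianRing R] [IsIntegrallyClosed R]
    {K : Type*} [Field K] [Algebra R K] [IsFractionRing R K]
    {F : Type v} [Field F] [Algebra R F] [Algebra K F] [IsScalarTower R K F]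
    (J : F) (htr : Transcendental K J) [FiniteDimensional K⟮J⟯ F] [Algebra.IsSeparable K⟮J⟯ F]
    (hcl : ∀ z : F, IsAlgebraic K z → z ∈ (algebraMap K F).range)
    (π : R) (hπ : Prime π)
    {l : ℕ} (hl : l.Prime) {rl w : R} (hrl : algebraMap R F rl * (l : F) = 1)
    (hw : IsPrimitiveRoot (algebraMap R F w) l)
    {ι : Type*} [Finite ι] [Nonempty ι]
    (P₁ : ι → Ideal ↥(H40.chartB R J)) (P₂ : ι → Ideal ↥(H40.chartB R J⁻¹))
    (P₁₂ : ι → Ideal ↥(H83.chart12 R J))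
    (hP₁ : ∀ i, (P₁ i).IsPrime) (hP₂ : ∀ i, (P₂ i).IsPrime) (hP₁₂ : ∀ k, (P₁₂ k).IsPrime)
    (hπP₁ : ∀ i, algebraMap R ↥(H40.chartB R J) π ∈ P₁ i)
    (hπP₂ : ∀ i, algebraMap R ↥(H40.chartB R J⁻¹) π ∈ P₂ i)
    (hcomp₁ : ∀ k, ∀ s : ↥(H40.chartB R J), s ∉ P₁ k →
      Subalgebra.inclusion (H83.chartB_le_chart12 (R := R) J) s ∉ P₁₂ k)
    (hcomp₂ : ∀ k, ∀ s : ↥(H40.chartB R J⁻¹), s ∉ P₂ k →
      Subalgebra.inclusion (H83.chartB_inv_le_chart12 (R := R) J) s ∉ P₁₂ k)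
    (hred₁ : ∀ i, ∀ b ∈ P₁ i, ∃ s, s ∉ P₁ i ∧ algebraMap R ↥(H40.chartB R J) π ∣ s * b)
    (hred₂ : ∀ i, ∀ b ∈ P₂ i, ∃ s, s ∉ P₂ i ∧ algebraMap R ↥(H40.chartB R J⁻¹) π ∣ s * b)
    (hsat₁ : ∀ b : ↥(H40.chartB R J),
      (∀ i, ∃ s, s ∉ P₁ i ∧ algebraMap R ↥(H40.chartB R J) π ∣ s * b) →
      algebraMap R ↥(H40.chartB R J) π ∣ b)
    (hsat₂ : ∀ b : ↥(H40.chartB R J⁻¹),
      (∀ i, ∃ s, s ∉ P₂ i ∧ algebraMap R ↥(H40.chartB R J⁻¹) π ∣ s * b) →
      algebraMap R ↥(H40.chartB R J⁻¹) π ∣ b)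
    (hsat₁₂ : ∀ b : ↥(H83.chart12 R J),
      (∀ k, ∃ s, s ∉ P₁₂ k ∧ algebraMap R ↥(H83.chart12 R J) π ∣ s * b) →
      algebraMap R ↥(H83.chart12 R J) π ∣ b)
    {ν κ : Type*} (O : ν → Subring F) (V : κ → ValuationSubring F) (Thr : ν → κ → Prop)
    (pt₁ : ∀ n : Ideal ↥(H40.chartB R J), n.IsMaximal →
      algebraMap R ↥(H40.chartB R J) π ∈ n → ν)
    (pt₂ : ∀ n : Ideal ↥(H40.chartB R J⁻¹), n.IsMaximal →
      algebraMap R ↥(H40.chartB R J⁻¹) π ∈ n → ν)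
    (vert : ι → κ)
    (hO₁ : ∀ n hn hπn (x : F), x ∈ O (pt₁ n hn hπn) → ∃ a s : ↥(H40.chartB R J), s ∉ n ∧
      x * algebraMap ↥(H40.chartB R J) F s = algebraMap ↥(H40.chartB R J) F a)
    (hO₂ : ∀ n hn hπn (x : F), x ∈ O (pt₂ n hn hπn) → ∃ a s : ↥(H40.chartB R J⁻¹), s ∉ n ∧
      x * algebraMap ↥(H40.chartB R J⁻¹) F s = algebraMap ↥(H40.chartB R J⁻¹) F a)
    (hThr₁ : ∀ n hn hπn k, P₁ k ≤ n → Thr (pt₁ n hn hπn) (vert k))
    (hThr₂ : ∀ n hn hπn k, P₂ k ≤ n → Thr (pt₂ n hn hπn) (vert k))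
    (hV₁ : ∀ k (x : F), H47.OneU (V (vert k)) x →
      InPiB (K := F) (algebraMap R ↥(H40.chartB R J) π) (P₁ k) (x - 1))
    (hV₂ : ∀ k (x : F), H47.OneU (V (vert k)) x →
      InPiB (K := F) (algebraMap R ↥(H40.chartB R J⁻¹) π) (P₂ k) (x - 1)) :
    ∀ u : F, u ≠ 0 → H47.LocalDatum O V Thr π u l →
      ∃ (c : K) (g : F), u = algebraMap K F c * g ^ l := by
  intro u _ hD
  have hfdinv : FiniteDimensional K⟮J⁻¹⟯ F := by
    have e : K⟮J⁻¹⟯ = K⟮J⟯ := by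
      apply le_antisymm
      · rw [IntermediateField.adjoin_simple_le_iff]
        exact inv_mem (IntermediateField.mem_adjoin_simple_self K J)
      · rw [IntermediateField.adjoin_simple_le_iff]
        have := inv_mem (IntermediateField.mem_adjoin_simple_self K J⁻¹)
        rwa [inv_inv] at this
    rw [e]
    infer_instance
  have := H3.isFractionRing_chartB (R := R) (K := K) J
  have := H3.isFractionRing_chartB (R := R) (K := K) J⁻¹
  -- the chart-form datum at a maximal ideal, generic in the chart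
  have key : ∀ {B : Type v} [CommRing B] [IsDomain B] [Algebra B F] [IsFractionRing B F]
      [Algebra R B] [IsScalarTower R B F] (Pv : ι → Ideal B) (_ : ∀ i, (Pv i).IsPrime)
      (_ : ∀ i, algebraMap R B π ∈ Pv i)
      (pt : ∀ n : Ideal B, n.IsMaximal → algebraMap R B π ∈ n → ν)
      (_ : ∀ n hn hπn (x : F), x ∈ O (pt n hn hπn) → ∃ a s : B, s ∉ n ∧
        x * algebraMap B F s = algebraMap B F a)
      (_ : ∀ n hn hπn k, Pv k ≤ n → Thr (pt n hn hπn) (vert k))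
      (_ : ∀ k (x : F), H47.OneU (V (vert k)) x →
        InPiB (K := F) (algebraMap R B π) (Pv k) (x - 1)),
      (∀ i, InPiB (K := F) (algebraMap R B π) (Pv i) (u - 1)) ∧
      ∀ n : Ideal B, n.IsMaximal → algebraMap R B π ∈ n → ∃ ψ : F, ψ ≠ 0 ∧
        (∃ a s : B, s ∉ n ∧ u * algebraMap B F s = ψ ^ l * algebraMap B F a) ∧
        ∀ i, Pv i ≤ n → InPiB (K := F) (algebraMap R B π) (Pv i) (ψ - 1) := by
    intro B _ _ _ _ _ _ Pv hPv hπPv pt hO hThr hV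
    have hloc : ∀ n : Ideal B, n.IsMaximal → algebraMap R B π ∈ n → ∃ ψ : F, ψ ≠ 0 ∧
        ((∃ a s : B, s ∉ n ∧ u * algebraMap B F s = ψ ^ l * algebraMap B F a) ∧
          ∀ i, Pv i ≤ n → InPiB (K := F) (algebraMap R B π) (Pv i) (u / ψ ^ l - 1)) ∧
        ∀ i, Pv i ≤ n → InPiB (K := F) (algebraMap R B π) (Pv i) (ψ - 1) := by
      intro n hn hπn
      have := hn.isPrime
      obtain ⟨ψ, hψ0, hε, hψ⟩ := hD (pt n hn hπn)
      obtain ⟨h1, h2⟩ := chart_datum_of_piIn π n (O (pt n hn hπn)) (hO n hn hπn) hψ0 hε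
      refine ⟨ψ, hψ0, ⟨h1, fun i hi => ?_⟩, fun i hi => hV i ψ (hψ _ (hThr n hn hπn i hi))⟩
      have := hPv i
      exact h2.mono (Pv i) hi
    refine ⟨fun i => ?_, fun n hn hπn => ?_⟩
    · have := hPv i
      obtain ⟨n, hn, hle⟩ := Ideal.exists_le_maximal (Pv i) (Ideal.IsPrime.ne_top ‹_›)
      have := hn.isPrime
      obtain ⟨ψ, hψ0, ⟨_, hu1⟩, hψ1⟩ := hloc n hn (hle (hπPv i))
      -- `u - 1 = (u / ψ^l - 1) ψ^l + (ψ^l - 1)`
      obtain ⟨tψ, htψ, hψ'⟩ := exists_of_inPiB (Pv i) (hψ1 i hle)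
      obtain ⟨hψmem, _, _⟩ := one_add_mem_locB (Pv i) (hπPv i) htψ hψ'
      obtain ⟨t', ht', hpw⟩ := pow_sub_one_mem (Pv i) (hπPv i) htψ hψ' l
      have h3 : InPiB (K := F) (algebraMap R B π) (Pv i) (ψ ^ l - 1) :=
        (inPiB_iff (Pv i)).mpr ⟨t', ht', hpw⟩
      have heq : u - 1 = (u / ψ ^ l - 1) * ψ ^ l + (ψ ^ l - 1) := by
        have : ψ ^ l ≠ 0 := pow_ne_zero _ hψ0
        field_simp
        ring
      rw [heq]
      exact ((hu1 i hle).mul_right (Pv i) (Subalgebra.pow_mem _ hψmem l)).add (Pv i) h3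
    · obtain ⟨ψ, hψ0, ⟨h1, _⟩, hψ1⟩ := hloc n hn hπn
      exact ⟨ψ, hψ0, h1, hψ1⟩
  obtain ⟨hu₁, hloc₁⟩ := key P₁ hP₁ hπP₁ pt₁ hO₁ hThr₁ hV₁
  obtain ⟨hu₂, hloc₂⟩ := key P₂ hP₂ hπP₂ pt₂ hO₂ hThr₂ hV₂
  exact kummer_descent J htr hcl π hπ hl hrl hw P₁ P₂ P₁₂ hP₁ hP₂ hP₁₂ hπP₁ hπP₂
    (fun k => ⟨k, hcomp₁ k⟩) (fun k => ⟨k, hcomp₂ k⟩) hred₁ hred₂ hsat₁ hsat₂ hsat₁₂ u
    hu₁ hu₂ hloc₁ hloc₂

end Fermat.Agent.S34.H69
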