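import Fermat.Agent.S34.H3_VerticalCharts
import Fermat.Agent.S34.H69_KummerPowConn
import Fermat.Agent.S34.H56_DatumAdapter
import Fermat.Agent.CA.H69_GoingDownVert

/-!
# S34, L8 in assembler form (helper69)

`kummer_pow_of_reduced`: `kummer_descent_pow_conn` with the whole vertical block
(`ι P₁ P₂ P₁₂ hP hh hπP hcomp hred hsat hall`) produced inside from the reducedness `hrad₁`,
`hrad₂` of the special fibres of the two charts, and the local datum given chartwise in the shape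
of the conclusion of helper56's `H56.local_datum_of_L1`.

Ingredients:
* `self_not_mem_of_mem_minimalPrimes` : every vertical prime of `chartB R J` is visible on the
  overlap (`J ∉ P`; going-down over `R[J]`);
* `exists_vert_comap_eq` : lifting a vertical prime to a localisation;
* `localDatum_of_charts` : `H47.LocalDatum` for `H21.ptO`, `H21.primeThr` from the chart forms.
-/

set_option autoImplicit false

open Polynomial IntermediateField Fermat.Agent.S18 Fermat.Agent.CA.H69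

namespace Fermat.Agent.S34.H69

universe v

section Visible

variable {R : Type*} [CommRing R] [IsDomain R] [IsIntegrallyClosed R]
  {F : Type*} [Field F] [Algebra R F]

/-- Every vertical prime of the chart `chartB R J` is visible on the overlap: `J ∉ P`. -/
theorem self_not_mem_of_mem_minimalPrimes {J : F} (htr : Transcendental R J) {π : R}
    (hπ : Prime π) {P : Ideal ↥(H40.chartB R J)}
    (hP : P ∈ (Ideal.span {algebraMap R ↥(H40.chartB R J) π}).minimalPrimes) :
    (⟨J, H40.self_mem_chartB J⟩ : ↥(H40.chartB R J)) ∉ P := by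
  obtain ⟨hπA, hJA, hic⟩ := prime_algebraMap_adjoin htr hπ
  have hfs : FaithfulSMul ↥(Algebra.adjoin R {J}) ↥(integralClosure ↥(Algebra.adjoin R {J}) F) :=
    (faithfulSMul_iff_algebraMap_injective _ _).2 (by
      intro a b hab
      apply Subtype.ext
      exact congrArg (fun z : ↥(integralClosure ↥(Algebra.adjoin R {J}) F) => (z : F)) hab)
  let P' : Ideal ↥(integralClosure ↥(Algebra.adjoin R {J}) F) := P
  have hP' : P' ∈ (Ideal.span {algebraMap ↥(Algebra.adjoin R {J})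
      ↥(integralClosure ↥(Algebra.adjoin R {J}) F) (algebraMap R ↥(Algebra.adjoin R {J}) π)}
        : Ideal ↥(integralClosure ↥(Algebra.adjoin R {J}) F)).minimalPrimes := hP
  exact not_mem_of_mem_minimalPrimes hπA hP' hJA

end Visible

section Lift

variable {B B' : Type*} [CommRing B] [CommRing B'] [Algebra B B'] (S : Submonoid B)
  [IsLocalization S B'] {π : B}

include S in
/-- A vertical prime disjoint from `S` is the contraction of a vertical prime of `S⁻¹ B`. -/
theorem exists_vert_comap_eq (P : H3.Vert π) (hdisj : Disjoint (S : Set B) ((P : Ideal B) : Set B)) :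
    ∃ P' : H3.Vert (algebraMap B B' π), (P' : Ideal B').comap (algebraMap B B') = P := by
  have hPp : (P : Ideal B).IsPrime := P.isPrime
  have hc : ((P : Ideal B).map (algebraMap B B')).comap (algebraMap B B') = P :=
    IsLocalization.under_map_of_isPrime_disjoint S B' hPp hdisj
  have h2 : (Ideal.span {algebraMap B B' π} : Ideal B') =
      (Ideal.span {π} : Ideal B).map (algebraMap B B') := by
    rw [Ideal.map_span, Set.image_singleton]
  refine ⟨⟨(P : Ideal B).map (algebraMap B B'), ?_⟩, hc⟩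
  rw [h2, IsLocalization.minimalPrimes_map S, Set.mem_preimage]
  have h3 : Ideal.comap (algebraMap B B') (Ideal.map (algebraMap B B') (P : Ideal B)) ∈
      (Ideal.span {π} : Ideal B).minimalPrimes := by
    rw [hc]; exact P.2
  exact h3

end Lift

section Height

variable {B : Type*} [CommRing B] [IsDomain B] [IsNoetherianRing B]

/-- A minimal prime over a nonzero principal ideal of a noetherian domain has height one. -/
theorem height_eq_one_of_mem_minimalPrimes {x : B} (hx : x ≠ 0) {P : Ideal B}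
    (hP : P ∈ (Ideal.span {x} : Ideal B).minimalPrimes) : P.height = 1 := by
  have hPp : P.IsPrime := hP.1.1
  refine le_antisymm
    (Ideal.height_le_one_of_isPrincipal_of_mem_minimalPrimes (Ideal.span {x}) P hP) ?_
  rw [Order.one_le_iff_ne_zero, Ne, Ideal.height_eq_zero_iff_eq_bot]
  intro h
  apply hx
  have : x ∈ P := hP.1.2 (Ideal.mem_span_singleton_self x)
  rw [h] at this
  exact this

end Height

section Datum

variable {R K0 F : Type*} [CommRing R] [IsDomain R] [IsDiscreteValuationRing R]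
  [Field K0] [Algebra R K0] [IsFractionRing R K0]
  [Field F] [Algebra R F] [Algebra K0 F] [IsScalarTower R K0 F]
  {B₁ B₂ B₁₂ : Subalgebra R F} [IsFractionRing B₁ F] [IsFractionRing B₂ F] [IsFractionRing B₁₂ F]
  [IsNoetherianRing B₁] [IsNoetherianRing B₂] [IsIntegrallyClosed B₁] [IsIntegrallyClosed B₂]
  {κ : Type*} {π : R} {P₁ : κ → Ideal B₁} {P₂ : κ → Ideal B₂} {P₁₂ : κ → Ideal B₁₂}

variable (K0) in
include K0 in
/-- **The local datum in `H47` vocabulary from the chart forms** (the conclusion of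
`H56.local_datum_of_L1`, first two clauses, at every closed point of both charts). -/
theorem localDatum_of_charts [hP₁ : ∀ k, (P₁ k).IsPrime] [hP₂ : ∀ k, (P₂ k).IsPrime]
    [hP₁₂ : ∀ k, (P₁₂ k).IsPrime] (hπ : Irreducible π) (h₁ : B₁ ≤ B₁₂) (h₂ : B₂ ≤ B₁₂)
    (hh₁ : ∀ k, (P₁ k).height = 1) (hh₂ : ∀ k, (P₂ k).height = 1)
    (hπ₁ : ∀ k, algebraMap R B₁ π ∈ P₁ k) (hπ₂ : ∀ k, algebraMap R B₂ π ∈ P₂ k)
    (hπ₁₂ : ∀ k, algebraMap R B₁₂ π ∈ P₁₂ k)
    (hcomp₁ : ∀ k (s : B₁), s ∉ P₁ k → Subalgebra.inclusion h₁ s ∉ P₁₂ k)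
    (hcomp₂ : ∀ k (s : B₂), s ∉ P₂ k → Subalgebra.inclusion h₂ s ∉ P₁₂ k)
    (hred₁ : ∀ k, ∀ b ∈ P₁ k, ∃ s, s ∉ P₁ k ∧ algebraMap R B₁ π ∣ s * b)
    (hred₂ : ∀ k, ∀ b ∈ P₂ k, ∃ s, s ∉ P₂ k ∧ algebraMap R B₂ π ∣ s * b)
    {u : F} {m : ℕ}
    (hloc₁ : ∀ n : Ideal B₁, n.IsMaximal → algebraMap R B₁ π ∈ n → ∃ ψ : F, ψ ≠ 0 ∧
      (∃ a b : B₁, b ∉ n ∧ a - b ∈ Ideal.span {algebraMap R B₁ π} ∧
        u * algebraMap B₁ F b = ψ ^ m * algebraMap B₁ F a) ∧
      (∀ P : Ideal B₁, P.IsPrime → P.height = 1 → algebraMap R B₁ π ∈ P →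
        ∃ a b : B₁, b ∉ P ∧
          (ψ - 1) * algebraMap B₁ F b = algebraMap B₁ F (algebraMap R B₁ π * a)))
    (hloc₂ : ∀ n : Ideal B₂, n.IsMaximal → algebraMap R B₂ π ∈ n → ∃ ψ : F, ψ ≠ 0 ∧
      (∃ a b : B₂, b ∉ n ∧ a - b ∈ Ideal.span {algebraMap R B₂ π} ∧
        u * algebraMap B₂ F b = ψ ^ m * algebraMap B₂ F a) ∧
      (∀ P : Ideal B₂, P.IsPrime → P.height = 1 → algebraMap R B₂ π ∈ P →
        ∃ a b : B₂, b ∉ P ∧
          (ψ - 1) * algebraMap B₂ F b = algebraMap B₂ F (algebraMap R B₂ π * a))) :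
    H47.LocalDatum (H21.ptO B₁ B₂ π)
      (fun k => H56.valuationSubringAt (K := F) (P₁ k) (hh₁ k))
      (H21.primeThr (π := π) P₁ P₂) π u m := by
  have hVeq : ∀ k, H56.valuationSubringAt (K := F) (P₁ k) (hh₁ k)
      = H56.valuationSubringAt (K := F) (P₂ k) (hh₂ k) := fun k =>
    H21.valuationSubringAt_eq K0 hπ h₁ h₂ (P₁ k) (P₂ k) (P₁₂ k) (hh₁ k) (hh₂ k) (hπ₁ k)
      (hπ₂ k) (hπ₁₂ k) (hcomp₁ k) (hcomp₂ k) (hred₁ k) (hred₂ k)
  rintro (n | n)
  · have hnp : n.1.IsPrime := n.2.1.isPrime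
    obtain ⟨ψ, hψ0, hchart, hψ1⟩ := hloc₁ n.1 n.2.1 n.2.2
    refine ⟨ψ, hψ0, ?_, ?_⟩
    · obtain ⟨y, hy, hxy⟩ := H56.piIn_of_chart (K := F) π n.1 hψ0 hchart
      exact ⟨y, hy, hxy⟩
    · intro k _
      exact H56.oneU_of_chart (P₁ k) (hh₁ k) (hπ₁ k) (hψ1 (P₁ k) (hP₁ k) (hh₁ k) (hπ₁ k))
  · have hnp : n.1.IsPrime := n.2.1.isPrime
    obtain ⟨ψ, hψ0, hchart, hψ1⟩ := hloc₂ n.1 n.2.1 n.2.2
    refine ⟨ψ, hψ0, ?_, ?_⟩
    · obtain ⟨y, hy, hxy⟩ := H56.piIn_of_chart (K := F) π n.1 hψ0 hchart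
      exact ⟨y, hy, hxy⟩
    · intro k _
      have h := H56.oneU_of_chart (K := F) (P₂ k) (hh₂ k) (hπ₂ k)
        (hψ1 (P₂ k) (hP₂ k) (hh₂ k) (hπ₂ k))
      exact (H21.valuation_lt_one_congr (hVeq k) _).mpr h

end Datum

section AwayFam

variable {R : Type*} [CommRing R] {F : Type*} [Field F] [Algebra R F]

/-- The contraction to `B` of a vertical prime of `C ⊇ B`. -/
def vertUnder {B C : Subalgebra R F} (hBC : B ≤ C) (π : R)
    (k : H3.Vert (algebraMap R ↥C π)) : Ideal ↥B :=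
  (k : Ideal ↥C).comap (Subalgebra.inclusion hBC)

theorem mem_vertUnder {B C : Subalgebra R F} (hBC : B ≤ C) (π : R)
    (k : H3.Vert (algebraMap R ↥C π)) (s : ↥B) :
    s ∈ vertUnder hBC π k ↔ Subalgebra.inclusion hBC s ∈ (k : Ideal ↥C) := Iff.rfl

instance vertUnder_isPrime {B C : Subalgebra R F} (hBC : B ≤ C) (π : R)
    (k : H3.Vert (algebraMap R ↥C π)) : (vertUnder hBC π k).IsPrime := by
  have := k.isPrime
  exact Ideal.comap_isPrime _ _

/-- The contraction of a vertical prime of `C = B[1/u]` is a vertical prime of `B`. -/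
theorem vertUnder_mem_minimalPrimes {B C : Subalgebra R F} (hBC : B ≤ C) (u : ↥B)
    (hloc : @IsLocalization.Away ↥B _ u ↥C _ (Subalgebra.inclusion hBC).toRingHom.toAlgebra)
    (π : R) (k : H3.Vert (algebraMap R ↥C π)) :
    vertUnder hBC π k ∈ (Ideal.span {algebraMap R ↥B π} : Ideal ↥B).minimalPrimes := by
  let _ : Algebra ↥B ↥C := (Subalgebra.inclusion hBC).toRingHom.toAlgebra
  have hπ : algebraMap ↥B ↥C (algebraMap R ↥B π) = algebraMap R ↥C π :=
    (Subalgebra.inclusion hBC).commutes π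
  obtain ⟨P, hP⟩ := k
  have hP' : P ∈ (Ideal.span {algebraMap ↥B ↥C (algebraMap R ↥B π)} : Ideal ↥C).minimalPrimes := by
    rw [hπ]; exact hP
  have hloc' : IsLocalization (Submonoid.powers u) ↥C := hloc
  exact H3.under_mem_vert (Submonoid.powers u) ⟨P, hP'⟩

/-- Every vertical prime of `B` not containing `u` is the contraction of a vertical prime of
`C = B[1/u]`. -/
theorem exists_vertUnder_eq {B C : Subalgebra R F} (hBC : B ≤ C) (u : ↥B)
    (hloc : @IsLocalization.Away ↥B _ u ↥C _ (Subalgebra.inclusion hBC).toRingHom.toAlgebra)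
    (π : R) (P : H3.Vert (algebraMap R ↥B π)) (hu : u ∉ (P : Ideal ↥B)) :
    ∃ k : H3.Vert (algebraMap R ↥C π), vertUnder hBC π k = (P : Ideal ↥B) := by
  let _ : Algebra ↥B ↥C := (Subalgebra.inclusion hBC).toRingHom.toAlgebra
  have hπ : algebraMap ↥B ↥C (algebraMap R ↥B π) = algebraMap R ↥C π :=
    (Subalgebra.inclusion hBC).commutes π
  have hloc' : IsLocalization (Submonoid.powers u) ↥C := hloc
  have hdisj : Disjoint ((Submonoid.powers u : Submonoid ↥B) : Set ↥B)
      ((P : Ideal ↥B) : Set ↥B) := by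
    have := P.isPrime
    rw [Ideal.disjoint_powers_iff_notMem_of_isPrime]
    exact hu
  obtain ⟨P', hP'⟩ := exists_vert_comap_eq (B' := ↥C) (Submonoid.powers u) P hdisj
  obtain ⟨Q, hQ⟩ := P'
  have hQ' : Q ∈ (Ideal.span {algebraMap R ↥C π} : Ideal ↥C).minimalPrimes := by
    rw [← hπ]; exact hQ
  exact ⟨⟨Q, hQ'⟩, hP'⟩

end AwayFam

section AwayBlock

variable {R : Type*} [CommRing R] {F : Type*} [Field F] [Algebra R F]
  {B C : Subalgebra R F} (hBC : B ≤ C) (u : ↥B)
  (hloc : @IsLocalization.Away ↥B _ u ↥C _ (Subalgebra.inclusion hBC).toRingHom.toAlgebra)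
  (π : R)

include hloc in
theorem algebraMap_mem_vertUnder (k : H3.Vert (algebraMap R ↥C π)) :
    algebraMap R ↥B π ∈ vertUnder hBC π k :=
  (vertUnder_mem_minimalPrimes hBC u hloc π k).1.2 (Ideal.mem_span_singleton_self _)

include hloc in
theorem vertUnder_height [IsNoetherianRing ↥B] (hπ0 : algebraMap R ↥B π ≠ 0)
    (k : H3.Vert (algebraMap R ↥C π)) : (vertUnder hBC π k).height = 1 :=
  height_eq_one_of_mem_minimalPrimes hπ0 (vertUnder_mem_minimalPrimes hBC u hloc π k)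

include hloc in
theorem vertUnder_hred [IsNoetherianRing ↥B]
    (hrad : ∀ b : ↥B, (∃ n : ℕ, algebraMap R ↥B π ∣ b ^ n) → algebraMap R ↥B π ∣ b)
    (k : H3.Vert (algebraMap R ↥C π)) :
    ∀ b ∈ vertUnder hBC π k, ∃ s, s ∉ vertUnder hBC π k ∧ algebraMap R ↥B π ∣ s * b :=
  H3.vert_hred hrad ⟨vertUnder hBC π k, vertUnder_mem_minimalPrimes hBC u hloc π k⟩

include hloc in
theorem vertUnder_hsat
    (hrad : ∀ b : ↥B, (∃ n : ℕ, algebraMap R ↥B π ∣ b ^ n) → algebraMap R ↥B π ∣ b)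
    (hvis : ∀ P : H3.Vert (algebraMap R ↥B π), u ∉ (P : Ideal ↥B)) :
    ∀ b : ↥B, (∀ k : H3.Vert (algebraMap R ↥C π),
      ∃ s, s ∉ vertUnder hBC π k ∧ algebraMap R ↥B π ∣ s * b) → algebraMap R ↥B π ∣ b := by
  intro b hb
  refine H3.vert_hsat hrad b (fun P => ?_)
  obtain ⟨k, hk⟩ := exists_vertUnder_eq hBC u hloc π P (hvis P)
  rw [← hk]
  exact hb k

include hloc in
theorem vertUnder_hall (hvis : ∀ P : H3.Vert (algebraMap R ↥B π), u ∉ (P : Ideal ↥B))
    (n : Ideal ↥B) (hn : n.IsMaximal) (hπn : algebraMap R ↥B π ∈ n) :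
    ∃ k : H3.Vert (algebraMap R ↥C π), vertUnder hBC π k ≤ n := by
  have := hn.isPrime
  obtain ⟨P, hP⟩ := H3.exists_vert_le n hπn
  obtain ⟨k, hk⟩ := exists_vertUnder_eq hBC u hloc π P (hvis P)
  exact ⟨k, hk ▸ hP⟩

end AwayBlock

/-- **L8 in assembler form.**  `R` a DVR with uniformiser `π`, fraction field `K` algebraically
closed in `F`, coordinate `J` with `F / K(J)` finite separable, `l` a prime invertible in `R` with
a primitive `l`-th root of unity and `l`-th roots modulo `π`, the special fibres of the two charts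
`chartB R J^{±1}` reduced (`hrad₁`, `hrad₂`).  A function `u ≠ 0` which has, at every closed point
of the special fibre of either chart, a local datum for `l ^ k` (chart form: the conclusion of
`H56.local_datum_of_L1`) is a constant times an `l ^ k`-th power. -/
theorem kummer_pow_of_reduced
    {R : Type*} [CommRing R] [IsDomain R] [IsDiscreteValuationRing R]
    {K : Type*} [Field K] [Algebra R K] [IsFractionRing R K]
    {F : Type v} [Field F] [Algebra R F] [Algebra K F] [IsScalarTower R K F]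
    (J : F) (htr : Transcendental K J) [FiniteDimensional K⟮J⟯ F] [Algebra.IsSeparable K⟮J⟯ F]
    (hcl : ∀ z : F, IsAlgebraic K z → z ∈ (algebraMap K F).range)
    (π : R) (hπ : Irreducible π)
    {l : ℕ} (hl : l.Prime) (hlu : IsUnit ((l : ℕ) : R)) {ζ : R} (hζ : IsPrimitiveRoot ζ l)
    (hroot : ∀ r : R, IsUnit r → ∃ γ : R, IsUnit γ ∧ π ∣ γ ^ l * r - 1)
    (hrad₁ : ∀ b : ↥(H40.chartB R J),
      (∃ n : ℕ, algebraMap R ↥(H40.chartB R J) π ∣ b ^ n) →
        algebraMap R ↥(H40.chartB R J) π ∣ b)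
    (hrad₂ : ∀ b : ↥(H40.chartB R J⁻¹),
      (∃ n : ℕ, algebraMap R ↥(H40.chartB R J⁻¹) π ∣ b ^ n) →
        algebraMap R ↥(H40.chartB R J⁻¹) π ∣ b)
    (k : ℕ) (u : F) (hu0 : u ≠ 0)
    (hloc₁ : ∀ n : Ideal ↥(H40.chartB R J), n.IsMaximal →
      algebraMap R ↥(H40.chartB R J) π ∈ n → ∃ ψ : F, ψ ≠ 0 ∧
      (∃ a b : ↥(H40.chartB R J), b ∉ n ∧
        a - b ∈ Ideal.span {algebraMap R ↥(H40.chartB R J) π} ∧
        u * algebraMap ↥(H40.chartB R J) F b = ψ ^ (l ^ k) * algebraMap ↥(H40.chartB R J) F a) ∧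
      (∀ P : Ideal ↥(H40.chartB R J), P.IsPrime → P.height = 1 →
        algebraMap R ↥(H40.chartB R J) π ∈ P → ∃ a b : ↥(H40.chartB R J), b ∉ P ∧
          (ψ - 1) * algebraMap ↥(H40.chartB R J) F b =
            algebraMap ↥(H40.chartB R J) F (algebraMap R ↥(H40.chartB R J) π * a)))
    (hloc₂ : ∀ n : Ideal ↥(H40.chartB R J⁻¹), n.IsMaximal →
      algebraMap R ↥(H40.chartB R J⁻¹) π ∈ n → ∃ ψ : F, ψ ≠ 0 ∧
      (∃ a b : ↥(H40.chartB R J⁻¹), b ∉ n ∧
        a - b ∈ Ideal.span {algebraMap R ↥(H40.chartB R J⁻¹) π} ∧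
        u * algebraMap ↥(H40.chartB R J⁻¹) F b =
          ψ ^ (l ^ k) * algebraMap ↥(H40.chartB R J⁻¹) F a) ∧
      (∀ P : Ideal ↥(H40.chartB R J⁻¹), P.IsPrime → P.height = 1 →
        algebraMap R ↥(H40.chartB R J⁻¹) π ∈ P → ∃ a b : ↥(H40.chartB R J⁻¹), b ∉ P ∧
          (ψ - 1) * algebraMap ↥(H40.chartB R J⁻¹) F b =
            algebraMap ↥(H40.chartB R J⁻¹) F (algebraMap R ↥(H40.chartB R J⁻¹) π * a))) :
    ∃ (c : K) (g : F), c ≠ 0 ∧ g ≠ 0 ∧ u = algebraMap K F c * g ^ (l ^ k) := by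
  classical
  have hJ0 : J ≠ 0 := fun h => htr (h ▸ isAlgebraic_zero)
  have htr' : Transcendental K J⁻¹ := fun h => htr (by simpa using h.inv)
  have e : K⟮J⁻¹⟯ = K⟮J⟯ := by
    apply le_antisymm
    · rw [IntermediateField.adjoin_simple_le_iff]
      exact inv_mem (IntermediateField.mem_adjoin_simple_self K J)
    · rw [IntermediateField.adjoin_simple_le_iff]
      have := inv_mem (IntermediateField.mem_adjoin_simple_self K J⁻¹)
      rwa [inv_inv] at this
  have hfdinv : FiniteDimensional K⟮J⁻¹⟯ F := by rw [e]; infer_instance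
  have hsepinv : Algebra.IsSeparable K⟮J⁻¹⟯ F := by rw [e]; infer_instance
  have hπp : Prime π := hπ.prime
  have hinj : Function.Injective (algebraMap R F) :=
    H21.algebraMap_injective_of_tower (R := R) K (F := F)
  have hF₁ := H3.isFractionRing_chartB (R := R) (K := K) J
  have hF₂ := H3.isFractionRing_chartB (R := R) (K := K) J⁻¹
  have hI₁ := H3.isIntegrallyClosed_chartB (R := R) (K := K) J
  have hI₂ := H3.isIntegrallyClosed_chartB (R := R) (K := K) J⁻¹
  have hF₁₂ := isFractionRing_chart12 (R := R) (K := K) J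
  have hN₁ := H3.isNoetherianRing_chartB' (R := R) (K := K) J htr
  have hN₂ := H3.isNoetherianRing_chartB' (R := R) (K := K) J⁻¹ htr'
  have hloc12 := H3.isLocalization_chart12 (R := R) J hJ0
  have hloc12' := H3.isLocalization_chart12_inv (R := R) J hJ0
  have hrad₁₂ := H3.hrad_of_away (H83.chartB_le_chart12 (R := R) J) _ hloc12 π hrad₁
  have hπ0₁ : algebraMap R ↥(H40.chartB R J) π ≠ 0 := by
    intro h
    apply hπ.ne_zero
    apply hinj
    rw [map_zero]
    exact congrArg (fun x : ↥(H40.chartB R J) => (x : F)) h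
  have hπ0₂ : algebraMap R ↥(H40.chartB R J⁻¹) π ≠ 0 := by
    intro h
    apply hπ.ne_zero
    apply hinj
    rw [map_zero]
    exact congrArg (fun x : ↥(H40.chartB R J⁻¹) => (x : F)) h
  have hvis₁ : ∀ P : H3.Vert (algebraMap R ↥(H40.chartB R J) π),
      (⟨J, H40.self_mem_chartB J⟩ : ↥(H40.chartB R J)) ∉ (P : Ideal ↥(H40.chartB R J)) :=
    fun P => self_not_mem_of_mem_minimalPrimes (H40.transcendental_of_tower J htr) hπp P.2
  have hvis₂ : ∀ P : H3.Vert (algebraMap R ↥(H40.chartB R J⁻¹) π),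
      (⟨J⁻¹, H40.self_mem_chartB J⁻¹⟩ : ↥(H40.chartB R J⁻¹)) ∉
        (P : Ideal ↥(H40.chartB R J⁻¹)) :=
    fun P => self_not_mem_of_mem_minimalPrimes (H40.transcendental_of_tower J⁻¹ htr') hπp P.2
  have hfin : Finite (H3.Vert (algebraMap R ↥(H83.chart12 R J) π)) := by
    have hN₁₂ : IsNoetherianRing ↥(H83.chart12 R J) := by
      let _ : Algebra ↥(H40.chartB R J) ↥(H83.chart12 R J) := H3.chart12Algebra (R := R) J
      have hL₁ : IsLocalization
          (Submonoid.powers (⟨J, H40.self_mem_chartB J⟩ : ↥(H40.chartB R J)))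
          ↥(H83.chart12 R J) := hloc12
      exact IsLocalization.isNoetherianRing
        (Submonoid.powers (⟨J, H40.self_mem_chartB J⟩ : ↥(H40.chartB R J))) _ hN₁
    exact H3.Vert.finite
  have hne : Nonempty (H3.Vert (algebraMap R ↥(H83.chart12 R J) π)) := by
    obtain ⟨P⟩ := H3.Vert.nonempty (H3.not_isUnit_algebraMap_chartB (K := K) J htr π hπp)
    obtain ⟨k, -⟩ := exists_vertUnder_eq (H83.chartB_le_chart12 (R := R) J) _ hloc12 π P
      (hvis₁ P)
    exact ⟨k⟩
  have hD := localDatum_of_charts K (B₁₂ := H83.chart12 R J)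
    (P₁ := vertUnder (H83.chartB_le_chart12 (R := R) J) π)
    (P₂ := vertUnder (H83.chartB_inv_le_chart12 (R := R) J) π)
    (P₁₂ := fun k => (k : Ideal ↥(H83.chart12 R J)))
    (hP₁₂ := fun k => k.isPrime)
    hπ (H83.chartB_le_chart12 (R := R) J) (H83.chartB_inv_le_chart12 (R := R) J)
    (vertUnder_height _ _ hloc12 π hπ0₁) (vertUnder_height _ _ hloc12' π hπ0₂)
    (algebraMap_mem_vertUnder _ _ hloc12 π) (algebraMap_mem_vertUnder _ _ hloc12' π)
    (fun k => k.mem)
    (fun k s hs h => hs ((mem_vertUnder (H83.chartB_le_chart12 (R := R) J) π k s).mpr h))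
    (fun k s hs h => hs ((mem_vertUnder (H83.chartB_inv_le_chart12 (R := R) J) π k s).mpr h))
    (vertUnder_hred _ _ hloc12 π hrad₁) (vertUnder_hred _ _ hloc12' π hrad₂) hloc₁ hloc₂
  exact kummer_descent_pow_conn J htr hcl π hπ hl hlu hζ hroot
    (vertUnder (H83.chartB_le_chart12 (R := R) J) π)
    (vertUnder (H83.chartB_inv_le_chart12 (R := R) J) π)
    (fun k => (k : Ideal ↥(H83.chart12 R J)))
    (hP₁₂ := fun k => k.isPrime)
    (vertUnder_height _ _ hloc12 π hπ0₁) (vertUnder_height _ _ hloc12' π hπ0₂)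
    (algebraMap_mem_vertUnder _ _ hloc12 π) (algebraMap_mem_vertUnder _ _ hloc12' π)
    (fun k => k.mem)
    (fun k s hs h => hs ((mem_vertUnder (H83.chartB_le_chart12 (R := R) J) π k s).mpr h))
    (fun k s hs h => hs ((mem_vertUnder (H83.chartB_inv_le_chart12 (R := R) J) π k s).mpr h))
    (vertUnder_hred _ _ hloc12 π hrad₁) (vertUnder_hred _ _ hloc12' π hrad₂)
    (vertUnder_hsat _ _ hloc12 π hrad₁ hvis₁) (vertUnder_hsat _ _ hloc12' π hrad₂ hvis₂)
    (H3.vert_hsat hrad₁₂)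
    (vertUnder_hall _ _ hloc12 π hvis₁) (vertUnder_hall _ _ hloc12' π hvis₂) k u hu0 hD

end Fermat.Agent.S34.H69
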