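import Mathlib
import Fermat.Agent.CA.H79_BaseChangeNormal
import Fermat.Agent.CA.H79_GenTopBridge
import Fermat.Agent.CA.H92_LaurentConst
import Fermat.Agent.S34.H79_CutOverData
import Fermat.Agent.S34.H70_ChartPkgGlue
import Fermat.Agent.S34.H3_GlueCharts

/-!
# S34 row (R-a3b), instance part 2 (helper79): the primitive-element by-products and the set-level
description `(a)'` of the chart over `A'' = cutOver A E`

Generic (fields `K₁ ⊆ E₀`, `K₁ ⊆ F₁ ⊆ FE ⊇ E₀`):
* `algebraMap_mem_adjoin_of_adjoin_eq_top` (PE2) : if `E₀ = K₁(α)` then the image of `E₀` in `FE`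
  lies in `K₁(α_FE)`;
* `adjoin_eq_top_of_primitive` (PE3) : if moreover `FE = E₀(S)` with `S` in the image of `F₁`, then
  `FE = F₁[α_FE]`.

Concrete (`K₁ = unrCyclo q`, `E₀ = E`, `F₁ = fullC K₁ N`, `FE = fullC E N`, helper70's `letI` layer):
* `hA₂α_inst`, `htop_inst`, `hsep_inst`, `hA₂inj_inst` : the hypotheses of
  `CA.H79.isIntegral_iff_mem_genRing` (the assembled `(a)'` is in `S34/H79_ChartGenInst`).
-/

set_option autoImplicit false
set_option linter.unusedSectionVars false
set_option linter.style.haveILetI false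
set_option synthInstance.maxHeartbeats 400000

namespace Fermat.Agent.S34.H79

noncomputable section

/-! ### generic part -/

section Generic

variable {K₁ E₀ F₁ FE : Type*} [Field K₁] [Field E₀] [Field F₁] [Field FE]
  [Algebra K₁ E₀] [Algebra K₁ F₁] [Algebra F₁ FE] [Algebra E₀ FE] [Algebra K₁ FE]
  [IsScalarTower K₁ F₁ FE] [IsScalarTower K₁ E₀ FE]

omit [Field F₁] [Algebra K₁ F₁] [Algebra F₁ FE] [IsScalarTower K₁ F₁ FE] in
/-- (PE2) If `E₀ = K₁(α)`, the image of `E₀` in `FE` lies in `K₁(α_FE)`. -/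
theorem algebraMap_mem_adjoin_of_adjoin_eq_top {α : E₀}
    (hα : IntermediateField.adjoin K₁ {α} = ⊤) (c : E₀) :
    algebraMap E₀ FE c ∈ IntermediateField.adjoin K₁ {algebraMap E₀ FE α} := by
  have h1 : c ∈ IntermediateField.adjoin K₁ {α} := by rw [hα]; exact IntermediateField.mem_top
  have h2 := IntermediateField.adjoin_map K₁ {α} (IsScalarTower.toAlgHom K₁ E₀ FE)
  rw [Set.image_singleton] at h2
  have h3 : algebraMap E₀ FE c ∈
      (IntermediateField.adjoin K₁ {α}).map (IsScalarTower.toAlgHom K₁ E₀ FE) := ⟨c, h1, rfl⟩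
  rw [h2] at h3
  exact h3

/-- (PE3) If `E₀ = K₁(α)` is algebraic over `K₁` and `FE = E₀(S)` with `S` in the image of `F₁`,
then `FE = F₁[α_FE]`. -/
theorem adjoin_eq_top_of_primitive [Algebra.IsAlgebraic K₁ E₀] {α : E₀}
    (hα : IntermediateField.adjoin K₁ {α} = ⊤) (S : Set FE)
    (hS : IntermediateField.adjoin E₀ S = ⊤)
    (hSF : ∀ s ∈ S, s ∈ Set.range (algebraMap F₁ FE)) :
    Algebra.adjoin F₁ {algebraMap E₀ FE α} = ⊤ := by
  have hαint : IsIntegral F₁ (algebraMap E₀ FE α) := by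
    have h0 : IsIntegral K₁ α := Algebra.IsIntegral.isIntegral α
    have h1 : IsIntegral K₁ (algebraMap E₀ FE α) := h0.map (IsScalarTower.toAlgHom K₁ E₀ FE)
    exact h1.tower_top
  rw [← IntermediateField.adjoin_simple_toSubalgebra_of_isAlgebraic hαint.isAlgebraic]
  set L := IntermediateField.adjoin F₁ {algebraMap E₀ FE α} with hL
  have hle1 : IntermediateField.adjoin K₁ {algebraMap E₀ FE α} ≤ L.restrictScalars K₁ := by
    rw [IntermediateField.adjoin_le_iff]
    intro x hx
    rw [Set.mem_singleton_iff] at hx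
    rw [hx]
    exact IntermediateField.mem_adjoin_simple_self F₁ _
  have hE : ∀ c : E₀, algebraMap E₀ FE c ∈ L.toSubfield := fun c =>
    hle1 (algebraMap_mem_adjoin_of_adjoin_eq_top hα c)
  have hle : IntermediateField.adjoin E₀ S ≤ L.toSubfield.toIntermediateField hE := by
    rw [IntermediateField.adjoin_le_iff]
    intro s hs
    obtain ⟨x, rfl⟩ := hSF s hs
    exact L.algebraMap_mem x
  rw [hS] at hle
  rw [eq_top_iff]
  intro z _
  exact hle (IntermediateField.mem_top : z ∈ (⊤ : IntermediateField E₀ FE))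

end Generic

/-! ### concrete part -/

section Concrete

open ModularCurve HahnSeries IsLocalRing Fermat.Agent.S18 Fermat.Agent.CA

local notation "Qbar" => AlgebraicClosure ℚ

variable {A : ValuationSubring Qbar} {q : ℕ} (hq : q.Prime) (hA : A.LiesOverPrime q)
variable (E : IntermediateField (H45.unrCyclo q) Qbar) (N : ℕ) [NeZero N]

set_option maxHeartbeats 1600000 in
/-- `hA₂inj` of `CA.H79.isIntegral_iff_mem_genRing` at the concrete types. -/
theorem hA₂inj_inst :
    Function.Injective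
      (algebraMap ↥(H45.cutOver A E) ↥(modularFunctionFieldFullC ↥E N)) := by
  intro a b hab
  have h1 : algebraMap ↥E ↥(modularFunctionFieldFullC ↥E N) (a : ↥E) =
      algebraMap ↥E ↥(modularFunctionFieldFullC ↥E N) (b : ↥E) := hab
  exact Subtype.ext ((algebraMap ↥E ↥(modularFunctionFieldFullC ↥E N)).injective h1)

set_option maxHeartbeats 1600000 in
/-- (PE2) `hA₂α` of `CA.H79.isIntegral_iff_mem_genRing` at the concrete types. -/
theorem hA₂α_inst {α : ↥(H45.cutOver A E)}
    (hα : IntermediateField.adjoin ↥(H45.unrCyclo q) {(α : ↥E)} = ⊤)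
    (a : ↥(H45.cutOver A E)) :
    letI := H70.algK1FE (q := q) E N
    algebraMap ↥(H45.cutOver A E) ↥(modularFunctionFieldFullC ↥E N) a ∈
      IntermediateField.adjoin ↥(H45.unrCyclo q)
        {algebraMap ↥(H45.cutOver A E) ↥(modularFunctionFieldFullC ↥E N) α} := by
  letI := H70.algK1FE (q := q) E N
  haveI := H70.isScalarTower_K1_E_FE (q := q) E N
  exact algebraMap_mem_adjoin_of_adjoin_eq_top (K₁ := ↥(H45.unrCyclo q)) (E₀ := ↥E)
    (FE := ↥(modularFunctionFieldFullC ↥E N)) hα (a : ↥E)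

set_option maxHeartbeats 1600000 in
/-- (PE3) `htop` of `CA.H79.isIntegral_iff_mem_genRing` at the concrete types:
`F_E = F1[α]`. -/
theorem htop_inst [FiniteDimensional ↥(H45.unrCyclo q) ↥E] {α : ↥(H45.cutOver A E)}
    (hα : IntermediateField.adjoin ↥(H45.unrCyclo q) {(α : ↥E)} = ⊤) :
    letI := H70.algF1FE (q := q) E N
    Algebra.adjoin ↥(modularFunctionFieldFullC ↥(H45.unrCyclo q) N)
      {algebraMap ↥(H45.cutOver A E) ↥(modularFunctionFieldFullC ↥E N) α} = ⊤ := by
  letI := H70.algF1FE (q := q) E N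
  letI := H70.algK1FE (q := q) E N
  haveI := H70.isScalarTower_K1_F1_FE (q := q) E N
  haveI := H70.isScalarTower_K1_E_FE (q := q) E N
  refine adjoin_eq_top_of_primitive (K₁ := ↥(H45.unrCyclo q)) (E₀ := ↥E)
    (F₁ := ↥(modularFunctionFieldFullC ↥(H45.unrCyclo q) N))
    (FE := ↥(modularFunctionFieldFullC ↥E N)) hα {H16.jK ↥E N, H16.jNK ↥E N}
    (H99.adjoin_pair_eq_top₀ N ↥E) ?_
  intro s hs
  rcases hs with rfl | hs
  · exact ⟨H16.jK _ N, H45.baseChangeE_jK E N⟩
  · rw [Set.mem_singleton_iff] at hs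
    rw [hs]
    exact ⟨H16.jNK _ N, H45.baseChangeE_jNK E N⟩

set_option maxHeartbeats 1600000 in
/-- `hsep` of `CA.H79.isIntegral_iff_mem_genRing` at the concrete types (characteristic `0`). -/
theorem hsep_inst [FiniteDimensional ↥(H45.unrCyclo q) ↥E] (α : ↥(H45.cutOver A E)) :
    letI := H70.algK1FE (q := q) E N
    (minpoly ↥(H45.unrCyclo q)
      (algebraMap ↥(H45.cutOver A E) ↥(modularFunctionFieldFullC ↥E N) α)).Separable := by
  letI := H70.algK1FE (q := q) E N
  haveI := H70.isScalarTower_K1_E_FE (q := q) E N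
  have h0 : IsIntegral ↥(H45.unrCyclo q) (α : ↥E) := Algebra.IsIntegral.isIntegral _
  have h1 : IsIntegral ↥(H45.unrCyclo q)
      (algebraMap ↥E ↥(modularFunctionFieldFullC ↥E N) (α : ↥E)) :=
    h0.map (IsScalarTower.toAlgHom ↥(H45.unrCyclo q) ↥E ↥(modularFunctionFieldFullC ↥E N))
  exact (minpoly.irreducible h1).separable

end Concrete


end

end Fermat.Agent.S34.H79
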