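/-
helper83: S34, L0 helper (Mathlib only): the DUAL Kronecker congruence at the second prime `P₀`
without Atkin–Lehner, and the identification of `B / P₀` with the level-`M` special fibre.

`D = B / P₀` a domain of characteristic `q`.  From the norm-form Kronecker congruence one knows,
for every level-`M` function `ψ`, that `V ψ = c₁ ψ` or `(V ψ) ^ q = c₂ ψ` in `D`.  Both conditions
cut out subrings, and a group is not the union of two proper subgroups.
-/
import Mathlib

set_option autoImplicit false

namespace Fermat.Agent.S34.H83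

section Union

variable {BM D : Type*} [CommRing BM] [CommRing D] [IsDomain D] (q : ℕ) [Fact q.Prime] [CharP D q]

/-- **Dual Kronecker congruence** from the product form. -/
theorem pow_eq_of_mul_eq_zero (a c₁ c₂ : BM →+* D)
    (hprod : ∀ ψ : BM, (a ψ - c₁ ψ) * (a ψ ^ q - c₂ ψ) = 0)
    (j₀ : BM) (hj₀ : a j₀ ≠ c₁ j₀) : ∀ ψ : BM, a ψ ^ q = c₂ ψ := by
  have hor : ∀ ψ : BM, a ψ = c₁ ψ ∨ a ψ ^ q = c₂ ψ := by
    intro ψ
    rcases mul_eq_zero.1 (hprod ψ) with h | h
    · exact Or.inl (sub_eq_zero.1 h)
    · exact Or.inr (sub_eq_zero.1 h)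
  have hj₂ : a j₀ ^ q = c₂ j₀ := (hor j₀).resolve_left hj₀
  intro ψ
  rcases hor ψ with h1 | h2
  · -- `ψ ∈ S₁`: look at `ψ + j₀`
    rcases hor (ψ + j₀) with h | h
    · exfalso
      apply hj₀
      rw [map_add, map_add, h1] at h
      exact add_left_cancel h
    · rw [map_add, map_add, add_pow_char, hj₂] at h
      exact add_right_cancel h
  · exact h2

end Union

section Red₂

variable {R D : Type*} [CommRing R] [CommRing D] [IsDomain D] (q : ℕ) [Fact q.Prime] [CharP D q]
  (incl : R →+* D) (hincl : Function.Injective incl)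
  (hpow : ∀ z : D, ∃ r : R, incl r = z ^ q) (ρ : R ≃+* R)

/-- `z ↦ ρ (z ^ q)`, viewed in `R`. -/
noncomputable def red₂Fun (z : D) : R := ρ (Classical.choose (hpow z))

theorem incl_choose (z : D) : incl (Classical.choose (hpow z)) = z ^ q :=
  Classical.choose_spec (hpow z)

include hincl in
theorem choose_eq {z : D} {r : R} (h : incl r = z ^ q) : Classical.choose (hpow z) = r :=
  hincl (by rw [incl_choose q incl hpow z, h])

/-- The second reduction map as a ring homomorphism `D → R`. -/
noncomputable def red₂Hom : D →+* R where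
  toFun := red₂Fun q incl hpow ρ
  map_one' := by
    unfold red₂Fun
    rw [choose_eq q incl hincl hpow (z := 1) (r := 1) (by simp), map_one]
  map_mul' x y := by
    unfold red₂Fun
    rw [choose_eq q incl hincl hpow (z := x * y)
      (r := Classical.choose (hpow x) * Classical.choose (hpow y))
      (by rw [map_mul, incl_choose, incl_choose, mul_pow]), map_mul]
  map_zero' := by
    unfold red₂Fun
    rw [choose_eq q incl hincl hpow (z := 0) (r := 0)
      (by simp [(Fact.out : q.Prime).ne_zero]), map_zero]
  map_add' x y := by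
    unfold red₂Fun
    rw [choose_eq q incl hincl hpow (z := x + y)
      (r := Classical.choose (hpow x) + Classical.choose (hpow y))
      (by rw [map_add, incl_choose, incl_choose, add_pow_char]), map_add]

theorem red₂Hom_apply_of_eq {z : D} {r : R} (h : incl r = z ^ q) :
    red₂Hom q incl hincl hpow ρ z = ρ r := by
  show ρ (Classical.choose (hpow z)) = ρ r
  rw [choose_eq q incl hincl hpow h]

theorem red₂Hom_incl (r : R) : red₂Hom q incl hincl hpow ρ (incl r) = ρ r ^ q := by
  rw [red₂Hom_apply_of_eq q incl hincl hpow ρ (z := incl r) (r := r ^ q) (by rw [map_pow]),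
    map_pow]

theorem red₂Hom_eq_zero_iff (z : D) : red₂Hom q incl hincl hpow ρ z = 0 ↔ z = 0 := by
  constructor
  · intro h
    have h1 : ρ (Classical.choose (hpow z)) = 0 := h
    have h2 : Classical.choose (hpow z) = 0 := by
      have := congrArg ρ.symm h1
      simpa using this
    have h3 := incl_choose q incl hpow z
    rw [h2, map_zero] at h3
    exact pow_eq_zero_iff (Fact.out : q.Prime).ne_zero |>.1 h3.symm
  · rintro rfl
    exact map_zero _

end Red₂

end Fermat.Agent.S34.H83
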