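import Mathlib
import Fermat.Agent.S34.H90_I2

/-!
# S34 / L0 (helper90): the `q`-power endomorphism `Fr` of `F_k(N) = k(j, j_N)` in characteristic `q`

`exists_frob_fullC` : for a field `k` of characteristic `q` with `N ≠ 0` in `k` there is a
`k`-ALGEBRA endomorphism `Fr` of `modularFunctionFieldFullC k N` with `Fr j = j ^ q`,
`Fr j_N = j_N ^ q` (it is the substitution `t ↦ t^q`; `k`-linear, NOT the Frobenius of the field).
This is the `Fr` of helper55's `S18.H55T.eq_comp_of_kronecker'` / `exists_equiv_P0` (hFrx, hFrθ).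
Proof: universal property (I1) + `Φ_N(j^q, j_N^q) = Φ_N(j, j_N)^q = 0`.
-/

set_option autoImplicit false
set_option linter.unusedSectionVars false
set_option linter.style.haveILetI false
set_option synthInstance.maxHeartbeats 400000

noncomputable section

namespace Fermat.Agent.S34.H90

open ModularCurve HahnSeries Polynomial IntermediateField Fermat.Agent.S28 Fermat.Agent.S18.H16

/-- In characteristic `q`: `Φ(x^q, y^q) = Φ(x, y)^q` for `Φ ∈ ℤ[X][Y]`. -/
theorem eval₂_pow_char {R : Type*} [CommRing R] (q : ℕ) [Fact q.Prime] [CharP R q]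
    (Φ : Polynomial (Polynomial ℤ)) (x y : R) :
    Φ.eval₂ (CA.H90.evZ (x ^ q)) (y ^ q) = (Φ.eval₂ (CA.H90.evZ x) y) ^ q := by
  have h := CA.H90.map_eval₂_evZ (frobenius R q) Φ x y
  simp only [frobenius_def] at h
  exact h.symm

variable (N : ℕ) [NeZero N] (k : Type) [Field k]

/-- `Φ_N(j^q, j_N^q) = 0` in `k((t))`, `char k = q`. -/
theorem modPoly_root_pow (q : ℕ) [Fact q.Prime] [CharP k q] (D : ModularPolynomialData N) :
    D.Φ.eval₂ (CA.H90.evZ (jqModC k ^ q)) (qExpand k N (jqModC k) ^ q) = 0 := by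
  haveI : CharP (LaurentSeries k) q :=
    charP_of_injective_algebraMap (algebraMap k (LaurentSeries k)).injective q
  rw [eval₂_pow_char]
  have h0 : D.Φ.eval₂ (CA.H90.evZ (jqModC k)) (qExpand k N (jqModC k)) = 0 := by
    refine (S28.H50.eval₂_hom_congr ?_ D.Φ _).trans (modPoly_root N D k)
    simp [evalJ]
  rw [h0, zero_pow (Nat.Prime.ne_zero Fact.out)]

/-- **The `q`-power `k`-algebra endomorphism of `k(j, j_N)`** (`t ↦ t^q`). -/
theorem exists_frob_fullC (q : ℕ) [hq : Fact q.Prime] [CharP k q] (hNk : ((N : ℕ) : k) ≠ 0) :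
    ∃ Fr : ↥(modularFunctionFieldFullC k N) →ₐ[k] ↥(modularFunctionFieldFullC k N),
      Fr (jK k N) = jK k N ^ q ∧ Fr (jNK k N) = jNK k N ^ q := by
  obtain ⟨D, _, hirr⟩ := exists_modPoly_gen N
  refine exists_algHom_fullC N k hNk D (hirr k hNk) (jK k N ^ q) (jNK k N ^ q)
    ((transcendental_jK k N).pow hq.out.pos) ?_
  apply (algebraMap (↥(modularFunctionFieldFullC k N)) (LaurentSeries k)).injective
  rw [map_zero]
  refine (CA.H90.map_eval₂_evZ
    (algebraMap (↥(modularFunctionFieldFullC k N)) (LaurentSeries k)) D.Φ _ _).trans ?_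
  rw [map_pow, map_pow]
  exact modPoly_root_pow N k q D

end Fermat.Agent.S34.H90
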