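import Mathlib
import Fermat.Agent.S34.H92_GaussLevelM
import Fermat.Agent.S37.H53_Frob

/-!
# S34/S35 (helper92): coefficientwise automorphisms preserve the Gauss ring `V_M`

Generic (`TwoGen A π`): a ring automorphism `σ` of `L` preserving `A` (`σA : A →+* A`), inducing
`τ : k →+* k` on the residue side and fixing the two generators `x, y` coefficientwise, maps the
Gauss unit ball into itself and `res (σ f) = τ (res f)` coefficientwise.

Instance: for `σ : L₁ ≃+* L₁` (`L₁ = unrCyclo ℓ`) preserving `A₁ = A0 A ℓ`,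
`S37.H53.coeffRingAut L₁ M σ` preserves `VM` and `resM (σ f) = coeffMap τ (resM f)`
(`phi V_M = V_M`, `red_M ∘ phi = phibar ∘ red_M` of the S35 Frobenius package).
-/

set_option autoImplicit false
set_option synthInstance.maxHeartbeats 400000
set_option linter.unusedSectionVars false

noncomputable section

namespace Fermat.Agent.S34.H92

open ModularCurve Polynomial AlgebraicCurve IsLocalRing
open Fermat.Agent.S18 Fermat.Agent.S18.H92 Fermat.Agent.S18.H45

section Generic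

variable {L : Type*} [Field L] {A : ValuationSubring L} {k : Type*} [Field k] {π : A →+* k}
  (T : TwoGen A π)

theorem up_coeffMap (σ : L →+* L) (σA : A →+* A) (hσA : ∀ a : A, ((σA a : A) : L) = σ (a : L))
    (z : LaurentSeries A) : up A (coeffMap σA z) = coeffMap σ (up A z) := by
  show coeffMap A.subtype (coeffMap σA z) = coeffMap σ (coeffMap A.subtype z)
  rw [coeffMap_coeffMap, coeffMap_coeffMap]
  apply coeffMap_congr
  ext a
  exact hσA a

theorem coeffMap_mem_RA (σA : A →+* A) (hx : coeffMap σA T.x = T.x) (hy : coeffMap σA T.y = T.y)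
    {a : LaurentSeries A} (ha : a ∈ T.RA) : coeffMap σA a ∈ T.RA := by
  obtain ⟨P, rfl⟩ := ha
  refine ⟨P.map (Polynomial.mapRingHom σA), ?_⟩
  rw [coeffMap_ev2, hx, hy]

theorem red_coeffMap (σA : A →+* A) (τ : k →+* k) (hτ : ∀ a : A, π (σA a) = τ (π a))
    (z : LaurentSeries A) : T.red (coeffMap σA z) = coeffMap τ (T.red z) := by
  show coeffMap π (coeffMap σA z) = coeffMap τ (coeffMap π z)
  rw [coeffMap_coeffMap, coeffMap_coeffMap]
  apply coeffMap_congr
  ext a
  exact hτ a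

/-- **Coefficientwise automorphisms preserve the Gauss unit ball and commute with reduction.** -/
theorem coeffMap_mem_ball (σ : L →+* L) (σA : A →+* A)
    (hσA : ∀ a : A, ((σA a : A) : L) = σ (a : L)) (τ : k →+* k)
    (hτ : ∀ a : A, π (σA a) = τ (π a))
    (hx : coeffMap σA T.x = T.x) (hy : coeffMap σA T.y = T.y)
    {f : LaurentSeries L} (hf : f ∈ T.ball) :
    ∃ h : coeffMap σ f ∈ T.ball, T.resFun (coeffMap σ f) = coeffMap τ (T.resFun f) := by
  obtain ⟨a, ha, b, hb, hb0, hfb⟩ := hf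
  have hτinj : Function.Injective (coeffMap τ) := coeffMap_injective τ.injective
  have hb0' : T.red (coeffMap σA b) ≠ 0 := by
    rw [red_coeffMap T σA τ hτ]
    intro h
    exact hb0 (hτinj (by rw [h, map_zero]))
  have hfb' : coeffMap σ f * up A (coeffMap σA b) = up A (coeffMap σA a) := by
    rw [up_coeffMap σ σA hσA, up_coeffMap σ σA hσA, ← map_mul, hfb]
  have hmem : coeffMap σ f ∈ T.ball :=
    ⟨coeffMap σA a, coeffMap_mem_RA T σA hx hy ha, coeffMap σA b, coeffMap_mem_RA T σA hx hy hb,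
      hb0', hfb'⟩
  refine ⟨hmem, ?_⟩
  rw [T.resFun_eq hb0' hfb' hmem, T.resFun_eq hb0 hfb ⟨a, ha, b, hb, hb0, hfb⟩,
    red_coeffMap T σA τ hτ, red_coeffMap T σA τ hτ, map_div₀]

end Generic

local notation "Qbar" => AlgebraicClosure ℚ

variable (M : ℕ) [NeZero M] {ℓ : ℕ} [hℓ : Fact ℓ.Prime] (hℓM : ¬ ℓ ∣ M)
  (A : ValuationSubring Qbar) (hA : A.LiesOverPrime ℓ)

local notation "kA" => IsLocalRing.ResidueField A
local notation "A₁" => H45.A0 A ℓ
local notation "L₁" => H45.unrCyclo ℓ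
local notation "FM" => modularFunctionFieldFullC (H45.unrCyclo ℓ) M

/-- **`σ V_M ⊆ V_M` and `res_M ∘ σ = τ ∘ res_M`** for a coefficientwise automorphism `σ` of
`L₁ = unrCyclo ℓ` preserving `A₁ = A0 A ℓ` and inducing `τ` on `kA`. -/
theorem coeffRingAut_mem_VM (σ : L₁ ≃+* L₁) (σA : A₁ →+* A₁)
    (hσA : ∀ a : A₁, ((σA a : A₁) : L₁) = σ (a : L₁)) (τ : kA →+* kA)
    (hτ : ∀ a : A₁, H45.resA0 A ℓ (σA a) = τ (H45.resA0 A ℓ a))
    (f : FM) (hf : f ∈ VM M hℓM A hA) :
    ∃ h : S37.H53.coeffRingAut L₁ M σ f ∈ VM M hℓM A hA,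
      resM M hℓM A hA ⟨_, h⟩ = coeffMap τ (resM M hℓM A hA ⟨f, hf⟩) := by
  obtain ⟨h, hh⟩ := coeffMap_mem_ball (twoGenA0 M hℓM A hA) (σ : L₁ →+* L₁) σA hσA τ hτ
    (coeffMap_jqModC σA) (coeffMap_jqNModC σA M) (f := (f : LaurentSeries L₁)) hf
  exact ⟨h, hh⟩

/-- `σ V_M = V_M` when `σ` restricts to an automorphism of `A₁`. -/
theorem coeffRingAut_mem_VM_iff (σ : L₁ ≃+* L₁) (σA : A₁ ≃+* A₁)
    (hσA : ∀ a : A₁, ((σA a : A₁) : L₁) = σ (a : L₁)) (τ : kA ≃+* kA)
    (hτ : ∀ a : A₁, H45.resA0 A ℓ (σA a) = τ (H45.resA0 A ℓ a)) (f : FM) :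
    S37.H53.coeffRingAut L₁ M σ f ∈ VM M hℓM A hA ↔ f ∈ VM M hℓM A hA := by
  constructor
  · intro h
    have hσA' : ∀ a : A₁, ((σA.symm a : A₁) : L₁) = σ.symm (a : L₁) := by
      intro a
      apply σ.injective
      rw [RingEquiv.apply_symm_apply, ← hσA, RingEquiv.apply_symm_apply]
    have hτ' : ∀ a : A₁, H45.resA0 A ℓ (σA.symm a) = τ.symm (H45.resA0 A ℓ a) := by
      intro a
      apply τ.injective
      rw [RingEquiv.apply_symm_apply, ← hτ, RingEquiv.apply_symm_apply]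
    obtain ⟨h2, -⟩ := coeffRingAut_mem_VM M hℓM A hA σ.symm (σA.symm : A₁ →+* A₁) hσA'
      (τ.symm : kA →+* kA) hτ' _ h
    have e : S37.H53.coeffRingAut L₁ M σ.symm (S37.H53.coeffRingAut L₁ M σ f) = f :=
      (S37.H53.coeffRingAut L₁ M σ).symm_apply_apply f
    rwa [e] at h2
  · intro h
    exact (coeffRingAut_mem_VM M hℓM A hA σ (σA : A₁ →+* A₁) hσA (τ : kA →+* kA) hτ f h).1

end Fermat.Agent.S34.H92
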