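import Mathlib
import Fermat.Agent.S18.H92_GaussModel

/-!
# S34/S35 (helper92): functoriality of the Gauss unit ball of a `TwoGen` datum

`T₁ : TwoGen A₁ π₁` over `(L₁, A₁, k₁)`, `T₂ : TwoGen A₂ π₂` over `(L₂, A₂, k₂)`, a field hom
`σ : L₁ →+* L₂` restricting to `σA : A₁ →+* A₂`, inducing `τ : k₁ →+* k₂` on residue fields and
mapping the generators of `T₁` coefficientwise to those of `T₂`.  Then `coeffMap σ` maps the Gauss
ball of `T₁` into that of `T₂` and `res₂ (coeffMap σ f) = coeffMap τ (res₁ f)`.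

Uses: base change of the level-`M` Gauss ring from `A₁ = A0 A ℓ` to `A'' = cutOver A E`
(`τ = id`), coefficientwise automorphisms (`T₁ = T₂`).
-/

set_option autoImplicit false
set_option linter.unusedSectionVars false

noncomputable section

namespace Fermat.Agent.S34.H92

open ModularCurve Polynomial
open Fermat.Agent.S18 Fermat.Agent.S18.H92

variable {L₁ : Type*} [Field L₁] {A₁ : ValuationSubring L₁} {k₁ : Type*} [Field k₁]
  {π₁ : A₁ →+* k₁} (T₁ : TwoGen A₁ π₁)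
  {L₂ : Type*} [Field L₂] {A₂ : ValuationSubring L₂} {k₂ : Type*} [Field k₂]
  {π₂ : A₂ →+* k₂} (T₂ : TwoGen A₂ π₂)

theorem up_coeffMap_hom (σ : L₁ →+* L₂) (σA : A₁ →+* A₂)
    (hσA : ∀ a : A₁, ((σA a : A₂) : L₂) = σ (a : L₁)) (z : LaurentSeries A₁) :
    up A₂ (coeffMap σA z) = coeffMap σ (up A₁ z) := by
  show coeffMap A₂.subtype (coeffMap σA z) = coeffMap σ (coeffMap A₁.subtype z)
  rw [coeffMap_coeffMap, coeffMap_coeffMap]
  apply coeffMap_congr
  ext a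
  exact hσA a

theorem coeffMap_mem_RA_hom (σA : A₁ →+* A₂) (hx : coeffMap σA T₁.x = T₂.x)
    (hy : coeffMap σA T₁.y = T₂.y) {a : LaurentSeries A₁} (ha : a ∈ T₁.RA) :
    coeffMap σA a ∈ T₂.RA := by
  obtain ⟨P, rfl⟩ := ha
  refine ⟨P.map (Polynomial.mapRingHom σA), ?_⟩
  rw [coeffMap_ev2, hx, hy]

theorem red_coeffMap_hom (σA : A₁ →+* A₂) (τ : k₁ →+* k₂)
    (hτ : ∀ a : A₁, π₂ (σA a) = τ (π₁ a)) (z : LaurentSeries A₁) :
    T₂.red (coeffMap σA z) = coeffMap τ (T₁.red z) := by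
  show coeffMap π₂ (coeffMap σA z) = coeffMap τ (coeffMap π₁ z)
  rw [coeffMap_coeffMap, coeffMap_coeffMap]
  apply coeffMap_congr
  ext a
  exact hτ a

/-- **Functoriality of the Gauss unit ball and of its reduction map.** -/
theorem coeffMap_mem_ball_hom (σ : L₁ →+* L₂) (σA : A₁ →+* A₂)
    (hσA : ∀ a : A₁, ((σA a : A₂) : L₂) = σ (a : L₁)) (τ : k₁ →+* k₂)
    (hτ : ∀ a : A₁, π₂ (σA a) = τ (π₁ a))
    (hx : coeffMap σA T₁.x = T₂.x) (hy : coeffMap σA T₁.y = T₂.y)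
    {f : LaurentSeries L₁} (hf : f ∈ T₁.ball) :
    ∃ _ : coeffMap σ f ∈ T₂.ball, T₂.resFun (coeffMap σ f) = coeffMap τ (T₁.resFun f) := by
  obtain ⟨a, ha, b, hb, hb0, hfb⟩ := hf
  have hτinj : Function.Injective (coeffMap τ) := coeffMap_injective τ.injective
  have hb0' : T₂.red (coeffMap σA b) ≠ 0 := by
    rw [red_coeffMap_hom T₁ T₂ σA τ hτ]
    intro h
    exact hb0 (hτinj (by rw [h, map_zero]))
  have hfb' : coeffMap σ f * up A₂ (coeffMap σA b) = up A₂ (coeffMap σA a) := by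
    rw [up_coeffMap_hom σ σA hσA, up_coeffMap_hom σ σA hσA, ← map_mul, hfb]
  have hmem : coeffMap σ f ∈ T₂.ball :=
    ⟨coeffMap σA a, coeffMap_mem_RA_hom T₁ T₂ σA hx hy ha, coeffMap σA b,
      coeffMap_mem_RA_hom T₁ T₂ σA hx hy hb, hb0', hfb'⟩
  refine ⟨hmem, ?_⟩
  rw [T₂.resFun_eq hb0' hfb' hmem, T₁.resFun_eq hb0 hfb ⟨a, ha, b, hb, hb0, hfb⟩,
    red_coeffMap_hom T₁ T₂ σA τ hτ, red_coeffMap_hom T₁ T₂ σA τ hτ, map_div₀]

/-- Converse for membership when `σ` is the inclusion of a subfield with `A₁ = A₂ ∩ L₁`-type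
saturation: if the reduction data agree, an element of `F₁` whose image lies in the big ball lies
in the small ball.  (Valuation rings: `f ∉ ball₁ → f⁻¹ ∈ ball₁` with zero residue.) -/
theorem mem_ball_of_coeffMap_mem_ball (σ : L₁ →+* L₂) (σA : A₁ →+* A₂)
    (hσA : ∀ a : A₁, ((σA a : A₂) : L₂) = σ (a : L₁)) (τ : k₁ →+* k₂)
    (hτ : ∀ a : A₁, π₂ (σA a) = τ (π₁ a))
    (hx : coeffMap σA T₁.x = T₂.x) (hy : coeffMap σA T₁.y = T₂.y)
    {f : LaurentSeries L₁} (hfF : f ∈ T₁.FL) (hf : coeffMap σ f ∈ T₂.ball) : f ∈ T₁.ball := by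
  by_contra hnot
  have hf0 : f ≠ 0 := fun h => hnot (h ▸ T₁.ball.zero_mem)
  have hinv : f⁻¹ ∈ T₁.ball := (T₁.mem_or_inv_mem hfF).resolve_left hnot
  -- the residue of `f⁻¹` is zero, otherwise `f = (f⁻¹)⁻¹` would be in the ball
  have hres0 : T₁.resFun f⁻¹ = 0 := by
    by_contra hne
    have := T₁.inv_mem_ball_of_resFun_ne_zero hinv hne
    rw [inv_inv] at this
    exact hnot this
  obtain ⟨h2, hh2⟩ := coeffMap_mem_ball_hom T₁ T₂ σ σA hσA τ hτ hx hy hinv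
  rw [hres0, map_zero] at hh2
  -- but `coeffMap σ f * coeffMap σ f⁻¹ = 1` in the big ball gives residue `1 = res f * 0`
  have hmul : coeffMap σ f * coeffMap σ f⁻¹ = 1 := by
    rw [← map_mul, mul_inv_cancel₀ hf0, map_one]
  have := T₂.resFun_mul hf h2
  rw [hmul, T₂.resFun_one, hh2, mul_zero] at this
  exact one_ne_zero this

end Fermat.Agent.S34.H92
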