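/-
S34 / L0 FINAL, preliminaries (helper99): `H83.TwoComponents` between the REAL chart rings
`B = chartB A₁ J^{±1}` (level `N = ℓ M`), `BM = chartB A₁ j^{±1}` (level `M`) and
`R = integralClosure kA[j̄^{±1}] Fk(M)`, by `S34.H55.twoComponents_of_incl` applied to
helper16's two places, helper6's transport facts, helper35's `hinfF`, helper13's `hGR` and the
chart facts of `S34.H99_L0ChartInst`.
-/
import Fermat.Agent.S34.H99_L0ChartInst
import Fermat.Agent.S34.H35_SatInst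
import Fermat.Agent.S34.H13_HGRWrap
import Fermat.Agent.S34.H55_TwoComponentsIncl

set_option autoImplicit false
set_option synthInstance.maxHeartbeats 400000
set_option maxHeartbeats 1600000
set_option linter.unusedSectionVars false
set_option linter.style.haveILetI false

noncomputable section

namespace Fermat.Agent.S34.H99

open ModularCurve Polynomial IsLocalRing Fermat.Agent.S28
open Fermat.Agent.S18 Fermat.Agent.S34.H92 Fermat.Agent.S34.H16

local notation "Qbar" => AlgebraicClosure ℚ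

variable (M : ℕ) [NeZero M] {ℓ : ℕ} [hℓ : Fact ℓ.Prime] (hℓM : ¬ ℓ ∣ M)
  (A : ValuationSubring Qbar) (hA : A.LiesOverPrime ℓ)

local notation "kA" => IsLocalRing.ResidueField A
local notation "A₁" => H45.A0 A ℓ
local notation "L₁" => H45.unrCyclo ℓ
local notation "FM" => modularFunctionFieldFullC (H45.unrCyclo ℓ) M
local notation "FN" => modularFunctionFieldFullC (H45.unrCyclo ℓ) (ℓ * M)
local notation "FkM" => modularFunctionFieldFullC (IsLocalRing.ResidueField A) M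

/-- the level inclusion `F_M → F_N` as a ring homomorphism. -/
abbrev iotaN : ↥FM →+* ↥FN :=
  @algebraMap FM FN _ _ (degAlgebra L₁ M (ℓ * M) (dvd_level M))

/-- the substitution `V_ℓ : F_M → F_N` as a ring homomorphism. -/
abbrev VN : ↥FM →+* ↥FN :=
  ((S34.H36.vSub L₁ ℓ M (ℓ * M) dvd_rfl : ↥FM →ₐ[L₁] ↥FN) : ↥FM →+* ↥FN)

theorem iotaN_algebraMap (r : A₁) :
    iotaN M (ℓ := ℓ) (algebraMap A₁ FM r) = algebraMap A₁ FN r :=
  levelMap_algebraMap_A0 M A r

theorem VN_algebraMap (r : A₁) :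
    VN M (ℓ := ℓ) (algebraMap A₁ FM r) = algebraMap A₁ FN r := by
  rw [IsScalarTower.algebraMap_apply A₁ L₁ FM, IsScalarTower.algebraMap_apply A₁ L₁ FN]
  exact (S34.H36.vSub L₁ ℓ M (ℓ * M) dvd_rfl).commutes _

/-- `j ∈ V_M`. -/
theorem hc_jK : S18.H16.jK L₁ M ∈ (gaussModelVM M hℓM A hA).O1 := (jK_mem_VM M hℓM A hA).1

theorem hcw_jK :
    (gaussModelVM M hℓM A hA).res1 ⟨S18.H16.jK L₁ M, hc_jK M hℓM A hA⟩ = S18.H16.jK kA M :=
  resMF_jK M hℓM A hA _

include hA in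
theorem hFrw_jK :
    haveI : CharP kA ℓ := S18.H92.charP_residueField A hA
    S34.H36.frobLin kA ℓ M (S18.H16.jK kA M) = S18.H16.jK kA M ^ ℓ := by
  haveI : CharP kA ℓ := S18.H92.charP_residueField A hA
  exact S34.H36.frobLin_jK kA ℓ M

/-- `j⁻¹ ∈ V_M`. -/
theorem hc_jK_inv : (S18.H16.jK L₁ M)⁻¹ ∈ (gaussModelVM M hℓM A hA).O1 :=
  (gaussModelVM M hℓM A hA).x_inv_mem (jK_kA_ne_zero M A)

theorem hcw_jK_inv :
    (gaussModelVM M hℓM A hA).res1 ⟨(S18.H16.jK L₁ M)⁻¹, hc_jK_inv M hℓM A hA⟩ =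
      (S18.H16.jK kA M)⁻¹ :=
  (gaussModelVM M hℓM A hA).res1_x_inv (jK_kA_ne_zero M A)

include hA in
theorem hFrw_jK_inv :
    haveI : CharP kA ℓ := S18.H92.charP_residueField A hA
    S34.H36.frobLin kA ℓ M (S18.H16.jK kA M)⁻¹ = (S18.H16.jK kA M)⁻¹ ^ ℓ := by
  haveI : CharP kA ℓ := S18.H92.charP_residueField A hA
  rw [map_inv₀, S34.H36.frobLin_jK kA ℓ M, inv_pow]

/-- the residues of `P∞` lie in `Fk(M)`. -/
theorem hri_infty :
    letI := algebraVMFN M hℓM A hA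
    ∀ (P : CA.H99.PlaceOver (L := ↥FN) (((ℓ : ℕ) : ↥(VM M hℓM A hA))) (S18.H16.jNK L₁ (ℓ * M))
        (resM M hℓM A hA) (resM M hℓM A hA (jMV M hℓM A hA) ^ ℓ)) (y : P.O1),
      P.res1 y ∈ ((modularFunctionFieldFullC kA M).val : ↥FkM →ₐ[kA] LaurentSeries kA).fieldRange := by
  letI := algebraVMFN M hℓM A hA
  intro P y
  have hι : ∀ a : ↥(VM M hℓM A hA), resM M hℓM A hA a ∈
      (((modularFunctionFieldFullC kA M).val : ↥FkM →ₐ[kA] LaurentSeries kA).fieldRange).toSubfield :=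
    fun a => ⟨resMF M hℓM A hA a, rfl⟩
  exact S34.H55.PlaceOver.res1_mem_of_subfield P _ hι (pow_mem (hι _) ℓ) y.1 y.2

/-- the residues of `P₀` lie in `Fk(M)`. -/
theorem hri_zero :
    letI := algebraVMFN M hℓM A hA
    ∀ (P : CA.H99.PlaceOver (L := ↥FN) (((ℓ : ℕ) : ↥(VM M hℓM A hA))) (S18.H16.jNK L₁ (ℓ * M))
        (iotaZero M hℓM A hA) (resM M hℓM A hA (jMV M hℓM A hA))) (y : P.O1),
      P.res1 y ∈ ((modularFunctionFieldFullC kA M).val : ↥FkM →ₐ[kA] LaurentSeries kA).fieldRange := by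
  letI := algebraVMFN M hℓM A hA
  haveI : CharP kA ℓ := S18.H92.charP_residueField A hA
  intro P y
  have hι : ∀ a : ↥(VM M hℓM A hA), iotaZero M hℓM A hA a ∈
      (((modularFunctionFieldFullC kA M).val : ↥FkM →ₐ[kA] LaurentSeries kA).fieldRange).toSubfield :=
    fun a => ⟨S34.H36.frobLin kA ℓ M (resMF M hℓM A hA a), rfl⟩
  have hθ : resM M hℓM A hA (jMV M hℓM A hA) ∈
      (((modularFunctionFieldFullC kA M).val : ↥FkM →ₐ[kA] LaurentSeries kA).fieldRange).toSubfield :=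
    ⟨resMF M hℓM A hA (jMV M hℓM A hA), rfl⟩
  exact S34.H55.PlaceOver.res1_mem_of_subfield P _ hι hθ y.1 y.2

include hA in
/-- `ℓ`-th roots of `Fr γ`. -/
theorem hFrpow_kA :
    haveI : CharP kA ℓ := S18.H92.charP_residueField A hA
    ∀ γ : ↥FkM, ∃ γ' : ↥FkM, γ' ^ ℓ = S34.H36.frobLin kA ℓ M γ := by
  haveI : CharP kA ℓ := S18.H92.charP_residueField A hA
  haveI : IsAlgClosed kA := H45.isAlgClosed_residueField A
  intro γ
  exact ⟨_, (S34.H36.frobLin_eq_pow_fullCMap kA ℓ M γ).symm⟩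

end Fermat.Agent.S34.H99
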