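/-
S34 / L0 FINAL (helper99): `H83.TwoComponents` between the REAL chart rings
`B = chartB A₁ J^{±1}` (level `N = ℓ M`), `BM = chartB A₁ j^{±1}` (level `M`) and
`R = integralClosure kA[j̄^{±1}] Fk(M)`, by `S34.H55.twoComponents_of_incl` applied to
helper16's two places, helper6's transport facts, helper35's `hinfF`, helper13's `hGR` and the
chart facts of `S34.H99_L0ChartInst`.
-/
import Fermat.Agent.S34.H99_L0FinalPre

set_option autoImplicit false
set_option synthInstance.maxHeartbeats 400000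
set_option maxHeartbeats 1600000
set_option linter.unusedSectionVars false
set_option linter.style.haveILetI false

noncomputable section

namespace Fermat.Agent.S34.H99

open ModularCurve Polynomial IsLocalRing Fermat.Agent.S28
open Fermat.Agent.S18 Fermat.Agent.S34.H92 Fermat.Agent.S34.H16

local notation "Qbar" => AlgebraicClosure ℚ

variable (M : ℕ) [NeZero M] {ℓ : ℕ} [hℓ : Fact ℓ.Prime] (hℓM : ¬ ℓ ∣ M)
  (A : ValuationSubring Qbar) (hA : A.LiesOverPrime ℓ)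

local notation "kA" => IsLocalRing.ResidueField A
local notation "A₁" => H45.A0 A ℓ
local notation "L₁" => H45.unrCyclo ℓ
local notation "FM" => modularFunctionFieldFullC (H45.unrCyclo ℓ) M
local notation "FN" => modularFunctionFieldFullC (H45.unrCyclo ℓ) (ℓ * M)
local notation "FkM" => modularFunctionFieldFullC (IsLocalRing.ResidueField A) M

include hA in
/-- **L0, chart `J ≠ ∞`**: the two components of the special fibre of `chartB A₁ J`. -/
theorem twoComponents_JK :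
    haveI : CharP kA ℓ := S18.H92.charP_residueField A hA
    ∃ red₁ red₂ : ↥(H40.chartB A₁ (S34.H95.JK L₁ (ℓ * M) ℓ (Dvd.intro M rfl))) →+*
        ↥(integralClosure (Algebra.adjoin kA {S18.H16.jK kA M}) FkM),
      S34.H83.TwoComponents red₁ red₂
        (S34.H55.chartMap (c := S18.H16.jK L₁ M)
          (u := S34.H95.JK L₁ (ℓ * M) ℓ (Dvd.intro M rfl))
          (iotaN M (ℓ := ℓ)) (iotaN_algebraMap M A) (hιint_JK M A))
        (S34.H55.chartMap (c := S18.H16.jK L₁ M)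
          (u := S34.H95.JK L₁ (ℓ * M) ℓ (Dvd.intro M rfl))
          (VN M (ℓ := ℓ)) (VN_algebraMap M A) (hVint_JK M A))
        (S34.H55.rbarB (c := S18.H16.jK L₁ M) (w := S18.H16.jK kA M)
          (gaussModelVM M hℓM A hA) (hc_jK M hℓM A hA) (hcw_jK M hℓM A hA))
        (S34.H55.WR (w := S18.H16.jK kA M) (S34.H36.frobLin kA ℓ M) ℓ (hFrw_jK M A hA)) ℓ
        (algebraMap A₁ ↥(H40.chartB A₁ (S34.H95.JK L₁ (ℓ * M) ℓ (Dvd.intro M rfl)))
          ((ℓ : ℕ) : A₁)) := by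
  letI := degAlgebra L₁ M (ℓ * M) (dvd_level M)
  letI := algebraVMFN M hℓM A hA
  haveI := isDiscreteValuationRing_VM M hℓM A hA
  haveI : CharP kA ℓ := S18.H92.charP_residueField A hA
  obtain ⟨D, hD⟩ := S28.H16.hasModPoly ℓ
  obtain ⟨Pi⟩ := nonempty_placeInfty M hℓM A hA D hD
  obtain ⟨P0⟩ := nonempty_placeZero M hℓM A hA D hD
  obtain ⟨hui, γi, hγi, hwi⟩ := hu_hw_JK_infty M hℓM A hA Pi
  obtain ⟨hu0, γ0, hγ0, hw0⟩ := hu_hw_JK_zero M hℓM A hA P0
  have key := S34.H55.twoComponents_of_incl (c := S18.H16.jK L₁ M)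
    (u := S34.H95.JK L₁ (ℓ * M) ℓ (Dvd.intro M rfl)) (w := S18.H16.jK kA M)
    (gaussModelVM M hℓM A hA)
    (iotaN M (ℓ := ℓ)) (VN M (ℓ := ℓ)) (iotaN_algebraMap M A) (VN_algebraMap M A)
    ((modularFunctionFieldFullC kA M).val) Pi.O1 Pi.res1 P0.O1 P0.res1
    (hri_infty M hℓM A hA Pi) (hri_zero M hℓM A hA P0)
    (hconst_infty M hℓM A hA Pi) (hconst_zero M hℓM A hA P0) Pi.hOic P0.hOic
    (S34.H36.frobLin kA ℓ M) ℓ hℓ.out.pos
    (fun y hy => S34.H6.Hiι M hℓM A hA Pi (iotaN M (ℓ := ℓ))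
      (degAlgebra_algebraMap_coe L₁ M (ℓ * M) (dvd_level M)) y hy)
    (S34.H6.HiV M hℓM A hA Pi) (S34.H6.H0V M hℓM A hA P0)
    (fun y hy => S34.H6.H0ι M hℓM A hA P0 (iotaN M (ℓ := ℓ))
      (degAlgebra_algebraMap_coe L₁ M (ℓ * M) (dvd_level M)) y hy)
    (hc_jK M hℓM A hA) (hcw_jK M hℓM A hA) (hFrw_jK M A hA) (hιint_JK M A) (hVint_JK M A)
    hui hu0 ⟨γi, hγi, hwi⟩ ⟨γ0, hγ0, hw0⟩
    (S34.H13.hGR_wrap_fin M hℓM A hA) (hFrpow_kA M A hA)
    (S34.H35.hinfF_JK M hℓM A hA Pi P0)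
  obtain ⟨red₁, red₂, -, -, h⟩ := key
  exact ⟨red₁, red₂, h⟩

end Fermat.Agent.S34.H99
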