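import Mathlib
import Fermat.Agent.CA.H99_KroneckerPlaces
import Fermat.Agent.S18.H99_F1Basics
import Fermat.Agent.S37.H59_FrobLaurent

/-!
# S34 / L0 (helper99): the two places of `F_N = fullC K (q M)` over the level-`M` Gauss ring

`K` a field (instance: `H45.unrCyclo q`), `V` a DVR valuation subring of `F_M = fullC K M` with
uniformiser `q` (instance: the level-`M` Gauss ring over `A₁ = H45.A0 A q`, cut (T)) and a
reduction `res : V →+* k((t))` (coefficientwise reduction of `q`-expansions), `k` of
characteristic `q`. Generator `θ = j_N = j(t^{qM})` over `F_M`, `f = Φ_q(j_M, Y)`.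

Inputs: Kronecker's congruence for `Φ_q` (cut (K)), the relation `Φ_q(j_M, j_N) = 0` and
`[F_N : F_M] = q + 1` (cut (R+D)).

Output: the two places `P∞` (`res∞ = res` on `V`, `j_N ↦ j̄_M^q`) and `P₀`
(`res₀ = V_q ∘ res` on `V`, `j_N ↦ j̄_M`) as `CA.H99.PlaceOver`s, so that all of `CA.H99`
(exactly two, intersection `= V[j_N]`, reducedness, CRT) applies.
-/

set_option autoImplicit false
set_option linter.unusedSectionVars false
set_option linter.style.haveILetI false
set_option synthInstance.maxHeartbeats 400000

noncomputable section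

namespace Fermat.Agent.S34.H99

open Polynomial IsLocalRing ModularCurve HahnSeries Fermat.Agent.CA.H99 Fermat.Agent.S18
open Fermat.Agent.S28

section Inst

variable (q : ℕ) [hq : Fact q.Prime] (M : ℕ) [NeZero M] [NeZero (q * M)]
variable (K : Type) [Field K]
variable (k : Type) [Field k] [CharP k q]

local notation "FM" => modularFunctionFieldFullC K M
local notation "FN" => modularFunctionFieldFullC K (q * M)

/-- the inclusion `F_M ⊆ F_N`. -/
def levelHom : FM →+* FN :=
  (IntermediateField.inclusion (full_degeneracyC_le K (Dvd.intro_left q rfl))).toRingHom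

theorem coe_levelHom (x : FM) : ((levelHom q M K x : FN) : LaurentSeries K) = (x : LaurentSeries K) :=
  IntermediateField.coe_inclusion _ x

/-- `F_N` as an `F_M`-algebra. -/
@[instance_reducible] def levelAlgebra : Algebra FM FN := (levelHom q M K).toAlgebra

/-- `j̄_M` is not a `q`-th power in `k((t))` when `q ∤ M`. -/
theorem pow_ne_jqNModC (hqM : ¬ q ∣ M) (b : LaurentSeries k) : b ^ q ≠ jqNModC k M := by
  intro h
  have h1 : (jqNModC k M).order = -(M : ℤ) := by
    rw [jqNModC, H39.order_qExpand, H39.order_jqModC, mul_neg, mul_one]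
  have hb0 : b ≠ 0 := by
    rintro rfl
    rw [zero_pow hq.out.ne_zero] at h
    have : (jqNModC k M).order = 0 := by rw [← h, HahnSeries.order_zero]
    rw [h1, neg_eq_zero] at this
    exact NeZero.ne M (by exact_mod_cast this)
  have h2 : (b ^ q).order = (q : ℤ) * b.order := by
    rw [HahnSeries.order_pow, nsmul_eq_mul]
  rw [h, h1] at h2
  apply hqM
  have : (q : ℤ) ∣ (M : ℤ) := ⟨-b.order, by rw [mul_neg, ← h2, neg_neg]⟩
  exact_mod_cast this

/-- Frobenius: `j̄_M(t)^q = j̄_M(t^q)`. -/
theorem jqNModC_pow (d : ℕ) [NeZero d] :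
    jqNModC k d ^ q = qExpand k q (jqNModC k d) := by
  rw [S37.H59.pow_char_eq_qExpand_frobenius q]
  congr 1
  rw [jqNModC, coeffMap_qExpand, coeffMap_jqModC]

end Inst

section Main

variable {q : ℕ} [hq : Fact q.Prime] {M : ℕ} [NeZero M] [NeZero (q * M)]
variable {K : Type} [Field K]
variable {k : Type} [Field k] [CharP k q]

local notation "FM" => modularFunctionFieldFullC K M
local notation "FN" => modularFunctionFieldFullC K (q * M)

variable [Algebra (modularFunctionFieldFullC K M) (modularFunctionFieldFullC K (q * M))]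

set_option maxHeartbeats 1600000 in
/-- **L0, core instance**: the two places of `F_N` over the level-`M` Gauss ring `V`. -/
theorem nonempty_places (hqM : ¬ q ∣ M)
    (V : ValuationSubring FM) [IsDiscreteValuationRing V] [Algebra V FN] [IsScalarTower V FM FN]
    (hmax : maximalIdeal V = Ideal.span {((q : ℕ) : V)})
    (res : V →+* LaurentSeries k) (hresq : res ((q : ℕ) : V) = 0)
    (hjM : H16.jNK K M ∈ V) (hresjM : res ⟨H16.jNK K M, hjM⟩ = jqNModC k M)
    (D : ModularPolynomialData q) (hdegΦ : D.Φ.natDegree = q + 1)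
    (hKr : ∀ (κ : Type) [Field κ] [CharP κ q],
      D.Φ.map (Polynomial.mapRingHom (Int.castRingHom κ)) = (X - Polynomial.C (X ^ q)) * (X ^ q - Polynomial.C X))
    (hR1 : D.Φ.eval₂ ((Polynomial.aeval (R := ℤ) (algebraMap FM FN (H16.jNK K M))).toRingHom)
      (H16.jNK K (q * M)) = 0)
    (hgen : Algebra.adjoin FM {H16.jNK K (q * M)} = ⊤)
    (hD : Module.finrank FM FN = q + 1) :
    Nonempty (PlaceOver ((q : ℕ) : V) (H16.jNK K (q * M)) res (jqNModC k M ^ q)) ∧
      Nonempty (PlaceOver ((q : ℕ) : V) (H16.jNK K (q * M)) ((qExpand k q).comp res)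
        (jqNModC k M)) := by
  set θ : FN := H16.jNK K (q * M) with hθdef
  set xV : V := ⟨H16.jNK K M, hjM⟩ with hxV
  set evV : ℤ[X] →+* V := (Polynomial.aeval (R := ℤ) xV).toRingHom with hevV
  set f : V[X] := D.Φ.map evV with hfdef
  have hf : f.Monic := D.monic.map _
  have hfdeg : f.natDegree = q + 1 := by rw [hfdef, D.monic.natDegree_map, hdegΦ]
  -- the root
  have hcompθ : (algebraMap V FN).comp evV =
      (Polynomial.aeval (R := ℤ) (algebraMap FM FN (H16.jNK K M))).toRingHom := by
    apply Polynomial.ringHom_ext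
    · intro n
      simp [hevV]
    · have h1 : algebraMap V FN xV = algebraMap FM FN (algebraMap V FM xV) :=
        IsScalarTower.algebraMap_apply V FM FN xV
      simp only [hevV, RingHom.comp_apply, AlgHom.toRingHom_eq_coe, RingHom.coe_coe, aeval_X]
      rw [h1]
      rfl
  have hθ : aeval θ f = 0 := by
    rw [aeval_def, hfdef, eval₂_map, hcompθ]
    exact hR1
  have hmin : ∀ p : V[X], aeval θ p = 0 → f ∣ p :=
    dvd_of_aeval_eq_zero_of_finrank (K := FM) hf θ hθ hgen (hD.trans hfdeg.symm)
  -- the residue field has characteristic `q`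
  have hinjL : Function.Injective (algebraMap k (LaurentSeries k)) :=
    (algebraMap k (LaurentSeries k)).injective
  haveI hcharL : CharP (LaurentSeries k) q := charP_of_injective_algebraMap hinjL q
  haveI hcharκ : CharP (ResidueField V) q :=
    (RingHom.charP_iff _ (resLift hmax res hresq).injective q).2 hcharL
  -- Kronecker
  have hcompκ : (residue V).comp evV =
      (Polynomial.evalRingHom (residue V xV)).comp
        (Polynomial.mapRingHom (Int.castRingHom (ResidueField V))) := by
    apply Polynomial.ringHom_ext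
    · intro n
      simp [hevV]
    · simp [hevV]
  have hKr' : f.map (residue V) =
      (gInf q xV).map (residue V) * (gZero q xV).map (residue V) := by
    rw [hfdef, Polynomial.map_map, hcompκ, ← Polynomial.map_map, hKr (ResidueField V), gInf_map,
      gZero_map]
    simp only [Polynomial.map_mul, Polynomial.map_sub, Polynomial.map_pow, Polynomial.map_X,
      Polynomial.map_C, Polynomial.coe_evalRingHom, Polynomial.eval_pow, Polynomial.eval_X]
  have hnp : ∀ b : LaurentSeries k, b ^ q ≠ res xV := by
    intro b
    rw [hresjM]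
    exact pow_ne_jqNModC q M k hqM b
  have hVq : qExpand k q (res xV) = res xV ^ q := by
    rw [hresjM]
    exact (jqNModC_pow q k M).symm
  constructor
  · have h1 := nonempty_placeInf (K := FM) hmax res hresq q xV hnp hf hKr' θ hθ hmin hgen
    rwa [hresjM] at h1
  · have h1 := nonempty_placeZero (K := FM) hmax res hresq q xV hnp (qExpand k q) hVq hf hKr' θ hθ
      hmin hgen
    rwa [hresjM] at h1

end Main

end Fermat.Agent.S34.H99
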